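/-
P-AT-P programme (S33), brick [DESC] (helper1): INTERFACE of the J-side ⇄ Kummer-side dictionary.
DEFINITIONS and STATEMENT-LEVEL CONTRACTS (`def … : Prop`) only.

Setting: `A` a valuation subring of `ℚ̄` over the odd prime `p`, `ζ ∈ ℚ̄` a primitive `p`-th root of
unity, `K ⊆ ℚ̄` a finite Galois extension of `ℚ` containing `ζ` (and the coefficients of whatever
functions are in play).

* `s33d_H A ζ`     : the subgroup `I_A ∩ Stab(ζ) = I_A ∩ G_{ℚ(ζ_p)}` of `Gal(ℚ̄/ℚ)`.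
* `s33d_L0 A K ζ`  : `L₀ = K ∩ ℚ̄^{H}`, the subfield of `K` fixed by `H` (= the inertia field of `K / ℚ(ζ_p)`
                     at the prime below `A`).
* `s33d_Ram`       : **[DESC-ram]** — `1 - ζ` is a uniformiser of the discrete valuation ring `A ∩ L₀`
                     (i.e. `e(A ∩ L₀ | p) = p - 1` EXACTLY), and `p = ε (1 - ζ) ^ (p - 1)` with `ε` a unit
                     of `A ∩ L₀`.
-/
import Mathlib
import Fermat.Prelude.Def_FLTPrelim_Ramification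
import Fermat.Agent.Lib.S18.QDvr

set_option autoImplicit false

noncomputable section

namespace Fermat.Agent.Lib.S33

open Fermat.Agent.Lib.S18

local notation "Qbar" => AlgebraicClosure ℚ
local notation "Γℚ" => (AlgebraicClosure ℚ ≃ₐ[ℚ] AlgebraicClosure ℚ)

/-- `H = I_A ∩ Stab(ζ)`: the elements of the inertia group of `A` fixing `ζ`. -/
def s33d_H (A : ValuationSubring Qbar) (ζ : Qbar) : Subgroup Γℚ :=
  A.inertiaSubgroupIn ℚ ⊓ MulAction.stabilizer Γℚ ζ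

theorem s33d_mem_H {A : ValuationSubring Qbar} {ζ : Qbar} {σ : Γℚ} :
    σ ∈ s33d_H A ζ ↔ σ ∈ A.inertiaSubgroupIn ℚ ∧ σ ζ = ζ := by
  rw [s33d_H, Subgroup.mem_inf, MulAction.mem_stabilizer_iff]
  rfl

/-- `L₀ = K ∩ ℚ̄^{H}`. -/
def s33d_L0 (A : ValuationSubring Qbar) (K : IntermediateField ℚ Qbar) (ζ : Qbar) :
    IntermediateField ℚ Qbar :=
  K ⊓ IntermediateField.fixedField (s33d_H A ζ)

theorem s33d_mem_L0 {A : ValuationSubring Qbar} {K : IntermediateField ℚ Qbar} {ζ a : Qbar} :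
    a ∈ s33d_L0 A K ζ ↔ a ∈ K ∧ ∀ σ ∈ s33d_H A ζ, σ a = a := by
  rw [s33d_L0, IntermediateField.mem_inf, IntermediateField.mem_fixedField_iff]

theorem s33d_L0_le (A : ValuationSubring Qbar) (K : IntermediateField ℚ Qbar) (ζ : Qbar) :
    s33d_L0 A K ζ ≤ K := inf_le_left

theorem s33d_zeta_mem_L0 {A : ValuationSubring Qbar} {K : IntermediateField ℚ Qbar} {ζ : Qbar}
    (hζ : ζ ∈ K) : ζ ∈ s33d_L0 A K ζ :=
  s33d_mem_L0.mpr ⟨hζ, fun _ hσ => (s33d_mem_H.mp hσ).2⟩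

/-- **[DESC-ram]** (contract): `1 - ζ` is a uniformiser of `A ∩ L₀`, and `p / (1 - ζ) ^ (p - 1)` is a
unit of `A ∩ L₀`. -/
def s33d_Ram : Prop :=
  ∀ (p : ℕ), p.Prime → p ≠ 2 → ∀ A : ValuationSubring Qbar, A.LiesOverPrime p →
    ∀ K : IntermediateField ℚ Qbar, FiniteDimensional ℚ K → IsGalois ℚ K →
      ∀ ζ : Qbar, IsPrimitiveRoot ζ p → ζ ∈ K →
        (∀ ϖ : ↥(s18q_A0 A (s33d_L0 A K ζ)), ((ϖ : ↥(s33d_L0 A K ζ)) : Qbar) = 1 - ζ →
          Irreducible ϖ) ∧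
        ∃ ε : ↥(s33d_L0 A K ζ), ε ∈ s18q_A0 A (s33d_L0 A K ζ) ∧ ε⁻¹ ∈ s18q_A0 A (s33d_L0 A K ζ) ∧
          (p : Qbar) = (ε : Qbar) * (1 - ζ) ^ (p - 1)

end Fermat.Agent.Lib.S33
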