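/-
P-AT-P programme (S33), brick [DESC-ram] (helper7): proof of the contract `s33d_Ram` of
`DescIface.lean`.

Setting: `A` a valuation subring of `ℚ̄` over the prime `p`, `ζ ∈ ℚ̄` a primitive `p`-th root of unity,
`K₀ ⊆ ℚ̄` a number field containing `ζ` and fixed pointwise by `H = I_A ∩ Stab(ζ)`.  Then `1 - ζ` is a
uniformiser of `A ∩ K₀` and `p = ε (1 - ζ) ^ (p - 1)` with `ε` a unit of `A ∩ K₀`.

* `s33d_ramIdx_le`   : finite-level Galois theory.  `L/ℚ` finite Galois, `K ⊆ L`, `Q` a prime of `L`;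
  if every element of the inertia group `I(Q | ℚ)` fixing `ζ` fixes `K` pointwise, then
  `e(Q ∩ K | ℚ) ≤ p - 1` (orbit-stabiliser for the action of the inertia group on `ζ`, and
  `#I = e` in towers).
* `s33d_exists_adic` : a valuation subring `B` of a number field over `p` is the valuation subring of the
  adic valuation of its centre, and that valuation takes the value `exp (-e)` at `p`.
* `s33d_cyc`         : `p = u (1 - ζ) ^ (p - 1)`, `u` a unit of `ℤ[ζ]` (any domain).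
* `s33d_ram_aux`     : assembly for a general `K₀`;  `s33d_ram : s33d_Ram`.
-/
import Mathlib
import Fermat.Agent.Lib.CFT.RamBridge
import Fermat.Agent.Lib.S36.VUnram
import Fermat.Agent.Lib.S33.DescIface

set_option autoImplicit false

namespace Fermat.Agent.Lib.S33

open NumberField IsDedekindDomain
open scoped Pointwise
open Fermat.Agent.Lib.CFT Fermat.Agent.Lib.Frey Fermat.Agent.Lib.S18 Fermat.Agent.Lib.S36

section ram

variable {K L : Type*} [Field K] [NumberField K] [Field L] [NumberField L] [Algebra K L]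
  [IsGalois ℚ L]

/-- If every element of the inertia group of `Q` in `Gal(L/ℚ)` fixing the primitive `p`-th root of
unity `ζ ∈ K` fixes `K` pointwise, then the prime of `K` below `Q` has ramification index at most
`p - 1` over `ℚ`. -/
theorem s33d_ramIdx_le (Q : Ideal (𝓞 L)) [Q.IsPrime] {p : ℕ} (hp : p.Prime) (ζ : K)
    (hζ : IsPrimitiveRoot ζ p)
    (h : ∀ τ : L ≃ₐ[ℚ] L, (∀ y : 𝓞 L, τ • y - y ∈ Q) →
      τ (algebraMap K L ζ) = algebraMap K L ζ →
      ∀ x : K, τ (algebraMap K L x) = algebraMap K L x) :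
    (Q.under (𝓞 K)).ramificationIdx (𝓞 ℚ) ≤ p - 1 := by
  have hgal : IsGalois K L := IsGalois.tower_top_of_isGalois ℚ K L
  have hlo1 : Q.LiesOver (Q.under (𝓞 ℚ)) := ⟨rfl⟩
  have hlo2 : Q.LiesOver (Q.under (𝓞 K)) := ⟨rfl⟩
  have hpr : (Q.under (𝓞 K)).IsPrime := inferInstance
  have e1 : Nat.card (Q.inertia (L ≃ₐ[ℚ] L)) = Q.ramificationIdx (𝓞 ℚ) := by
    rw [Ideal.card_inertia_eq_ramificationIdxIn (G := L ≃ₐ[ℚ] L) (Q.under (𝓞 ℚ)) Q,
      Ideal.ramificationIdxIn_eq_ramificationIdx (Q.under (𝓞 ℚ)) Q (L ≃ₐ[ℚ] L)]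
  have e2 : Nat.card (Q.inertia (L ≃ₐ[K] L)) = Q.ramificationIdx (𝓞 K) := by
    rw [Ideal.card_inertia_eq_ramificationIdxIn (G := L ≃ₐ[K] L) (Q.under (𝓞 K)) Q,
      Ideal.ramificationIdxIn_eq_ramificationIdx (Q.under (𝓞 K)) Q (L ≃ₐ[K] L)]
  -- orbit-stabiliser for the action of the inertia group on `ζ`
  set I : Subgroup (L ≃ₐ[ℚ] L) := Q.inertia (L ≃ₐ[ℚ] L) with hI
  set z : L := algebraMap K L ζ with hz
  have hzprim : IsPrimitiveRoot z p := hζ.map_of_injective (algebraMap K L).injective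
  have hfinI : Finite I := inferInstance
  have e3 : Nat.card I = Nat.card (MulAction.orbit I z) * Nat.card (MulAction.stabilizer I z) := by
    classical
    have := Fintype.ofFinite I
    have : Finite (MulAction.orbit I z) := (Set.finite_range _).to_subtype
    have := Fintype.ofFinite (MulAction.orbit I z)
    have := Fintype.ofFinite (MulAction.stabilizer I z)
    rw [Nat.card_eq_fintype_card, Nat.card_eq_fintype_card, Nat.card_eq_fintype_card]
    exact (MulAction.card_orbit_mul_card_stabilizer_eq_card_group I z).symm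
  -- the orbit consists of primitive `p`-th roots of unity
  have e4 : Nat.card (MulAction.orbit I z) ≤ p - 1 := by
    have hsub : MulAction.orbit I z ⊆ ((primitiveRoots p L : Finset L) : Set L) := by
      rintro _ ⟨g, rfl⟩
      rw [Finset.mem_coe, mem_primitiveRoots hp.pos]
      exact hzprim.map_of_injective (g : L ≃ₐ[ℚ] L).injective
    calc Nat.card (MulAction.orbit I z) ≤ Nat.card ((primitiveRoots p L : Finset L) : Set L) :=
          Nat.card_mono (Finset.finite_toSet _) hsub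
      _ = p - 1 := by
          rw [Nat.card_coe_set_eq, Set.ncard_coe_finset, hzprim.card_primitiveRoots,
            Nat.totient_prime hp]
  -- the stabiliser injects into the inertia group over `K`
  have e5 : Nat.card (MulAction.stabilizer I z) ≤ Nat.card (Q.inertia (L ≃ₐ[K] L)) := by
    have hτ : ∀ τ : MulAction.stabilizer I z, ∀ x : K,
        ((τ : I) : L ≃ₐ[ℚ] L) (algebraMap K L x) = algebraMap K L x := by
      intro τ
      refine h ((τ : I) : L ≃ₐ[ℚ] L) (fun y => AddSubgroup.mem_inertia.mp (τ : I).2 y) ?_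
      exact MulAction.mem_stabilizer_iff.mp τ.2
    refine Nat.card_le_card_of_injective
      (fun τ => ⟨{ (((τ : I) : L ≃ₐ[ℚ] L)) with commutes' := hτ τ }, ?_⟩) ?_
    · rw [AddSubgroup.mem_inertia]
      intro x
      exact AddSubgroup.mem_inertia.mp (τ : I).2 x
    · intro τ τ' hττ'
      have h1 := congrArg Subtype.val hττ'
      apply Subtype.ext
      apply Subtype.ext
      ext x
      exact DFunLike.congr_fun h1 x
  have e6 := Ideal.ramificationIdx_tower (R := 𝓞 ℚ) (S := 𝓞 K) (T := 𝓞 L) (Q.under (𝓞 K)) Q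
  have e7 : 0 < Q.ramificationIdx (𝓞 K) := Ideal.ramificationIdx_pos Q (𝓞 K)
  rw [← e1, e3, ← e2] at e6
  rw [← e2] at e7
  have e8 : (Q.under (𝓞 K)).ramificationIdx (𝓞 ℚ) * Nat.card (Q.inertia (L ≃ₐ[K] L))
      ≤ (p - 1) * Nat.card (Q.inertia (L ≃ₐ[K] L)) := by
    rw [← e6]
    exact Nat.mul_le_mul e4 e5
  exact Nat.le_of_mul_le_mul_right e8 e7

end ram

section val

variable {K : Type*} [Field K] [NumberField K] (B : ValuationSubring K)

/-- The valuation subring `B` of the number field `K` over the prime `p` is the valuation subring of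
the adic valuation of its centre, and the adic valuation of `p` is `exp (-e)`, `e` the ramification
index of the centre. -/
theorem s33d_exists_adic {p : ℕ} (hp : p.Prime) (hB : (p : K) ∈ B.nonunits) :
    ∃ v : HeightOneSpectrum (𝓞 K), v.asIdeal = cfg_center B ∧
      (v.valuation K).valuationSubring = B ∧
      v.valuation K (p : K)
        = WithZero.exp (-(((cfg_center B).ramificationIdx (𝓞 ℚ) : ℕ) : ℤ)) := by
  have hprime : (cfg_center B).IsPrime := cfg_center_isPrime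
  have hpK : ((p : ℕ) : 𝓞 K) ≠ 0 := Nat.cast_ne_zero.mpr hp.ne_zero
  have hne : cfg_center B ≠ ⊥ := by
    intro h
    have h1 : ((p : ℕ) : 𝓞 K) ∈ cfg_center B := cfg_natCast_mem_center hB
    rw [h, Ideal.mem_bot] at h1
    exact hpK h1
  let v : HeightOneSpectrum (𝓞 K) := ⟨cfg_center B, hprime, hne⟩
  have hv : v.asIdeal = cfg_center B := rfl
  -- the valuation subring
  have hcen : cfg_center (v.valuation K).valuationSubring = cfg_center B := by
    ext b
    rw [cfg_mem_center_iff, ValuationSubring.mem_nonunits_iff,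
      ← (Valuation.isEquiv_valuation_valuationSubring (v.valuation K)).lt_one_iff_lt_one,
      HeightOneSpectrum.valuation_lt_one_iff_mem]
  have hBeq : B = (v.valuation K).valuationSubring := cfg_eq_of_center_eq hp hB hcen
  refine ⟨v, hv, hBeq.symm, ?_⟩
  -- the prime below
  set 𝔭 : Ideal (𝓞 ℚ) := (cfg_center B).under (𝓞 ℚ) with h𝔭
  have h𝔭prime : 𝔭.IsPrime := inferInstance
  have hpQ : ((p : ℕ) : 𝓞 ℚ) ≠ 0 := Nat.cast_ne_zero.mpr hp.ne_zero
  have hp𝔭 : ((p : ℕ) : 𝓞 ℚ) ∈ 𝔭 := by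
    rw [h𝔭, Ideal.under_def, Ideal.mem_comap, map_natCast]
    exact cfg_natCast_mem_center hB
  have h𝔭eq : 𝔭 = Ideal.span {((p : ℕ) : 𝓞 ℚ)} := by
    refine le_antisymm ?_ ((Ideal.span_singleton_le_iff_mem _).mpr hp𝔭)
    intro x hx
    obtain ⟨m, rfl⟩ := Rat.ringOfIntegersEquiv.symm.surjective x
    have hm : Rat.ringOfIntegersEquiv.symm m = (m : 𝓞 ℚ) := by simp
    rw [hm] at hx ⊢
    have hx' : algebraMap (𝓞 K) K (algebraMap (𝓞 ℚ) (𝓞 K) (m : 𝓞 ℚ)) ∈ B.nonunits := hx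
    rw [map_intCast, map_intCast] at hx'
    have hdvd : (p : ℤ) ∣ m := by
      by_contra hnd
      have h1 := ford_val_intCast_of_not_dvd hp hB hnd
      have h2 := B.mem_nonunits_iff.mp hx'
      rw [h1] at h2
      exact lt_irrefl _ h2
    obtain ⟨d, rfl⟩ := hdvd
    rw [Ideal.mem_span_singleton]
    exact ⟨(d : 𝓞 ℚ), by push_cast; ring⟩
  have h𝔭ne : 𝔭 ≠ ⊥ := by
    intro h
    rw [h, Ideal.mem_bot] at hp𝔭
    exact hpQ hp𝔭
  let vp : HeightOneSpectrum (𝓞 ℚ) := ⟨𝔭, h𝔭prime, h𝔭ne⟩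
  have hlo : v.asIdeal.LiesOver vp.asIdeal := ⟨rfl⟩
  have h1 := HeightOneSpectrum.intValuation_liesOver vp v ((p : ℕ) : 𝓞 ℚ)
  have h2 : vp.intValuation ((p : ℕ) : 𝓞 ℚ) = WithZero.exp (-1 : ℤ) :=
    HeightOneSpectrum.intValuation_singleton vp hpQ h𝔭eq
  have h3 : vp.asIdeal.ramificationIdx' v.asIdeal = (cfg_center B).ramificationIdx (𝓞 ℚ) :=
    Ideal.ramificationIdx'_eq_ramificationIdx 𝔭 (cfg_center B) h𝔭ne
  rw [h2, h3, map_natCast] at h1
  have h4 : v.valuation K ((p : ℕ) : K) = v.intValuation ((p : ℕ) : 𝓞 K) := by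
    have h5 := v.valuation_of_algebraMap (K := K) ((p : ℕ) : 𝓞 K)
    rwa [algebraMap.coe_natCast] at h5
  rw [h4, ← h1, ← WithZero.exp_nsmul]
  congr 1
  simp

end val

open Finset in
/-- `p = u (1 - ζ) ^ (p - 1)` with `u` a unit, in any domain containing a primitive `p`-th root of
unity `ζ`. -/
theorem s33d_cyc {R : Type*} [CommRing R] [IsDomain R] {p : ℕ} (hp : p.Prime) {ζ : R}
    (hζ : IsPrimitiveRoot ζ p) : ∃ u : Rˣ, (p : R) = u * (1 - ζ) ^ (p - 1) := by
  obtain ⟨n, rfl⟩ : ∃ n, p = n + 1 := ⟨p - 1, (Nat.succ_pred_eq_of_pos hp.pos).symm⟩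
  have h1 := hζ.prod_one_sub_pow_eq_order
  have h2 : ∀ k ∈ range n, IsUnit (∑ i ∈ range (k + 1), ζ ^ i) := by
    intro k hk
    refine hζ.geom_sum_isUnit hp.two_le ?_
    refine Nat.Coprime.symm ((Nat.Prime.coprime_iff_not_dvd hp).mpr ?_)
    exact Nat.not_dvd_of_pos_of_lt (Nat.succ_pos k) (by have := mem_range.mp hk; omega)
  have h3 : IsUnit (∏ k ∈ range n, ∑ i ∈ range (k + 1), ζ ^ i) := by
    rw [IsUnit.prod_iff]
    exact h2
  obtain ⟨u, hu⟩ := h3
  refine ⟨u, ?_⟩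
  rw [hu, Nat.add_sub_cancel]
  have h4 : ∏ k ∈ range n, (1 - ζ ^ (k + 1))
      = (∏ k ∈ range n, ∑ i ∈ range (k + 1), ζ ^ i) * (1 - ζ) ^ n := by
    rw [← Finset.card_range n, ← Finset.prod_const, Finset.card_range, ← Finset.prod_mul_distrib]
    refine Finset.prod_congr rfl fun k _ => ?_
    rw [mul_comm, mul_neg_geom_sum]
  rw [← h4, h1]
  push_cast
  rfl

section main

local notation "Ω" => AlgebraicClosure ℚ

/-- Membership of the nonunits of the valuation subring of a valuation. -/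
theorem s33d_mem_nonunits_iff {F Γ : Type*} [Field F] [LinearOrderedCommGroupWithZero Γ]
    (w : Valuation F Γ) (x : F) : x ∈ w.valuationSubring.nonunits ↔ w x < 1 := by
  rw [ValuationSubring.mem_nonunits_iff,
    ← (Valuation.isEquiv_valuation_valuationSubring w).lt_one_iff_lt_one]

/-- **[DESC-ram]**, general form: `K₀ ⊆ ℚ̄` a number field containing `ζ` and fixed pointwise by
`H = I_A ∩ Stab(ζ)`. -/
theorem s33d_ram_aux {p : ℕ} (hp : p.Prime) (A : ValuationSubring Ω) (hA : A.LiesOverPrime p)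
    (K₀ : IntermediateField ℚ Ω) [FiniteDimensional ℚ ↥K₀] (ζ : Ω) (hζ : IsPrimitiveRoot ζ p)
    (hζK₀ : ζ ∈ K₀) (hfix : ∀ σ ∈ s33d_H A ζ, ∀ a ∈ K₀, σ a = a) :
    (∀ ϖ : ↥(s18q_A0 A K₀), ((ϖ : ↥K₀) : Ω) = 1 - ζ → Irreducible ϖ) ∧
      ∃ ε : ↥K₀, ε ∈ s18q_A0 A K₀ ∧ ε⁻¹ ∈ s18q_A0 A K₀ ∧
        (p : Ω) = (ε : Ω) * (1 - ζ) ^ (p - 1) := by
  have hgalΩ : IsGalois ℚ Ω := cfg_isGalois_QBar
  have hnf : NumberField ↥K₀ := ⟨⟩
  -- the normal closure
  let L : IntermediateField ℚ Ω := IntermediateField.normalClosure ℚ ↥K₀ Ω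
  have hLfin : FiniteDimensional ℚ ↥L := inferInstance
  have hLnf : NumberField ↥L := ⟨⟩
  have hnormΩ : Normal ℚ Ω := hgalΩ.to_normal
  have hLnorm : Normal ℚ ↥L := normalClosure.normal ℚ ↥K₀ Ω
  have hLgal : IsGalois ℚ ↥L := ⟨⟩
  have hAp : (p : Ω) ∈ A.nonunits := hA
  have hQmax : (cfg_center A).IsMaximal := cfg_center_isMaximal hp hAp
  have hlo : (cfg_center A).LiesOver ((cfg_center A).under (𝓞 ↥L)) := ⟨rfl⟩
  set A₀ : ValuationSubring ↥K₀ := s18q_A0 A K₀ with hA₀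
  have hA₀mem : ∀ x : ↥K₀, x ∈ A₀ ↔ (x : Ω) ∈ A := fun x => Iff.rfl
  have hA₀non : ∀ x : ↥K₀, x ∈ A₀.nonunits ↔ (x : Ω) ∈ A.nonunits := fun x =>
    s36v_mem_nonunits_comap (algebraMap ↥K₀ Ω) A x
  have hA₀p : ((p : ℕ) : ↥K₀) ∈ A₀.nonunits := by
    rw [hA₀non]
    exact hAp
  have hcen : cfg_center A₀ = ((cfg_center A).under (𝓞 ↥L)).under (𝓞 ↥K₀) := by
    ext b
    rw [cfg_mem_center_iff, hA₀non, Ideal.under_def, Ideal.mem_comap,
      Ideal.under_def, Ideal.mem_comap, cfg_mem_center_iff]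
    rfl
  -- the primitive root in `K₀`
  let ζK : ↥K₀ := ⟨ζ, hζK₀⟩
  have hζK : IsPrimitiveRoot ζK p :=
    IsPrimitiveRoot.of_map_of_injective (f := algebraMap ↥K₀ Ω) hζ (algebraMap ↥K₀ Ω).injective
  -- ramification index at most `p - 1`
  have hram : (cfg_center A₀).ramificationIdx (𝓞 ℚ) ≤ p - 1 := by
    rw [hcen]
    refine s33d_ramIdx_le (K := ↥K₀) (L := ↥L) ((cfg_center A).under (𝓞 ↥L)) hp ζK hζK ?_
    intro τ hτ hτζ x
    obtain ⟨σ, hσ, -, hσI⟩ := cfg_exists_lifts_inertia ((cfg_center A).under (𝓞 ↥L))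
      (cfg_center A) τ hτ
    have hσin : σ ∈ A.inertiaSubgroupIn ℚ := by
      refine cfg_mem_inertiaSubgroupIn_of_integral hp hAp σ ?_
      intro b hb
      obtain ⟨b', rfl⟩ : ∃ b' : 𝓞 Ω, algebraMap (𝓞 Ω) Ω b' = b :=
        (IsIntegralClosure.isIntegral_iff (A := 𝓞 Ω)).mp hb
      exact hσI b'
    have hσζ : σ ζ = ζ := by
      have h2 := hσ (algebraMap ↥K₀ ↥L ζK)
      rw [hτζ] at h2
      exact h2
    have h1 := hfix σ (s33d_mem_H.mpr ⟨hσin, hσζ⟩) (x : Ω) x.2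
    have h2 := hσ (algebraMap ↥K₀ ↥L x)
    apply (algebraMap ↥L Ω).injective
    rw [← h2]
    exact h1
  -- the adic valuation
  obtain ⟨v, -, hvA₀, hvp⟩ := s33d_exists_adic A₀ hp hA₀p
  set w := v.valuation ↥K₀ with hw
  have hw_le : ∀ x : ↥K₀, x ∈ A₀ ↔ w x ≤ 1 := by
    intro x
    rw [← hvA₀]
    exact Valuation.mem_valuationSubring_iff _ _
  have hw_lt : ∀ x : ↥K₀, x ∈ A₀.nonunits ↔ w x < 1 := by
    intro x
    rw [← hvA₀]
    exact s33d_mem_nonunits_iff _ _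
  -- the primitive root in `A₀`
  have hζint : IsIntegral ℤ ζ := hζ.isIntegral hp.pos
  have hζA₀ : ζK ∈ A₀ := (hA₀mem ζK).mpr (s18q_mem_of_isIntegral_int A hζint)
  let ζ₀ : ↥A₀ := ⟨ζK, hζA₀⟩
  have hζ₀ : IsPrimitiveRoot ζ₀ p :=
    IsPrimitiveRoot.of_map_of_injective (f := A₀.subtype) hζK A₀.subtype_injective
  obtain ⟨u, hu⟩ := s33d_cyc hp hζ₀
  -- units of `A₀` have valuation one
  have hw_unit : ∀ u' : (↥A₀)ˣ, w ((u' : ↥A₀) : ↥K₀) = 1 := by
    intro u'
    have h1 : w ((u' : ↥A₀) : ↥K₀) ≤ 1 := (hw_le _).mp (u' : ↥A₀).2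
    have h2 : w (((u'⁻¹ : (↥A₀)ˣ) : ↥A₀) : ↥K₀) ≤ 1 := (hw_le _).mp ((u'⁻¹ : (↥A₀)ˣ) : ↥A₀).2
    have h3 : ((u' : ↥A₀) : ↥K₀) * (((u'⁻¹ : (↥A₀)ˣ) : ↥A₀) : ↥K₀) = 1 := by
      have h := congrArg A₀.subtype (Units.mul_inv u')
      rwa [map_mul, map_one] at h
    have h4 : w ((u' : ↥A₀) : ↥K₀) * w (((u'⁻¹ : (↥A₀)ˣ) : ↥A₀) : ↥K₀) = 1 := by
      rw [← map_mul, h3, map_one]
    by_contra hne
    have h5 : w ((u' : ↥A₀) : ↥K₀) < 1 := lt_of_le_of_ne h1 hne
    have h6 : w ((u' : ↥A₀) : ↥K₀) * w (((u'⁻¹ : (↥A₀)ˣ) : ↥A₀) : ↥K₀) < 1 :=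
      mul_lt_one_of_nonneg_of_lt_one_left zero_le h5 h2
    rw [h4] at h6
    exact lt_irrefl _ h6
  have hwu : w ((u : ↥A₀) : ↥K₀) = 1 := hw_unit u
  have huinv : ((u : ↥A₀) : ↥K₀)⁻¹ = (((u⁻¹ : (↥A₀)ˣ) : ↥A₀) : ↥K₀) := by
    apply inv_eq_of_mul_eq_one_right
    have h := congrArg A₀.subtype (Units.mul_inv u)
    rwa [map_mul, map_one] at h
  -- the equation in `K₀`
  have huK : ((p : ℕ) : ↥K₀) = ((u : ↥A₀) : ↥K₀) * (1 - ζK) ^ (p - 1) := by
    have h := congrArg A₀.subtype hu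
    rwa [map_natCast, map_mul, map_pow, map_sub, map_one] at h
  -- the valuation of `1 - ζ`
  have hζK1 : ζK ≠ 1 := hζK.ne_one hp.one_lt
  have h1ζ : (1 - ζK : ↥K₀) ≠ 0 := sub_ne_zero.mpr (Ne.symm hζK1)
  set t := w (1 - ζK) with ht
  have ht0 : t ≠ 0 := (map_ne_zero w).mpr h1ζ
  have hwp : w ((p : ℕ) : ↥K₀) = t ^ (p - 1) := by
    rw [huK, map_mul, hwu, one_mul, map_pow]
  have hwp_lt : w ((p : ℕ) : ↥K₀) < 1 := (hw_lt _).mp hA₀p
  have ht_le : t ≤ 1 := (hw_le _).mp (1 - ζ₀ : ↥A₀).2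
  have ht_lt : t < 1 := by
    by_contra hcon
    have h1 : t = 1 := le_antisymm ht_le (not_lt.mp hcon)
    rw [hwp, h1, one_pow] at hwp_lt
    exact lt_irrefl _ hwp_lt
  have hlog_neg : WithZero.log t < 0 := by
    rw [WithZero.log_lt_iff_lt_exp ht0, WithZero.exp_zero]
    exact ht_lt
  have hlog_eq : ((p - 1 : ℕ) : ℤ) * WithZero.log t
      = -(((cfg_center A₀).ramificationIdx (𝓞 ℚ) : ℕ) : ℤ) := by
    have h := hvp
    rw [hwp] at h
    have h2 := congrArg WithZero.log h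
    rwa [WithZero.log_pow, WithZero.log_exp, nsmul_eq_mul] at h2
  have hlog : WithZero.log t = -1 := by
    have hp1 : (1 : ℤ) ≤ ((p - 1 : ℕ) : ℤ) := by
      have := hp.two_le
      omega
    have he : (((cfg_center A₀).ramificationIdx (𝓞 ℚ) : ℕ) : ℤ) ≤ ((p - 1 : ℕ) : ℤ) := by
      exact_mod_cast hram
    by_contra hcon
    have hL2 : WithZero.log t ≤ -2 := by omega
    have h3 : ((p - 1 : ℕ) : ℤ) * WithZero.log t ≤ ((p - 1 : ℕ) : ℤ) * (-2) :=
      mul_le_mul_of_nonneg_left hL2 (by omega)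
    omega
  have ht_eq : t = WithZero.exp (-1 : ℤ) := by
    rw [← hlog, WithZero.exp_log ht0]
  refine ⟨?_, ?_⟩
  · intro ϖ hϖ
    have hϖK : (ϖ : ↥K₀) = 1 - ζK := by
      apply Subtype.ext
      rw [hϖ]
      rfl
    have hwϖ : w (ϖ : ↥K₀) = WithZero.exp (-1 : ℤ) := by
      rw [hϖK]
      exact ht_eq
    have hnonunit : ∀ a : ↥A₀, ¬ IsUnit a → w (a : ↥K₀) < 1 := by
      intro a ha
      rw [← hw_lt, ValuationSubring.coe_mem_nonunits_iff, IsLocalRing.mem_maximalIdeal,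
        mem_nonunits_iff]
      exact ha
    rw [irreducible_iff]
    refine ⟨?_, ?_⟩
    · rintro ⟨u', hu'⟩
      have h1 := hw_unit u'
      rw [hu', hwϖ, ← WithZero.exp_zero, WithZero.exp_inj] at h1
      omega
    · intro a b hab
      by_contra hcon
      rw [not_or] at hcon
      have ha := hnonunit a hcon.1
      have hb := hnonunit b hcon.2
      have hab' : w (a : ↥K₀) * w (b : ↥K₀) = WithZero.exp (-1 : ℤ) := by
        rw [← map_mul, ← hwϖ, hab]
        rfl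
      have ha0 : w (a : ↥K₀) ≠ 0 := by
        intro h0
        rw [h0, zero_mul] at hab'
        exact WithZero.exp_ne_zero hab'.symm
      have hb0 : w (b : ↥K₀) ≠ 0 := by
        intro h0
        rw [h0, mul_zero] at hab'
        exact WithZero.exp_ne_zero hab'.symm
      have hla : WithZero.log (w (a : ↥K₀)) < 0 := by
        rw [WithZero.log_lt_iff_lt_exp ha0, WithZero.exp_zero]
        exact ha
      have hlb : WithZero.log (w (b : ↥K₀)) < 0 := by
        rw [WithZero.log_lt_iff_lt_exp hb0, WithZero.exp_zero]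
        exact hb
      have hlab := congrArg WithZero.log hab'
      rw [WithZero.log_mul ha0 hb0, WithZero.log_exp] at hlab
      omega
  · refine ⟨((u : ↥A₀) : ↥K₀), (u : ↥A₀).2, ?_, ?_⟩
    · rw [huinv]
      exact ((u⁻¹ : (↥A₀)ˣ) : ↥A₀).2
    · have h := congrArg (algebraMap ↥K₀ Ω) huK
      rw [map_natCast, map_mul, map_pow, map_sub, map_one] at h
      exact h

/-- **[DESC-ram]**: the contract `s33d_Ram` of `DescIface.lean` (the hypotheses `p ≠ 2`, `K` Galois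
are not needed). -/
theorem s33d_ram : s33d_Ram := by
  intro p hp _ A hA K hKfin _ ζ hζ hζK
  have hle := s33d_L0_le A K ζ
  have hfin : FiniteDimensional ℚ ↥(s33d_L0 A K ζ) :=
    Module.Finite.of_injective (IntermediateField.inclusion hle).toLinearMap
      (IntermediateField.inclusion_injective hle)
  exact s33d_ram_aux hp A hA (s33d_L0 A K ζ) ζ hζ (s33d_zeta_mem_L0 hζK)
    (fun σ hσ a ha => (s33d_mem_L0.mp ha).2 σ hσ)

end main

end Fermat.Agent.Lib.S33
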