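/-
P-AT-P programme (S33), brick [DESC] (helper1), part 6: the GENERIC J-side ⇄ Kummer-side dictionary.

`s33d_IsKumGen m z f` : `f ≠ 0` is a KUMMER GENERATOR of the class `z ∈ Pic⁰(F)`: some representative
`D` of `z` satisfies `div f = m • D`.

* `s33d_exists_kumGen`   : `m • z = 0 ⇒` a Kummer generator exists;
* `s33d_kumGen_mul`      : `c · w ^ m · f` is again a Kummer generator of `z`;
* `s33d_kumGen_unique`   : two Kummer generators of `z` differ by `c · w ^ m` (needs: functions without zeros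
                           and poles are constants);
* `s33d_kumGen_zero_iff` : `z = 0 ⇔ f = c · w ^ m`;
* `s33d_kumGen_smul`     : `g • f` is a Kummer generator of `g • z` (`g` a semilinear automorphism);
* `s33d_kumGen_fixed`    : `g • z = z ⇒ g • f = c · w ^ m · f`.
-/
import Mathlib
import Fermat.Prelude.Def_AlgebraicCurve_BaseChangeGalois
import Fermat.Agent.Lib.FF.FFBasicPlace

set_option autoImplicit false

noncomputable section

namespace Fermat.Agent.Lib.S33

open AlgebraicCurve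

variable {K F : Type*} [Field K] [Field F] [Algebra K F]

/-- `f` is a Kummer generator of the class `z` (of exponent `m`). -/
def s33d_IsKumGen (m : ℕ) (z : Pic0 K F) (f : F) : Prop :=
  f ≠ 0 ∧ ∃ D : Divisor.degZero (K := K) (F := F), Pic0.mk D = z ∧
    ∀ v : Place K F, v.ord f = (m : ℤ) * (D : Divisor K F) v

/-- functions without zeros and poles are constants. -/
def s33d_ConstOfOrdZero (K F : Type*) [Field K] [Field F] [Algebra K F] : Prop :=
  ∀ g : F, g ≠ 0 → (∀ v : Place K F, v.ord g = 0) → ∃ c : K, g = algebraMap K F c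

theorem s33d_ord_pow (v : Place K F) (f : F) (n : ℕ) : v.ord (f ^ n) = n * v.ord f := by
  rw [← zpow_natCast, v.ord_zpow]

theorem s33d_ord_algebraMap (v : Place K F) {c : K} (_hc : c ≠ 0) :
    v.ord (algebraMap K F c) = 0 := Fermat.Agent.Lib.FF.ff_ord_algebraMap v c

theorem s33d_mk_eq_mk_iff (D E : Divisor.degZero (K := K) (F := F)) :
    Pic0.mk D = Pic0.mk E ↔
      Divisor.IsPrincipal ((E : Divisor K F) - (D : Divisor K F)) := by
  show (QuotientAddGroup.mk D : Pic0 K F) = QuotientAddGroup.mk E ↔ _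
  rw [QuotientAddGroup.eq, AddSubgroup.mem_addSubgroupOf, Divisor.mem_principal]
  have : ((-D + E : Divisor.degZero (K := K) (F := F)) : Divisor K F) =
      (E : Divisor K F) - (D : Divisor K F) := by
    rw [AddSubgroup.coe_add, AddSubgroup.coe_neg]
    abel
  rw [this]

theorem s33d_exists_kumGen (m : ℕ) (z : Pic0 K F) (hz : m • z = 0) :
    ∃ f : F, s33d_IsKumGen m z f := by
  obtain ⟨D, rfl⟩ := Pic0.mk_surjective z
  have h1 : ((m • D : Divisor.degZero (K := K) (F := F)) : Divisor K F) ∈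
      Divisor.principal (K := K) (F := F) := by
    have h2 : Pic0.mk (m • D) = 0 := by
      rw [← hz]
      exact map_nsmul (QuotientAddGroup.mk' _) m D
    exact (QuotientAddGroup.eq_zero_iff (m • D)).mp h2
  obtain ⟨f, hf, hfD⟩ := h1
  refine ⟨f, hf, D, rfl, fun v => ?_⟩
  rw [← hfD v, AddSubgroupClass.coe_nsmul, Finsupp.smul_apply, nsmul_eq_mul]

theorem s33d_kumGen_mul [HasPrincipalDivisors K F] {m : ℕ} {z : Pic0 K F} {f : F}
    (hf : s33d_IsKumGen m z f) {c : K} (hc : c ≠ 0) {w : F} (hw : w ≠ 0) :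
    s33d_IsKumGen m z (algebraMap K F c * w ^ m * f) := by
  obtain ⟨hf0, D, rfl, hD⟩ := hf
  have hc' : algebraMap K F c ≠ 0 := by rwa [Ne, map_eq_zero]
  obtain ⟨E, hE, hE0⟩ := HasPrincipalDivisors.exists_divisor (K := K) w hw
  refine ⟨mul_ne_zero (mul_ne_zero hc' (pow_ne_zero m hw)) hf0,
    D + ⟨E, hE0⟩, ?_, fun v => ?_⟩
  · rw [eq_comm, s33d_mk_eq_mk_iff]
    refine ⟨w, hw, fun v => ?_⟩
    rw [AddSubgroup.coe_add, add_sub_cancel_left]
    exact hE v
  · rw [v.ord_mul (mul_ne_zero hc' (pow_ne_zero m hw)) hf0, v.ord_mul hc' (pow_ne_zero m hw),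
      s33d_ord_algebraMap v hc, s33d_ord_pow, hD v, AddSubgroup.coe_add, Finsupp.add_apply,
      ← hE v]
    show _ = (m : ℤ) * ((D : Divisor K F) v + E v)
    ring

theorem s33d_kumGen_unique (hconst : s33d_ConstOfOrdZero K F) {m : ℕ} {z : Pic0 K F} {f f' : F}
    (hf : s33d_IsKumGen m z f) (hf' : s33d_IsKumGen m z f') :
    ∃ (c : K) (w : F), c ≠ 0 ∧ w ≠ 0 ∧ f' = algebraMap K F c * w ^ m * f := by
  obtain ⟨hf0, D, rfl, hD⟩ := hf
  obtain ⟨hf'0, D', hDD', hD'⟩ := hf'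
  rw [s33d_mk_eq_mk_iff] at hDD'
  obtain ⟨w, hw, hwD⟩ := hDD'
  -- `D - D' = div w`, so `f / (w ^ m * f')` has no zeros and poles
  have hden : w ^ m * f' ≠ 0 := mul_ne_zero (pow_ne_zero m hw) hf'0
  have hg0 : f / (w ^ m * f') ≠ 0 := div_ne_zero hf0 hden
  obtain ⟨c, hc⟩ := hconst (f / (w ^ m * f')) hg0 (fun v => by
    rw [div_eq_mul_inv, v.ord_mul hf0 (inv_ne_zero hden), v.ord_inv,
      v.ord_mul (pow_ne_zero m hw) hf'0, s33d_ord_pow, hD v, hD' v, ← hwD v, Finsupp.sub_apply]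
    ring)
  have hc0 : c ≠ 0 := by
    rintro rfl
    rw [map_zero] at hc
    exact hg0 hc
  have hc' : algebraMap K F c ≠ 0 := by rwa [Ne, map_eq_zero]
  refine ⟨c⁻¹, w⁻¹, inv_ne_zero hc0, inv_ne_zero hw, ?_⟩
  rw [div_eq_iff hden] at hc
  rw [hc, map_inv₀, inv_pow]
  have := pow_ne_zero m hw
  field_simp

theorem s33d_kumGen_zero_iff (hconst : s33d_ConstOfOrdZero K F) {m : ℕ} (hm : m ≠ 0)
    {z : Pic0 K F} {f : F} (hf : s33d_IsKumGen m z f) :
    z = 0 ↔ ∃ (c : K) (w : F), c ≠ 0 ∧ w ≠ 0 ∧ f = algebraMap K F c * w ^ m := by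
  constructor
  · rintro rfl
    have h1 : s33d_IsKumGen m (0 : Pic0 K F) (1 : F) :=
      ⟨one_ne_zero, 0, rfl, fun v => by simp⟩
    obtain ⟨c, w, hc, hw, h⟩ := s33d_kumGen_unique hconst h1 hf
    exact ⟨c, w, hc, hw, by rw [h, mul_one]⟩
  · rintro ⟨c, w, hc, hw, rfl⟩
    obtain ⟨-, D, rfl, hD⟩ := hf
    have hc' : algebraMap K F c ≠ 0 := by rwa [Ne, map_eq_zero]
    show Pic0.mk D = Pic0.mk 0
    rw [eq_comm, s33d_mk_eq_mk_iff]
    refine ⟨w, hw, fun v => ?_⟩
    have h1 := hD v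
    rw [v.ord_mul hc' (pow_ne_zero m hw), s33d_ord_algebraMap v hc, s33d_ord_pow, zero_add] at h1
    have hm' : (m : ℤ) ≠ 0 := by exact_mod_cast hm
    rw [AddSubgroup.coe_zero, sub_zero]
    exact (mul_left_cancel₀ hm' h1).symm

theorem s33d_smul_ne_zero (g : SemilinearAut K F) {f : F} (hf : f ≠ 0) : g • f ≠ 0 := by
  intro h
  apply hf
  have := congrArg (g⁻¹ • ·) h
  simpa using this

theorem s33d_kumGen_smul (g : SemilinearAut K F) {m : ℕ} {z : Pic0 K F} {f : F}
    (hf : s33d_IsKumGen m z f) : s33d_IsKumGen m (g • z) (g • f) := by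
  obtain ⟨hf0, D, rfl, hD⟩ := hf
  refine ⟨s33d_smul_ne_zero g hf0, SemilinearAut.degZeroSMulHom g D,
    (SemilinearAut.pic0_smul_mk g D).symm, fun v => ?_⟩
  have h := SemilinearAut.ord_smul g (g⁻¹ • v) f
  rw [smul_inv_smul] at h
  rw [h, hD, SemilinearAut.coe_degZeroSMulHom, SemilinearAut.divisor_smul_apply]

theorem s33d_kumGen_fixed (hconst : s33d_ConstOfOrdZero K F) (g : SemilinearAut K F) {m : ℕ}
    {z : Pic0 K F} {f : F} (hf : s33d_IsKumGen m z f) (hgz : g • z = z) :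
    ∃ (c : K) (w : F), c ≠ 0 ∧ w ≠ 0 ∧ g • f = algebraMap K F c * w ^ m * f := by
  have h1 := s33d_kumGen_smul g hf
  rw [hgz] at h1
  exact s33d_kumGen_unique hconst hf h1

end Fermat.Agent.Lib.S33
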