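/-
S33 (programme P-AT-P), risk (R1) (`p = 3`, odd `N / 3`), helper2, part 1: **THE KUMMER BOUND.**

`E / F` a field extension of PRIME degree `p`, `ζ ∈ F` a primitive `p`-th root of unity.  If
`h₁, h₂ ∈ E` have their `p`-th powers in `F` and `h₁ ∉ F`, then `h₂ ∈ F · h₁ ^ j` for some `j`
(`s33l_kummer_dep`).  Consequently the elements of `F` which become `p`-th powers in `E` form, modulo
`p`-th powers of `F`, a group of order at most `p` (`s33l_kummer_dep'`).
-/
import Mathlib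

set_option autoImplicit false
set_option linter.unusedSectionVars false
set_option linter.style.haveILetI false

namespace Fermat.Agent.Lib.S33

open Module Polynomial IntermediateField

section Kummer

variable {F E : Type*} [Field F] [Field E] [Algebra F E]

/-- **Kummer bound, root form.** -/
theorem s33l_kummer_dep {p : ℕ} (hp : p.Prime) (hdeg : finrank F E = p) {ζ : F}
    (hζ : IsPrimitiveRoot ζ p) {g₁ g₂ : F} {h₁ h₂ : E}
    (e₁ : h₁ ^ p = algebraMap F E g₁) (e₂ : h₂ ^ p = algebraMap F E g₂) :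
    (∃ f : F, h₁ = algebraMap F E f) ∨ ∃ (j : ℕ) (f : F), h₂ = algebraMap F E f * h₁ ^ j := by
  by_cases h1 : ∃ f : F, h₁ = algebraMap F E f
  · exact Or.inl h1
  right
  by_cases h20 : h₂ = 0
  · exact ⟨0, 0, by rw [h20, map_zero, zero_mul]⟩
  subst hdeg
  haveI : FiniteDimensional F E := Module.finite_of_finrank_pos hp.pos
  haveI : NeZero (finrank F E) := ⟨hp.ne_zero⟩
  have h10 : h₁ ≠ 0 := fun h => h1 ⟨0, by rw [h, map_zero]⟩
  -- `F⟮h₁⟯ = ⊤`
  have htop : F⟮h₁⟯ = ⊤ := by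
    have hdvd : finrank F F⟮h₁⟯ ∣ finrank F E :=
      ⟨finrank F⟮h₁⟯ E, (Module.finrank_mul_finrank F F⟮h₁⟯ E).symm⟩
    rcases (Nat.dvd_prime hp).mp hdvd with h | h
    · exfalso
      rw [IntermediateField.finrank_eq_one_iff, IntermediateField.adjoin_simple_eq_bot_iff,
        IntermediateField.mem_bot] at h
      obtain ⟨f, hf⟩ := h
      exact h1 ⟨f, hf.symm⟩
    · apply IntermediateField.eq_of_le_of_finrank_eq le_top
      rw [h, IntermediateField.finrank_top']
  have hK : (primitiveRoots (finrank F E) F).Nonempty :=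
    ⟨ζ, (mem_primitiveRoots hp.pos).mpr hζ⟩
  have H : Irreducible (X ^ (finrank F E) - C g₁) :=
    irreducible_X_pow_sub_C_of_root_adjoin_eq_top e₁ htop
  haveI : IsSplittingField F E (X ^ (finrank F E) - C g₁) :=
    isSplittingField_X_pow_sub_C_of_root_adjoin_eq_top hK e₁ htop
  haveI : IsGalois F E := isGalois_of_isSplittingField_X_pow_sub_C hK H E
  -- the primitive root in `E`
  have hζE : IsPrimitiveRoot (algebraMap F E ζ) (finrank F E) :=
    hζ.map_of_injective (algebraMap F E).injective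
  -- the generator `σ`
  set σ : E ≃ₐ[F] E := (autEquivZmod H E hζ).symm (Multiplicative.ofAdd (1 : ZMod (finrank F E)))
    with hσ
  have hσ1 : σ h₁ = ζ • h₁ := by
    have := autEquivZmod_symm_apply_natCast H E e₁ hζ 1
    rwa [Nat.cast_one, pow_one] at this
  have hgen : ∀ τ : E ≃ₐ[F] E, ∃ m : ℕ, τ = σ ^ m := by
    intro τ
    obtain ⟨z, hz⟩ := (autEquivZmod H E hζ).symm.surjective τ
    refine ⟨(Multiplicative.toAdd z).val, ?_⟩
    rw [← hz, hσ, ← map_pow]
    congr 1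
    rw [← ofAdd_nsmul, nsmul_eq_mul, mul_one, ZMod.natCast_val, ZMod.cast_id', id, ofAdd_toAdd]
  -- `σ h₂ = ζ ^ j h₂`
  have hroot : (σ h₂ / h₂) ^ (finrank F E) = 1 := by
    rw [div_pow, ← map_pow, e₂, AlgEquiv.commutes, ← e₂, div_self (pow_ne_zero _ h20)]
  obtain ⟨j, -, hj⟩ := hζE.eq_pow_of_pow_eq_one hroot
  have hσ2 : σ h₂ = algebraMap F E ζ ^ j * h₂ := by
    rw [hj, div_mul_cancel₀ _ h20]
  -- `y := h₂ / h₁ ^ j` is fixed by `σ`, hence by the whole Galois group
  set y : E := h₂ / h₁ ^ j with hy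
  have hσy : σ y = y := by
    have hζ0 : algebraMap F E ζ ≠ 0 := hζE.ne_zero hp.ne_zero
    rw [hy, map_div₀, map_pow, hσ1, hσ2, Algebra.smul_def, mul_pow]
    field_simp
  have hfix : ∀ τ : E ≃ₐ[F] E, τ y = y := by
    intro τ
    obtain ⟨m, rfl⟩ := hgen τ
    induction m with
    | zero => rw [pow_zero]; rfl
    | succ m ih => rw [pow_succ, AlgEquiv.mul_apply, hσy, ih]
  obtain ⟨f, hf⟩ := (IsGalois.mem_range_algebraMap_iff_fixed y).mpr hfix
  refine ⟨j, f, ?_⟩
  rw [hf, hy, div_mul_cancel₀ _ (pow_ne_zero _ h10)]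

/-- **Kummer bound, power form.** -/
theorem s33l_kummer_dep' {p : ℕ} (hp : p.Prime) (hdeg : finrank F E = p) {ζ : F}
    (hζ : IsPrimitiveRoot ζ p) {g₁ g₂ : F} {h₁ h₂ : E}
    (e₁ : h₁ ^ p = algebraMap F E g₁) (e₂ : h₂ ^ p = algebraMap F E g₂) :
    (∃ f : F, g₁ = f ^ p) ∨ ∃ (j : ℕ) (f : F), g₂ = f ^ p * g₁ ^ j := by
  rcases s33l_kummer_dep hp hdeg hζ e₁ e₂ with ⟨f, hf⟩ | ⟨j, f, hf⟩
  · left
    refine ⟨f, (algebraMap F E).injective ?_⟩
    rw [← e₁, hf, map_pow]
  · right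
    refine ⟨j, f, (algebraMap F E).injective ?_⟩
    rw [← e₂, hf, mul_pow, ← pow_mul, mul_comm j p, pow_mul, e₁, map_mul, map_pow, map_pow]

end Kummer

end Fermat.Agent.Lib.S33
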