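/-
P-AT-P programme (S33), risk (R1) (helper2): **THE PULL-BACK `α^* : J₀(A) → J₀(B)` FOR `A ∣ B` AND ITS
KERNEL ON `p`-TORSION WHEN `[F̄(B) : F̄(A)] = p`.**

* generic (`{K F F'}`, `φ : F →ₐ[K] F'` integral with the fundamental identity):
  `s33l_kumGen_pull` (Kummer generators pull back: `φ f` generates `φ^* z`),
  `s33l_kumGen_class_unique`, `s33l_kumGen_pow`,
  `s33l_ker_dep` (**Kummer bound**: `K` algebraically closed containing a primitive `p`-th root of unity,
  `[F' : F] = p` prime: two `p`-torsion classes killed by `φ^*` are dependent: `z₁ = 0 ∨ z₂ ∈ ℤ z₁`);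
* modular: for `h : A ∣ B` the inclusion `s33l_incl h : F̄(A) →ₐ F̄(B)`, finite (`s33l_finite`), integral,
  `s33l_pull h : JZero A →+ JZero B`, Galois equivariance `s33l_pull_smul`,
  `s33l_pull_dep` (the Kummer bound for `α^*`).
-/
import Fermat.Agent.Lib.S33.DescGen
import Fermat.Agent.Lib.S33.LKummer
import Fermat.Agent.Lib.S29.GSHecke
import Fermat.Agent.Lib.S37.HInputs
import Fermat.Agent.Lib.S18.LChange
import Fermat.Agent.Lib.S18.EConst

set_option autoImplicit false
set_option linter.unusedSectionVars false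
set_option linter.style.haveILetI false

noncomputable section

namespace Fermat.Agent.Lib.S33

open ModularCurve AlgebraicCurve Fermat.Agent.Lib.S18 Fermat.Agent.Lib.S29 Fermat.Agent.Lib.S37
  Fermat.Agent.Lib.FF Module

/-! ### Generic part -/

section General

variable {K F F' : Type*} [Field K] [Field F] [Field F'] [Algebra K F] [Algebra K F']

/-- a class has at most one Kummer class per generator. -/
theorem s33l_kumGen_class_unique {m : ℕ} (hm : m ≠ 0) {z z' : Pic0 K F} {f : F}
    (h : s33d_IsKumGen m z f) (h' : s33d_IsKumGen m z' f) : z = z' := by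
  obtain ⟨-, D, rfl, hD⟩ := h
  obtain ⟨-, D', rfl, hD'⟩ := h'
  congr 1
  apply Subtype.ext
  ext v
  have h1 := (hD v).symm.trans (hD' v)
  have hm' : (m : ℤ) ≠ 0 := by exact_mod_cast hm
  exact mul_left_cancel₀ hm' h1

/-- powers of Kummer generators. -/
theorem s33l_kumGen_pow {m : ℕ} {z : Pic0 K F} {f : F} (h : s33d_IsKumGen m z f) (j : ℕ) :
    s33d_IsKumGen m (j • z) (f ^ j) := by
  obtain ⟨hf0, D, rfl, hD⟩ := h
  refine ⟨pow_ne_zero j hf0, j • D, map_nsmul (QuotientAddGroup.mk' _) j D, fun v => ?_⟩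
  rw [s33d_ord_pow, hD, AddSubgroupClass.coe_nsmul, Finsupp.smul_apply, nsmul_eq_mul]
  ring

variable [HasPrincipalDivisors K F'] (φ : F →ₐ[K] F') (hφ : φ.toRingHom.IsIntegral)
  (hFI : FundamentalIdentityAlong K φ hφ)

/-- **Kummer generators pull back.** -/
theorem s33l_kumGen_pull {m : ℕ} {z : Pic0 K F} {f : F} (h : s33d_IsKumGen m z f) :
    s33d_IsKumGen m (s37l_pic0Pullback φ hφ hFI z) (φ f) := by
  obtain ⟨hf0, D, rfl, hD⟩ := h
  refine ⟨(map_ne_zero φ).2 hf0, s37l_degZeroPullback φ hφ hFI D, rfl, fun w => ?_⟩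
  rw [Place.ord_restrictAlong φ hφ w f, hD, s37l_coe_degZeroPullback, Divisor.pullbackAlong_apply]
  ring

/-- **The Kummer bound**: if `[F' : F] = p` is prime and `K` is algebraically closed with a primitive
`p`-th root of unity, two `p`-torsion classes of `F` dying in `F'` are dependent. -/
theorem s33l_ker_dep [IsAlgClosed K] [HasPrincipalDivisors K F]
    (hconst : s33d_ConstOfOrdZero K F) (hconst' : s33d_ConstOfOrdZero K F')
    {p : ℕ} (hp : p.Prime) (hdeg : finrankAlong K φ = p) {ζ : K} (hζ : IsPrimitiveRoot ζ p)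
    {z₁ z₂ : Pic0 K F} (h₁ : p • z₁ = 0) (h₂ : p • z₂ = 0)
    (k₁ : s37l_pic0Pullback φ hφ hFI z₁ = 0) (k₂ : s37l_pic0Pullback φ hφ hFI z₂ = 0) :
    z₁ = 0 ∨ ∃ j : ℕ, z₂ = j • z₁ := by
  obtain ⟨f₁, hf₁⟩ := s33d_exists_kumGen p z₁ h₁
  obtain ⟨f₂, hf₂⟩ := s33d_exists_kumGen p z₂ h₂
  obtain ⟨c₁, w₁, -, -, e₁⟩ :=
    (s33d_kumGen_zero_iff hconst' hp.ne_zero (s33l_kumGen_pull φ hφ hFI hf₁)).1 k₁
  obtain ⟨c₂, w₂, -, -, e₂⟩ :=
    (s33d_kumGen_zero_iff hconst' hp.ne_zero (s33l_kumGen_pull φ hφ hFI hf₂)).1 k₂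
  obtain ⟨d₁, hd₁⟩ := IsAlgClosed.exists_pow_nat_eq c₁ hp.pos
  obtain ⟨d₂, hd₂⟩ := IsAlgClosed.exists_pow_nat_eq c₂ hp.pos
  letI := algebraAlong φ
  have hζF : IsPrimitiveRoot (algebraMap K F ζ) p :=
    hζ.map_of_injective (algebraMap K F).injective
  have E₁ : (algebraMap K F' d₁ * w₁) ^ p = algebraMap F F' f₁ := by
    rw [mul_pow, ← map_pow, hd₁]
    exact e₁.symm
  have E₂ : (algebraMap K F' d₂ * w₂) ^ p = algebraMap F F' f₂ := by
    rw [mul_pow, ← map_pow, hd₂]
    exact e₂.symm
  have hdeg' : finrank F F' = p := hdeg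
  rcases s33l_kummer_dep' hp hdeg' hζF E₁ E₂ with ⟨f, hf⟩ | ⟨j, f, hf⟩
  · left
    have hf0 : f ≠ 0 := by
      rintro rfl
      exact hf₁.1 (by rw [hf, zero_pow hp.ne_zero])
    exact (s33d_kumGen_zero_iff hconst hp.ne_zero hf₁).2
      ⟨1, f, one_ne_zero, hf0, by rw [map_one, one_mul, hf]⟩
  · right
    have hf0 : f ≠ 0 := by
      rintro rfl
      exact hf₂.1 (by rw [hf, zero_pow hp.ne_zero, zero_mul])
    have h3 := s33d_kumGen_mul (s33l_kumGen_pow hf₁ j) (c := (1 : K)) one_ne_zero hf0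
    rw [map_one, one_mul, ← hf] at h3
    exact ⟨j, s33l_kumGen_class_unique hp.ne_zero hf₂ h3⟩

end General

/-! ### The modular instance -/

section Modular

open IntermediateField

local notation "Kb" => AlgebraicClosure ℚ
local notation "Γℚ" => (AlgebraicClosure ℚ ≃ₐ[ℚ] AlgebraicClosure ℚ)

variable {A B : ℕ} [NeZero A] [NeZero B] (h : A ∣ B)

/-- the inclusion `F̄(A) ⊆ F̄(B)` for `A ∣ B`. -/
def s33l_incl : ffi_F A →ₐ[Kb] ffi_F B :=
  IntermediateField.inclusion (s18l_bar_mono h)

@[simp] theorem s33l_coe_incl (x : ffi_F A) :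
    ((s33l_incl h x : ffi_F B) : LaurentSeries Kb) = (x : LaurentSeries Kb) :=
  IntermediateField.coe_inclusion _ x

/-- the degree of `F̄(B)` over `F̄(A)` is the relative degree inside `Q̄((q))`. -/
theorem s33l_finrank_incl :
    finrankAlong Kb (s33l_incl h) =
      IntermediateField.relfinrank (modularFunctionFieldBar A) (modularFunctionFieldBar B) := by
  have hle : modularFunctionFieldBar A ≤ modularFunctionFieldBar B := s18l_bar_mono h
  have h1 := IntermediateField.relfinrank_eq_finrank_of_le hle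
  let _ := algebraAlong (s33l_incl h)
  let e : ↥(modularFunctionFieldBar B) ≃ₗ[↥(modularFunctionFieldBar A)]
      ↥(IntermediateField.extendScalars hle) :=
    { toFun := fun x => ⟨x.1, x.2⟩
      invFun := fun x => ⟨x.1, x.2⟩
      map_add' := fun _ _ => rfl
      map_smul' := fun a x => by
        apply Subtype.ext
        rfl
      left_inv := fun _ => rfl
      right_inv := fun _ => rfl }
  show Module.finrank ↥(modularFunctionFieldBar A) ↥(modularFunctionFieldBar B) = _
  rw [e.finrank_eq, ← h1]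

include h in
theorem s33l_relfinrank_pos :
    0 < IntermediateField.relfinrank (modularFunctionFieldBar A) (modularFunctionFieldBar B) := by
  have hle : modularFunctionFieldBar A ≤ modularFunctionFieldBar B := s18l_bar_mono h
  have hj : (AlgebraicClosure ℚ)⟮ffd_jSeries⟯ ≤ modularFunctionFieldBar A := by
    rw [IntermediateField.adjoin_simple_le_iff]
    exact ffd_jSeries_mem A
  have hmul := IntermediateField.relfinrank_mul_relfinrank hj hle
  rw [s18l_relfinrank_j A, s18l_relfinrank_j B] at hmul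
  have hpos := s18l_dedekindPsi_pos B
  rcases Nat.eq_zero_or_pos (IntermediateField.relfinrank (modularFunctionFieldBar A)
    (modularFunctionFieldBar B)) with h0 | h0
  · rw [h0, mul_zero] at hmul
    omega
  · exact h0

/-- `F̄(B)` is finite over `F̄(A)`. -/
theorem s33l_finite : FiniteAlong Kb (s33l_incl h) := by
  have h1 := s33l_finrank_incl h
  have h2 := s33l_relfinrank_pos h
  let _ := algebraAlong (s33l_incl h)
  show Module.Finite (ffi_F A) (ffi_F B)
  refine Module.finite_of_finrank_pos ?_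
  have h3 : Module.finrank (ffi_F A) (ffi_F B) = finrankAlong Kb (s33l_incl h) := rfl
  rw [h3, h1]
  exact h2

theorem s33l_integral : (s33l_incl h).toRingHom.IsIntegral :=
  s37h_isIntegral_of_finiteAlong _ (s33l_finite h)

theorem s33l_FI : FundamentalIdentityAlong Kb (s33l_incl h) (s33l_integral h) :=
  s37h_fundamentalIdentityAlong _ (s33l_finite h) (s33l_integral h)

/-- **`α^* : J₀(A) → J₀(B)`**, the pull-back of divisor classes along `X₀(B) → X₀(A)`. -/
def s33l_pull : JZero A →+ JZero B :=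
  s37l_pic0Pullback (s33l_incl h) (s33l_integral h) (s33l_FI h)

/-- the inclusion intertwines the arithmetic Galois actions. -/
theorem s33l_incl_intertwines (σ : Γℚ) :
    SemilinearAut.IntertwinesAlong
      ((s33l_incl h : _ →ₐ[Kb] _) :
        ↥(modularFunctionFieldBar A) →+* ↥(modularFunctionFieldBar B))
      (arithmeticGalois (modularFunctionFieldFull A) σ)
      (arithmeticGalois (modularFunctionFieldFull B) σ) := by
  intro x
  apply Subtype.ext
  show ((arithmeticGalois (modularFunctionFieldFull B) σ • (s33l_incl h x) :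
      ↥(modularFunctionFieldBar B)) : LaurentSeries Kb) =
    ((s33l_incl h (arithmeticGalois (modularFunctionFieldFull A) σ • x) :
      ↥(modularFunctionFieldBar B)) : LaurentSeries Kb)
  rw [coe_arithmeticGalois_smul, s33l_coe_incl, s33l_coe_incl, coe_arithmeticGalois_smul]

/-- **`α^*` is Galois equivariant.** -/
theorem s33l_pull_smul (σ : Γℚ) (x : JZero A) :
    s33l_pull h (σ • x) = σ • s33l_pull h x := by
  rw [galois_smul_pic0_def, galois_smul_pic0_def]
  exact s37l_pic0Pullback_smul _ _ _ _ _ (s33l_incl_intertwines h σ) x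

/-- **The Kummer bound for `α^*`**: if `[F̄(B) : F̄(A)] = p` is prime, two `p`-torsion points of
`J₀(A)` killed by `α^*` are dependent. -/
theorem s33l_pull_dep {p : ℕ} (hp : p.Prime)
    (hdeg : IntermediateField.relfinrank (modularFunctionFieldBar A) (modularFunctionFieldBar B) = p)
    {x₁ x₂ : JZero A} (h₁ : p • x₁ = 0) (h₂ : p • x₂ = 0)
    (k₁ : s33l_pull h x₁ = 0) (k₂ : s33l_pull h x₂ = 0) :
    x₁ = 0 ∨ ∃ j : ℕ, x₂ = j • x₁ := by
  haveI : NeZero p := ⟨hp.ne_zero⟩
  obtain ⟨ζ, hζ⟩ := HasEnoughRootsOfUnity.exists_primitiveRoot Kb p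
  exact s33l_ker_dep (s33l_incl h) (s33l_integral h) (s33l_FI h)
    (fun x _ hord => s18e_const_of_ord_nonpos A x (fun P => (hord P).le))
    (fun x _ hord => s18e_const_of_ord_nonpos B x (fun P => (hord P).le))
    hp ((s33l_finrank_incl h).trans hdeg) hζ h₁ h₂ k₁ k₂

end Modular

end Fermat.Agent.Lib.S33
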