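/-
S33 (programme P-AT-P), package [GLUE] (helper2), part 3: the ABSTRACT `Λ`-SIDE ALGEBRA.

Setting: a commutative ring `𝔸` ("Hecke scalars"), a faithful `𝔸`-module `W` which is finite free over a
principal ideal domain `R` (`R = ℤ_p`, `W` = the `θ`-part of the Tate module), a group `G` acting
`𝔸`-linearly by `ρ`, with a trace function `t : G → 𝔸` and a determinant `d : G →* 𝔸ˣ` satisfying the
Cayley–Hamilton relation `ρ g + d g • ρ g⁻¹ = t g`.  Subgroups `I ≤ D`, `τ₀ ∈ I`, and a splitting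
`X² - t(τ₀) X + d(τ₀) = (X - α)(X - β)` over `𝔸` with `α - β`, `α - 1` units.
`W' ⊆ W` an `𝔸`- and `D`-stable `R`-submodule with `I` acting trivially on `W / W'` and
`2 rank W' ≤ rank W` ("half"), and `g₀, h₀` with `x(h₀, g₀) = 𝔻(h₀ g₀) - 𝔻(h₀) 𝔻(g₀)` a unit, where
`𝔻 g = (t(τ₀ g) - α t(g)) / (β - α)`.

Conclusion (`s33g_abs`): `β = 1`, `𝔻 σ = 1` for `σ ∈ I`, `𝔻 (σ g) = 𝔻 σ 𝔻 g` for `σ ∈ D`.
Mathlib only.
-/
import Mathlib

set_option autoImplicit false
set_option linter.unusedSectionVars false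

namespace Fermat.Agent.Lib.S33

open Module

section Pointwise

variable {𝔸 : Type*} [CommRing 𝔸] {W : Type*} [AddCommGroup W] [Module 𝔸 W]
  {G : Type*} [Group G]
  (ρ : G →* Module.End 𝔸 W) (t : G → 𝔸) (d : G →* 𝔸ˣ)
  (hCH : ∀ g : G, ∀ w : W, ρ g w + (d g : 𝔸) • ρ g⁻¹ w = t g • w)
  (τ₀ : G) (α β u : 𝔸) (hsum : α + β = t τ₀) (hprod : α * β = (d τ₀ : 𝔸))
  (hu : (α - β) * u = 1)

theorem s33g_rho_inv_apply (g : G) (w : W) : ρ g⁻¹ (ρ g w) = w := by
  rw [← Module.End.mul_apply, ← map_mul, inv_mul_cancel, map_one, Module.End.one_apply]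

theorem s33g_rho_apply_inv (g : G) (w : W) : ρ g (ρ g⁻¹ w) = w := by
  rw [← Module.End.mul_apply, ← map_mul, mul_inv_cancel, map_one, Module.End.one_apply]

include hCH hsum hprod in
/-- Cayley–Hamilton for `τ₀`, pointwise. -/
theorem s33g_ch_tau (w : W) : ρ τ₀ (ρ τ₀ w) = (α + β) • ρ τ₀ w - (α * β) • w := by
  have h := hCH τ₀ (ρ τ₀ w)
  rw [s33g_rho_inv_apply] at h
  rw [hsum, hprod]
  linear_combination (norm := module) h

/-- The projector onto the `α`-eigenspace of `ρ τ₀`. -/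
def s33g_Ea : Module.End 𝔸 W := u • (ρ τ₀ - β • (1 : Module.End 𝔸 W))

/-- The projector onto the `β`-eigenspace of `ρ τ₀`. -/
def s33g_Eb : Module.End 𝔸 W := u • (α • (1 : Module.End 𝔸 W) - ρ τ₀)

theorem s33g_Ea_apply (w : W) : s33g_Ea ρ τ₀ β u w = u • (ρ τ₀ w - β • w) := by
  simp [s33g_Ea]

theorem s33g_Eb_apply (w : W) : s33g_Eb ρ τ₀ α u w = u • (α • w - ρ τ₀ w) := by
  simp [s33g_Eb]

include hu in
theorem s33g_Ea_add_Eb (w : W) : s33g_Ea ρ τ₀ β u w + s33g_Eb ρ τ₀ α u w = w := by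
  rw [s33g_Ea_apply, s33g_Eb_apply]
  linear_combination (norm := module) hu • w

include hCH hsum hprod in
theorem s33g_tau_Ea (w : W) : ρ τ₀ (s33g_Ea ρ τ₀ β u w) = α • s33g_Ea ρ τ₀ β u w := by
  rw [s33g_Ea_apply, map_smul, map_sub, map_smul, s33g_ch_tau ρ t d hCH τ₀ α β hsum hprod w]
  module

include hCH hsum hprod in
theorem s33g_tau_Eb (w : W) : ρ τ₀ (s33g_Eb ρ τ₀ α u w) = β • s33g_Eb ρ τ₀ α u w := by
  rw [s33g_Eb_apply, map_smul, map_sub, map_smul, s33g_ch_tau ρ t d hCH τ₀ α β hsum hprod w]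
  module

/-- An `α`-eigenvector is fixed by `E_α`... -/
theorem s33g_Ea_of_eigen (hu : (α - β) * u = 1) (x : W) (hx : ρ τ₀ x = α • x) :
    s33g_Ea ρ τ₀ β u x = x := by
  rw [s33g_Ea_apply, hx]
  linear_combination (norm := module) hu • x

/-- ... and killed by `E_β`. -/
theorem s33g_Eb_of_eigen_a (x : W) (hx : ρ τ₀ x = α • x) : s33g_Eb ρ τ₀ α u x = 0 := by
  rw [s33g_Eb_apply, hx, sub_self, smul_zero]

theorem s33g_Eb_of_eigen (hu : (α - β) * u = 1) (x : W) (hx : ρ τ₀ x = β • x) :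
    s33g_Eb ρ τ₀ α u x = x := by
  rw [s33g_Eb_apply, hx]
  linear_combination (norm := module) hu • x

theorem s33g_Ea_of_eigen_b (x : W) (hx : ρ τ₀ x = β • x) : s33g_Ea ρ τ₀ β u x = 0 := by
  rw [s33g_Ea_apply, hx, sub_self, smul_zero]

include hCH hsum hprod hu in
theorem s33g_Eb_Eb (w : W) : s33g_Eb ρ τ₀ α u (s33g_Eb ρ τ₀ α u w) = s33g_Eb ρ τ₀ α u w :=
  s33g_Eb_of_eigen ρ τ₀ α β u hu _ (s33g_tau_Eb ρ t d hCH τ₀ α β u hsum hprod w)

include hCH hsum hprod hu in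
theorem s33g_Ea_Ea (w : W) : s33g_Ea ρ τ₀ β u (s33g_Ea ρ τ₀ β u w) = s33g_Ea ρ τ₀ β u w :=
  s33g_Ea_of_eigen ρ τ₀ α β u hu _ (s33g_tau_Ea ρ t d hCH τ₀ α β u hsum hprod w)

include hCH hsum hprod in
theorem s33g_Ea_Eb (w : W) : s33g_Ea ρ τ₀ β u (s33g_Eb ρ τ₀ α u w) = 0 :=
  s33g_Ea_of_eigen_b ρ τ₀ β u _ (s33g_tau_Eb ρ t d hCH τ₀ α β u hsum hprod w)

include hCH hsum hprod in
theorem s33g_Eb_Ea (w : W) : s33g_Eb ρ τ₀ α u (s33g_Ea ρ τ₀ β u w) = 0 :=
  s33g_Eb_of_eigen_a ρ τ₀ α u _ (s33g_tau_Ea ρ t d hCH τ₀ α β u hsum hprod w)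

/-- `E_β` commutes with `ρ τ₀`. -/
theorem s33g_Eb_tau (w : W) : s33g_Eb ρ τ₀ α u (ρ τ₀ w) = ρ τ₀ (s33g_Eb ρ τ₀ α u w) := by
  rw [s33g_Eb_apply, s33g_Eb_apply, map_smul, map_sub, map_smul]

/-- The `𝔻`-function: the lower right entry as a trace expression. -/
def s33g_DD (g : G) : 𝔸 := -u * (t (τ₀ * g) - α * t g)

include hCH hsum hprod hu in
/-- **Key formula**: `E_β ρ(g) x = 𝔻(g) x` for a `β`-eigenvector `x`. -/
theorem s33g_Eb_rho_eigen (g : G) (x : W) (hx : ρ τ₀ x = β • x) :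
    s33g_Eb ρ τ₀ α u (ρ g x) = s33g_DD t τ₀ α u g • x := by
  -- `d(τ₀) • ρ(τ₀⁻¹) x = α • x`
  have h1 : ((d τ₀ : 𝔸ˣ) : 𝔸) • ρ τ₀⁻¹ x = α • x := by
    have e : ρ τ₀⁻¹ (ρ τ₀ x) = x := s33g_rho_inv_apply ρ τ₀ x
    rw [hx, map_smul] at e
    rw [← hprod]
    linear_combination (norm := module) α • e
  -- Cayley–Hamilton for `τ₀ g` and `g` at `x`
  have h2 := hCH (τ₀ * g) x
  have h3 := hCH g x
  have e1 : ρ (τ₀ * g) x = ρ τ₀ (ρ g x) := by rw [map_mul, Module.End.mul_apply]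
  have e2 : ρ (τ₀ * g)⁻¹ x = ρ g⁻¹ (ρ τ₀⁻¹ x) := by
    rw [mul_inv_rev, map_mul, Module.End.mul_apply]
  have e3 : ((d (τ₀ * g) : 𝔸ˣ) : 𝔸) = (d τ₀ : 𝔸) * (d g : 𝔸) := by rw [map_mul, Units.val_mul]
  rw [e1, e2, e3] at h2
  have h4 : ((d τ₀ : 𝔸ˣ) : 𝔸) • ρ g⁻¹ (ρ τ₀⁻¹ x) = α • ρ g⁻¹ x := by
    rw [← map_smul, h1, map_smul]
  -- hence `(t(τ₀ g) - α t(g)) x = ρ τ₀ (ρ g x) - α ρ g x`
  have h5 : (t (τ₀ * g) - α * t g) • x = ρ τ₀ (ρ g x) - α • ρ g x := by
    linear_combination (norm := module) (-1 : 𝔸) • h2 + α • h3 + ((d g : 𝔸ˣ) : 𝔸) • h4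
  -- apply `E_β`
  have h6 := congrArg (s33g_Eb ρ τ₀ α u) h5
  rw [map_smul, s33g_Eb_of_eigen ρ τ₀ α β u hu x hx, map_sub, map_smul, s33g_Eb_tau,
    s33g_tau_Eb ρ t d hCH τ₀ α β u hsum hprod] at h6
  unfold s33g_DD
  linear_combination (norm := module) u • h6 - (hu • s33g_Eb ρ τ₀ α u (ρ g x))

include hCH hsum hprod hu in
/-- The off-diagonal product: `E_β ρ(h) E_α ρ(g) x = (𝔻(h g) - 𝔻(h) 𝔻(g)) x`. -/
theorem s33g_Eb_rho_Ea_rho (h g : G) (x : W) (hx : ρ τ₀ x = β • x) :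
    s33g_Eb ρ τ₀ α u (ρ h (s33g_Ea ρ τ₀ β u (ρ g x))) =
      (s33g_DD t τ₀ α u (h * g) - s33g_DD t τ₀ α u h * s33g_DD t τ₀ α u g) • x := by
  have e1 : s33g_Ea ρ τ₀ β u (ρ g x) = ρ g x - s33g_Eb ρ τ₀ α u (ρ g x) := by
    have := s33g_Ea_add_Eb ρ τ₀ α β u hu (ρ g x)
    linear_combination (norm := module) this
  have e2 : ρ h (ρ g x) = ρ (h * g) x := by rw [map_mul, Module.End.mul_apply]
  rw [e1, s33g_Eb_rho_eigen ρ t d hCH τ₀ α β u hsum hprod hu g x hx, map_sub, map_smul, map_sub,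
    map_smul, s33g_Eb_rho_eigen ρ t d hCH τ₀ α β u hsum hprod hu h x hx, e2,
    s33g_Eb_rho_eigen ρ t d hCH τ₀ α β u hsum hprod hu (h * g) x hx]
  module

end Pointwise

section Rank

variable {R : Type*} [CommRing R] [IsDomain R] [IsPrincipalIdealRing R]
  {W : Type*} [AddCommGroup W] [Module R W] [Module.Free R W] [Module.Finite R W]

/-- rank–nullity over a domain, in `finrank` form. -/
theorem s33g_rank_nullity {V : Type*} [AddCommGroup V] [Module R V] (f : W →ₗ[R] V) :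
    finrank R (LinearMap.range f) + finrank R (LinearMap.ker f) = finrank R W := by
  rw [← (LinearMap.ker f).finrank_quotient_add_finrank,
    LinearEquiv.finrank_eq f.quotKerEquivRange]

/-- rank–nullity for a map defined on a submodule. -/
theorem s33g_rank_nullity_sub {V : Type*} [AddCommGroup V] [Module R V] (N : Submodule R W)
    (f : N →ₗ[R] V) :
    finrank R (LinearMap.range f) + finrank R (LinearMap.ker f) = finrank R N := by
  rw [← (LinearMap.ker f).finrank_quotient_add_finrank,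
    LinearEquiv.finrank_eq f.quotKerEquivRange]

end Rank

section Main

variable {R : Type*} [CommRing R] [IsDomain R] [IsPrincipalIdealRing R]
  {𝔸 : Type*} [CommRing 𝔸] [Algebra R 𝔸]
  {W : Type*} [AddCommGroup W] [Module R W] [Module 𝔸 W] [IsScalarTower R 𝔸 W]
  [Module.Free R W] [Module.Finite R W]
  {G : Type*} [Group G]

/-- **The abstract `Λ`-side theorem.** -/
theorem s33g_abs
    (hfaith : ∀ c : 𝔸, (∀ w : W, c • w = 0) → c = 0)
    (ρ : G →* Module.End 𝔸 W) (t : G → 𝔸) (d : G →* 𝔸ˣ)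
    (hCH : ∀ g : G, ∀ w : W, ρ g w + (d g : 𝔸) • ρ g⁻¹ w = t g • w)
    (D I : Subgroup G) (hID : I ≤ D) (τ₀ : G) (hτ₀ : τ₀ ∈ I)
    (α β u v : 𝔸) (hsum : α + β = t τ₀) (hprod : α * β = (d τ₀ : 𝔸))
    (hu : (α - β) * u = 1) (hv : (α - 1) * v = 1)
    (W' : Submodule R W) (hW'𝔸 : ∀ (c : 𝔸) (w : W), w ∈ W' → c • w ∈ W')
    (hD : ∀ σ ∈ D, ∀ w ∈ W', ρ σ w ∈ W') (hI : ∀ σ ∈ I, ∀ w : W, ρ σ w - w ∈ W')
    (hhalf : 2 * finrank R W' ≤ finrank R W)
    (g₀ h₀ : G) (z : 𝔸)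
    (hirr : (s33g_DD t τ₀ α u (h₀ * g₀) - s33g_DD t τ₀ α u h₀ * s33g_DD t τ₀ α u g₀) * z = 1) :
    β = 1 ∧ (∀ σ ∈ I, s33g_DD t τ₀ α u σ = 1) ∧
      (∀ σ ∈ D, ∀ g : G, s33g_DD t τ₀ α u (σ * g) = s33g_DD t τ₀ α u σ * s33g_DD t τ₀ α u g) := by
  -- notation
  set Ea : Module.End 𝔸 W := s33g_Ea ρ τ₀ β u with hEa
  set Eb : Module.End 𝔸 W := s33g_Eb ρ τ₀ α u with hEb
  set DD : G → 𝔸 := s33g_DD t τ₀ α u with hDD
  set xx : 𝔸 := DD (h₀ * g₀) - DD h₀ * DD g₀ with hxx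
  have hadd : ∀ w, Ea w + Eb w = w := s33g_Ea_add_Eb ρ τ₀ α β u hu
  have htEa : ∀ w, ρ τ₀ (Ea w) = α • Ea w := s33g_tau_Ea ρ t d hCH τ₀ α β u hsum hprod
  have htEb : ∀ w, ρ τ₀ (Eb w) = β • Eb w := s33g_tau_Eb ρ t d hCH τ₀ α β u hsum hprod
  have hEbEb : ∀ w, Eb (Eb w) = Eb w := s33g_Eb_Eb ρ t d hCH τ₀ α β u hsum hprod hu
  have hEaEa : ∀ w, Ea (Ea w) = Ea w := s33g_Ea_Ea ρ t d hCH τ₀ α β u hsum hprod hu
  have hEaEb : ∀ w, Ea (Eb w) = 0 := s33g_Ea_Eb ρ t d hCH τ₀ α β u hsum hprod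
  have hEbEa : ∀ w, Eb (Ea w) = 0 := s33g_Eb_Ea ρ t d hCH τ₀ α β u hsum hprod
  have hkey : ∀ g w, Eb (ρ g (Eb w)) = DD g • Eb w := fun g w =>
    s33g_Eb_rho_eigen ρ t d hCH τ₀ α β u hsum hprod hu g (Eb w) (htEb w)
  have hoff : ∀ h g w, Eb (ρ h (Ea (ρ g (Eb w)))) = (DD (h * g) - DD h * DD g) • Eb w :=
    fun h g w => s33g_Eb_rho_Ea_rho ρ t d hCH τ₀ α β u hsum hprod hu h g (Eb w) (htEb w)
  -- `W'` is stable under the projectors
  have hW'Eb : ∀ w ∈ W', Eb w ∈ W' := by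
    intro w hw
    rw [hEb, s33g_Eb_apply]
    exact hW'𝔸 _ _ (W'.sub_mem (hW'𝔸 _ _ hw) (hD τ₀ (hID hτ₀) w hw))
  -- the `α`-part lies in `W'`
  have hEaW' : ∀ w, Ea w ∈ W' := by
    intro w
    have h1 := hI τ₀ hτ₀ (Ea w)
    rw [htEa w] at h1
    have h2 : Ea w = v • (α • Ea w - Ea w) := by
      linear_combination (norm := module) (-1 : 𝔸) • (hv • Ea w)
    rw [h2]
    exact hW'𝔸 _ _ h1
  -- the `R`-linear versions
  set ea : W →ₗ[R] W := Ea.restrictScalars R with hea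
  set eb : W →ₗ[R] W := Eb.restrictScalars R with heb
  have hea_apply : ∀ w, ea w = Ea w := fun w => rfl
  have heb_apply : ∀ w, eb w = Eb w := fun w => rfl
  set Wa : Submodule R W := LinearMap.range ea with hWa
  set Wb : Submodule R W := LinearMap.range eb with hWb
  have hWa_mem : ∀ x, x ∈ Wa ↔ Ea x = x := by
    intro x
    constructor
    · rintro ⟨w, rfl⟩; exact hEaEa w
    · intro h; exact ⟨x, h⟩
  have hWb_mem : ∀ x, x ∈ Wb ↔ Eb x = x := by
    intro x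
    constructor
    · rintro ⟨w, rfl⟩; exact hEbEb w
    · intro h; exact ⟨x, h⟩
  -- `ker ea = Wb`
  have hker_ea : LinearMap.ker ea = Wb := by
    ext x
    rw [LinearMap.mem_ker, hea_apply, hWb_mem]
    constructor
    · intro h
      have := hadd x
      rw [h, zero_add] at this
      exact this
    · intro h
      rw [← h]; exact hEaEb x
  have hrank : finrank R Wa + finrank R Wb = finrank R W := by
    have := s33g_rank_nullity ea
    rwa [hker_ea] at this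
  -- the injection `Wb → Wa`
  have hinj : finrank R Wb ≤ finrank R Wa := by
    let J : W →ₗ[R] W := ea ∘ₗ (ρ g₀).restrictScalars R
    have hJ : ∀ x ∈ Wb, J x ∈ Wa := fun x _ => ⟨_, rfl⟩
    refine LinearMap.finrank_le_finrank_of_injective (f := J.restrict hJ) ?_
    rw [← LinearMap.ker_eq_bot, LinearMap.ker_eq_bot']
    rintro ⟨x, hx⟩ h0
    have h1 : J x = 0 := congrArg Subtype.val h0
    have h2 : Ea (ρ g₀ x) = 0 := h1
    have hx' : Eb x = x := (hWb_mem x).mp hx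
    have h3 := hoff h₀ g₀ x
    rw [hx', h2, map_zero, map_zero] at h3
    have h4 : x = (z * xx) • x := by
      rw [mul_comm, hirr, one_smul]
    apply Subtype.ext
    show x = 0
    rw [h4, mul_smul, ← h3, smul_zero]
  -- `Eb` kills `W'`
  have hEbW' : ∀ w ∈ W', Eb w = 0 := by
    let φ : W' →ₗ[R] W := eb.domRestrict W'
    -- `ker φ ≃ Wa`
    have hkerφ : finrank R (LinearMap.ker φ) = finrank R Wa := by
      let f : LinearMap.ker φ →ₗ[R] Wa :=
        { toFun := fun x => ⟨x.1.1, by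
            have h0 : Eb x.1.1 = 0 := x.2
            rw [hWa_mem]
            have := hadd x.1.1
            rw [h0, add_zero] at this
            exact this⟩
          map_add' := fun x y => rfl
          map_smul' := fun c x => rfl }
      let g : Wa →ₗ[R] LinearMap.ker φ :=
        { toFun := fun x => ⟨⟨x.1, by
            have := (hWa_mem x.1).mp x.2
            rw [← this]; exact hEaW' _⟩, by
            have := (hWa_mem x.1).mp x.2
            show Eb x.1 = 0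
            rw [← this]; exact hEbEa _⟩
          map_add' := fun x y => rfl
          map_smul' := fun c x => rfl }
      exact LinearEquiv.finrank_eq (LinearEquiv.ofLinearMap f g (by ext x; rfl) (by ext x; rfl))
    have hrn := s33g_rank_nullity_sub W' φ
    rw [hkerφ] at hrn
    have h0 : finrank R (LinearMap.range φ) = 0 := by omega
    have hbot : LinearMap.range φ = ⊥ := Submodule.finrank_eq_zero.mp h0
    intro w hw
    have : φ ⟨w, hw⟩ ∈ LinearMap.range φ := ⟨_, rfl⟩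
    rw [hbot, Submodule.mem_bot] at this
    exact this
  have hrank_eq : finrank R Wa = finrank R Wb := by
    -- `Wa ≤ W'` gives `finrank Wa ≤ finrank W'`
    have hle : Wa ≤ W' := by
      rintro x ⟨w, rfl⟩; exact hEaW' w
    have := Submodule.finrank_mono hle
    omega
  -- the map `k : Wa → Wb`, `x ↦ Eb (ρ h₀ x)`, is injective
  have hkinj : ∀ x, Ea x = x → Eb (ρ h₀ x) = 0 → x = 0 := by
    let K : W →ₗ[R] W := eb ∘ₗ (ρ h₀).restrictScalars R
    have hK : ∀ x ∈ Wa, K x ∈ Wb := fun x _ => ⟨_, rfl⟩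
    let k : Wa →ₗ[R] Wb := K.restrict hK
    have hsurj : LinearMap.range k = ⊤ := by
      rw [eq_top_iff]
      rintro ⟨y, hy⟩ -
      have hy' : Eb y = y := (hWb_mem y).mp hy
      have h3 := hoff h₀ g₀ y
      rw [hy'] at h3
      refine ⟨⟨z • Ea (ρ g₀ y), ?_⟩, ?_⟩
      · rw [hWa_mem, map_smul, hEaEa]
      · apply Subtype.ext
        show Eb (ρ h₀ (z • Ea (ρ g₀ y))) = y
        rw [map_smul, map_smul, h3, smul_smul, mul_comm, hirr, one_smul]
    have hrn := s33g_rank_nullity_sub Wa k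
    have hr1 : finrank R (LinearMap.range k) = finrank R Wb := by
      rw [hsurj]; exact finrank_top R Wb
    have h0 : finrank R (LinearMap.ker k) = 0 := by omega
    have hbot : LinearMap.ker k = ⊥ := Submodule.finrank_eq_zero.mp h0
    intro x hx h
    have hxm : x ∈ Wa := (hWa_mem x).mpr hx
    have : (⟨x, hxm⟩ : Wa) ∈ LinearMap.ker k := by
      rw [LinearMap.mem_ker]
      apply Subtype.ext
      exact h
    rw [hbot, Submodule.mem_bot] at this
    exact congrArg Subtype.val this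
  -- the vanishing principle
  have hvanish : ∀ c : 𝔸, (∀ w, c • Eb w ∈ W') → c = 0 := by
    intro c hc
    have hb : ∀ w, c • Eb w = 0 := by
      intro w
      have h1 := hEbW' _ (hc w)
      rwa [map_smul, hEbEb] at h1
    have ha : ∀ w, c • Ea w = 0 := by
      intro w
      apply hkinj
      · rw [map_smul, hEaEa]
      · rw [map_smul, map_smul]
        exact hb (ρ h₀ (Ea w))
    apply hfaith
    intro w
    rw [← hadd w, smul_add, ha, hb, add_zero]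
  refine ⟨?_, ?_, ?_⟩
  · -- `β = 1`
    have : β - 1 = 0 := by
      apply hvanish
      intro w
      have h1 := hI τ₀ hτ₀ (Eb w)
      rw [htEb w] at h1
      have : (β - 1) • Eb w = β • Eb w - Eb w := by module
      rw [this]; exact h1
    exact sub_eq_zero.mp this
  · -- `𝔻 σ = 1` on `I`
    intro σ hσ
    have : DD σ - 1 = 0 := by
      apply hvanish
      intro w
      have h1 := hW'Eb _ (hI σ hσ (Eb w))
      rw [map_sub, hkey, hEbEb] at h1
      have : (DD σ - 1) • Eb w = DD σ • Eb w - Eb w := by module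
      rw [this]; exact h1
    exact sub_eq_zero.mp this
  · -- multiplicativity on `D`
    intro σ hσ g
    have : DD (σ * g) - DD σ * DD g = 0 := by
      apply hvanish
      intro w
      rw [← hoff σ g w]
      exact hW'Eb _ (hD σ hσ _ (hEaW' _))
    exact sub_eq_zero.mp this

end Main

end Fermat.Agent.Lib.S33
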