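/-
S33 (programme P-AT-P), package [GLUE] (helper2), part 5: **THE LOCAL IDEMPOTENT** (pure commutative
algebra).

`A` a commutative `ℤ_[p]`-algebra, finite as a module, `πA : A →+* T` a ring homomorphism into a local
ring with `p ∈ 𝔪_T`.  Then there is an idempotent `e ∈ A` with `πA e = 1` such that every `a ∈ A` with
`πA a` a unit is invertible on the `e`-part: `∃ b, a * b * e = e`   (`s33g_exists_idem`).
(Structure of finite algebras over a complete local ring, Prelude
`Algebra.finite_maximalSpectrum_and_bijective_localization_of_module_finite`.)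
-/
import Mathlib
import Fermat.Prelude.Thm_Algebra_finite_maximalSpectrum_and_bijective_localization_of_module_finite

set_option autoImplicit false
set_option linter.unusedSectionVars false

namespace Fermat.Agent.Lib.S33

open IsLocalRing

noncomputable section

section Idem

variable {p : ℕ} [Fact p.Prime] {A : Type} [CommRing A] [Algebra ℤ_[p] A] [Module.Finite ℤ_[p] A]
  {T : Type*} [CommRing T] [IsLocalRing T]

/-- The kernel of `A → T → T / 𝔪_T` is a maximal ideal. -/
theorem s33g_comap_isMaximal (πA : A →+* T) (hpT : (p : T) ∈ maximalIdeal T) :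
    ((maximalIdeal T).comap πA).IsMaximal := by
  haveI : ((maximalIdeal T).comap πA).IsPrime := Ideal.comap_isPrime _ _
  haveI : Algebra.IsIntegral ℤ_[p] A := Algebra.IsIntegral.of_finite ℤ_[p] A
  apply Ideal.isMaximal_of_isIntegral_of_isMaximal_comap (R := ℤ_[p])
  have hprime : (((maximalIdeal T).comap πA).comap (algebraMap ℤ_[p] A)).IsPrime :=
    Ideal.comap_isPrime _ _
  refine hprime.isMaximal ?_
  intro hbot
  have hp : (p : ℤ_[p]) ∈ ((maximalIdeal T).comap πA).comap (algebraMap ℤ_[p] A) := by
    rw [Ideal.mem_comap, Ideal.mem_comap, map_natCast, map_natCast]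
    exact hpT
  rw [hbot, Ideal.mem_bot] at hp
  exact (Nat.cast_ne_zero.mpr (Fact.out : p.Prime).ne_zero) hp

/-- **The local idempotent.** -/
theorem s33g_exists_idem (πA : A →+* T) (hpT : (p : T) ∈ maximalIdeal T) :
    ∃ e : A, e * e = e ∧ πA e = 1 ∧ ∀ a : A, IsUnit (πA a) → ∃ b : A, a * b * e = e := by
  classical
  obtain ⟨-, hbij, -, -⟩ :=
    Algebra.finite_maximalSpectrum_and_bijective_localization_of_module_finite (𝒪 := ℤ_[p]) A
  set Φ : A →+* ∀ I : MaximalSpectrum A, Localization.AtPrime I.asIdeal :=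
    RingHom.pi fun I : MaximalSpectrum A => algebraMap A (Localization.AtPrime I.asIdeal) with hΦ
  have hΦapp : ∀ (a : A) (I : MaximalSpectrum A),
      Φ a I = algebraMap A (Localization.AtPrime I.asIdeal) a := fun a I => rfl
  have hmax := s33g_comap_isMaximal πA hpT
  set I₀ : MaximalSpectrum A := ⟨(maximalIdeal T).comap πA, hmax⟩ with hI₀
  obtain ⟨e, he⟩ := hbij.2 (Pi.single I₀ 1)
  have heI₀ : algebraMap A (Localization.AtPrime I₀.asIdeal) e = 1 := by
    rw [← hΦapp, he, Pi.single_eq_same]
  have heI : ∀ I : MaximalSpectrum A, I ≠ I₀ →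
      algebraMap A (Localization.AtPrime I.asIdeal) e = 0 := by
    intro I hI
    rw [← hΦapp, he, Pi.single_eq_of_ne hI]
  -- idempotent
  have hee : e * e = e := by
    apply hbij.1
    rw [map_mul, he]
    funext I
    by_cases hI : I = I₀
    · subst hI
      rw [Pi.mul_apply, Pi.single_eq_same, mul_one]
    · rw [Pi.mul_apply, Pi.single_eq_of_ne hI, mul_zero]
  -- `e ∉ 𝔪₀`
  have heT : e ∉ I₀.asIdeal := by
    intro hmem
    have h1 := (IsLocalization.AtPrime.to_map_mem_maximal_iff
      (Localization.AtPrime I₀.asIdeal) I₀.asIdeal e).mpr hmem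
    rw [heI₀] at h1
    exact (maximalIdeal.isMaximal _).ne_top ((Ideal.eq_top_iff_one _).mpr h1)
  -- `e` lies in every other maximal ideal
  have heOther : ∀ I : MaximalSpectrum A, e ∉ I.asIdeal → I = I₀ := by
    intro I hnot
    by_contra hI
    have h1 : IsUnit (algebraMap A (Localization.AtPrime I.asIdeal) e) :=
      (IsLocalization.AtPrime.isUnit_to_map_iff (Localization.AtPrime I.asIdeal) I.asIdeal e).mpr
        hnot
    rw [heI I hI] at h1
    exact not_isUnit_zero h1
  -- `πA e = 1`
  have hπe : πA e = 1 := by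
    have h1 : πA e * πA e = πA e := by rw [← map_mul, hee]
    have h2 : IsUnit (πA e) := by
      by_contra hnu
      exact heT (Ideal.mem_comap.mpr ((mem_maximalIdeal _).mpr hnu))
    have h3 : πA e * (πA e - 1) = 0 := by rw [mul_sub, h1, mul_one, sub_self]
    have h4 := (h2.mul_right_eq_zero).mp h3
    exact sub_eq_zero.mp h4
  refine ⟨e, hee, hπe, ?_⟩
  intro a ha
  -- the ideal generated by `a` and `1 - e` is the unit ideal
  have htop : Ideal.span {a, 1 - e} = ⊤ := by
    by_contra hne
    obtain ⟨M, hM, hle⟩ := Ideal.exists_le_maximal _ hne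
    have ha' : a ∈ M := hle (Ideal.subset_span (by simp))
    have he' : 1 - e ∈ M := hle (Ideal.subset_span (by simp))
    have henot : e ∉ M := by
      intro hmem
      apply hM.ne_top
      rw [Ideal.eq_top_iff_one]
      have := M.add_mem he' hmem
      rwa [sub_add_cancel] at this
    have hMI : (⟨M, hM⟩ : MaximalSpectrum A) = I₀ := heOther ⟨M, hM⟩ henot
    have hMeq : M = (maximalIdeal T).comap πA := congrArg MaximalSpectrum.asIdeal hMI
    rw [hMeq, Ideal.mem_comap, mem_maximalIdeal] at ha'
    exact ha' ha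
  have h1 : (1 : A) ∈ Ideal.span {a, 1 - e} := by rw [htop]; trivial
  rw [Ideal.mem_span_pair] at h1
  obtain ⟨b, c, hbc⟩ := h1
  refine ⟨b, ?_⟩
  have h2 : (1 - e) * e = 0 := by rw [sub_mul, one_mul, hee, sub_self]
  calc a * b * e = (b * a + c * (1 - e)) * e - c * ((1 - e) * e) := by ring
    _ = e := by rw [hbc, h2, one_mul, mul_zero, sub_zero]

end Idem

end

end Fermat.Agent.Lib.S33
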