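/-
S33 (programme P-AT-P), package [GLUE] (helper2), part 1: `2 × 2` MATRIX ALGEBRA over a local ring.

* `s33g_exists_diag` : a matrix `M` over a local ring with `tr M = 1 + det M` and `1 - det M` a unit
  is conjugate to `diag(det M, 1)`.
* `s33g_entry_formula` : if `r τ₀ = diag(a, 1)` then `(1 - a) * (r g) 1 1 = tr r(τ₀ g) - a * tr r(g)`.
* `s33g_entry_mul` : `(r (σ g)) 1 1 = (r σ) 1 0 * (r g) 0 1 + (r σ) 1 1 * (r g) 1 1`.
Mathlib only.
-/
import Mathlib

set_option autoImplicit false

namespace Fermat.Agent.Lib.S33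

open Matrix

section Diag

variable {T : Type*} [CommRing T]

/-- The diagonal matrix `diag(a, 1)`. -/
def s33g_diag (a : T) : Matrix (Fin 2) (Fin 2) T := !![a, 0; 0, 1]

theorem s33g_fin_two_ext {R : Type*} (x y z w x' y' z' w' : R) (h1 : x = x') (h2 : y = y')
    (h3 : z = z') (h4 : w = w') : !![x, y; z, w] = !![x', y'; z', w'] := by
  subst h1 h2 h3 h4; rfl

/-- Conjugation step: if `M * P = P * D` and `P` has a left inverse `Q`, then `Q * M * P = D`. -/
theorem s33g_conj_of_mul_eq (M P Q D : Matrix (Fin 2) (Fin 2) T) (hQP : Q * P = 1)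
    (h : M * P = P * D) : Q * M * P = D := by
  rw [Matrix.mul_assoc, h, ← Matrix.mul_assoc, hQP, Matrix.one_mul]

variable [IsLocalRing T]

/-- **Diagonalisation.** -/
theorem s33g_exists_diag (M : Matrix (Fin 2) (Fin 2) T) (htr : M.trace = 1 + M.det)
    (hu : IsUnit (1 - M.det)) :
    ∃ c d : Matrix (Fin 2) (Fin 2) T, c * d = 1 ∧ d * c = 1 ∧ c * M * d = s33g_diag M.det := by
  set m := M 0 0 with hm
  set b := M 0 1 with hb
  set c := M 1 0 with hc
  set n := M 1 1 with hn
  have hdet : M.det = m * n - b * c := Matrix.det_fin_two M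
  have htr' : m + n = 1 + (m * n - b * c) := by
    rw [← hdet, ← htr, Matrix.trace_fin_two]
  -- the key relation
  have hR : (1 - m) * (1 - n) = b * c := by linear_combination (-1 : T) * htr'
  have hs : 1 - M.det = (1 - m) + (1 - n) := by rw [hdet]; linear_combination htr'
  have ha : M.det = m + n - 1 := by rw [hdet]; linear_combination (-1 : T) * htr'
  have hMeq : M = !![m, b; c, n] := by
    ext i j; fin_cases i <;> fin_cases j <;> rfl
  rw [hs] at hu
  rcases IsLocalRing.isUnit_or_isUnit_of_isUnit_add hu with h1 | h1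
  · -- `1 - m` is a unit
    set P : Matrix (Fin 2) (Fin 2) T := !![1 - m, b; -c, 1 - m] with hP
    have hPdet : P.det = (1 - m) * ((1 - m) + (1 - n)) := by
      rw [hP, Matrix.det_fin_two_of]; linear_combination (-1 : T) * hR
    have hPu : IsUnit P.det := by rw [hPdet]; exact h1.mul hu
    refine ⟨P⁻¹, P, Matrix.nonsing_inv_mul P hPu, Matrix.mul_nonsing_inv P hPu, ?_⟩
    apply s33g_conj_of_mul_eq M P P⁻¹ _ (Matrix.nonsing_inv_mul P hPu)
    rw [ha, hP, s33g_diag]
    conv_lhs => rw [hMeq]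
    rw [Matrix.mul_fin_two, Matrix.mul_fin_two]
    apply s33g_fin_two_ext
    · linear_combination hR
    · ring
    · ring
    · linear_combination (-1 : T) * hR
  · -- `1 - n` is a unit
    set P : Matrix (Fin 2) (Fin 2) T := !![-b, 1 - n; 1 - n, c] with hP
    have hPdet : P.det = -((1 - n) * ((1 - m) + (1 - n))) := by
      rw [hP, Matrix.det_fin_two_of]; linear_combination hR
    have hPu : IsUnit P.det := by rw [hPdet]; exact (h1.mul hu).neg
    refine ⟨P⁻¹, P, Matrix.nonsing_inv_mul P hPu, Matrix.mul_nonsing_inv P hPu, ?_⟩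
    apply s33g_conj_of_mul_eq M P P⁻¹ _ (Matrix.nonsing_inv_mul P hPu)
    rw [ha, hP, s33g_diag]
    conv_lhs => rw [hMeq]
    rw [Matrix.mul_fin_two, Matrix.mul_fin_two]
    apply s33g_fin_two_ext
    · ring
    · linear_combination (-1 : T) * hR
    · linear_combination hR
    · ring

end Diag

section Entries

variable {T : Type*} [CommRing T] {G : Type*} [Monoid G]

/-- If `r τ₀ = diag(a, 1)`, the lower right entry of `r g` is a trace expression. -/
theorem s33g_entry_formula (r : G →* Matrix (Fin 2) (Fin 2) T) (τ₀ : G) (a : T)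
    (hτ : r τ₀ = s33g_diag a) (g : G) :
    (1 - a) * (r g) 1 1 = (r (τ₀ * g)).trace - a * (r g).trace := by
  have h1 : r (τ₀ * g) = !![a, 0; 0, 1] * !![(r g) 0 0, (r g) 0 1; (r g) 1 0, (r g) 1 1] := by
    rw [map_mul, hτ, s33g_diag]
    congr 1
    ext i j; fin_cases i <;> fin_cases j <;> rfl
  rw [h1, Matrix.mul_fin_two, Matrix.trace_fin_two_of, Matrix.trace_fin_two]
  ring

/-- The lower right entry of a product. -/
theorem s33g_entry_mul (r : G →* Matrix (Fin 2) (Fin 2) T) (σ g : G) :
    (r (σ * g)) 1 1 = (r σ) 1 0 * (r g) 0 1 + (r σ) 1 1 * (r g) 1 1 := by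
  rw [map_mul, Matrix.mul_apply, Fin.sum_univ_two]

end Entries

end Fermat.Agent.Lib.S33
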