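/-
S33 (programme P-AT-P), package [GLUE] (helper2), part 2: **ORDINARITY FROM TRACE IDENTITIES**
(the `T`-side conclusion, pure algebra).

`ρ : GaloisRepAdic T` over a local ring, the image of `ρ` spanning `End_T(V)` (residual absolute
irreducibility, `s31a_span_rho_eq_top`), subgroups `I ≤ D` of `G_ℚ`, `τ₀ ∈ I` with `1 - det ρ(τ₀)` a unit.
If
  (T2) `tr ρ(σ) = 1 + det ρ(σ)` for all `σ ∈ I`, and
  (T3) `(1 - a)(tr ρ(τ₀ σ g) - a tr ρ(σ g)) = (tr ρ(τ₀ σ) - a tr ρ(σ)) (tr ρ(τ₀ g) - a tr ρ(g))`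
       for all `σ ∈ D`, `g ∈ G_ℚ`, where `a = det ρ(τ₀)`,
then there is a basis `b'` with `L = T ∙ b' 0` stable under `D` and `I` acting trivially on `V / L`.
-/
import Fermat.Agent.Lib.S33.GMat
import Fermat.Agent.Lib.S53.MatrixRep

set_option autoImplicit false
set_option linter.unusedSectionVars false

namespace Fermat.Agent.Lib.S33

open Fermat.Agent.Lib.S53 Module

local notation "Γℚ" => (AlgebraicClosure ℚ ≃ₐ[ℚ] AlgebraicClosure ℚ)

noncomputable section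

variable {T : Type} [CommRing T] [IsLocalRing T]

/-- trace of `ρ σ` as the trace of its matrix. -/
theorem s33g_trace_matOf (ρ : GaloisRepAdic T) (b : Basis (Fin 2) T ρ.V) (σ : Γℚ) :
    (matOf ρ b σ).trace = LinearMap.trace T ρ.V (ρ.ρ σ) := by
  rw [matOf_apply, LinearMap.trace_eq_matrix_trace T b]

/-- determinant of `ρ σ` as the determinant of its matrix. -/
theorem s33g_det_matOf (ρ : GaloisRepAdic T) (b : Basis (Fin 2) T ρ.V) (σ : Γℚ) :
    (matOf ρ b σ).det = LinearMap.det (ρ.ρ σ) := by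
  rw [matOf_apply, LinearMap.det_toMatrix]

/-- the action on basis vectors in terms of the matrix. -/
theorem s33g_apply_basis (ρ : GaloisRepAdic T) (b : Basis (Fin 2) T ρ.V) (σ : Γℚ) (j : Fin 2) :
    ρ.ρ σ (b j) = (matOf ρ b σ) 0 j • b 0 + (matOf ρ b σ) 1 j • b 1 := by
  conv_lhs => rw [← b.sum_repr (ρ.ρ σ (b j))]
  rw [Fin.sum_univ_two, matOf_apply, LinearMap.toMatrix_apply, LinearMap.toMatrix_apply]

/-- If the image of `ρ` spans `End`, some `(0,1)` entry is a unit. -/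
theorem s33g_exists_unit_entry (ρ : GaloisRepAdic T)
    (hspan : Submodule.span T (Set.range ρ.ρ) = ⊤) (b : Basis (Fin 2) T ρ.V) :
    ∃ g : Γℚ, IsUnit ((matOf ρ b g) 0 1) := by
  by_contra hcon
  push Not at hcon
  have hall : ∀ X ∈ Submodule.span T (Set.range ρ.ρ),
      (LinearMap.toMatrix b b X) 0 1 ∈ IsLocalRing.maximalIdeal T := by
    intro X hX
    induction hX using Submodule.span_induction with
    | mem x hx =>
      obtain ⟨g, rfl⟩ := hx
      exact (IsLocalRing.mem_maximalIdeal _).mpr (hcon g)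
    | zero => rw [map_zero]; exact Submodule.zero_mem _
    | add x y _ _ hx hy => rw [map_add]; exact Submodule.add_mem _ hx hy
    | smul c x _ hx =>
      rw [map_smul]
      exact Ideal.mul_mem_left _ c hx
  have h1 := hall (Matrix.toLin b b (Matrix.single 0 1 (1 : T))) (by rw [hspan]; trivial)
  rw [LinearMap.toMatrix_toLin, Matrix.single_apply_same] at h1
  exact (IsLocalRing.maximalIdeal.isMaximal T).ne_top ((Ideal.eq_top_iff_one _).mpr h1)

/-- **Ordinarity from the trace identities.** -/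
theorem s33g_ordinary_of_traces (ρ : GaloisRepAdic T)
    (hspan : Submodule.span T (Set.range ρ.ρ) = ⊤)
    (D I : Subgroup Γℚ) (hID : I ≤ D) (τ₀ : Γℚ) (hτ₀ : τ₀ ∈ I)
    (hu : IsUnit (1 - LinearMap.det (ρ.ρ τ₀)))
    (hT2 : ∀ σ ∈ I, LinearMap.trace T ρ.V (ρ.ρ σ) = 1 + LinearMap.det (ρ.ρ σ))
    (hT3 : ∀ σ ∈ D, ∀ g : Γℚ,
      (1 - LinearMap.det (ρ.ρ τ₀)) *
        (LinearMap.trace T ρ.V (ρ.ρ (τ₀ * (σ * g))) -
          LinearMap.det (ρ.ρ τ₀) * LinearMap.trace T ρ.V (ρ.ρ (σ * g))) =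
      (LinearMap.trace T ρ.V (ρ.ρ (τ₀ * σ)) -
          LinearMap.det (ρ.ρ τ₀) * LinearMap.trace T ρ.V (ρ.ρ σ)) *
        (LinearMap.trace T ρ.V (ρ.ρ (τ₀ * g)) -
          LinearMap.det (ρ.ρ τ₀) * LinearMap.trace T ρ.V (ρ.ρ g))) :
    ∃ L : Submodule T ρ.V,
      (∃ b : Basis (Fin 2) T ρ.V, L = T ∙ b 0) ∧
      (∀ σ ∈ D, ∀ v ∈ L, ρ.ρ σ v ∈ L) ∧
      (∀ σ ∈ I, ∀ v : ρ.V, ρ.ρ σ v - v ∈ L) := by
  set a : T := LinearMap.det (ρ.ρ τ₀) with ha
  obtain ⟨u, hu'⟩ := hu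
  -- a first basis and the diagonalisation of `ρ τ₀`
  set b : Basis (Fin 2) T ρ.V := Module.finBasisOfFinrankEq T ρ.V ρ.finrank_eq with hb
  have hdetM : (matOf ρ b τ₀).det = a := s33g_det_matOf ρ b τ₀
  have htrM : (matOf ρ b τ₀).trace = 1 + (matOf ρ b τ₀).det := by
    rw [s33g_trace_matOf, s33g_det_matOf]; exact hT2 τ₀ hτ₀
  obtain ⟨c, d, hcd, hdc, hdiag⟩ := s33g_exists_diag (matOf ρ b τ₀) htrM
    (by rw [hdetM, ← hu']; exact u.isUnit)
  obtain ⟨b', hb'⟩ := exists_basis_conj ρ b c d hcd hdc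
  set r := matOf ρ b' with hr
  have hrτ : r τ₀ = s33g_diag a := by rw [hr, hb', hdiag, hdetM]
  -- traces and determinants
  have htr : ∀ g, (r g).trace = LinearMap.trace T ρ.V (ρ.ρ g) := fun g => s33g_trace_matOf ρ b' g
  have hdet : ∀ g, (r g).det = LinearMap.det (ρ.ρ g) := fun g => s33g_det_matOf ρ b' g
  have hentry : ∀ g, (u : T) * (r g) 1 1 =
      LinearMap.trace T ρ.V (ρ.ρ (τ₀ * g)) - a * LinearMap.trace T ρ.V (ρ.ρ g) := by
    intro g
    rw [hu', s33g_entry_formula r τ₀ a hrτ g, htr, htr]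
  have hcancel : ∀ x y : T, (u : T) * x = (u : T) * y → x = y := fun x y h =>
    (u.isUnit.mul_right_inj).mp h
  -- `D`-entry is `1` on `I`
  have hD1 : ∀ σ ∈ I, (r σ) 1 1 = 1 := by
    intro σ hσ
    apply hcancel
    rw [hentry σ, mul_one, hT2 σ hσ, hT2 (τ₀ * σ) (I.mul_mem hτ₀ hσ), map_mul, map_mul, ← ha, hu']
    ring
  -- multiplicativity of the `D`-entry on `D`
  have hDmul : ∀ σ ∈ D, ∀ g, (r (σ * g)) 1 1 = (r σ) 1 1 * (r g) 1 1 := by
    intro σ hσ g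
    apply hcancel
    apply hcancel
    have h3 := hT3 σ hσ g
    rw [← hu'] at h3
    rw [hentry (σ * g), h3, ← hentry σ, ← hentry g]
    ring
  -- the `(1,0)` entry vanishes on `D`
  obtain ⟨g₀, hg₀⟩ := s33g_exists_unit_entry ρ hspan b'
  have hC0 : ∀ σ ∈ D, (r σ) 1 0 = 0 := by
    intro σ hσ
    have h1 := s33g_entry_mul r σ g₀
    rw [hDmul σ hσ g₀] at h1
    have h2 : (r σ) 1 0 * (r g₀) 0 1 = 0 := by linear_combination (-1 : T) * h1
    exact (hg₀.mul_left_eq_zero).mp h2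
  -- conclusion
  refine ⟨T ∙ b' 0, ⟨b', rfl⟩, ?_, ?_⟩
  · intro σ hσ v hv
    obtain ⟨t, rfl⟩ := Submodule.mem_span_singleton.mp hv
    rw [map_smul, s33g_apply_basis ρ b' σ 0, ← hr, hC0 σ hσ, zero_smul, add_zero, smul_smul]
    exact Submodule.mem_span_singleton.mpr ⟨_, rfl⟩
  · intro σ hσ v
    have hv : v = b'.repr v 0 • b' 0 + b'.repr v 1 • b' 1 := by
      conv_lhs => rw [← b'.sum_repr v, Fin.sum_univ_two]
    have e : ρ.ρ σ v - v =
        (b'.repr v 0 * ((r σ) 0 0 - 1) + b'.repr v 1 * (r σ) 0 1) • b' 0 := by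
      conv_lhs => rw [hv]
      rw [map_add, map_smul, map_smul, s33g_apply_basis ρ b' σ 0, s33g_apply_basis ρ b' σ 1, ← hr,
        hC0 σ (hID hσ), hD1 σ hσ]
      module
    rw [e]
    exact Submodule.mem_span_singleton.mpr ⟨_, rfl⟩

end

end Fermat.Agent.Lib.S33
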