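/-
S33 (programme P-AT-P), package [GLUE] (helper2), part 8: more `2 × 2` matrix algebra and the
ENTRY FORM of the ordinarity criterion.

* `s33g_diag2 α β`, `s33g_exists_diag2` : `M` over a local ring with `tr M = α + β`, `det M = α β`,
  `α - β` a unit is conjugate to `diag(α, β)`;
* `s33g_entry_formula2` : if `r τ₀ = diag(α, β)` then `(β - α) (r g) 1 1 = tr r(τ₀ g) - α tr r(g)`;
* `s33g_exists_unit_entry10` : a unit `(1,0)` entry (companion of `s33g_exists_unit_entry`);
* `s33g_ordinary_of_entries` : a basis in which `D` is upper triangular and `I` has lower right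
  entry `1` gives the line of `IsOrdinaryAt`;
* `s33g_sep` : a finite `ℤ_[p]`-module is `p`-adically separated.
-/
import Fermat.Agent.Lib.S33.GOrd

set_option autoImplicit false
set_option linter.unusedSectionVars false

namespace Fermat.Agent.Lib.S33

open Matrix Fermat.Agent.Lib.S53 Module

local notation "Γℚ" => (AlgebraicClosure ℚ ≃ₐ[ℚ] AlgebraicClosure ℚ)

noncomputable section

section Diag2

variable {T : Type*} [CommRing T]

/-- The diagonal matrix `diag(α, β)`. -/
def s33g_diag2 (α β : T) : Matrix (Fin 2) (Fin 2) T := !![α, 0; 0, β]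

variable [IsLocalRing T]

/-- **Diagonalisation with two eigenvalues.** -/
theorem s33g_exists_diag2 (M : Matrix (Fin 2) (Fin 2) T) (α β : T) (htr : M.trace = α + β)
    (hdet : M.det = α * β) (hu : IsUnit (α - β)) :
    ∃ c d : Matrix (Fin 2) (Fin 2) T, c * d = 1 ∧ d * c = 1 ∧ c * M * d = s33g_diag2 α β := by
  obtain ⟨u, hu'⟩ := hu
  set v : T := ((u⁻¹ : Tˣ) : T) with hv
  have huv : (α - β) * v = 1 := by rw [← hu', hv, Units.mul_inv]
  set M' : Matrix (Fin 2) (Fin 2) T := v • (α • (1 : Matrix (Fin 2) (Fin 2) T) - M) with hM'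
  have hMeq : M = !![M 0 0, M 0 1; M 1 0, M 1 1] := by
    ext i j; fin_cases i <;> fin_cases j <;> rfl
  have htr' : M 0 0 + M 1 1 = α + β := by rw [← htr, Matrix.trace_fin_two]
  have hdet' : M 0 0 * M 1 1 - M 0 1 * M 1 0 = α * β := by rw [← hdet, Matrix.det_fin_two]
  have hM'eq : M' = !![v * (α - M 0 0), -(v * M 0 1); -(v * M 1 0), v * (α - M 1 1)] := by
    rw [hM']
    ext i j
    fin_cases i <;> fin_cases j <;> simp [Matrix.smul_apply, Matrix.sub_apply] <;> ring
  have hdetM' : M'.det = 0 := by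
    rw [hM'eq, Matrix.det_fin_two_of]
    have : v * (α - M 0 0) * (v * (α - M 1 1)) - -(v * M 0 1) * -(v * M 1 0) =
        v * v * (α * α - α * (M 0 0 + M 1 1) + (M 0 0 * M 1 1 - M 0 1 * M 1 0)) := by ring
    rw [this, htr', hdet']
    ring
  have htrM' : M'.trace = 1 + M'.det := by
    rw [hdetM', add_zero, hM'eq, Matrix.trace_fin_two_of]
    have : v * (α - M 0 0) + v * (α - M 1 1) = v * (2 * α - (M 0 0 + M 1 1)) := by ring
    rw [this, htr']
    linear_combination huv
  obtain ⟨c, d, hcd, hdc, hdiag⟩ := s33g_exists_diag M' htrM' (by rw [hdetM', sub_zero]; exact isUnit_one)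
  refine ⟨c, d, hcd, hdc, ?_⟩
  have h1 : c * M' * d = v • (α • (1 : Matrix (Fin 2) (Fin 2) T) - c * M * d) := by
    rw [hM', Matrix.mul_smul, Matrix.smul_mul, Matrix.mul_sub, Matrix.sub_mul, Matrix.mul_smul,
      Matrix.smul_mul, Matrix.mul_one, hcd]
  rw [hdetM', h1] at hdiag
  have h2 : c * M * d = α • (1 : Matrix (Fin 2) (Fin 2) T) - (α - β) • s33g_diag (0 : T) := by
    rw [← hdiag, smul_smul, huv, one_smul]
    abel
  rw [h2, s33g_diag, s33g_diag2]
  ext i j
  fin_cases i <;> fin_cases j <;> simp [Matrix.smul_apply, Matrix.sub_apply]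

end Diag2

section Entries2

variable {T : Type*} [CommRing T] {G : Type*} [Monoid G]

/-- If `r τ₀ = diag(α, β)`, the lower right entry of `r g` is a trace expression. -/
theorem s33g_entry_formula2 (r : G →* Matrix (Fin 2) (Fin 2) T) (τ₀ : G) (α β : T)
    (hτ : r τ₀ = s33g_diag2 α β) (g : G) :
    (β - α) * (r g) 1 1 = (r (τ₀ * g)).trace - α * (r g).trace := by
  have h1 : r (τ₀ * g) = !![α, 0; 0, β] * !![(r g) 0 0, (r g) 0 1; (r g) 1 0, (r g) 1 1] := by
    rw [map_mul, hτ, s33g_diag2]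
    congr 1
    ext i j; fin_cases i <;> fin_cases j <;> rfl
  rw [h1, Matrix.mul_fin_two, Matrix.trace_fin_two_of, Matrix.trace_fin_two]
  ring

end Entries2

section Ord

variable {T : Type} [CommRing T] [IsLocalRing T]

/-- If the image of `ρ` spans `End`, some `(1,0)` entry is a unit. -/
theorem s33g_exists_unit_entry10 (ρ : GaloisRepAdic T)
    (hspan : Submodule.span T (Set.range ρ.ρ) = ⊤) (b : Basis (Fin 2) T ρ.V) :
    ∃ g : Γℚ, IsUnit ((matOf ρ b g) 1 0) := by
  by_contra hcon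
  push Not at hcon
  have hall : ∀ X ∈ Submodule.span T (Set.range ρ.ρ),
      (LinearMap.toMatrix b b X) 1 0 ∈ IsLocalRing.maximalIdeal T := by
    intro X hX
    induction hX using Submodule.span_induction with
    | mem x hx =>
      obtain ⟨g, rfl⟩ := hx
      exact (IsLocalRing.mem_maximalIdeal _).mpr (hcon g)
    | zero => rw [map_zero]; exact Submodule.zero_mem _
    | add x y _ _ hx hy => rw [map_add]; exact Submodule.add_mem _ hx hy
    | smul c x _ hx =>
      rw [map_smul, Matrix.smul_apply, smul_eq_mul]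
      exact Ideal.mul_mem_left _ _ hx
  have h1 := hall (Matrix.toLin b b (Matrix.single 1 0 1)) (by rw [hspan]; trivial)
  rw [LinearMap.toMatrix_toLin, Matrix.single_apply_same] at h1
  exact (IsLocalRing.mem_maximalIdeal _).mp h1 isUnit_one

/-- **Ordinarity from matrix entries.** -/
theorem s33g_ordinary_of_entries (ρ : GaloisRepAdic T) (b' : Basis (Fin 2) T ρ.V)
    (D I : Subgroup Γℚ) (hID : I ≤ D)
    (hC0 : ∀ σ ∈ D, (matOf ρ b' σ) 1 0 = 0) (hD1 : ∀ σ ∈ I, (matOf ρ b' σ) 1 1 = 1) :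
    ∃ L : Submodule T ρ.V,
      (∃ b : Basis (Fin 2) T ρ.V, L = T ∙ b 0) ∧
      (∀ σ ∈ D, ∀ v ∈ L, ρ.ρ σ v ∈ L) ∧
      (∀ σ ∈ I, ∀ v : ρ.V, ρ.ρ σ v - v ∈ L) := by
  refine ⟨T ∙ b' 0, ⟨b', rfl⟩, ?_, ?_⟩
  · intro σ hσ v hv
    obtain ⟨t, rfl⟩ := Submodule.mem_span_singleton.mp hv
    rw [map_smul, s33g_apply_basis ρ b' σ 0, hC0 σ hσ, zero_smul, add_zero, smul_smul]
    exact Submodule.mem_span_singleton.mpr ⟨_, rfl⟩
  · intro σ hσ v
    have hv : v = b'.repr v 0 • b' 0 + b'.repr v 1 • b' 1 := by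
      conv_lhs => rw [← b'.sum_repr v, Fin.sum_univ_two]
    have e : ρ.ρ σ v - v =
        (b'.repr v 0 * ((matOf ρ b' σ) 0 0 - 1) + b'.repr v 1 * (matOf ρ b' σ) 0 1) • b' 0 := by
      conv_lhs => rw [hv]
      rw [map_add, map_smul, map_smul, s33g_apply_basis ρ b' σ 0, s33g_apply_basis ρ b' σ 1,
        hC0 σ (hID hσ), hD1 σ hσ]
      module
    rw [e]
    exact Submodule.mem_span_singleton.mpr ⟨_, rfl⟩

end Ord

section Sep

variable {p : ℕ} [Fact p.Prime] {Λ : Type*} [AddCommGroup Λ] [Module ℤ_[p] Λ] [Module.Finite ℤ_[p] Λ]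

/-- A finite `ℤ_[p]`-module is `p`-adically separated. -/
theorem s33g_sep (w : Λ) (h : ∀ m : ℕ, ∃ w' : Λ, w = (p : ℤ_[p]) ^ m • w') : w = 0 := by
  have hH : IsHausdorff (IsLocalRing.maximalIdeal ℤ_[p]) Λ := inferInstance
  apply hH.haus
  intro n
  rw [SModEq.zero]
  obtain ⟨w', hw'⟩ := h n
  rw [hw']
  refine Submodule.smul_mem_smul (Ideal.pow_mem_pow ?_ n) Submodule.mem_top
  rw [PadicInt.maximalIdeal_eq_span_p]
  exact Ideal.mem_span_singleton_self _

end Sep

end

end Fermat.Agent.Lib.S33
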