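/-
S33 (programme P-AT-P), package [GLUE] (helper2), part 6: **THE LOCAL FACTOR** `Q = A / (1 - e)` of a
finite commutative `ℤ_[p]`-algebra `A` cut out by an idempotent `e` as produced by
`s33g_exists_idem` (Lib/S33/GLoc), with the induced homomorphism `πQ : Q →+* T`:

* `s33g_Q e`, `s33g_piQ`, `s33g_piQ_mk`;
* `s33g_isUnit_of_piQ`   : `πQ x` a unit ⇒ `x` a unit;   `s33g_Q_isLocalRing`, `s33g_piQ_isLocalHom`,
  `s33g_algebraMap_isLocalHom`, `s33g_Q_finite`, `s33g_Q_complete`;
* `s33g_hensel_roots`    : in a Henselian local ring, `X² - t X + d` with `1 - t + d ∈ 𝔪`, `1 - d` a unit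
  splits as `(X - α)(X - β)` with `β ≡ 1`, and `α - β`, `α - 1` units;
* `s33g_pow_mem_of_monic`: an element of the maximal ideal of a local algebra over a local ring `R`
  which is a root of a monic polynomial over `R` has a power in `𝔪_R`·(the algebra).
-/
import Mathlib
import Fermat.Prelude.Thm_IsLocalRing_isAdicComplete_of_module_finite

set_option autoImplicit false
set_option linter.unusedSectionVars false
set_option linter.style.haveILetI false

namespace Fermat.Agent.Lib.S33

open IsLocalRing Polynomial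

noncomputable section

section LocalUnits

variable {Q : Type*} [CommRing Q] [IsLocalRing Q]

/-- unit plus non-unit is a unit. -/
theorem s33g_isUnit_add_of_mem {a b : Q} (ha : IsUnit a) (hb : b ∈ maximalIdeal Q) :
    IsUnit (a + b) := by
  by_contra hnu
  have h1 : a + b ∈ maximalIdeal Q := (mem_maximalIdeal _).mpr hnu
  have h2 : a ∈ maximalIdeal Q := by
    have := Ideal.sub_mem _ h1 hb
    rwa [add_sub_cancel_right] at this
  exact (mem_maximalIdeal _).mp h2 ha

/-- **Hensel roots** of `X² - t X + d`. -/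
theorem s33g_hensel_roots [HenselianRing Q (maximalIdeal Q)] (t d : Q)
    (h1 : 1 - t + d ∈ maximalIdeal Q) (h2 : IsUnit (1 - d)) :
    ∃ α β : Q, α + β = t ∧ α * β = d ∧ β - 1 ∈ maximalIdeal Q ∧ IsUnit (α - β) ∧
      IsUnit (α - 1) := by
  set f : Q[X] := X ^ 2 - C t * X + C d with hf
  have hmonic : f.Monic := by
    rw [hf, sub_add]
    apply Polynomial.monic_X_pow_sub
    refine lt_of_le_of_lt (degree_sub_le _ _) (max_lt ?_ ?_)
    · exact lt_of_le_of_lt (degree_C_mul_X_le t) (by norm_num)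
    · exact lt_of_le_of_lt degree_C_le (by norm_num)
  have heval : f.eval 1 = 1 - t + d := by
    rw [hf]; simp
  have hder : f.derivative.eval 1 = (1 - d) + (1 - t + d) := by
    rw [hf]; simp; ring
  have hunit : IsUnit (Ideal.Quotient.mk (maximalIdeal Q) (f.derivative.eval 1)) := by
    rw [hder]
    exact (s33g_isUnit_add_of_mem h2 h1).map _
  obtain ⟨β, hroot, hβ⟩ := HenselianRing.is_henselian f hmonic 1 (by rw [heval]; exact h1) hunit
  have hβ2 : β ^ 2 - t * β + d = 0 := by
    have := hroot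
    rw [IsRoot.def, hf] at this
    simpa using this
  refine ⟨t - β, β, by ring, by linear_combination (-1 : Q) * hβ2, hβ, ?_, ?_⟩
  · have e : t - β - β = -(1 - d) + (-(1 - t + d) - 2 * (β - 1)) := by ring
    rw [e]
    exact s33g_isUnit_add_of_mem h2.neg
      (Ideal.sub_mem _ ((Ideal.neg_mem_iff _).mpr h1) (Ideal.mul_mem_left _ _ hβ))
  · have e : t - β - 1 = -(1 - d) + (-(1 - t + d) - (β - 1)) := by ring
    rw [e]
    exact s33g_isUnit_add_of_mem h2.neg (Ideal.sub_mem _ ((Ideal.neg_mem_iff _).mpr h1) hβ)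

end LocalUnits

section Monic

variable {R : Type*} [CommRing R] [IsLocalRing R] {Q : Type*} [CommRing Q] [IsLocalRing Q]
  [Algebra R Q]

/-- Auxiliary induction for `s33g_pow_mem_of_monic`. -/
theorem s33g_pow_mem_aux (x : Q) (hx : x ∈ maximalIdeal Q) :
    ∀ (n : ℕ) (g : R[X]), g.Monic → g.natDegree = n → ∀ k : ℕ,
      x ^ k * aeval x g ∈ (maximalIdeal R).map (algebraMap R Q) →
      ∃ j : ℕ, x ^ j ∈ (maximalIdeal R).map (algebraMap R Q) := by
  intro n
  induction n with
  | zero =>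
    intro g hg hdeg k hk
    have h1 : g = 1 := by
      rw [eq_C_of_natDegree_eq_zero hdeg] at hg ⊢
      have := hg.leadingCoeff
      rw [leadingCoeff_C] at this
      rw [this, map_one]
    rw [h1, map_one, mul_one] at hk
    exact ⟨k, hk⟩
  | succ n ih =>
    intro g hg hdeg k hk
    have hdecomp : g = divX g * X + C (g.coeff 0) := (divX_mul_X_add g).symm
    have hdivdeg : (divX g).natDegree = n := by rw [natDegree_divX_eq_natDegree_tsub_one, hdeg]; rfl
    have hdivmonic : (divX g).Monic := by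
      rw [Monic, leadingCoeff, hdivdeg, coeff_divX]
      have := hg.coeff_natDegree
      rwa [hdeg] at this
    have haev : aeval x g = aeval x (divX g) * x + algebraMap R Q (g.coeff 0) := by
      conv_lhs => rw [hdecomp]
      rw [map_add, map_mul, aeval_X, aeval_C]
    by_cases hc : IsUnit (g.coeff 0)
    · -- `aeval x g` is a unit
      have hu : IsUnit (aeval x g) := by
        rw [haev, add_comm]
        exact s33g_isUnit_add_of_mem (hc.map _) (Ideal.mul_mem_left _ _ hx)
      refine ⟨k, ?_⟩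
      obtain ⟨u, hu'⟩ := hu
      have : x ^ k = x ^ k * aeval x g * (↑u⁻¹ : Q) := by
        rw [← hu', mul_assoc, Units.mul_inv, mul_one]
      rw [this]
      exact Ideal.mul_mem_right _ _ hk
    · -- the constant coefficient lies in `𝔪_R`
      have hc' : g.coeff 0 ∈ maximalIdeal R := (mem_maximalIdeal _).mpr hc
      have hcQ : algebraMap R Q (g.coeff 0) ∈ (maximalIdeal R).map (algebraMap R Q) :=
        Ideal.mem_map_of_mem _ hc'
      refine ih (divX g) hdivmonic hdivdeg (k + 1) ?_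
      have e : x ^ (k + 1) * aeval x (divX g) =
          x ^ k * aeval x g - x ^ k * algebraMap R Q (g.coeff 0) := by
        rw [haev]; ring
      rw [e]
      exact Ideal.sub_mem _ hk (Ideal.mul_mem_left _ _ hcQ)

/-- A root `x ∈ 𝔪_Q` of a monic polynomial over `R` has a power in `𝔪_R Q`. -/
theorem s33g_pow_mem_of_monic (x : Q) (hx : x ∈ maximalIdeal Q) (f : R[X]) (hf : f.Monic)
    (h0 : aeval x f = 0) : ∃ j : ℕ, x ^ j ∈ (maximalIdeal R).map (algebraMap R Q) := by
  refine s33g_pow_mem_aux x hx f.natDegree f hf rfl 0 ?_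
  rw [h0, mul_zero]
  exact zero_mem _

end Monic

section Quot

variable {p : ℕ} [Fact p.Prime] {A : Type} [CommRing A] [Algebra ℤ_[p] A]
  {T : Type*} [CommRing T] [IsLocalRing T]

/-- The factor of `A` cut out by `e`. -/
abbrev s33g_Q (e : A) : Type := A ⧸ Ideal.span {1 - e}

/-- The homomorphism induced by `πA` on the factor. -/
def s33g_piQ (πA : A →+* T) (e : A) (hπe : πA e = 1) : s33g_Q e →+* T :=
  Ideal.Quotient.lift (Ideal.span {1 - e}) πA (by
    intro a ha
    obtain ⟨c, rfl⟩ := Ideal.mem_span_singleton'.mp ha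
    rw [map_mul, map_sub, map_one, hπe, sub_self, mul_zero])

theorem s33g_piQ_mk (πA : A →+* T) (e : A) (hπe : πA e = 1) (a : A) :
    s33g_piQ πA e hπe (Ideal.Quotient.mk (Ideal.span {1 - e}) a) = πA a :=
  Ideal.Quotient.lift_mk _ _ _

/-- Units are detected by `πQ`. -/
theorem s33g_isUnit_of_piQ (πA : A →+* T) (e : A) (hπe : πA e = 1)
    (he3 : ∀ a : A, IsUnit (πA a) → ∃ b : A, a * b * e = e)
    (x : s33g_Q e) (hx : IsUnit (s33g_piQ πA e hπe x)) : IsUnit x := by
  obtain ⟨a, rfl⟩ := Ideal.Quotient.mk_surjective x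
  rw [s33g_piQ_mk] at hx
  obtain ⟨b, hb⟩ := he3 a hx
  refine IsUnit.of_mul_eq_one (Ideal.Quotient.mk _ b) ?_
  rw [← map_mul, ← map_one (Ideal.Quotient.mk (Ideal.span {1 - e})), Ideal.Quotient.eq,
    Ideal.mem_span_singleton']
  exact ⟨a * b - 1, by linear_combination (-1 : A) * hb⟩

theorem s33g_Q_isLocalRing (πA : A →+* T) (e : A) (hπe : πA e = 1)
    (he3 : ∀ a : A, IsUnit (πA a) → ∃ b : A, a * b * e = e) : IsLocalRing (s33g_Q e) := by
  haveI : Nontrivial (s33g_Q e) := by
    refine ⟨⟨0, 1, fun h => ?_⟩⟩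
    have := congrArg (s33g_piQ πA e hπe) h
    rw [map_zero, map_one] at this
    exact zero_ne_one this
  refine IsLocalRing.of_nonunits_add ?_
  intro a b ha hb
  have ha' : s33g_piQ πA e hπe a ∈ maximalIdeal T := by
    rw [mem_maximalIdeal]
    exact fun h => ha (s33g_isUnit_of_piQ πA e hπe he3 a h)
  have hb' : s33g_piQ πA e hπe b ∈ maximalIdeal T := by
    rw [mem_maximalIdeal]
    exact fun h => hb (s33g_isUnit_of_piQ πA e hπe he3 b h)
  intro hab
  have h1 : IsUnit (s33g_piQ πA e hπe (a + b)) := hab.map _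
  rw [map_add] at h1
  exact (mem_maximalIdeal _).mp (Ideal.add_mem _ ha' hb') h1

theorem s33g_piQ_isLocalHom (πA : A →+* T) (e : A) (hπe : πA e = 1)
    (he3 : ∀ a : A, IsUnit (πA a) → ∃ b : A, a * b * e = e) :
    IsLocalHom (s33g_piQ πA e hπe) :=
  ⟨fun x hx => s33g_isUnit_of_piQ πA e hπe he3 x hx⟩

theorem s33g_algebraMap_isLocalHom (πA : A →+* T) (e : A) (hπe : πA e = 1)
    (hpT : (p : T) ∈ maximalIdeal T) :
    IsLocalHom (algebraMap ℤ_[p] (s33g_Q e)) := by
  refine ⟨fun x hx => ?_⟩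
  by_contra hnu
  have h1 : x ∈ maximalIdeal ℤ_[p] := (mem_maximalIdeal _).mpr hnu
  rw [PadicInt.maximalIdeal_eq_span_p, Ideal.mem_span_singleton] at h1
  obtain ⟨y, rfl⟩ := h1
  have h2 : IsUnit (s33g_piQ πA e hπe (algebraMap ℤ_[p] (s33g_Q e) ((p : ℤ_[p]) * y))) := hx.map _
  rw [map_mul, map_mul, map_natCast, map_natCast] at h2
  exact (mem_maximalIdeal _).mp (Ideal.mul_mem_right _ _ hpT) h2

theorem s33g_Q_finite [Module.Finite ℤ_[p] A] (e : A) : Module.Finite ℤ_[p] (s33g_Q e) :=
  Module.Finite.of_surjective (Ideal.Quotient.mkₐ ℤ_[p] (Ideal.span {1 - e})).toLinearMap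
    (Ideal.Quotient.mkₐ_surjective ℤ_[p] (Ideal.span {1 - e}))

theorem s33g_Q_complete [Module.Finite ℤ_[p] A] (πA : A →+* T) (e : A) (hπe : πA e = 1)
    (he3 : ∀ a : A, IsUnit (πA a) → ∃ b : A, a * b * e = e) (hpT : (p : T) ∈ maximalIdeal T) :
    letI := s33g_Q_isLocalRing πA e hπe he3
    IsAdicComplete (maximalIdeal (s33g_Q e)) (s33g_Q e) := by
  letI := s33g_Q_isLocalRing πA e hπe he3
  haveI := s33g_algebraMap_isLocalHom πA e hπe hpT
  haveI := s33g_Q_finite (p := p) e
  exact IsLocalRing.isAdicComplete_of_module_finite (𝒪 := ℤ_[p])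

end Quot

end

end Fermat.Agent.Lib.S33
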