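/-
S33 (programme P-AT-P), package [GLUE] (helper2), part 7: **THE `e`-PART OF `Λ` AS A MODULE OVER THE
LOCAL FACTOR** `Q = A / (1 - e)`.

`A` a commutative `ℤ_[p]`-algebra acting on a `ℤ_[p]`-module `Λ` (`act : A →ₐ[ℤ_[p]] End Λ`), `e ∈ A`.
* `s33g_W act e = ker (act (1 - e))` (`= e Λ` when `e` is idempotent), stable under `A`;
* `s33g_moduleQ` : the `Q`-module structure on `↥W`, `s33g_mk_smul_coe`, scalar tower, faithfulness
  (`s33g_faithful`, for `e` idempotent and `act` injective);
* `s33g_rhoW` : a group action on `Λ` commuting with `A` induces `G →* End_Q ↥W`, `s33g_rhoW_coe`.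
-/
import Fermat.Agent.Lib.S33.GQuot

set_option autoImplicit false
set_option linter.unusedSectionVars false

namespace Fermat.Agent.Lib.S33

noncomputable section

section W

variable {p : ℕ} [Fact p.Prime] {Λ : Type*} [AddCommGroup Λ] [Module ℤ_[p] Λ]
  {A : Type} [CommRing A] [Algebra ℤ_[p] A]
  (act : A →ₐ[ℤ_[p]] Module.End ℤ_[p] Λ) (e : A)

/-- The `e`-part of `Λ`. -/
def s33g_W : Submodule ℤ_[p] Λ := LinearMap.ker (act (1 - e))

theorem s33g_mem_W {w : Λ} : w ∈ s33g_W act e ↔ act e w = w := by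
  unfold s33g_W
  rw [LinearMap.mem_ker, map_sub, map_one, LinearMap.sub_apply, Module.End.one_apply, sub_eq_zero,
    eq_comm]

theorem s33g_act_comm (a b : A) (w : Λ) : act a (act b w) = act b (act a w) := by
  rw [← Module.End.mul_apply, ← Module.End.mul_apply, ← map_mul, ← map_mul, mul_comm]

theorem s33g_act_mem_W (a : A) {w : Λ} (hw : w ∈ s33g_W act e) : act a w ∈ s33g_W act e := by
  unfold s33g_W at hw ⊢
  rw [LinearMap.mem_ker] at hw ⊢
  rw [s33g_act_comm, hw, map_zero]

theorem s33g_e_mem_W (hee : e * e = e) (w : Λ) : act e w ∈ s33g_W act e := by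
  rw [s33g_mem_W, ← Module.End.mul_apply, ← map_mul, hee]

/-- The restriction homomorphism `A →+* End ↥W`. -/
def s33g_resW : A →+* Module.End ℤ_[p] ↥(s33g_W act e) where
  toFun a := (act a).restrict (fun _ hw => s33g_act_mem_W act e a hw)
  map_one' := by
    refine LinearMap.ext fun w => Subtype.ext ?_
    rw [LinearMap.restrict_coe_apply, map_one, Module.End.one_apply, Module.End.one_apply]
  map_mul' a b := by
    refine LinearMap.ext fun w => Subtype.ext ?_
    rw [LinearMap.restrict_coe_apply, map_mul, Module.End.mul_apply, Module.End.mul_apply,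
      LinearMap.restrict_coe_apply, LinearMap.restrict_coe_apply]
  map_zero' := by
    refine LinearMap.ext fun w => Subtype.ext ?_
    rw [LinearMap.restrict_coe_apply, map_zero, LinearMap.zero_apply, LinearMap.zero_apply]
    rfl
  map_add' a b := by
    refine LinearMap.ext fun w => Subtype.ext ?_
    rw [LinearMap.restrict_coe_apply, map_add, LinearMap.add_apply]
    rfl

theorem s33g_resW_coe (a : A) (w : ↥(s33g_W act e)) :
    ((s33g_resW act e a w : ↥(s33g_W act e)) : Λ) = act a (w : Λ) := rfl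

/-- The action of the factor `Q = A / (1 - e)` on `↥W`. -/
def s33g_actQ : s33g_Q e →+* Module.End ℤ_[p] ↥(s33g_W act e) :=
  Ideal.Quotient.lift (Ideal.span {1 - e}) (s33g_resW act e) (by
    intro a ha
    obtain ⟨c, rfl⟩ := Ideal.mem_span_singleton'.mp ha
    refine LinearMap.ext fun w => Subtype.ext ?_
    rw [s33g_resW_coe, map_mul, Module.End.mul_apply, LinearMap.zero_apply]
    have hw : act (1 - e) (w : Λ) = 0 := w.2
    rw [hw, map_zero]
    rfl)

theorem s33g_actQ_mk (a : A) :
    s33g_actQ act e (Ideal.Quotient.mk (Ideal.span {1 - e}) a) = s33g_resW act e a :=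
  Ideal.Quotient.lift_mk _ _ _

/-- The `Q`-module structure on `↥W`. -/
instance s33g_moduleQ : Module (s33g_Q e) ↥(s33g_W act e) :=
  Module.compHom _ (s33g_actQ act e)

theorem s33g_smul_def (x : s33g_Q e) (w : ↥(s33g_W act e)) : x • w = s33g_actQ act e x w := rfl

theorem s33g_mk_smul_coe (a : A) (w : ↥(s33g_W act e)) :
    (((Ideal.Quotient.mk (Ideal.span {1 - e}) a : s33g_Q e) • w : ↥(s33g_W act e)) : Λ) =
      act a (w : Λ) := by
  rw [s33g_smul_def, s33g_actQ_mk, s33g_resW_coe]

instance s33g_isScalarTower : IsScalarTower ℤ_[p] (s33g_Q e) ↥(s33g_W act e) := by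
  refine ⟨fun c x w => ?_⟩
  obtain ⟨a, rfl⟩ := Ideal.Quotient.mk_surjective x
  apply Subtype.ext
  have h1 : c • (Ideal.Quotient.mk (Ideal.span {1 - e}) a : s33g_Q e) =
      Ideal.Quotient.mk (Ideal.span {1 - e}) (c • a) := rfl
  rw [h1, s33g_mk_smul_coe, Submodule.coe_smul, s33g_mk_smul_coe, map_smul, LinearMap.smul_apply]

/-- Faithfulness of the action of `Q` on `↥W`. -/
theorem s33g_faithful (hee : e * e = e) (hact : Function.Injective act) (x : s33g_Q e)
    (hx : ∀ w : ↥(s33g_W act e), x • w = 0) : x = 0 := by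
  obtain ⟨a, rfl⟩ := Ideal.Quotient.mk_surjective x
  have h1 : act (a * e) = 0 := by
    refine LinearMap.ext fun w => ?_
    have h2 := congrArg Subtype.val (hx ⟨act e w, s33g_e_mem_W act e hee w⟩)
    rw [s33g_mk_smul_coe] at h2
    rw [map_mul, Module.End.mul_apply, LinearMap.zero_apply]
    exact h2
  have h3 : a * e = 0 := hact (by rw [h1, map_zero])
  rw [Ideal.Quotient.eq_zero_iff_mem, Ideal.mem_span_singleton']
  exact ⟨a, by rw [mul_sub, mul_one, h3, sub_zero]⟩

end W

section Rho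

variable {p : ℕ} [Fact p.Prime] {Λ : Type*} [AddCommGroup Λ] [Module ℤ_[p] Λ]
  {A : Type} [CommRing A] [Algebra ℤ_[p] A]
  (act : A →ₐ[ℤ_[p]] Module.End ℤ_[p] Λ) (e : A)
  {G : Type*} [Group G] (ρ : G →* Module.End ℤ_[p] Λ)
  (hcomm : ∀ (g : G) (a : A) (w : Λ), ρ g (act a w) = act a (ρ g w))

theorem s33g_rho_mem_W (hcomm : ∀ (g : G) (a : A) (w : Λ), ρ g (act a w) = act a (ρ g w))
    (g : G) {w : Λ} (hw : w ∈ s33g_W act e) : ρ g w ∈ s33g_W act e := by
  unfold s33g_W at hw ⊢
  rw [LinearMap.mem_ker] at hw ⊢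
  rw [← hcomm, hw, map_zero]

/-- The induced action on the `e`-part, `Q`-linear. -/
def s33g_rhoW : G →* Module.End (s33g_Q e) ↥(s33g_W act e) where
  toFun g :=
    { toFun := fun w => ⟨ρ g (w : Λ), s33g_rho_mem_W act e ρ hcomm g w.2⟩
      map_add' := fun w w' => Subtype.ext (by
        show ρ g ((w : Λ) + (w' : Λ)) = ρ g (w : Λ) + ρ g (w' : Λ)
        rw [map_add])
      map_smul' := fun x w => by
        obtain ⟨a, rfl⟩ := Ideal.Quotient.mk_surjective x
        apply Subtype.ext
        have h1 : ((((Ideal.Quotient.mk (Ideal.span {1 - e}) a : s33g_Q e) • w :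
            ↥(s33g_W act e)) : Λ)) = act a (w : Λ) := s33g_mk_smul_coe act e a w
        have h2 := s33g_mk_smul_coe act e a
          ⟨ρ g (w : Λ), s33g_rho_mem_W act e ρ hcomm g w.2⟩
        show ρ g (((Ideal.Quotient.mk (Ideal.span {1 - e}) a : s33g_Q e) • w :
          ↥(s33g_W act e)) : Λ) = _
        rw [h1, hcomm]
        exact h2.symm }
  map_one' := by
    refine LinearMap.ext fun w => Subtype.ext ?_
    show ρ 1 (w : Λ) = (w : Λ)
    rw [map_one, Module.End.one_apply]
  map_mul' g h := by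
    refine LinearMap.ext fun w => Subtype.ext ?_
    show ρ (g * h) (w : Λ) = ρ g (ρ h (w : Λ))
    rw [map_mul, Module.End.mul_apply]

theorem s33g_rhoW_coe (g : G) (w : ↥(s33g_W act e)) :
    ((s33g_rhoW act e ρ hcomm g w : ↥(s33g_W act e)) : Λ) = ρ g (w : Λ) := rfl

end Rho

end

end Fermat.Agent.Lib.S33
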