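/-
S33 (programme P-AT-P), package [GLUE] (helper2), part 9: **THE `e`-PART IS THE PRIMARY PART.**

`A` a commutative `ℤ_[p]`-algebra acting faithfully on a finite free `ℤ_[p]`-module `Λ`,
`πA : A →+* T` (`T` local, `p ∈ 𝔪_T`), `e` the local idempotent of `s33g_exists_idem`.  Then
`W = s33g_W act e` is exactly the set of `w` on which every `a` with `πA a ∈ 𝔪_T` acts topologically
nilpotently:
* `s33g_nilp_on_W` : `a` with `πA a ∈ 𝔪_T` is topologically nilpotent on `W`
  (Cayley–Hamilton over `ℤ_[p]` + locality of `Q = A / (1 - e)`);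
* `s33g_W_eq_of_char` : `W = Wθ` for any submodule `Wθ` characterised by topological nilpotency.
-/
import Fermat.Agent.Lib.S33.GLoc
import Fermat.Agent.Lib.S33.GMod
import Fermat.Agent.Lib.S33.GMat2

set_option autoImplicit false
set_option linter.unusedSectionVars false
set_option linter.style.haveILetI false

namespace Fermat.Agent.Lib.S33

open IsLocalRing Module Polynomial

noncomputable section

variable {p : ℕ} [Fact p.Prime]
  {Λ : Type} [AddCommGroup Λ] [Module ℤ_[p] Λ] [Module.Free ℤ_[p] Λ] [Module.Finite ℤ_[p] Λ]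
  {A : Type} [CommRing A] [Algebra ℤ_[p] A]
  {T : Type*} [CommRing T] [IsLocalRing T]

/-- Elements of the kernel of `A → T / 𝔪_T` are topologically nilpotent on the `e`-part. -/
theorem s33g_nilp_on_W (act : A →ₐ[ℤ_[p]] Module.End ℤ_[p] Λ) (hact : Function.Injective act)
    (πA : A →+* T) (e : A) (hπe : πA e = 1)
    (he3 : ∀ a : A, IsUnit (πA a) → ∃ b : A, a * b * e = e)
    (a : A) (ha : πA a ∈ maximalIdeal T) {w : Λ} (hw : w ∈ s33g_W act e) (m : ℕ) :
    ∃ j : ℕ, ∃ w' : Λ, (act a ^ j) w = (p : ℤ_[p]) ^ m • w' := by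
  letI := s33g_Q_isLocalRing πA e hπe he3
  set x : s33g_Q e := Ideal.Quotient.mk (Ideal.span {1 - e}) a with hx
  have hxm : x ∈ maximalIdeal (s33g_Q e) := by
    rw [mem_maximalIdeal, mem_nonunits_iff]
    intro hu
    have h1 : IsUnit (s33g_piQ πA e hπe x) := hu.map _
    rw [hx, s33g_piQ_mk] at h1
    exact (mem_maximalIdeal _).mp ha h1
  set f : ℤ_[p][X] := LinearMap.charpoly (act a) with hf
  have hA : aeval a f = 0 := by
    apply hact
    rw [← Polynomial.aeval_algHom_apply, hf, LinearMap.aeval_self_charpoly, map_zero]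
  have h0 : aeval x f = 0 := by
    have h1 : x = Ideal.Quotient.mkₐ ℤ_[p] (Ideal.span {1 - e}) a := rfl
    rw [h1, Polynomial.aeval_algHom_apply, hA, map_zero]
  obtain ⟨j, hj⟩ := s33g_pow_mem_of_monic (R := ℤ_[p]) x hxm f (LinearMap.charpoly_monic _) h0
  rw [PadicInt.maximalIdeal_eq_span_p, Ideal.map_span, Set.image_singleton,
    Ideal.mem_span_singleton'] at hj
  obtain ⟨y, hy⟩ := hj
  refine ⟨j * m, ((y ^ m • (⟨w, hw⟩ : ↥(s33g_W act e)) : ↥(s33g_W act e)) : Λ), ?_⟩
  have h1 : (Ideal.Quotient.mk (Ideal.span {1 - e}) (a ^ (j * m)) : s33g_Q e) =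
      algebraMap ℤ_[p] (s33g_Q e) ((p : ℤ_[p]) ^ m) * y ^ m := by
    rw [map_pow, ← hx, pow_mul, ← hy, mul_pow, map_pow, mul_comm]
  have h2 := s33g_mk_smul_coe act e (a ^ (j * m)) ⟨w, hw⟩
  rw [h1, mul_smul, algebraMap_smul, Submodule.coe_smul, map_pow] at h2
  exact h2.symm

/-- **The `e`-part is the primary part.** -/
theorem s33g_W_eq_of_char (act : A →ₐ[ℤ_[p]] Module.End ℤ_[p] Λ) (hact : Function.Injective act)
    (πA : A →+* T) (e : A) (hee : e * e = e) (hπe : πA e = 1)
    (he3 : ∀ a : A, IsUnit (πA a) → ∃ b : A, a * b * e = e)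
    (Wθ : Submodule ℤ_[p] Λ)
    (hWθ : ∀ w : Λ, w ∈ Wθ ↔ ∀ a : A, πA a ∈ maximalIdeal T →
      ∀ m : ℕ, ∃ j : ℕ, ∃ w' : Λ, (act a ^ j) w = (p : ℤ_[p]) ^ m • w') :
    s33g_W act e = Wθ := by
  ext w
  constructor
  · intro hw
    rw [hWθ]
    intro a ha m
    exact s33g_nilp_on_W act hact πA e hπe he3 a ha hw m
  · intro hw
    rw [hWθ] at hw
    have h1 : πA (1 - e) ∈ maximalIdeal T := by
      rw [map_sub, map_one, hπe, sub_self]
      exact zero_mem _
    have hidem : (1 - e) * (1 - e) = 1 - e := by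
      have : (1 - e) * (1 - e) = 1 - e - e + e * e := by ring
      rw [this, hee]; ring
    have hpow : ∀ j : ℕ, (1 - e) * (1 - e) ^ j = 1 - e := by
      intro j
      induction j with
      | zero => rw [pow_zero, mul_one]
      | succ j ih => rw [pow_succ, ← mul_assoc, ih, hidem]
    unfold s33g_W
    rw [LinearMap.mem_ker]
    apply s33g_sep (p := p)
    intro m
    obtain ⟨j, w', hw'⟩ := hw (1 - e) h1 m
    refine ⟨act (1 - e) w', ?_⟩
    rw [← map_smul, ← hw', ← map_pow, ← Module.End.mul_apply, ← map_mul, hpow]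

end

end Fermat.Agent.Lib.S33
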