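/-
S33 (programme P-AT-P), package [GLUE] (helper2), part 10: **THE ABSTRACT MAIN THEOREM.**

Data: a finite free `ℤ_[p]`-module `Λ` with an action `ρ` of `G_ℚ`, a commutative `ℤ_[p]`-algebra `A`
acting faithfully on `Λ` and commuting with `ρ`, a character `ε : G_ℚ →* ℤ_[p]ˣ` and `tA : G_ℚ → A`
with the Cayley–Hamilton relation `ρ g + ε g • ρ g⁻¹ = tA g`; a local ring `T` (`p ∈ 𝔪_T`) with a ring
homomorphism `πA : A →+* T` and a representation `rT : GaloisRepAdic T` whose image spans `End`, with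
`tr rT(g) = πA (tA g)`, `det rT(g) = πA (ε g)`.
Subgroups `I ⊴ D`, `τ₀ ∈ I` with `1 - ε τ₀` a unit and `tr rT(τ₀) ≡ 1 + det rT(τ₀) mod 𝔪_T`.
If the primary part `Wθ` of `Λ` (the `w` on which every `a` with `πA a ∈ 𝔪_T` is topologically
nilpotent) satisfies [HALF] (a submodule `Λ' ⊇ (σ - 1) Λ`, `σ ∈ I`, with
`2 rank (Λ' ∩ Wθ) ≤ rank Wθ`), then `rT` has a line stable under `D` with `I` acting trivially on
the quotient.
-/
import Fermat.Agent.Lib.S33.GTheta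
import Fermat.Agent.Lib.S33.GAbs

set_option autoImplicit false
set_option linter.unusedSectionVars false
set_option linter.style.haveILetI false

namespace Fermat.Agent.Lib.S33

open IsLocalRing Module Polynomial Fermat.Agent.Lib.S53

local notation "Γℚ" => (AlgebraicClosure ℚ ≃ₐ[ℚ] AlgebraicClosure ℚ)

noncomputable section

variable {p : ℕ} [Fact p.Prime]
  {Λ : Type} [AddCommGroup Λ] [Module ℤ_[p] Λ] [Module.Free ℤ_[p] Λ] [Module.Finite ℤ_[p] Λ]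
  {A : Type} [CommRing A] [Algebra ℤ_[p] A]
  {T : Type} [CommRing T] [IsLocalRing T]

/-- **The abstract main theorem.** -/
theorem s33g_main
    (act : A →ₐ[ℤ_[p]] Module.End ℤ_[p] Λ) (hact : Function.Injective act)
    (πA : A →+* T) (hpT : (p : T) ∈ maximalIdeal T)
    (rT : GaloisRepAdic T) (hspan : Submodule.span T (Set.range rT.ρ) = ⊤)
    (ρ : Γℚ →* Module.End ℤ_[p] Λ)
    (hcomm : ∀ (g : Γℚ) (a : A) (w : Λ), ρ g (act a w) = act a (ρ g w))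
    (ε : Γℚ →* ℤ_[p]ˣ) (tA : Γℚ → A)
    (hCH : ∀ (g : Γℚ) (w : Λ), ρ g w + ((ε g : ℤ_[p]ˣ) : ℤ_[p]) • ρ g⁻¹ w = act (tA g) w)
    (htr : ∀ g : Γℚ, πA (tA g) = LinearMap.trace T rT.V (rT.ρ g))
    (hdet : ∀ g : Γℚ, πA (algebraMap ℤ_[p] A ((ε g : ℤ_[p]ˣ) : ℤ_[p])) = LinearMap.det (rT.ρ g))
    (D I : Subgroup Γℚ) (hID : I ≤ D) (hnorm : ∀ δ ∈ D, ∀ σ ∈ I, δ * σ * δ⁻¹ ∈ I)
    (τ₀ : Γℚ) (hτ₀ : τ₀ ∈ I) (hετ : IsUnit (1 - ((ε τ₀ : ℤ_[p]ˣ) : ℤ_[p])))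
    (hres : LinearMap.trace T rT.V (rT.ρ τ₀) - 1 - LinearMap.det (rT.ρ τ₀) ∈ maximalIdeal T)
    (Wθ : Submodule ℤ_[p] Λ)
    (hWθ : ∀ w : Λ, w ∈ Wθ ↔ ∀ a : A, πA a ∈ maximalIdeal T →
      ∀ m : ℕ, ∃ j : ℕ, ∃ w' : Λ, (act a ^ j) w = (p : ℤ_[p]) ^ m • w')
    (Λ' : Submodule ℤ_[p] Λ) (hΛ' : ∀ σ ∈ I, ∀ w : Λ, ρ σ w - w ∈ Λ')
    (hhalf : 2 * finrank ℤ_[p] ↥(Λ' ⊓ Wθ) ≤ finrank ℤ_[p] ↥Wθ) :
    ∃ L : Submodule T rT.V,
      (∃ b : Basis (Fin 2) T rT.V, L = T ∙ b 0) ∧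
      (∀ σ ∈ D, ∀ v ∈ L, rT.ρ σ v ∈ L) ∧
      (∀ σ ∈ I, ∀ v : rT.V, rT.ρ σ v - v ∈ L) := by
  classical
  -- finiteness of `A` and the local idempotent
  haveI : Module.Finite ℤ_[p] A := Module.Finite.of_injective act.toLinearMap hact
  obtain ⟨e, hee, hπe, he3⟩ := s33g_exists_idem πA hpT
  letI hloc : IsLocalRing (s33g_Q e) := s33g_Q_isLocalRing πA e hπe he3
  haveI hcompl : IsAdicComplete (maximalIdeal (s33g_Q e)) (s33g_Q e) :=
    s33g_Q_complete πA e hπe he3 hpT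
  haveI hhens : HenselianRing (s33g_Q e) (maximalIdeal (s33g_Q e)) := inferInstance
  set πQ : s33g_Q e →+* T := s33g_piQ πA e hπe with hπQ
  have hunitQ : ∀ x : s33g_Q e, IsUnit (πQ x) → IsUnit x :=
    fun x hx => s33g_isUnit_of_piQ πA e hπe he3 x hx
  have hmemQ : ∀ x : s33g_Q e, πQ x ∈ maximalIdeal T → x ∈ maximalIdeal (s33g_Q e) := by
    intro x hx
    rw [mem_maximalIdeal, mem_nonunits_iff]
    intro hu
    exact (mem_maximalIdeal _).mp hx (hu.map πQ)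
  -- scalars on the local factor
  set tQ : Γℚ → s33g_Q e := fun g => Ideal.Quotient.mk (Ideal.span {1 - e}) (tA g) with htQ
  set dQ : Γℚ →* (s33g_Q e)ˣ :=
    (Units.map (algebraMap ℤ_[p] (s33g_Q e) : ℤ_[p] →* s33g_Q e)).comp ε with hdQ
  have hdQ_coe : ∀ g : Γℚ, ((dQ g : (s33g_Q e)ˣ) : s33g_Q e) =
      algebraMap ℤ_[p] (s33g_Q e) ((ε g : ℤ_[p]ˣ) : ℤ_[p]) := fun g => rfl
  have hπtQ : ∀ g : Γℚ, πQ (tQ g) = LinearMap.trace T rT.V (rT.ρ g) := by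
    intro g
    rw [htQ, hπQ, s33g_piQ_mk, htr]
  have hπdQ : ∀ g : Γℚ, πQ ((dQ g : (s33g_Q e)ˣ) : s33g_Q e) = LinearMap.det (rT.ρ g) := by
    intro g
    rw [hdQ_coe, ← hdet g]
    have : algebraMap ℤ_[p] (s33g_Q e) ((ε g : ℤ_[p]ˣ) : ℤ_[p]) =
        Ideal.Quotient.mk (Ideal.span {1 - e}) (algebraMap ℤ_[p] A ((ε g : ℤ_[p]ˣ) : ℤ_[p])) := rfl
    rw [this, hπQ, s33g_piQ_mk]
  -- Hensel roots
  have h1 : 1 - tQ τ₀ + ((dQ τ₀ : (s33g_Q e)ˣ) : s33g_Q e) ∈ maximalIdeal (s33g_Q e) := by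
    apply hmemQ
    rw [map_add, map_sub, map_one, hπtQ, hπdQ]
    have := (Ideal.neg_mem_iff _).mpr hres
    have e1 : -(LinearMap.trace T rT.V (rT.ρ τ₀) - 1 - LinearMap.det (rT.ρ τ₀)) =
        1 - LinearMap.trace T rT.V (rT.ρ τ₀) + LinearMap.det (rT.ρ τ₀) := by ring
    rwa [e1] at this
  have h2 : IsUnit (1 - ((dQ τ₀ : (s33g_Q e)ˣ) : s33g_Q e)) := by
    rw [hdQ_coe, ← map_one (algebraMap ℤ_[p] (s33g_Q e)), ← map_sub]
    exact hετ.map _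
  obtain ⟨α, β, hsum, hprod, hβ1, hαβ, hα1⟩ := s33g_hensel_roots (tQ τ₀) _ h1 h2
  obtain ⟨uu, huu⟩ := hαβ
  obtain ⟨vv, hvv⟩ := hα1
  set u : s33g_Q e := ((uu⁻¹ : (s33g_Q e)ˣ) : s33g_Q e) with hu_def
  set v : s33g_Q e := ((vv⁻¹ : (s33g_Q e)ˣ) : s33g_Q e) with hv_def
  have hu : (α - β) * u = 1 := by rw [← huu, hu_def, Units.mul_inv]
  have hv : (α - 1) * v = 1 := by rw [← hvv, hv_def, Units.mul_inv]
  -- the `T`-side: diagonalise `rT τ₀`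
  set αT : T := πQ α with hαT
  set βT : T := πQ β with hβT
  set b₀ : Basis (Fin 2) T rT.V := Module.finBasisOfFinrankEq T rT.V rT.finrank_eq with hb₀
  have htrM : (matOf rT b₀ τ₀).trace = αT + βT := by
    rw [s33g_trace_matOf, ← hπtQ, ← hsum, map_add]
  have hdetM : (matOf rT b₀ τ₀).det = αT * βT := by
    rw [s33g_det_matOf, ← hπdQ, ← hprod, map_mul]
  have huT : πQ u * (αT - βT) = 1 := by
    rw [hαT, hβT, ← map_sub, ← map_mul, mul_comm, hu, map_one]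
  have hunitT : IsUnit (αT - βT) := IsUnit.of_mul_eq_one _ (by rw [mul_comm]; exact huT)
  obtain ⟨c, d, hcd, hdc, hdiag⟩ := s33g_exists_diag2 (matOf rT b₀ τ₀) αT βT htrM hdetM hunitT
  obtain ⟨b', hb'⟩ := exists_basis_conj rT b₀ c d hcd hdc
  set r := matOf rT b' with hr
  have hrτ : r τ₀ = s33g_diag2 αT βT := by rw [hr, hb', hdiag]
  have htrr : ∀ g, (r g).trace = LinearMap.trace T rT.V (rT.ρ g) := fun g => s33g_trace_matOf rT b' g
  -- `πQ` of the `𝔻`-function is the lower right entry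
  have hDD : ∀ g : Γℚ, πQ (s33g_DD tQ τ₀ α u g) = (r g) 1 1 := by
    intro g
    have h3 := s33g_entry_formula2 r τ₀ αT βT hrτ g
    rw [htrr, htrr] at h3
    unfold s33g_DD
    rw [map_mul, map_neg, map_sub, map_mul, hπtQ, hπtQ, ← hαT, ← h3]
    linear_combination (r g) 1 1 * huT
  -- the irreducibility unit
  obtain ⟨g₀, hg₀⟩ := s33g_exists_unit_entry rT hspan b'
  obtain ⟨h₀, hh₀⟩ := s33g_exists_unit_entry10 rT hspan b'
  have hirrT : πQ (s33g_DD tQ τ₀ α u (h₀ * g₀) - s33g_DD tQ τ₀ α u h₀ * s33g_DD tQ τ₀ α u g₀) =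
      (r h₀) 1 0 * (r g₀) 0 1 := by
    rw [map_sub, map_mul, hDD, hDD, hDD, s33g_entry_mul r h₀ g₀]
    ring
  have hirrU : IsUnit (s33g_DD tQ τ₀ α u (h₀ * g₀) -
      s33g_DD tQ τ₀ α u h₀ * s33g_DD tQ τ₀ α u g₀) := by
    apply hunitQ
    rw [hirrT]
    exact hh₀.mul hg₀
  obtain ⟨zz, hzz⟩ := hirrU
  have hirr : (s33g_DD tQ τ₀ α u (h₀ * g₀) - s33g_DD tQ τ₀ α u h₀ * s33g_DD tQ τ₀ α u g₀) *
      ((zz⁻¹ : (s33g_Q e)ˣ) : s33g_Q e) = 1 := by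
    rw [← hzz, Units.mul_inv]
  -- the `e`-part and its structures
  have hWeq : s33g_W act e = Wθ := s33g_W_eq_of_char act hact πA e hee hπe he3 Wθ hWθ
  set ρW := s33g_rhoW act e ρ hcomm with hρW
  have hCHW : ∀ (g : Γℚ) (w : ↥(s33g_W act e)),
      ρW g w + ((dQ g : (s33g_Q e)ˣ) : s33g_Q e) • ρW g⁻¹ w = tQ g • w := by
    intro g w
    apply Subtype.ext
    rw [hdQ_coe, algebraMap_smul, Submodule.coe_add, Submodule.coe_smul, hρW, s33g_rhoW_coe,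
      s33g_rhoW_coe, htQ, s33g_mk_smul_coe]
    exact hCH g w
  -- the canonical submodule generated by the `σ w - w`
  set W' : Submodule ℤ_[p] ↥(s33g_W act e) :=
    Submodule.span ℤ_[p] {x | ∃ σ ∈ I, ∃ w : ↥(s33g_W act e), x = ρW σ w - w} with hW'
  have hW'𝔸 : ∀ (c : s33g_Q e) (w : ↥(s33g_W act e)), w ∈ W' → c • w ∈ W' := by
    intro c w hw
    induction hw using Submodule.span_induction with
    | mem x hx =>
      obtain ⟨σ, hσ, w₁, rfl⟩ := hx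
      refine Submodule.subset_span ⟨σ, hσ, c • w₁, ?_⟩
      rw [smul_sub, map_smul]
    | zero => rw [smul_zero]; exact Submodule.zero_mem _
    | add x y _ _ hx hy => rw [smul_add]; exact Submodule.add_mem _ hx hy
    | smul a x _ hx => rw [smul_comm]; exact Submodule.smul_mem _ _ hx
  have hDW : ∀ σ ∈ D, ∀ w ∈ W', ρW σ w ∈ W' := by
    intro δ hδ w hw
    induction hw using Submodule.span_induction with
    | mem x hx =>
      obtain ⟨σ, hσ, w₁, rfl⟩ := hx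
      refine Submodule.subset_span ⟨δ * σ * δ⁻¹, hnorm δ hδ σ hσ, ρW δ w₁, ?_⟩
      rw [map_sub, ← Module.End.mul_apply, ← Module.End.mul_apply, ← map_mul, ← map_mul,
        inv_mul_cancel_right]
    | zero => rw [map_zero]; exact Submodule.zero_mem _
    | add x y _ _ hx hy => rw [map_add]; exact Submodule.add_mem _ hx hy
    | smul a x _ hx =>
      have : ρW δ (a • x) = a • ρW δ x := by
        rw [← algebraMap_smul (s33g_Q e) a x, map_smul, algebraMap_smul]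
      rw [this]
      exact Submodule.smul_mem _ _ hx
  have hIW : ∀ σ ∈ I, ∀ w : ↥(s33g_W act e), ρW σ w - w ∈ W' :=
    fun σ hσ w => Submodule.subset_span ⟨σ, hσ, w, rfl⟩
  -- the rank inequality
  have hhalfW : 2 * finrank ℤ_[p] ↥W' ≤ finrank ℤ_[p] ↥(s33g_W act e) := by
    have hle : W'.map (s33g_W act e).subtype ≤ Λ' ⊓ s33g_W act e := by
      rw [Submodule.map_le_iff_le_comap, hW', Submodule.span_le]
      rintro x ⟨σ, hσ, w, rfl⟩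
      refine ⟨?_, (ρW σ w - w).2⟩
      show ((ρW σ w - w : ↥(s33g_W act e)) : Λ) ∈ Λ'
      rw [Submodule.coe_sub, hρW, s33g_rhoW_coe]
      exact hΛ' σ hσ _
    have h3 := Submodule.finrank_mono hle
    rw [Submodule.finrank_map_subtype_eq] at h3
    have hhalf' : 2 * finrank ℤ_[p] ↥(Λ' ⊓ s33g_W act e) ≤ finrank ℤ_[p] ↥(s33g_W act e) := by
      rw [hWeq]; exact hhalf
    omega
  -- the abstract `Λ`-side theorem
  obtain ⟨hβ, hDI, hDmul⟩ := s33g_abs (R := ℤ_[p]) (s33g_faithful act e hee hact) ρW tQ dQ hCHW D I hID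
    τ₀ hτ₀ α β u v hsum hprod hu hv W' hW'𝔸 hDW hIW hhalfW g₀ h₀ _ hirr
  -- conclusion on the `T`-side
  have hD1 : ∀ σ ∈ I, (r σ) 1 1 = 1 := by
    intro σ hσ
    rw [← hDD σ, hDI σ hσ, map_one]
  have hDm : ∀ σ ∈ D, ∀ g, (r (σ * g)) 1 1 = (r σ) 1 1 * (r g) 1 1 := by
    intro σ hσ g
    rw [← hDD, hDmul σ hσ g, map_mul, hDD, hDD]
  have hC0 : ∀ σ ∈ D, (r σ) 1 0 = 0 := by
    intro σ hσ
    have h3 := s33g_entry_mul r σ g₀
    rw [hDm σ hσ g₀] at h3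
    have h4 : (r σ) 1 0 * (r g₀) 0 1 = 0 := by linear_combination (-1 : T) * h3
    exact (hg₀.mul_left_eq_zero).mp h4
  exact s33g_ordinary_of_entries rT b' D I hID hC0 hD1

end

end Fermat.Agent.Lib.S33
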