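/-
S33 (programme P-AT-P), package [GLUE] (helper2), part 14: **[TAU0]**: the inertia group at `P ∣ p`
(`p` odd) contains an element `τ₀` with `τ₀ ζ = ζ ^ 2` for all `p`-th roots of unity `ζ`; hence
`1 - ε(τ₀)` is a unit of `ℤ_[p]` (`ε` the `p`-adic cyclotomic character).

* `s33g_cyc_inertia` : in `F = ℚ(ζ_p)` every automorphism acts trivially on `𝓞 F / 𝔓`, `𝔓 ∣ p`
  (total ramification, elementary form: `𝓞 F = ℤ[ζ]`, `ζ ≡ 1 mod 𝔓`);
* `s33g_exists_tau0` : for `a` prime to `p`: `∃ τ₀ ∈ I_P, ∀ ζ, ζ ^ p = 1 → τ₀ ζ = ζ ^ a`;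
* `s33g_tau0_unit`   : `p ≠ 2`: `∃ τ₀ ∈ I_P, (∀ ζ, ζ ^ p = 1 → τ₀ ζ = ζ ^ 2) ∧ IsUnit (1 - ε τ₀)`.
-/
import Mathlib
import Fermat.Agent.Lib.CFT.RamBridge
import Fermat.Agent.Lib.S30.CycB

set_option autoImplicit false
set_option linter.unusedSectionVars false

namespace Fermat.Agent.Lib.S33

open NumberField
open scoped Pointwise
open Fermat.Agent.Lib.CFT Fermat.Agent.Lib.S29 Fermat.Agent.Lib.S30

section Cyc

variable {F : Type*} [Field F] [NumberField F] {p : ℕ} [hp : Fact p.Prime]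
  [IsCyclotomicExtension {p} ℚ F]

/-- `ζ ≡ 1` modulo every prime over `p`. -/
theorem s33g_zeta_sub_one_mem {ζ : F} (hζ : IsPrimitiveRoot ζ p) (P : Ideal (𝓞 F)) [P.IsPrime]
    (hpP : (p : 𝓞 F) ∈ P) : hζ.toInteger - 1 ∈ P := by
  obtain ⟨r, hr⟩ := exists_add_pow_prime_eq hp.out (hζ.toInteger - 1) 1
  have h1 : hζ.toInteger ^ p = 1 := by
    apply RingOfIntegers.ext
    rw [RingOfIntegers.coe_eq_algebraMap, RingOfIntegers.coe_eq_algebraMap, map_pow, map_one]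
    exact hζ.pow_eq_one
  rw [sub_add_cancel, h1, one_pow] at hr
  have h2 : (hζ.toInteger - 1) ^ p = -((p : 𝓞 F) * ((hζ.toInteger - 1) * 1 * r)) := by
    linear_combination -hr
  apply Ideal.IsPrime.mem_of_pow_mem inferInstance p
  rw [h2]
  exact P.neg_mem (P.mul_mem_right _ hpP)

/-- **Total ramification, elementary form**: every automorphism of `ℚ(ζ_p)` acts trivially modulo
every prime over `p`. -/
theorem s33g_cyc_inertia (P : Ideal (𝓞 F)) [P.IsPrime] (hpP : (p : 𝓞 F) ∈ P) (τ : F ≃ₐ[ℚ] F)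
    (y : 𝓞 F) : τ • y - y ∈ P := by
  have hζ := IsCyclotomicExtension.zeta_spec p ℚ F
  set z := hζ.toInteger with hz
  have hz1 : z - 1 ∈ P := s33g_zeta_sub_one_mem hζ P hpP
  -- the subalgebra of elements on which `τ` is trivial modulo `P`
  let S : Subalgebra ℤ (𝓞 F) :=
    { carrier := {y | τ • y - y ∈ P}
      mul_mem' := by
        intro a b ha hb
        show τ • (a * b) - a * b ∈ P
        have e : τ • (a * b) - a * b = (τ • a) * (τ • b - b) + (τ • a - a) * b := by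
          rw [smul_mul']; ring
        rw [e]
        exact P.add_mem (P.mul_mem_left _ hb) (P.mul_mem_right _ ha)
      add_mem' := by
        intro a b ha hb
        show τ • (a + b) - (a + b) ∈ P
        have e : τ • (a + b) - (a + b) = (τ • a - a) + (τ • b - b) := by
          rw [smul_add]; ring
        rw [e]
        exact P.add_mem ha hb
      algebraMap_mem' := by
        intro n
        show τ • (algebraMap ℤ (𝓞 F) n) - algebraMap ℤ (𝓞 F) n ∈ P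
        have : τ • (algebraMap ℤ (𝓞 F) n) = algebraMap ℤ (𝓞 F) n := by
          rw [eq_intCast]
          exact map_intCast (MulSemiringAction.toRingHom (F ≃ₐ[ℚ] F) (𝓞 F) τ) n
        rw [this, sub_self]
        exact P.zero_mem }
  have hzS : z ∈ S := by
    show τ • z - z ∈ P
    -- `τ z` is a power of `z`
    have h1 : (τ (IsCyclotomicExtension.zeta p ℚ F)) ^ p = 1 := by
      rw [← map_pow, hζ.pow_eq_one, map_one]
    obtain ⟨i, -, hi⟩ := hζ.eq_pow_of_pow_eq_one h1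
    have h2 : τ • z = z ^ i := by
      apply RingOfIntegers.ext
      rw [RingOfIntegers.coe_eq_algebraMap (z ^ i), map_pow]
      exact hi.symm
    rw [h2, ← Ideal.Quotient.eq_zero_iff_mem, map_sub, map_pow]
    have h3 : Ideal.Quotient.mk P z = 1 := by
      rw [← map_one (Ideal.Quotient.mk P), Ideal.Quotient.eq]
      exact hz1
    rw [h3, one_pow, sub_self]
  have htop : Algebra.adjoin ℤ {z} = ⊤ := by
    rw [hz, ← hζ.integralPowerBasis_gen]
    exact hζ.integralPowerBasis.adjoin_gen_eq_top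
  have : y ∈ Algebra.adjoin ℤ {z} := by rw [htop]; exact Algebra.mem_top
  exact (Algebra.adjoin_le (Set.singleton_subset_iff.mpr hzS)) this

end Cyc

section Main

local notation "Ω" => AlgebraicClosure ℚ

/-- **[TAU0], root-of-unity form**: for `p` odd the inertia group at `P ∣ p` contains an element
raising every `p`-th root of unity to its square. -/
theorem s33g_exists_tau0 (p : ℕ) (hp : p.Prime) (P : ValuationSubring Ω)
    (hP : P.LiesOverPrime p) (a : ℕ) (ha : Nat.Coprime a p) :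
    ∃ τ₀ ∈ P.inertiaSubgroupIn ℚ, ∀ ζ : Ω, ζ ^ p = 1 → τ₀ ζ = ζ ^ a := by
  haveI : Fact p.Prime := ⟨hp⟩
  have hgalΩ : IsGalois ℚ Ω := cfg_isGalois_QBar
  haveI : NeZero p := ⟨hp.ne_zero⟩
  haveI : NeZero (p : Ω) := ⟨by exact_mod_cast hp.ne_zero⟩
  obtain ⟨ζ₀, hζ₀⟩ := HasEnoughRootsOfUnity.exists_primitiveRoot Ω p
  let F : IntermediateField ℚ Ω := IntermediateField.adjoin ℚ {ζ₀}
  haveI hcyc : IsCyclotomicExtension {p} ℚ ↥F :=
    hζ₀.intermediateField_adjoin_isCyclotomicExtension ℚ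
  haveI : NumberField ↥F := IsCyclotomicExtension.numberField {p} ℚ ↥F
  -- the automorphism `τ` of `F` with `τ z = z ^ a`
  have hz := IsCyclotomicExtension.zeta_spec p ℚ ↥F
  have hirr : Irreducible (Polynomial.cyclotomic p ℚ) :=
    Polynomial.cyclotomic.irreducible_rat hp.pos
  have h2 : IsPrimitiveRoot ((IsCyclotomicExtension.zeta p ℚ ↥F) ^ a) p := hz.pow_of_coprime a ha
  let τ : ↥F ≃ₐ[ℚ] ↥F := IsCyclotomicExtension.fromZetaAut h2 hirr
  have hτ : τ (IsCyclotomicExtension.zeta p ℚ ↥F) = (IsCyclotomicExtension.zeta p ℚ ↥F) ^ a :=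
    IsCyclotomicExtension.fromZetaAut_spec h2 hirr
  -- the centre of `P`
  have hPp : (p : Ω) ∈ P.nonunits := hP
  haveI hQmax : (cfg_center P).IsMaximal := cfg_center_isMaximal hp hPp
  haveI hlo : (cfg_center P).LiesOver ((cfg_center P).under (𝓞 ↥F)) := ⟨rfl⟩
  have hpPF : (p : 𝓞 ↥F) ∈ (cfg_center P).under (𝓞 ↥F) := by
    rw [Ideal.under_def, Ideal.mem_comap, map_natCast]
    exact cfg_natCast_mem_center hPp
  obtain ⟨σ, hσ, -, hσI⟩ := cfg_exists_lifts_inertia ((cfg_center P).under (𝓞 ↥F))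
    (cfg_center P) τ (s33g_cyc_inertia _ hpPF τ)
  have hσin : σ ∈ P.inertiaSubgroupIn ℚ := by
    refine cfg_mem_inertiaSubgroupIn_of_integral hp hPp σ ?_
    intro b hb
    obtain ⟨b', rfl⟩ : ∃ b' : 𝓞 Ω, algebraMap (𝓞 Ω) Ω b' = b :=
      (IsIntegralClosure.isIntegral_iff (A := 𝓞 Ω)).mp hb
    exact hσI b'
  refine ⟨σ, hσin, ?_⟩
  intro ζ hζ
  have hz' : IsPrimitiveRoot (algebraMap ↥F Ω (IsCyclotomicExtension.zeta p ℚ ↥F)) p :=
    hz.map_of_injective (algebraMap ↥F Ω).injective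
  obtain ⟨i, -, rfl⟩ := hz'.eq_pow_of_pow_eq_one hζ
  rw [map_pow, hσ (IsCyclotomicExtension.zeta p ℚ ↥F), hτ, map_pow, ← pow_mul, ← pow_mul, mul_comm]

/-- **[TAU0], unit form**: for `p` odd the inertia group at `P ∣ p` contains an element `τ₀` with
`1 - ε(τ₀)` a unit of `ℤ_[p]`. -/
theorem s33g_tau0_unit (p : ℕ) [hp : Fact p.Prime] (hp2 : p ≠ 2) (P : ValuationSubring Ω)
    (hP : P.LiesOverPrime p) :
    ∃ τ₀ ∈ P.inertiaSubgroupIn ℚ,
      (∀ ζ : Ω, ζ ^ p = 1 → τ₀ ζ = ζ ^ 2) ∧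
      IsUnit (1 - (((s30y_cycDatum p).ε τ₀ : ℤ_[p]ˣ) : ℤ_[p])) := by
  have hcop : Nat.Coprime 2 p := (Nat.coprime_primes Nat.prime_two hp.out).mpr (Ne.symm hp2)
  obtain ⟨τ₀, hτ₀, hζ⟩ := s33g_exists_tau0 p hp.out P hP 2 hcop
  refine ⟨τ₀, hτ₀, hζ, ?_⟩
  obtain ⟨μ, hμ⟩ := s30y_exists_primitiveRoot p 1
  have h1 : τ₀ μ = μ ^ 2 := hζ μ (by have := hμ.pow_eq_one; rwa [pow_one] at this)
  have h2 : PadicInt.toZModPow 1 (((s30y_cycDatum p).ε τ₀ : ℤ_[p]ˣ) : ℤ_[p]) =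
      ((2 : ℕ) : ZMod (p ^ 1)) := s30y_toZModPow_eq p τ₀ 1 hμ 2 h1
  haveI : Nontrivial (ZMod (p ^ 1)) := by
    rw [ZMod.nontrivial_iff, pow_one]
    exact hp.out.ne_one
  rw [← IsLocalRing.notMem_maximalIdeal, PadicInt.maximalIdeal_eq_span_p]
  intro hmem
  have hker : (1 - (((s30y_cycDatum p).ε τ₀ : ℤ_[p]ˣ) : ℤ_[p])) ∈
      RingHom.ker (PadicInt.toZModPow (p := p) 1) := by
    rw [PadicInt.ker_toZModPow, pow_one]
    exact hmem
  rw [RingHom.mem_ker, map_sub, map_one, h2] at hker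
  have h3 : (1 : ZMod (p ^ 1)) = 0 := by
    have e : (1 : ZMod (p ^ 1)) = -(1 - ((2 : ℕ) : ZMod (p ^ 1))) := by push_cast; ring
    rw [e, hker, neg_zero]
  exact one_ne_zero h3

/-- If `σ` raises the `p`-th roots of unity to the power `a`, then `ε σ ≡ a mod p`. -/
theorem s33g_eps_sub_of_zeta (p : ℕ) [hp : Fact p.Prime] (σ : s29k_G) (a : ℕ)
    (h : ∀ ζ : Ω, ζ ^ p = 1 → σ ζ = ζ ^ a) :
    ∃ c : ℤ_[p], (((s30y_cycDatum p).ε σ : ℤ_[p]ˣ) : ℤ_[p]) - (a : ℤ_[p]) = (p : ℤ_[p]) * c := by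
  obtain ⟨μ, hμ⟩ := s30y_exists_primitiveRoot p 1
  have h1 : σ μ = μ ^ a := h μ (by have := hμ.pow_eq_one; rwa [pow_one] at this)
  have h2 : PadicInt.toZModPow 1 (((s30y_cycDatum p).ε σ : ℤ_[p]ˣ) : ℤ_[p]) =
      ((a : ℕ) : ZMod (p ^ 1)) := s30y_toZModPow_eq p σ 1 hμ a h1
  have hker : ((((s30y_cycDatum p).ε σ : ℤ_[p]ˣ) : ℤ_[p]) - (a : ℤ_[p])) ∈
      RingHom.ker (PadicInt.toZModPow (p := p) 1) := by
    rw [RingHom.mem_ker, map_sub, h2, map_natCast, sub_self]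
  rw [PadicInt.ker_toZModPow, pow_one, Ideal.mem_span_singleton] at hker
  obtain ⟨c, hc⟩ := hker
  exact ⟨c, hc⟩

end Main

end Fermat.Agent.Lib.S33
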