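/-
S33 (programme P-AT-P), package [GLUE] (helper2), part 4: **THE CLOSED HECKE ALGEBRA AND THE EXTENSION
OF `π`** (abstract form, Plan-M vocabulary).

`Λ` a `ℤ_[p]`-module, `𝔾 ⊆ 𝕋 × End Λ` a ring of HECKE PAIRS, `π : 𝕋 →+* T` a ring homomorphism into a
local ring `T` which is separated and complete for its maximal ideal, and the congruence property
  `hc : (x, X) ∈ 𝔾, X ∈ p ^ (n + c) End Λ  ⇒  π x ∈ 𝔪_T ^ n`.
Then:
* `s33g_cl 𝔾`      : the `p`-adic closure of the second projection of `𝔾`, a `ℤ_[p]`-subalgebra of `End Λ`;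
* `s33g_piRel`      : the graph of the extension of `π` to the closure;
* `s33g_piA`        : the extension, a ring homomorphism `↥(s33g_cl 𝔾) →+* T`
                      (`s33g_piA_pair`: `(x, X) ↦ π x`;  `s33g_piA_eq_of_rel`: characterisation by
                      approximations).
-/
import Fermat.Agent.Lib.S31.Compare

set_option autoImplicit false
set_option linter.unusedSectionVars false

namespace Fermat.Agent.Lib.S33

open IsLocalRing Fermat.Agent.Lib.S31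

noncomputable section

section Div

variable {p : ℕ} [Fact p.Prime] {Λ : Type*} [AddCommGroup Λ] [Module ℤ_[p] Λ]

theorem s33g_div_zero (m : ℕ) : s31c_Div m (0 : Module.End ℤ_[p] Λ) :=
  fun _ => ⟨0, by rw [LinearMap.zero_apply, smul_zero]⟩

theorem s33g_div_mono {m m' : ℕ} (h : m ≤ m') {X : Module.End ℤ_[p] Λ} (hX : s31c_Div m' X) :
    s31c_Div m X := by
  intro v
  obtain ⟨w, hw⟩ := hX v
  obtain ⟨e, rfl⟩ := Nat.exists_eq_add_of_le h
  exact ⟨(p : ℤ_[p]) ^ e • w, by rw [hw, pow_add, mul_smul]⟩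

theorem s33g_div_of_eq {m : ℕ} {X Y : Module.End ℤ_[p] Λ} (h : X = Y) (hX : s31c_Div m X) :
    s31c_Div m Y := h ▸ hX

end Div

section Closure

variable {p : ℕ} [Fact p.Prime] {𝕋 : Type*} [Ring 𝕋] {Λ : Type*} [AddCommGroup Λ] [Module ℤ_[p] Λ]

/-- **The closed Hecke algebra**: the endomorphisms of `Λ` which are, modulo every power of `p`,
second components of Hecke pairs. -/
def s33g_cl (𝔾 : Subring (𝕋 × Module.End ℤ_[p] Λ)) :
    Subalgebra ℤ_[p] (Module.End ℤ_[p] Λ) where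
  carrier := {Y | ∀ m : ℕ, ∃ z ∈ 𝔾, s31c_Div m (Y - z.2)}
  mul_mem' := by
    intro Y Y' hY hY' m
    obtain ⟨z, hz, hd⟩ := hY m
    obtain ⟨z', hz', hd'⟩ := hY' m
    refine ⟨z * z', 𝔾.mul_mem hz hz', ?_⟩
    have e : Y * Y' - (z * z').2 = (Y - z.2) * Y' + z.2 * (Y' - z'.2) := by
      rw [Prod.snd_mul]; noncomm_ring
    rw [e]
    exact (hd.mul_right _).add (hd'.mul_left _)
  add_mem' := by
    intro Y Y' hY hY' m
    obtain ⟨z, hz, hd⟩ := hY m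
    obtain ⟨z', hz', hd'⟩ := hY' m
    refine ⟨z + z', 𝔾.add_mem hz hz', ?_⟩
    have e : Y + Y' - (z + z').2 = (Y - z.2) + (Y' - z'.2) := by
      rw [Prod.snd_add]; abel
    rw [e]
    exact hd.add hd'
  algebraMap_mem' := by
    intro r m
    refine ⟨((r.appr m : ℕ) : 𝕋 × Module.End ℤ_[p] Λ), natCast_mem 𝔾 _, ?_⟩
    have e : algebraMap ℤ_[p] (Module.End ℤ_[p] Λ) r -
        (((r.appr m : ℕ) : 𝕋 × Module.End ℤ_[p] Λ)).2 =
        (r - (r.appr m : ℤ_[p])) • (1 : Module.End ℤ_[p] Λ) := by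
      rw [Prod.snd_natCast, Algebra.algebraMap_eq_smul_one, sub_smul, Nat.cast_smul_eq_nsmul,
        nsmul_eq_mul, mul_one]
    rw [e]
    refine s31c_Div.of_scalar ?_ _
    have h := PadicInt.appr_spec m r
    rw [Ideal.mem_span_singleton] at h
    obtain ⟨w, hw⟩ := h
    exact ⟨w, hw⟩

theorem s33g_mem_cl (𝔾 : Subring (𝕋 × Module.End ℤ_[p] Λ)) {Y : Module.End ℤ_[p] Λ} :
    Y ∈ s33g_cl 𝔾 ↔ ∀ m : ℕ, ∃ z ∈ 𝔾, s31c_Div m (Y - z.2) := Iff.rfl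

theorem s33g_pair_mem_cl (𝔾 : Subring (𝕋 × Module.End ℤ_[p] Λ)) {z : 𝕋 × Module.End ℤ_[p] Λ}
    (hz : z ∈ 𝔾) : z.2 ∈ s33g_cl 𝔾 :=
  fun m => ⟨z, hz, by rw [sub_self]; exact s33g_div_zero m⟩

end Closure

section Pi

variable {p : ℕ} [Fact p.Prime] {𝕋 : Type*} [Ring 𝕋] {Λ : Type*} [AddCommGroup Λ] [Module ℤ_[p] Λ]
  {T : Type*} [CommRing T] [IsLocalRing T]
  (𝔾 : Subring (𝕋 × Module.End ℤ_[p] Λ)) (π : 𝕋 →+* T) (c : ℕ)

/-- The graph of the extension of `π` to the closed Hecke algebra. -/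
def s33g_piRel (Y : Module.End ℤ_[p] Λ) (t : T) : Prop :=
  ∀ n : ℕ, ∃ z ∈ 𝔾, s31c_Div (n + c) (Y - z.2) ∧ t - π z.1 ∈ maximalIdeal T ^ n

variable {𝔾 π c}

theorem s33g_piRel_pair {z : 𝕋 × Module.End ℤ_[p] Λ} (hz : z ∈ 𝔾) :
    s33g_piRel 𝔾 π c z.2 (π z.1) :=
  fun n => ⟨z, hz, by rw [sub_self]; exact s33g_div_zero _, by rw [sub_self]; exact zero_mem _⟩

theorem s33g_piRel_add {Y Y' : Module.End ℤ_[p] Λ} {t t' : T} (h : s33g_piRel 𝔾 π c Y t)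
    (h' : s33g_piRel 𝔾 π c Y' t') : s33g_piRel 𝔾 π c (Y + Y') (t + t') := by
  intro n
  obtain ⟨z, hz, hd, ht⟩ := h n
  obtain ⟨z', hz', hd', ht'⟩ := h' n
  refine ⟨z + z', 𝔾.add_mem hz hz', ?_, ?_⟩
  · have e : Y + Y' - (z + z').2 = (Y - z.2) + (Y' - z'.2) := by
      rw [Prod.snd_add]; abel
    rw [e]
    exact hd.add hd'
  · have e : t + t' - π (z + z').1 = (t - π z.1) + (t' - π z'.1) := by
      rw [Prod.fst_add, map_add]; ring
    rw [e]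
    exact Ideal.add_mem _ ht ht'

theorem s33g_piRel_mul {Y Y' : Module.End ℤ_[p] Λ} {t t' : T} (h : s33g_piRel 𝔾 π c Y t)
    (h' : s33g_piRel 𝔾 π c Y' t') : s33g_piRel 𝔾 π c (Y * Y') (t * t') := by
  intro n
  obtain ⟨z, hz, hd, ht⟩ := h n
  obtain ⟨z', hz', hd', ht'⟩ := h' n
  refine ⟨z * z', 𝔾.mul_mem hz hz', ?_, ?_⟩
  · have e : Y * Y' - (z * z').2 = (Y - z.2) * Y' + z.2 * (Y' - z'.2) := by
      rw [Prod.snd_mul]; noncomm_ring
    rw [e]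
    exact (hd.mul_right _).add (hd'.mul_left _)
  · have e : t * t' - π (z * z').1 = (t - π z.1) * t' + π z.1 * (t' - π z'.1) := by
      rw [Prod.fst_mul, map_mul]; ring
    rw [e]
    exact Ideal.add_mem _ (Ideal.mul_mem_right _ _ ht) (Ideal.mul_mem_left _ _ ht')

theorem s33g_piRel_neg {Y : Module.End ℤ_[p] Λ} {t : T} (h : s33g_piRel 𝔾 π c Y t) :
    s33g_piRel 𝔾 π c (-Y) (-t) := by
  intro n
  obtain ⟨z, hz, hd, ht⟩ := h n
  refine ⟨-z, 𝔾.neg_mem hz, ?_, ?_⟩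
  · have e : -Y - (-z).2 = -(Y - z.2) := by rw [Prod.snd_neg]; abel
    rw [e]
    exact hd.neg
  · have e : -t - π (-z).1 = -(t - π z.1) := by rw [Prod.fst_neg, map_neg]; ring
    rw [e]
    exact Ideal.neg_mem_iff _ |>.mpr ht

theorem s33g_piRel_one : s33g_piRel 𝔾 π c (1 : Module.End ℤ_[p] Λ) (1 : T) := by
  have h := s33g_piRel_pair (π := π) (c := c) (𝔾.one_mem)
  rwa [Prod.snd_one, Prod.fst_one, map_one] at h

theorem s33g_piRel_zero : s33g_piRel 𝔾 π c (0 : Module.End ℤ_[p] Λ) (0 : T) := by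
  have h := s33g_piRel_pair (π := π) (c := c) (𝔾.zero_mem)
  rwa [Prod.snd_zero, Prod.fst_zero, map_zero] at h

/-- Uniqueness of the value. -/
theorem s33g_piRel_unique
    (hHaus : ∀ x : T, (∀ n : ℕ, x ∈ maximalIdeal T ^ n) → x = 0)
    (hc : ∀ n : ℕ, ∀ z ∈ 𝔾, s31c_Div (n + c) z.2 → π z.1 ∈ maximalIdeal T ^ n)
    {Y : Module.End ℤ_[p] Λ} {t t' : T} (h : s33g_piRel 𝔾 π c Y t) (h' : s33g_piRel 𝔾 π c Y t') :
    t = t' := by
  rw [← sub_eq_zero]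
  apply hHaus
  intro n
  obtain ⟨z, hz, hd, ht⟩ := h n
  obtain ⟨z', hz', hd', ht'⟩ := h' n
  have h1 : s31c_Div (n + c) (z - z').2 := by
    have e : (z - z').2 = (Y - z'.2) - (Y - z.2) := by rw [Prod.snd_sub]; abel
    rw [e]
    exact hd'.sub hd
  have h2 := hc n (z - z') (𝔾.sub_mem hz hz') h1
  rw [Prod.fst_sub, map_sub] at h2
  have e : t - t' = (t - π z.1) - (t' - π z'.1) + (π z.1 - π z'.1) := by ring
  rw [e]
  exact Ideal.add_mem _ (Ideal.sub_mem _ ht ht') h2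

/-- Existence of the value on the closure. -/
theorem s33g_piRel_exists
    (hPrec : ∀ f : ℕ → T, (∀ n : ℕ, f (n + 1) - f n ∈ maximalIdeal T ^ n) →
      ∃ L : T, ∀ n : ℕ, f n - L ∈ maximalIdeal T ^ n)
    (hc : ∀ n : ℕ, ∀ z ∈ 𝔾, s31c_Div (n + c) z.2 → π z.1 ∈ maximalIdeal T ^ n)
    {Y : Module.End ℤ_[p] Λ} (hY : Y ∈ s33g_cl 𝔾) : ∃ t : T, s33g_piRel 𝔾 π c Y t := by
  choose z hz hd using fun n : ℕ => hY (n + c)
  obtain ⟨L, hL⟩ := hPrec (fun n => π (z n).1) (fun n => by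
    have h1 : s31c_Div (n + c) (z (n + 1) - z n).2 := by
      have e : (z (n + 1) - z n).2 = (Y - (z n).2) - (Y - (z (n + 1)).2) := by
        rw [Prod.snd_sub]; abel
      rw [e]
      exact (hd n).sub (s33g_div_mono (by omega) (hd (n + 1)))
    have h2 := hc n _ (𝔾.sub_mem (hz (n + 1)) (hz n)) h1
    rwa [Prod.fst_sub, map_sub] at h2)
  refine ⟨L, fun n => ⟨z n, hz n, hd n, ?_⟩⟩
  have := Ideal.neg_mem_iff _ |>.mpr (hL n)
  rwa [neg_sub] at this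

end Pi

section PiA

variable {p : ℕ} [Fact p.Prime] {𝕋 : Type*} [Ring 𝕋] {Λ : Type*} [AddCommGroup Λ] [Module ℤ_[p] Λ]
  {T : Type*} [CommRing T] [IsLocalRing T]
  (𝔾 : Subring (𝕋 × Module.End ℤ_[p] Λ)) (π : 𝕋 →+* T) (c : ℕ)
  (hHaus : ∀ x : T, (∀ n : ℕ, x ∈ maximalIdeal T ^ n) → x = 0)
  (hPrec : ∀ f : ℕ → T, (∀ n : ℕ, f (n + 1) - f n ∈ maximalIdeal T ^ n) →
    ∃ L : T, ∀ n : ℕ, f n - L ∈ maximalIdeal T ^ n)
  (hc : ∀ n : ℕ, ∀ z ∈ 𝔾, s31c_Div (n + c) z.2 → π z.1 ∈ maximalIdeal T ^ n)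

/-- The underlying function of the extension of `π`. -/
def s33g_piFun (Y : ↥(s33g_cl 𝔾)) : T :=
  (s33g_piRel_exists hPrec hc Y.2).choose

theorem s33g_piFun_spec (Y : ↥(s33g_cl 𝔾)) :
    s33g_piRel 𝔾 π c (Y : Module.End ℤ_[p] Λ) (s33g_piFun 𝔾 π c hPrec hc Y) :=
  (s33g_piRel_exists hPrec hc Y.2).choose_spec

/-- **The extension of `π` to the closed Hecke algebra.** -/
def s33g_piA : ↥(s33g_cl 𝔾) →+* T where
  toFun Y := s33g_piFun 𝔾 π c hPrec hc Y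
  map_one' := s33g_piRel_unique hHaus hc (s33g_piFun_spec 𝔾 π c hPrec hc 1) s33g_piRel_one
  map_mul' Y Y' := s33g_piRel_unique hHaus hc (s33g_piFun_spec 𝔾 π c hPrec hc (Y * Y'))
    (s33g_piRel_mul (s33g_piFun_spec 𝔾 π c hPrec hc Y) (s33g_piFun_spec 𝔾 π c hPrec hc Y'))
  map_zero' := s33g_piRel_unique hHaus hc (s33g_piFun_spec 𝔾 π c hPrec hc 0) s33g_piRel_zero
  map_add' Y Y' := s33g_piRel_unique hHaus hc (s33g_piFun_spec 𝔾 π c hPrec hc (Y + Y'))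
    (s33g_piRel_add (s33g_piFun_spec 𝔾 π c hPrec hc Y) (s33g_piFun_spec 𝔾 π c hPrec hc Y'))

theorem s33g_piA_spec (Y : ↥(s33g_cl 𝔾)) :
    s33g_piRel 𝔾 π c (Y : Module.End ℤ_[p] Λ) (s33g_piA 𝔾 π c hHaus hPrec hc Y) :=
  s33g_piFun_spec 𝔾 π c hPrec hc Y

/-- Characterisation of the value by approximations. -/
theorem s33g_piA_eq_of_rel (Y : ↥(s33g_cl 𝔾)) {t : T}
    (h : s33g_piRel 𝔾 π c (Y : Module.End ℤ_[p] Λ) t) :
    s33g_piA 𝔾 π c hHaus hPrec hc Y = t :=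
  s33g_piRel_unique hHaus hc (s33g_piA_spec 𝔾 π c hHaus hPrec hc Y) h

/-- The extension on Hecke pairs. -/
theorem s33g_piA_pair {z : 𝕋 × Module.End ℤ_[p] Λ} (hz : z ∈ 𝔾) :
    s33g_piA 𝔾 π c hHaus hPrec hc ⟨z.2, s33g_pair_mem_cl 𝔾 hz⟩ = π z.1 :=
  s33g_piA_eq_of_rel 𝔾 π c hHaus hPrec hc _ (s33g_piRel_pair hz)

end PiA

section Complete

variable {T : Type*} [CommRing T] [IsLocalRing T]

/-- Precompleteness in elementary form. -/
theorem s33g_prec_of_complete [IsAdicComplete (maximalIdeal T) T] (f : ℕ → T)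
    (hf : ∀ n : ℕ, f (n + 1) - f n ∈ maximalIdeal T ^ n) :
    ∃ L : T, ∀ n : ℕ, f n - L ∈ maximalIdeal T ^ n := by
  have hmono : ∀ m n : ℕ, m ≤ n → f n - f m ∈ maximalIdeal T ^ m := by
    intro m n hmn
    induction n, hmn using Nat.le_induction with
    | base => rw [sub_self]; exact zero_mem _
    | succ n hmn ih =>
      have e : f (n + 1) - f m = (f (n + 1) - f n) + (f n - f m) := by ring
      rw [e]
      exact Ideal.add_mem _ (Ideal.pow_le_pow_right hmn (hf n)) ih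
  have hprec : IsPrecomplete (maximalIdeal T) T := inferInstance
  obtain ⟨L, hL⟩ := hprec.prec (f := f) (fun {m n} hmn => by
    rw [SModEq.sub_mem, smul_eq_mul, Ideal.mul_top]
    have := Ideal.neg_mem_iff _ |>.mpr (hmono m n hmn)
    rwa [neg_sub] at this)
  refine ⟨L, fun n => ?_⟩
  have h := hL n
  rwa [SModEq.sub_mem, smul_eq_mul, Ideal.mul_top] at h

end Complete

end

end Fermat.Agent.Lib.S33
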