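/-
P-AT-P programme (S33), **Λ-SIDE CONTRACT** (helper2).  DEFINITIONS AND ONE CONTRACT ONLY
(the contract is a `def … : Prop`); nothing geometric is proved here.

Vocabulary (Plan M, Lib/S30–S31): `Λ = T_p J₀(N) = s30a_TJ N p` (a finite free `ℤ_[p]`-module,
`s30u_finite`, `s30u_free`), `ρ_Λ = s30a_rho N p : G_ℚ →* End_{ℤ_p} Λ`, the Hecke operators
`T_ℓ^Λ = s31e_TL N p ℓ` on `Λ` and `T_ℓ = s31e_tau N S ℓ` in `𝕋 = heckeAlgebra N 2 S`.

* `s33g_pairs N p S`     : the ring of HECKE PAIRS, the subring of `𝕋 × End_{ℤ_p} Λ` generated by the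
                           pairs `(T_ℓ, T_ℓ^Λ)`, `ℓ` prime, `ℓ ∤ N`, `ℓ ∉ S`  (a commutative ring; it replaces an
                           action `𝕋 → End Λ`, which Plan M never constructs).
* `s33g_thetaPart N p S θ` : the `θ`-PRIMARY PART `Λ_θ ⊆ Λ`: the `w` on which every Hecke pair
                           `(x, X)` with `θ x = 0` acts topologically nilpotently
                           (`∀ m, ∃ k, X ^ k w ∈ p ^ m Λ`).  A saturated `ℤ_[p]`-submodule, stable under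
                           every endomorphism commuting with the `T_ℓ^Λ` (in particular under `G_ℚ`);
                           functorial for Hecke-equivariant maps.
* `s33g_HalfAt N p S θ P`  : **[HALF] at `P ∣ p`**: there is a `ℤ_[p]`-submodule `Λ' ⊆ Λ` such that the
                           inertia group `I_P` acts trivially on `Λ / Λ'` and
                           `2 · rank (Λ' ∩ Λ_θ) ≤ rank Λ_θ`.
                           (Nothing else is asked of `Λ'`: no Hecke- or `D_P`-stability, no saturation,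
                           no statement about the action on `Λ'` — the consumer replaces `Λ'` by the
                           canonical submodule generated by the `σ w - w`.  Equivalently:
                           `rank ((Λ_θ)_{I_P} / tors) ≥ ½ rank Λ_θ`.)
* `s33g_Half`              : **the contract**: [HALF] holds at every `P ∣ p` under EXACTLY the
                           hypotheses of S33 (`p` odd, `p ∥ N`, `S ⊇ primes of N`, a Hecke–Galois datum
                           `H` whose residual representation is ordinary at `p`).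

Consumer (helper2, files `Lib/S33/G*.lean`): `s33g_Half → S33`.
-/
import Fermat.Agent.Lib.S31.WireDefs
import Fermat.Prelude.Def_CuspForm_HeckeGaloisRepDatum
import Fermat.Prelude.Def_GaloisRep_LocalConditions

set_option autoImplicit false
set_option linter.unusedSectionVars false

namespace Fermat.Agent.Lib.S33

open CuspForm Fermat.Agent.Lib.S29 Fermat.Agent.Lib.S30 Fermat.Agent.Lib.S31

noncomputable section

local notation "Kb" => AlgebraicClosure ℚ

section Generic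

variable {p : ℕ} [Fact p.Prime] {𝕋 : Type*} [Ring 𝕋] {Λ : Type*} [AddCommGroup Λ] [Module ℤ_[p] Λ]
  {k : Type*} [Ring k]

/-- The `θ`-primary part of a `ℤ_[p]`-module `Λ` with respect to a ring `𝔾 ⊆ 𝕋 × End Λ` of Hecke
pairs: the `w` on which every pair `(x, X) ∈ 𝔾` with `θ x = 0` acts topologically nilpotently. -/
def s33g_primaryPart (𝔾 : Subring (𝕋 × Module.End ℤ_[p] Λ)) (θ : 𝕋 →+* k) :
    Submodule ℤ_[p] Λ where
  carrier := {w | ∀ z ∈ 𝔾, θ z.1 = 0 →
    ∀ m : ℕ, ∃ j : ℕ, ∃ w' : Λ, (z.2 ^ j) w = (p : ℤ_[p]) ^ m • w'}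
  add_mem' := by
    intro a b ha hb z hz hθ m
    obtain ⟨j₁, a', ha'⟩ := ha z hz hθ m
    obtain ⟨j₂, b', hb'⟩ := hb z hz hθ m
    refine ⟨j₁ + j₂, (z.2 ^ j₂) a' + (z.2 ^ j₁) b', ?_⟩
    have e1 : (z.2 ^ (j₁ + j₂)) a = (p : ℤ_[p]) ^ m • (z.2 ^ j₂) a' := by
      rw [add_comm j₁ j₂, pow_add, Module.End.mul_apply, ha', map_smul]
    have e2 : (z.2 ^ (j₁ + j₂)) b = (p : ℤ_[p]) ^ m • (z.2 ^ j₁) b' := by
      rw [pow_add, Module.End.mul_apply, hb', map_smul]
    rw [map_add, smul_add, e1, e2]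
  zero_mem' := by
    intro z _ _ m
    exact ⟨0, 0, by rw [map_zero, smul_zero]⟩
  smul_mem' := by
    intro c a ha z hz hθ m
    obtain ⟨j, a', ha'⟩ := ha z hz hθ m
    exact ⟨j, c • a', by rw [map_smul, ha', smul_comm]⟩

theorem s33g_mem_primaryPart (𝔾 : Subring (𝕋 × Module.End ℤ_[p] Λ)) (θ : 𝕋 →+* k) {w : Λ} :
    w ∈ s33g_primaryPart 𝔾 θ ↔ ∀ z ∈ 𝔾, θ z.1 = 0 →
      ∀ m : ℕ, ∃ j : ℕ, ∃ w' : Λ, (z.2 ^ j) w = (p : ℤ_[p]) ^ m • w' :=
  Iff.rfl

end Generic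

section Defs

variable (N : ℕ) [NeZero N] (p : ℕ) [Fact p.Prime] (S : Finset ℕ)

/-- The generating Hecke pairs `(T_ℓ, T_ℓ^Λ)`, `ℓ` prime, `ℓ ∤ N`, `ℓ ∉ S`. -/
def s33g_pairGens :
    Set (heckeAlgebra N 2 (↑S : Set ℕ) × Module.End ℤ_[p] (s30a_TJ N p)) :=
  {z | ∃ ℓ : ℕ, ℓ.Prime ∧ ¬ ℓ ∣ N ∧ ℓ ∉ S ∧ z = (s31e_tau N S ℓ, s31e_TL N p ℓ)}

/-- **The ring of Hecke pairs**: the subring of `𝕋 × End_{ℤ_p}(T_p J₀(N))` generated by the pairs
`(T_ℓ, T_ℓ^Λ)`, `ℓ` prime, `ℓ ∤ N`, `ℓ ∉ S`. -/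
def s33g_pairs :
    Subring (heckeAlgebra N 2 (↑S : Set ℕ) × Module.End ℤ_[p] (s30a_TJ N p)) :=
  Subring.closure (s33g_pairGens N p S)

theorem s33g_gen_mem_pairs {ℓ : ℕ} (hℓ : ℓ.Prime) (hℓN : ¬ ℓ ∣ N) (hℓS : ℓ ∉ S) :
    (s31e_tau N S ℓ, s31e_TL N p ℓ) ∈ s33g_pairs N p S :=
  Subring.subset_closure ⟨ℓ, hℓ, hℓN, hℓS, rfl⟩

variable {k : Type*} [Ring k] (θ : heckeAlgebra N 2 (↑S : Set ℕ) →+* k)

/-- **The `θ`-primary part of the Tate module**: the `w` on which every Hecke pair `(x, X)` with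
`θ x = 0` acts topologically nilpotently. -/
def s33g_thetaPart : Submodule ℤ_[p] (s30a_TJ N p) :=
  s33g_primaryPart (s33g_pairs N p S) θ

theorem s33g_mem_thetaPart {w : s30a_TJ N p} :
    w ∈ s33g_thetaPart N p S θ ↔ ∀ z ∈ s33g_pairs N p S, θ z.1 = 0 →
      ∀ m : ℕ, ∃ j : ℕ, ∃ w' : s30a_TJ N p, (z.2 ^ j) w = (p : ℤ_[p]) ^ m • w' :=
  Iff.rfl

/-- **[HALF] at `P`**: a submodule `Λ'` with `I_P` acting trivially on `Λ / Λ'` whose intersection with
the `θ`-part has at most half the rank of the `θ`-part. -/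
def s33g_HalfAt (P : ValuationSubring Kb) : Prop :=
  ∃ Λ' : Submodule ℤ_[p] (s30a_TJ N p),
    (∀ σ ∈ P.inertiaSubgroupIn ℚ, ∀ w : s30a_TJ N p, s30a_rho N p σ w - w ∈ Λ') ∧
    2 * Module.finrank ℤ_[p] ↥(Λ' ⊓ s33g_thetaPart N p S θ) ≤
      Module.finrank ℤ_[p] ↥(s33g_thetaPart N p S θ)

end Defs

/-- **The Λ-side contract [HALF]**: under exactly the hypotheses of S33, [HALF] holds at every
`P ∣ p`. -/
def s33g_Half : Prop :=
  ∀ {p : ℕ} {N : ℕ} [NeZero N] {S : Finset ℕ}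
    {𝒪 : Type} [CommRing 𝒪] [IsDomain 𝒪] [IsDiscreteValuationRing 𝒪]
    [IsAdicComplete (IsLocalRing.maximalIdeal 𝒪) 𝒪]
    {θ : CuspForm.heckeAlgebra N 2 (↑S : Set ℕ) →+* IsLocalRing.ResidueField 𝒪}
    {T : Type} [CommRing T] [IsLocalRing T] [IsNoetherianRing T]
    [IsAdicComplete (IsLocalRing.maximalIdeal T) T] [Algebra 𝒪 T] [IsLocalHom (algebraMap 𝒪 T)]
    [Module.Finite 𝒪 T] [Module.Free 𝒪 T]
    [Finite (IsLocalRing.ResidueField 𝒪)] [CharZero 𝒪]
    (hp : p.Prime), p ≠ 2 → (p : 𝒪) ∈ IsLocalRing.maximalIdeal 𝒪 → (p ∣ N ∧ ¬ p ^ 2 ∣ N) →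
    (∀ q : ℕ, q.Prime → q ∣ N → q ∈ S) →
    ∀ H : CuspForm.HeckeGaloisRepDatum N (↑S : Set ℕ) 𝒪 θ T,
      (GaloisRepAdic.ofResidualGaloisRep H.ρ.residual).IsOrdinaryAt p →
      ∀ P : ValuationSubring Kb, P.LiesOverPrime p →
        (haveI : Fact p.Prime := ⟨hp⟩; s33g_HalfAt N p S θ P)

end

end Fermat.Agent.Lib.S33
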