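/-
S33 (programme P-AT-P), package [GLUE] (helper2), part 11: **THE CONCRETE CLOSED HECKE ALGEBRA** on the
Tate module `Λ = T_p J₀(N)`.

* `s33g_pairs_commute_rho`, `s33g_pairs_commute` : the second components of Hecke pairs commute with
  the Galois action and with each other;
* `s33g_end_sep`, `s33g_cl_commute` : `End Λ` is `p`-adically separated; commutation passes to the
  closure;
* `s33g_A N p S := ↥(s33g_cl (s33g_pairs N p S))` with its `CommRing` instance, `s33g_actA` (inclusion
  into `End Λ`), `s33g_A_commute_rho`;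
* `s33g_rel` : Hecke pairs are intertwined by `ι : H(ℤ) → Λ` with the matrices `Θ x`;
* `s33g_hc`  : **the congruence property** `(x, X) ∈ pairs, X ∈ p ^ (n + c) End Λ ⇒ π x ∈ 𝔪_T ^ n`.
-/
import Fermat.Agent.Lib.S33.LambdaIface
import Fermat.Agent.Lib.S33.GPi
import Fermat.Agent.Lib.S33.GMat2
import Fermat.Agent.Lib.S31.Final
import Fermat.Agent.Lib.S30.TateKinf

set_option autoImplicit false
set_option linter.unusedSectionVars false

open IsLocalRing CuspForm CongruenceSubgroup

namespace Fermat.Agent.Lib.S33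

open Fermat.Agent.Lib.S29 Fermat.Agent.Lib.S30 Fermat.Agent.Lib.S31 Fermat.Agent.Lib.S53

noncomputable section

section Commute

variable (N : ℕ) [NeZero N] (p : ℕ) [Fact p.Prime] (S : Finset ℕ)

/-- Second components of Hecke pairs commute with the Galois action. -/
theorem s33g_pairs_commute_rho {z : heckeAlgebra N 2 (↑S : Set ℕ) × Module.End ℤ_[p] (s30a_TJ N p)}
    (hz : z ∈ s33g_pairs N p S) (g : s29k_G) : Commute (s30a_rho N p g) z.2 := by
  unfold s33g_pairs at hz
  induction hz using Subring.closure_induction with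
  | mem x hx =>
    obtain ⟨ℓ, hℓ, -, -, rfl⟩ := hx
    show Commute (s30a_rho N p g) (s31e_TL N p ℓ)
    rw [s31e_TL_of N p hℓ]
    exact s30a_comm N p ⟨ℓ, hℓ⟩ g
  | zero => exact Commute.zero_right _
  | one => exact Commute.one_right _
  | add x y _ _ hx hy => exact hx.add_right hy
  | neg x _ hx => exact hx.neg_right
  | mul x y _ _ hx hy => exact hx.mul_right hy

/-- Second components of Hecke pairs commute with the generating Hecke operators. -/
theorem s33g_pairs_commute_TL {z : heckeAlgebra N 2 (↑S : Set ℕ) × Module.End ℤ_[p] (s30a_TJ N p)}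
    (hz : z ∈ s33g_pairs N p S) {ℓ' : ℕ} (hℓ' : ℓ'.Prime) (hℓ'N : ¬ ℓ' ∣ N) :
    Commute z.2 (s31e_TL N p ℓ') := by
  unfold s33g_pairs at hz
  induction hz using Subring.closure_induction with
  | mem x hx =>
    obtain ⟨ℓ, hℓ, hℓN, -, rfl⟩ := hx
    show Commute (s31e_TL N p ℓ) (s31e_TL N p ℓ')
    rw [s31e_TL_of N p hℓ, s31e_TL_of N p hℓ', ← s30a_Tz_of_not_dvd N p (ℓ := ⟨ℓ, hℓ⟩) hℓN,
      ← s30a_Tz_of_not_dvd N p (ℓ := ⟨ℓ', hℓ'⟩) hℓ'N]
    exact s30a_Tz_T_comm N p _ _
  | zero => exact Commute.zero_left _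
  | one => exact Commute.one_left _
  | add x y _ _ hx hy => exact hx.add_left hy
  | neg x _ hx => exact hx.neg_left
  | mul x y _ _ hx hy => exact hx.mul_left hy

/-- Second components of Hecke pairs commute with each other. -/
theorem s33g_pairs_commute {z z' : heckeAlgebra N 2 (↑S : Set ℕ) × Module.End ℤ_[p] (s30a_TJ N p)}
    (hz : z ∈ s33g_pairs N p S) (hz' : z' ∈ s33g_pairs N p S) : Commute z.2 z'.2 := by
  unfold s33g_pairs at hz'
  induction hz' using Subring.closure_induction with
  | mem x hx =>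
    obtain ⟨ℓ, hℓ, hℓN, -, rfl⟩ := hx
    exact s33g_pairs_commute_TL N p S hz hℓ hℓN
  | zero => exact Commute.zero_right _
  | one => exact Commute.one_right _
  | add x y _ _ hx hy => exact hx.add_right hy
  | neg x _ hx => exact hx.neg_right
  | mul x y _ _ hx hy => exact hx.mul_right hy

end Commute

section Sep

variable {p : ℕ} [Fact p.Prime] {𝕋 : Type*} [Ring 𝕋] {Λ : Type*} [AddCommGroup Λ] [Module ℤ_[p] Λ]
  [Module.Finite ℤ_[p] Λ]

/-- `End Λ` is `p`-adically separated. -/
theorem s33g_end_sep (X : Module.End ℤ_[p] Λ) (h : ∀ m : ℕ, s31c_Div m X) : X = 0 := by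
  refine LinearMap.ext fun v => ?_
  rw [LinearMap.zero_apply]
  exact s33g_sep (p := p) _ fun m => h m v

/-- Commutation passes to the closure. -/
theorem s33g_cl_commute (𝔾 : Subring (𝕋 × Module.End ℤ_[p] Λ)) (X : Module.End ℤ_[p] Λ)
    (hX : ∀ z ∈ 𝔾, Commute z.2 X) {Y : Module.End ℤ_[p] Λ} (hY : Y ∈ s33g_cl 𝔾) : Commute Y X := by
  show Y * X = X * Y
  rw [← sub_eq_zero]
  apply s33g_end_sep
  intro m
  obtain ⟨z, hz, hd⟩ := hY m
  have e : Y * X - X * Y = (Y - z.2) * X - X * (Y - z.2) := by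
    have := (hX z hz).eq
    rw [sub_mul, mul_sub, this]; abel
  rw [e]
  exact (hd.mul_right _).sub (hd.mul_left _)

end Sep

section A

variable (N : ℕ) [NeZero N] (p : ℕ) [Fact p.Prime] (S : Finset ℕ)

/-- **The closed Hecke algebra on the Tate module.** -/
abbrev s33g_A : Type := ↥(s33g_cl (s33g_pairs N p S))

/-- The closed Hecke algebra commutes with the Galois action. -/
theorem s33g_A_commute_rho (Y : s33g_A N p S) (g : s29k_G) :
    Commute (Y : Module.End ℤ_[p] (s30a_TJ N p)) (s30a_rho N p g) :=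
  s33g_cl_commute (s33g_pairs N p S) _ (fun _ hz => (s33g_pairs_commute_rho N p S hz g).symm) Y.2

/-- The closed Hecke algebra is commutative. -/
theorem s33g_A_commute (Y Y' : s33g_A N p S) :
    Commute (Y : Module.End ℤ_[p] (s30a_TJ N p)) (Y' : Module.End ℤ_[p] (s30a_TJ N p)) := by
  refine s33g_cl_commute (s33g_pairs N p S) _ (fun z hz => ?_) Y.2
  exact (s33g_cl_commute (s33g_pairs N p S) _
    (fun z' hz' => s33g_pairs_commute N p S hz' hz) Y'.2).symm

instance s33g_instCommRingA : CommRing (s33g_A N p S) :=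
  { (inferInstance : Ring (s33g_A N p S)) with
    mul_comm := fun Y Y' => Subtype.ext (s33g_A_commute N p S Y Y').eq }

/-- The action of the closed Hecke algebra on the Tate module. -/
def s33g_actA : s33g_A N p S →ₐ[ℤ_[p]] Module.End ℤ_[p] (s30a_TJ N p) :=
  (s33g_cl (s33g_pairs N p S)).val

theorem s33g_actA_apply (Y : s33g_A N p S) :
    s33g_actA N p S Y = (Y : Module.End ℤ_[p] (s30a_TJ N p)) := rfl

theorem s33g_actA_injective : Function.Injective (s33g_actA N p S) := Subtype.val_injective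

end A

end

end Fermat.Agent.Lib.S33
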