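/-
S33 (programme P-AT-P), package [GLUE] (helper2), part 12: **THE CONGRUENCE PROPERTY FOR HECKE PAIRS.**

* `s33g_rel` : every Hecke pair `(x, X)` is intertwined by `ι : H(ℤ) → Λ` with the matrix `Θ x`
  (`X (ι φ) = ι (Θ x · φ)`);
* `s33g_hc`  : `∃ c, ∀ n, (x, X) ∈ pairs, X ∈ p ^ (n + c) End Λ ⇒ π x ∈ 𝔪_T ^ n`
  (saturation of `ι` + faithfulness of `Θ` + the congruence lemma `s31c_cong_map`).
-/
import Fermat.Agent.Lib.S33.GConc

set_option autoImplicit false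
set_option linter.unusedSectionVars false

open IsLocalRing CuspForm CongruenceSubgroup

namespace Fermat.Agent.Lib.S33

open Fermat.Agent.Lib.S29 Fermat.Agent.Lib.S30 Fermat.Agent.Lib.S31 Fermat.Agent.Lib.S53

noncomputable section

variable (N : ℕ) [NeZero N] (p : ℕ) [Fact p.Prime] (S : Finset ℕ)

/-- Hecke pairs are intertwined by `ι`. -/
theorem s33g_rel {r : ℕ} (b : Module.Basis (Fin r) ℤ (s29s_M N))
    (Θ : heckeAlgebra N 2 (↑S : Set ℕ) →+* Matrix (Fin r) (Fin r) ℤ)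
    (hΘT : ∀ (ℓ : ℕ) (hℓ : ℓ.Prime) (hℓN : ¬ ℓ ∣ N) (hℓS : ℓ ∉ (↑S : Set ℕ)),
      Θ (heckeAlgebra.T hℓ hℓN hℓS) = (haveI : Fact ℓ.Prime := ⟨hℓ⟩; s29s_heckeMat b ℓ))
    {z : heckeAlgebra N 2 (↑S : Set ℕ) × Module.End ℤ_[p] (s30a_TJ N p)}
    (hz : z ∈ s33g_pairs N p S) :
    ∀ φ : s29s_M N, z.2 (s30i_iota N p φ) = s30i_iota N p (Matrix.toLin b b (Θ z.1) φ) := by
  unfold s33g_pairs at hz
  induction hz using Subring.closure_induction with
  | mem x hx =>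
    obtain ⟨ℓ, hℓ, hℓN, hℓS, rfl⟩ := hx
    intro φ
    have hℓS' : ℓ ∉ (↑S : Set ℕ) := fun h => hℓS (Finset.mem_coe.mp h)
    haveI : Fact ℓ.Prime := ⟨hℓ⟩
    show s31e_TL N p ℓ (s30i_iota N p φ) = s30i_iota N p (Matrix.toLin b b (Θ (s31e_tau N S ℓ)) φ)
    rw [s31e_TL_of N p hℓ, s31e_tau_of N S hℓ hℓN hℓS', hΘT ℓ hℓ hℓN hℓS', s29s_heckeMat,
      Matrix.toLin_toMatrix]
    exact (s30i_iota_hecke N p ℓ hℓN φ).symm
  | zero =>
    intro φ
    rw [Prod.snd_zero, Prod.fst_zero, map_zero, map_zero, LinearMap.zero_apply,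
      LinearMap.zero_apply, map_zero]
  | one =>
    intro φ
    rw [Prod.snd_one, Prod.fst_one, map_one, Matrix.toLin_one, Module.End.one_apply,
      LinearMap.id_apply]
  | add x y _ _ hx hy =>
    intro φ
    rw [Prod.snd_add, Prod.fst_add, map_add, map_add, LinearMap.add_apply, LinearMap.add_apply,
      map_add, hx φ, hy φ]
  | neg x _ hx =>
    intro φ
    rw [Prod.snd_neg, Prod.fst_neg, map_neg, map_neg, LinearMap.neg_apply, LinearMap.neg_apply,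
      map_neg, hx φ]
  | mul x y _ _ hx hy =>
    intro φ
    rw [Prod.snd_mul, Prod.fst_mul, map_mul, Matrix.toLin_mul b b b, Module.End.mul_apply,
      LinearMap.comp_apply, hy φ, hx]

/-- **The congruence property.** -/
theorem s33g_hc {T : Type} [CommRing T] [IsLocalRing T] (hpT : (p : T) ∈ maximalIdeal T)
    (π : heckeAlgebra N 2 (↑S : Set ℕ) →+* T) :
    ∃ c : ℕ, ∀ n : ℕ, ∀ z ∈ s33g_pairs N p S, s31c_Div (n + c) z.2 →
      π z.1 ∈ maximalIdeal T ^ n := by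
  set b := Module.finBasis ℤ (s29s_M N) with hb
  obtain ⟨Θ, hΘinj, hΘT⟩ := s31t_Theta N (↑S : Set ℕ) b
  obtain ⟨c, hc⟩ := s31c_cong_map Θ.toAddMonoidHom hΘinj p
  refine ⟨c, fun n z hz hdiv => ?_⟩
  have hlat : ∀ φ : s29s_M N, ∃ φ' : s29s_M N,
      Matrix.toLin b b (Θ z.1) φ = ((p : ℤ) ^ (n + c)) • φ' := by
    intro φ
    apply s31d_iota_div N p
    obtain ⟨w, hw⟩ := hdiv (s30i_iota N p φ)
    exact ⟨w, by rw [← s33g_rel N p S b Θ hΘT hz φ, hw]⟩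
  choose φ' hφ' using hlat
  have hmat : Θ z.1 = ((p : ℤ) ^ (n + c)) • (Matrix.of fun i k => b.repr (φ' (b k)) i) := by
    rw [← LinearMap.toMatrix_toLin b b (Θ z.1)]
    ext i k
    rw [LinearMap.toMatrix_apply, hφ' (b k), map_smul, Finsupp.smul_apply, Matrix.smul_apply,
      Matrix.of_apply]
  exact hc π (maximalIdeal T) hpT n _ _ hmat

end

end Fermat.Agent.Lib.S33
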