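/-
S33 (programme P-AT-P), package [GLUE] (helper2), part 13: **THE HECKE SCALARS OF THE GALOIS ACTION.**

On the closed Hecke algebra `A = s33g_A N p S` acting on `Λ = T_p J₀(N)`:

* `s33g_lucas_mem`, `s33g_lucas_pair_mem` : Lucas pairs `(L_j(T_ℓ, ℓ), L_j(T_ℓ^Λ, ℓ))` are Hecke pairs;
* `s33g_Phi_mem` : `Φ(g) = ρ_Λ(g) + ε(g) ρ_Λ(g)⁻¹ ∈ A` (Frobenius density);
* `s33g_tA`      : `t(g) := Φ(g)` as an element of `A`;  `s33g_hCH` (Cayley–Hamilton on `Λ`, by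
  definition), `s33g_hcomm`;
* `s33g_piT`     : the extension `π̂ : A →+* T` of `π : 𝕋 →+* T`;  `s33g_piT_pair`;
* `s33g_piT_tA`  : `π̂ (t g) = tr ρ_T(g)`;   `s33g_piT_eps` : `π̂ (ε g) = det ρ_T(g)`;
* `s33g_thetaPart_iff` : `Λ_θ` is the part of `Λ` on which every `a ∈ A` with `π̂ a ∈ 𝔪_T` is
  topologically nilpotent.
-/
import Fermat.Agent.Lib.S33.GCong
import Fermat.Agent.Lib.S34.Top

set_option autoImplicit false
set_option linter.unusedSectionVars false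

open IsLocalRing CuspForm CongruenceSubgroup

namespace Fermat.Agent.Lib.S33

open Fermat.Agent.Lib.S29 Fermat.Agent.Lib.S30 Fermat.Agent.Lib.S31 Fermat.Agent.Lib.S34
  Fermat.Agent.Lib.S53

noncomputable section

section Lucas

/-- Lucas sequences stay in a subring. -/
theorem s33g_lucas_mem {R : Type*} [Ring R] (𝔾 : Subring R) {s d : R} (hs : s ∈ 𝔾) (hd : d ∈ 𝔾)
    (j : ℕ) : s31c_lucas s d j ∈ 𝔾 := by
  induction j using s31c_two_step with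
  | h0 =>
    rw [s31c_lucas_zero]
    have : (2 : R) = 1 + 1 := by norm_num
    rw [this]
    exact 𝔾.add_mem 𝔾.one_mem 𝔾.one_mem
  | h1 => rw [s31c_lucas_one]; exact hs
  | h j ih0 ih1 =>
    rw [s31c_lucas_succ_succ]
    exact 𝔾.sub_mem (𝔾.mul_mem hs ih1) (𝔾.mul_mem hd ih0)

/-- A scalar minus a natural number, as a scalar endomorphism. -/
theorem s33g_scalar_sub_natCast {p : ℕ} [Fact p.Prime] {Λ : Type*} [AddCommGroup Λ] [Module ℤ_[p] Λ]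
    (x : ℤ_[p]) (ℓ j : ℕ) :
    algebraMap ℤ_[p] (Module.End ℤ_[p] Λ) x - ((ℓ ^ j : ℕ) : Module.End ℤ_[p] Λ) =
      (x - (ℓ : ℤ_[p]) ^ j) • (1 : Module.End ℤ_[p] Λ) := by
  have e0 : ((ℓ ^ j : ℕ) : Module.End ℤ_[p] Λ) =
      ((ℓ : ℤ_[p]) ^ j) • (1 : Module.End ℤ_[p] Λ) := by
    rw [← Nat.cast_pow, Nat.cast_smul_eq_nsmul, nsmul_one]
  rw [e0, Algebra.algebraMap_eq_smul_one, sub_smul]

theorem s33g_smul_add_aux {p : ℕ} [Fact p.Prime] {Λ : Type*} [AddCommGroup Λ] [Module ℤ_[p] Λ]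
    (c : ℤ_[p]) (x y : Λ) : c • x + c • y = c • (x + y) := (smul_add c x y).symm

variable (N : ℕ) [NeZero N] (p : ℕ) [Fact p.Prime] (S : Finset ℕ)

/-- Lucas pairs are Hecke pairs. -/
theorem s33g_lucas_pair_mem {ℓ : ℕ} (hℓ : ℓ.Prime) (hℓN : ¬ ℓ ∣ N) (hℓS : ℓ ∉ S) (j : ℕ) :
    (s31c_lucas (s31e_tau N S ℓ) ((ℓ : ℕ) : heckeAlgebra N 2 (↑S : Set ℕ)) j,
      s31c_lucas (s31e_TL N p ℓ) ((ℓ : ℕ) : Module.End ℤ_[p] (s30a_TJ N p)) j) ∈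
      s33g_pairs N p S := by
  have h := s33g_lucas_mem (s33g_pairs N p S) (s33g_gen_mem_pairs N p S hℓ hℓN hℓS)
    (natCast_mem _ ℓ) j
  have e1 := s31c_lucas_map (s31e_tau N S ℓ, s31e_TL N p ℓ)
    ((ℓ : ℕ) : heckeAlgebra N 2 (↑S : Set ℕ) × Module.End ℤ_[p] (s30a_TJ N p))
    (RingHom.fst _ _) j
  have e2 := s31c_lucas_map (s31e_tau N S ℓ, s31e_TL N p ℓ)
    ((ℓ : ℕ) : heckeAlgebra N 2 (↑S : Set ℕ) × Module.End ℤ_[p] (s30a_TJ N p))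
    (RingHom.snd _ _) j
  rw [map_natCast] at e1 e2
  have e : (s31c_lucas (s31e_tau N S ℓ) ((ℓ : ℕ) : heckeAlgebra N 2 (↑S : Set ℕ)) j,
      s31c_lucas (s31e_TL N p ℓ) ((ℓ : ℕ) : Module.End ℤ_[p] (s30a_TJ N p)) j) =
      s31c_lucas (s31e_tau N S ℓ, s31e_TL N p ℓ)
        ((ℓ : ℕ) : heckeAlgebra N 2 (↑S : Set ℕ) × Module.End ℤ_[p] (s30a_TJ N p)) j :=
    Prod.ext e1.symm e2.symm
  rw [e]
  exact h

end Lucas

variable {p : ℕ} {N : ℕ} [NeZero N] {S : Finset ℕ}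
  {𝒪 : Type} [CommRing 𝒪] [IsDomain 𝒪] [IsDiscreteValuationRing 𝒪]
  [IsAdicComplete (IsLocalRing.maximalIdeal 𝒪) 𝒪]
  {θ : CuspForm.heckeAlgebra N 2 (↑S : Set ℕ) →+* IsLocalRing.ResidueField 𝒪}
  {T : Type} [CommRing T] [IsLocalRing T] [IsNoetherianRing T]
  [IsAdicComplete (IsLocalRing.maximalIdeal T) T] [Algebra 𝒪 T] [IsLocalHom (algebraMap 𝒪 T)]
  [Module.Finite 𝒪 T] [Module.Free 𝒪 T] [Fact p.Prime]

section Approx

/-- **Frobenius density, packaged**: every `g` is approximated by a Lucas pair. -/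
theorem s33g_approx (hpS : p ∈ S) (hNS : ∀ q : ℕ, q.Prime → q ∣ N → q ∈ S)
    (H : CuspForm.HeckeGaloisRepDatum N (↑S : Set ℕ) 𝒪 θ T)
    (b : Module.Basis (Fin 2) T H.ρ.V) (n m : ℕ) (g : s29k_G) :
    ∃ ℓ j : ℕ, ℓ.Prime ∧ ¬ ℓ ∣ N ∧ ℓ ∉ S ∧
      (matOf H.ρ b g).trace - H.π (s31c_lucas (s31e_tau N S ℓ)
        ((ℓ : ℕ) : heckeAlgebra N 2 (↑S : Set ℕ)) j) ∈ maximalIdeal T ^ n ∧
      (matOf H.ρ b g).det - (ℓ : T) ^ j ∈ maximalIdeal T ^ n ∧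
      s31c_Div m (s31c_Phi (s30a_rho N p) (s30y_cycDatum p).ε g -
        s31c_lucas (s31e_TL N p ℓ) ((ℓ : ℕ) : Module.End ℤ_[p] (s30a_TJ N p)) j) ∧
      ∃ w : ℤ_[p], (((s30y_cycDatum p).ε g : ℤ_[p]ˣ) : ℤ_[p]) - (ℓ : ℤ_[p]) ^ j =
        (p : ℤ_[p]) ^ m * w := by
  obtain ⟨ℓ, j, hℓ, hℓS, h1, h2, h3, h4⟩ := s34t_approx p (matOf H.ρ b) (matContinuous_matOf H.ρ b)
    (s30a_rho N p) (s30a_cont N p) (s30y_cycDatum p).ε (s30y_cycDatum p).cont H.π S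
    (s31e_tau N S) (s31e_TL N p) (s31f_hfrob hpS hNS H b (s30y_cycDatum p)) n m g
  exact ⟨ℓ, j, hℓ, (s31f_not_dvd N p hpS hNS hℓ hℓS).1, hℓS, h1, h2, h3, h4⟩

/-- `Φ(g) = ρ(g) + ε(g) ρ(g)⁻¹` lies in the closed Hecke algebra. -/
theorem s33g_Phi_mem (hpS : p ∈ S) (hNS : ∀ q : ℕ, q.Prime → q ∣ N → q ∈ S)
    (H : CuspForm.HeckeGaloisRepDatum N (↑S : Set ℕ) 𝒪 θ T) (g : s29k_G) :
    s31c_Phi (s30a_rho N p) (s30y_cycDatum p).ε g ∈ s33g_cl (s33g_pairs N p S) := by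
  intro m
  set b : Module.Basis (Fin 2) T H.ρ.V := Module.finBasisOfFinrankEq T H.ρ.V H.ρ.finrank_eq
  obtain ⟨ℓ, j, hℓ, hℓN, hℓS, -, -, h3, -⟩ := s33g_approx hpS hNS H b 0 m g
  exact ⟨_, s33g_lucas_pair_mem N p S hℓ hℓN hℓS j, h3⟩

/-- **The trace scalar** `t(g) = Φ(g) ∈ A`. -/
def s33g_tA (hpS : p ∈ S) (hNS : ∀ q : ℕ, q.Prime → q ∣ N → q ∈ S)
    (H : CuspForm.HeckeGaloisRepDatum N (↑S : Set ℕ) 𝒪 θ T) (g : s29k_G) : s33g_A N p S :=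
  ⟨s31c_Phi (s30a_rho N p) (s30y_cycDatum p).ε g, s33g_Phi_mem hpS hNS H g⟩

theorem s33g_tA_coe (hpS : p ∈ S) (hNS : ∀ q : ℕ, q.Prime → q ∣ N → q ∈ S)
    (H : CuspForm.HeckeGaloisRepDatum N (↑S : Set ℕ) 𝒪 θ T) (g : s29k_G) :
    ((s33g_tA hpS hNS H g : s33g_A N p S) : Module.End ℤ_[p] (s30a_TJ N p)) =
      s30a_rho N p g + (((s30y_cycDatum p).ε g : ℤ_[p]ˣ) : ℤ_[p]) • s30a_rho N p g⁻¹ := rfl

/-- **Cayley–Hamilton on the Tate module** (by definition of `t`). -/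
theorem s33g_hCH (hpS : p ∈ S) (hNS : ∀ q : ℕ, q.Prime → q ∣ N → q ∈ S)
    (H : CuspForm.HeckeGaloisRepDatum N (↑S : Set ℕ) 𝒪 θ T) (g : s29k_G) (w : s30a_TJ N p) :
    s30a_rho N p g w + (((s30y_cycDatum p).ε g : ℤ_[p]ˣ) : ℤ_[p]) • s30a_rho N p g⁻¹ w =
      s33g_actA N p S (s33g_tA hpS hNS H g) w := rfl

/-- The Galois action commutes with the closed Hecke algebra. -/
theorem s33g_hcomm (g : s29k_G) (a : s33g_A N p S) (w : s30a_TJ N p) :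
    s30a_rho N p g (s33g_actA N p S a w) = s33g_actA N p S a (s30a_rho N p g w) := by
  have h := (s33g_A_commute_rho N p S a g).eq
  exact (LinearMap.congr_fun h w).symm

end Approx

section PiT

variable (hpT : (p : T) ∈ maximalIdeal T) (π : heckeAlgebra N 2 (↑S : Set ℕ) →+* T)

/-- The congruence constant. -/
def s33g_c : ℕ := (s33g_hc N p S hpT π).choose

theorem s33g_c_spec : ∀ n : ℕ, ∀ z ∈ s33g_pairs N p S, s31c_Div (n + s33g_c hpT π) z.2 →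
    π z.1 ∈ maximalIdeal T ^ n := (s33g_hc N p S hpT π).choose_spec

/-- **The extension `π̂ : A →+* T` of `π`.** -/
def s33g_piT : s33g_A N p S →+* T :=
  s33g_piA (s33g_pairs N p S) π (s33g_c hpT π) s31e_hausdorff s33g_prec_of_complete
    (s33g_c_spec hpT π)

theorem s33g_piT_spec (a : s33g_A N p S) :
    s33g_piRel (s33g_pairs N p S) π (s33g_c hpT π) (a : Module.End ℤ_[p] (s30a_TJ N p))
      (s33g_piT hpT π a) :=
  s33g_piA_spec _ _ _ _ _ _ a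

theorem s33g_piT_eq_of_rel (a : s33g_A N p S) {t : T}
    (h : s33g_piRel (s33g_pairs N p S) π (s33g_c hpT π) (a : Module.End ℤ_[p] (s30a_TJ N p)) t) :
    s33g_piT hpT π a = t :=
  s33g_piA_eq_of_rel _ _ _ _ _ _ a h

theorem s33g_piT_pair {z : heckeAlgebra N 2 (↑S : Set ℕ) × Module.End ℤ_[p] (s30a_TJ N p)}
    (hz : z ∈ s33g_pairs N p S) :
    s33g_piT hpT π ⟨z.2, s33g_pair_mem_cl _ hz⟩ = π z.1 :=
  s33g_piA_pair _ _ _ _ _ _ hz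

end PiT

section TraceDet

variable (hpS : p ∈ S) (hNS : ∀ q : ℕ, q.Prime → q ∣ N → q ∈ S)
  (H : CuspForm.HeckeGaloisRepDatum N (↑S : Set ℕ) 𝒪 θ T) (hpT : (p : T) ∈ maximalIdeal T)

/-- **`π̂ (t g) = tr ρ_T(g)`.** -/
theorem s33g_piT_tA (g : s29k_G) :
    s33g_piT hpT H.π (s33g_tA hpS hNS H g) = LinearMap.trace T H.ρ.V (H.ρ.ρ g) := by
  set b : Module.Basis (Fin 2) T H.ρ.V := Module.finBasisOfFinrankEq T H.ρ.V H.ρ.finrank_eq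
  have e : LinearMap.trace T H.ρ.V (H.ρ.ρ g) = (matOf H.ρ b g).trace := s31f_trace_eq H.ρ b g
  rw [e]
  apply s33g_piT_eq_of_rel
  intro n
  obtain ⟨ℓ, j, hℓ, hℓN, hℓS, h1, -, h3, -⟩ :=
    s33g_approx hpS hNS H b n (n + s33g_c hpT H.π) g
  exact ⟨_, s33g_lucas_pair_mem N p S hℓ hℓN hℓS j, h3, h1⟩

/-- **`π̂ (ε g) = det ρ_T(g)`.** -/
theorem s33g_piT_eps (hpS : p ∈ S) (hNS : ∀ q : ℕ, q.Prime → q ∣ N → q ∈ S)
    (H : CuspForm.HeckeGaloisRepDatum N (↑S : Set ℕ) 𝒪 θ T) (hpT : (p : T) ∈ maximalIdeal T)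
    (g : s29k_G) :
    s33g_piT hpT H.π (algebraMap ℤ_[p] (s33g_A N p S)
      (((s30y_cycDatum p).ε g : ℤ_[p]ˣ) : ℤ_[p])) = LinearMap.det (H.ρ.ρ g) := by
  set b : Module.Basis (Fin 2) T H.ρ.V := Module.finBasisOfFinrankEq T H.ρ.V H.ρ.finrank_eq
  have e : LinearMap.det (H.ρ.ρ g) = (matOf H.ρ b g).det := by
    rw [matOf_apply, LinearMap.det_toMatrix]
  rw [e]
  apply s33g_piT_eq_of_rel
  intro n
  obtain ⟨ℓ, j, hℓ, hℓN, hℓS, -, h2, -, w, hw⟩ :=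
    s33g_approx hpS hNS H b n (n + s33g_c hpT H.π) g
  refine ⟨((ℓ ^ j : ℕ) : heckeAlgebra N 2 (↑S : Set ℕ) × Module.End ℤ_[p] (s30a_TJ N p)),
    natCast_mem _ _, ?_, ?_⟩
  · have e1 : ((algebraMap ℤ_[p] (s33g_A N p S)
        (((s30y_cycDatum p).ε g : ℤ_[p]ˣ) : ℤ_[p]) : s33g_A N p S) :
          Module.End ℤ_[p] (s30a_TJ N p)) -
        ((ℓ ^ j : ℕ) : heckeAlgebra N 2 (↑S : Set ℕ) × Module.End ℤ_[p] (s30a_TJ N p)).2 =
        ((((s30y_cycDatum p).ε g : ℤ_[p]ˣ) : ℤ_[p]) - (ℓ : ℤ_[p]) ^ j) •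
          (1 : Module.End ℤ_[p] (s30a_TJ N p)) := by
      rw [Prod.snd_natCast]
      exact s33g_scalar_sub_natCast _ ℓ j
    rw [e1]
    exact s31c_Div.of_scalar ⟨w, hw⟩ _
  · rw [Prod.fst_natCast, map_natCast, Nat.cast_pow]
    exact h2

end TraceDet

section Theta

variable (hpS : p ∈ S) (hNS : ∀ q : ℕ, q.Prime → q ∣ N → q ∈ S)
  (H : CuspForm.HeckeGaloisRepDatum N (↑S : Set ℕ) 𝒪 θ T) (hpT : (p : T) ∈ maximalIdeal T)

/-- `π x ∈ 𝔪_T ↔ θ x = 0`. -/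
theorem s33g_pi_mem_iff (x : heckeAlgebra N 2 (↑S : Set ℕ)) :
    H.π x ∈ maximalIdeal T ↔ θ x = 0 := by
  rw [← IsLocalRing.residue_eq_zero_iff, H.residue_π x]
  exact map_eq_zero_iff _ (RingHom.injective _)

/-- **The `θ`-part is the `π̂`-primary part for the closed Hecke algebra.** -/
theorem s33g_thetaPart_iff (w : s30a_TJ N p) :
    w ∈ s33g_thetaPart N p S θ ↔ ∀ a : s33g_A N p S, s33g_piT hpT H.π a ∈ maximalIdeal T →
      ∀ m : ℕ, ∃ j : ℕ, ∃ w' : s30a_TJ N p,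
        (s33g_actA N p S a ^ j) w = (p : ℤ_[p]) ^ m • w' := by
  constructor
  · intro hw a ha m
    obtain ⟨z, hz, hd, ht⟩ := s33g_piT_spec hpT H.π a (m + 1)
    have hπz : H.π z.1 ∈ maximalIdeal T := by
      have h1 : s33g_piT hpT H.π a - H.π z.1 ∈ maximalIdeal T :=
        Ideal.pow_le_self (Nat.succ_ne_zero m) ht
      have := (maximalIdeal T).sub_mem ha h1
      rwa [sub_sub_cancel] at this
    have hθz : θ z.1 = 0 := (s33g_pi_mem_iff H z.1).mp hπz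
    obtain ⟨j, w', hw'⟩ := hw z hz hθz m
    have hcomm : Commute (a : Module.End ℤ_[p] (s30a_TJ N p)) z.2 :=
      s33g_A_commute N p S a ⟨z.2, s33g_pair_mem_cl _ hz⟩
    obtain ⟨Q, hQ⟩ := hcomm.sub_dvd_pow_sub_pow j
    have hd' : s31c_Div m ((a : Module.End ℤ_[p] (s30a_TJ N p)) - z.2) :=
      s33g_div_mono (by omega) hd
    obtain ⟨w'', hw''⟩ := hd' (Q w)
    refine ⟨j, w' + w'', ?_⟩
    have e : (s33g_actA N p S a ^ j) = z.2 ^ j +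
        ((a : Module.End ℤ_[p] (s30a_TJ N p)) - z.2) * Q := by
      rw [← hQ]; show (a : Module.End ℤ_[p] (s30a_TJ N p)) ^ j = _; abel
    rw [e, LinearMap.add_apply, Module.End.mul_apply, hw', hw'']
    exact s33g_smul_add_aux _ _ _
  · intro h z hz hθz m
    have ha : s33g_piT hpT H.π ⟨z.2, s33g_pair_mem_cl _ hz⟩ ∈ maximalIdeal T := by
      rw [s33g_piT_pair hpT H.π hz]
      exact (s33g_pi_mem_iff H z.1).mpr hθz
    exact h ⟨z.2, s33g_pair_mem_cl _ hz⟩ ha m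

end Theta

end

end Fermat.Agent.Lib.S33
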