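/-
S33 (programme P-AT-P), package [GLUE] (helper2), part 16: **THE CONSUMER**: the Λ-side contract
[HALF] (`s33g_Half`, Lib/S33/LambdaIface) implies S33.

* `s33g_ordinaryAt_of_halfAt` : for one `P ∣ p`, `s33g_HalfAt N p S θ P` gives the line required by
  `IsOrdinaryAt`;
* `s33g_S33_of_half` : `s33g_Half → S33`.
-/
import Fermat.Agent.Lib.S33.GMain
import Fermat.Agent.Lib.S33.GTrace
import Fermat.Agent.Lib.S33.GTau0
import Fermat.Agent.Lib.S33.GRes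

set_option autoImplicit false
set_option linter.unusedSectionVars false
set_option linter.style.haveILetI false

open IsLocalRing CuspForm CongruenceSubgroup

namespace Fermat.Agent.Lib.S33

open Fermat.Agent.Lib.S29 Fermat.Agent.Lib.S30 Fermat.Agent.Lib.S31 Fermat.Agent.Lib.S53

local notation "Kb" => AlgebraicClosure ℚ

variable {p : ℕ} {N : ℕ} [NeZero N] {S : Finset ℕ}
  {𝒪 : Type} [CommRing 𝒪] [IsDomain 𝒪] [IsDiscreteValuationRing 𝒪]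
  [IsAdicComplete (IsLocalRing.maximalIdeal 𝒪) 𝒪]
  {θ : CuspForm.heckeAlgebra N 2 (↑S : Set ℕ) →+* IsLocalRing.ResidueField 𝒪}
  {T : Type} [CommRing T] [IsLocalRing T] [IsNoetherianRing T]
  [IsAdicComplete (IsLocalRing.maximalIdeal T) T] [Algebra 𝒪 T] [IsLocalHom (algebraMap 𝒪 T)]
  [Module.Finite 𝒪 T] [Module.Free 𝒪 T]

/-- **[HALF] at `P` gives the ordinary line at `P`.** -/
theorem s33g_ordinaryAt_of_halfAt [Fact p.Prime] (hp2 : p ≠ 2)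
    (hp𝒪 : (p : 𝒪) ∈ IsLocalRing.maximalIdeal 𝒪) (hpS : p ∈ S)
    (hNS : ∀ q : ℕ, q.Prime → q ∣ N → q ∈ S)
    (H : CuspForm.HeckeGaloisRepDatum N (↑S : Set ℕ) 𝒪 θ T)
    (hres : (GaloisRepAdic.ofResidualGaloisRep H.ρ.residual).IsOrdinaryAt p)
    (P : ValuationSubring Kb) (hP : P.LiesOverPrime p)
    (hhalf : s33g_HalfAt N p S θ P) :
    ∃ L : Submodule T H.ρ.V,
      (∃ b : Module.Basis (Fin 2) T H.ρ.V, L = T ∙ b 0) ∧
      (∀ σ ∈ P.decompositionSubgroup ℚ, ∀ v ∈ L, H.ρ.ρ σ v ∈ L) ∧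
      (∀ σ ∈ P.inertiaSubgroupIn ℚ, ∀ v : H.ρ.V, H.ρ.ρ σ v - v ∈ L) := by
  have hpT : (p : T) ∈ maximalIdeal T := s31e_p_mem p hp𝒪
  obtain ⟨Λ', hΛ', hrank⟩ := hhalf
  obtain ⟨τ₀, hτ₀, -, hunit⟩ := s33g_tau0_unit p hp2 P hP
  exact s33g_main (s33g_actA N p S) (s33g_actA_injective N p S) (s33g_piT hpT H.π) hpT H.ρ
    (s31a_span_rho_eq_top H.ρ H.residual_absIrr) (s30a_rho N p)
    (fun g a w => s33g_hcomm g a w) (s30y_cycDatum p).ε (s33g_tA hpS hNS H)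
    (fun g w => s33g_hCH hpS hNS H g w) (fun g => s33g_piT_tA hpS hNS H hpT g)
    (fun g => s33g_piT_eps hpS hNS H hpT g)
    (P.decompositionSubgroup ℚ) (P.inertiaSubgroupIn ℚ) (s33g_inertia_le_decomposition P)
    (fun δ hδ σ hσ => s33g_inertia_normal P δ hδ σ hσ) τ₀ hτ₀ hunit
    (s33g_res_of_ordinary H.ρ hres P hP τ₀ hτ₀)
    (s33g_thetaPart N p S θ) (fun w => s33g_thetaPart_iff H hpT w) Λ' hΛ' hrank

/-- **The consumer: [HALF] implies S33.** -/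
theorem s33g_S33_of_half (hhalf : s33g_Half)
    [Finite (IsLocalRing.ResidueField 𝒪)] [CharZero 𝒪]
    (hp : p.Prime) (hp2 : p ≠ 2) (hp𝒪 : (p : 𝒪) ∈ IsLocalRing.maximalIdeal 𝒪)
    (hN : p ∣ N ∧ ¬ p ^ 2 ∣ N)
    (hNS : ∀ q : ℕ, q.Prime → q ∣ N → q ∈ S)
    (H : CuspForm.HeckeGaloisRepDatum N (↑S : Set ℕ) 𝒪 θ T)
    (hres : (GaloisRepAdic.ofResidualGaloisRep H.ρ.residual).IsOrdinaryAt p) :
    H.ρ.IsOrdinaryAt p := by
  intro P hP
  haveI : Fact p.Prime := ⟨hp⟩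
  exact s33g_ordinaryAt_of_halfAt hp2 hp𝒪 (hNS p hp hN.1) hNS H hres P hP
    (hhalf hp hp2 hp𝒪 hN hNS H hres P hP)

end Fermat.Agent.Lib.S33
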