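/-
P-AT-P programme (S33), brick [SWAP]/[ACC] (helper8): PURE ALGEBRA, Mathlib only.

Setting ("Cayley–Hamilton algebras of degree two"): `R` a commutative ring, `A` an `R`-algebra,
`ρ : G →* A`, `d : G →* Rˣ`, `t : G → R` with the TRACE RELATION

  `hrel : ∀ g, ρ g + d g • ρ g⁻¹ = t g • 1`

(Plan-M: `A = End Λ`, `ρ` the Galois action on a Tate module or on torsion points, `d` the cyclotomic
character, `t g = Φ(g)` a limit of Hecke operators; residual side: `A = End_k V̄`, `dim V̄ = 2`,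
`t = tr`, `d = det`, the relation is Cayley–Hamilton.)

Part 1 (this file, section `Corner`):
* `s33w_C` : the `R`-span of the conjugate pairs `(ρ g, d g • ρ g⁻¹)` in `A × A`;
* `s33w_C_trace` : `(u, v) ∈ C ⇒ u + v` is a scalar;
* `s33w_C_mul` : `C` is closed under `(u, v) (u', v') = (u u', v' v)`;
* for `τ : G` and `α β : R` with `α + β = t τ`, `α β = d τ`, `c (α - β) = 1`: the idempotents
  `e_α = c (ρ τ - β)`, `e_β = c (α - ρ τ)`; `(e_α, e_β) ∈ C`, `(e_β, e_α) ∈ C`;
* `s33w_corner` : **for `u` in the span of `ρ G`: `e_α u e_α = s • e_α` for a scalar `s : R`.**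
-/
import Mathlib

set_option autoImplicit false

namespace Fermat.Agent.Lib.S33

section Corner

variable {R : Type*} [CommRing R] {G : Type*} [Group G] {A : Type*} [Ring A] [Algebra R A]
  (ρ : G →* A) (d : G →* Rˣ) (t : G → R)

/-- The `R`-span of the conjugate pairs `(ρ g, d g • ρ g⁻¹)`. -/
def s33w_C : Submodule R (A × A) :=
  Submodule.span R (Set.range fun g : G => (ρ g, ((d g : Rˣ) : R) • ρ g⁻¹))

theorem s33w_gen_mem (g : G) : (ρ g, ((d g : Rˣ) : R) • ρ g⁻¹) ∈ s33w_C ρ d :=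
  Submodule.subset_span ⟨g, rfl⟩

theorem s33w_one_mem : ((1 : A), (1 : A)) ∈ s33w_C ρ d := by
  have h := s33w_gen_mem ρ d 1
  simpa using h

variable {ρ d t}

/-- Trace relation on the span: `u + v` is a scalar. -/
theorem s33w_C_trace (hrel : ∀ g : G, ρ g + ((d g : Rˣ) : R) • ρ g⁻¹ = t g • (1 : A))
    {x : A × A} (hx : x ∈ s33w_C ρ d) : ∃ s : R, x.1 + x.2 = s • (1 : A) := by
  induction hx using Submodule.span_induction with
  | mem x hx =>
    obtain ⟨g, rfl⟩ := hx
    exact ⟨t g, hrel g⟩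
  | zero => exact ⟨0, by simp⟩
  | add x y _ _ hx hy =>
    obtain ⟨s, hs⟩ := hx
    obtain ⟨s', hs'⟩ := hy
    refine ⟨s + s', ?_⟩
    rw [Prod.fst_add, Prod.snd_add, add_smul, ← hs, ← hs']
    abel
  | smul r x _ hx =>
    obtain ⟨s, hs⟩ := hx
    refine ⟨r * s, ?_⟩
    rw [Prod.smul_fst, Prod.smul_snd, ← smul_add, hs, smul_smul]

/-- The span is closed under the twisted multiplication `(u, v) (u', v') = (u u', v' v)`. -/
theorem s33w_C_mul {x y : A × A} (hx : x ∈ s33w_C ρ d) (hy : y ∈ s33w_C ρ d) :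
    (x.1 * y.1, y.2 * x.2) ∈ s33w_C ρ d := by
  induction hx, hy using Submodule.span_induction₂ with
  | mem_mem x y hx hy =>
    obtain ⟨g, rfl⟩ := hx
    obtain ⟨h, rfl⟩ := hy
    have := s33w_gen_mem ρ d (g * h)
    have e : (ρ g * ρ h, (((d h : Rˣ) : R) • ρ h⁻¹) * (((d g : Rˣ) : R) • ρ g⁻¹)) =
        (ρ (g * h), ((d (g * h) : Rˣ) : R) • ρ (g * h)⁻¹) := by
      rw [map_mul, map_mul, mul_inv_rev, map_mul, Units.val_mul, smul_mul_smul_comm, mul_comm]
    simpa only [e] using this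
  | zero_left y _ =>
    have h0 : ((0 : A × A).1 * y.1, y.2 * (0 : A × A).2) = 0 := by
      rw [Prod.fst_zero, Prod.snd_zero, zero_mul, mul_zero]; rfl
    rw [h0]; exact (s33w_C ρ d).zero_mem
  | zero_right x _ =>
    have h0 : (x.1 * (0 : A × A).1, (0 : A × A).2 * x.2) = 0 := by
      rw [Prod.fst_zero, Prod.snd_zero, zero_mul, mul_zero]; rfl
    rw [h0]; exact (s33w_C ρ d).zero_mem
  | add_left x y z _ _ _ h1 h2 =>
    have := (s33w_C ρ d).add_mem h1 h2
    simpa [add_mul, mul_add] using this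
  | add_right x y z _ _ _ h1 h2 =>
    have := (s33w_C ρ d).add_mem h1 h2
    simpa [add_mul, mul_add] using this
  | smul_left r x y _ _ h =>
    have := (s33w_C ρ d).smul_mem r h
    simpa using this
  | smul_right r x y _ _ h =>
    have := (s33w_C ρ d).smul_mem r h
    simpa using this

end Corner

section Idem

variable {R : Type*} [CommRing R] {G : Type*} [Group G] {A : Type*} [Ring A] [Algebra R A]

/-- `c • (ρ τ - β)`: for `c (α - β) = 1` this is the idempotent `e_α`; `e_β` is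
`s33w_e ρ τ (-c) α`. -/
def s33w_e (ρ : G →* A) (τ : G) (c β : R) : A := c • (ρ τ - β • (1 : A))

variable {ρ : G →* A} {d : G →* Rˣ} {t : G → R}
  (hrel : ∀ g : G, ρ g + ((d g : Rˣ) : R) • ρ g⁻¹ = t g • (1 : A))
  (τ : G) {α β c : R} (hsum : α + β = t τ) (hprod : α * β = ((d τ : Rˣ) : R))
  (hc : c * (α - β) = 1)

include hrel in
theorem s33w_sq : ρ τ * ρ τ = t τ • ρ τ - ((d τ : Rˣ) : R) • (1 : A) := by
  have h := congrArg (fun x => ρ τ * x) (hrel τ)
  simp only [mul_add, mul_smul_comm, mul_one] at h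
  have h1 : ρ τ * ρ τ⁻¹ = 1 := by rw [← map_mul, mul_inv_cancel, map_one]
  rw [h1] at h
  rw [← h]
  abel

include hrel hsum hprod in
theorem s33w_quad : (ρ τ - β • (1 : A)) * (ρ τ - α • (1 : A)) = 0 := by
  have h := s33w_sq hrel τ
  simp only [sub_mul, mul_sub, smul_mul_assoc, mul_smul_comm, mul_one, one_mul]
  rw [h, ← hsum, ← hprod]
  module

include hrel hsum hprod in
theorem s33w_quad' : (ρ τ - α • (1 : A)) * (ρ τ - β • (1 : A)) = 0 := by
  have h := s33w_sq hrel τ
  simp only [sub_mul, mul_sub, smul_mul_assoc, mul_smul_comm, mul_one, one_mul]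
  rw [h, ← hsum, ← hprod]
  module

include hc in
theorem s33w_e_add : s33w_e ρ τ c β + s33w_e ρ τ (-c) α = 1 := by
  unfold s33w_e
  have : c • (ρ τ - β • (1 : A)) + (-c) • (ρ τ - α • (1 : A)) = (c * (α - β)) • (1 : A) := by
    module
  rw [this, hc, one_smul]

include hrel hsum hprod in
theorem s33w_e_mul : s33w_e ρ τ c β * s33w_e ρ τ (-c) α = 0 := by
  unfold s33w_e
  rw [smul_mul_smul_comm, s33w_quad hrel τ hsum hprod, smul_zero]

include hrel hsum hprod in
theorem s33w_e_mul' : s33w_e ρ τ (-c) α * s33w_e ρ τ c β = 0 := by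
  unfold s33w_e
  rw [smul_mul_smul_comm, s33w_quad' hrel τ hsum hprod, smul_zero]

include hrel hsum hprod hc in
theorem s33w_e_idem : s33w_e ρ τ c β * s33w_e ρ τ c β = s33w_e ρ τ c β := by
  have h1 := s33w_e_add (ρ := ρ) τ hc
  have h2 := s33w_e_mul (c := c) hrel τ hsum hprod
  calc s33w_e ρ τ c β * s33w_e ρ τ c β
      = s33w_e ρ τ c β * (s33w_e ρ τ c β + s33w_e ρ τ (-c) α) := by rw [mul_add, h2, add_zero]
    _ = s33w_e ρ τ c β := by rw [h1, mul_one]

include hrel hsum hprod hc in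
theorem s33w_e_idem' : s33w_e ρ τ (-c) α * s33w_e ρ τ (-c) α = s33w_e ρ τ (-c) α := by
  have h1 := s33w_e_add (ρ := ρ) τ hc
  have h2 := s33w_e_mul' (c := c) hrel τ hsum hprod
  calc s33w_e ρ τ (-c) α * s33w_e ρ τ (-c) α
      = s33w_e ρ τ (-c) α * (s33w_e ρ τ c β + s33w_e ρ τ (-c) α) := by rw [mul_add, h2, zero_add]
    _ = s33w_e ρ τ (-c) α := by rw [h1, mul_one]

include hrel hsum in
/-- `(e_α, e_β)` is a conjugate pair. -/
theorem s33w_e_mem : (s33w_e ρ τ c β, s33w_e ρ τ (-c) α) ∈ s33w_C ρ d := by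
  have h1 := s33w_gen_mem ρ d τ
  have h2 := s33w_one_mem ρ d
  have h3 : ((d τ : Rˣ) : R) • ρ τ⁻¹ = t τ • (1 : A) - ρ τ := by
    rw [← hrel τ]; abel
  have h := (s33w_C ρ d).smul_mem c ((s33w_C ρ d).sub_mem h1 ((s33w_C ρ d).smul_mem β h2))
  have e : c • ((ρ τ, ((d τ : Rˣ) : R) • ρ τ⁻¹) - β • ((1 : A), (1 : A))) =
      (s33w_e ρ τ c β, s33w_e ρ τ (-c) α) := by
    unfold s33w_e
    rw [h3, ← hsum]
    ext
    · simp
    · simp only [Prod.smul_snd, Prod.snd_sub, Prod.smul_mk]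
      module
  rwa [e] at h

include hrel hsum in
/-- `(e_β, e_α)` is a conjugate pair. -/
theorem s33w_e_mem' : (s33w_e ρ τ (-c) α, s33w_e ρ τ c β) ∈ s33w_C ρ d := by
  have h1 := s33w_gen_mem ρ d τ
  have h2 := s33w_one_mem ρ d
  have h3 : ((d τ : Rˣ) : R) • ρ τ⁻¹ = t τ • (1 : A) - ρ τ := by
    rw [← hrel τ]; abel
  have h := (s33w_C ρ d).smul_mem (-c) ((s33w_C ρ d).sub_mem h1 ((s33w_C ρ d).smul_mem α h2))
  have e : (-c) • ((ρ τ, ((d τ : Rˣ) : R) • ρ τ⁻¹) - α • ((1 : A), (1 : A))) =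
      (s33w_e ρ τ (-c) α, s33w_e ρ τ c β) := by
    unfold s33w_e
    rw [h3, ← hsum]
    ext
    · simp
    · simp only [Prod.smul_snd, Prod.snd_sub, Prod.smul_mk]
      module
  rwa [e] at h

include hrel hsum hprod hc in
/-- **Corner identity**: `e_α u e_α` is a scalar multiple of `e_α` for `u` in the span of `ρ G`. -/
theorem s33w_corner {x : A × A} (hx : x ∈ s33w_C ρ d) :
    ∃ s : R, s33w_e ρ τ c β * x.1 * s33w_e ρ τ c β = s • s33w_e ρ τ c β := by
  have he := s33w_e_mem (c := c) hrel τ hsum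
  have h1 := s33w_C_mul (s33w_C_mul he hx) he
  obtain ⟨s, hs⟩ := s33w_C_trace hrel h1
  refine ⟨s, ?_⟩
  have h2 := congrArg (fun y => s33w_e ρ τ c β * y) hs
  simp only [mul_add, mul_smul_comm, mul_one] at h2
  rw [← h2, ← mul_assoc, ← mul_assoc, ← mul_assoc, ← mul_assoc,
    s33w_e_idem hrel τ hsum hprod hc, s33w_e_mul hrel τ hsum hprod, zero_mul, zero_mul, add_zero]

include hrel hsum hprod hc in
/-- Corner identity for `e_β`. -/
theorem s33w_corner' {x : A × A} (hx : x ∈ s33w_C ρ d) :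
    ∃ s : R, s33w_e ρ τ (-c) α * x.1 * s33w_e ρ τ (-c) α = s • s33w_e ρ τ (-c) α := by
  have he := s33w_e_mem' (c := c) hrel τ hsum
  have h1 := s33w_C_mul (s33w_C_mul he hx) he
  obtain ⟨s, hs⟩ := s33w_C_trace hrel h1
  refine ⟨s, ?_⟩
  have h2 := congrArg (fun y => s33w_e ρ τ (-c) α * y) hs
  simp only [mul_add, mul_smul_comm, mul_one] at h2
  rw [← h2, ← mul_assoc, ← mul_assoc, ← mul_assoc, ← mul_assoc,
    s33w_e_idem' hrel τ hsum hprod hc, s33w_e_mul' hrel τ hsum hprod, zero_mul, zero_mul, add_zero]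

end Idem

section Swap

variable {R : Type*} [CommRing R] {G : Type*} [Group G] {A : Type*} [Ring A] [Algebra R A]
  {B : Type*} [Ring B] [Algebra R B]

theorem s33w_e_prod (ρ : G →* A) (ρ' : G →* B) (τ : G) (c β : R) :
    s33w_e (ρ.prod ρ') τ c β = (s33w_e ρ τ c β, s33w_e ρ' τ c β) := by
  unfold s33w_e
  ext <;> simp

variable {ρ : G →* A} {ρ' : G →* B} {d : G →* Rˣ} {t : G → R}
  (hrel : ∀ g : G, ρ g + ((d g : Rˣ) : R) • ρ g⁻¹ = t g • (1 : A))
  (hrel' : ∀ g : G, ρ' g + ((d g : Rˣ) : R) • ρ' g⁻¹ = t g • (1 : B))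

include hrel hrel' in
theorem s33w_hrel_prod (g : G) :
    (ρ.prod ρ') g + ((d g : Rˣ) : R) • (ρ.prod ρ') g⁻¹ = t g • (1 : A × B) := by
  ext
  · simpa using hrel g
  · simpa using hrel' g

variable (τ : G) {α β c : R} (hsum : α + β = t τ) (hprod : α * β = ((d τ : Rˣ) : R))
  (hc : c * (α - β) = 1)

include hrel hrel' hsum hprod hc in
/-- **Simultaneous corner identity** in two algebras with the same `(t, d)`: the SAME scalar. -/
theorem s33w_corner_two (g g' : G) :
    ∃ s : R,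
      s33w_e ρ τ c β * ρ g' * s33w_e ρ τ (-c) α * ρ g * s33w_e ρ τ c β = s • s33w_e ρ τ c β ∧
      s33w_e ρ' τ c β * ρ' g' * s33w_e ρ' τ (-c) α * ρ' g * s33w_e ρ' τ c β =
        s • s33w_e ρ' τ c β := by
  have hP := s33w_hrel_prod hrel hrel'
  have h1 := s33w_C_mul (s33w_C_mul (s33w_gen_mem (ρ.prod ρ') d g')
    (s33w_e_mem' (c := c) hP τ hsum)) (s33w_gen_mem (ρ.prod ρ') d g)
  obtain ⟨s, hs⟩ := s33w_corner hP τ hsum hprod hc h1
  refine ⟨s, ?_, ?_⟩
  · have := congrArg Prod.fst hs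
    simpa [s33w_e_prod, mul_assoc] using this
  · have := congrArg Prod.snd hs
    simpa [s33w_e_prod, mul_assoc] using this

include hrel hrel' hsum hprod hc in
/-- The same with the roles of `α` and `β` exchanged. -/
theorem s33w_corner_two' (g g' : G) :
    ∃ s : R,
      s33w_e ρ τ (-c) α * ρ g * s33w_e ρ τ c β * ρ g' * s33w_e ρ τ (-c) α =
        s • s33w_e ρ τ (-c) α ∧
      s33w_e ρ' τ (-c) α * ρ' g * s33w_e ρ' τ c β * ρ' g' * s33w_e ρ' τ (-c) α =
        s • s33w_e ρ' τ (-c) α := by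
  have hP := s33w_hrel_prod hrel hrel'
  have h1 := s33w_C_mul (s33w_C_mul (s33w_gen_mem (ρ.prod ρ') d g)
    (s33w_e_mem (c := c) hP τ hsum)) (s33w_gen_mem (ρ.prod ρ') d g')
  obtain ⟨s, hs⟩ := s33w_corner' hP τ hsum hprod hc h1
  refine ⟨s, ?_, ?_⟩
  · have := congrArg Prod.fst hs
    simpa [s33w_e_prod, mul_assoc] using this
  · have := congrArg Prod.snd hs
    simpa [s33w_e_prod, mul_assoc] using this

end Swap

section Irr

variable {G : Type*} [Group G] {k : Type*} [Field k]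
  {V : Type*} [AddCommGroup V] [Module k V] {ρV : G →* Module.End k V}
  (hirr : ∀ W : Submodule k V, (∀ g : G, ∀ x ∈ W, ρV g x ∈ W) → W = ⊥ ∨ W = ⊤)

include hirr in
/-- For an irreducible `V` and `E ≠ 0` the translates of the image of `E` span `V`. -/
theorem s33w_span_top {E : Module.End k V} (hE : E ≠ 0) :
    Submodule.span k {x : V | ∃ (g : G) (v : V), x = ρV g (E v)} = ⊤ := by
  set W := Submodule.span k {x : V | ∃ (g : G) (v : V), x = ρV g (E v)} with hW
  have hstab : ∀ g : G, ∀ x ∈ W, ρV g x ∈ W := by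
    intro g x hx
    induction hx using Submodule.span_induction with
    | mem x hx =>
      obtain ⟨h, v, rfl⟩ := hx
      refine Submodule.subset_span ⟨g * h, v, ?_⟩
      rw [map_mul, Module.End.mul_apply]
    | zero => rw [map_zero]; exact W.zero_mem
    | add x y _ _ hx hy => rw [map_add]; exact W.add_mem hx hy
    | smul r x _ hx => rw [map_smul]; exact W.smul_mem r hx
  rcases hirr W hstab with h | h
  · exfalso
    apply hE
    ext v
    have : E v ∈ W := Submodule.subset_span ⟨1, v, by rw [map_one, Module.End.one_apply]⟩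
    rw [h, Submodule.mem_bot] at this
    rw [this, LinearMap.zero_apply]
  · exact h

include hirr in
/-- Irreducibility: for non-zero `E₁, E₂` some `E₁ ρ(g') E₂ ρ(g) E₁` is non-zero. -/
theorem s33w_exists_pair {E₁ E₂ : Module.End k V} (h₁ : E₁ ≠ 0) (h₂ : E₂ ≠ 0) :
    ∃ g g' : G, E₁ * ρV g' * E₂ * ρV g * E₁ ≠ 0 := by
  by_contra hcon
  simp only [not_exists, not_not] at hcon
  have c1 : ∀ w : V, ∀ g' : G, E₁ (ρV g' (E₂ w)) = 0 := by
    intro w g'
    have hw : w ∈ Submodule.span k {x : V | ∃ (g : G) (v : V), x = ρV g (E₁ v)} := by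
      rw [s33w_span_top hirr h₁]; trivial
    induction hw using Submodule.span_induction with
    | mem x hx =>
      obtain ⟨g, v, rfl⟩ := hx
      have := congrArg (fun f : Module.End k V => f v) (hcon g g')
      simpa [Module.End.mul_apply] using this
    | zero => simp
    | add x y _ _ hx hy => rw [map_add, map_add, map_add, hx, hy, add_zero]
    | smul r x _ hx => rw [map_smul, map_smul, map_smul, hx, smul_zero]
  apply h₁
  ext w
  have hw : w ∈ Submodule.span k {x : V | ∃ (g : G) (v : V), x = ρV g (E₂ v)} := by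
    rw [s33w_span_top hirr h₂]; trivial
  rw [LinearMap.zero_apply]
  induction hw using Submodule.span_induction with
  | mem x hx =>
    obtain ⟨g, v, rfl⟩ := hx
    exact c1 v g
  | zero => simp
  | add x y _ _ hx hy => rw [map_add, hx, hy, add_zero]
  | smul r x _ hx => rw [map_smul, hx, smul_zero]

end Irr

section Main

variable {R : Type*} [CommRing R] {G : Type*} [Group G] {A : Type*} [Ring A] [Algebra R A]
  {k : Type*} [Field k] [Algebra R k]
  {V : Type*} [AddCommGroup V] [Module k V] [Module R V] [IsScalarTower R k V]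
  {ρ : G →* A} {ρV : G →* Module.End k V} {d : G →* Rˣ} {t : G → R}
  (hrel : ∀ g : G, ρ g + ((d g : Rˣ) : R) • ρ g⁻¹ = t g • (1 : A))
  (hrelV : ∀ g : G, ρV g + ((d g : Rˣ) : R) • ρV g⁻¹ = t g • (1 : Module.End k V))
  (hirr : ∀ W : Submodule k V, (∀ g : G, ∀ x ∈ W, ρV g x ∈ W) → W = ⊥ ∨ W = ⊤)
  (hunit : ∀ s : R, algebraMap R k s ≠ 0 → IsUnit s)
  (τ : G) {α β c : R} (hsum : α + β = t τ) (hprod : α * β = ((d τ : Rˣ) : R))
  (hc : c * (α - β) = 1)
  (hα : s33w_e ρV τ c β ≠ 0) (hβ : s33w_e ρV τ (-c) α ≠ 0)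

theorem s33w_smul_end_eq_zero {s : R} (hs : algebraMap R k s = 0)
    (E : Module.End k V) : s • E = 0 := by
  ext v
  rw [LinearMap.smul_apply, LinearMap.zero_apply, ← algebraMap_smul k s (E v), hs, zero_smul]

include hrel hrelV hirr hunit hsum hprod hc hα hβ in
/-- **[SWAP]**: if the residual representation `V` is irreducible and both eigenvalues of `τ`
occur on it, there are `g, g' ∈ G` and UNITS `s, s'` with
`e_α ρ(g') e_β ρ(g) e_α = s e_α` and `e_β ρ(g) e_α ρ(g') e_β = s' e_β` in `A`. -/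
theorem s33w_swap :
    ∃ (g g' : G) (s s' : R), IsUnit s ∧ IsUnit s' ∧
      s33w_e ρ τ c β * ρ g' * s33w_e ρ τ (-c) α * ρ g * s33w_e ρ τ c β = s • s33w_e ρ τ c β ∧
      s33w_e ρ τ (-c) α * ρ g * s33w_e ρ τ c β * ρ g' * s33w_e ρ τ (-c) α =
        s' • s33w_e ρ τ (-c) α := by
  obtain ⟨g, g', hgg⟩ := s33w_exists_pair hirr hα hβ
  obtain ⟨s, hs1, hs2⟩ := s33w_corner_two hrel hrelV τ hsum hprod hc g g'
  obtain ⟨s', hs1', hs2'⟩ := s33w_corner_two' hrel hrelV τ hsum hprod hc g g'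
  have hsne : algebraMap R k s ≠ 0 := by
    intro h0
    apply hgg
    rw [hs2, s33w_smul_end_eq_zero h0]
  have hs'ne : algebraMap R k s' ≠ 0 := by
    intro h0
    have h1 : s33w_e ρV τ (-c) α * ρV g * s33w_e ρV τ c β * ρV g' * s33w_e ρV τ (-c) α = 0 := by
      rw [hs2', s33w_smul_end_eq_zero h0]
    have hid := s33w_e_idem (c := c) hrelV τ hsum hprod hc
    -- `P * P = 0` where `P = s • e_α`
    have hPP : (s • s33w_e ρV τ c β) * (s • s33w_e ρV τ c β) = 0 := by
      rw [← hs2]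
      calc s33w_e ρV τ c β * ρV g' * s33w_e ρV τ (-c) α * ρV g * s33w_e ρV τ c β *
            (s33w_e ρV τ c β * ρV g' * s33w_e ρV τ (-c) α * ρV g * s33w_e ρV τ c β)
          = s33w_e ρV τ c β * ρV g' * (s33w_e ρV τ (-c) α * ρV g *
              (s33w_e ρV τ c β * s33w_e ρV τ c β) * ρV g' * s33w_e ρV τ (-c) α) * ρV g *
              s33w_e ρV τ c β := by simp only [mul_assoc]
        _ = 0 := by rw [hid, h1, mul_zero, zero_mul, zero_mul]
    rw [smul_mul_smul_comm, hid] at hPP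
    apply hα
    have h2 : algebraMap R k (s * s) ≠ 0 := by
      rw [map_mul]; exact mul_ne_zero hsne hsne
    ext v
    have h3 := congrArg (fun f : Module.End k V => f v) hPP
    simp only [LinearMap.smul_apply, LinearMap.zero_apply] at h3
    rw [← algebraMap_smul k (s * s), smul_eq_zero] at h3
    rcases h3 with h3 | h3
    · exact absurd h3 h2
    · rw [h3, LinearMap.zero_apply]
  exact ⟨g, g', s, s', hunit s hsne, hunit s' hs'ne, hs1, hs1'⟩

end Main

section Mod

variable {R : Type*} [CommRing R] {G : Type*} [Group G]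
  {Y : Type*} [AddCommGroup Y] [Module R Y]
  {k : Type*} [Field k] [Algebra R k]
  {V : Type*} [AddCommGroup V] [Module k V] [Module R V] [IsScalarTower R k V]
  {ρ : G →* Module.End R Y} {ρV : G →* Module.End k V} {d : G →* Rˣ} {t : G → R}
  (hrel : ∀ g : G, ρ g + ((d g : Rˣ) : R) • ρ g⁻¹ = t g • (1 : Module.End R Y))
  (hrelV : ∀ g : G, ρV g + ((d g : Rˣ) : R) • ρV g⁻¹ = t g • (1 : Module.End k V))
  (hirr : ∀ W : Submodule k V, (∀ g : G, ∀ x ∈ W, ρV g x ∈ W) → W = ⊥ ∨ W = ⊤)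
  (hunit : ∀ s : R, algebraMap R k s ≠ 0 → IsUnit s)
  (τ : G) {α β c : R} (hsum : α + β = t τ) (hprod : α * β = ((d τ : Rˣ) : R))
  (hc : c * (α - β) = 1)
  (hα : s33w_e ρV τ c β ≠ 0) (hβ : s33w_e ρV τ (-c) α ≠ 0)

include hrel hsum hprod hc in
theorem s33w_mem_range_iff (y : Y) :
    y ∈ LinearMap.range (s33w_e ρ τ c β) ↔ s33w_e ρ τ c β y = y := by
  constructor
  · rintro ⟨x, rfl⟩
    rw [← Module.End.mul_apply, s33w_e_idem hrel τ hsum hprod hc]
  · intro h
    exact ⟨y, h⟩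

include hrel hsum hprod hc in
theorem s33w_mem_range_iff' (y : Y) :
    y ∈ LinearMap.range (s33w_e ρ τ (-c) α) ↔ s33w_e ρ τ (-c) α y = y := by
  constructor
  · rintro ⟨x, rfl⟩
    rw [← Module.End.mul_apply, s33w_e_idem' hrel τ hsum hprod hc]
  · intro h
    exact ⟨y, h⟩

include hrel hrelV hirr hunit hsum hprod hc hα hβ in
/-- **The two eigen-parts of `τ` are isomorphic `R`-modules.** -/
theorem s33w_exists_equiv :
    Nonempty (LinearMap.range (s33w_e ρ τ c β) ≃ₗ[R] LinearMap.range (s33w_e ρ τ (-c) α)) := by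
  obtain ⟨g, g', s, s', hs, hs', h1, h2⟩ :=
    s33w_swap hrel hrelV hirr hunit τ hsum hprod hc hα hβ
  set eα := s33w_e ρ τ c β with heα
  set eβ := s33w_e ρ τ (-c) α with heβ
  have hidα : eα * eα = eα := s33w_e_idem hrel τ hsum hprod hc
  have hidβ : eβ * eβ = eβ := s33w_e_idem' hrel τ hsum hprod hc
  -- `u = e_β ρ(g) : range e_α → range e_β`
  let u : LinearMap.range eα →ₗ[R] LinearMap.range eβ :=
    ((eβ * ρ g).comp (LinearMap.range eα).subtype).codRestrict (LinearMap.range eβ)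
      (fun x => ⟨ρ g x, by simp [Module.End.mul_apply]⟩)
  have hu : ∀ x : LinearMap.range eα, ((u x : LinearMap.range eβ) : Y) = eβ (ρ g (x : Y)) := by
    intro x; rfl
  refine ⟨LinearEquiv.ofBijective u ⟨?_, ?_⟩⟩
  · -- injective: `e_α ρ(g') (u x) = s x`
    rw [← LinearMap.ker_eq_bot, LinearMap.ker_eq_bot']
    intro x hx
    have hx' : eβ (ρ g (x : Y)) = 0 := by rw [← hu, hx]; rfl
    have hxα : eα (x : Y) = x := (s33w_mem_range_iff hrel τ hsum hprod hc _).1 x.2
    have h3 := congrArg (fun f : Module.End R Y => f (x : Y)) h1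
    simp only [Module.End.mul_apply, LinearMap.smul_apply] at h3
    rw [hxα, hx', map_zero, map_zero] at h3
    obtain ⟨s0, rfl⟩ := hs
    have : (x : Y) = 0 := by
      have h4 : (s0⁻¹ : Rˣ) • ((s0 : R) • (x : Y)) = 0 := by rw [← h3, smul_zero]
      rwa [Units.smul_def, smul_smul, Units.inv_mul, one_smul] at h4
    exact Subtype.ext this
  · -- surjective: `u (s'⁻¹ e_α ρ(g') z) = z`
    intro z
    obtain ⟨s0, rfl⟩ := hs'
    have hzβ : eβ (z : Y) = z := (s33w_mem_range_iff' hrel τ hsum hprod hc _).1 z.2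
    have h3 := congrArg (fun f : Module.End R Y => f (z : Y)) h2
    simp only [Module.End.mul_apply, LinearMap.smul_apply] at h3
    rw [hzβ] at h3
    refine ⟨⟨eα (ρ g' (((s0⁻¹ : Rˣ) : R) • (z : Y))), ⟨_, rfl⟩⟩, ?_⟩
    apply Subtype.ext
    rw [hu]
    simp only
    rw [map_smul, map_smul, map_smul, map_smul, h3, smul_smul, Units.inv_mul, one_smul]

include hrel hsum hprod in
theorem s33w_tau_apply_of_mem {y : Y} (hy : y ∈ LinearMap.range (s33w_e ρ τ c β)) :
    ρ τ y = α • y := by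
  obtain ⟨x, rfl⟩ := hy
  have h := s33w_quad' (α := α) (β := β) hrel τ hsum hprod
  have h1 : (ρ τ - α • (1 : Module.End R Y)) * s33w_e ρ τ c β = 0 := by
    unfold s33w_e
    rw [mul_smul_comm, h, smul_zero]
  have h2 := congrArg (fun f : Module.End R Y => f x) h1
  simp only [Module.End.mul_apply, LinearMap.sub_apply, LinearMap.smul_apply,
    Module.End.one_apply, LinearMap.zero_apply] at h2
  exact sub_eq_zero.1 h2

include hrel hsum hprod hc in
/-- `Y` is the product of the two eigen-parts. -/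
theorem s33w_card_prod :
    Nat.card Y = Nat.card (LinearMap.range (s33w_e ρ τ c β)) *
      Nat.card (LinearMap.range (s33w_e ρ τ (-c) α)) := by
  set eα := s33w_e ρ τ c β with heα
  set eβ := s33w_e ρ τ (-c) α with heβ
  have hadd : eα + eβ = 1 := s33w_e_add τ hc
  have hαβ : eα * eβ = 0 := s33w_e_mul hrel τ hsum hprod
  have hβα : eβ * eα = 0 := s33w_e_mul' hrel τ hsum hprod
  rw [← Nat.card_prod]
  refine Nat.card_congr
    { toFun := fun y => (⟨eα y, ⟨y, rfl⟩⟩, ⟨eβ y, ⟨y, rfl⟩⟩)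
      invFun := fun x => (x.1 : Y) + (x.2 : Y)
      left_inv := ?_
      right_inv := ?_ }
  · intro y
    change eα y + eβ y = y
    rw [← LinearMap.add_apply, hadd, Module.End.one_apply]
  · rintro ⟨⟨a, ha⟩, ⟨b, hb⟩⟩
    have ha' : eα a = a := (s33w_mem_range_iff hrel τ hsum hprod hc a).1 ha
    have hb' : eβ b = b := (s33w_mem_range_iff' hrel τ hsum hprod hc b).1 hb
    have h1 : eα b = 0 := by
      rw [← hb', ← Module.End.mul_apply, hαβ, LinearMap.zero_apply]
    have h2 : eβ a = 0 := by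
      rw [← ha', ← Module.End.mul_apply, hβα, LinearMap.zero_apply]
    ext
    · change eα (a + b) = a
      rw [map_add, ha', h1, add_zero]
    · change eβ (a + b) = b
      rw [map_add, hb', h2, zero_add]

include hrel hrelV hirr hunit hsum hprod hc hα hβ in
/-- **[ACC], counting form**: `#Y = (#Y_α)²`. -/
theorem s33w_card_sq :
    Nat.card Y = Nat.card (LinearMap.range (s33w_e ρ τ c β)) ^ 2 := by
  obtain ⟨e⟩ := s33w_exists_equiv hrel hrelV hirr hunit τ hsum hprod hc hα hβ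
  rw [s33w_card_prod hrel τ hsum hprod hc, ← Nat.card_congr e.toEquiv, sq]

include hrel hsum hprod hc in
/-- A subgroup `K` on which `τ` acts through `a` (`a - α` nilpotent on `Y`), such that `τ` acts
trivially on `Y / K` (`α - 1` a unit), is the `α`-part of `Y`. -/
theorem s33w_mem_K_iff (K : AddSubgroup Y) (a : R)
    (hK1 : ∀ x ∈ K, ρ τ x = a • x) (hK2 : ∀ y : Y, ρ τ y - y ∈ K)
    (hα1 : IsUnit (α - 1)) (hnil : ∃ n : ℕ, ∀ y : Y, (a - α) ^ n • y = 0) (y : Y) :
    y ∈ K ↔ y ∈ LinearMap.range (s33w_e ρ τ c β) := by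
  set eα := s33w_e ρ τ c β with heα
  set eβ := s33w_e ρ τ (-c) α with heβ
  have hadd : eα + eβ = 1 := s33w_e_add τ hc
  have hidβ : eβ * eβ = eβ := s33w_e_idem' hrel τ hsum hprod hc
  constructor
  · intro hy
    obtain ⟨n, hn⟩ := hnil
    have h1 : eβ y = ((-c) * (a - α)) • y := by
      rw [heβ]
      unfold s33w_e
      rw [LinearMap.smul_apply, LinearMap.sub_apply, LinearMap.smul_apply, Module.End.one_apply,
        hK1 y hy, ← sub_smul, smul_smul]
    have h2 : ∀ m : ℕ, eβ y = ((-c) * (a - α)) ^ (m + 1) • y := by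
      intro m
      induction m with
      | zero => rw [zero_add, pow_one]; exact h1
      | succ m ih =>
        have : eβ y = eβ (eβ y) := by rw [← Module.End.mul_apply, hidβ]
        rw [this, ih, map_smul, h1, smul_smul, ← pow_succ]
    have h3 : eβ y = 0 := by
      rw [h2 n, mul_pow, pow_succ (a - α), mul_comm ((a - α) ^ n), ← mul_assoc, mul_smul, hn,
        smul_zero]
    refine ⟨y, ?_⟩
    have := congrArg (fun f : Module.End R Y => f y) hadd
    simp only [LinearMap.add_apply, Module.End.one_apply] at this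
    rw [h3, add_zero] at this
    exact this
  · intro hy
    obtain ⟨u, hu⟩ := hα1
    have hy' : ((u⁻¹ : Rˣ) : R) • y ∈ LinearMap.range eα := Submodule.smul_mem _ _ hy
    have h1 := s33w_tau_apply_of_mem hrel τ hsum hprod hy'
    have h2 := hK2 (((u⁻¹ : Rˣ) : R) • y)
    have h3 : α • ((u⁻¹ : Rˣ) : R) • y - ((u⁻¹ : Rˣ) : R) • y = y := by
      rw [smul_smul, ← sub_smul, ← sub_one_mul, ← hu, Units.mul_inv, one_smul]
    rwa [h1, h3] at h2

include hrel hrelV hirr hunit hsum hprod hc hα hβ in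
/-- **[ACC]**: `#K² = #Y` for a subgroup `K` on which `τ` acts through `a ≡ α` and with `τ`
trivial on `Y / K`. -/
theorem s33w_card_K_sq (K : AddSubgroup Y) (a : R)
    (hK1 : ∀ x ∈ K, ρ τ x = a • x) (hK2 : ∀ y : Y, ρ τ y - y ∈ K)
    (hα1 : IsUnit (α - 1)) (hnil : ∃ n : ℕ, ∀ y : Y, (a - α) ^ n • y = 0) :
    Nat.card K ^ 2 = Nat.card Y := by
  rw [s33w_card_sq hrel hrelV hirr hunit τ hsum hprod hc hα hβ]
  congr 1
  exact Nat.card_congr (Equiv.subtypeEquivRight
    (fun y => s33w_mem_K_iff hrel τ hsum hprod hc K a hK1 hK2 hα1 hnil y))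

include hrel hrelV hsum hprod hc in
/-- Simultaneous corner identity for a single group element. -/
theorem s33w_corner_one (g : G) :
    ∃ s : R, s33w_e ρ τ c β * ρ g * s33w_e ρ τ c β = s • s33w_e ρ τ c β ∧
      s33w_e ρV τ c β * ρV g * s33w_e ρV τ c β = s • s33w_e ρV τ c β := by
  have hP := s33w_hrel_prod hrel hrelV
  obtain ⟨s, hs⟩ := s33w_corner hP τ hsum hprod hc (s33w_gen_mem (ρ.prod ρV) d g)
  refine ⟨s, ?_, ?_⟩
  · have := congrArg Prod.fst hs
    simpa [s33w_e_prod] using this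
  · have := congrArg Prod.snd hs
    simpa [s33w_e_prod] using this

include hrel hrelV hirr hunit hsum hprod hc hα hβ in
/-- **Stability of the `α`-part**: if `Y` is killed by the kernel of `R → k` and `σ` stabilises the
`α`-line of the residual representation (`E_β ρV(σ) E_α = 0`), then `e_β ρ(σ) e_α = 0` on `Y`. -/
theorem s33w_stable (hkill : ∀ s : R, algebraMap R k s = 0 → ∀ y : Y, s • y = 0)
    (σ : G) (hσ : s33w_e ρV τ (-c) α * ρV σ * s33w_e ρV τ c β = 0) :
    s33w_e ρ τ (-c) α * ρ σ * s33w_e ρ τ c β = 0 := by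
  obtain ⟨g, g', s, s', hs, hs', h1, h2⟩ :=
    s33w_swap hrel hrelV hirr hunit τ hsum hprod hc hα hβ
  have hidβ := s33w_e_idem' (c := c) hrel τ hsum hprod hc
  ext y
  rw [LinearMap.zero_apply]
  set v := (s33w_e ρ τ (-c) α * ρ σ * s33w_e ρ τ c β) y with hv
  have hvβ : s33w_e ρ τ (-c) α v = v := by
    rw [hv, Module.End.mul_apply, Module.End.mul_apply, ← Module.End.mul_apply (s33w_e ρ τ (-c) α),
      hidβ]
  -- `e_α ρ(g') v = 0`
  have h3 : s33w_e ρ τ c β (ρ g' v) = 0 := by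
    obtain ⟨r, hr1, hr2⟩ := s33w_corner_two hrel hrelV τ hsum hprod hc σ g'
    have hr0 : algebraMap R k r = 0 := by
      by_contra hne
      apply hα
      have h4 : r • s33w_e ρV τ c β = 0 := by
        rw [← hr2]
        calc s33w_e ρV τ c β * ρV g' * s33w_e ρV τ (-c) α * ρV σ * s33w_e ρV τ c β
            = s33w_e ρV τ c β * ρV g' * (s33w_e ρV τ (-c) α * ρV σ * s33w_e ρV τ c β) := by
              simp only [mul_assoc]
          _ = 0 := by rw [hσ, mul_zero]
      ext w
      have h5 := congrArg (fun f : Module.End k V => f w) h4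
      simp only [LinearMap.smul_apply, LinearMap.zero_apply] at h5
      rw [← algebraMap_smul k r, smul_eq_zero] at h5
      rcases h5 with h5 | h5
      · exact absurd h5 hne
      · rw [h5, LinearMap.zero_apply]
    have h6 := congrArg (fun f : Module.End R Y => f y) hr1
    simp only [Module.End.mul_apply, LinearMap.smul_apply] at h6
    rw [hkill r hr0] at h6
    rw [hv]
    simpa [Module.End.mul_apply] using h6
  have h7 := congrArg (fun f : Module.End R Y => f v) h2
  simp only [Module.End.mul_apply, LinearMap.smul_apply] at h7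
  rw [hvβ, h3, map_zero, map_zero] at h7
  obtain ⟨s0, rfl⟩ := hs'
  have h8 : (s0⁻¹ : Rˣ) • ((s0 : R) • v) = 0 := by rw [← h7, smul_zero]
  rwa [Units.smul_def, smul_smul, Units.inv_mul, one_smul] at h8

include hrel hrelV hirr hunit hsum hprod hc hα hβ in
/-- **mu-type form**: if moreover `σ` acts on the `α`-line of `V` through the scalar `a`, then `σ`
acts on the `α`-part of `Y` through `a`. -/
theorem s33w_acts_by (hkill : ∀ s : R, algebraMap R k s = 0 → ∀ y : Y, s • y = 0)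
    (σ : G) (hσ : s33w_e ρV τ (-c) α * ρV σ * s33w_e ρV τ c β = 0) (a : R)
    (hσa : s33w_e ρV τ c β * ρV σ * s33w_e ρV τ c β = a • s33w_e ρV τ c β)
    {y : Y} (hy : y ∈ LinearMap.range (s33w_e ρ τ c β)) : ρ σ y = a • y := by
  have hst := s33w_stable hrel hrelV hirr hunit τ hsum hprod hc hα hβ hkill σ hσ
  obtain ⟨s, hs1, hs2⟩ := s33w_corner_one hrel hrelV τ hsum hprod hc σ
  have hyα : s33w_e ρ τ c β y = y := (s33w_mem_range_iff hrel τ hsum hprod hc y).1 hy
  have hsa : algebraMap R k (s - a) = 0 := by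
    by_contra hne
    apply hα
    have h4 : (s - a) • s33w_e ρV τ c β = 0 := by
      rw [sub_smul, ← hs2, hσa, sub_self]
    ext w
    have h5 := congrArg (fun f : Module.End k V => f w) h4
    simp only [LinearMap.smul_apply, LinearMap.zero_apply] at h5
    rw [← algebraMap_smul k (s - a), smul_eq_zero] at h5
    rcases h5 with h5 | h5
    · exact absurd h5 hne
    · rw [h5, LinearMap.zero_apply]
  have h1 := congrArg (fun f : Module.End R Y => f y) hs1
  have h2 := congrArg (fun f : Module.End R Y => f y) hst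
  simp only [Module.End.mul_apply, LinearMap.smul_apply, LinearMap.zero_apply] at h1 h2
  rw [hyα] at h1 h2
  have h3 : ρ σ y = s33w_e ρ τ c β (ρ σ y) + s33w_e ρ τ (-c) α (ρ σ y) := by
    rw [← LinearMap.add_apply, s33w_e_add τ hc, Module.End.one_apply]
  have h4 : s • y = a • y := by
    have := hkill (s - a) hsa y
    rwa [sub_smul, sub_eq_zero] at this
  rw [h3, h1, h2, add_zero, h4]

end Mod

end Fermat.Agent.Lib.S33
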