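/-
P-AT-P programme (S33), brick [ACC-Λ] (helper8): the Λ-SIDE WRAPPER
  (J-side inputs (U), (M) for ONE subgroup `J1 ≤ A`)  ⇒  the `s33g_HalfAt`-shape
  `∃ Λ', (∀ σ ∈ I, ∀ w, ρ σ w - w ∈ Λ') ∧ 2 * finrank (Λ' ⊓ Λ_θ) = finrank Λ_θ`,
abstract over the Tate module `s30a_Tp A p` of an abelian group `A` (Lib/S30/TateMod), on top of the
Cayley–Hamilton swap lemma (Lib/S33/Swap).

Part 1: counting in finite free `ℤ_[p]`-modules.
* `s33w_card_quot_p`     : `#(N / pN) = p ^ rank N` for `N` finite free over `ℤ_[p]`;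
* `s33w_card_map_sat`    : for a SATURATED finite free submodule `W` of `M` and `q : M →+ Y` with
                           kernel `pM`, the image of `W` has `p ^ rank W` elements.

Part 2: `s33w_rhoQ` (representation on a quotient by a stable submodule, with the trace relation).

Part 3: `s33w_tateSub J1 = T_p J1` (automatically saturated in `T_p A`), `s33w_rho A p G` (the action
on `T_p A`; for `A = JZero N`, `G = G_ℚ` it is `s30a_rho N p` by `rfl`), and the MAIN THEOREM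
**`s33w_half`** (see its docstring).  Only the `p`-torsion layer (`k = 1`) enters the count.
-/
import Fermat.Agent.Lib.S33.Swap
import Fermat.Agent.Lib.S30.TateMod

set_option autoImplicit false

namespace Fermat.Agent.Lib.S33

open Fermat.Agent.Lib.S30

section Count

variable {p : ℕ} [Fact p.Prime]

/-- the coordinates modulo `p` with respect to the chosen basis. -/
noncomputable def s33w_coordMod (N : Type*) [AddCommGroup N] [Module ℤ_[p] N]
    [Module.Finite ℤ_[p] N] [Module.Free ℤ_[p] N] :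
    N →+ (Module.Free.ChooseBasisIndex ℤ_[p] N → ZMod p) where
  toFun w := fun i => PadicInt.toZMod ((Module.Free.chooseBasis ℤ_[p] N).repr w i)
  map_zero' := by
    funext i
    simp
  map_add' x y := by
    funext i
    simp

variable {N : Type*} [AddCommGroup N] [Module ℤ_[p] N] [Module.Finite ℤ_[p] N]
  [Module.Free ℤ_[p] N]

theorem s33w_coordMod_surjective : Function.Surjective (s33w_coordMod (p := p) N) := by
  intro f
  classical
  set b := Module.Free.chooseBasis ℤ_[p] N with hb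
  refine ⟨∑ i, ((f i).val : ℤ_[p]) • b i, ?_⟩
  funext i
  change PadicInt.toZMod (b.repr (∑ j, ((f j).val : ℤ_[p]) • b j) i) = f i
  rw [map_sum, Finset.sum_apply']
  simp only [map_smul, Module.Basis.repr_self, Finsupp.smul_apply, smul_eq_mul]
  rw [Finset.sum_eq_single i]
  · rw [Finsupp.single_eq_same, mul_one, map_natCast, ZMod.natCast_val, ZMod.cast_id', id]
  · intro j _ hji
    rw [Finsupp.single_eq_of_ne hji.symm, mul_zero]
  · intro hi
    exact absurd (Finset.mem_univ i) hi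

theorem s33w_coordMod_ker (w : N) :
    s33w_coordMod (p := p) N w = 0 ↔ ∃ w' : N, w = (p : ℤ_[p]) • w' := by
  classical
  set b := Module.Free.chooseBasis ℤ_[p] N with hb
  constructor
  · intro h
    have h1 : ∀ i, ∃ c : ℤ_[p], b.repr w i = (p : ℤ_[p]) * c := by
      intro i
      have h2 : PadicInt.toZMod (b.repr w i) = 0 := congrFun h i
      have h3 : b.repr w i ∈ RingHom.ker (PadicInt.toZMod (p := p)) := h2
      rw [PadicInt.ker_toZMod, PadicInt.maximalIdeal_eq_span_p, Ideal.mem_span_singleton] at h3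
      exact h3
    choose c hc using h1
    refine ⟨∑ i, c i • b i, ?_⟩
    apply b.repr.injective
    ext i
    rw [map_smul, map_sum, Finsupp.smul_apply, Finset.sum_apply']
    simp only [map_smul, Module.Basis.repr_self, Finsupp.smul_apply, smul_eq_mul]
    rw [Finset.sum_eq_single i]
    · rw [Finsupp.single_eq_same, mul_one, hc]
    · intro j _ hji
      rw [Finsupp.single_eq_of_ne hji.symm, mul_zero]
    · intro hi
      exact absurd (Finset.mem_univ i) hi
  · rintro ⟨w', rfl⟩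
    funext i
    change PadicInt.toZMod (b.repr ((p : ℤ_[p]) • w') i) = 0
    rw [map_smul, Finsupp.smul_apply, smul_eq_mul, map_mul, map_natCast, ZMod.natCast_self,
      zero_mul]

/-- `#(N / pN) = p ^ rank N`, in the form: the quotient by the kernel of the coordinates mod `p`. -/
theorem s33w_card_quot_coordMod :
    Nat.card (N ⧸ (s33w_coordMod (p := p) N).ker) = p ^ Module.finrank ℤ_[p] N := by
  classical
  rw [Nat.card_congr (QuotientAddGroup.quotientKerEquivOfSurjective _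
    (s33w_coordMod_surjective (p := p) (N := N))).toEquiv, Nat.card_pi]
  simp only [Nat.card_zmod, Finset.prod_const, Finset.card_univ]
  rw [Module.finrank_eq_card_chooseBasisIndex]

/-- **Counting the image of a saturated finite free submodule modulo `p`.** `q : M →+ Y` is any
additive map whose kernel is `pM`. -/
theorem s33w_card_map_sat {M : Type*} [AddCommGroup M] [Module ℤ_[p] M]
    {Y : Type*} [AddCommGroup Y] (q : M →+ Y)
    (hq : ∀ m : M, q m = 0 ↔ ∃ m' : M, m = (p : ℤ_[p]) • m')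
    (W : Submodule ℤ_[p] M) [Module.Finite ℤ_[p] W] [Module.Free ℤ_[p] W]
    (hW : ∀ m : M, (p : ℤ_[p]) • m ∈ W → m ∈ W) :
    Nat.card (AddSubgroup.map q W.toAddSubgroup) = p ^ Module.finrank ℤ_[p] W := by
  set qW : W →+ Y := q.comp W.subtype.toAddMonoidHom with hqW
  have hker : qW.ker = (s33w_coordMod (p := p) W).ker := by
    ext w
    rw [AddMonoidHom.mem_ker, AddMonoidHom.mem_ker, s33w_coordMod_ker]
    change q (w : M) = 0 ↔ _
    rw [hq]
    constructor
    · rintro ⟨m', hm'⟩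
      have : m' ∈ W := hW m' (hm' ▸ w.2)
      exact ⟨⟨m', this⟩, Subtype.ext hm'⟩
    · rintro ⟨w', hw'⟩
      exact ⟨(w' : M), by rw [hw']; rfl⟩
  have hrange : AddSubgroup.map q W.toAddSubgroup = qW.range := by
    ext y
    constructor
    · rintro ⟨m, hm, rfl⟩
      exact ⟨⟨m, hm⟩, rfl⟩
    · rintro ⟨w, rfl⟩
      exact ⟨(w : M), w.2, rfl⟩
  rw [hrange, ← Nat.card_congr (QuotientAddGroup.quotientKerEquivRange qW).toEquiv,
    Nat.card_congr (QuotientAddGroup.quotientAddEquivOfEq hker).toEquiv,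
    s33w_card_quot_coordMod]

end Count

section QuotRep

variable {R : Type*} [CommRing R] {G : Type*} [Group G] {M : Type*} [AddCommGroup M] [Module R M]

/-- The representation induced on a quotient by a stable submodule. -/
def s33w_rhoQ (ρ : G →* Module.End R M) (P : Submodule R M)
    (hP : ∀ g : G, P ≤ P.comap (ρ g)) : G →* Module.End R (M ⧸ P) where
  toFun g := P.mapQ P (ρ g) (hP g)
  map_one' := by
    apply LinearMap.ext
    intro y
    obtain ⟨m, rfl⟩ := P.mkQ_surjective y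
    simp
  map_mul' g h := by
    apply LinearMap.ext
    intro y
    obtain ⟨m, rfl⟩ := P.mkQ_surjective y
    simp [Module.End.mul_apply]

@[simp] theorem s33w_rhoQ_mk (ρ : G →* Module.End R M) (P : Submodule R M)
    (hP : ∀ g : G, P ≤ P.comap (ρ g)) (g : G) (m : M) :
    s33w_rhoQ ρ P hP g (P.mkQ m) = P.mkQ (ρ g m) := by
  simp [s33w_rhoQ]

theorem s33w_rhoQ_rel (ρ : G →* Module.End R M) (P : Submodule R M)
    (hP : ∀ g : G, P ≤ P.comap (ρ g)) (d : G →* Rˣ) (t : G → R)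
    (hCH : ∀ g : G, ρ g + ((d g : Rˣ) : R) • ρ g⁻¹ = t g • (1 : Module.End R M)) (g : G) :
    s33w_rhoQ ρ P hP g + ((d g : Rˣ) : R) • s33w_rhoQ ρ P hP g⁻¹ =
      t g • (1 : Module.End R (M ⧸ P)) := by
  apply LinearMap.ext
  intro y
  obtain ⟨m, rfl⟩ := P.mkQ_surjective y
  have h := congrArg (fun f : Module.End R M => P.mkQ (f m)) (hCH g)
  simp only [LinearMap.add_apply, LinearMap.smul_apply, Module.End.one_apply, map_add,
    map_smul] at h
  simp only [LinearMap.add_apply, LinearMap.smul_apply, Module.End.one_apply, s33w_rhoQ_mk]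
  exact h

end QuotRep

section Tate

variable {A : Type*} [AddCommGroup A] {p : ℕ} [Fact p.Prime]

/-- `T_p` of a subgroup `J1 ≤ A`: the compatible systems all of whose components lie in `J1`. -/
def s33w_tateSub (J1 : AddSubgroup A) : Submodule ℤ_[p] (s30a_Tp A p) where
  carrier := {w | ∀ k : ℕ, (w : ℕ → A) k ∈ J1}
  add_mem' := fun ha hb k => J1.add_mem (ha k) (hb k)
  zero_mem' := fun _ => J1.zero_mem
  smul_mem' := fun a w hw k => by
    rw [s30a_smul_apply]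
    exact J1.nsmul_mem (hw k) _

theorem s33w_mem_tateSub {J1 : AddSubgroup A} {w : s30a_Tp A p} :
    w ∈ s33w_tateSub (p := p) J1 ↔ ∀ k : ℕ, (w : ℕ → A) k ∈ J1 := Iff.rfl

/-- `T_p J1` is saturated in `T_p A`. -/
theorem s33w_tateSub_sat (J1 : AddSubgroup A) (y : s30a_Tp A p)
    (h : (p : ℤ_[p]) • y ∈ s33w_tateSub (p := p) J1) : y ∈ s33w_tateSub (p := p) J1 := by
  intro k
  have h1 := h (k + 1)
  rwa [s30a_natCast_smul_apply, s30a_succ] at h1

variable {G : Type*} [Group G] [DistribMulAction G A]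

/-- The action of `G` on the Tate module (for `A = JZero N`, `G = G_ℚ` this is `s30a_rho N p`
definitionally). -/
noncomputable def s33w_rho (A : Type*) [AddCommGroup A] (p : ℕ) [Fact p.Prime]
    (G : Type*) [Group G] [DistribMulAction G A] : G →* Module.End ℤ_[p] (s30a_Tp A p) :=
  (s30a_map A p : AddMonoid.End A →* Module.End ℤ_[p] (s30a_Tp A p)).comp
    (DistribMulAction.toAddMonoidEnd G A)

@[simp] theorem s33w_rho_apply (σ : G) (x : s30a_Tp A p) (n : ℕ) :
    ((s33w_rho A p G σ x : s30a_Tp A p) : ℕ → A) n = σ • (x : ℕ → A) n := rfl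

end Tate

section Main

variable {A : Type*} [AddCommGroup A] {p : ℕ} [Fact p.Prime]
  {G : Type*} [Group G] [DistribMulAction G A]

/-- **[ACC-Λ]**: the Λ-side wrapper.  `Λθ` a saturated submodule of `T_p A` carrying a commutative
ring `R` of Hecke scalars with a trace function `t`, a residual representation `V` (irreducible,
same `(t, d)`), `τ ∈ I` with Hensel roots `α, β`; `J1 ≤ A` with (U) `σ x - x ∈ J1` for `σ ∈ I` and
`p`-power torsion `x`, and (M) `τ x = a x` for `x ∈ J1 ∩ A[p] ∩ pr₁(Λθ)`.  Then `Λ' := T_p J1`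
contains `(σ - 1) T_p A` for `σ ∈ I` and `2 rank (Λ' ⊓ Λθ) = rank Λθ`. -/
theorem s33w_half [Module.Finite ℤ_[p] (s30a_Tp A p)] [Module.Free ℤ_[p] (s30a_Tp A p)]
    (Λθ : Submodule ℤ_[p] (s30a_Tp A p))
    (hsat : ∀ w : s30a_Tp A p, (p : ℤ_[p]) • w ∈ Λθ → w ∈ Λθ)
    {R : Type*} [CommRing R] [Module R ↥Λθ]
    (ρθ : G →* Module.End R ↥Λθ)
    (hρθ : ∀ (g : G) (w : ↥Λθ), ((ρθ g w : ↥Λθ) : s30a_Tp A p) = s33w_rho A p G g w)
    (d : G →* Rˣ) (t : G → R)
    (hCH : ∀ g : G, ρθ g + ((d g : Rˣ) : R) • ρθ g⁻¹ = t g • (1 : Module.End R ↥Λθ))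
    {k : Type*} [Field k] [Algebra R k]
    {V : Type*} [AddCommGroup V] [Module k V] [Module R V] [IsScalarTower R k V]
    (ρV : G →* Module.End k V)
    (hrelV : ∀ g : G, ρV g + ((d g : Rˣ) : R) • ρV g⁻¹ = t g • (1 : Module.End k V))
    (hirr : ∀ W : Submodule k V, (∀ g : G, ∀ x ∈ W, ρV g x ∈ W) → W = ⊥ ∨ W = ⊤)
    (hunit : ∀ s : R, algebraMap R k s ≠ 0 → IsUnit s)
    (τ : G) {α β c : R} (hsum : α + β = t τ) (hprod : α * β = ((d τ : Rˣ) : R))
    (hc : c * (α - β) = 1)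
    (hα : s33w_e ρV τ c β ≠ 0) (hβ : s33w_e ρV τ (-c) α ≠ 0)
    (hα1 : IsUnit (α - 1)) (a : ℕ)
    (hnil : ∃ n : ℕ, ∀ w : ↥Λθ, ∃ w' : ↥Λθ, ((a : R) - α) ^ n • w = (p : R) • w')
    (I : Set G) (hτI : τ ∈ I) (J1 : AddSubgroup A)
    (hU : ∀ (j : ℕ) (x : A), p ^ j • x = 0 → ∀ σ ∈ I, σ • x - x ∈ J1)
    (hM : ∀ x ∈ J1, p • x = 0 → (∃ w ∈ Λθ, (w : ℕ → A) 1 = x) → τ • x = a • x) :
    ∃ Λ' : Submodule ℤ_[p] (s30a_Tp A p),
      (∀ σ ∈ I, ∀ w : s30a_Tp A p, s33w_rho A p G σ w - w ∈ Λ') ∧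
      2 * Module.finrank ℤ_[p] ↥(Λ' ⊓ Λθ) = Module.finrank ℤ_[p] ↥Λθ := by
  classical
  set Λ' := s33w_tateSub (p := p) J1 with hΛ'
  have hUΛ : ∀ σ ∈ I, ∀ w : s30a_Tp A p, s33w_rho A p G σ w - w ∈ Λ' := by
    intro σ hσ w j
    rw [s30a_sub_apply, s33w_rho_apply]
    exact hU j _ (s30a_pow_smul w j) σ hσ
  refine ⟨Λ', hUΛ, ?_⟩
  -- the quotient `Y = Λθ / p Λθ`
  set pM : Submodule R ↥Λθ := LinearMap.range ((p : R) • (LinearMap.id : ↥Λθ →ₗ[R] ↥Λθ)) with hpM
  have hmem_pM : ∀ m : ↥Λθ, m ∈ pM ↔ ∃ m' : ↥Λθ, m = (p : ℤ_[p]) • m' := by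
    intro m
    constructor
    · rintro ⟨m', rfl⟩
      refine ⟨m', ?_⟩
      rw [LinearMap.smul_apply, LinearMap.id_apply, Nat.cast_smul_eq_nsmul, Nat.cast_smul_eq_nsmul]
    · rintro ⟨m', rfl⟩
      refine ⟨m', ?_⟩
      rw [LinearMap.smul_apply, LinearMap.id_apply, Nat.cast_smul_eq_nsmul, Nat.cast_smul_eq_nsmul]
  have hstab : ∀ g : G, pM ≤ pM.comap (ρθ g) := by
    rintro g _ ⟨m', rfl⟩
    exact ⟨ρθ g m', by simp⟩
  set ρY := s33w_rhoQ ρθ pM hstab with hρY
  have hrelY := s33w_rhoQ_rel ρθ pM hstab d t hCH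
  -- the submodule `W = Λ' ∩ Λθ` inside `Λθ`
  set W : Submodule ℤ_[p] ↥Λθ := Submodule.comap Λθ.subtype (Λ' ⊓ Λθ) with hW
  have hmemW : ∀ m : ↥Λθ, m ∈ W ↔ (m : s30a_Tp A p) ∈ Λ' := by
    intro m
    rw [hW, Submodule.mem_comap, Submodule.mem_inf]
    exact ⟨fun h => h.1, fun h => ⟨h, m.2⟩⟩
  have hWsat : ∀ m : ↥Λθ, (p : ℤ_[p]) • m ∈ W → m ∈ W := by
    intro m hm
    rw [hmemW] at hm ⊢
    exact s33w_tateSub_sat J1 _ hm
  set q : ↥Λθ →+ (↥Λθ ⧸ pM) := pM.mkQ.toAddMonoidHom with hq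
  have hqker : ∀ m : ↥Λθ, q m = 0 ↔ ∃ m' : ↥Λθ, m = (p : ℤ_[p]) • m' := by
    intro m
    rw [← hmem_pM]
    exact Submodule.Quotient.mk_eq_zero pM
  set K : AddSubgroup (↥Λθ ⧸ pM) := AddSubgroup.map q W.toAddSubgroup with hK
  -- (M): `τ` acts on `K` through `a`
  have hK1 : ∀ x ∈ K, ρY τ x = (a : R) • x := by
    rintro _ ⟨m, hm, rfl⟩
    have hmΛ' : (m : s30a_Tp A p) ∈ Λ' := (hmemW m).1 hm
    change ρY τ (pM.mkQ m) = (a : R) • pM.mkQ m
    rw [hρY, s33w_rhoQ_mk, ← map_smul, ← sub_eq_zero, ← map_sub]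
    change q (ρθ τ m - (a : R) • m) = 0
    rw [hqker]
    have h1 : ((m : s30a_Tp A p) : ℕ → A) 1 ∈ J1 := hmΛ' 1
    have h2 : p • ((m : s30a_Tp A p) : ℕ → A) 1 = 0 := by
      have := s30a_pow_smul (m : s30a_Tp A p) 1
      rwa [pow_one] at this
    have h3 := hM _ h1 h2 ⟨(m : s30a_Tp A p), m.2, rfl⟩
    have h4 : (((ρθ τ m - (a : R) • m : ↥Λθ) : s30a_Tp A p) : ℕ → A) 1 = 0 := by
      rw [Nat.cast_smul_eq_nsmul, Submodule.coe_sub, hρθ, s30a_sub_apply, s33w_rho_apply,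
        Submodule.coe_smul_of_tower, s30a_nsmul_apply, h3, sub_self]
    obtain ⟨v, hv⟩ := s30a_exists_pow_smul _ 1 h4
    rw [pow_one] at hv
    have hvθ : v ∈ Λθ := hsat v (hv ▸ (ρθ τ m - (a : R) • m).2)
    exact ⟨⟨v, hvθ⟩, Subtype.ext hv⟩
  -- (U): `τ` acts trivially on `Y / K`
  have hK2 : ∀ y : ↥Λθ ⧸ pM, ρY τ y - y ∈ K := by
    intro y
    obtain ⟨m, rfl⟩ := pM.mkQ_surjective y
    rw [hρY, s33w_rhoQ_mk, ← map_sub]
    refine ⟨ρθ τ m - m, ?_, rfl⟩
    change ρθ τ m - m ∈ W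
    rw [hmemW, Submodule.coe_sub, hρθ]
    exact hUΛ τ hτI _
  have hnilY : ∃ n : ℕ, ∀ y : ↥Λθ ⧸ pM, ((a : R) - α) ^ n • y = 0 := by
    obtain ⟨n, hn⟩ := hnil
    refine ⟨n, fun y => ?_⟩
    obtain ⟨m, rfl⟩ := pM.mkQ_surjective y
    obtain ⟨m', hm'⟩ := hn m
    rw [← map_smul, hm']
    exact (Submodule.Quotient.mk_eq_zero pM).2 ⟨m', by simp⟩
  have hACC := s33w_card_K_sq hrelY hrelV hirr hunit τ hsum hprod hc hα hβ K (a : R) hK1 hK2 hα1
    hnilY
  -- counting
  have hcK : Nat.card K = p ^ Module.finrank ℤ_[p] W := s33w_card_map_sat q hqker W hWsat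
  have hcY : Nat.card (↥Λθ ⧸ pM) = p ^ Module.finrank ℤ_[p] ↥Λθ := by
    have h1 := s33w_card_map_sat q hqker (⊤ : Submodule ℤ_[p] ↥Λθ) (fun m _ => Submodule.mem_top)
    have h2 : AddSubgroup.map q (⊤ : Submodule ℤ_[p] ↥Λθ).toAddSubgroup = ⊤ := by
      rw [Submodule.top_toAddSubgroup, ← AddMonoidHom.range_eq_map]
      exact AddMonoidHom.range_eq_top.2 pM.mkQ_surjective
    rw [h2, AddSubgroup.card_top, finrank_top] at h1
    exact h1
  have hfin : Module.finrank ℤ_[p] W = Module.finrank ℤ_[p] ↥(Λ' ⊓ Λθ) :=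
    LinearEquiv.finrank_eq (Submodule.comapSubtypeEquivOfLe (inf_le_right : Λ' ⊓ Λθ ≤ Λθ))
  rw [hcK, hcY, ← pow_mul, hfin] at hACC
  have := Nat.pow_right_injective (Fact.out : p.Prime).two_le hACC
  rw [← this, mul_comm]

end Main

end Fermat.Agent.Lib.S33
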