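/-
P-AT-P programme (S33), brick [FO] = first-order / leading-term lemma [LT]: INTERFACE FILE.
(owner: helper6).  DEFINITIONS (sorry-free) and STATEMENT-LEVEL CONTRACTS (`def … : Prop`) only.

## Setting (abstract, S18 style)

`L₀` a field of characteristic `0` with a discrete valuation ring `A₀` (uniformiser `ϖ`, residue field
`κ` perfect of characteristic `p`, `p = ε ϖ ^ e`, `ε` a unit), `𝓕` a function field over `L₀` with a
"Gauss" discrete valuation ring `O` (same uniformiser `ϖ`), whose residue field is a function field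
`Fb` over `κ` (`red : O →+* Fb`).  Generic fibre = `Place L₀ 𝓕`, special fibre = `Place κ Fb`.
Instance in mind: `L₀` a number field, `𝓕 = laurentBaseChange L₀ (modularFunctionFieldFull M)`,
`O = s18x_V G M`, `Fb = modularFunctionFieldFullC κ M`, `red = s18g_redF` at a good level `M`, `p ∤ M`.

## The Kummer-side depth filtration (chart-free; this IS the definition of "level")

* Kummer group `𝒢 = {f ≠ 0 : p ∣ ord_Q f ∀ Q}` (`s33f_IsKum`), trivial part `𝒢⁰ = {c h ^ p}`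
  (`s33f_IsKum0`); `𝒢 / 𝒢⁰ = Pic⁰(X_{L₀})[p]` via `f ↦ [div f / p]`.
* `f ≡ 1 mod ϖ ^ a` (`s33f_Cong`), leading term `ū = red ((f - 1) / ϖ ^ a) ∈ Fb` (`s33f_lead`).
* depth: `s33f_DepthGE a f :⇔ ∃ g ∈ 𝒢⁰, g f ≡ 1 mod ϖ ^ a`.  (`depth ≥ 1 ⇔` the class is in the kernel
  of reduction: S18 [N].)
* `a` is sub-critical / critical / super-critical when `(p-1) a <, =, > p e`.  With the DIVISOR-side
  level `m` of task board v2 (local equations `≡ 1 mod ϖ ^ m`): `a = p m` for `m ≤ e/(p-1)`.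
* the ambiguity of the leading term at depth `a` (`s33f_S`): `κ` if `p ∤ a`;
  `κ + Fb ^ p` if `p ∣ a` sub-critical; `κ + {x ^ p + ε̄ x}` if `a` critical.

## Contracts (all `def … : Prop`)

pure algebra (no geometry):   `s33f_KumLead` (leading terms of `𝒢⁰ ∩ (1 + ϖ ^ a O)` lie in `S_a`),
                              `s33f_Deepen` (leading term in `S_a` ⇒ depth `≥ a + 1`);
chart geometry ([FO] proper): `s33f_LeadConst` (no jump at `p ∤ a`), `s33f_LocSol` (at `p ∣ a` the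
                              leading term is locally `x ^ p (+ ε̄ x)` + regular);
[LT-SEP] (helper9):           `s33f_SuperCritical` (depth beyond the critical radius ⇒ class `0`);
[TP] (helper3):               `s33f_TPData`, `s33f_TP` (`f ↦ N_β(α^* f)` preserves `1 + ϖ ^ a O` and acts on
                              leading terms by the Frobenius pull-back `Φ`);
H¹-side (for [COUNT]):        `s33f_HasClass`, `s33f_ClsExists`, `s33f_ClsInj`, `s33f_ClsEigen`.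
Outputs proved from the contracts in `FOCore.lean` (to come): `s33f_MaxDepth`, `s33f_IIIAbstract`.
-/
import Mathlib
import Fermat.Prelude.Def_AlgebraicCurve_Repartitions

set_option autoImplicit false

noncomputable section

namespace Fermat.Agent.Lib.S33

open AlgebraicCurve

/-- **Arithmetic-surface datum** (see the header). -/
structure s33f_Datum (L₀ 𝓕 κ Fb : Type*) [Field L₀] [Field 𝓕] [Algebra L₀ 𝓕]
    [Field κ] [Field Fb] [Algebra κ Fb] where
  /-- the discrete valuation ring of the constant field -/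
  A₀ : ValuationSubring L₀
  /-- the Gauss valuation ring of the function field -/
  O : ValuationSubring 𝓕
  /-- the common uniformiser -/
  ϖ : L₀
  /-- the residue characteristic -/
  p : ℕ
  /-- the absolute ramification index `v(p)` -/
  e : ℕ
  /-- the unit with `p = ε ϖ ^ e` -/
  ε : L₀
  /-- reduction of constants -/
  resA : A₀ →+* κ
  /-- reduction of functions -/
  red : O →+* Fb
  p_prime : p.Prime
  e_pos : 0 < e
  ϖ_ne_zero : ϖ ≠ 0
  ϖ_mem : ϖ ∈ A₀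
  ε_mem : ε ∈ A₀
  ε_inv_mem : ε⁻¹ ∈ A₀
  ε_ne_zero : ε ≠ 0
  p_eq : (p : L₀) = ε * ϖ ^ e
  /-- `O ∩ L₀ = A₀` -/
  const_mem_iff : ∀ a : L₀, algebraMap L₀ 𝓕 a ∈ O ↔ a ∈ A₀
  /-- `ϖ` is a uniformiser of `O` -/
  unif : ∀ u : 𝓕, u ∈ O → u ≠ 0 →
    ∃ (k : ℕ) (v : 𝓕), v ∈ O ∧ v⁻¹ ∈ O ∧ u = algebraMap L₀ 𝓕 ϖ ^ k * v
  ϖ_not_unit : (algebraMap L₀ 𝓕 ϖ)⁻¹ ∉ O
  red_surjective : Function.Surjective red
  red_eq_zero_iff : ∀ x : O, red x = 0 ↔ ∃ y ∈ O, (x : 𝓕) = algebraMap L₀ 𝓕 ϖ * y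
  resA_surjective : Function.Surjective resA
  red_const : ∀ a : A₀,
    red ⟨algebraMap L₀ 𝓕 (a : L₀), (const_mem_iff (a : L₀)).mpr a.2⟩ = algebraMap κ Fb (resA a)
  /-- the residue field is perfect -/
  κ_perfect : ∀ c : κ, ∃ d : κ, d ^ p = c

/-- `K` is the full constant field of the function field `F`: a function without poles is constant.
(Needed for `𝓕 / L₀` by [LT-SEP], and for `Fb / κ` by the H¹-side; NOT a field of the datum.) -/
def s33f_FullConst (K F : Type*) [Field K] [Field F] [Algebra K F] : Prop :=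
  ∀ h : F, (∀ Q : Place K F, h ∈ Q.toValuationSubring) → ∃ c : K, h = algebraMap K F c

section Defs

variable {L₀ 𝓕 κ Fb : Type*} [Field L₀] [Field 𝓕] [Algebra L₀ 𝓕] [Field κ] [Field Fb] [Algebra κ Fb]
variable (D : s33f_Datum L₀ 𝓕 κ Fb)

/-- the uniformiser as an element of the function field. -/
def s33f_pi : 𝓕 := algebraMap L₀ 𝓕 D.ϖ

/-- `x ≡ y mod ϖ ^ a O`. -/
def s33f_Cong (a : ℕ) (x y : 𝓕) : Prop := ∃ z ∈ D.O, x - y = s33f_pi D ^ a * z

open Classical in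
/-- reduction extended by `0` outside `O`. -/
def s33f_redX (x : 𝓕) : Fb := if h : x ∈ D.O then D.red ⟨x, h⟩ else 0

/-- the leading term of `f ≡ 1 mod ϖ ^ a`: the reduction of `(f - 1) / ϖ ^ a`. -/
def s33f_lead (a : ℕ) (f : 𝓕) : Fb := s33f_redX D ((f - 1) / s33f_pi D ^ a)

/-- the Kummer group `𝒢`: nonzero functions all of whose orders are divisible by `p`. -/
def s33f_IsKum (f : 𝓕) : Prop := f ≠ 0 ∧ ∀ Q : Place L₀ 𝓕, (D.p : ℤ) ∣ Q.ord f

/-- the trivial part `𝒢⁰ = L₀ˣ · (𝓕ˣ) ^ p`. -/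
def s33f_IsKum0 (f : 𝓕) : Prop :=
  ∃ (c : L₀) (h : 𝓕), c ≠ 0 ∧ h ≠ 0 ∧ f = algebraMap L₀ 𝓕 c * h ^ D.p

/-- the class of `f` has depth at least `a`. -/
def s33f_DepthGE (a : ℕ) (f : 𝓕) : Prop := ∃ g : 𝓕, s33f_IsKum0 D g ∧ s33f_Cong D a (g * f) 1

/-- `a` is sub-critical: `a < p e / (p - 1)`. -/
def s33f_SubCrit (a : ℕ) : Prop := (D.p - 1) * a < D.p * D.e

/-- `a` is critical: `a = p e / (p - 1)`. -/
def s33f_Crit (a : ℕ) : Prop := (D.p - 1) * a = D.p * D.e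

/-- `a` is super-critical: `a > p e / (p - 1)`. -/
def s33f_SuperCrit (a : ℕ) : Prop := D.p * D.e < (D.p - 1) * a

/-- the reduction `ε̄ ∈ κ` of the unit `ε = p / ϖ ^ e`. -/
def s33f_epsBar : κ := D.resA ⟨D.ε, D.ε_mem⟩

open Classical in
/-- the leading-term operator of `g ↦ g ^ p` at depth `a`: `x ↦ x ^ p` (sub-critical),
`x ↦ x ^ p + ε̄ x` (critical). -/
def s33f_phi (a : ℕ) (x : Fb) : Fb :=
  if s33f_Crit D a then x ^ D.p + algebraMap κ Fb (s33f_epsBar D) * x else x ^ D.p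

/-- the ambiguity `S_a` of the leading term at depth `a`: leading terms of `𝒢⁰ ∩ (1 + ϖ ^ a O)`. -/
def s33f_S (a : ℕ) : Set Fb :=
  {y | ∃ (c : κ) (h : Fb), y = algebraMap κ Fb c + s33f_phi D a h ∧ (¬ D.p ∣ a → h = 0)}

/-! ### Contracts: pure algebra -/

/-- **[KUM-lead]**: at a non-super-critical depth `a ≥ 1` the leading term of an element of
`𝒢⁰ ∩ (1 + ϖ ^ a O)` lies in `S_a`. -/
def s33f_KumLead : Prop :=
  ∀ a : ℕ, 1 ≤ a → ¬ s33f_SuperCrit D a → ∀ g : 𝓕, s33f_IsKum0 D g → s33f_Cong D a g 1 →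
    s33f_lead D a g ∈ s33f_S D a

/-- **[DEEPEN]**: if the leading term at depth `a` lies in `S_a` the class has depth `≥ a + 1`
(more precisely the correcting element of `𝒢⁰` is itself `≡ 1 mod ϖ ^ a`). -/
def s33f_Deepen : Prop :=
  ∀ a : ℕ, 1 ≤ a → ¬ s33f_SuperCrit D a → ∀ f : 𝓕, s33f_Cong D a f 1 →
    s33f_lead D a f ∈ s33f_S D a →
      ∃ g : 𝓕, s33f_IsKum0 D g ∧ s33f_Cong D a g 1 ∧ s33f_Cong D (a + 1) (g * f) 1

/-! ### Contracts: chart geometry ([FO] proper) -/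

/-- **[LT-TRI], no jump at `p ∤ a`**: for `f ∈ 𝒢 ∩ (1 + ϖ ^ a O)`, `a` sub-critical, `p ∤ a`, the leading term
is a constant. -/
def s33f_LeadConst : Prop :=
  ∀ a : ℕ, 1 ≤ a → s33f_SubCrit D a → ¬ D.p ∣ a → ∀ f : 𝓕, s33f_IsKum D f → s33f_Cong D a f 1 →
    ∃ c : κ, s33f_lead D a f = algebraMap κ Fb c

/-- **[LT-TRI], local structure at `p ∣ a`**: for `f ∈ 𝒢 ∩ (1 + ϖ ^ a O)`, `a` not super-critical, `p ∣ a`:
at every point `Q̄` of the special fibre the leading term is `x ^ p (+ ε̄ x)` + (regular at `Q̄`). -/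
def s33f_LocSol : Prop :=
  ∀ a : ℕ, 1 ≤ a → ¬ s33f_SuperCrit D a → D.p ∣ a → ∀ f : 𝓕, s33f_IsKum D f → s33f_Cong D a f 1 →
    ∀ Q : Place κ Fb, ∃ x : Fb, s33f_lead D a f - s33f_phi D a x ∈ Q.toValuationSubring

/-! ### Contract [LT-SEP] (helper9) -/

/-- **[LT-SEP] + Newton beyond the critical radius**: an element of `𝒢` which is `≡ 1` modulo a
super-critical power of `ϖ` is in `𝒢⁰`. -/
def s33f_SuperCritical : Prop :=
  ∀ a : ℕ, s33f_SuperCrit D a → ∀ f : 𝓕, s33f_IsKum D f → s33f_Cong D a f 1 → s33f_IsKum0 D f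

/-! ### Contract [TP] (helper3) -/

/-- Data of the Hecke operator `T_p` on the Kummer side: `τ f = N_β (α^* f)` (norm from level `pM`),
the Frobenius pull-back `Φ` on the residue function field (`q ↦ q ^ p` on `q`-expansions, `κ`-linear),
and the coefficient Frobenius `σ` (`∑ c_n q ^ n ↦ ∑ c_n ^ p q ^ n`), with `σ (Φ x) = x ^ p`. -/
structure s33f_TPData where
  τ : 𝓕 →* 𝓕
  Φ : Fb →+* Fb
  σ : Fb ≃+* Fb
  τ_const : ∀ c : L₀, τ (algebraMap L₀ 𝓕 c) = algebraMap L₀ 𝓕 (c ^ (D.p + 1))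
  τ_ne_zero : ∀ f : 𝓕, f ≠ 0 → τ f ≠ 0
  Φ_const : ∀ c : κ, Φ (algebraMap κ Fb c) = algebraMap κ Fb c
  σ_const : ∀ c : κ, σ (algebraMap κ Fb c) = algebraMap κ Fb (c ^ D.p)
  σ_Φ : ∀ x : Fb, σ (Φ x) = x ^ D.p

/-- **[TP]**: `τ` preserves the Kummer group and every `1 + ϖ ^ a O` (`a ≥ 1`), and acts on leading
terms through `Φ`. -/
def s33f_TP (T : s33f_TPData D) : Prop :=
  (∀ f : 𝓕, s33f_IsKum D f → s33f_IsKum D (T.τ f)) ∧
  ∀ a : ℕ, 1 ≤ a → ∀ f : 𝓕, s33f_Cong D a f 1 →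
    s33f_Cong D a (T.τ f) 1 ∧ s33f_lead D a (T.τ f) = T.Φ (s33f_lead D a f)

/-! ### H¹-side (for [COUNT]) -/

/-- `c ∈ H¹(X̃, O)` (Prelude `H1 0` of the residue function field) is the leading class of `f` at
depth `a`: it is represented by a repartition `r` with `ū - φ_a (r_Q̄)` regular at `Q̄` for all `Q̄`. -/
def s33f_HasClass (a : ℕ) (f : 𝓕) (c : H1 (0 : Divisor κ Fb)) : Prop :=
  ∃ r : ↥(repartitions κ Fb),
    (∀ Q : Place κ Fb,
      s33f_lead D a f - s33f_phi D a ((r : Place κ Fb → Fb) Q) ∈ Q.toValuationSubring) ∧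
    c = Submodule.Quotient.mk r

/-- existence and uniqueness of the leading class (from `s33f_LocSol` + finiteness of poles). -/
def s33f_ClsExists : Prop :=
  ∀ a : ℕ, 1 ≤ a → ¬ s33f_SuperCrit D a → D.p ∣ a → ∀ f : 𝓕, s33f_IsKum D f → s33f_Cong D a f 1 →
    ∃! c : H1 (0 : Divisor κ Fb), s33f_HasClass D a f c

/-- injectivity of the leading class: class `0` ⇒ leading term in `S_a` (⇒ deeper, by `s33f_Deepen`). -/
def s33f_ClsInj : Prop :=
  ∀ a : ℕ, 1 ≤ a → ¬ s33f_SuperCrit D a → D.p ∣ a → ∀ f : 𝓕, s33f_Cong D a f 1 →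
    s33f_HasClass D a f 0 → s33f_lead D a f ∈ s33f_S D a

/-- additivity of the leading class. -/
def s33f_ClsAdd : Prop :=
  ∀ a : ℕ, 1 ≤ a → ∀ (f₁ f₂ : 𝓕) (c₁ c₂ : H1 (0 : Divisor κ Fb)),
    s33f_Cong D a f₁ 1 → s33f_Cong D a f₂ 1 →
    s33f_HasClass D a f₁ c₁ → s33f_HasClass D a f₂ c₂ → s33f_HasClass D a (f₁ * f₂) (c₁ + c₂)

/-- the Frobenius relation: the leading class has a representative `r` with
`r ^ p (+ ε̄ r) ∈ R(0) + Fb`, i.e. `F c = 0` (sub-critical) resp. `F c = - ε̄ c` (critical). -/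
def s33f_ClsEigen : Prop :=
  ∀ a : ℕ, 1 ≤ a → ¬ s33f_SuperCrit D a → D.p ∣ a → ∀ (f : 𝓕) (c : H1 (0 : Divisor κ Fb)),
    s33f_HasClass D a f c →
    ∃ r : ↥(repartitions κ Fb), c = Submodule.Quotient.mk r ∧
      ∃ h : Fb, ∀ Q : Place κ Fb,
        s33f_phi D a ((r : Place κ Fb → Fb) Q) - h ∈ Q.toValuationSubring

/-! ### Outputs (to be proved from the contracts in `FOCore.lean`) -/

/-- **maximal depth**: a class of depth `≥ 1` which is non-trivial has a representative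
`f' = g f ≡ 1 mod ϖ ^ a` with `p ∣ a`, `a` not super-critical and leading term NOT in `S_a`. -/
def s33f_MaxDepth : Prop :=
  ∀ f : 𝓕, s33f_IsKum D f → s33f_DepthGE D 1 f → ¬ s33f_IsKum0 D f →
    ∃ (a : ℕ) (g : 𝓕), 1 ≤ a ∧ D.p ∣ a ∧ ¬ s33f_SuperCrit D a ∧ s33f_IsKum0 D g ∧
      s33f_Cong D a (g * f) 1 ∧ s33f_lead D a (g * f) ∉ s33f_S D a

/-- **(III), abstract form**: when `e = p - 1` (so that the only jump is the critical one `a = p`),
`τ` is injective on the classes of depth `≥ 1`: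
`f ∈ 𝒢`, depth `≥ 1`, `τ f ∈ 𝒢⁰` ⇒ `f ∈ 𝒢⁰`. -/
def s33f_IIIAbstract (T : s33f_TPData D) : Prop :=
  D.e = D.p - 1 → ∀ f : 𝓕, s33f_IsKum D f → s33f_DepthGE D 1 f → s33f_IsKum0 D (T.τ f) →
    s33f_IsKum0 D f

end Defs

end Fermat.Agent.Lib.S33
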