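/-
P-AT-P programme (S33), brick [FO]: basic API for the interface `FOIface.lean`
(congruences modulo `ϖ ^ a O`, reduction, leading terms).  (owner: helper6)
-/
import Fermat.Agent.Lib.S33.FOIface

set_option autoImplicit false

noncomputable section

namespace Fermat.Agent.Lib.S33

open AlgebraicCurve

variable {L₀ 𝓕 κ Fb : Type*} [Field L₀] [Field 𝓕] [Algebra L₀ 𝓕] [Field κ] [Field Fb] [Algebra κ Fb]
variable (D : s33f_Datum L₀ 𝓕 κ Fb)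

/-! ### the uniformiser -/

theorem s33f_pi_ne_zero : s33f_pi D ≠ 0 := by
  unfold s33f_pi
  simpa using D.ϖ_ne_zero

theorem s33f_pi_mem : s33f_pi D ∈ D.O := (D.const_mem_iff D.ϖ).mpr D.ϖ_mem

theorem s33f_pi_pow_mem (a : ℕ) : s33f_pi D ^ a ∈ D.O := D.O.pow_mem (s33f_pi_mem D) a

theorem s33f_pi_pow_ne_zero (a : ℕ) : s33f_pi D ^ a ≠ 0 := pow_ne_zero _ (s33f_pi_ne_zero D)

theorem s33f_const_mem (c : D.A₀) : algebraMap L₀ 𝓕 (c : L₀) ∈ D.O :=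
  (D.const_mem_iff _).mpr c.2

/-! ### congruences -/

variable {D}

theorem s33f_cong_refl (a : ℕ) (x : 𝓕) : s33f_Cong D a x x :=
  ⟨0, D.O.zero_mem, by rw [sub_self, mul_zero]⟩

theorem s33f_Cong.symm {a : ℕ} {x y : 𝓕} (h : s33f_Cong D a x y) : s33f_Cong D a y x := by
  obtain ⟨z, hz, e⟩ := h
  exact ⟨-z, D.O.neg_mem _ hz, by rw [mul_neg, ← e]; ring⟩

theorem s33f_Cong.trans {a : ℕ} {x y w : 𝓕} (h₁ : s33f_Cong D a x y) (h₂ : s33f_Cong D a y w) :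
    s33f_Cong D a x w := by
  obtain ⟨z₁, hz₁, e₁⟩ := h₁
  obtain ⟨z₂, hz₂, e₂⟩ := h₂
  exact ⟨z₁ + z₂, D.O.add_mem _ _ hz₁ hz₂, by rw [mul_add, ← e₁, ← e₂]; ring⟩

theorem s33f_Cong.mono {a b : ℕ} (hab : a ≤ b) {x y : 𝓕} (h : s33f_Cong D b x y) :
    s33f_Cong D a x y := by
  obtain ⟨z, hz, e⟩ := h
  refine ⟨s33f_pi D ^ (b - a) * z, D.O.mul_mem _ _ (s33f_pi_pow_mem D _) hz, ?_⟩
  rw [e, ← mul_assoc, ← pow_add, Nat.add_sub_cancel' hab]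

theorem s33f_Cong.add {a : ℕ} {x y x' y' : 𝓕} (h₁ : s33f_Cong D a x y) (h₂ : s33f_Cong D a x' y') :
    s33f_Cong D a (x + x') (y + y') := by
  obtain ⟨z₁, hz₁, e₁⟩ := h₁
  obtain ⟨z₂, hz₂, e₂⟩ := h₂
  exact ⟨z₁ + z₂, D.O.add_mem _ _ hz₁ hz₂, by rw [mul_add, ← e₁, ← e₂]; ring⟩

theorem s33f_Cong.neg {a : ℕ} {x y : 𝓕} (h : s33f_Cong D a x y) : s33f_Cong D a (-x) (-y) := by
  obtain ⟨z, hz, e⟩ := h
  exact ⟨-z, D.O.neg_mem _ hz, by rw [mul_neg, ← e]; ring⟩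

theorem s33f_Cong.sub {a : ℕ} {x y x' y' : 𝓕} (h₁ : s33f_Cong D a x y) (h₂ : s33f_Cong D a x' y') :
    s33f_Cong D a (x - x') (y - y') := by
  rw [sub_eq_add_neg, sub_eq_add_neg]
  exact h₁.add h₂.neg

/-- multiplication of congruences (the two "outer" factors must be integral). -/
theorem s33f_Cong.mul {a : ℕ} {x y x' y' : 𝓕} (h₁ : s33f_Cong D a x y) (h₂ : s33f_Cong D a x' y')
    (hx : x ∈ D.O) (hy' : y' ∈ D.O) : s33f_Cong D a (x * x') (y * y') := by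
  obtain ⟨z₁, hz₁, e₁⟩ := h₁
  obtain ⟨z₂, hz₂, e₂⟩ := h₂
  refine ⟨x * z₂ + z₁ * y', D.O.add_mem _ _ (D.O.mul_mem _ _ hx hz₂) (D.O.mul_mem _ _ hz₁ hy'), ?_⟩
  have : x * x' - y * y' = x * (x' - y') + (x - y) * y' := by ring
  rw [this, e₁, e₂]; ring

theorem s33f_Cong.mul_left {a : ℕ} {x y : 𝓕} (w : 𝓕) (hw : w ∈ D.O) (h : s33f_Cong D a x y) :
    s33f_Cong D a (w * x) (w * y) := by
  obtain ⟨z, hz, e⟩ := h
  exact ⟨w * z, D.O.mul_mem _ _ hw hz, by rw [← mul_sub, e]; ring⟩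

/-- multiplying by `ϖ ^ b` raises the modulus. -/
theorem s33f_Cong.pi_mul {a : ℕ} {x y : 𝓕} (b : ℕ) (h : s33f_Cong D a x y) :
    s33f_Cong D (b + a) (s33f_pi D ^ b * x) (s33f_pi D ^ b * y) := by
  obtain ⟨z, hz, e⟩ := h
  exact ⟨z, hz, by rw [← mul_sub, e, pow_add]; ring⟩

theorem s33f_cong_zero_of_mem {a : ℕ} {z : 𝓕} (hz : z ∈ D.O) :
    s33f_Cong D a (s33f_pi D ^ a * z) 0 := ⟨z, hz, by rw [sub_zero]⟩

theorem s33f_cong_zero_iff {a : ℕ} {x : 𝓕} :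
    s33f_Cong D a x 0 ↔ ∃ z ∈ D.O, x = s33f_pi D ^ a * z := by
  unfold s33f_Cong
  simp only [sub_zero]

theorem s33f_cong_iff_sub {a : ℕ} {x y : 𝓕} : s33f_Cong D a x y ↔ s33f_Cong D a (x - y) 0 := by
  unfold s33f_Cong
  simp only [sub_zero]

theorem s33f_cong_zero_mod {x y : 𝓕} (hx : x ∈ D.O) (hy : y ∈ D.O) : s33f_Cong D 0 x y :=
  ⟨x - y, sub_mem hx hy, by rw [pow_zero, one_mul]⟩

theorem s33f_Cong.mem {a : ℕ} {x y : 𝓕} (h : s33f_Cong D a x y) (hy : y ∈ D.O) : x ∈ D.O := by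
  obtain ⟨z, hz, e⟩ := h
  have : x = y + s33f_pi D ^ a * z := by rw [← e]; ring
  rw [this]
  exact D.O.add_mem _ _ hy (D.O.mul_mem _ _ (s33f_pi_pow_mem D a) hz)

theorem s33f_Cong.mem_one {a : ℕ} {x : 𝓕} (h : s33f_Cong D a x 1) : x ∈ D.O := h.mem D.O.one_mem

/-- `ϖ` is not a unit of `O`: `1 ≢ 0 mod ϖ`. -/
theorem s33f_not_cong_one_zero : ¬ s33f_Cong D 1 (1 : 𝓕) 0 := by
  rintro ⟨z, hz, e⟩
  apply D.ϖ_not_unit
  rw [sub_zero, pow_one] at e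
  have : (algebraMap L₀ 𝓕 D.ϖ)⁻¹ = z := inv_eq_of_mul_eq_one_right e.symm
  rw [this]; exact hz

theorem s33f_ne_zero_of_cong_one {a : ℕ} (ha : 1 ≤ a) {x : 𝓕} (h : s33f_Cong D a x 1) : x ≠ 0 := by
  rintro rfl
  exact s33f_not_cong_one_zero (h.mono ha).symm

/-- an element `≡ 1 mod ϖ` is a unit of `O`. -/
theorem s33f_inv_mem_of_cong_one {a : ℕ} (ha : 1 ≤ a) {x : 𝓕} (h : s33f_Cong D a x 1) :
    x⁻¹ ∈ D.O := by
  have hx0 := s33f_ne_zero_of_cong_one ha h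
  obtain ⟨k, v, hv, hvinv, e⟩ := D.unif x h.mem_one hx0
  rcases Nat.eq_zero_or_pos k with rfl | hk
  · rw [pow_zero, one_mul] at e
    rw [e]; exact hvinv
  · exfalso
    apply s33f_not_cong_one_zero (D := D)
    have h0 : s33f_Cong D 1 x 0 := by
      refine ⟨s33f_pi D ^ (k - 1) * v, D.O.mul_mem _ _ (s33f_pi_pow_mem D _) hv, ?_⟩
      rw [sub_zero, e, pow_one, ← mul_assoc, ← pow_succ', Nat.sub_add_cancel hk]
      rfl
    exact (h.mono ha).symm.trans h0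

theorem s33f_Cong.inv₁ {a : ℕ} (ha : 1 ≤ a) {x : 𝓕} (h : s33f_Cong D a x 1) :
    s33f_Cong D a x⁻¹ 1 := by
  have hx0 := s33f_ne_zero_of_cong_one ha h
  have hinv := s33f_inv_mem_of_cong_one ha h
  obtain ⟨z, hz, e⟩ := h
  refine ⟨-(x⁻¹ * z), D.O.neg_mem _ (D.O.mul_mem _ _ hinv hz), ?_⟩
  have : x⁻¹ - 1 = -(x⁻¹ * (x - 1)) := by
    field_simp
    ring
  rw [this, e]; ring

theorem s33f_Cong.pow {a : ℕ} {x y : 𝓕} (h : s33f_Cong D a x y) (hx : x ∈ D.O) (hy : y ∈ D.O)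
    (n : ℕ) : s33f_Cong D a (x ^ n) (y ^ n) := by
  induction n with
  | zero => simp only [pow_zero]; exact s33f_cong_refl _ _
  | succ n ih =>
    rw [pow_succ, pow_succ]
    exact ih.mul h (D.O.pow_mem hx n) hy

theorem s33f_Cong.mul₁ {a : ℕ} {x y : 𝓕} (h₁ : s33f_Cong D a x 1) (h₂ : s33f_Cong D a y 1) :
    s33f_Cong D a (x * y) 1 := by
  have := h₁.mul h₂ h₁.mem_one D.O.one_mem
  rwa [mul_one] at this

theorem s33f_Cong.pow₁ {a : ℕ} {x : 𝓕} (h : s33f_Cong D a x 1) (n : ℕ) :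
    s33f_Cong D a (x ^ n) 1 := by
  have := h.pow h.mem_one D.O.one_mem n
  rwa [one_pow] at this

/-! ### reduction -/

variable (D)

theorem s33f_redX_of_mem {x : 𝓕} (hx : x ∈ D.O) : s33f_redX D x = D.red ⟨x, hx⟩ := by
  unfold s33f_redX
  rw [dif_pos hx]

theorem s33f_redX_zero : s33f_redX D 0 = 0 := by
  rw [s33f_redX_of_mem D D.O.zero_mem]
  exact map_zero D.red

theorem s33f_redX_one : s33f_redX D 1 = 1 := by
  rw [s33f_redX_of_mem D D.O.one_mem]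
  exact map_one D.red

variable {D}

theorem s33f_redX_add {x y : 𝓕} (hx : x ∈ D.O) (hy : y ∈ D.O) :
    s33f_redX D (x + y) = s33f_redX D x + s33f_redX D y := by
  rw [s33f_redX_of_mem D hx, s33f_redX_of_mem D hy, s33f_redX_of_mem D (D.O.add_mem _ _ hx hy),
    ← map_add]
  rfl

theorem s33f_redX_mul {x y : 𝓕} (hx : x ∈ D.O) (hy : y ∈ D.O) :
    s33f_redX D (x * y) = s33f_redX D x * s33f_redX D y := by
  rw [s33f_redX_of_mem D hx, s33f_redX_of_mem D hy, s33f_redX_of_mem D (D.O.mul_mem _ _ hx hy),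
    ← map_mul]
  rfl

theorem s33f_redX_neg {x : 𝓕} (hx : x ∈ D.O) : s33f_redX D (-x) = - s33f_redX D x := by
  rw [s33f_redX_of_mem D hx, s33f_redX_of_mem D (D.O.neg_mem _ hx), ← map_neg]
  rfl

theorem s33f_redX_sub {x y : 𝓕} (hx : x ∈ D.O) (hy : y ∈ D.O) :
    s33f_redX D (x - y) = s33f_redX D x - s33f_redX D y := by
  rw [sub_eq_add_neg, s33f_redX_add hx (D.O.neg_mem _ hy), s33f_redX_neg hy, sub_eq_add_neg]

theorem s33f_redX_pow {x : 𝓕} (hx : x ∈ D.O) (n : ℕ) :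
    s33f_redX D (x ^ n) = s33f_redX D x ^ n := by
  induction n with
  | zero => rw [pow_zero, pow_zero]; exact s33f_redX_one D
  | succ n ih => rw [pow_succ, pow_succ, s33f_redX_mul (D.O.pow_mem hx n) hx, ih]

theorem s33f_redX_eq_zero_iff {x : 𝓕} (hx : x ∈ D.O) :
    s33f_redX D x = 0 ↔ s33f_Cong D 1 x 0 := by
  rw [s33f_redX_of_mem D hx, D.red_eq_zero_iff, s33f_cong_zero_iff]
  simp only [pow_one]
  rfl

theorem s33f_redX_eq_iff {x y : 𝓕} (hx : x ∈ D.O) (hy : y ∈ D.O) :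
    s33f_redX D x = s33f_redX D y ↔ s33f_Cong D 1 x y := by
  rw [← sub_eq_zero, ← s33f_redX_sub hx hy, s33f_redX_eq_zero_iff (sub_mem hx hy),
    ← s33f_cong_iff_sub]

theorem s33f_redX_const (c : D.A₀) :
    s33f_redX D (algebraMap L₀ 𝓕 (c : L₀)) = algebraMap κ Fb (D.resA c) := by
  rw [s33f_redX_of_mem D (s33f_const_mem D c)]
  exact D.red_const c

theorem s33f_redX_pi : s33f_redX D (s33f_pi D) = 0 := by
  rw [s33f_redX_eq_zero_iff (s33f_pi_mem D)]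
  exact ⟨1, D.O.one_mem, by rw [sub_zero, pow_one, mul_one]⟩

theorem s33f_exists_redX_eq (y : Fb) : ∃ x ∈ D.O, s33f_redX D x = y := by
  obtain ⟨x, rfl⟩ := D.red_surjective y
  exact ⟨x.1, x.2, s33f_redX_of_mem D x.2⟩

theorem s33f_redX_cong_one {a : ℕ} (ha : 1 ≤ a) {x : 𝓕} (h : s33f_Cong D a x 1) :
    s33f_redX D x = 1 := by
  rw [← s33f_redX_one D, s33f_redX_eq_iff h.mem_one D.O.one_mem]
  exact h.mono ha

/-- the residue field of constants has characteristic `p`: `resA ϖ = 0`. -/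
theorem s33f_resA_unif : D.resA ⟨D.ϖ, D.ϖ_mem⟩ = 0 := by
  have h := s33f_redX_const (D := D) ⟨D.ϖ, D.ϖ_mem⟩
  have h2 : s33f_redX D (algebraMap L₀ 𝓕 D.ϖ) = 0 := s33f_redX_pi
  rw [h2] at h
  exact (map_eq_zero_iff _ (algebraMap κ Fb).injective).mp h.symm

theorem s33f_natCast_mem (n : ℕ) : (n : L₀) ∈ D.A₀ := by
  induction n with
  | zero => simp only [Nat.cast_zero]; exact D.A₀.zero_mem
  | succ n ih => rw [Nat.cast_succ]; exact D.A₀.add_mem _ _ ih D.A₀.one_mem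

theorem s33f_p_eq_zero_κ : ((D.p : ℕ) : κ) = 0 := by
  have h1 : (⟨(D.p : L₀), s33f_natCast_mem D.p⟩ : D.A₀) =
      ⟨D.ε, D.ε_mem⟩ * ⟨D.ϖ, D.ϖ_mem⟩ ^ D.e := by
    apply Subtype.ext
    push_cast
    exact D.p_eq
  have h2 : D.resA ⟨(D.p : L₀), s33f_natCast_mem D.p⟩ = ((D.p : ℕ) : κ) := by
    have : (⟨(D.p : L₀), s33f_natCast_mem D.p⟩ : D.A₀) = ((D.p : ℕ) : D.A₀) := by
      apply Subtype.ext
      simp
    rw [this, map_natCast]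
  rw [← h2, h1, map_mul, map_pow, s33f_resA_unif, zero_pow (Nat.pos_iff_ne_zero.mp D.e_pos), mul_zero]

theorem s33f_charP_κ (D : s33f_Datum L₀ 𝓕 κ Fb) : CharP κ D.p :=
  (CharP.charP_iff_prime_eq_zero D.p_prime).mpr (s33f_p_eq_zero_κ (D := D))

theorem s33f_p_eq_zero_Fb : ((D.p : ℕ) : Fb) = 0 := by
  rw [← map_natCast (algebraMap κ Fb), s33f_p_eq_zero_κ, map_zero]

theorem s33f_charP_Fb (D : s33f_Datum L₀ 𝓕 κ Fb) : CharP Fb D.p :=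
  (CharP.charP_iff_prime_eq_zero D.p_prime).mpr (s33f_p_eq_zero_Fb (D := D))

/-- `ε̄ ≠ 0`. -/
theorem s33f_epsBar_ne_zero : s33f_epsBar D ≠ 0 := by
  intro h
  have h1 : D.resA (⟨D.ε, D.ε_mem⟩ * ⟨D.ε⁻¹, D.ε_inv_mem⟩) = 1 := by
    have : (⟨D.ε, D.ε_mem⟩ * ⟨D.ε⁻¹, D.ε_inv_mem⟩ : D.A₀) = 1 := by
      apply Subtype.ext
      push_cast
      exact mul_inv_cancel₀ D.ε_ne_zero
    rw [this, map_one]
  rw [map_mul] at h1
  unfold s33f_epsBar at h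
  rw [h, zero_mul] at h1
  exact zero_ne_one h1

end Fermat.Agent.Lib.S33
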