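/-
P-AT-P programme (S33), brick [FO]: leading terms and the expansion of `(1 + ϖ ^ m x) ^ p`.
(owner: helper6)
-/
import Fermat.Agent.Lib.S33.FOBasic

set_option autoImplicit false

noncomputable section

namespace Fermat.Agent.Lib.S33

open AlgebraicCurve

/-- `(1 + z) ^ p = 1 + z ^ p + p z (1 + z s)` in any commutative ring. -/
theorem s33f_one_add_pow_prime {R : Type*} [CommRing R] {p : ℕ} (hp : p.Prime) (z : R) :
    ∃ s : R, (1 + z) ^ p = 1 + z ^ p + (p : R) * z * (1 + z * s) := by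
  classical
  have h := add_pow_prime_eq hp z (1 : R)
  have h1 : (1 : ℕ) ∈ Finset.Ioo 0 p := Finset.mem_Ioo.mpr ⟨Nat.one_pos, hp.one_lt⟩
  rw [← Finset.add_sum_erase _ _ h1] at h
  refine ⟨∑ k ∈ (Finset.Ioo 0 p).erase 1, z ^ (k - 2) * ((p.choose k / p : ℕ) : R), ?_⟩
  have h2 : ∑ k ∈ (Finset.Ioo 0 p).erase 1, z ^ (k - 1) * 1 ^ (p - k - 1) * ((p.choose k / p : ℕ) : R)
      = z * ∑ k ∈ (Finset.Ioo 0 p).erase 1, z ^ (k - 2) * ((p.choose k / p : ℕ) : R) := by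
    rw [Finset.mul_sum]
    refine Finset.sum_congr rfl fun k hk => ?_
    obtain ⟨hk1, hk2⟩ := Finset.mem_erase.mp hk
    obtain ⟨hk0, -⟩ := Finset.mem_Ioo.mp hk2
    have : k - 1 = (k - 2) + 1 := by omega
    rw [this, pow_succ, one_pow]; ring
  rw [h2] at h
  have h3 : z ^ (1 - 1) * 1 ^ (p - 1 - 1) * ((p.choose 1 / p : ℕ) : R) = 1 := by
    rw [Nat.choose_one_right, Nat.div_self hp.pos]; simp
  rw [h3] at h
  rw [add_comm 1 z, h]; ring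

variable {L₀ 𝓕 κ Fb : Type*} [Field L₀] [Field 𝓕] [Algebra L₀ 𝓕] [Field κ] [Field Fb] [Algebra κ Fb]
variable {D : s33f_Datum L₀ 𝓕 κ Fb}

/-! ### leading terms -/

theorem s33f_lead_eq {a : ℕ} {f z : 𝓕} (e : f - 1 = s33f_pi D ^ a * z) :
    s33f_lead D a f = s33f_redX D z := by
  unfold s33f_lead
  rw [e, mul_div_cancel_left₀ _ (s33f_pi_pow_ne_zero D a)]

theorem s33f_lead_one_add {a : ℕ} (z : 𝓕) : s33f_lead D a (1 + s33f_pi D ^ a * z) = s33f_redX D z :=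
  s33f_lead_eq (by ring)

theorem s33f_Cong.exists_eq {a : ℕ} {f : 𝓕} (h : s33f_Cong D a f 1) :
    ∃ z ∈ D.O, f = 1 + s33f_pi D ^ a * z ∧ s33f_lead D a f = s33f_redX D z := by
  obtain ⟨z, hz, e⟩ := h
  exact ⟨z, hz, by rw [← e]; ring, s33f_lead_eq e⟩

theorem s33f_cong_one_add {a : ℕ} {z : 𝓕} (hz : z ∈ D.O) : s33f_Cong D a (1 + s33f_pi D ^ a * z) 1 :=
  ⟨z, hz, by ring⟩

theorem s33f_lead_mul {a : ℕ} (ha : 1 ≤ a) {f g : 𝓕} (h₁ : s33f_Cong D a f 1) (h₂ : s33f_Cong D a g 1) :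
    s33f_lead D a (f * g) = s33f_lead D a f + s33f_lead D a g := by
  obtain ⟨z₁, hz₁, rfl, e₁⟩ := h₁.exists_eq
  obtain ⟨z₂, hz₂, rfl, e₂⟩ := h₂.exists_eq
  rw [e₁, e₂]
  have e : (1 + s33f_pi D ^ a * z₁) * (1 + s33f_pi D ^ a * z₂) - 1 =
      s33f_pi D ^ a * (z₁ + z₂ + s33f_pi D ^ a * (z₁ * z₂)) := by ring
  rw [s33f_lead_eq e]
  have hm : s33f_pi D ^ a * (z₁ * z₂) ∈ D.O :=
    D.O.mul_mem _ _ (s33f_pi_pow_mem D a) (D.O.mul_mem _ _ hz₁ hz₂)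
  rw [s33f_redX_add (D.O.add_mem _ _ hz₁ hz₂) hm, s33f_redX_add hz₁ hz₂]
  have h0 : s33f_redX D (s33f_pi D ^ a * (z₁ * z₂)) = 0 := by
    rw [s33f_redX_eq_zero_iff hm]
    refine ⟨s33f_pi D ^ (a - 1) * (z₁ * z₂),
      D.O.mul_mem _ _ (s33f_pi_pow_mem D _) (D.O.mul_mem _ _ hz₁ hz₂), ?_⟩
    obtain ⟨b, rfl⟩ : ∃ b, a = b + 1 := ⟨a - 1, by omega⟩
    rw [sub_zero, pow_one, Nat.add_sub_cancel, pow_succ]; ring
  rw [h0, add_zero]

theorem s33f_lead_eq_zero_iff {a : ℕ} {f : 𝓕} (h : s33f_Cong D a f 1) :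
    s33f_lead D a f = 0 ↔ s33f_Cong D (a + 1) f 1 := by
  obtain ⟨z, hz, rfl, e⟩ := h.exists_eq
  rw [e, s33f_redX_eq_zero_iff hz]
  constructor
  · rintro ⟨w, hw, ew⟩
    rw [sub_zero, pow_one] at ew
    exact ⟨w, hw, by rw [ew, pow_succ]; ring⟩
  · rintro ⟨w, hw, ew⟩
    refine ⟨w, hw, ?_⟩
    rw [sub_zero, pow_one]
    have : s33f_pi D ^ a * z = s33f_pi D ^ a * (s33f_pi D * w) := by
      have h1 : 1 + s33f_pi D ^ a * z - 1 = s33f_pi D ^ a * z := by ring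
      rw [← h1, ew, pow_succ]; ring
    exact mul_left_cancel₀ (s33f_pi_pow_ne_zero D a) this

theorem s33f_lead_of_cong_succ {a : ℕ} {f : 𝓕} (h : s33f_Cong D (a + 1) f 1) :
    s33f_lead D a f = 0 :=
  (s33f_lead_eq_zero_iff (h.mono (Nat.le_succ a))).mpr h

theorem s33f_lead_one (a : ℕ) : s33f_lead D a 1 = 0 :=
  s33f_lead_of_cong_succ (s33f_cong_refl _ _)

theorem s33f_lead_inv {a : ℕ} (ha : 1 ≤ a) {f : 𝓕} (h : s33f_Cong D a f 1) :
    s33f_lead D a f⁻¹ = - s33f_lead D a f := by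
  have h0 := s33f_ne_zero_of_cong_one ha h
  have h1 := s33f_lead_mul ha h (h.inv₁ ha)
  rw [mul_inv_cancel₀ h0, s33f_lead_one] at h1
  exact eq_neg_of_add_eq_zero_right h1.symm

/-- the leading term only depends on `f` modulo `ϖ ^ (a + 1)`. -/
theorem s33f_lead_congr {a : ℕ} {f g : 𝓕} (hf : s33f_Cong D a f 1) (hfg : s33f_Cong D (a + 1) f g) :
    s33f_lead D a f = s33f_lead D a g := by
  obtain ⟨z, hz, rfl, e⟩ := hf.exists_eq
  obtain ⟨w, hw, ew⟩ := hfg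
  have hg : g = 1 + s33f_pi D ^ a * (z - s33f_pi D * w) := by
    have : g = 1 + s33f_pi D ^ a * z - s33f_pi D ^ (a + 1) * w := by rw [← ew]; ring
    rw [this, pow_succ]; ring
  rw [e, hg, s33f_lead_one_add]
  have hπw : s33f_pi D * w ∈ D.O := D.O.mul_mem _ _ (s33f_pi_mem D) hw
  rw [s33f_redX_sub hz hπw, s33f_redX_mul (s33f_pi_mem D) hw, s33f_redX_pi, zero_mul, sub_zero]

/-- leading term of a constant. -/
theorem s33f_lead_const {a : ℕ} (γ : D.A₀) :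
    s33f_lead D a (algebraMap L₀ 𝓕 (1 + D.ϖ ^ a * (γ : L₀))) = algebraMap κ Fb (D.resA γ) := by
  have e : algebraMap L₀ 𝓕 (1 + D.ϖ ^ a * (γ : L₀)) - 1 =
      s33f_pi D ^ a * algebraMap L₀ 𝓕 (γ : L₀) := by
    unfold s33f_pi
    rw [map_add, map_one, map_mul, map_pow]; ring
  rw [s33f_lead_eq e, s33f_redX_const]

/-! ### the expansion of `(1 + ϖ ^ m x) ^ p` -/

theorem s33f_natCast_p : ((D.p : ℕ) : 𝓕) = algebraMap L₀ 𝓕 D.ε * s33f_pi D ^ D.e := by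
  unfold s33f_pi
  rw [← map_pow, ← map_mul, ← D.p_eq, map_natCast]

theorem s33f_eps_mem : algebraMap L₀ 𝓕 D.ε ∈ D.O := (D.const_mem_iff _).mpr D.ε_mem

/-- **the expansion**: `(1 + ϖ^m x)^p = 1 + ϖ^(pm) x^p + ε ϖ^(e+m) x (1 + ϖ^m x s)`, `s ∈ O`. -/
theorem s33f_one_add_pow (m : ℕ) {x : 𝓕} (hx : x ∈ D.O) :
    ∃ s ∈ D.O, (1 + s33f_pi D ^ m * x) ^ D.p =
      1 + s33f_pi D ^ (D.p * m) * x ^ D.p +
        algebraMap L₀ 𝓕 D.ε * s33f_pi D ^ (D.e + m) * x * (1 + s33f_pi D ^ m * x * s) := by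
  have hz : s33f_pi D ^ m * x ∈ D.O := D.O.mul_mem _ _ (s33f_pi_pow_mem D m) hx
  obtain ⟨s, hs⟩ := s33f_one_add_pow_prime D.p_prime (⟨_, hz⟩ : D.O)
  refine ⟨(s : 𝓕), s.2, ?_⟩
  have h := congrArg (Subtype.val : D.O → 𝓕) hs
  push_cast at h
  rw [h, s33f_natCast_p, mul_pow, ← pow_mul, mul_comm m D.p, pow_add]
  ring

/-- `(1 + ϖ^m x)^p ≡ 1 mod ϖ^(min (pm) (e+m))`. -/
theorem s33f_cong_pow_one (m : ℕ) {x : 𝓕} (hx : x ∈ D.O) {b : ℕ} (hb1 : b ≤ D.p * m)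
    (hb2 : b ≤ D.e + m) : s33f_Cong D b ((1 + s33f_pi D ^ m * x) ^ D.p) 1 := by
  obtain ⟨s, hs, e⟩ := s33f_one_add_pow (D := D) m hx
  rw [e]
  have h1 : s33f_Cong D b (s33f_pi D ^ (D.p * m) * x ^ D.p) 0 :=
    (s33f_cong_zero_of_mem (D.O.pow_mem hx _)).mono hb1
  have h2 : s33f_Cong D b (algebraMap L₀ 𝓕 D.ε * s33f_pi D ^ (D.e + m) * x *
      (1 + s33f_pi D ^ m * x * s)) 0 := by
    have hmem : algebraMap L₀ 𝓕 D.ε * x * (1 + s33f_pi D ^ m * x * s) ∈ D.O :=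
      D.O.mul_mem _ _ (D.O.mul_mem _ _ s33f_eps_mem hx)
        (D.O.add_mem _ _ D.O.one_mem
          (D.O.mul_mem _ _ (D.O.mul_mem _ _ (s33f_pi_pow_mem D m) hx) hs))
    have := (s33f_cong_zero_of_mem (a := D.e + m) hmem).mono hb2
    convert this using 1
    ring
  have := ((s33f_cong_refl b (1 : 𝓕)).add h1).add h2
  simpa using this

/-- the leading term of `(1 + ϖ^m x)^p` at a non-super-critical depth `a = p m`. -/
theorem s33f_lead_pow {m a : ℕ} (hm : 1 ≤ m) (ha : a = D.p * m) (hns : ¬ s33f_SuperCrit D a)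
    {x : 𝓕} (hx : x ∈ D.O) :
    s33f_Cong D a ((1 + s33f_pi D ^ m * x) ^ D.p) 1 ∧
      s33f_lead D a ((1 + s33f_pi D ^ m * x) ^ D.p) = s33f_phi D a (s33f_redX D x) := by
  have hp := D.p_prime
  have hp1 : 1 ≤ D.p - 1 := by have := hp.two_le; omega
  -- (p - 1) m ≤ e
  have hme : (D.p - 1) * m ≤ D.e := by
    unfold s33f_SuperCrit at hns
    rw [not_lt, ha] at hns
    have h1 : (D.p - 1) * (D.p * m) = D.p * ((D.p - 1) * m) := by ring
    rw [h1] at hns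
    exact Nat.le_of_mul_le_mul_left hns hp.pos
  have hpm : D.p * m = (D.p - 1) * m + m := by
    have : D.p = (D.p - 1) + 1 := by omega
    conv_lhs => rw [this]
    ring
  have hle : D.p * m ≤ D.e + m := by rw [hpm]; omega
  refine ⟨ha ▸ s33f_cong_pow_one m hx le_rfl hle, ?_⟩
  obtain ⟨s, hs, e⟩ := s33f_one_add_pow (D := D) m hx
  by_cases hcrit : s33f_Crit D a
  · -- critical: (p-1) m = e, so e + m = p m
    have hme' : (D.p - 1) * m = D.e := by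
      unfold s33f_Crit at hcrit
      rw [ha] at hcrit
      have h1 : (D.p - 1) * (D.p * m) = D.p * ((D.p - 1) * m) := by ring
      rw [h1] at hcrit
      exact Nat.eq_of_mul_eq_mul_left hp.pos hcrit
    have hem : D.e + m = D.p * m := by rw [hpm]; omega
    have e' : (1 + s33f_pi D ^ m * x) ^ D.p - 1 = s33f_pi D ^ a *
        (x ^ D.p + algebraMap L₀ 𝓕 D.ε * x + s33f_pi D ^ m * (algebraMap L₀ 𝓕 D.ε * x * x * s)) := by
      rw [e, hem, ha]; ring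
    rw [s33f_lead_eq e']
    have hεx : algebraMap L₀ 𝓕 D.ε * x ∈ D.O := D.O.mul_mem _ _ s33f_eps_mem hx
    have hrest : algebraMap L₀ 𝓕 D.ε * x * x * s ∈ D.O :=
      D.O.mul_mem _ _ (D.O.mul_mem _ _ hεx hx) hs
    have hπrest : s33f_pi D ^ m * (algebraMap L₀ 𝓕 D.ε * x * x * s) ∈ D.O :=
      D.O.mul_mem _ _ (s33f_pi_pow_mem D m) hrest
    rw [s33f_redX_add (D.O.add_mem _ _ (D.O.pow_mem hx _) hεx) hπrest,
      s33f_redX_add (D.O.pow_mem hx _) hεx, s33f_redX_pow hx, s33f_redX_mul s33f_eps_mem hx]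
    have h0 : s33f_redX D (s33f_pi D ^ m * (algebraMap L₀ 𝓕 D.ε * x * x * s)) = 0 := by
      rw [s33f_redX_mul (s33f_pi_pow_mem D m) hrest, s33f_redX_pow (s33f_pi_mem D), s33f_redX_pi,
        zero_pow (by omega), zero_mul]
    have hε : s33f_redX D (algebraMap L₀ 𝓕 D.ε) = algebraMap κ Fb (s33f_epsBar D) :=
      s33f_redX_const (D := D) ⟨D.ε, D.ε_mem⟩
    rw [h0, add_zero, hε]
    unfold s33f_phi
    rw [if_pos hcrit]
  · -- sub-critical: (p-1) m < e, so e + m > p m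
    have hme' : (D.p - 1) * m < D.e := by
      rcases Nat.lt_or_ge ((D.p - 1) * m) D.e with h | h
      · exact h
      · exfalso
        apply hcrit
        unfold s33f_Crit
        have : (D.p - 1) * m = D.e := le_antisymm hme h
        rw [ha]
        have h1 : (D.p - 1) * (D.p * m) = D.p * ((D.p - 1) * m) := by ring
        rw [h1, this]
    obtain ⟨d, hd⟩ : ∃ d, D.e + m = D.p * m + (d + 1) := ⟨D.e + m - D.p * m - 1, by omega⟩
    have e' : (1 + s33f_pi D ^ m * x) ^ D.p - 1 = s33f_pi D ^ a *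
        (x ^ D.p + s33f_pi D ^ (d + 1) *
          (algebraMap L₀ 𝓕 D.ε * x * (1 + s33f_pi D ^ m * x * s))) := by
      rw [e, hd, ha, pow_add]; ring
    rw [s33f_lead_eq e']
    have hrest : algebraMap L₀ 𝓕 D.ε * x * (1 + s33f_pi D ^ m * x * s) ∈ D.O :=
      D.O.mul_mem _ _ (D.O.mul_mem _ _ s33f_eps_mem hx)
        (D.O.add_mem _ _ D.O.one_mem
          (D.O.mul_mem _ _ (D.O.mul_mem _ _ (s33f_pi_pow_mem D m) hx) hs))
    have hπrest : s33f_pi D ^ (d + 1) * (algebraMap L₀ 𝓕 D.ε * x * (1 + s33f_pi D ^ m * x * s)) ∈ D.O :=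
      D.O.mul_mem _ _ (s33f_pi_pow_mem D _) hrest
    rw [s33f_redX_add (D.O.pow_mem hx _) hπrest, s33f_redX_pow hx,
      s33f_redX_mul (s33f_pi_pow_mem D _) hrest, s33f_redX_pow (s33f_pi_mem D), s33f_redX_pi,
      zero_pow (Nat.succ_ne_zero d), zero_mul, add_zero]
    unfold s33f_phi
    rw [if_neg hcrit]

end Fermat.Agent.Lib.S33
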