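/-
P-AT-P programme (S33), brick [FO], pure-algebra core: the contracts `s33f_Deepen` and `s33f_KumLead`
of `FOIface.lean` hold for every datum; `s33f_MaxDepth` and `s33f_IIIAbstract` follow from the
remaining contracts.  (owner: helper6)
-/
import Fermat.Agent.Lib.S33.FOLead

set_option autoImplicit false
set_option linter.style.haveILetI false

noncomputable section

namespace Fermat.Agent.Lib.S33

open AlgebraicCurve

variable {L₀ 𝓕 κ Fb : Type*} [Field L₀] [Field 𝓕] [Algebra L₀ 𝓕] [Field κ] [Field Fb] [Algebra κ Fb]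
variable {D : s33f_Datum L₀ 𝓕 κ Fb}

/-! ### small facts -/

theorem s33f_isKum0_const {c : L₀} (hc : c ≠ 0) : s33f_IsKum0 D (algebraMap L₀ 𝓕 c) :=
  ⟨c, 1, hc, one_ne_zero, by rw [one_pow, mul_one]⟩

theorem s33f_isKum0_one : s33f_IsKum0 D (1 : 𝓕) := by
  have := s33f_isKum0_const (D := D) (one_ne_zero : (1 : L₀) ≠ 0)
  rwa [map_one] at this

theorem s33f_IsKum0.mul {f g : 𝓕} (hf : s33f_IsKum0 D f) (hg : s33f_IsKum0 D g) :
    s33f_IsKum0 D (f * g) := by
  obtain ⟨c, h, hc, hh, rfl⟩ := hf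
  obtain ⟨c', h', hc', hh', rfl⟩ := hg
  exact ⟨c * c', h * h', mul_ne_zero hc hc', mul_ne_zero hh hh', by rw [map_mul, mul_pow]; ring⟩

theorem s33f_IsKum0.inv {f : 𝓕} (hf : s33f_IsKum0 D f) : s33f_IsKum0 D f⁻¹ := by
  obtain ⟨c, h, hc, hh, rfl⟩ := hf
  exact ⟨c⁻¹, h⁻¹, inv_ne_zero hc, inv_ne_zero hh, by rw [map_inv₀, inv_pow, mul_inv]⟩

theorem s33f_IsKum0.ne_zero {f : 𝓕} (hf : s33f_IsKum0 D f) : f ≠ 0 := by
  obtain ⟨c, h, hc, hh, rfl⟩ := hf
  exact mul_ne_zero (by simpa using hc) (pow_ne_zero _ hh)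

theorem s33f_isKum0_pow {h : 𝓕} (hh : h ≠ 0) : s33f_IsKum0 D (h ^ D.p) :=
  ⟨1, h, one_ne_zero, hh, by rw [map_one, one_mul]⟩

/-- a constant `≡ 1 mod ϖ ^ a` is `1 + ϖ ^ a γ` with `γ ∈ A₀`. -/
theorem s33f_const_cong_one {a : ℕ} {c : L₀} (h : s33f_Cong D a (algebraMap L₀ 𝓕 c) 1) :
    ∃ γ : D.A₀, c = 1 + D.ϖ ^ a * (γ : L₀) := by
  obtain ⟨z, hz, e⟩ := h
  have hϖ : D.ϖ ^ a ≠ 0 := pow_ne_zero _ D.ϖ_ne_zero
  have hz' : z = algebraMap L₀ 𝓕 ((c - 1) / D.ϖ ^ a) := by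
    have h1 : s33f_pi D ^ a * z = s33f_pi D ^ a * algebraMap L₀ 𝓕 ((c - 1) / D.ϖ ^ a) := by
      rw [← e]
      unfold s33f_pi
      rw [← map_pow, ← map_mul, mul_div_cancel₀ _ hϖ, map_sub, map_one]
    exact mul_left_cancel₀ (s33f_pi_pow_ne_zero D a) h1
  rw [hz'] at hz
  refine ⟨⟨(c - 1) / D.ϖ ^ a, (D.const_mem_iff _).mp hz⟩, ?_⟩
  show c = 1 + D.ϖ ^ a * ((c - 1) / D.ϖ ^ a)
  rw [mul_div_cancel₀ _ hϖ]; ring

/-- the leading term of a constant `≡ 1 mod ϖ ^ a` is a constant. -/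
theorem s33f_lead_const_mem {a : ℕ} {c : L₀} (h : s33f_Cong D a (algebraMap L₀ 𝓕 c) 1) :
    ∃ γ : κ, s33f_lead D a (algebraMap L₀ 𝓕 c) = algebraMap κ Fb γ := by
  obtain ⟨γ, rfl⟩ := s33f_const_cong_one h
  exact ⟨D.resA γ, s33f_lead_const γ⟩

/-- `p`-th roots of constants of `Fb` are constants. -/
theorem s33f_root_const {r : Fb} {c : κ} (h : r ^ D.p = algebraMap κ Fb c) :
    ∃ d : κ, r = algebraMap κ Fb d ∧ d ^ D.p = c := by
  obtain ⟨d, hd⟩ := D.κ_perfect c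
  refine ⟨d, ?_, hd⟩
  haveI : Fact D.p.Prime := ⟨D.p_prime⟩
  haveI : CharP Fb D.p := s33f_charP_Fb D
  have h1 : (r - algebraMap κ Fb d) ^ D.p = 0 := by
    rw [sub_pow_char, h, ← map_pow, hd, sub_self]
  exact sub_eq_zero.mp (pow_eq_zero_iff D.p_prime.ne_zero |>.mp h1)

theorem s33f_mem_S_const {a : ℕ} (c : κ) : algebraMap κ Fb c ∈ s33f_S D a := by
  refine ⟨c, 0, ?_, fun _ => rfl⟩
  unfold s33f_phi
  split_ifs <;> simp [D.p_prime.ne_zero]

/-! ### `s33f_Deepen` -/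

theorem s33f_deepen : s33f_Deepen D := by
  intro a ha hns f hf hS
  obtain ⟨c, h, e, hh⟩ := hS
  obtain ⟨c₀, rfl⟩ := D.resA_surjective c
  -- the constant correction
  set C : L₀ := 1 + D.ϖ ^ a * (c₀ : L₀) with hC
  have hCcong : s33f_Cong D a (algebraMap L₀ 𝓕 C) 1 := by
    refine ⟨algebraMap L₀ 𝓕 (c₀ : L₀), s33f_const_mem D c₀, ?_⟩
    rw [hC]
    unfold s33f_pi
    rw [map_add, map_one, map_mul, map_pow]; ring
  have hClead : s33f_lead D a (algebraMap L₀ 𝓕 C) = algebraMap κ Fb (D.resA c₀) := s33f_lead_const c₀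
  have hC0 : C ≠ 0 := by
    intro h0
    have := s33f_ne_zero_of_cong_one ha hCcong
    rw [h0, map_zero] at this
    exact this rfl
  by_cases hpa : D.p ∣ a
  · obtain ⟨m, rfl⟩ := hpa
    have hm : 1 ≤ m := by
      rcases Nat.eq_zero_or_pos m with rfl | hm
      · simp at ha
      · exact hm
    obtain ⟨x, hx, rfl⟩ := s33f_exists_redX_eq (D := D) h
    obtain ⟨h1, h2⟩ := s33f_lead_pow (D := D) hm rfl hns hx
    have hbase : s33f_Cong D 1 (1 + s33f_pi D ^ m * x) 1 :=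
      (s33f_cong_one_add (a := m) hx).mono hm
    have hbase0 : (1 + s33f_pi D ^ m * x) ≠ 0 := s33f_ne_zero_of_cong_one le_rfl hbase
    refine ⟨(algebraMap L₀ 𝓕 C)⁻¹ * ((1 + s33f_pi D ^ m * x) ^ D.p)⁻¹, ?_, ?_, ?_⟩
    · exact (s33f_isKum0_const hC0).inv.mul (s33f_isKum0_pow hbase0).inv
    · exact (hCcong.inv₁ ha).mul₁ (h1.inv₁ ha)
    · have hg : s33f_Cong D (D.p * m) ((algebraMap L₀ 𝓕 C)⁻¹ * ((1 + s33f_pi D ^ m * x) ^ D.p)⁻¹) 1 :=
        (hCcong.inv₁ ha).mul₁ (h1.inv₁ ha)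
      rw [← s33f_lead_eq_zero_iff (hg.mul₁ hf), s33f_lead_mul ha hg hf,
        s33f_lead_mul ha (hCcong.inv₁ ha) (h1.inv₁ ha), s33f_lead_inv ha hCcong, s33f_lead_inv ha h1,
        hClead, h2, e]
      ring
  · have hh0 := hh hpa
    subst hh0
    refine ⟨(algebraMap L₀ 𝓕 C)⁻¹, (s33f_isKum0_const hC0).inv, hCcong.inv₁ ha, ?_⟩
    rw [← s33f_lead_eq_zero_iff ((hCcong.inv₁ ha).mul₁ hf), s33f_lead_mul ha (hCcong.inv₁ ha) hf,
      s33f_lead_inv ha hCcong, hClead, e]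
    have : s33f_phi D a 0 = 0 := by
      unfold s33f_phi
      split_ifs <;> simp [D.p_prime.ne_zero]
    rw [this]; ring

/-! ### `s33f_KumLead` -/

/-- normalisation of an element of `𝒢⁰` which is `≡ 1 mod ϖ`: `g = c₁ (1 + ϖ x) ^ p`. -/
theorem s33f_kum0_normalise {g : 𝓕} (hg : s33f_IsKum0 D g) (h1 : s33f_Cong D 1 g 1) :
    ∃ (c₁ : L₀) (x : 𝓕), x ∈ D.O ∧ g = algebraMap L₀ 𝓕 c₁ * (1 + s33f_pi D ^ 1 * x) ^ D.p := by
  obtain ⟨c, h, hc, hh, rfl⟩ := hg
  have hp0 : D.p ≠ 0 := D.p_prime.ne_zero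
  -- step 1: `h = (constant) * w` with `w` a unit of `O`
  obtain ⟨c', w, hc', hw, hwinv, e⟩ : ∃ (c' : L₀) (w : 𝓕), c' ≠ 0 ∧ w ∈ D.O ∧ w⁻¹ ∈ D.O ∧
      algebraMap L₀ 𝓕 c * h ^ D.p = algebraMap L₀ 𝓕 c' * w ^ D.p := by
    rcases D.O.mem_or_inv_mem h with hO | hO
    · obtain ⟨k, v, hv, hvinv, e⟩ := D.unif h hO hh
      refine ⟨c * (D.ϖ ^ k) ^ D.p, v, mul_ne_zero hc (pow_ne_zero _ (pow_ne_zero _ D.ϖ_ne_zero)),
        hv, hvinv, ?_⟩
      rw [e, map_mul, map_pow, map_pow, mul_pow]; ring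
    · obtain ⟨k, v, hv, hvinv, e⟩ := D.unif h⁻¹ hO (inv_ne_zero hh)
      have hv0 : v ≠ 0 := by
        rintro rfl
        rw [mul_zero] at e
        exact inv_ne_zero hh e
      refine ⟨c * ((D.ϖ ^ k) ^ D.p)⁻¹, v⁻¹,
        mul_ne_zero hc (inv_ne_zero (pow_ne_zero _ (pow_ne_zero _ D.ϖ_ne_zero))), hvinv,
        by rwa [inv_inv], ?_⟩
      have hh' : h = (algebraMap L₀ 𝓕 D.ϖ ^ k)⁻¹ * v⁻¹ := by
        rw [← mul_inv, ← e, inv_inv]
      rw [hh', map_mul, map_inv₀, map_pow, map_pow, mul_pow, inv_pow]; ring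
  rw [e] at h1 ⊢
  have hw0 : w ≠ 0 := by
    rintro rfl
    rw [zero_pow hp0, mul_zero] at h1
    exact s33f_not_cong_one_zero h1.symm
  -- step 2: `c' ∈ A₀`
  have hc'O : algebraMap L₀ 𝓕 c' ∈ D.O := by
    have : algebraMap L₀ 𝓕 c' = (algebraMap L₀ 𝓕 c' * w ^ D.p) * (w⁻¹) ^ D.p := by
      rw [inv_pow, mul_assoc, mul_inv_cancel₀ (pow_ne_zero _ hw0), mul_one]
    rw [this]
    exact D.O.mul_mem _ _ h1.mem_one (D.O.pow_mem hwinv _)
  have hc'A : c' ∈ D.A₀ := (D.const_mem_iff _).mp hc'O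
  -- step 3: reduce
  have hred : algebraMap κ Fb (D.resA ⟨c', hc'A⟩) * s33f_redX D w ^ D.p = 1 := by
    have := s33f_redX_cong_one le_rfl h1
    rw [s33f_redX_mul hc'O (D.O.pow_mem hw _), s33f_redX_pow hw] at this
    rw [← this]
    congr 1
    exact (s33f_redX_const (D := D) ⟨c', hc'A⟩).symm
  set γ : κ := D.resA ⟨c', hc'A⟩ with hγ
  have hγ0 : γ ≠ 0 := by
    intro h0
    rw [h0, map_zero, zero_mul] at hred
    exact zero_ne_one hred
  have hr : s33f_redX D w ^ D.p = algebraMap κ Fb γ⁻¹ := by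
    rw [map_inv₀]
    exact eq_inv_of_mul_eq_one_right hred
  obtain ⟨d, hd, hdp⟩ := s33f_root_const hr
  have hd0 : d ≠ 0 := by
    rintro rfl
    rw [zero_pow hp0] at hdp
    exact inv_ne_zero hγ0 hdp.symm
  -- step 4: lift `d`
  obtain ⟨δ, rfl⟩ := D.resA_surjective d
  have hδO : algebraMap L₀ 𝓕 (δ : L₀) ∈ D.O := s33f_const_mem D δ
  have hδred : s33f_redX D (algebraMap L₀ 𝓕 (δ : L₀)) = algebraMap κ Fb (D.resA δ) := s33f_redX_const δ
  have hδ0 : (δ : L₀) ≠ 0 := by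
    intro h0
    apply hd0
    have : δ = 0 := Subtype.ext h0
    rw [this, map_zero]
  have hδF0 : algebraMap L₀ 𝓕 (δ : L₀) ≠ 0 := by simpa using hδ0
  -- `δ` is a unit of `O`
  have hδinv : (algebraMap L₀ 𝓕 (δ : L₀))⁻¹ ∈ D.O := by
    obtain ⟨k, v, hv, hvinv, e⟩ := D.unif _ hδO hδF0
    rcases Nat.eq_zero_or_pos k with rfl | hk
    · rw [pow_zero, one_mul] at e
      rw [e]; exact hvinv
    · exfalso
      have : s33f_redX D (algebraMap L₀ 𝓕 (δ : L₀)) = 0 := by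
        rw [s33f_redX_eq_zero_iff hδO]
        refine ⟨s33f_pi D ^ (k - 1) * v, D.O.mul_mem _ _ (s33f_pi_pow_mem D _) hv, ?_⟩
        obtain ⟨k', rfl⟩ : ∃ k', k = k' + 1 := ⟨k - 1, by omega⟩
        rw [sub_zero, e, pow_one, Nat.add_sub_cancel, pow_succ]
        unfold s33f_pi
        ring
      rw [hδred] at this
      exact hd0 ((map_eq_zero_iff _ (algebraMap κ Fb).injective).mp this)
  set w₁ : 𝓕 := w * (algebraMap L₀ 𝓕 (δ : L₀))⁻¹ with hw₁
  have hw₁O : w₁ ∈ D.O := D.O.mul_mem _ _ hw hδinv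
  have hw₁red : s33f_redX D w₁ = 1 := by
    have h2 : s33f_redX D w₁ * s33f_redX D (algebraMap L₀ 𝓕 (δ : L₀)) = s33f_redX D w := by
      rw [← s33f_redX_mul hw₁O hδO, hw₁, mul_assoc, inv_mul_cancel₀ hδF0, mul_one]
    rw [hδred, hd] at h2
    have h3 : algebraMap κ Fb (D.resA δ) ≠ 0 := by
      rw [Ne, map_eq_zero_iff _ (algebraMap κ Fb).injective]; exact hd0
    exact mul_right_cancel₀ h3 (by rw [h2, one_mul])
  have hw₁cong : s33f_Cong D 1 w₁ 1 := by
    rw [← s33f_redX_eq_iff hw₁O D.O.one_mem, hw₁red, s33f_redX_one]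
  obtain ⟨x, hx, ex⟩ := hw₁cong
  refine ⟨c' * (δ : L₀) ^ D.p, x, hx, ?_⟩
  have : w = algebraMap L₀ 𝓕 (δ : L₀) * (1 + s33f_pi D ^ 1 * x) := by
    rw [← ex, hw₁]
    field_simp
    ring
  rw [this, map_mul, map_pow, mul_pow]; ring

/-- the inductive heart of `s33f_KumLead`. -/
theorem s33f_kumLead_aux {a : ℕ} (ha : 1 ≤ a) (hns : ¬ s33f_SuperCrit D a) :
    ∀ n j : ℕ, 1 ≤ j → a ≤ j + n → ∀ (c₁ : L₀) (x : 𝓕), x ∈ D.O →
      s33f_Cong D a (algebraMap L₀ 𝓕 c₁ * (1 + s33f_pi D ^ j * x) ^ D.p) 1 →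
      s33f_lead D a (algebraMap L₀ 𝓕 c₁ * (1 + s33f_pi D ^ j * x) ^ D.p) ∈ s33f_S D a := by
  have hp := D.p_prime
  have hp2 := hp.two_le
  have he := D.e_pos
  have hns' : (D.p - 1) * a ≤ D.p * D.e := by
    unfold s33f_SuperCrit at hns
    exact not_lt.mp hns
  intro n
  induction n with
  | zero =>
    -- base: `j ≥ a`
    intro j hj haj c₁ x hx hg
    rw [add_zero] at haj
    have hpj : a + 1 ≤ D.p * j := by nlinarith
    have hej : a + 1 ≤ D.e + j := by omega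
    have hpow : s33f_Cong D (a + 1) ((1 + s33f_pi D ^ j * x) ^ D.p) 1 := s33f_cong_pow_one j hx hpj hej
    have hpow' := hpow.mono (Nat.le_succ a)
    have hpow0 : (1 + s33f_pi D ^ j * x) ^ D.p ≠ 0 := s33f_ne_zero_of_cong_one ha hpow'
    have hC : s33f_Cong D a (algebraMap L₀ 𝓕 c₁) 1 := by
      have := hg.mul₁ (hpow'.inv₁ ha)
      rwa [mul_assoc, mul_inv_cancel₀ hpow0, mul_one] at this
    rw [s33f_lead_mul ha hC hpow', s33f_lead_of_cong_succ hpow, add_zero]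
    obtain ⟨γ, hγ⟩ := s33f_lead_const_mem hC
    rw [hγ]
    exact s33f_mem_S_const γ
  | succ n ih =>
    intro j hj haj c₁ x hx hg
    rcases Nat.lt_or_ge j a with hja | hja
    swap
    · -- still `j ≥ a`: use the previous case with a smaller `n`
      exact ih j hj (by omega) c₁ x hx hg
    by_cases hA : a ≤ D.p * j ∧ a ≤ D.e + j
    · -- Case A
      obtain ⟨hA1, hA2⟩ := hA
      have hpow' : s33f_Cong D a ((1 + s33f_pi D ^ j * x) ^ D.p) 1 := s33f_cong_pow_one j hx hA1 hA2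
      have hpow0 : (1 + s33f_pi D ^ j * x) ^ D.p ≠ 0 := s33f_ne_zero_of_cong_one ha hpow'
      have hC : s33f_Cong D a (algebraMap L₀ 𝓕 c₁) 1 := by
        have := hg.mul₁ (hpow'.inv₁ ha)
        rwa [mul_assoc, mul_inv_cancel₀ hpow0, mul_one] at this
      rw [s33f_lead_mul ha hC hpow']
      obtain ⟨γ, hγ⟩ := s33f_lead_const_mem hC
      rw [hγ]
      rcases Nat.lt_or_ge a (D.p * j) with h1 | h1
      · rcases Nat.lt_or_ge a (D.e + j) with h2 | h2
        · have : s33f_Cong D (a + 1) ((1 + s33f_pi D ^ j * x) ^ D.p) 1 :=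
            s33f_cong_pow_one j hx h1 h2
          rw [s33f_lead_of_cong_succ this, add_zero]
          exact s33f_mem_S_const γ
        · -- `a = e + j < p j`: super-critical, impossible
          exfalso
          have hae : a = D.e + j := le_antisymm hA2 h2
          have h3 : (D.p - 1) * a = (D.p - 1) * D.e + (D.p - 1) * j := by rw [hae]; ring
          have h4 : D.p * j = (D.p - 1) * j + j := by
            have : D.p = (D.p - 1) + 1 := by omega
            conv_lhs => rw [this]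
            ring
          have h5 : D.p * D.e = (D.p - 1) * D.e + D.e := by
            have : D.p = (D.p - 1) + 1 := by omega
            conv_lhs => rw [this]
            ring
          omega
      · -- `a = p j`
        have hapj : a = D.p * j := le_antisymm hA1 h1
        obtain ⟨-, h2⟩ := s33f_lead_pow (D := D) hj hapj hns hx
        rw [h2]
        exact ⟨γ, s33f_redX D x, rfl, fun h => (h ⟨j, hapj⟩).elim⟩
    · -- Case B: `p j < a` and `(p-1) j < e`
      have hB : D.p * j < a ∧ (D.p - 1) * j < D.e := by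
        have h4 : D.p * j = (D.p - 1) * j + j := by
          have : D.p = (D.p - 1) + 1 := by omega
          conv_lhs => rw [this]
          ring
        have h5 : D.p * D.e = (D.p - 1) * D.e + D.e := by
          have : D.p = (D.p - 1) + 1 := by omega
          conv_lhs => rw [this]
          ring
        rw [not_and_or, not_le, not_le] at hA
        rcases Nat.lt_or_ge ((D.p - 1) * j) D.e with h6 | h6
        · refine ⟨?_, h6⟩
          rcases hA with h | h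
          · exact h
          · omega
        · exfalso
          -- then e + j ≤ p j, and a > e + j in both cases, so super-critical
          have h7 : D.e + j < a := by
            rcases hA with h | h
            · omega
            · exact h
          have h8 : (D.p - 1) * (D.e + j + 1) ≤ (D.p - 1) * a := Nat.mul_le_mul_left _ h7
          have h9 : (D.p - 1) * (D.e + j + 1) = (D.p - 1) * D.e + (D.p - 1) * j + (D.p - 1) := by ring
          omega
      obtain ⟨hB1, hB2⟩ := hB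
      -- the sub-critical expansion at depth `p j`
      have hns_pj : ¬ s33f_SuperCrit D (D.p * j) := by
        unfold s33f_SuperCrit
        rw [not_lt]
        have : (D.p - 1) * (D.p * j) = D.p * ((D.p - 1) * j) := by ring
        rw [this]
        exact Nat.mul_le_mul_left _ hB2.le
      have hncrit_pj : ¬ s33f_Crit D (D.p * j) := by
        unfold s33f_Crit
        have : (D.p - 1) * (D.p * j) = D.p * ((D.p - 1) * j) := by ring
        rw [this]
        intro h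
        have := Nat.eq_of_mul_eq_mul_left hp.pos h
        omega
      have hpj1 : 1 ≤ D.p * j := by nlinarith
      obtain ⟨hq1, hq2⟩ := s33f_lead_pow (D := D) hj rfl hns_pj hx
      have hphi : s33f_phi D (D.p * j) (s33f_redX D x) = s33f_redX D x ^ D.p := by
        unfold s33f_phi
        rw [if_neg hncrit_pj]
      rw [hphi] at hq2
      have hpow0 : (1 + s33f_pi D ^ j * x) ^ D.p ≠ 0 := s33f_ne_zero_of_cong_one hpj1 hq1
      have hg' : s33f_Cong D (D.p * j + 1)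
          (algebraMap L₀ 𝓕 c₁ * (1 + s33f_pi D ^ j * x) ^ D.p) 1 := hg.mono hB1
      have hg'' := hg'.mono (Nat.le_succ _)
      have hC : s33f_Cong D (D.p * j) (algebraMap L₀ 𝓕 c₁) 1 := by
        have := hg''.mul₁ (hq1.inv₁ hpj1)
        rwa [mul_assoc, mul_inv_cancel₀ hpow0, mul_one] at this
      have hsum := s33f_lead_mul hpj1 hC hq1
      rw [s33f_lead_of_cong_succ hg', hq2] at hsum
      obtain ⟨γ, hγ⟩ := s33f_lead_const_mem hC
      rw [hγ] at hsum
      -- `x̄ ^ p = - γ`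
      have hxp : s33f_redX D x ^ D.p = algebraMap κ Fb (-γ) := by
        rw [map_neg]
        exact eq_neg_of_add_eq_zero_right hsum.symm
      obtain ⟨d, hd, -⟩ := s33f_root_const hxp
      obtain ⟨ξ, rfl⟩ := D.resA_surjective d
      set Ξ : 𝓕 := algebraMap L₀ 𝓕 (ξ : L₀) with hΞ
      have hΞO : Ξ ∈ D.O := s33f_const_mem D ξ
      have hxΞ : s33f_Cong D 1 x Ξ := by
        rw [← s33f_redX_eq_iff hx hΞO, hd]
        exact (s33f_redX_const ξ).symm
      obtain ⟨x', hx', ex'⟩ := hxΞ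
      rw [pow_one] at ex'
      -- `1 + ϖ^j x = (1 + ϖ^j Ξ) (1 + ϖ^(j+1) x'')`
      have hu : s33f_Cong D 1 (1 + s33f_pi D ^ j * Ξ) 1 := (s33f_cong_one_add (a := j) hΞO).mono hj
      have hu0 : (1 + s33f_pi D ^ j * Ξ) ≠ 0 := s33f_ne_zero_of_cong_one le_rfl hu
      have huinv : (1 + s33f_pi D ^ j * Ξ)⁻¹ ∈ D.O := s33f_inv_mem_of_cong_one le_rfl hu
      set x'' : 𝓕 := x' * (1 + s33f_pi D ^ j * Ξ)⁻¹ with hx''
      have hx''O : x'' ∈ D.O := D.O.mul_mem _ _ hx' huinv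
      have hfac : 1 + s33f_pi D ^ j * x = (1 + s33f_pi D ^ j * Ξ) * (1 + s33f_pi D ^ (j + 1) * x'') := by
        have hx_eq : x = Ξ + s33f_pi D * x' := by rw [← ex']; ring
        rw [hx'', hx_eq, pow_succ]
        field_simp
        ring
      have hconst : (1 + s33f_pi D ^ j * Ξ) = algebraMap L₀ 𝓕 (1 + D.ϖ ^ j * (ξ : L₀)) := by
        rw [hΞ]
        unfold s33f_pi
        rw [map_add, map_one, map_mul, map_pow]
      have hrew : algebraMap L₀ 𝓕 c₁ * (1 + s33f_pi D ^ j * x) ^ D.p =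
          algebraMap L₀ 𝓕 (c₁ * (1 + D.ϖ ^ j * (ξ : L₀)) ^ D.p) *
            (1 + s33f_pi D ^ (j + 1) * x'') ^ D.p := by
        rw [hfac, mul_pow, hconst, map_mul, map_pow]; ring
      rw [hrew] at hg ⊢
      exact ih (j + 1) (by omega) (by omega) _ x'' hx''O hg

theorem s33f_kumLead : s33f_KumLead D := by
  intro a ha hns g hg hcong
  obtain ⟨c₁, x, hx, rfl⟩ := s33f_kum0_normalise hg (hcong.mono ha)
  exact s33f_kumLead_aux ha hns a 1 le_rfl (by omega) c₁ x hx hcong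

end Fermat.Agent.Lib.S33
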