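/-
P-AT-P programme (S33), brick [FO]: the outputs `s33f_MaxDepth` and `s33f_IIIAbstract` of `FOIface.lean`
from the contracts.  (owner: helper6)

* `s33f_maxDepth`     : `LeadConst` + `SuperCritical` ⇒ `MaxDepth`   (`Deepen` is a theorem of `FOCore`);
* `s33f_tau_raises`   : on sub-critical leading terms `τ` lands in `S_a` (so `τ` raises the depth);
* `s33f_crit_inj`     : at the critical depth `Φ ū ∈ S_a ⇒ ū ∈ S_a` (the `σ`-algebra);
* `s33f_IIIAbstract_of`: `LeadConst` + `SuperCritical` + `TP` ⇒ `IIIAbstract` (`KumLead` is a theorem).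
-/
import Fermat.Agent.Lib.S33.FOCore
import Fermat.Agent.Lib.FF.FFBasicPlace

set_option autoImplicit false
set_option linter.style.haveILetI false

noncomputable section

namespace Fermat.Agent.Lib.S33

open AlgebraicCurve Fermat.Agent.Lib.FF

variable {L₀ 𝓕 κ Fb : Type*} [Field L₀] [Field 𝓕] [Algebra L₀ 𝓕] [Field κ] [Field Fb] [Algebra κ Fb]
variable {D : s33f_Datum L₀ 𝓕 κ Fb}

theorem s33f_IsKum0.isKum {g : 𝓕} (hg : s33f_IsKum0 D g) : s33f_IsKum D g := by
  refine ⟨hg.ne_zero, fun Q => ?_⟩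
  obtain ⟨c, h, hc, hh, rfl⟩ := hg
  have hc' : algebraMap L₀ 𝓕 c ≠ 0 := by simpa using hc
  rw [Q.ord_mul hc' (pow_ne_zero _ hh), ff_ord_algebraMap, zero_add, ← zpow_natCast, Q.ord_zpow]
  exact dvd_mul_right _ _

theorem s33f_IsKum.mul {f g : 𝓕} (hf : s33f_IsKum D f) (hg : s33f_IsKum D g) :
    s33f_IsKum D (f * g) := by
  refine ⟨mul_ne_zero hf.1 hg.1, fun Q => ?_⟩
  rw [Q.ord_mul hf.1 hg.1]
  exact dvd_add (hf.2 Q) (hg.2 Q)

/-- `𝒢⁰` is "saturated": `g ∈ 𝒢⁰`, `g f ∈ 𝒢⁰` ⇒ `f ∈ 𝒢⁰`. -/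
theorem s33f_isKum0_of_mul {f g : 𝓕} (hg : s33f_IsKum0 D g) (hgf : s33f_IsKum0 D (g * f)) :
    s33f_IsKum0 D f := by
  have := hg.inv.mul hgf
  rwa [← mul_assoc, inv_mul_cancel₀ hg.ne_zero, one_mul] at this

/-- a critical exponent is divisible by `p`. -/
theorem s33f_dvd_of_crit {a : ℕ} (h : s33f_Crit D a) : D.p ∣ a := by
  unfold s33f_Crit at h
  have hp := D.p_prime
  have h1 : D.p ∣ (D.p - 1) * a := ⟨D.e, h⟩
  rcases (Nat.Prime.dvd_mul hp).mp h1 with h2 | h2
  · exfalso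
    have := Nat.le_of_dvd (by have := hp.two_le; omega) h2
    have := hp.two_le
    omega
  · exact h2

/-- **maximal depth** from the contracts. -/
theorem s33f_maxDepth (hLC : s33f_LeadConst D) (hSC : s33f_SuperCritical D) : s33f_MaxDepth D := by
  intro f hf hd hnot
  have hp := D.p_prime
  have key : ∀ n a : ℕ, 1 ≤ a → D.p * D.e + 1 ≤ a + n →
      (∃ g : 𝓕, s33f_IsKum0 D g ∧ s33f_Cong D a (g * f) 1) →
      ∃ (a : ℕ) (g : 𝓕), 1 ≤ a ∧ D.p ∣ a ∧ ¬ s33f_SuperCrit D a ∧ s33f_IsKum0 D g ∧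
        s33f_Cong D a (g * f) 1 ∧ s33f_lead D a (g * f) ∉ s33f_S D a := by
    intro n
    induction n with
    | zero =>
      rintro a ha hB ⟨g, hg, hcong⟩
      exfalso
      apply hnot
      have hsc : s33f_SuperCrit D a := by
        unfold s33f_SuperCrit
        have h1 : 1 ≤ D.p - 1 := by have := hp.two_le; omega
        calc D.p * D.e < a := by omega
          _ = 1 * a := (one_mul a).symm
          _ ≤ (D.p - 1) * a := Nat.mul_le_mul_right a h1
      exact s33f_isKum0_of_mul hg (hSC a hsc (g * f) (hg.isKum.mul hf) hcong)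
    | succ n ih =>
      rintro a ha hB ⟨g, hg, hcong⟩
      by_cases hsc : s33f_SuperCrit D a
      · exfalso
        exact hnot (s33f_isKum0_of_mul hg (hSC a hsc (g * f) (hg.isKum.mul hf) hcong))
      by_cases hS : s33f_lead D a (g * f) ∈ s33f_S D a
      · obtain ⟨g', hg', -, hcong'⟩ := s33f_deepen a ha hsc (g * f) hcong hS
        refine ih (a + 1) (by omega) (by omega) ⟨g' * g, hg'.mul hg, ?_⟩
        rwa [mul_assoc]
      · refine ⟨a, g, ha, ?_, hsc, hg, hcong, hS⟩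
        by_contra hpa
        apply hS
        have hsub : s33f_SubCrit D a := by
          unfold s33f_SubCrit
          unfold s33f_SuperCrit at hsc
          rcases Nat.lt_or_ge ((D.p - 1) * a) (D.p * D.e) with h | h
          · exact h
          · exfalso
            exact hpa (s33f_dvd_of_crit (le_antisymm (not_lt.mp hsc) h))
        obtain ⟨c, hc⟩ := hLC a ha hsub hpa (g * f) (hg.isKum.mul hf) hcong
        rw [hc]
        exact s33f_mem_S_const c
  obtain ⟨g, hg, hcong⟩ := hd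
  exact key (D.p * D.e + 1) 1 le_rfl (by omega) ⟨g, hg, hcong⟩

/-! ### the action of `τ` on leading terms -/

variable (T : s33f_TPData D)

theorem s33f_tau_isKum0 {g : 𝓕} (hg : s33f_IsKum0 D g) : s33f_IsKum0 D (T.τ g) := by
  obtain ⟨c, h, hc, hh, rfl⟩ := hg
  refine ⟨c ^ (D.p + 1), T.τ h, pow_ne_zero _ hc, T.τ_ne_zero h hh, ?_⟩
  rw [map_mul, map_pow, T.τ_const]

/-- `Φ x` is a `p`-th power. -/
theorem s33f_Phi_eq_pow (x : Fb) : T.Φ x = (T.σ.symm x) ^ D.p := by
  apply T.σ.injective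
  rw [T.σ_Φ, map_pow, RingEquiv.apply_symm_apply]

/-- on a sub-critical depth divisible by `p`, `Φ` maps every leading term into `S_a`:
**`τ` raises sub-critical depth**. -/
theorem s33f_tau_raises {a : ℕ} (hpa : D.p ∣ a) (hnc : ¬ s33f_Crit D a) (u : Fb) :
    T.Φ u ∈ s33f_S D a := by
  refine ⟨0, T.σ.symm u, ?_, fun h => (h hpa).elim⟩
  unfold s33f_phi
  rw [if_neg hnc, map_zero, zero_add, s33f_Phi_eq_pow]

/-- at the critical depth `Φ ū ∈ S_a ⇒ ū ∈ S_a`: **`τ` is injective on the critical graded piece**. -/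
theorem s33f_crit_inj {a : ℕ} (hc : s33f_Crit D a) {u : Fb} (h : T.Φ u ∈ s33f_S D a) :
    u ∈ s33f_S D a := by
  haveI : Fact D.p.Prime := ⟨D.p_prime⟩
  haveI : CharP Fb D.p := s33f_charP_Fb D
  obtain ⟨l, γ, e, -⟩ := h
  unfold s33f_phi at e
  rw [if_pos hc] at e
  have hε0 : algebraMap κ Fb (s33f_epsBar D) ≠ 0 := by
    rw [Ne, map_eq_zero_iff _ (algebraMap κ Fb).injective]
    exact s33f_epsBar_ne_zero
  -- apply σ
  have e2 : u ^ D.p = algebraMap κ Fb (l ^ D.p) + (T.σ γ) ^ D.p +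
      algebraMap κ Fb (s33f_epsBar D ^ D.p) * T.σ γ := by
    have := congrArg T.σ e
    rw [T.σ_Φ, map_add, map_add, map_mul, map_pow, T.σ_const, T.σ_const] at this
    rw [this]; ring
  set δ : Fb := (u - algebraMap κ Fb l - T.σ γ) / algebraMap κ Fb (s33f_epsBar D) with hδ
  have h1 : T.σ γ = δ ^ D.p := by
    rw [hδ, div_pow, sub_pow_char, sub_pow_char, e2, eq_div_iff (pow_ne_zero _ hε0), map_pow,
      map_pow]
    ring
  refine ⟨l, δ, ?_, fun h => (h (s33f_dvd_of_crit hc)).elim⟩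
  unfold s33f_phi
  rw [if_pos hc, ← h1, hδ, mul_div_cancel₀ _ hε0]
  ring

/-- **(III), abstract form**, from the contracts. -/
theorem s33f_IIIAbstract_of (hLC : s33f_LeadConst D) (hSC : s33f_SuperCritical D)
    (hTP : s33f_TP D T) : s33f_IIIAbstract D T := by
  intro he f hf hd hτ
  by_contra hnot
  have hp := D.p_prime
  obtain ⟨a, g, ha, hpa, hns, hg, hcong, hlead⟩ := s33f_maxDepth hLC hSC f hf hd hnot
  -- `a` is critical
  have hcrit : s33f_Crit D a := by
    obtain ⟨m, rfl⟩ := hpa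
    unfold s33f_SuperCrit at hns
    unfold s33f_Crit
    rw [not_lt, he] at hns
    rw [he]
    have hm : 1 ≤ m := by
      rcases Nat.eq_zero_or_pos m with rfl | hm
      · simp at ha
      · exact hm
    have h1 : (D.p - 1) * (D.p * m) = D.p * (D.p - 1) * m := by ring
    rw [h1] at hns ⊢
    have hpos : 0 < D.p * (D.p - 1) := Nat.mul_pos hp.pos (by have := hp.two_le; omega)
    have hm1 : m ≤ 1 := by
      by_contra hlt
      rw [not_le] at hlt
      have : D.p * (D.p - 1) * 2 ≤ D.p * (D.p - 1) * m := Nat.mul_le_mul_left _ hlt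
      omega
    have : m = 1 := le_antisymm hm1 hm
    rw [this, mul_one]
  -- `τ (g f) ∈ 𝒢⁰ ∩ (1 + ϖ^a O)`
  have hτgf : s33f_IsKum0 D (T.τ (g * f)) := by
    rw [map_mul]
    exact (s33f_tau_isKum0 T hg).mul hτ
  obtain ⟨hcong', hlead'⟩ := hTP.2 a ha (g * f) hcong
  have hS := s33f_kumLead a ha hns (T.τ (g * f)) hτgf hcong'
  rw [hlead'] at hS
  exact hlead (s33f_crit_inj T hcrit hS)

end Fermat.Agent.Lib.S33
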