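/-
P-AT-P programme (S33), brick [LT-omega] (helper4): **the Kummer-side (MU-abstract)** in the vocabulary of
helper6's `FOIface` — on the `T_p`-divisible part of the kernel of reduction the inertia group acts
EXACTLY through the mod-`p` cyclotomic character.  Arbitrary ramification `e` (wild allowed).

* `s33f_GalAut D` : one automorphism "of inertia type" of the datum: `s : 𝓕 ≃+* 𝓕`, `s₀ : L₀ ≃+* L₀`
  compatible, `s O ⊆ O`, **`red ∘ s = red`**, `s₀ ϖ = ϖ w` with `w ∈ A₀`; `θ := resA w`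
  (`s 𝒢 ⊆ 𝒢` is automatic: a semilinear automorphism permutes the places, `s33f_GalAut.s_kum`).
* `s33f_gal_lead` : `f ≡ 1 mod ϖ ^ a ⇒ s f ≡ 1 mod ϖ ^ a` and `lead_a (s f) = θ ^ a · lead_a f`.
* `s33f_crit_mu`  : `a` critical, `f ∈ 𝒢`, `f ≡ 1 mod ϖ ^ a`, `θ ^ a = n̄` ⇒ `s f / f ^ n ∈ 𝒢⁰`
  (from `SuperCritical`).
* `s33f_tau_depth_succ`, `s33f_tau_iter_depth` : `τ` raises every sub-critical depth by at least one
  (from `LeadConst`, `TP`; `Deepen` and `tau_raises` are helper6's theorems).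
* `s33f_muAbstract` : **(MU-abstract)**: `f ∈ 𝒢` in the class of `τ ^ (a_c - 1) f'`, `f' ∈ 𝒢` of depth `≥ 1`
  ⇒ `s f / f ^ n ∈ 𝒢⁰`.
* `s33f_theta_pow` : [FO-GAL-arith]: `ζ ∈ L₀` a primitive `p`-th root of unity with `s₀ ζ = ζ ^ n` ⇒
  `θ ^ a_c = n̄` in `κ` (`1 - ζ = ϖ ^ (e/(p-1)) · unit`; inertia is trivial on `κ`).
-/
import Fermat.Agent.Lib.S33.FOOut
import Fermat.Prelude.Def_AlgebraicCurve_BaseChangeGalois

set_option autoImplicit false
set_option linter.style.haveILetI false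

noncomputable section

namespace Fermat.Agent.Lib.S33

open AlgebraicCurve Fermat.Agent.Lib.FF

variable {L₀ 𝓕 κ Fb : Type*} [Field L₀] [Field 𝓕] [Algebra L₀ 𝓕] [Field κ] [Field Fb] [Algebra κ Fb]

/-- **An automorphism of inertia type** of the arithmetic-surface datum. -/
structure s33f_GalAut (D : s33f_Datum L₀ 𝓕 κ Fb) where
  /-- the (coefficientwise) action on the function field -/
  s : 𝓕 ≃+* 𝓕
  /-- the action on the constants -/
  s₀ : L₀ ≃+* L₀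
  s_const : ∀ c : L₀, s (algebraMap L₀ 𝓕 c) = algebraMap L₀ 𝓕 (s₀ c)
  s_mem : ∀ x : 𝓕, x ∈ D.O → s x ∈ D.O
  /-- inertia: trivial action on the residue function field -/
  s_red : ∀ (x : 𝓕) (hx : x ∈ D.O), D.red ⟨s x, s_mem x hx⟩ = D.red ⟨x, hx⟩
  /-- `w = s₀ ϖ / ϖ` -/
  w : L₀
  w_mem : w ∈ D.A₀
  s_unif : s₀ D.ϖ = D.ϖ * w

variable {D : s33f_Datum L₀ 𝓕 κ Fb}

/-- the underlying semilinear automorphism. -/
def s33f_GalAut.semi (G : s33f_GalAut D) : SemilinearAut L₀ 𝓕 :=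
  ⟨(G.s, G.s₀), G.s_const⟩

/-- a semilinear automorphism permutes the places of the generic fibre, hence preserves `𝒢`. -/
theorem s33f_GalAut.s_kum (G : s33f_GalAut D) (f : 𝓕) (hf : s33f_IsKum D f) :
    s33f_IsKum D (G.s f) := by
  refine ⟨(map_ne_zero_iff _ G.s.injective).mpr hf.1, fun Q => ?_⟩
  have h := SemilinearAut.ord_smul G.semi (G.semi⁻¹ • Q) f
  rw [smul_inv_smul] at h
  have h2 : G.semi • f = G.s f := rfl
  rw [h2] at h
  rw [h]
  exact hf.2 _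

/-- the tame character value `θ = (s₀ ϖ / ϖ mod ϖ) ∈ κ`. -/
def s33f_theta (G : s33f_GalAut D) : κ := D.resA ⟨G.w, G.w_mem⟩

theorem s33f_gal_redX (G : s33f_GalAut D) {x : 𝓕} (hx : x ∈ D.O) :
    s33f_redX D (G.s x) = s33f_redX D x := by
  rw [s33f_redX_of_mem D (G.s_mem x hx), s33f_redX_of_mem D hx]
  exact G.s_red x hx

theorem s33f_gal_pi (G : s33f_GalAut D) : G.s (s33f_pi D) = s33f_pi D * algebraMap L₀ 𝓕 G.w := by
  unfold s33f_pi
  rw [G.s_const, G.s_unif, map_mul]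

/-- **inertia on leading terms**: `lead_a (s f) = θ ^ a · lead_a f`. -/
theorem s33f_gal_lead (G : s33f_GalAut D) {a : ℕ} {f : 𝓕} (h : s33f_Cong D a f 1) :
    s33f_Cong D a (G.s f) 1 ∧
      s33f_lead D a (G.s f) = algebraMap κ Fb (s33f_theta G ^ a) * s33f_lead D a f := by
  obtain ⟨z, hz, rfl, e⟩ := h.exists_eq
  have hw : algebraMap L₀ 𝓕 G.w ∈ D.O := s33f_const_mem D ⟨G.w, G.w_mem⟩
  have hsz : G.s z ∈ D.O := G.s_mem z hz
  have e1 : G.s (1 + s33f_pi D ^ a * z) =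
      1 + s33f_pi D ^ a * (algebraMap L₀ 𝓕 G.w ^ a * G.s z) := by
    rw [map_add, map_one, map_mul, map_pow, s33f_gal_pi, mul_pow]; ring
  have hmem : algebraMap L₀ 𝓕 G.w ^ a * G.s z ∈ D.O := D.O.mul_mem _ _ (D.O.pow_mem hw a) hsz
  refine ⟨by rw [e1]; exact s33f_cong_one_add hmem, ?_⟩
  rw [e1, s33f_lead_one_add, e, s33f_redX_mul (D.O.pow_mem hw a) hsz, s33f_redX_pow hw,
    s33f_gal_redX G hz, map_pow]
  congr 2
  exact s33f_redX_const (D := D) ⟨G.w, G.w_mem⟩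

theorem s33f_gal_isKum0 (G : s33f_GalAut D) {g : 𝓕} (hg : s33f_IsKum0 D g) :
    s33f_IsKum0 D (G.s g) := by
  obtain ⟨c, h, hc, hh, rfl⟩ := hg
  refine ⟨G.s₀ c, G.s h, (map_ne_zero_iff _ G.s₀.injective).mpr hc,
    (map_ne_zero_iff _ G.s.injective).mpr hh, ?_⟩
  rw [map_mul, map_pow, G.s_const]

/-! ### more closure properties of `𝒢` and `𝒢⁰` -/

theorem s33f_IsKum.inv {f : 𝓕} (hf : s33f_IsKum D f) : s33f_IsKum D f⁻¹ := by
  refine ⟨inv_ne_zero hf.1, fun Q => ?_⟩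
  rw [Q.ord_inv]
  exact (dvd_neg).mpr (hf.2 Q)

theorem s33f_isKum_one : s33f_IsKum D (1 : 𝓕) := s33f_isKum0_one.isKum

theorem s33f_IsKum.pow {f : 𝓕} (hf : s33f_IsKum D f) (n : ℕ) : s33f_IsKum D (f ^ n) := by
  induction n with
  | zero => rw [pow_zero]; exact s33f_isKum_one
  | succ n ih => rw [pow_succ]; exact ih.mul hf

theorem s33f_IsKum0.pow {f : 𝓕} (hf : s33f_IsKum0 D f) (n : ℕ) : s33f_IsKum0 D (f ^ n) := by
  induction n with
  | zero => rw [pow_zero]; exact s33f_isKum0_one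
  | succ n ih => rw [pow_succ]; exact ih.mul hf

/-- leading term of a power. -/
theorem s33f_lead_npow {a : ℕ} (ha : 1 ≤ a) {f : 𝓕} (h : s33f_Cong D a f 1) (n : ℕ) :
    s33f_lead D a (f ^ n) = (n : Fb) * s33f_lead D a f := by
  induction n with
  | zero => rw [pow_zero, s33f_lead_one, Nat.cast_zero, zero_mul]
  | succ n ih =>
    rw [pow_succ, s33f_lead_mul ha (h.pow₁ n) h, ih, Nat.cast_succ]; ring

/-! ### the critical piece is of `μ`-type -/

/-- a critical exponent plus one is super-critical. -/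
theorem s33f_superCrit_succ_of_crit {a : ℕ} (h : s33f_Crit D a) : s33f_SuperCrit D (a + 1) := by
  unfold s33f_Crit at h
  unfold s33f_SuperCrit
  have hp := D.p_prime.two_le
  rw [Nat.mul_succ, h]
  omega

/-- **the critical piece is of `μ`-type**: if `f ∈ 𝒢`, `f ≡ 1 mod ϖ ^ a` with `a` critical and
`θ ^ a = n̄`, then `s f / f ^ n ∈ 𝒢⁰`. -/
theorem s33f_crit_mu (hSC : s33f_SuperCritical D) (G : s33f_GalAut D) {a : ℕ} (ha : 1 ≤ a)
    (hcrit : s33f_Crit D a) {f : 𝓕} (hf : s33f_IsKum D f) (hc : s33f_Cong D a f 1) (n : ℕ)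
    (hn : s33f_theta G ^ a = (n : κ)) : s33f_IsKum0 D (G.s f * (f ^ n)⁻¹) := by
  obtain ⟨hc1, hl1⟩ := s33f_gal_lead G hc
  have hc2 : s33f_Cong D a (f ^ n)⁻¹ 1 := (hc.pow₁ n).inv₁ ha
  have hc3 : s33f_Cong D a (G.s f * (f ^ n)⁻¹) 1 := hc1.mul₁ hc2
  have hl : s33f_lead D a (G.s f * (f ^ n)⁻¹) = 0 := by
    rw [s33f_lead_mul ha hc1 hc2, hl1, s33f_lead_inv ha (hc.pow₁ n), s33f_lead_npow ha hc, hn,
      map_natCast]
    ring
  have hc4 : s33f_Cong D (a + 1) (G.s f * (f ^ n)⁻¹) 1 := (s33f_lead_eq_zero_iff hc3).mp hl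
  exact hSC (a + 1) (s33f_superCrit_succ_of_crit hcrit) _ ((G.s_kum f hf).mul (hf.pow n).inv) hc4

/-! ### `τ` raises the sub-critical depths -/

variable (T : s33f_TPData D)

theorem s33f_depthGE_mono {a b : ℕ} (hab : a ≤ b) {f : 𝓕} (h : s33f_DepthGE D b f) :
    s33f_DepthGE D a f := by
  obtain ⟨g, hg, hc⟩ := h
  exact ⟨g, hg, hc.mono hab⟩

/-- `τ` does not lower the depth. -/
theorem s33f_tau_depth (hTP : s33f_TP D T) {a : ℕ} (ha : 1 ≤ a) {f : 𝓕}
    (hd : s33f_DepthGE D a f) : s33f_DepthGE D a (T.τ f) := by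
  obtain ⟨g, hg, hc⟩ := hd
  refine ⟨T.τ g, s33f_tau_isKum0 T hg, ?_⟩
  rw [← map_mul]
  exact (hTP.2 a ha (g * f) hc).1

/-- **`τ` raises a sub-critical depth by at least one.** -/
theorem s33f_tau_depth_succ (hLC : s33f_LeadConst D) (hTP : s33f_TP D T) {a : ℕ} (ha : 1 ≤ a)
    (hsub : s33f_SubCrit D a) {f : 𝓕} (hf : s33f_IsKum D f) (hd : s33f_DepthGE D a f) :
    s33f_DepthGE D (a + 1) (T.τ f) := by
  obtain ⟨g, hg, hc⟩ := hd
  have hns : ¬ s33f_SuperCrit D a := by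
    unfold s33f_SuperCrit
    unfold s33f_SubCrit at hsub
    omega
  have hnc : ¬ s33f_Crit D a := by
    unfold s33f_Crit
    unfold s33f_SubCrit at hsub
    omega
  obtain ⟨hc', hl'⟩ := hTP.2 a ha (g * f) hc
  have hkum : s33f_IsKum D (T.τ (g * f)) := hTP.1 _ (hg.isKum.mul hf)
  have hS : s33f_lead D a (T.τ (g * f)) ∈ s33f_S D a := by
    by_cases hpa : D.p ∣ a
    · rw [hl']
      exact s33f_tau_raises T hpa hnc _
    · obtain ⟨c, hc0⟩ := hLC a ha hsub hpa _ hkum hc'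
      rw [hc0]
      exact s33f_mem_S_const c
  obtain ⟨g', hg', -, hc''⟩ := s33f_deepen a ha hns _ hc' hS
  refine ⟨g' * T.τ g, hg'.mul (s33f_tau_isKum0 T hg), ?_⟩
  rw [mul_assoc, ← map_mul]
  exact hc''

/-- iterating: `τ ^ j` maps depth `≥ 1` to depth `≥ min (1 + j) ac` when all `a < ac` are sub-critical. -/
theorem s33f_tau_iter_depth (hLC : s33f_LeadConst D) (hTP : s33f_TP D T) {ac : ℕ} (hac : 1 ≤ ac)
    (hsub : ∀ a, 1 ≤ a → a < ac → s33f_SubCrit D a) (j : ℕ) {f : 𝓕} (hf : s33f_IsKum D f)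
    (hd : s33f_DepthGE D 1 f) :
    s33f_IsKum D ((T.τ)^[j] f) ∧ s33f_DepthGE D (min (1 + j) ac) ((T.τ)^[j] f) := by
  induction j with
  | zero =>
    have : min (1 + 0) ac = 1 := by rw [add_zero]; exact min_eq_left hac
    rw [this]
    exact ⟨hf, hd⟩
  | succ j ih =>
    obtain ⟨ih1, ih2⟩ := ih
    rw [Function.iterate_succ_apply']
    refine ⟨hTP.1 _ ih1, ?_⟩
    by_cases hj : 1 + j < ac
    · have e1 : min (1 + j) ac = 1 + j := min_eq_left hj.le
      have e2 : min (1 + (j + 1)) ac = 1 + j + 1 := by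
        rw [← add_assoc]; exact min_eq_left hj
      rw [e1] at ih2
      rw [e2]
      exact s33f_tau_depth_succ T hLC hTP (by omega) (hsub _ (by omega) hj) ih1 ih2
    · push Not at hj
      have e1 : min (1 + j) ac = ac := min_eq_right hj
      have e2 : min (1 + (j + 1)) ac = ac := min_eq_right (by omega)
      rw [e1] at ih2
      rw [e2]
      exact s33f_tau_depth T hTP hac ih2

/-- below a critical exponent everything is sub-critical. -/
theorem s33f_subCrit_of_lt_crit {ac : ℕ} (hcrit : s33f_Crit D ac) {a : ℕ} (h : a < ac) :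
    s33f_SubCrit D a := by
  unfold s33f_Crit at hcrit
  unfold s33f_SubCrit
  rw [← hcrit]
  have hp := D.p_prime.two_le
  exact Nat.mul_lt_mul_of_pos_left h (by omega)

/-- **(MU-abstract)**: if `f ∈ 𝒢` lies in the class of `τ ^ (ac - 1) f'` with `f' ∈ 𝒢` of depth `≥ 1`
(`ac` the critical exponent) and `θ ^ ac = n̄`, then `s f / f ^ n ∈ 𝒢⁰`: the automorphism `s` acts on
the class of `f` as multiplication by `n`. -/
theorem s33f_muAbstract (hLC : s33f_LeadConst D) (hSC : s33f_SuperCritical D) (hTP : s33f_TP D T)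
    (G : s33f_GalAut D) {ac : ℕ} (hac : 1 ≤ ac) (hcrit : s33f_Crit D ac) (n : ℕ)
    (hn : s33f_theta G ^ ac = (n : κ)) {f f' : 𝓕} (hf' : s33f_IsKum D f')
    (hd : s33f_DepthGE D 1 f') (hcls : s33f_IsKum0 D (f * ((T.τ)^[ac - 1] f')⁻¹)) :
    s33f_IsKum0 D (G.s f * (f ^ n)⁻¹) := by
  obtain ⟨hk, hdep⟩ := s33f_tau_iter_depth T hLC hTP hac
    (fun a _ h => s33f_subCrit_of_lt_crit hcrit h) (ac - 1) hf' hd
  have e : min (1 + (ac - 1)) ac = ac := by
    rw [show 1 + (ac - 1) = ac by omega]; exact min_self _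
  rw [e] at hdep
  obtain ⟨g, hg, hc⟩ := hdep
  set t := (T.τ)^[ac - 1] f' with ht
  have ht0 : t ≠ 0 := hk.1
  -- the critical representative
  have h1 := s33f_crit_mu hSC G hac hcrit (hg.isKum.mul hk) hc n hn
  -- `f = k' * (g * t)` with `k' ∈ 𝒢⁰`
  set k' := f * t⁻¹ * g⁻¹ with hk'
  have hk'0 : s33f_IsKum0 D k' := hcls.mul hg.inv
  have hf_eq : f = k' * (g * t) := by
    rw [hk']
    field_simp [ht0, hg.ne_zero]
  have h2 : G.s f * (f ^ n)⁻¹ =
      (G.s k' * (k' ^ n)⁻¹) * (G.s (g * t) * ((g * t) ^ n)⁻¹) := by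
    conv_lhs => rw [hf_eq]
    rw [map_mul, mul_pow, mul_inv]
    ring
  rw [h2]
  exact ((s33f_gal_isKum0 G hk'0).mul (hk'0.pow n).inv).mul h1

end Fermat.Agent.Lib.S33
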