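/-
P-AT-P programme (S33), brick [LT-omega] (helper4), part 2: **[FO-GAL-arith]** and the final form of
(MU-abstract).

* `s33f_resA_eq_zero_iff`, `s33f_A0_unif`, `s33f_unif_exp_le`, `s33f_inv_mem_of_resA_ne_zero` : `A₀` is a
  discrete valuation ring with uniformiser `ϖ` and residue map `resA` (from the `O`-statements of the datum);
* `s33f_gal_resA` : an automorphism of inertia type acts trivially on the residue field of constants;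
* `s33f_one_sub_zeta` : for a primitive `p`-th root of unity `ζ ∈ L₀`: `1 - ζ = ϖ ^ k · unit`, `e = k (p - 1)`
  (from `∏_{0<i<p} (1 - ζ ^ i) = p`), hence `s33f_exists_crit_of_zeta` : the critical exponent `p k` exists;
* `s33f_theta_pow` : `s₀ ζ = ζ ^ n ⇒ θ ^ ac = n̄`;
* **`s33f_muAbstract_zeta`** : `LeadConst` + `SuperCritical` + `TP` ⇒ for `f ∈ 𝒢` whose class is `τ ^ j`-divisible
  inside the depth-`≥ 1` classes for every `j`: `s f / f ^ n ∈ 𝒢⁰` (inertia acts through the cyclotomic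
  character on the `T_p`-ordinary part of the kernel of reduction).
-/
import Fermat.Agent.Lib.S33.FOMu

set_option autoImplicit false
set_option linter.style.haveILetI false

noncomputable section

namespace Fermat.Agent.Lib.S33

open AlgebraicCurve Fermat.Agent.Lib.FF

variable {L₀ 𝓕 κ Fb : Type*} [Field L₀] [Field 𝓕] [Algebra L₀ 𝓕] [Field κ] [Field Fb] [Algebra κ Fb]
variable (D : s33f_Datum L₀ 𝓕 κ Fb)

/-- the kernel of `resA` is `ϖ A₀`. -/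
theorem s33f_resA_eq_zero_iff (x : D.A₀) :
    D.resA x = 0 ↔ ∃ y : D.A₀, x = ⟨D.ϖ, D.ϖ_mem⟩ * y := by
  have h1 := s33f_redX_const (D := D) x
  constructor
  · intro h
    rw [h, map_zero, s33f_redX_eq_zero_iff (s33f_const_mem D x)] at h1
    obtain ⟨z, hz, e⟩ := h1
    rw [sub_zero, pow_one] at e
    have hz' : z = algebraMap L₀ 𝓕 ((x : L₀) / D.ϖ) := by
      rw [map_div₀, e]
      unfold s33f_pi
      rw [mul_div_cancel_left₀ _ ((map_ne_zero_iff _ (algebraMap L₀ 𝓕).injective).mpr D.ϖ_ne_zero)]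
    have hy : (x : L₀) / D.ϖ ∈ D.A₀ := (D.const_mem_iff _).mp (hz' ▸ hz)
    refine ⟨⟨_, hy⟩, Subtype.ext ?_⟩
    push_cast
    rw [mul_div_cancel₀ _ D.ϖ_ne_zero]
  · rintro ⟨y, rfl⟩
    rw [map_mul, s33f_resA_unif, zero_mul]

/-- `ϖ` is a uniformiser of `A₀`. -/
theorem s33f_A0_unif {u : L₀} (hu : u ∈ D.A₀) (hu0 : u ≠ 0) :
    ∃ (k : ℕ) (v : L₀), v ∈ D.A₀ ∧ v⁻¹ ∈ D.A₀ ∧ u = D.ϖ ^ k * v := by
  have hu' : algebraMap L₀ 𝓕 u ≠ 0 := (map_ne_zero_iff _ (algebraMap L₀ 𝓕).injective).mpr hu0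
  obtain ⟨k, v', hv', hv'inv, e⟩ := D.unif _ ((D.const_mem_iff u).mpr hu) hu'
  have hπ : algebraMap L₀ 𝓕 D.ϖ ^ k ≠ 0 :=
    pow_ne_zero _ ((map_ne_zero_iff _ (algebraMap L₀ 𝓕).injective).mpr D.ϖ_ne_zero)
  have hv : v' = algebraMap L₀ 𝓕 (u / D.ϖ ^ k) := by
    rw [map_div₀, map_pow, e, mul_div_cancel_left₀ _ hπ]
  refine ⟨k, u / D.ϖ ^ k, (D.const_mem_iff _).mp (hv ▸ hv'), ?_, ?_⟩
  · apply (D.const_mem_iff _).mp
    rw [map_inv₀, ← hv]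
    exact hv'inv
  · rw [mul_div_cancel₀ _ (pow_ne_zero _ D.ϖ_ne_zero)]

theorem s33f_unif_inv_not_mem : D.ϖ⁻¹ ∉ D.A₀ := by
  intro h
  apply D.ϖ_not_unit
  rw [← map_inv₀]
  exact (D.const_mem_iff _).mpr h

/-- uniqueness of the `ϖ`-exponent. -/
theorem s33f_unif_exp_le {k l : ℕ} {v v' : L₀} (hv : v ∈ D.A₀) (hvinv : v⁻¹ ∈ D.A₀)
    (hv' : v' ∈ D.A₀) (hv'0 : v' ≠ 0) (h : D.ϖ ^ k * v = D.ϖ ^ l * v') : l ≤ k := by
  by_contra hlt
  push Not at hlt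
  obtain ⟨d, rfl⟩ : ∃ d, l = k + (d + 1) := ⟨l - k - 1, by omega⟩
  apply s33f_unif_inv_not_mem D
  have hv0 : v ≠ 0 := by
    rintro rfl
    rw [inv_zero] at hvinv
    rw [mul_zero] at h
    exact (mul_ne_zero (pow_ne_zero _ D.ϖ_ne_zero) hv'0) h.symm
  have e : D.ϖ⁻¹ = D.ϖ ^ d * v' * v⁻¹ := by
    have hk : D.ϖ ^ k ≠ 0 := pow_ne_zero _ D.ϖ_ne_zero
    have h2 : v = D.ϖ ^ (d + 1) * v' := by
      have : D.ϖ ^ k * v = D.ϖ ^ k * (D.ϖ ^ (d + 1) * v') := by rw [h, pow_add]; ring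
      exact mul_left_cancel₀ hk this
    have hϖd : D.ϖ ^ d ≠ 0 := pow_ne_zero _ D.ϖ_ne_zero
    have hϖ := D.ϖ_ne_zero
    rw [h2, pow_succ]
    field_simp
  rw [e]
  exact D.A₀.mul_mem _ _ (D.A₀.mul_mem _ _ (D.A₀.pow_mem D.ϖ_mem d) hv') hvinv

/-- an element of `A₀` with non-zero residue is a unit. -/
theorem s33f_inv_mem_of_resA_ne_zero (x : D.A₀) (h : D.resA x ≠ 0) : (x : L₀)⁻¹ ∈ D.A₀ := by
  have hx0 : (x : L₀) ≠ 0 := by
    intro h0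
    apply h
    have : x = 0 := Subtype.ext h0
    rw [this, map_zero]
  obtain ⟨k, v, hv, hvinv, e⟩ := s33f_A0_unif D x.2 hx0
  rcases Nat.eq_zero_or_pos k with rfl | hk
  · rw [pow_zero, one_mul] at e
    rw [e]; exact hvinv
  · exfalso
    apply h
    rw [s33f_resA_eq_zero_iff]
    refine ⟨⟨D.ϖ ^ (k - 1) * v, D.A₀.mul_mem _ _ (D.A₀.pow_mem D.ϖ_mem _) hv⟩, Subtype.ext ?_⟩
    push_cast
    rw [e, ← mul_assoc, ← pow_succ', Nat.sub_add_cancel hk]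

variable {D}

/-- inertia acts trivially on the residue field of constants. -/
theorem s33f_gal_resA (G : s33f_GalAut D) (x : D.A₀) :
    ∃ h : G.s₀ (x : L₀) ∈ D.A₀, D.resA ⟨G.s₀ (x : L₀), h⟩ = D.resA x := by
  have hmem : G.s₀ (x : L₀) ∈ D.A₀ := by
    apply (D.const_mem_iff _).mp
    rw [← G.s_const]
    exact G.s_mem _ (s33f_const_mem D x)
  refine ⟨hmem, ?_⟩
  apply (algebraMap κ Fb).injective
  rw [← s33f_redX_const (D := D) ⟨_, hmem⟩, ← s33f_redX_const (D := D) x]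
  show s33f_redX D (algebraMap L₀ 𝓕 (G.s₀ (x : L₀))) = _
  rw [← G.s_const]
  exact s33f_gal_redX G (s33f_const_mem D x)

/-- a `p`-th root of unity of `L₀` lies in `A₀`. -/
theorem s33f_zeta_mem {ζ : L₀} (hζp : ζ ^ D.p = 1) : ζ ∈ D.A₀ := by
  have hp := D.p_prime
  rcases D.A₀.mem_or_inv_mem ζ with h | h
  · exact h
  · have : ζ = ζ⁻¹ ^ (D.p - 1) := by
      have h1 : ζ ^ (D.p - 1) * ζ = 1 := by rw [← pow_succ, Nat.sub_add_cancel hp.pos, hζp]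
      rw [inv_pow]
      exact eq_inv_of_mul_eq_one_right h1
    rw [this]; exact D.A₀.pow_mem h _

/-- a `p`-th root of unity reduces to `1`. -/
theorem s33f_resA_zeta {ζ : L₀} (hζp : ζ ^ D.p = 1) :
    D.resA ⟨ζ, s33f_zeta_mem hζp⟩ = 1 := by
  have hp := D.p_prime
  haveI : Fact D.p.Prime := ⟨hp⟩
  haveI : CharP κ D.p := s33f_charP_κ D
  have h1 : (D.resA ⟨ζ, s33f_zeta_mem hζp⟩) ^ D.p = 1 := by
    rw [← map_pow]
    have : (⟨ζ, s33f_zeta_mem hζp⟩ : D.A₀) ^ D.p = 1 := Subtype.ext (by push_cast; exact hζp)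
    rw [this, map_one]
  have h2 : (D.resA ⟨ζ, s33f_zeta_mem hζp⟩ - 1) ^ D.p = 0 := by
    rw [sub_pow_char, h1, one_pow, sub_self]
  exact sub_eq_zero.mp ((pow_eq_zero_iff hp.ne_zero).mp h2)

/-- the geometric sums `1 + ζ + … + ζ ^ (i-1)` reduce to `i`. -/
theorem s33f_resA_geom {ζ : L₀} (hζp : ζ ^ D.p = 1) (i : ℕ) :
    D.resA (∑ j ∈ Finset.range i, (⟨ζ, s33f_zeta_mem hζp⟩ : D.A₀) ^ j) = (i : κ) := by
  simp only [map_sum, map_pow, s33f_resA_zeta hζp, one_pow, Finset.sum_const, Finset.card_range,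
    nsmul_eq_mul, mul_one]

theorem s33f_geom_mul {ζ : L₀} (hζp : ζ ^ D.p = 1) (i : ℕ) :
    (1 - ζ) * ((∑ j ∈ Finset.range i, (⟨ζ, s33f_zeta_mem hζp⟩ : D.A₀) ^ j : D.A₀) : L₀) =
      1 - ζ ^ i := by
  have := congrArg (fun t : D.A₀ => (t : L₀))
    (mul_neg_geom_sum (⟨ζ, s33f_zeta_mem hζp⟩ : D.A₀) i)
  simpa using this

/-- **the valuation of `1 - ζ`**: `1 - ζ = ϖ ^ k · unit` with `e = k (p - 1)`. -/
theorem s33f_one_sub_zeta {ζ : L₀} (hζ : IsPrimitiveRoot ζ D.p) :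
    ∃ (k : ℕ) (v : L₀), v ∈ D.A₀ ∧ v⁻¹ ∈ D.A₀ ∧ 1 - ζ = D.ϖ ^ k * v ∧ D.e = k * (D.p - 1) := by
  have hp := D.p_prime
  haveI : Fact D.p.Prime := ⟨hp⟩
  haveI : CharP κ D.p := s33f_charP_κ D
  have hζp : ζ ^ D.p = 1 := hζ.pow_eq_one
  have hζmem : ζ ∈ D.A₀ := s33f_zeta_mem hζp
  have h1ζ : (1 - ζ) ≠ 0 := by
    intro h
    exact hζ.ne_one hp.one_lt (sub_eq_zero.mp h).symm
  obtain ⟨k, v, hv, hvinv, ev⟩ := s33f_A0_unif D (D.A₀.sub_mem D.A₀.one_mem hζmem) h1ζ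
  have hv0 : v ≠ 0 := by rintro rfl; rw [mul_zero] at ev; exact h1ζ ev
  refine ⟨k, v, hv, hvinv, ev, ?_⟩
  set c : ℕ → D.A₀ := fun i => ∑ j ∈ Finset.range i, (⟨ζ, hζmem⟩ : D.A₀) ^ j with hc
  have hprod : ∏ i ∈ Finset.range (D.p - 1), (1 - ζ ^ (i + 1)) = (D.p : L₀) := by
    have hζ' : IsPrimitiveRoot ζ ((D.p - 1) + 1) := by rwa [Nat.sub_add_cancel hp.pos]
    rw [hζ'.prod_one_sub_pow_eq_order, ← Nat.cast_succ, Nat.succ_eq_add_one,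
      Nat.sub_add_cancel hp.pos]
  set C : D.A₀ := ∏ i ∈ Finset.range (D.p - 1), c (i + 1) with hC
  have hC_res : D.resA C ≠ 0 := by
    rw [hC, map_prod]
    apply Finset.prod_ne_zero_iff.mpr
    intro i hi
    rw [hc]
    simp only
    rw [s33f_resA_geom hζp, Ne, CharP.cast_eq_zero_iff κ D.p]
    intro hdvd
    have := Nat.le_of_dvd (Nat.succ_pos i) hdvd
    have := Finset.mem_range.mp hi
    omega
  have hCinv : ((C : D.A₀) : L₀)⁻¹ ∈ D.A₀ := s33f_inv_mem_of_resA_ne_zero D C hC_res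
  have hC0 : ((C : D.A₀) : L₀) ≠ 0 := by
    intro h0
    apply hC_res
    have : C = 0 := Subtype.ext h0
    rw [this, map_zero]
  have hprod2 : (D.p : L₀) = D.ϖ ^ (k * (D.p - 1)) * (v ^ (D.p - 1) * ((C : D.A₀) : L₀)) := by
    rw [← hprod]
    have : ∀ i ∈ Finset.range (D.p - 1), (1 - ζ ^ (i + 1)) = (1 - ζ) * ((c (i + 1) : D.A₀) : L₀) :=
      fun i _ => (s33f_geom_mul hζp (i + 1)).symm
    rw [Finset.prod_congr rfl this, Finset.prod_mul_distrib, Finset.prod_const, Finset.card_range,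
      ev, mul_pow, ← pow_mul, hC]
    push_cast
    ring
  have hU : v ^ (D.p - 1) * ((C : D.A₀) : L₀) ∈ D.A₀ := D.A₀.mul_mem _ _ (D.A₀.pow_mem hv _) C.2
  have hUinv : (v ^ (D.p - 1) * ((C : D.A₀) : L₀))⁻¹ ∈ D.A₀ := by
    rw [mul_inv, ← inv_pow]
    exact D.A₀.mul_mem _ _ (D.A₀.pow_mem hvinv _) hCinv
  have hU0 : v ^ (D.p - 1) * ((C : D.A₀) : L₀) ≠ 0 := mul_ne_zero (pow_ne_zero _ hv0) hC0
  have h : D.ϖ ^ (k * (D.p - 1)) * (v ^ (D.p - 1) * ((C : D.A₀) : L₀)) = D.ϖ ^ D.e * D.ε := by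
    rw [← hprod2, D.p_eq, mul_comm]
  exact le_antisymm (s33f_unif_exp_le D hU hUinv D.ε_mem D.ε_ne_zero h)
    (s33f_unif_exp_le D D.ε_mem D.ε_inv_mem hU hU0 h.symm)

/-- with `ζ_p ∈ L₀` the critical exponent exists: `ac = p e / (p - 1)`. -/
theorem s33f_exists_crit_of_zeta {ζ : L₀} (hζ : IsPrimitiveRoot ζ D.p) :
    ∃ ac : ℕ, 1 ≤ ac ∧ s33f_Crit D ac := by
  obtain ⟨k, v, -, -, -, he⟩ := s33f_one_sub_zeta hζ
  have hp := D.p_prime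
  have hk : 1 ≤ k := by
    rcases Nat.eq_zero_or_pos k with rfl | hk
    · rw [zero_mul] at he
      exact absurd he (Nat.pos_iff_ne_zero.mp D.e_pos)
    · exact hk
  refine ⟨D.p * k, le_trans hk (Nat.le_mul_of_pos_left k hp.pos), ?_⟩
  unfold s33f_Crit
  rw [he]; ring

/-- **[FO-GAL-arith]**: if `ζ ∈ L₀` is a primitive `p`-th root of unity and `s₀ ζ = ζ ^ n`, then at the
critical exponent `ac` the tame character value satisfies `θ ^ ac = n̄`. -/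
theorem s33f_theta_pow (G : s33f_GalAut D) {ζ : L₀} (hζ : IsPrimitiveRoot ζ D.p) (n : ℕ)
    (hs : G.s₀ ζ = ζ ^ n) {ac : ℕ} (hcrit : s33f_Crit D ac) :
    s33f_theta G ^ ac = (n : κ) := by
  have hp := D.p_prime
  haveI : Fact D.p.Prime := ⟨hp⟩
  haveI : CharP κ D.p := s33f_charP_κ D
  have hζp : ζ ^ D.p = 1 := hζ.pow_eq_one
  obtain ⟨k, v, hv, hvinv, ev, he⟩ := s33f_one_sub_zeta hζ
  have h1ζ : (1 - ζ) ≠ 0 := by
    intro h
    exact hζ.ne_one hp.one_lt (sub_eq_zero.mp h).symm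
  have hv0 : v ≠ 0 := by rintro rfl; rw [mul_zero] at ev; exact h1ζ ev
  set cn : D.A₀ := ∑ j ∈ Finset.range n, (⟨ζ, s33f_zeta_mem hζp⟩ : D.A₀) ^ j with hcn
  have hac : ac = D.p * k := by
    unfold s33f_Crit at hcrit
    rw [he] at hcrit
    have h1 : 0 < D.p - 1 := by have := hp.two_le; omega
    apply Nat.eq_of_mul_eq_mul_left h1
    rw [hcrit]; ring
  obtain ⟨hsv, hsv_res⟩ := s33f_gal_resA G ⟨v, hv⟩
  have hkey : G.w ^ k * G.s₀ v = v * ((cn : D.A₀) : L₀) := by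
    have h1 : G.s₀ (1 - ζ) = 1 - ζ ^ n := by rw [map_sub, map_one, hs]
    have h2 : G.s₀ (1 - ζ) = (D.ϖ * G.w) ^ k * G.s₀ v := by
      rw [ev, map_mul, map_pow, G.s_unif]
    have h3 : D.ϖ ^ k * (G.w ^ k * G.s₀ v) = D.ϖ ^ k * (v * ((cn : D.A₀) : L₀)) := by
      have : D.ϖ ^ k * (v * ((cn : D.A₀) : L₀)) = (1 - ζ) * ((cn : D.A₀) : L₀) := by
        rw [ev]; ring
      rw [this, hcn, s33f_geom_mul hζp, ← h1, h2, mul_pow]; ring
    exact mul_left_cancel₀ (pow_ne_zero _ D.ϖ_ne_zero) h3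
  have hkey' : (⟨G.w, G.w_mem⟩ : D.A₀) ^ k * ⟨G.s₀ v, hsv⟩ = ⟨v, hv⟩ * cn :=
    Subtype.ext (by push_cast; exact hkey)
  have hres := congrArg D.resA hkey'
  rw [map_mul, map_pow, map_mul, hsv_res, hcn, s33f_resA_geom hζp] at hres
  have hvres : D.resA ⟨v, hv⟩ ≠ 0 := by
    intro h0
    have h1 : D.resA (⟨v, hv⟩ * ⟨v⁻¹, hvinv⟩) = 1 := by
      have : (⟨v, hv⟩ * ⟨v⁻¹, hvinv⟩ : D.A₀) = 1 :=
        Subtype.ext (by push_cast; exact mul_inv_cancel₀ hv0)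
      rw [this, map_one]
    rw [map_mul, h0, zero_mul] at h1
    exact zero_ne_one h1
  have hθk : s33f_theta G ^ k = (n : κ) := by
    unfold s33f_theta
    have : D.resA ⟨G.w, G.w_mem⟩ ^ k * D.resA ⟨v, hv⟩ = (n : κ) * D.resA ⟨v, hv⟩ := by
      rw [hres, mul_comm]
    exact mul_right_cancel₀ hvres this
  rw [hac, mul_comm, pow_mul, hθk, ← frobenius_def, map_natCast]

/-- **(MU-abstract), final form**: `ζ_p ∈ L₀`, `s₀ ζ = ζ ^ n`; if `f ∈ 𝒢` lies in the class of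
`τ ^ j f'` for EVERY `j` (with `f'_j ∈ 𝒢` of depth `≥ 1`), then `s f / f ^ n ∈ 𝒢⁰`. -/
theorem s33f_muAbstract_zeta (T : s33f_TPData D) (hLC : s33f_LeadConst D)
    (hSC : s33f_SuperCritical D) (hTP : s33f_TP D T) (G : s33f_GalAut D) {ζ : L₀}
    (hζ : IsPrimitiveRoot ζ D.p) (n : ℕ) (hs : G.s₀ ζ = ζ ^ n) {f : 𝓕}
    (hdiv : ∀ j : ℕ, ∃ f' : 𝓕, s33f_IsKum D f' ∧ s33f_DepthGE D 1 f' ∧
      s33f_IsKum0 D (f * ((T.τ)^[j] f')⁻¹)) :
    s33f_IsKum0 D (G.s f * (f ^ n)⁻¹) := by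
  obtain ⟨ac, hac, hcrit⟩ := s33f_exists_crit_of_zeta hζ
  obtain ⟨f', hf', hd, hcls⟩ := hdiv (ac - 1)
  exact s33f_muAbstract T hLC hSC hTP G hac hcrit n (s33f_theta_pow G hζ n hs hcrit) hf' hd hcls

end Fermat.Agent.Lib.S33
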