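/-
P-AT-P programme (S33), Stage 2, bricks **[Σ-ALG] (Deepen_Σ)** and **[CRIT-ss] (A3)+(A4)** of helper7's
design `docs/P-AT-P_LTss_design_helper7.md`, plus the assembled Kummer-side output **[MU-ss]**
(owner: helper4).  ABSTRACT: no modular curve in this file.

## Setting (the semistable "Σ-datum")

`D'` : helper6's arithmetic-surface datum at the good level `M'` (`𝓕' = L₀(X_0(M'))`, residue function field
`Fb`).  At level `N = p M'` the function field `𝓕` carries TWO Gauss valuations with the SAME constants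
`(A₀, ϖ, p, e, ε, resA)` and the SAME residue function field `Fb`:
`s33z_Comp D' 𝓕` = (`O`, `red : O →+* Fb` + the six axioms of `s33f_Datum` which mention `O`/`red`), and
`s33z_Comp.datum : s33f_Datum L₀ 𝓕 κ Fb` (so the whole `FO*` library applies to each component, and
`p, e, ϖ, ε̄, S_a, φ_a` of the components are DEFINITIONALLY those of `D'`).

`s33z_Datum D' 𝓕 ι k` (`k : ι → Type*` the value field of each node, e.g. `B₁ ⧸ 𝔫`):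
* `Ci, Cz : s33z_Comp D' 𝓕` (the `∞`- and the `0`-component), `O := Ci.O ⊓ Cz.O`;
* `N : Set (Place L₀ 𝓕)` the places of the generic fibre through the nodes;
  `R_Σ = {y ∈ O | y regular at all Q ∈ N}` (membership is always spelled out);
* nodes `s : ι` (`Nonempty ι` = [CONN], `n ≥ 1`), with the two branches `Wi s, Wz s : ValuationSubring Fb`
  and evaluations `evi s : Wi s →+* k s`, `evz s : Wz s →+* k s` into a field `k s ⊇ κ`
  (`k s := κ` if the supersingular points are rational);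
  `s33z_Glued φi φz :⇔ ∀ s, φi ∈ Wi s, φz ∈ Wz s, evi s φi = evz s φz`  (= `(φi, φz) ∈ Fb_Σ`);
* **[GLUE]** `glue` : `y ∈ R_Σ ⇒ Glued (redi y) (redz y)`;
  **[LIFT]** `lift` : every glued pair is `(redi x, redz x)` for some `x ∈ R_Σ`;
  `unit` : `y ∈ R_Σ ⇒ 1 + ϖ y` has no zero through a node (`B_𝔫` is local and `ϖ ∈ 𝔫`).

Node-avoiding Kummer theory: `s33z_NF f` (`f ≠ 0`, `ord_Q f = 0` for `Q ∈ N`), `s33z_Cong a f`
(`f ≡ 1 mod ϖ ^ a` in BOTH components), `s33z_IsKum0` (`c h ^ p`, `h` node-avoiding),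
`s33z_DepthGE`, `s33z_S a ⊆ Fb × Fb` (`= κ + φ_a(Fb_Σ)`).

## Results

* `s33z_glued_lead`   : the pair of leading terms of a node-avoiding `f ≡ 1 mod ϖ ^ a` is glued;
* `s33z_deepen`       : **Deepen_Σ** — leading pair in `S_a^Σ` ⇒ depth `≥ a + 1` (from [LIFT] + `unit`);
* `s33z_S_of_comp`    : **(A3) core** — a glued pair with both components in `S_a(Fb)` (`a` not critical) lies in
                        `S_a^Σ` (constants glued at one node; uniqueness of `p`-th roots at all nodes);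
* `s33z_critSs`       : **[CRIT-ss] (A3)** — `f` node-avoiding, `f ≡ 1 mod ϖ ^ a`, `a` sub-critical, both norms
                        `N_α f`, `N_β f` of depth `≥ a + 1` at level `M'` ⇒ `DepthGE_Σ (a + 1) f`
                        (inputs: [TRACE] `s33z_Trace`, `s33f_kumLead` at level `M'`);
* `s33z_depth_crit`   : iteration up to the critical exponent;
* `s33z_crit_mu`      : **(A4)** — critical ⇒ `μ`-type (from `s33z_SuperCritical` = helper9's [SEP-ss]);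
* `s33z_muSs`         : **[MU-ss]**, Kummer side.
-/
import Fermat.Agent.Lib.S33.FOMuArith

set_option autoImplicit false
set_option linter.style.haveILetI false

noncomputable section

namespace Fermat.Agent.Lib.S33

open AlgebraicCurve Fermat.Agent.Lib.FF

variable {L₀ 𝓕' κ Fb : Type*} [Field L₀] [Field 𝓕'] [Algebra L₀ 𝓕'] [Field κ] [Field Fb] [Algebra κ Fb]

/-- **A second Gauss valuation** on a function field `𝓕 / L₀` with the constants `(A₀, ϖ, p, e, ε, resA)`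
and the residue function field `Fb` of the datum `D'`. -/
structure s33z_Comp (D' : s33f_Datum L₀ 𝓕' κ Fb) (𝓕 : Type*) [Field 𝓕] [Algebra L₀ 𝓕] where
  /-- the Gauss valuation ring -/
  O : ValuationSubring 𝓕
  /-- its reduction -/
  red : O →+* Fb
  const_mem_iff : ∀ a : L₀, algebraMap L₀ 𝓕 a ∈ O ↔ a ∈ D'.A₀
  unif : ∀ u : 𝓕, u ∈ O → u ≠ 0 →
    ∃ (j : ℕ) (v : 𝓕), v ∈ O ∧ v⁻¹ ∈ O ∧ u = algebraMap L₀ 𝓕 D'.ϖ ^ j * v
  ϖ_not_unit : (algebraMap L₀ 𝓕 D'.ϖ)⁻¹ ∉ O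
  red_surjective : Function.Surjective red
  red_eq_zero_iff : ∀ x : O, red x = 0 ↔ ∃ y ∈ O, (x : 𝓕) = algebraMap L₀ 𝓕 D'.ϖ * y
  red_const : ∀ a : D'.A₀,
    red ⟨algebraMap L₀ 𝓕 (a : L₀), (const_mem_iff (a : L₀)).mpr a.2⟩ = algebraMap κ Fb (D'.resA a)

variable {D' : s33f_Datum L₀ 𝓕' κ Fb} {𝓕 : Type*} [Field 𝓕] [Algebra L₀ 𝓕]

/-- the arithmetic-surface datum of a component. -/
def s33z_Comp.datum (C : s33z_Comp D' 𝓕) : s33f_Datum L₀ 𝓕 κ Fb where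
  A₀ := D'.A₀
  O := C.O
  ϖ := D'.ϖ
  p := D'.p
  e := D'.e
  ε := D'.ε
  resA := D'.resA
  red := C.red
  p_prime := D'.p_prime
  e_pos := D'.e_pos
  ϖ_ne_zero := D'.ϖ_ne_zero
  ϖ_mem := D'.ϖ_mem
  ε_mem := D'.ε_mem
  ε_inv_mem := D'.ε_inv_mem
  ε_ne_zero := D'.ε_ne_zero
  p_eq := D'.p_eq
  const_mem_iff := C.const_mem_iff
  unif := C.unif
  ϖ_not_unit := C.ϖ_not_unit
  red_surjective := C.red_surjective
  red_eq_zero_iff := C.red_eq_zero_iff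
  resA_surjective := D'.resA_surjective
  red_const := C.red_const
  κ_perfect := D'.κ_perfect

/-- a datum as a component over itself. -/
def s33z_Comp.self (D' : s33f_Datum L₀ 𝓕' κ Fb) : s33z_Comp D' 𝓕' where
  O := D'.O
  red := D'.red
  const_mem_iff := D'.const_mem_iff
  unif := D'.unif
  ϖ_not_unit := D'.ϖ_not_unit
  red_surjective := D'.red_surjective
  red_eq_zero_iff := D'.red_eq_zero_iff
  red_const := D'.red_const

theorem s33z_Comp.self_datum (D' : s33f_Datum L₀ 𝓕' κ Fb) : (s33z_Comp.self D').datum = D' := rfl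

section CompAPI

variable (C : s33z_Comp D' 𝓕)

theorem s33z_pi_eq : s33f_pi C.datum = algebraMap L₀ 𝓕 D'.ϖ := rfl

theorem s33z_subCrit_iff (a : ℕ) : s33f_SubCrit C.datum a ↔ s33f_SubCrit D' a := Iff.rfl

theorem s33z_crit_iff (a : ℕ) : s33f_Crit C.datum a ↔ s33f_Crit D' a := Iff.rfl

theorem s33z_superCrit_iff (a : ℕ) : s33f_SuperCrit C.datum a ↔ s33f_SuperCrit D' a := Iff.rfl

theorem s33z_phi_eq (a : ℕ) (x : Fb) : s33f_phi C.datum a x = s33f_phi D' a x := rfl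

theorem s33z_S_eq (a : ℕ) : s33f_S C.datum a = s33f_S D' a := rfl

end CompAPI

/-! ### The Σ-datum -/

/-- **The semistable Σ-datum** (see the header). -/
structure s33z_Datum (D' : s33f_Datum L₀ 𝓕' κ Fb) (𝓕 : Type*) [Field 𝓕] [Algebra L₀ 𝓕]
    (ι : Type*) (k : ι → Type*) [∀ s, Field (k s)] [∀ s, Algebra κ (k s)] where
  /-- the `∞`-component -/
  Ci : s33z_Comp D' 𝓕
  /-- the `0`-component -/
  Cz : s33z_Comp D' 𝓕
  /-- the places of the generic fibre through the nodes -/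
  N : Set (Place L₀ 𝓕)
  /-- the branch of the node `s` on the `∞`-component -/
  Wi : ι → ValuationSubring Fb
  /-- the branch of the node `s` on the `0`-component -/
  Wz : ι → ValuationSubring Fb
  /-- evaluation at the node, `∞`-branch -/
  evi : ∀ s : ι, Wi s →+* k s
  /-- evaluation at the node, `0`-branch -/
  evz : ∀ s : ι, Wz s →+* k s
  Wi_const : ∀ (s : ι) (c : κ), algebraMap κ Fb c ∈ Wi s
  Wz_const : ∀ (s : ι) (c : κ), algebraMap κ Fb c ∈ Wz s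
  evi_const : ∀ (s : ι) (c : κ), evi s ⟨algebraMap κ Fb c, Wi_const s c⟩ = algebraMap κ (k s) c
  evz_const : ∀ (s : ι) (c : κ), evz s ⟨algebraMap κ Fb c, Wz_const s c⟩ = algebraMap κ (k s) c
  /-- [CONN]: there is at least one node -/
  nonempty : Nonempty ι
  /-- **[GLUE]** -/
  glue : ∀ (y : 𝓕) (hi : y ∈ Ci.O) (hz : y ∈ Cz.O), (∀ Q ∈ N, y ∈ Q.toValuationSubring) →
    ∀ s : ι, ∃ (h1 : Ci.red ⟨y, hi⟩ ∈ Wi s) (h2 : Cz.red ⟨y, hz⟩ ∈ Wz s),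
      evi s ⟨_, h1⟩ = evz s ⟨_, h2⟩
  /-- **[LIFT]** -/
  lift : ∀ φi φz : Fb,
    (∀ s : ι, ∃ (h1 : φi ∈ Wi s) (h2 : φz ∈ Wz s), evi s ⟨φi, h1⟩ = evz s ⟨φz, h2⟩) →
    ∃ (x : 𝓕) (hi : x ∈ Ci.O) (hz : x ∈ Cz.O), (∀ Q ∈ N, x ∈ Q.toValuationSubring) ∧
      Ci.red ⟨x, hi⟩ = φi ∧ Cz.red ⟨x, hz⟩ = φz
  /-- `1 + ϖ y`, `y ∈ R_Σ`, has no zero through a node -/
  unit : ∀ y : 𝓕, y ∈ Ci.O → y ∈ Cz.O → (∀ Q ∈ N, y ∈ Q.toValuationSubring) →
    ∀ Q ∈ N, Q.ord (1 + algebraMap L₀ 𝓕 D'.ϖ * y) = 0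

variable {ι : Type*} {k : ι → Type*} [∀ s, Field (k s)] [∀ s, Algebra κ (k s)]
variable (Z : s33z_Datum D' 𝓕 ι k)

/-- the datum of the `∞`-component. -/
def s33z_Datum.Di : s33f_Datum L₀ 𝓕 κ Fb := Z.Ci.datum

/-- the datum of the `0`-component. -/
def s33z_Datum.Dz : s33f_Datum L₀ 𝓕 κ Fb := Z.Cz.datum

/-- the uniformiser in `𝓕`. -/
def s33z_pi (_Z : s33z_Datum D' 𝓕 ι k) : 𝓕 := algebraMap L₀ 𝓕 D'.ϖ

theorem s33z_pi_i : s33f_pi Z.Di = s33z_pi Z := rfl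

theorem s33z_pi_z : s33f_pi Z.Dz = s33z_pi Z := rfl

/-- `f` is node-avoiding: no zero or pole through a node. -/
def s33z_NF (f : 𝓕) : Prop := f ≠ 0 ∧ ∀ Q ∈ Z.N, Q.ord f = 0

/-- `y` is regular at the places through the nodes. -/
def s33z_Reg (y : 𝓕) : Prop := ∀ Q ∈ Z.N, y ∈ Q.toValuationSubring

/-- `f ≡ 1 mod ϖ ^ a (O_∞ ⊓ O_0)`. -/
def s33z_Cong (a : ℕ) (f : 𝓕) : Prop := s33f_Cong Z.Di a f 1 ∧ s33f_Cong Z.Dz a f 1

/-- the pair `(φi, φz)` lies in the glued residue ring `Fb_Σ`. -/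
def s33z_Glued (φi φz : Fb) : Prop :=
  ∀ s : ι, ∃ (h1 : φi ∈ Z.Wi s) (h2 : φz ∈ Z.Wz s), Z.evi s ⟨φi, h1⟩ = Z.evz s ⟨φz, h2⟩

/-- the node-avoiding Kummer group `𝒢_Σ`. -/
def s33z_IsKum (f : 𝓕) : Prop := s33f_IsKum Z.Di f ∧ s33z_NF Z f

/-- the trivial part `𝒢⁰_Σ = {c h ^ p : h node-avoiding}`. -/
def s33z_IsKum0 (g : 𝓕) : Prop :=
  ∃ (c : L₀) (h : 𝓕), c ≠ 0 ∧ s33z_NF Z h ∧ g = algebraMap L₀ 𝓕 c * h ^ D'.p

/-- node-avoiding depth. -/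
def s33z_DepthGE (a : ℕ) (f : 𝓕) : Prop := ∃ g : 𝓕, s33z_IsKum0 Z g ∧ s33z_Cong Z a (g * f)

/-- the ambiguity `S_a^Σ = κ + φ_a (Fb_Σ)` of the leading pair. -/
def s33z_S (a : ℕ) : Set (Fb × Fb) :=
  {u | ∃ (c : κ) (hi hz : Fb), s33z_Glued Z hi hz ∧
    u.1 = algebraMap κ Fb c + s33f_phi D' a hi ∧ u.2 = algebraMap κ Fb c + s33f_phi D' a hz ∧
    (¬ D'.p ∣ a → hi = 0 ∧ hz = 0)}

/-- the leading pair. -/
def s33z_lead (a : ℕ) (f : 𝓕) : Fb × Fb := (s33f_lead Z.Di a f, s33f_lead Z.Dz a f)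

/-- **[SEP-ss]** (helper9): a node-avoiding Kummer function which is `≡ 1` modulo a super-critical power
of `ϖ` (in both components) is trivial. -/
def s33z_SuperCritical : Prop :=
  ∀ a : ℕ, s33f_SuperCrit D' a → ∀ f : 𝓕, s33z_IsKum Z f → s33z_Cong Z a f → s33f_IsKum0 Z.Di f

/-! ### Basic API -/

section API

variable {Z}

theorem s33z_pi_ne_zero : s33z_pi Z ≠ 0 := s33f_pi_ne_zero Z.Di

theorem s33z_nf_one : s33z_NF Z (1 : 𝓕) := ⟨one_ne_zero, fun Q _ => Q.ord_one⟩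

theorem s33z_nf_const {c : L₀} (hc : c ≠ 0) : s33z_NF Z (algebraMap L₀ 𝓕 c) :=
  ⟨(map_ne_zero_iff _ (algebraMap L₀ 𝓕).injective).mpr hc, fun Q _ => ff_ord_algebraMap Q c⟩

theorem s33z_NF.mul {f g : 𝓕} (hf : s33z_NF Z f) (hg : s33z_NF Z g) : s33z_NF Z (f * g) :=
  ⟨mul_ne_zero hf.1 hg.1, fun Q hQ => by rw [Q.ord_mul hf.1 hg.1, hf.2 Q hQ, hg.2 Q hQ, add_zero]⟩

theorem s33z_NF.inv {f : 𝓕} (hf : s33z_NF Z f) : s33z_NF Z f⁻¹ :=
  ⟨inv_ne_zero hf.1, fun Q hQ => by rw [Q.ord_inv, hf.2 Q hQ, neg_zero]⟩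

theorem s33z_NF.pow {f : 𝓕} (hf : s33z_NF Z f) (n : ℕ) : s33z_NF Z (f ^ n) := by
  induction n with
  | zero => rw [pow_zero]; exact s33z_nf_one
  | succ n ih => rw [pow_succ]; exact ih.mul hf

theorem s33z_NF.reg {f : 𝓕} (hf : s33z_NF Z f) : s33z_Reg Z f := fun Q hQ =>
  (ff_mem_iff_ord_nonneg Q hf.1).mpr (by rw [hf.2 Q hQ])

theorem s33z_reg_const (c : L₀) : s33z_Reg Z (algebraMap L₀ 𝓕 c) := fun Q _ => Q.algebraMap_mem' c

theorem s33z_reg_one : s33z_Reg Z (1 : 𝓕) := fun Q _ => Q.toValuationSubring.one_mem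

theorem s33z_Reg.add {x y : 𝓕} (hx : s33z_Reg Z x) (hy : s33z_Reg Z y) : s33z_Reg Z (x + y) :=
  fun Q hQ => Q.toValuationSubring.add_mem _ _ (hx Q hQ) (hy Q hQ)

theorem s33z_Reg.sub {x y : 𝓕} (hx : s33z_Reg Z x) (hy : s33z_Reg Z y) : s33z_Reg Z (x - y) :=
  fun Q hQ => Q.toValuationSubring.toSubring.sub_mem (hx Q hQ) (hy Q hQ)

theorem s33z_Reg.mul {x y : 𝓕} (hx : s33z_Reg Z x) (hy : s33z_Reg Z y) : s33z_Reg Z (x * y) :=
  fun Q hQ => Q.toValuationSubring.mul_mem _ _ (hx Q hQ) (hy Q hQ)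

theorem s33z_reg_pi_pow (a : ℕ) : s33z_Reg Z (s33z_pi Z ^ a) := by
  unfold s33z_pi
  rw [← map_pow]
  exact s33z_reg_const _

theorem s33z_reg_pi_pow_inv (a : ℕ) : s33z_Reg Z (s33z_pi Z ^ a)⁻¹ := by
  unfold s33z_pi
  rw [← map_pow, ← map_inv₀]
  exact s33z_reg_const _

/-- an element regular at `N` which is a `1`-unit `1 + ϖ y`, `y ∈ R_Σ`, is node-avoiding. -/
theorem s33z_nf_one_add {y : 𝓕} (hi : y ∈ Z.Ci.O) (hz : y ∈ Z.Cz.O) (hr : s33z_Reg Z y) :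
    s33z_NF Z (1 + s33z_pi Z * y) := by
  refine ⟨?_, Z.unit y hi hz hr⟩
  have h : s33f_Cong Z.Di 1 (1 + s33z_pi Z * y) 1 := ⟨y, hi, by rw [s33z_pi_i, pow_one]; ring⟩
  exact s33f_ne_zero_of_cong_one le_rfl h

theorem s33z_Cong.mono {a b : ℕ} (hab : a ≤ b) {f : 𝓕} (h : s33z_Cong Z b f) : s33z_Cong Z a f :=
  ⟨h.1.mono hab, h.2.mono hab⟩

theorem s33z_cong_one (a : ℕ) : s33z_Cong Z a (1 : 𝓕) := ⟨s33f_cong_refl _ _, s33f_cong_refl _ _⟩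

theorem s33z_Cong.mul {a : ℕ} {f g : 𝓕} (hf : s33z_Cong Z a f) (hg : s33z_Cong Z a g) :
    s33z_Cong Z a (f * g) := ⟨hf.1.mul₁ hg.1, hf.2.mul₁ hg.2⟩

theorem s33z_Cong.inv {a : ℕ} (ha : 1 ≤ a) {f : 𝓕} (hf : s33z_Cong Z a f) : s33z_Cong Z a f⁻¹ :=
  ⟨hf.1.inv₁ ha, hf.2.inv₁ ha⟩

theorem s33z_Cong.pow {a : ℕ} {f : 𝓕} (hf : s33z_Cong Z a f) (n : ℕ) : s33z_Cong Z a (f ^ n) :=
  ⟨hf.1.pow₁ n, hf.2.pow₁ n⟩

/-- the common quotient `(f - 1) / ϖ ^ a`. -/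
theorem s33z_Cong.exists_eq {a : ℕ} {f : 𝓕} (h : s33z_Cong Z a f) :
    ∃ y : 𝓕, y ∈ Z.Ci.O ∧ y ∈ Z.Cz.O ∧ f - 1 = s33z_pi Z ^ a * y := by
  obtain ⟨y, hy, e⟩ := h.1
  obtain ⟨y', hy', e'⟩ := h.2
  rw [s33z_pi_i] at e
  rw [s33z_pi_z] at e'
  have : y = y' := by
    have h0 : s33z_pi Z ^ a ≠ 0 := pow_ne_zero _ s33z_pi_ne_zero
    exact mul_left_cancel₀ h0 (e.symm.trans e')
  subst this
  exact ⟨y, hy, hy', e⟩

/-- for a node-avoiding `f` the quotient `(f - 1) / ϖ ^ a` is regular at the nodes. -/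
theorem s33z_reg_of_eq {a : ℕ} {f y : 𝓕} (hf : s33z_NF Z f) (e : f - 1 = s33z_pi Z ^ a * y) :
    s33z_Reg Z y := by
  have h0 : s33z_pi Z ^ a ≠ 0 := pow_ne_zero _ s33z_pi_ne_zero
  have : y = (s33z_pi Z ^ a)⁻¹ * (f - 1) := by
    rw [e, ← mul_assoc, inv_mul_cancel₀ h0, one_mul]
  rw [this]
  exact (s33z_reg_pi_pow_inv a).mul (hf.reg.sub s33z_reg_one)

theorem s33z_isKum0_const {c : L₀} (hc : c ≠ 0) : s33z_IsKum0 Z (algebraMap L₀ 𝓕 c) :=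
  ⟨c, 1, hc, s33z_nf_one, by rw [one_pow, mul_one]⟩

theorem s33z_isKum0_one : s33z_IsKum0 Z (1 : 𝓕) := by
  have := s33z_isKum0_const (Z := Z) (one_ne_zero (α := L₀))
  rwa [map_one] at this

theorem s33z_isKum0_pow {h : 𝓕} (hh : s33z_NF Z h) : s33z_IsKum0 Z (h ^ D'.p) :=
  ⟨1, h, one_ne_zero, hh, by rw [map_one, one_mul]⟩

theorem s33z_IsKum0.mul {f g : 𝓕} (hf : s33z_IsKum0 Z f) (hg : s33z_IsKum0 Z g) :
    s33z_IsKum0 Z (f * g) := by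
  obtain ⟨c, h, hc, hh, rfl⟩ := hf
  obtain ⟨c', h', hc', hh', rfl⟩ := hg
  exact ⟨c * c', h * h', mul_ne_zero hc hc', hh.mul hh', by rw [map_mul, mul_pow]; ring⟩

theorem s33z_IsKum0.inv {f : 𝓕} (hf : s33z_IsKum0 Z f) : s33z_IsKum0 Z f⁻¹ := by
  obtain ⟨c, h, hc, hh, rfl⟩ := hf
  exact ⟨c⁻¹, h⁻¹, inv_ne_zero hc, hh.inv, by rw [map_inv₀, inv_pow, mul_inv]⟩

theorem s33z_IsKum0.pow {f : 𝓕} (hf : s33z_IsKum0 Z f) (n : ℕ) : s33z_IsKum0 Z (f ^ n) := by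
  induction n with
  | zero => rw [pow_zero]; exact s33z_isKum0_one
  | succ n ih => rw [pow_succ]; exact ih.mul hf

theorem s33z_IsKum0.nf {f : 𝓕} (hf : s33z_IsKum0 Z f) : s33z_NF Z f := by
  obtain ⟨c, h, hc, hh, rfl⟩ := hf
  exact (s33z_nf_const hc).mul (hh.pow _)

theorem s33z_IsKum0.isKum0 {f : 𝓕} (hf : s33z_IsKum0 Z f) : s33f_IsKum0 Z.Di f := by
  obtain ⟨c, h, hc, hh, rfl⟩ := hf
  exact ⟨c, h, hc, hh.1, rfl⟩

theorem s33z_IsKum0.isKum {f : 𝓕} (hf : s33z_IsKum0 Z f) : s33z_IsKum Z f :=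
  ⟨hf.isKum0.isKum, hf.nf⟩

theorem s33z_IsKum.mul {f g : 𝓕} (hf : s33z_IsKum Z f) (hg : s33z_IsKum Z g) :
    s33z_IsKum Z (f * g) := ⟨hf.1.mul hg.1, hf.2.mul hg.2⟩

theorem s33z_IsKum.inv {f : 𝓕} (hf : s33z_IsKum Z f) : s33z_IsKum Z f⁻¹ := ⟨hf.1.inv, hf.2.inv⟩

theorem s33z_IsKum.pow {f : 𝓕} (hf : s33z_IsKum Z f) (n : ℕ) : s33z_IsKum Z (f ^ n) :=
  ⟨hf.1.pow n, hf.2.pow n⟩

theorem s33z_DepthGE.mono {a b : ℕ} (hab : a ≤ b) {f : 𝓕} (h : s33z_DepthGE Z b f) :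
    s33z_DepthGE Z a f := by
  obtain ⟨g, hg, hc⟩ := h
  exact ⟨g, hg, hc.mono hab⟩

theorem s33z_depthGE_of_cong {a : ℕ} {f : 𝓕} (h : s33z_Cong Z a f) : s33z_DepthGE Z a f :=
  ⟨1, s33z_isKum0_one, by rwa [one_mul]⟩

/-- **the leading pair of a node-avoiding function is glued** ([GLUE]). -/
theorem s33z_glued_lead {a : ℕ} {f : 𝓕} (hf : s33z_NF Z f) (h : s33z_Cong Z a f) :
    s33z_Glued Z (s33f_lead Z.Di a f) (s33f_lead Z.Dz a f) := by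
  obtain ⟨y, hi, hz, e⟩ := h.exists_eq
  have hr := s33z_reg_of_eq hf e
  have e1 : s33f_lead Z.Di a f = Z.Ci.red ⟨y, hi⟩ := by
    rw [s33f_lead_eq (D := Z.Di) (by rw [s33z_pi_i]; exact e)]
    exact s33f_redX_of_mem Z.Di hi
  have e2 : s33f_lead Z.Dz a f = Z.Cz.red ⟨y, hz⟩ := by
    rw [s33f_lead_eq (D := Z.Dz) (by rw [s33z_pi_z]; exact e)]
    exact s33f_redX_of_mem Z.Dz hz
  rw [e1, e2]
  exact Z.glue y hi hz hr

end API

/-! ### (A3) core: componentwise ambiguity + gluing ⇒ glued ambiguity -/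

theorem s33z_mem_of_pow_mem (W : ValuationSubring Fb) {x : Fb} {n : ℕ} (hn : 1 ≤ n)
    (h : x ^ n ∈ W) : x ∈ W := by
  rcases W.mem_or_inv_mem x with h1 | h1
  · exact h1
  · rcases eq_or_ne x 0 with rfl | hx
    · exact W.zero_mem
    · have : x = x ^ n * x⁻¹ ^ (n - 1) := by
        obtain ⟨m, rfl⟩ : ∃ m, n = m + 1 := ⟨n - 1, by omega⟩
        rw [Nat.add_sub_cancel, pow_succ, inv_pow]
        field_simp
      rw [this]
      exact W.mul_mem _ _ h (W.pow_mem h1 _)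

section Core

variable {Z}

theorem s33z_charP_k (_Z : s33z_Datum D' 𝓕 ι k) (s : ι) : CharP (k s) D'.p := by
  haveI : CharP κ D'.p := s33f_charP_κ D'
  exact charP_of_injective_algebraMap (algebraMap κ (k s)).injective D'.p

theorem s33z_glued_zero : s33z_Glued Z (0 : Fb) 0 := fun s =>
  ⟨(Z.Wi s).zero_mem, (Z.Wz s).zero_mem, by
    have h1 : (⟨0, (Z.Wi s).zero_mem⟩ : Z.Wi s) = 0 := rfl
    have h2 : (⟨0, (Z.Wz s).zero_mem⟩ : Z.Wz s) = 0 := rfl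
    rw [h1, h2, map_zero, map_zero]⟩

/-- evaluation of `c + h ^ p` at a branch. -/
theorem s33z_ev_add_pow {k₀ : Type*} [Field k₀] [Algebra κ k₀] (W : ValuationSubring Fb)
    (ev : W →+* k₀) (hWc : ∀ c : κ, algebraMap κ Fb c ∈ W)
    (hev : ∀ c : κ, ev ⟨algebraMap κ Fb c, hWc c⟩ = algebraMap κ k₀ c) {u h : Fb} {c : κ} {n : ℕ}
    (hn : 1 ≤ n) (e : u = algebraMap κ Fb c + h ^ n) (hu : u ∈ W) :
    ∃ hh : h ∈ W, ev ⟨u, hu⟩ = algebraMap κ k₀ c + ev ⟨h, hh⟩ ^ n := by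
  have hpow : h ^ n ∈ W := by
    have : h ^ n = u - algebraMap κ Fb c := by rw [e]; ring
    rw [this]
    exact W.toSubring.sub_mem hu (hWc c)
  have hh : h ∈ W := s33z_mem_of_pow_mem W hn hpow
  refine ⟨hh, ?_⟩
  have : (⟨u, hu⟩ : W) = ⟨algebraMap κ Fb c, hWc c⟩ + ⟨h, hh⟩ ^ n := Subtype.ext (by
    push_cast
    exact e)
  rw [this, map_add, map_pow, hev]

/-- **(A3) core**: a glued pair both of whose components lie in the ambiguity `S_a (Fb)` of level `M'`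
(`a` not critical) lies in the glued ambiguity `S_a^Σ`. -/
theorem s33z_S_of_comp {a : ℕ} (hnc : ¬ s33f_Crit D' a) {ui uz : Fb} (hg : s33z_Glued Z ui uz)
    (hi : ui ∈ s33f_S D' a) (hz : uz ∈ s33f_S D' a) : (ui, uz) ∈ s33z_S Z a := by
  have hp := D'.p_prime
  haveI : Fact D'.p.Prime := ⟨hp⟩
  haveI : CharP κ D'.p := s33f_charP_κ D'
  haveI : CharP Fb D'.p := s33f_charP_Fb D'
  obtain ⟨ci, xi, ei, hxi⟩ := hi
  obtain ⟨cz, xz, ez, hxz⟩ := hz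
  have hphi : ∀ x : Fb, s33f_phi D' a x = x ^ D'.p := fun x => by
    unfold s33f_phi
    rw [if_neg hnc]
  rw [hphi] at ei ez
  by_cases hpa : D'.p ∣ a
  · -- the `p`-th root of `cz - ci`
    obtain ⟨d, hd⟩ := D'.κ_perfect (cz - ci)
    have hglue : s33z_Glued Z xi (xz + algebraMap κ Fb d) := by
      intro s
      haveI : CharP (k s) D'.p := s33z_charP_k Z s
      obtain ⟨h1, h2, e⟩ := hg s
      obtain ⟨hh1, e1⟩ := s33z_ev_add_pow (Z.Wi s) (Z.evi s) (Z.Wi_const s) (Z.evi_const s)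
        hp.one_le ei h1
      obtain ⟨hh2, e2⟩ := s33z_ev_add_pow (Z.Wz s) (Z.evz s) (Z.Wz_const s) (Z.evz_const s)
        hp.one_le ez h2
      have hmem : xz + algebraMap κ Fb d ∈ Z.Wz s := (Z.Wz s).add_mem _ _ hh2 (Z.Wz_const s d)
      refine ⟨hh1, hmem, ?_⟩
      have hsplit : (⟨xz + algebraMap κ Fb d, hmem⟩ : Z.Wz s) =
          ⟨xz, hh2⟩ + ⟨algebraMap κ Fb d, Z.Wz_const s d⟩ := rfl
      rw [hsplit, map_add, Z.evz_const]
      -- Frobenius is injective on `k`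
      apply frobenius_inj (k s) D'.p
      change (Z.evi s ⟨xi, hh1⟩) ^ D'.p = (Z.evz s ⟨xz, hh2⟩ + algebraMap κ (k s) d) ^ D'.p
      have hdk : (algebraMap κ (k s) d) ^ D'.p = algebraMap κ (k s) cz - algebraMap κ (k s) ci := by
        rw [← map_pow, hd, map_sub]
      rw [add_pow_char, hdk]
      rw [e1, e2] at e
      linear_combination e
    refine ⟨ci, xi, xz + algebraMap κ Fb d, hglue, ?_, ?_, fun h => absurd hpa h⟩
    · change ui = _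
      rw [hphi, ei]
    · change uz = _
      have hdk : (algebraMap κ Fb d) ^ D'.p = algebraMap κ Fb cz - algebraMap κ Fb ci := by
        rw [← map_pow, hd, map_sub]
      rw [hphi, ez, add_pow_char, hdk]
      ring
  · have hxi0 := hxi hpa
    have hxz0 := hxz hpa
    subst hxi0
    subst hxz0
    have hp0 : D'.p ≠ 0 := hp.ne_zero
    rw [zero_pow hp0, add_zero] at ei ez
    -- the constants are glued at one node
    obtain ⟨s⟩ := Z.nonempty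
    obtain ⟨h1, h2, e⟩ := hg s
    have hc : ci = cz := by
      apply (algebraMap κ (k s)).injective
      rw [← Z.evi_const s ci, ← Z.evz_const s cz]
      convert e using 2
      · exact Subtype.ext ei.symm
      · exact Subtype.ext ez.symm
    subst hc
    refine ⟨ci, 0, 0, s33z_glued_zero, ?_, ?_, fun _ => ⟨rfl, rfl⟩⟩
    · change ui = _
      rw [hphi, zero_pow hp0, add_zero, ei]
    · change uz = _
      rw [hphi, zero_pow hp0, add_zero, ez]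

end Core

/-! ### Deepen_Σ -/

section DeepenComp

variable (D : s33f_Datum L₀ 𝓕 κ Fb)

theorem s33z_phi_zero (a : ℕ) : s33f_phi D a (0 : Fb) = 0 := by
  unfold s33f_phi
  split_ifs <;> simp [D.p_prime.ne_zero]

/-- the constant correction `C = 1 + ϖ ^ a c₀`. -/
theorem s33z_const_corr {a : ℕ} (ha : 1 ≤ a) (c₀ : D.A₀) :
    s33f_Cong D a (algebraMap L₀ 𝓕 (1 + D.ϖ ^ a * (c₀ : L₀))) 1 ∧
      s33f_lead D a (algebraMap L₀ 𝓕 (1 + D.ϖ ^ a * (c₀ : L₀))) = algebraMap κ Fb (D.resA c₀) ∧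
      (1 + D.ϖ ^ a * (c₀ : L₀)) ≠ 0 := by
  have hCcong : s33f_Cong D a (algebraMap L₀ 𝓕 (1 + D.ϖ ^ a * (c₀ : L₀))) 1 := by
    refine ⟨algebraMap L₀ 𝓕 (c₀ : L₀), s33f_const_mem D c₀, ?_⟩
    unfold s33f_pi
    rw [map_add, map_one, map_mul, map_pow]; ring
  refine ⟨hCcong, s33f_lead_const c₀, ?_⟩
  intro h0
  have := s33f_ne_zero_of_cong_one ha hCcong
  rw [h0, map_zero] at this
  exact this rfl

/-- one component of Deepen_Σ, case `p ∣ a`: the explicit correcting element. -/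
theorem s33z_deepen_comp {a m : ℕ} (ha : 1 ≤ a) (hm : 1 ≤ m) (e : a = D.p * m)
    (hns : ¬ s33f_SuperCrit D a) (c₀ : D.A₀) {x f : 𝓕} (hx : x ∈ D.O) (hf : s33f_Cong D a f 1)
    (hl : s33f_lead D a f = algebraMap κ Fb (D.resA c₀) + s33f_phi D a (s33f_redX D x)) :
    s33f_Cong D a ((algebraMap L₀ 𝓕 (1 + D.ϖ ^ a * (c₀ : L₀)))⁻¹ *
        ((1 + s33f_pi D ^ m * x) ^ D.p)⁻¹) 1 ∧
      s33f_Cong D (a + 1) ((algebraMap L₀ 𝓕 (1 + D.ϖ ^ a * (c₀ : L₀)))⁻¹ *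
        ((1 + s33f_pi D ^ m * x) ^ D.p)⁻¹ * f) 1 := by
  obtain ⟨hCcong, hClead, -⟩ := s33z_const_corr D ha c₀
  obtain ⟨h1, h2⟩ := s33f_lead_pow (D := D) hm e hns hx
  have hg : s33f_Cong D a ((algebraMap L₀ 𝓕 (1 + D.ϖ ^ a * (c₀ : L₀)))⁻¹ *
      ((1 + s33f_pi D ^ m * x) ^ D.p)⁻¹) 1 := (hCcong.inv₁ ha).mul₁ (h1.inv₁ ha)
  refine ⟨hg, ?_⟩
  rw [← s33f_lead_eq_zero_iff (hg.mul₁ hf), s33f_lead_mul ha hg hf,
    s33f_lead_mul ha (hCcong.inv₁ ha) (h1.inv₁ ha), s33f_lead_inv ha hCcong, s33f_lead_inv ha h1,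
    hClead, h2, hl]
  ring

/-- one component of Deepen_Σ, case of a constant leading term. -/
theorem s33z_deepen_comp_const {a : ℕ} (ha : 1 ≤ a) (c₀ : D.A₀) {f : 𝓕} (hf : s33f_Cong D a f 1)
    (hl : s33f_lead D a f = algebraMap κ Fb (D.resA c₀)) :
    s33f_Cong D a (algebraMap L₀ 𝓕 (1 + D.ϖ ^ a * (c₀ : L₀)))⁻¹ 1 ∧
      s33f_Cong D (a + 1) ((algebraMap L₀ 𝓕 (1 + D.ϖ ^ a * (c₀ : L₀)))⁻¹ * f) 1 := by
  obtain ⟨hCcong, hClead, -⟩ := s33z_const_corr D ha c₀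
  refine ⟨hCcong.inv₁ ha, ?_⟩
  rw [← s33f_lead_eq_zero_iff ((hCcong.inv₁ ha).mul₁ hf), s33f_lead_mul ha (hCcong.inv₁ ha) hf,
    s33f_lead_inv ha hCcong, hClead, hl]
  ring

end DeepenComp

section Deepen

variable {Z}

/-- **Deepen_Σ**: if the leading pair at a non-super-critical depth `a ≥ 1` lies in `S_a^Σ`, the class has
node-avoiding depth `≥ a + 1`, the correcting element of `𝒢⁰_Σ` being itself `≡ 1 mod ϖ ^ a`. -/
theorem s33z_deepen {a : ℕ} (ha : 1 ≤ a) (hns : ¬ s33f_SuperCrit D' a) {f : 𝓕}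
    (hf : s33z_Cong Z a f) (hS : s33z_lead Z a f ∈ s33z_S Z a) :
    ∃ g : 𝓕, s33z_IsKum0 Z g ∧ s33z_Cong Z a g ∧ s33z_Cong Z (a + 1) (g * f) := by
  obtain ⟨c, φi, φz, hgl, e1, e2, h0⟩ := hS
  change s33f_lead Z.Di a f = _ at e1
  change s33f_lead Z.Dz a f = _ at e2
  obtain ⟨c₀, rfl⟩ := D'.resA_surjective c
  have hC0 : (1 + D'.ϖ ^ a * (c₀ : L₀)) ≠ 0 := (s33z_const_corr Z.Di ha c₀).2.2
  by_cases hpa : D'.p ∣ a
  · obtain ⟨m, rfl⟩ := hpa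
    have hm : 1 ≤ m := by
      rcases Nat.eq_zero_or_pos m with rfl | hm
      · simp at ha
      · exact hm
    obtain ⟨x, hxi, hxz, hxr, rfl, rfl⟩ := Z.lift φi φz hgl
    have ri : s33f_redX Z.Di x = Z.Ci.red ⟨x, hxi⟩ := s33f_redX_of_mem Z.Di hxi
    have rz : s33f_redX Z.Dz x = Z.Cz.red ⟨x, hxz⟩ := s33f_redX_of_mem Z.Dz hxz
    obtain ⟨ai, bi⟩ := s33z_deepen_comp Z.Di ha hm rfl hns c₀ hxi hf.1 (by rw [ri]; exact e1)
    obtain ⟨az, bz⟩ := s33z_deepen_comp Z.Dz ha hm rfl hns c₀ hxz hf.2 (by rw [rz]; exact e2)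
    -- `1 + ϖ ^ m x` is node-avoiding
    have hnf : s33z_NF Z (1 + s33z_pi Z ^ m * x) := by
      obtain ⟨m', rfl⟩ : ∃ m', m = m' + 1 := ⟨m - 1, by omega⟩
      have hpi_i : s33z_pi Z ^ m' ∈ Z.Ci.O := s33f_pi_pow_mem Z.Di m'
      have hpi_z : s33z_pi Z ^ m' ∈ Z.Cz.O := s33f_pi_pow_mem Z.Dz m'
      have := s33z_nf_one_add (Z := Z) (y := s33z_pi Z ^ m' * x) (Z.Ci.O.mul_mem _ _ hpi_i hxi)
        (Z.Cz.O.mul_mem _ _ hpi_z hxz) ((s33z_reg_pi_pow m').mul hxr)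
      have e : 1 + s33z_pi Z ^ (m' + 1) * x = 1 + s33z_pi Z * (s33z_pi Z ^ m' * x) := by
        rw [pow_succ]; ring
      rw [e]
      exact this
    refine ⟨(algebraMap L₀ 𝓕 (1 + D'.ϖ ^ (D'.p * m) * (c₀ : L₀)))⁻¹ *
      ((1 + s33z_pi Z ^ m * x) ^ D'.p)⁻¹, ?_, ⟨ai, az⟩, ⟨bi, bz⟩⟩
    exact (s33z_isKum0_const hC0).inv.mul (s33z_isKum0_pow hnf).inv
  · obtain ⟨rfl, rfl⟩ := h0 hpa
    rw [s33z_phi_zero, add_zero] at e1 e2
    obtain ⟨ai, bi⟩ := s33z_deepen_comp_const Z.Di ha c₀ hf.1 e1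
    obtain ⟨az, bz⟩ := s33z_deepen_comp_const Z.Dz ha c₀ hf.2 e2
    exact ⟨(algebraMap L₀ 𝓕 (1 + D'.ϖ ^ a * (c₀ : L₀)))⁻¹, (s33z_isKum0_const hC0).inv,
      ⟨ai, az⟩, ⟨bi, bz⟩⟩

end Deepen

/-! ### General lemmas on one datum: leading terms of classes of higher depth -/

section OneDatum

variable (D : s33f_Datum L₀ 𝓕 κ Fb)

theorem s33z_phi_neg (a : ℕ) (x : Fb) : s33f_phi D a (-x) = - s33f_phi D a x := by
  haveI : Fact D.p.Prime := ⟨D.p_prime⟩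
  haveI : CharP Fb D.p := s33f_charP_Fb D
  have h : (-x) ^ D.p = -(x ^ D.p) := by
    rw [neg_pow, neg_one_pow_char Fb D.p, neg_one_mul]
  unfold s33f_phi
  split_ifs
  · rw [h]; ring
  · exact h

theorem s33z_S_neg {a : ℕ} {u : Fb} (h : u ∈ s33f_S D a) : -u ∈ s33f_S D a := by
  obtain ⟨c, x, e, hx⟩ := h
  refine ⟨-c, -x, ?_, fun hpa => by rw [hx hpa, neg_zero]⟩
  rw [e, s33z_phi_neg, map_neg]; ring

variable {D}

/-- multiplying by an element of `𝒢⁰` does not change the depth. -/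
theorem s33z_depthGE_mul_kum0 {a : ℕ} {f g : 𝓕} (hg : s33f_IsKum0 D g) (h : s33f_DepthGE D a f) :
    s33f_DepthGE D a (g * f) := by
  obtain ⟨g', hg', hc⟩ := h
  refine ⟨g' * g⁻¹, hg'.mul hg.inv, ?_⟩
  have : g' * g⁻¹ * (g * f) = g' * f := by
    have := hg.ne_zero
    field_simp
  rwa [this]

/-- **converse of Deepen** (from `s33f_kumLead`): if `F ≡ 1 mod ϖ ^ a` has depth `≥ a + 1` then its leading
term lies in the ambiguity `S_a`. -/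
theorem s33z_lead_mem_S_of_depth {a : ℕ} (ha : 1 ≤ a) (hns : ¬ s33f_SuperCrit D a) {F : 𝓕}
    (hF : s33f_Cong D a F 1) (hd : s33f_DepthGE D (a + 1) F) : s33f_lead D a F ∈ s33f_S D a := by
  obtain ⟨g, hg, hc⟩ := hd
  have hF0 : F ≠ 0 := s33f_ne_zero_of_cong_one ha hF
  have hga : s33f_Cong D a g 1 := by
    have h1 : s33f_Cong D a (g * F * F⁻¹) 1 := (hc.mono (Nat.le_succ a)).mul₁ (hF.inv₁ ha)
    have : g * F * F⁻¹ = g := by field_simp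
    rwa [this] at h1
  have h0 : s33f_lead D a (g * F) = 0 := (s33f_lead_eq_zero_iff (hga.mul₁ hF)).mpr hc
  rw [s33f_lead_mul ha hga hF] at h0
  have hS := s33f_kumLead (D := D) a ha hns g hg hga
  have : s33f_lead D a F = - s33f_lead D a g := by linear_combination h0
  rw [this]
  exact s33z_S_neg D hS

/-- a critical exponent is not super-critical, and a sub-critical one is neither. -/
theorem s33z_not_superCrit_of_subCrit {a : ℕ} (h : s33f_SubCrit D a) : ¬ s33f_SuperCrit D a := by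
  unfold s33f_SuperCrit
  unfold s33f_SubCrit at h
  omega

theorem s33z_not_crit_of_subCrit {a : ℕ} (h : s33f_SubCrit D a) : ¬ s33f_Crit D a := by
  unfold s33f_Crit
  unfold s33f_SubCrit at h
  omega

/-- one component of (A4): `s f / f ^ n ≡ 1 mod ϖ ^ (a + 1)` when `θ ^ a = n̄`. -/
theorem s33z_gal_cong_succ (G : s33f_GalAut D) {a : ℕ} (ha : 1 ≤ a) {f : 𝓕}
    (hc : s33f_Cong D a f 1) (n : ℕ) (hn : s33f_theta G ^ a = (n : κ)) :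
    s33f_Cong D (a + 1) (G.s f * (f ^ n)⁻¹) 1 := by
  obtain ⟨hc1, hl1⟩ := s33f_gal_lead G hc
  have hc2 : s33f_Cong D a (f ^ n)⁻¹ 1 := (hc.pow₁ n).inv₁ ha
  have hc3 : s33f_Cong D a (G.s f * (f ^ n)⁻¹) 1 := hc1.mul₁ hc2
  have hl : s33f_lead D a (G.s f * (f ^ n)⁻¹) = 0 := by
    rw [s33f_lead_mul ha hc1 hc2, hl1, s33f_lead_inv ha (hc.pow₁ n), s33f_lead_npow ha hc, hn,
      map_natCast]
    ring
  exact (s33f_lead_eq_zero_iff hc3).mp hl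

end OneDatum

/-! ### [TRACE] and [CRIT-ss] (A3) -/

/-- the two norm maps `N_α, N_β : 𝓕 → 𝓕'` from level `N = p M'` to level `M'`. -/
structure s33z_NormData (D' : s33f_Datum L₀ 𝓕' κ Fb) (𝓕 : Type*) [Field 𝓕] [Algebra L₀ 𝓕] where
  /-- the norm along `α` -/
  Na : 𝓕 →* 𝓕'
  /-- the norm along `β` -/
  Nb : 𝓕 →* 𝓕'
  Na_const : ∀ c : L₀, Na (algebraMap L₀ 𝓕 c) = algebraMap L₀ 𝓕' (c ^ (D'.p + 1))
  Nb_const : ∀ c : L₀, Nb (algebraMap L₀ 𝓕 c) = algebraMap L₀ 𝓕' (c ^ (D'.p + 1))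
  Na_ne_zero : ∀ f : 𝓕, f ≠ 0 → Na f ≠ 0
  Nb_ne_zero : ∀ f : 𝓕, f ≠ 0 → Nb f ≠ 0

/-- **[TRACE]** (helper3): `N_α (1 + ϖ ^ a y) ≡ 1 + ϖ ^ a Tr_α y` with `red (Tr_α y) = red_∞ y`, and
`N_β (1 + ϖ ^ a y) ≡ 1 + ϖ ^ a Tr_β y` with `red (Tr_β y) = red_0 y`, for `y ∈ O_∞ ⊓ O_0`, `a ≥ 1`. -/
def s33z_Trace (Nm : s33z_NormData D' 𝓕) : Prop :=
  ∀ a : ℕ, 1 ≤ a → ∀ f : 𝓕, s33z_Cong Z a f →
    (s33f_Cong D' a (Nm.Na f) 1 ∧ s33f_lead D' a (Nm.Na f) = s33f_lead Z.Di a f) ∧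
    (s33f_Cong D' a (Nm.Nb f) 1 ∧ s33f_lead D' a (Nm.Nb f) = s33f_lead Z.Dz a f)

section CritSs

variable {Z} (Nm : s33z_NormData D' 𝓕)

theorem s33z_Na_isKum0 {g : 𝓕} (hg : s33z_IsKum0 Z g) : s33f_IsKum0 D' (Nm.Na g) := by
  obtain ⟨c, h, hc, hh, rfl⟩ := hg
  refine ⟨c ^ (D'.p + 1), Nm.Na h, pow_ne_zero _ hc, Nm.Na_ne_zero h hh.1, ?_⟩
  rw [map_mul, map_pow, Nm.Na_const]

theorem s33z_Nb_isKum0 {g : 𝓕} (hg : s33z_IsKum0 Z g) : s33f_IsKum0 D' (Nm.Nb g) := by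
  obtain ⟨c, h, hc, hh, rfl⟩ := hg
  refine ⟨c ^ (D'.p + 1), Nm.Nb h, pow_ne_zero _ hc, Nm.Nb_ne_zero h hh.1, ?_⟩
  rw [map_mul, map_pow, Nm.Nb_const]

/-- **[CRIT-ss] (A3)**: `f` node-avoiding, `f ≡ 1 mod ϖ ^ a` with `a ≥ 1` sub-critical, and both norms
`N_α f`, `N_β f` of depth `≥ a + 1` at level `M'`.  Then `f` has node-avoiding depth `≥ a + 1`. -/
theorem s33z_critSs (hTr : s33z_Trace Z Nm) {a : ℕ} (ha : 1 ≤ a) (hsub : s33f_SubCrit D' a) {f : 𝓕}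
    (hnf : s33z_NF Z f) (hf : s33z_Cong Z a f) (hα : s33f_DepthGE D' (a + 1) (Nm.Na f))
    (hβ : s33f_DepthGE D' (a + 1) (Nm.Nb f)) :
    ∃ g : 𝓕, s33z_IsKum0 Z g ∧ s33z_Cong Z a g ∧ s33z_Cong Z (a + 1) (g * f) := by
  have hns := s33z_not_superCrit_of_subCrit hsub
  have hnc := s33z_not_crit_of_subCrit hsub
  obtain ⟨⟨ca, la⟩, ⟨cb, lb⟩⟩ := hTr a ha f hf
  have hSa : s33f_lead Z.Di a f ∈ s33f_S D' a := by
    rw [← la]; exact s33z_lead_mem_S_of_depth ha hns ca hα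
  have hSb : s33f_lead Z.Dz a f ∈ s33f_S D' a := by
    rw [← lb]; exact s33z_lead_mem_S_of_depth ha hns cb hβ
  exact s33z_deepen ha hns hf (s33z_S_of_comp hnc (s33z_glued_lead hnf hf) hSa hSb)

/-- (A3) for classes: one step of depth. -/
theorem s33z_depth_succ (hTr : s33z_Trace Z Nm) {a : ℕ} (ha : 1 ≤ a) (hsub : s33f_SubCrit D' a)
    {f : 𝓕} (hnf : s33z_NF Z f) (hd : s33z_DepthGE Z a f)
    (hα : s33f_DepthGE D' (a + 1) (Nm.Na f)) (hβ : s33f_DepthGE D' (a + 1) (Nm.Nb f)) :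
    s33z_DepthGE Z (a + 1) f := by
  obtain ⟨g, hg, hc⟩ := hd
  have h1 : s33f_DepthGE D' (a + 1) (Nm.Na (g * f)) := by
    rw [map_mul]; exact s33z_depthGE_mul_kum0 (s33z_Na_isKum0 Nm hg) hα
  have h2 : s33f_DepthGE D' (a + 1) (Nm.Nb (g * f)) := by
    rw [map_mul]; exact s33z_depthGE_mul_kum0 (s33z_Nb_isKum0 Nm hg) hβ
  obtain ⟨g', hg', -, hc'⟩ := s33z_critSs Nm hTr ha hsub (hg.nf.mul hnf) hc h1 h2
  exact ⟨g' * g, hg'.mul hg, by rwa [mul_assoc]⟩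

/-- iteration of (A3): if both norms have depth `≥ ac` at level `M'` (all `a < ac` sub-critical), a
node-avoiding `f` of node-avoiding depth `≥ 1` has node-avoiding depth `≥ ac`. -/
theorem s33z_depth_iter (hTr : s33z_Trace Z Nm) {ac : ℕ}
    (hsub : ∀ a, 1 ≤ a → a < ac → s33f_SubCrit D' a) {f : 𝓕} (hnf : s33z_NF Z f)
    (hd : s33z_DepthGE Z 1 f) (hα : s33f_DepthGE D' ac (Nm.Na f))
    (hβ : s33f_DepthGE D' ac (Nm.Nb f)) :
    ∀ a : ℕ, 1 ≤ a → a ≤ ac → s33z_DepthGE Z a f := by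
  intro a ha
  induction a, ha using Nat.le_induction with
  | base => intro _; exact hd
  | succ a ha ih =>
    intro hac
    exact s33z_depth_succ Nm hTr ha (hsub a ha (by omega)) hnf (ih (by omega))
      (s33f_depthGE_mono (by omega) hα) (s33f_depthGE_mono (by omega) hβ)

end CritSs

/-! ### (A4): the critical piece is of `μ`-type; the output [MU-ss] -/

/-- **An automorphism of inertia type of the Σ-datum**: of inertia type for both components, and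
permuting the places through the nodes. -/
structure s33z_GalAut (Z : s33z_Datum D' 𝓕 ι k) where
  /-- the (coefficientwise) action on the function field -/
  s : 𝓕 ≃+* 𝓕
  /-- the action on the constants -/
  s₀ : L₀ ≃+* L₀
  s_const : ∀ c : L₀, s (algebraMap L₀ 𝓕 c) = algebraMap L₀ 𝓕 (s₀ c)
  s_memi : ∀ x : 𝓕, x ∈ Z.Ci.O → s x ∈ Z.Ci.O
  s_memz : ∀ x : 𝓕, x ∈ Z.Cz.O → s x ∈ Z.Cz.O
  s_redi : ∀ (x : 𝓕) (hx : x ∈ Z.Ci.O), Z.Ci.red ⟨s x, s_memi x hx⟩ = Z.Ci.red ⟨x, hx⟩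
  s_redz : ∀ (x : 𝓕) (hx : x ∈ Z.Cz.O), Z.Cz.red ⟨s x, s_memz x hx⟩ = Z.Cz.red ⟨x, hx⟩
  /-- `w = s₀ ϖ / ϖ` -/
  w : L₀
  w_mem : w ∈ D'.A₀
  s_unif : s₀ D'.ϖ = D'.ϖ * w
  /-- `s` permutes the places through the nodes -/
  s_nf : ∀ f : 𝓕, s33z_NF Z f → s33z_NF Z (s f)

section Mu

variable {Z}

/-- the automorphism of inertia type of the `∞`-component. -/
def s33z_GalAut.Gi (G : s33z_GalAut Z) : s33f_GalAut Z.Di where
  s := G.s
  s₀ := G.s₀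
  s_const := G.s_const
  s_mem := G.s_memi
  s_red := G.s_redi
  w := G.w
  w_mem := G.w_mem
  s_unif := G.s_unif

/-- the automorphism of inertia type of the `0`-component. -/
def s33z_GalAut.Gz (G : s33z_GalAut Z) : s33f_GalAut Z.Dz where
  s := G.s
  s₀ := G.s₀
  s_const := G.s_const
  s_mem := G.s_memz
  s_red := G.s_redz
  w := G.w
  w_mem := G.w_mem
  s_unif := G.s_unif

/-- the tame character value `θ = (s₀ ϖ / ϖ mod ϖ) ∈ κ`. -/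
def s33z_theta (G : s33z_GalAut Z) : κ := D'.resA ⟨G.w, G.w_mem⟩

theorem s33z_theta_i (G : s33z_GalAut Z) : s33f_theta G.Gi = s33z_theta G := rfl

theorem s33z_theta_z (G : s33z_GalAut Z) : s33f_theta G.Gz = s33z_theta G := rfl

theorem s33z_GalAut.s_kum (G : s33z_GalAut Z) {f : 𝓕} (hf : s33z_IsKum Z f) :
    s33z_IsKum Z (G.s f) := ⟨G.Gi.s_kum f hf.1, G.s_nf f hf.2⟩

theorem s33z_GalAut.s_kum0 (G : s33z_GalAut Z) {g : 𝓕} (hg : s33z_IsKum0 Z g) :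
    s33z_IsKum0 Z (G.s g) := by
  obtain ⟨c, h, hc, hh, rfl⟩ := hg
  refine ⟨G.s₀ c, G.s h, (map_ne_zero_iff _ G.s₀.injective).mpr hc, G.s_nf h hh, ?_⟩
  rw [map_mul, map_pow, G.s_const]

/-- **(A4)**: if `f ∈ 𝒢_Σ`, `f ≡ 1 mod ϖ ^ a` with `a` critical and `θ ^ a = n̄`, then `s f / f ^ n ∈ 𝒢⁰`. -/
theorem s33z_crit_mu (hSC : s33z_SuperCritical Z) (G : s33z_GalAut Z) {a : ℕ} (ha : 1 ≤ a)
    (hcrit : s33f_Crit D' a) {f : 𝓕} (hf : s33z_IsKum Z f) (hc : s33z_Cong Z a f) (n : ℕ)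
    (hn : s33z_theta G ^ a = (n : κ)) : s33f_IsKum0 Z.Di (G.s f * (f ^ n)⁻¹) := by
  have h1 : s33f_Cong Z.Di (a + 1) (G.s f * (f ^ n)⁻¹) 1 := s33z_gal_cong_succ G.Gi ha hc.1 n hn
  have h2 : s33f_Cong Z.Dz (a + 1) (G.s f * (f ^ n)⁻¹) 1 := s33z_gal_cong_succ G.Gz ha hc.2 n hn
  exact hSC (a + 1) (s33f_superCrit_succ_of_crit (D := D') hcrit) _
    ((G.s_kum hf).mul (hf.pow n).inv) ⟨h1, h2⟩

/-- (A4) for classes: node-avoiding depth `≥ ac` (critical) ⇒ `μ`-type. -/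
theorem s33z_crit_mu_class (hSC : s33z_SuperCritical Z) (G : s33z_GalAut Z) {ac : ℕ} (hac : 1 ≤ ac)
    (hcrit : s33f_Crit D' ac) {f : 𝓕} (hf : s33z_IsKum Z f) (hd : s33z_DepthGE Z ac f) (n : ℕ)
    (hn : s33z_theta G ^ ac = (n : κ)) : s33f_IsKum0 Z.Di (G.s f * (f ^ n)⁻¹) := by
  obtain ⟨g, hg, hc⟩ := hd
  have h1 := s33z_crit_mu hSC G hac hcrit (hg.isKum.mul hf) hc n hn
  have h2 : s33f_IsKum0 Z.Di (G.s g * (g ^ n)⁻¹) := ((G.s_kum0 hg).mul (hg.pow n).inv).isKum0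
  have e : G.s f * (f ^ n)⁻¹ = (G.s (g * f) * ((g * f) ^ n)⁻¹) * (G.s g * (g ^ n)⁻¹)⁻¹ := by
    have hg0 : g ≠ 0 := hg.nf.1
    have hsg0 : G.s g ≠ 0 := (map_ne_zero_iff _ G.s.injective).mpr hg0
    have hf0 : f ≠ 0 := hf.2.1
    rw [map_mul, mul_pow]
    field_simp
  rw [e]
  exact h1.mul h2.inv

variable (Nm : s33z_NormData D' 𝓕)

/-- **[MU-ss], Kummer side**: let `f ∈ 𝒢_Σ` have node-avoiding depth `≥ 1` (i.e. its class lies in `J¹_1`), and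
suppose that both norms `N_α f`, `N_β f` are critical-or-zero at level `M'` (depth `≥ ac`).  Then `f` is
critical-or-zero (node-avoiding depth `≥ ac`) and an automorphism `s` of inertia type with `θ ^ ac = n̄` acts
on its class as multiplication by `n`: `s f / f ^ n ∈ 𝒢⁰`. -/
theorem s33z_muSs_abstract (hTr : s33z_Trace Z Nm) (hSC : s33z_SuperCritical Z) (G : s33z_GalAut Z)
    {ac : ℕ} (hac : 1 ≤ ac) (hcrit : s33f_Crit D' ac) (n : ℕ) (hn : s33z_theta G ^ ac = (n : κ))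
    {f : 𝓕} (hf : s33z_IsKum Z f) (hd : s33z_DepthGE Z 1 f)
    (hα : s33f_DepthGE D' ac (Nm.Na f)) (hβ : s33f_DepthGE D' ac (Nm.Nb f)) :
    s33z_DepthGE Z ac f ∧ s33f_IsKum0 Z.Di (G.s f * (f ^ n)⁻¹) := by
  have hdep : s33z_DepthGE Z ac f :=
    s33z_depth_iter Nm hTr (fun a _ h => s33f_subCrit_of_lt_crit hcrit h) hf.2 hd hα hβ ac hac le_rfl
  exact ⟨hdep, s33z_crit_mu_class hSC G hac hcrit hf hdep n hn⟩

/-- **[MU-ss], Kummer side, cyclotomic form**: with `ζ_p ∈ L₀` and `s₀ ζ = ζ ^ n`. -/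
theorem s33z_muSs (hTr : s33z_Trace Z Nm) (hSC : s33z_SuperCritical Z) (G : s33z_GalAut Z)
    {ζ : L₀} (hζ : IsPrimitiveRoot ζ D'.p) (n : ℕ) (hs : G.s₀ ζ = ζ ^ n)
    {f : 𝓕} (hf : s33z_IsKum Z f) (hd : s33z_DepthGE Z 1 f)
    (hα : ∀ ac, s33f_Crit D' ac → s33f_DepthGE D' ac (Nm.Na f))
    (hβ : ∀ ac, s33f_Crit D' ac → s33f_DepthGE D' ac (Nm.Nb f)) :
    s33f_IsKum0 Z.Di (G.s f * (f ^ n)⁻¹) := by
  obtain ⟨ac, hac, hcrit⟩ := s33f_exists_crit_of_zeta (D := D') hζ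
  have hn : s33z_theta G ^ ac = (n : κ) :=
    s33f_theta_pow (D := Z.Di) G.Gi hζ n hs hcrit
  exact (s33z_muSs_abstract Nm hTr hSC G hac hcrit n hn hf hd (hα ac hcrit) (hβ ac hcrit)).2

end Mu

end Fermat.Agent.Lib.S33
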