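/-
P-AT-P programme (S33), brick [DESC] (helper1), part 1 = [DESC-B]: COEFFICIENT DESCENT.

For an algebraic extension `K / K₀` of fields of characteristic zero and
`F₀ ⊆ ℚ((q))`: an element of the function field `laurentBaseChange K F₀ ⊆ K((q))` all of whose
`q`-expansion coefficients lie in `K₀` comes from `laurentBaseChange K₀ F₀`
(`s33d_mem_range_of_coeff`).  Consequently (Galois form, `s33d_mem_range_incl_of_fixed`) an element of
`F_{ℚ̄}` fixed by the coefficientwise action of `Gal(ℚ̄ / L₀)` is defined over `L₀`.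

Proof: a `K₀`-linear retraction `λ : K → K₀` applied coefficientwise is additive and
`F_{K₀}`-semilinear (`s33d_lam_mul`); `F_K` is the `F_{K₀}`-span of the constants (`K / K₀`
algebraic), hence `Λ` maps `F_K` into `F_{K₀}` (`s33d_lam_mem`).
-/
import Mathlib
import Fermat.Agent.Lib.S18.QBase
import Fermat.Prelude.Def_ModularCurve_ArithmeticGalois

set_option autoImplicit false

noncomputable section

namespace Fermat.Agent.Lib.S33

open ModularCurve HahnSeries Fermat.Agent.Lib.S18

section Lam

variable {K₀ K : Type*} [Field K₀] [Field K] [Algebra K₀ K]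

/-- coefficientwise application of a `K₀`-linear functional `K → K₀`. -/
def s33d_lam (lam : K →ₗ[K₀] K₀) : LaurentSeries K →+ LaurentSeries K₀ where
  toFun x := x.map lam
  map_zero' := by
    ext n
    simp
  map_add' x y := by
    ext n
    simp

@[simp]
theorem s33d_lam_coeff (lam : K →ₗ[K₀] K₀) (x : LaurentSeries K) (n : ℤ) :
    (s33d_lam lam x).coeff n = lam (x.coeff n) := rfl

/-- `Λ` is semilinear over the series with coefficients in `K₀`. -/
theorem s33d_lam_mul (lam : K →ₗ[K₀] K₀) (y : LaurentSeries K₀) (x : LaurentSeries K) :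
    s33d_lam lam (coeffMap (algebraMap K₀ K) y * x) = y * s33d_lam lam x := by
  ext n
  rw [s33d_lam_coeff]
  have hs1 : (coeffMap (algebraMap K₀ K) y).support ⊆ y.support := by
    intro i hi
    rw [HahnSeries.mem_support] at hi ⊢
    intro h0
    apply hi
    rw [coeffMap_coeff, h0, map_zero]
  have hs2 : (s33d_lam lam x).support ⊆ x.support := by
    intro i hi
    rw [HahnSeries.mem_support] at hi ⊢
    intro h0
    apply hi
    rw [s33d_lam_coeff, h0, map_zero]
  rw [HahnSeries.coeff_mul_left' y.isPWO_support hs1,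
    HahnSeries.coeff_mul_right' x.isPWO_support hs2, map_sum]
  refine Finset.sum_congr rfl fun ij _ => ?_
  rw [coeffMap_coeff, s33d_lam_coeff, ← Algebra.smul_def, map_smul, smul_eq_mul]

theorem s33d_lam_algebraMap (lam : K →ₗ[K₀] K₀) (b : K) :
    s33d_lam lam (algebraMap K (LaurentSeries K) b) =
      algebraMap K₀ (LaurentSeries K₀) (lam b) := by
  rw [algebraMap_laurentSeries_eq_single, algebraMap_laurentSeries_eq_single]
  ext n
  rw [s33d_lam_coeff]
  rcases eq_or_ne n 0 with rfl | hn
  · rw [HahnSeries.coeff_single_same, HahnSeries.coeff_single_same]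
  · rw [HahnSeries.coeff_single_of_ne hn, HahnSeries.coeff_single_of_ne hn, map_zero]

end Lam

section DescGen

variable {K₀ K : Type*} [Field K₀] [Field K] [Algebra K₀ K] [Algebra.IsAlgebraic K₀ K]

/-- **General form**: for a set `Gs` of series over `K₀`, `Λ` maps the field generated over `K` by the
images of `Gs` into the field generated over `K₀` by `Gs`. -/
theorem s33d_lam_mem_adjoin (lam : K →ₗ[K₀] K₀) (Gs : Set (LaurentSeries K₀))
    {x : LaurentSeries K}
    (hx : x ∈ IntermediateField.adjoin K (⇑(coeffMap (algebraMap K₀ K)) '' Gs)) :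
    s33d_lam lam x ∈ IntermediateField.adjoin K₀ Gs := by
  classical
  set φ : K₀ →+* K := algebraMap K₀ K with hφ
  -- the image of `K₀(Gs)` in `K((q))`
  set S : Subfield (LaurentSeries K) :=
    (IntermediateField.adjoin K₀ Gs).toSubfield.map (coeffMap φ) with hS
  set T : Set (LaurentSeries K) := Set.range (algebraMap K (LaurentSeries K)) with hT
  have hSmem : ∀ y : LaurentSeries K₀, y ∈ IntermediateField.adjoin K₀ Gs → coeffMap φ y ∈ S := by
    intro y hy
    exact ⟨y, hy, rfl⟩
  have hcoeffC : ∀ c : K₀, coeffMap φ (algebraMap K₀ (LaurentSeries K₀) c) =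
      algebraMap K (LaurentSeries K) (φ c) := by
    intro c
    rw [algebraMap_laurentSeries_eq_single, algebraMap_laurentSeries_eq_single, coeffMap_single]
  -- constants are algebraic over `S`
  have halg : ∀ t ∈ T, IsAlgebraic ↥S t := by
    rintro _ ⟨b, rfl⟩
    obtain ⟨p, hp0, hp⟩ := Algebra.IsAlgebraic.isAlgebraic (R := K₀) b
    let ι : K₀ →+* ↥S :=
      ((coeffMap φ).comp (algebraMap K₀ (LaurentSeries K₀))).codRestrict S fun c =>
        hSmem _ ((IntermediateField.adjoin K₀ Gs).algebraMap_mem c)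
    refine ⟨p.map ι, (Polynomial.map_ne_zero_iff ι.injective).mpr hp0, ?_⟩
    rw [Polynomial.aeval_def, Polynomial.eval₂_map]
    have hcomp : (algebraMap ↥S (LaurentSeries K)).comp ι =
        (algebraMap K (LaurentSeries K)).comp φ := by
      ext c : 1
      show coeffMap φ (algebraMap K₀ (LaurentSeries K₀) c) = _
      rw [hcoeffC]
      rfl
    rw [hcomp, ← Polynomial.hom_eval₂]
    have : Polynomial.eval₂ φ b p = 0 := by
      rw [← Polynomial.aeval_def]
      exact hp
    rw [this, map_zero]
  -- `K(Gs) ⊆ S(T)`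
  have hadj : x ∈ IntermediateField.adjoin ↥S T := by
    have hx' : x ∈ Subfield.closure (Set.range (algebraMap K (LaurentSeries K)) ∪
        (⇑(coeffMap φ) '' Gs)) := hx
    clear hx
    induction hx' using Subfield.closure_induction with
    | mem y hy =>
        rcases hy with ⟨a, rfl⟩ | ⟨z, hz, rfl⟩
        · exact IntermediateField.subset_adjoin _ _ ⟨a, rfl⟩
        · have h1 : coeffMap φ z ∈ S := hSmem _ (IntermediateField.subset_adjoin K₀ Gs hz)
          exact (IntermediateField.adjoin ↥S T).algebraMap_mem ⟨_, h1⟩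
    | one => exact one_mem _
    | add x y _ _ hx hy => exact add_mem hx hy
    | neg x _ hx => exact neg_mem hx
    | inv x _ hx => exact inv_mem hx
    | mul x y _ _ hx hy => exact mul_mem hx hy
  have hadj' : x ∈ Algebra.adjoin ↥S T := by
    rw [← IntermediateField.adjoin_toSubalgebra_of_isAlgebraic halg]
    exact hadj
  have hspan : x ∈ Submodule.span ↥S (Submonoid.closure T : Set (LaurentSeries K)) := by
    rw [← Algebra.adjoin_eq_span]
    exact hadj'
  have hclos : ∀ t ∈ Submonoid.closure T, t ∈ T := by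
    intro t ht
    induction ht using Submonoid.closure_induction with
    | mem t ht => exact ht
    | one => exact ⟨1, map_one _⟩
    | mul a b _ _ ha hb =>
        obtain ⟨a', rfl⟩ := ha
        obtain ⟨b', rfl⟩ := hb
        exact ⟨a' * b', map_mul _ _ _⟩
  have key : ∀ w ∈ Submodule.span ↥S (Submonoid.closure T : Set (LaurentSeries K)),
      s33d_lam lam w ∈ IntermediateField.adjoin K₀ Gs := by
    intro w hw
    induction hw using Submodule.span_induction with
    | mem t ht =>
      obtain ⟨b, rfl⟩ := hclos t ht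
      rw [s33d_lam_algebraMap]
      exact (IntermediateField.adjoin K₀ Gs).algebraMap_mem _
    | zero =>
      rw [map_zero]
      exact zero_mem _
    | add a b _ _ ha hb =>
      rw [map_add]
      exact add_mem ha hb
    | smul s a _ ha =>
      obtain ⟨y, hy, hys⟩ := s.2
      have h1 : s • a = coeffMap φ y * a := by
        rw [Algebra.smul_def]
        congr 1
        exact hys.symm
      rw [h1, s33d_lam_mul]
      exact mul_mem hy ha
  exact key x hspan

/-- **Coefficient descent, general form**: an element of `K(φ Gs)` whose coefficients lie in `K₀` is the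
image of an element of `K₀(Gs)`. -/
theorem s33d_exists_of_coeff_adjoin (Gs : Set (LaurentSeries K₀)) {x : LaurentSeries K}
    (hx : x ∈ IntermediateField.adjoin K (⇑(coeffMap (algebraMap K₀ K)) '' Gs))
    (hc : ∀ n : ℤ, x.coeff n ∈ (algebraMap K₀ K).range) :
    ∃ y ∈ IntermediateField.adjoin K₀ Gs, coeffMap (algebraMap K₀ K) y = x := by
  obtain ⟨lam, hlam⟩ := LinearMap.exists_leftInverse_of_injective (Algebra.linearMap K₀ K)
    (LinearMap.ker_eq_bot.mpr (algebraMap K₀ K).injective)
  have hlam' : ∀ a : K₀, lam (algebraMap K₀ K a) = a := fun a =>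
    LinearMap.congr_fun hlam a
  refine ⟨s33d_lam lam x, s33d_lam_mem_adjoin lam Gs hx, ?_⟩
  ext n
  rw [coeffMap_coeff, s33d_lam_coeff]
  obtain ⟨a, ha⟩ := hc n
  rw [← ha, hlam']

end DescGen

section Desc

variable {K₀ K : Type*} [Field K₀] [Field K] [Algebra ℚ K₀] [Algebra ℚ K] [Algebra K₀ K]
  [Algebra.IsAlgebraic K₀ K]
variable {F₀ : IntermediateField ℚ (LaurentSeries ℚ)}

/-- `Λ` maps the function field over `K` into the function field over `K₀`. -/
theorem s33d_lam_mem (lam : K →ₗ[K₀] K₀) {x : LaurentSeries K}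
    (hx : x ∈ laurentBaseChange K F₀) : s33d_lam lam x ∈ laurentBaseChange K₀ F₀ := by
  refine s33d_lam_mem_adjoin lam (⇑(coeffEmb K₀) '' (F₀ : Set (LaurentSeries ℚ))) ?_
  rw [Set.image_image]
  have : (fun z => coeffMap (algebraMap K₀ K) (coeffEmb K₀ z)) = ⇑(coeffEmb K) := by
    funext z
    exact s18q_coeffMap_coeffEmb (algebraMap K₀ K) z
  rw [this]
  exact hx

/-- **Coefficient descent**: an element of `F_K` whose `q`-expansion coefficients lie in `K₀` comes
from `F_{K₀}`. -/
theorem s33d_mem_range_of_coeff (x : ↥(laurentBaseChange K F₀))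
    (hx : ∀ n : ℤ, (x : LaurentSeries K).coeff n ∈ (algebraMap K₀ K).range) :
    x ∈ Set.range (s18q_map (algebraMap K₀ K) F₀) := by
  obtain ⟨lam, hlam⟩ := LinearMap.exists_leftInverse_of_injective (Algebra.linearMap K₀ K)
    (LinearMap.ker_eq_bot.mpr (algebraMap K₀ K).injective)
  have hlam' : ∀ a : K₀, lam (algebraMap K₀ K a) = a := fun a =>
    LinearMap.congr_fun hlam a
  refine ⟨⟨s33d_lam lam (x : LaurentSeries K), s33d_lam_mem lam x.2⟩, ?_⟩
  apply Subtype.ext
  rw [s18q_map_coe]
  ext n
  rw [coeffMap_coeff, s33d_lam_coeff]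
  obtain ⟨a, ha⟩ := hx n
  rw [← ha, hlam']

end Desc

section Galois

local notation "Qbar" => AlgebraicClosure ℚ
local notation "Γℚ" => (AlgebraicClosure ℚ ≃ₐ[ℚ] AlgebraicClosure ℚ)

variable (F₀ : IntermediateField ℚ (LaurentSeries ℚ))

/-- **Galois descent of functions**: an element of `F_{ℚ̄}` fixed by the coefficientwise action of
every `τ ∈ Gal(ℚ̄ / L₀)` is defined over `L₀`. -/
theorem s33d_mem_range_of_fixed (L₀ : IntermediateField ℚ Qbar)
    (x : ↥(laurentBaseChange Qbar F₀))
    (hx : ∀ τ : Γℚ, (∀ a ∈ L₀, τ a = a) → arithmeticGalois F₀ τ • x = x) :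
    x ∈ Set.range (s18q_map (algebraMap ↥L₀ Qbar) F₀) := by
  have : IsAlgClosure ℚ Qbar := ⟨inferInstance, s18q_isAlgebraic_bar⟩
  have : IsGalois ℚ Qbar := IsAlgClosure.isGalois ℚ Qbar
  have : Algebra.IsAlgebraic ℚ Qbar := s18q_isAlgebraic_bar
  have : Algebra.IsAlgebraic ↥L₀ Qbar := Algebra.IsAlgebraic.tower_top (K := ℚ) ↥L₀
  refine s33d_mem_range_of_coeff (K₀ := ↥L₀) (K := Qbar) x ?_
  intro n
  have hmem : (x : LaurentSeries Qbar).coeff n ∈ L₀ := by
    rw [← InfiniteGalois.fixedField_fixingSubgroup L₀, IntermediateField.mem_fixedField_iff]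
    intro τ hτ
    have h1 := hx τ (fun a ha => (IntermediateField.mem_fixingSubgroup_iff L₀ τ).mp hτ a ha)
    have h2 := congrArg
      (fun y : ↥(laurentBaseChange Qbar F₀) => (y : LaurentSeries Qbar).coeff n) h1
    simp only [coe_arithmeticGalois_smul, coeffMap_coeff] at h2
    exact h2
  exact ⟨⟨_, hmem⟩, rfl⟩

/-- the same for the modular function fields, in the `s18q_incl` vocabulary. -/
theorem s33d_mem_range_incl_of_fixed (N : ℕ) (L₀ : IntermediateField ℚ Qbar)
    (x : modularFunctionFieldBar N)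
    (hx : ∀ τ : Γℚ, (∀ a ∈ L₀, τ a = a) →
      arithmeticGalois (modularFunctionFieldFull N) τ • x = x) :
    x ∈ Set.range (s18q_incl N L₀) :=
  s33d_mem_range_of_fixed (modularFunctionFieldFull N) L₀ x hx

end Galois

end Fermat.Agent.Lib.S33
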