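/-
P-AT-P programme (S33), brick [DESC] (helper1), part 3: the LEADING COEFFICIENT of the `q`-expansion
on the function field `F_{ℚ̄} = laurentBaseChange ℚ̄ F₀`, its compatibility with the coefficientwise
Galois action, and uniqueness of `q`-normalised `p`-th roots.
-/
import Mathlib
import Fermat.Prelude.Def_ModularCurve_ArithmeticGalois

set_option autoImplicit false

noncomputable section

namespace Fermat.Agent.Lib.S33

open ModularCurve HahnSeries AlgebraicCurve

section Series

variable {R S : Type*} [CommRing R] [CommRing S]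

theorem s33d_order_eq {x : LaurentSeries R} {n : ℤ} (hn : x.coeff n ≠ 0)
    (hlt : ∀ i < n, x.coeff i = 0) : x.order = n := by
  refine le_antisymm (HahnSeries.order_le_of_coeff_ne_zero hn) ?_
  by_contra hcon
  push Not at hcon
  have h1 := hlt _ hcon
  rw [HahnSeries.coeff_order_eq_zero] at h1
  rw [h1, HahnSeries.coeff_zero] at hn
  exact hn rfl

/-- an injective coefficient map commutes with the leading coefficient. -/
theorem s33d_leadingCoeff_coeffMap (f : R →+* S) (hf : Function.Injective f)
    (x : LaurentSeries R) : (coeffMap f x).leadingCoeff = f x.leadingCoeff := by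
  rcases eq_or_ne x 0 with rfl | hx
  · rw [map_zero, HahnSeries.leadingCoeff_zero, HahnSeries.leadingCoeff_zero, map_zero]
  · have h1 : (coeffMap f x).order = x.order := by
      apply s33d_order_eq
      · rw [coeffMap_coeff]
        intro h0
        have : x.coeff x.order = 0 := hf (by rw [h0, map_zero])
        rw [HahnSeries.coeff_order_eq_zero] at this
        exact hx this
      · intro i hi
        rw [coeffMap_coeff, HahnSeries.coeff_eq_zero_of_lt_order hi, map_zero]
    rw [HahnSeries.leadingCoeff_eq, HahnSeries.leadingCoeff_eq, h1, coeffMap_coeff]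

end Series

section Lc

variable {L : Type*} [Field L] [Algebra ℚ L]
variable {F₀ : IntermediateField ℚ (LaurentSeries ℚ)}

/-- the leading coefficient of the `q`-expansion. -/
def s33d_lc (x : ↥(laurentBaseChange L F₀)) : L := (x : LaurentSeries L).leadingCoeff

theorem s33d_lc_mul (x y : ↥(laurentBaseChange L F₀)) :
    s33d_lc (x * y) = s33d_lc x * s33d_lc y := by
  unfold s33d_lc
  rw [MulMemClass.coe_mul, HahnSeries.leadingCoeff_mul]

theorem s33d_lc_one : s33d_lc (1 : ↥(laurentBaseChange L F₀)) = 1 := by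
  unfold s33d_lc
  rw [OneMemClass.coe_one, HahnSeries.leadingCoeff_one]

theorem s33d_lc_pow (x : ↥(laurentBaseChange L F₀)) (n : ℕ) :
    s33d_lc (x ^ n) = s33d_lc x ^ n := by
  induction n with
  | zero => rw [pow_zero, pow_zero, s33d_lc_one]
  | succ n ih => rw [pow_succ, pow_succ, s33d_lc_mul, ih]

theorem s33d_lc_eq_zero {x : ↥(laurentBaseChange L F₀)} : s33d_lc x = 0 ↔ x = 0 := by
  unfold s33d_lc
  rw [HahnSeries.leadingCoeff_eq_zero]
  exact ⟨fun h => Subtype.ext h, fun h => by rw [h]; rfl⟩

theorem s33d_lc_algebraMap (c : L) :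
    s33d_lc (algebraMap L ↥(laurentBaseChange L F₀) c) = c := by
  unfold s33d_lc
  have : ((algebraMap L ↥(laurentBaseChange L F₀) c : ↥(laurentBaseChange L F₀)) :
      LaurentSeries L) = algebraMap L (LaurentSeries L) c := rfl
  rw [this, algebraMap_laurentSeries_eq_single, HahnSeries.leadingCoeff_of_single]

theorem s33d_lc_inv (x : ↥(laurentBaseChange L F₀)) : s33d_lc x⁻¹ = (s33d_lc x)⁻¹ := by
  rcases eq_or_ne x 0 with rfl | hx
  · rw [inv_zero, s33d_lc_eq_zero.mpr rfl, inv_zero]
  · have h1 : s33d_lc x ≠ 0 := fun h => hx (s33d_lc_eq_zero.mp h)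
    apply eq_inv_of_mul_eq_one_left
    rw [← s33d_lc_mul, inv_mul_cancel₀ hx, s33d_lc_one]

theorem s33d_lc_smul (σ : L ≃ₐ[ℚ] L) (x : ↥(laurentBaseChange L F₀)) :
    s33d_lc (arithmeticGalois F₀ σ • x) = σ (s33d_lc x) := by
  unfold s33d_lc
  rw [coe_arithmeticGalois_smul]
  exact s33d_leadingCoeff_coeffMap (σ : L →+* L) σ.injective _

/-- the coefficient at the order: the leading coefficient is one of the coefficients. -/
theorem s33d_lc_eq_coeff (x : ↥(laurentBaseChange L F₀)) :
    s33d_lc x = (x : LaurentSeries L).coeff (x : LaurentSeries L).order :=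
  HahnSeries.leadingCoeff_eq

/-- **uniqueness of `q`-normalised `p`-th roots.** -/
theorem s33d_eq_of_pow_eq {p : ℕ} [NeZero p] {ζ : L} (hζ : IsPrimitiveRoot ζ p)
    {a b : ↥(laurentBaseChange L F₀)} (hab : a ^ p = b ^ p) (ha : s33d_lc a = 1)
    (hb : s33d_lc b = 1) : a = b := by
  have hb0 : b ≠ 0 := by
    rintro rfl
    rw [s33d_lc_eq_zero.mpr rfl] at hb
    exact zero_ne_one hb
  have h1 : (a / b) ^ p = 1 := by
    rw [div_pow, hab, div_self (pow_ne_zero p hb0)]
  have hζ' : IsPrimitiveRoot (algebraMap L ↥(laurentBaseChange L F₀) ζ) p :=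
    hζ.map_of_injective (algebraMap L ↥(laurentBaseChange L F₀)).injective
  obtain ⟨i, -, hi⟩ := hζ'.eq_pow_of_pow_eq_one h1
  have h2 : s33d_lc (a / b) = 1 := by
    rw [div_eq_mul_inv, s33d_lc_mul, s33d_lc_inv, ha, hb, inv_one, mul_one]
  rw [← hi, ← map_pow, s33d_lc_algebraMap] at h2
  rw [← map_pow, h2, map_one, eq_comm, div_eq_one_iff_eq hb0] at hi
  exact hi

end Lc

end Fermat.Agent.Lib.S33
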