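/-
P-AT-P programme (S33), brick [DESC] (helper1), part 4 = [DESC-H90]: KUMMER DESCENT.

`H ≤ Gal(ℚ̄/ℚ)` a subgroup, `K ⊆ ℚ̄` a finite normal extension of `ℚ`, `f ≠ 0` a function of
`F_{ℚ̄} = laurentBaseChange ℚ̄ F₀` defined over `K` such that for every `σ ∈ H` the quotient `σ f / f` is a
constant times a `p`-th power (i.e. the class of `f` in `F^× / ℚ̄^× F^{×p}` is `H`-invariant).  Then there are
`c ≠ 0`, `u ≠ 0` such that `c u ^ p f` is defined over `L₀ = K ∩ ℚ̄^H` (`s33d_kummer_descent`).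

Proof: after `q`-normalisation `σ f = h_σ ^ p f` with a unique `q`-normalised `h_σ`, which is a
`1`-cocycle with values in `F_K` (Galois descent [DESC-B]); Hilbert 90 (`s33d_h90_abstract`) gives
`u ∈ F_K` with `σ u = h_σ⁻¹ u`; then `u ^ p f` is `H`-fixed, hence its coefficients lie in `L₀`, and
[DESC-B] again.  No canonical divisor representative and no Riemann–Roch is needed.
-/
import Mathlib
import Fermat.Agent.Lib.S33.DescField
import Fermat.Agent.Lib.S33.DescH90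
import Fermat.Agent.Lib.S33.DescLc

set_option autoImplicit false

noncomputable section

namespace Fermat.Agent.Lib.S33

open ModularCurve HahnSeries AlgebraicCurve Fermat.Agent.Lib.S18

local notation "Qbar" => AlgebraicClosure ℚ
local notation "Γℚ" => (AlgebraicClosure ℚ ≃ₐ[ℚ] AlgebraicClosure ℚ)

section Compat

variable {K₀ K : Type*} [Field K₀] [Field K] [Algebra ℚ K₀] [Algebra ℚ K]
variable (F₀ : IntermediateField ℚ (LaurentSeries ℚ))

/-- The coefficientwise Galois actions are compatible with the base-change maps. -/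
theorem s33d_map_smul (φ : K₀ →+* K) (σ₀ : K₀ ≃ₐ[ℚ] K₀) (σ : K ≃ₐ[ℚ] K)
    (h : ∀ a : K₀, φ (σ₀ a) = σ (φ a)) (x : ↥(laurentBaseChange K₀ F₀)) :
    s18q_map φ F₀ (arithmeticGalois F₀ σ₀ • x) = arithmeticGalois F₀ σ • s18q_map φ F₀ x := by
  apply Subtype.ext
  rw [s18q_map_coe, coe_arithmeticGalois_smul, coe_arithmeticGalois_smul, s18q_map_coe,
    coeffMap_coeffMap, coeffMap_coeffMap]
  exact coeffMap_congr (RingHom.ext fun a => h a) _

end Compat

section Main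

variable (F₀ : IntermediateField ℚ (LaurentSeries ℚ))

/-- the inclusion `F_L → F_{ℚ̄}`. -/
abbrev s33d_incl (L : IntermediateField ℚ Qbar) :
    ↥(laurentBaseChange ↥L F₀) →+* ↥(laurentBaseChange Qbar F₀) :=
  s18q_map (algebraMap ↥L Qbar) F₀

/-- functions defined over `L` are fixed by `Gal(ℚ̄/L)`. -/
theorem s33d_smul_incl_of_fix (L : IntermediateField ℚ Qbar) (τ : Γℚ) (hτ : ∀ a ∈ L, τ a = a)
    (y : ↥(laurentBaseChange ↥L F₀)) :
    arithmeticGalois F₀ τ • s33d_incl F₀ L y = s33d_incl F₀ L y := by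
  have h := s33d_map_smul F₀ (algebraMap ↥L Qbar) (1 : ↥L ≃ₐ[ℚ] ↥L) τ
    (fun a => (hτ _ a.2).symm) y
  rw [map_one, one_smul] at h
  exact h.symm

/-- for `K / ℚ` normal the Galois action preserves the functions defined over `K`. -/
theorem s33d_smul_incl_normal (K : IntermediateField ℚ Qbar) [Normal ℚ ↥K] (σ : Γℚ)
    (y : ↥(laurentBaseChange ↥K F₀)) :
    arithmeticGalois F₀ σ • s33d_incl F₀ K y =
      s33d_incl F₀ K (arithmeticGalois F₀ (σ.restrictNormal ↥K) • y) :=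
  (s33d_map_smul F₀ (algebraMap ↥K Qbar) (σ.restrictNormal ↥K) σ
    (fun a => AlgEquiv.restrictNormal_commutes σ ↥K a) y).symm

/-- **Kummer descent** ([DESC-H90]). -/
theorem s33d_kummer_descent (p : ℕ) [NeZero p] (ζ : Qbar) (hζ : IsPrimitiveRoot ζ p)
    (H : Subgroup Γℚ) (K : IntermediateField ℚ Qbar) [FiniteDimensional ℚ ↥K] [Normal ℚ ↥K]
    (f : ↥(laurentBaseChange Qbar F₀)) (hf : f ≠ 0) (hfK : f ∈ Set.range (s33d_incl F₀ K))
    (hH : ∀ σ ∈ H, ∃ (c : Qbar) (h : ↥(laurentBaseChange Qbar F₀)),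
      arithmeticGalois F₀ σ • f = algebraMap Qbar ↥(laurentBaseChange Qbar F₀) c * h ^ p * f) :
    ∃ (c : Qbar) (u : ↥(laurentBaseChange Qbar F₀)), c ≠ 0 ∧ u ≠ 0 ∧
      algebraMap Qbar ↥(laurentBaseChange Qbar F₀) c * u ^ p * f ∈
        Set.range (s33d_incl F₀ (K ⊓ IntermediateField.fixedField H)) := by
  classical
  -- Step 0: `q`-normalisation
  have hlc0 : s33d_lc f ≠ 0 := fun h => hf (s33d_lc_eq_zero.mp h)
  set ft : ↥(laurentBaseChange Qbar F₀) :=
    algebraMap Qbar ↥(laurentBaseChange Qbar F₀) (s33d_lc f)⁻¹ * f with hft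
  have hft_lc : s33d_lc ft = 1 := by
    rw [hft, s33d_lc_mul, s33d_lc_algebraMap, inv_mul_cancel₀ hlc0]
  have hft0 : ft ≠ 0 := by
    intro h
    rw [s33d_lc_eq_zero.mpr h] at hft_lc
    exact zero_ne_one hft_lc
  have hf_eq : f = algebraMap Qbar ↥(laurentBaseChange Qbar F₀) (s33d_lc f) * ft := by
    rw [hft, ← mul_assoc, ← map_mul, mul_inv_cancel₀ hlc0, map_one, one_mul]
  set E₁ : Subfield ↥(laurentBaseChange Qbar F₀) := (s33d_incl F₀ K).fieldRange with hE₁def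
  have hmemE₁ : ∀ y : ↥(laurentBaseChange ↥K F₀), s33d_incl F₀ K y ∈ E₁ := fun y =>
    RingHom.mem_fieldRange.mpr ⟨y, rfl⟩
  have hftK : ft ∈ E₁ := by
    obtain ⟨f₀, rfl⟩ := hfK
    have h1 : s33d_lc (s33d_incl F₀ K f₀) = algebraMap ↥K Qbar
        ((f₀ : LaurentSeries ↥K).coeff
          ((s33d_incl F₀ K f₀ : ↥(laurentBaseChange Qbar F₀)) : LaurentSeries Qbar).order) := by
      rw [s33d_lc_eq_coeff, s18q_map_coe, coeffMap_coeff]
    rw [hft, h1, ← map_inv₀, ← s18q_map_algebraMap (algebraMap ↥K Qbar) F₀, ← map_mul]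
    exact hmemE₁ _
  -- Step 1: the normalised cocycle
  have hsmul0 : ∀ (σ : Γℚ) (x : ↥(laurentBaseChange Qbar F₀)), x ≠ 0 →
      arithmeticGalois F₀ σ • x ≠ 0 := by
    intro σ x hx h
    apply hx
    have := congrArg ((arithmeticGalois F₀ σ)⁻¹ • ·) h
    simpa using this
  have hsmulC : ∀ (σ : Γℚ) (c : Qbar),
      arithmeticGalois F₀ σ • algebraMap Qbar ↥(laurentBaseChange Qbar F₀) c =
        algebraMap Qbar ↥(laurentBaseChange Qbar F₀) (σ c) := fun σ c =>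
    SemilinearAut.smul_algebraMap _ c
  have hex : ∀ σ : ↥H, ∃ h : ↥(laurentBaseChange Qbar F₀), s33d_lc h = 1 ∧
      arithmeticGalois F₀ (σ : Γℚ) • ft = h ^ p * ft := by
    intro σ
    obtain ⟨c, h₁, hh⟩ := hH σ σ.2
    have hσf0 := hsmul0 σ f hf
    have hh₁0 : h₁ ≠ 0 := by
      rintro rfl
      rw [zero_pow (NeZero.ne p), mul_zero, zero_mul] at hh
      exact hσf0 hh
    have hlh : s33d_lc h₁ ≠ 0 := fun h => hh₁0 (s33d_lc_eq_zero.mp h)
    -- `σ ft = C d * h₁ ^ p * ft`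
    set d : Qbar := (σ : Γℚ) (s33d_lc f)⁻¹ * c * s33d_lc f with hd
    have h2 : arithmeticGalois F₀ (σ : Γℚ) • ft =
        algebraMap Qbar ↥(laurentBaseChange Qbar F₀) d * h₁ ^ p * ft := by
      rw [hft, smul_mul', hsmulC, hh, hd, map_mul, map_mul]
      have hcc : algebraMap Qbar ↥(laurentBaseChange Qbar F₀) (s33d_lc f) *
          algebraMap Qbar ↥(laurentBaseChange Qbar F₀) (s33d_lc f)⁻¹ = 1 := by
        rw [← map_mul, mul_inv_cancel₀ hlc0, map_one]
      linear_combination (-(algebraMap Qbar ↥(laurentBaseChange Qbar F₀)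
        ((σ : Γℚ) (s33d_lc f)⁻¹) * algebraMap Qbar ↥(laurentBaseChange Qbar F₀) c *
          h₁ ^ p * f)) * hcc
    have h3 : d * s33d_lc h₁ ^ p = 1 := by
      have := congrArg s33d_lc h2
      rw [s33d_lc_smul, hft_lc, map_one, s33d_lc_mul, s33d_lc_mul, s33d_lc_algebraMap,
        s33d_lc_pow, hft_lc, mul_one] at this
      exact this.symm
    refine ⟨algebraMap Qbar ↥(laurentBaseChange Qbar F₀) (s33d_lc h₁)⁻¹ * h₁, ?_, ?_⟩
    · rw [s33d_lc_mul, s33d_lc_algebraMap, inv_mul_cancel₀ hlh]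
    · rw [h2, mul_pow, ← map_pow]
      have h4 : d = ((s33d_lc h₁)⁻¹) ^ p := by
        rw [inv_pow]
        exact eq_inv_of_mul_eq_one_left h3
      rw [h4]
  choose hh hh_spec using hex
  have huniq : ∀ (σ : ↥H) (h : ↥(laurentBaseChange Qbar F₀)), s33d_lc h = 1 →
      arithmeticGalois F₀ (σ : Γℚ) • ft = h ^ p * ft → h = hh σ := by
    intro σ h hlc heq
    refine s33d_eq_of_pow_eq hζ ?_ hlc (hh_spec σ).1
    have h1 := heq.symm.trans (hh_spec σ).2
    exact mul_right_cancel₀ hft0 h1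
  -- Step 2: the action
  let a : ↥H →* RingAut ↥(laurentBaseChange Qbar F₀) :=
    (MulSemiringAction.toRingAut (SemilinearAut Qbar ↥(laurentBaseChange Qbar F₀))
      ↥(laurentBaseChange Qbar F₀)).comp ((arithmeticGalois F₀).comp H.subtype)
  have ha : ∀ (σ : ↥H) (x : ↥(laurentBaseChange Qbar F₀)),
      a σ x = arithmeticGalois F₀ (σ : Γℚ) • x := fun σ x => rfl
  -- Step 3: the hypotheses of Hilbert 90
  have hstab : ∀ σ : ↥H, ∀ x ∈ E₁, a σ x ∈ E₁ := by
    intro σ x hx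
    obtain ⟨y, rfl⟩ := RingHom.mem_fieldRange.mp hx
    rw [ha, s33d_smul_incl_normal]
    exact hmemE₁ _
  have hfixK : ∀ τ : Γℚ, (∀ a ∈ K, τ a = a) → ∀ x ∈ E₁, arithmeticGalois F₀ τ • x = x := by
    intro τ hτ x hx
    obtain ⟨y, rfl⟩ := RingHom.mem_fieldRange.mp hx
    exact s33d_smul_incl_of_fix F₀ K τ hτ y
  have hhE₁ : ∀ σ : ↥H, hh σ ∈ E₁ := by
    intro σ
    have h1 : hh σ ∈ Set.range (s18q_map (algebraMap ↥K Qbar) F₀) := by
      apply s33d_mem_range_of_fixed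
      intro τ hτ
      apply huniq σ
      · rw [s33d_lc_smul, (hh_spec σ).1, map_one]
      · have h2 := congrArg (arithmeticGalois F₀ τ • ·) (hh_spec σ).2
        simp only [smul_mul', smul_pow'] at h2
        have hσft : arithmeticGalois F₀ (σ : Γℚ) • ft ∈ E₁ := by
          rw [← ha]
          exact hstab σ ft hftK
        rw [hfixK τ hτ _ hftK, hfixK τ hτ _ hσft] at h2
        exact h2
    obtain ⟨y, hy⟩ := h1
    rw [← hy]
    exact hmemE₁ y
  have hh0 : ∀ σ : ↥H, hh σ ≠ 0 := by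
    intro σ h
    have := (hh_spec σ).1
    rw [s33d_lc_eq_zero.mpr h] at this
    exact zero_ne_one this
  have hcoc : ∀ σ τ : ↥H, hh (σ * τ) = hh σ * a σ (hh τ) := by
    intro σ τ
    symm
    apply huniq
    · rw [s33d_lc_mul, ha, s33d_lc_smul, (hh_spec σ).1, (hh_spec τ).1, map_one, one_mul]
    · have h1 : arithmeticGalois F₀ ((σ * τ : ↥H) : Γℚ) • ft =
          arithmeticGalois F₀ (σ : Γℚ) • (arithmeticGalois F₀ (τ : Γℚ) • ft) := by
        rw [Subgroup.coe_mul, map_mul, mul_smul]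
      rw [h1, (hh_spec τ).2, smul_mul', smul_pow', (hh_spec σ).2, ha, mul_pow]
      ring
  have hfin : (Set.range fun σ : ↥H => fun y : ↥E₁ => a σ (y : ↥(laurentBaseChange Qbar F₀))).Finite := by
    have hpre : ∀ y : ↥E₁, ∃ y₀ : ↥(laurentBaseChange ↥K F₀), s33d_incl F₀ K y₀ = (y : _) :=
      fun y => RingHom.mem_fieldRange.mp y.2
    choose pre hpre using hpre
    let Ψ : (↥K ≃ₐ[ℚ] ↥K) → (↥E₁ → ↥(laurentBaseChange Qbar F₀)) := fun ρ y =>
      s33d_incl F₀ K (arithmeticGalois F₀ ρ • pre y)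
    refine (Set.finite_range Ψ).subset ?_
    rintro _ ⟨σ, rfl⟩
    refine ⟨(σ : Γℚ).restrictNormal ↥K, ?_⟩
    funext y
    show s33d_incl F₀ K (arithmeticGalois F₀ ((σ : Γℚ).restrictNormal ↥K) • pre y) = a σ (y : _)
    rw [ha, ← s33d_smul_incl_normal, hpre]
  have hdet : ∀ σ σ' : ↥H, (∀ y ∈ E₁, a σ y = a σ' y) → hh σ = hh σ' := by
    intro σ σ' hσ
    apply huniq σ' (hh σ) (hh_spec σ).1
    rw [← ha, ← hσ ft hftK, ha]
    exact (hh_spec σ).2
  -- Step 4: Hilbert 90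
  obtain ⟨u, huE₁, hu0, hu⟩ := s33d_h90_abstract a E₁ hstab hh hhE₁ hh0 hcoc hfin hdet
  refine ⟨(s33d_lc f)⁻¹, u, inv_ne_zero hlc0, hu0, ?_⟩
  have hfix : ∀ τ : ↥H, arithmeticGalois F₀ (τ : Γℚ) • (u ^ p * ft) = u ^ p * ft := by
    intro τ
    rw [smul_mul', smul_pow', ← ha τ u, hu τ, (hh_spec τ).2, mul_pow, inv_pow]
    have := pow_ne_zero p (hh0 τ)
    field_simp
  have hmem : u ^ p * ft ∈ E₁ := mul_mem (pow_mem huE₁ p) hftK
  have hrew : algebraMap Qbar ↥(laurentBaseChange Qbar F₀) (s33d_lc f)⁻¹ * u ^ p * f =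
      u ^ p * ft := by
    rw [hft]
    ring
  rw [hrew]
  obtain ⟨g₀, hg₀⟩ := RingHom.mem_fieldRange.mp hmem
  have : Algebra.IsAlgebraic ℚ Qbar := s18q_isAlgebraic_bar
  have : Algebra.IsAlgebraic ↥(K ⊓ IntermediateField.fixedField H) Qbar :=
    Algebra.IsAlgebraic.tower_top (K := ℚ) ↥(K ⊓ IntermediateField.fixedField H)
  refine s33d_mem_range_of_coeff (K₀ := ↥(K ⊓ IntermediateField.fixedField H)) (K := Qbar)
    (u ^ p * ft) ?_
  intro n
  have hcK : ((u ^ p * ft : ↥(laurentBaseChange Qbar F₀)) : LaurentSeries Qbar).coeff n ∈ K := by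
    rw [← hg₀, s18q_map_coe, coeffMap_coeff]
    exact ((g₀ : LaurentSeries ↥K).coeff n).2
  have hcH : ((u ^ p * ft : ↥(laurentBaseChange Qbar F₀)) : LaurentSeries Qbar).coeff n ∈
      IntermediateField.fixedField H := by
    rw [IntermediateField.mem_fixedField_iff]
    intro τ hτ
    have h1 := hfix ⟨τ, hτ⟩
    have h2 := congrArg
      (fun y : ↥(laurentBaseChange Qbar F₀) => (y : LaurentSeries Qbar).coeff n) h1
    simp only [coe_arithmeticGalois_smul, coeffMap_coeff] at h2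
    exact h2
  exact ⟨⟨_, IntermediateField.mem_inf.mpr ⟨hcK, hcH⟩⟩, rfl⟩

end Main

end Fermat.Agent.Lib.S33
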