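/-
P-AT-P programme (S33), brick [DESC] (helper1), part 5 = [DESC-KD]: descent of the TRIVIAL Kummer
classes `𝒢⁰ = constants · p-th powers`.

* `s33d_kum0_descent` (characteristic `0`): `x₀ ∈ F_{L₀}`, `L₀ ⊆ ℚ̄`; if `x₀ = c · h ^ p` over `ℚ̄` then
  `x₀ = c₀ · h₀ ^ p` over `L₀`.
* `s33d_fullC_exists_of_coeff` (any characteristic): coefficient descent for the special-fibre function
  fields `modularFunctionFieldFullC`.
* `s33d_kum0_descent_charP` (characteristic `p`): `κ ⊆ k` algebraic, `κ` perfect, `x₀ ∈ F̄_κ`; if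
  `x₀ = a · v ^ p` over `k` then `x₀ = a₀ · v₀ ^ p` over `κ`.
-/
import Mathlib
import Fermat.Agent.Lib.S33.DescKummer
import Fermat.Prelude.Def_ModularCurve_X0ModL
import Fermat.Prelude.Thm_ModularCurve_coeffMap_qExpand
import Fermat.Agent.Lib.S37.ESeries

set_option autoImplicit false

noncomputable section

namespace Fermat.Agent.Lib.S33

open ModularCurve HahnSeries AlgebraicCurve Fermat.Agent.Lib.S18 Fermat.Agent.Lib.S37

local notation "Qbar" => AlgebraicClosure ℚ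
local notation "Γℚ" => (AlgebraicClosure ℚ ≃ₐ[ℚ] AlgebraicClosure ℚ)

section Char0

variable (F₀ : IntermediateField ℚ (LaurentSeries ℚ))

/-- the leading coefficient commutes with the inclusion `F_L → F_{ℚ̄}`. -/
theorem s33d_lc_incl (L : IntermediateField ℚ Qbar) (y : ↥(laurentBaseChange ↥L F₀)) :
    s33d_lc (s33d_incl F₀ L y) = algebraMap ↥L Qbar (s33d_lc y) := by
  unfold s33d_lc
  rw [s18q_map_coe]
  exact s33d_leadingCoeff_coeffMap _ (algebraMap ↥L Qbar).injective _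

/-- **[DESC-KD], characteristic `0`.** -/
theorem s33d_kum0_descent (p : ℕ) [NeZero p] (ζ : Qbar) (hζ : IsPrimitiveRoot ζ p)
    (L₀ : IntermediateField ℚ Qbar) (x₀ : ↥(laurentBaseChange ↥L₀ F₀)) (hx₀ : x₀ ≠ 0)
    (c : Qbar) (h : ↥(laurentBaseChange Qbar F₀))
    (hx : s33d_incl F₀ L₀ x₀ = algebraMap Qbar ↥(laurentBaseChange Qbar F₀) c * h ^ p) :
    ∃ (c₀ : ↥L₀) (h₀ : ↥(laurentBaseChange ↥L₀ F₀)), c₀ ≠ 0 ∧ h₀ ≠ 0 ∧
      x₀ = algebraMap ↥L₀ ↥(laurentBaseChange ↥L₀ F₀) c₀ * h₀ ^ p := by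
  have hinj : Function.Injective (s33d_incl F₀ L₀) := (s33d_incl F₀ L₀).injective
  have hx0 : s33d_incl F₀ L₀ x₀ ≠ 0 := fun h0 => hx₀ (hinj (by rw [h0, map_zero]))
  have hh0 : h ≠ 0 := by
    rintro rfl
    rw [zero_pow (NeZero.ne p), mul_zero] at hx
    exact hx0 hx
  have hlh : s33d_lc h ≠ 0 := fun h0 => hh0 (s33d_lc_eq_zero.mp h0)
  have hl0 : s33d_lc x₀ ≠ 0 := fun h0 => hx₀ (s33d_lc_eq_zero.mp h0)
  -- the normalised root
  set hn : ↥(laurentBaseChange Qbar F₀) :=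
    algebraMap Qbar ↥(laurentBaseChange Qbar F₀) (s33d_lc h)⁻¹ * h with hhn
  have hn_lc : s33d_lc hn = 1 := by
    rw [hhn, s33d_lc_mul, s33d_lc_algebraMap, inv_mul_cancel₀ hlh]
  -- `incl (x₀ / lc x₀) = hn ^ p`
  have hlc : algebraMap ↥L₀ Qbar (s33d_lc x₀) = c * s33d_lc h ^ p := by
    rw [← s33d_lc_incl, hx, s33d_lc_mul, s33d_lc_algebraMap, s33d_lc_pow]
  have hpow : s33d_incl F₀ L₀ (algebraMap ↥L₀ ↥(laurentBaseChange ↥L₀ F₀) (s33d_lc x₀)⁻¹ * x₀) =
      hn ^ p := by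
    rw [map_mul, s18q_map_algebraMap, map_inv₀, hlc, hx, hhn, mul_pow, ← map_pow]
    have hc0 : c ≠ 0 := by
      rintro rfl
      rw [map_zero, zero_mul] at hx
      exact hx0 hx
    have h1 : algebraMap Qbar ↥(laurentBaseChange Qbar F₀) (c * s33d_lc h ^ p)⁻¹ *
        algebraMap Qbar ↥(laurentBaseChange Qbar F₀) c =
        algebraMap Qbar ↥(laurentBaseChange Qbar F₀) ((s33d_lc h)⁻¹ ^ p) := by
      rw [← map_mul]
      congr 1
      have := pow_ne_zero p hlh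
      rw [inv_pow, mul_inv, mul_comm c⁻¹, mul_assoc, inv_mul_cancel₀ hc0, mul_one]
    rw [← mul_assoc, h1]
  -- `hn` is Galois-fixed
  have hfix : ∀ τ : Γℚ, (∀ a ∈ L₀, τ a = a) → arithmeticGalois F₀ τ • hn = hn := by
    intro τ hτ
    refine s33d_eq_of_pow_eq hζ ?_ ?_ hn_lc
    · rw [← smul_pow', ← hpow]
      exact s33d_smul_incl_of_fix F₀ L₀ τ hτ _
    · rw [s33d_lc_smul, hn_lc, map_one]
  obtain ⟨h₀, hh₀⟩ := s33d_mem_range_of_fixed F₀ L₀ hn hfix
  have hh₀0 : h₀ ≠ 0 := by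
    rintro rfl
    rw [map_zero] at hh₀
    rw [← hh₀, s33d_lc_eq_zero.mpr rfl] at hn_lc
    exact zero_ne_one hn_lc
  refine ⟨s33d_lc x₀, h₀, hl0, hh₀0, ?_⟩
  apply hinj
  have h2 : s33d_incl F₀ L₀ (h₀ ^ p) = hn ^ p := by
    rw [map_pow]
    congr 1
  rw [map_mul, h2, ← hpow, ← map_mul, ← mul_assoc, ← map_mul, mul_inv_cancel₀ hl0, map_one,
    one_mul]

end Char0

section CharP

variable {κ k : Type*} [Field κ] [Field k] [Algebra κ k] [Algebra.IsAlgebraic κ k] (N : ℕ)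

/-- **coefficient descent on the special fibre**: an element of `F̄_k(N)` whose coefficients lie in
`κ` comes from `F̄_κ(N)`. -/
theorem s33d_fullC_exists_of_coeff {x : LaurentSeries k}
    (hx : x ∈ modularFunctionFieldFullC k N)
    (hc : ∀ n : ℤ, x.coeff n ∈ (algebraMap κ k).range) :
    ∃ y ∈ modularFunctionFieldFullC κ N, coeffMap (algebraMap κ k) y = x := by
  refine s33d_exists_of_coeff_adjoin (divisorExpansionsC κ N) ?_ hc
  have himg : ⇑(coeffMap (algebraMap κ k)) '' divisorExpansionsC κ N = divisorExpansionsC k N := by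
    ext y
    constructor
    · rintro ⟨_, ⟨d, hd, hdN, rfl⟩, rfl⟩
      exact ⟨d, hd, hdN, by rw [coeffMap_qExpand, coeffMap_jqModC]⟩
    · rintro ⟨d, hd, hdN, rfl⟩
      exact ⟨qExpand κ d (jqModC κ), ⟨d, hd, hdN, rfl⟩, by rw [coeffMap_qExpand, coeffMap_jqModC]⟩
  rw [himg]
  exact hx

/-- **[DESC-KD], characteristic `p`**: over a perfect field `κ`, an element of `F̄_κ(N)` which becomes a
constant times a `p`-th power over an algebraic extension `k` already is one over `κ`. -/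
theorem s33d_kum0_descent_charP (p : ℕ) [hp : Fact p.Prime] [CharP κ p] [CharP k p]
    [PerfectRing κ p] (x₀ : LaurentSeries κ) (hx₀ : x₀ ∈ modularFunctionFieldFullC κ N)
    (hx₀0 : x₀ ≠ 0) (a : k) (v : LaurentSeries k) (hv : v ∈ modularFunctionFieldFullC k N)
    (hx : coeffMap (algebraMap κ k) x₀ = algebraMap k (LaurentSeries k) a * v ^ p) :
    ∃ (a₀ : κ) (v₀ : LaurentSeries κ), v₀ ∈ modularFunctionFieldFullC κ N ∧ a₀ ≠ 0 ∧ v₀ ≠ 0 ∧
      x₀ = algebraMap κ (LaurentSeries κ) a₀ * v₀ ^ p := by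
  set φ : κ →+* k := algebraMap κ k with hφ
  have hφinj : Function.Injective φ := φ.injective
  have hcinj : Function.Injective (coeffMap φ) := by
    intro y y' hyy
    ext n
    apply hφinj
    rw [← coeffMap_coeff, ← coeffMap_coeff, hyy]
  have hx0 : coeffMap φ x₀ ≠ 0 := fun h0 => hx₀0 (hcinj (by rw [h0, map_zero]))
  have hv0 : v ≠ 0 := by
    rintro rfl
    rw [zero_pow hp.out.ne_zero, mul_zero] at hx
    exact hx0 hx
  have ha0 : a ≠ 0 := by
    rintro rfl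
    rw [map_zero, zero_mul] at hx
    exact hx0 hx
  have hlv : v.leadingCoeff ≠ 0 := HahnSeries.leadingCoeff_ne_zero.mpr hv0
  have hl0 : x₀.leadingCoeff ≠ 0 := HahnSeries.leadingCoeff_ne_zero.mpr hx₀0
  have hlcC : ∀ c : k, (algebraMap k (LaurentSeries k) c).leadingCoeff = c := by
    intro c
    rw [algebraMap_laurentSeries_eq_single, HahnSeries.leadingCoeff_of_single]
  have hlcpow : ∀ (y : LaurentSeries k) (n : ℕ), (y ^ n).leadingCoeff = y.leadingCoeff ^ n := by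
    intro y n
    induction n with
    | zero => rw [pow_zero, pow_zero, HahnSeries.leadingCoeff_one]
    | succ n ih => rw [pow_succ, pow_succ, HahnSeries.leadingCoeff_mul, ih]
  -- the normalised root
  set vn : LaurentSeries k := algebraMap k (LaurentSeries k) v.leadingCoeff⁻¹ * v with hvn
  have hvn_mem : vn ∈ modularFunctionFieldFullC k N :=
    mul_mem ((modularFunctionFieldFullC k N).algebraMap_mem _) hv
  have hlc : φ x₀.leadingCoeff = a * v.leadingCoeff ^ p := by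
    rw [← s33d_leadingCoeff_coeffMap φ hφinj, hx, HahnSeries.leadingCoeff_mul, hlcC, hlcpow]
  have hpow : coeffMap φ (algebraMap κ (LaurentSeries κ) x₀.leadingCoeff⁻¹ * x₀) = vn ^ p := by
    rw [map_mul, s18q_coeffMap_algebraMap, map_inv₀, hlc, hx, hvn, mul_pow, ← map_pow]
    have h1 : algebraMap k (LaurentSeries k) (a * v.leadingCoeff ^ p)⁻¹ *
        algebraMap k (LaurentSeries k) a =
        algebraMap k (LaurentSeries k) (v.leadingCoeff⁻¹ ^ p) := by
      rw [← map_mul]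
      congr 1
      rw [inv_pow, mul_inv, mul_comm a⁻¹, mul_assoc, inv_mul_cancel₀ ha0, mul_one]
    rw [← mul_assoc, h1]
  -- the coefficients of `vn` lie in `κ`
  have hcoef : ∀ n : ℤ, vn.coeff n ∈ φ.range := by
    intro n
    have h1 : (vn ^ p).coeff ((p : ℤ) * n) = (vn.coeff n) ^ p := by
      rw [s37e_pow_char p vn, qExpand_coeff_mul, coeffMap_coeff]
      rfl
    rw [← hpow, coeffMap_coeff] at h1
    obtain ⟨c, hc⟩ := surjective_frobenius κ p
      ((algebraMap κ (LaurentSeries κ) x₀.leadingCoeff⁻¹ * x₀).coeff ((p : ℤ) * n))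
    refine ⟨c, ?_⟩
    apply frobenius_inj k p
    rw [frobenius_def, frobenius_def, ← map_pow, ← h1, ← hc]
    rfl
  obtain ⟨v₀, hv₀mem, hv₀⟩ := s33d_fullC_exists_of_coeff N hvn_mem hcoef
  have hvn0 : vn ≠ 0 := mul_ne_zero (by
    rw [Ne, map_eq_zero]
    exact inv_ne_zero hlv) hv0
  have hv₀0 : v₀ ≠ 0 := by
    rintro rfl
    rw [map_zero] at hv₀
    exact hvn0 hv₀.symm
  refine ⟨x₀.leadingCoeff, v₀, hv₀mem, hl0, hv₀0, ?_⟩
  apply hcinj
  have h2 : coeffMap φ (v₀ ^ p) = vn ^ p := by rw [map_pow, hv₀]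
  rw [map_mul, h2, ← hpow, ← map_mul, ← mul_assoc, ← map_mul, mul_inv_cancel₀ hl0, map_one,
    one_mul]

end CharP

end Fermat.Agent.Lib.S33
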