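/-
S33 programme (P-AT-P), brick [TP] (helper3), part 1: pure Laurent-series algebra for the
FIRST-ORDER form of the Hecke norm at the residue characteristic.

Input (Lib/S37 package [W], `s37w_norm_beta`): `Nm_α(β y)(q^p) = y(q^{p²}) · ∏_{b<p} y(ζ^b q)`.
Output: for `y = c (1 + ε U)`,
`Nm_α(β y) = c^{p+1} (1 + ε U(q^p) + ε p (U_p U) + ε² S)` with `S` having coefficients in the same
ring as `U`; here `(U_p U)_m = U_{p m}`.  So modulo `ε · (p, ε)` the Kummer generator `1 + ε U` is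
sent to `1 + ε U(q^p)`: on leading terms the Hecke operator `T_p` acts by `ū ↦ ū(q^p)`.
-/
import Fermat.Agent.Lib.S37.ESeries

set_option autoImplicit false

namespace Fermat.Agent.Lib.S33

open ModularCurve HahnSeries Fermat.Agent.Lib.S28 Fermat.Agent.Lib.S37

noncomputable section

/-! ### The operator `U_n` on Laurent series -/

section UOp

variable {R : Type*} [CommRing R] (n : ℕ) [NeZero n]

/-- The operator `U_n`: `(U_n x)_m = x_{n m}`. -/
def s33t_U (x : LaurentSeries R) : LaurentSeries R where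
  coeff m := x.coeff ((n : ℤ) * m)
  isPWO_support' := by
    have hn0 : (0 : ℤ) < n := by exact_mod_cast Nat.pos_of_ne_zero (NeZero.ne n)
    have hmono : Monotone (fun i : ℤ => i / (n : ℤ)) := fun a b hab =>
      Int.ediv_le_ediv hn0 hab
    refine (x.isPWO_support.image_of_monotone hmono).mono ?_
    intro m hm
    refine ⟨(n : ℤ) * m, hm, ?_⟩
    show (n : ℤ) * m / (n : ℤ) = m
    exact Int.mul_ediv_cancel_left m hn0.ne'

@[simp] theorem s33t_U_coeff (x : LaurentSeries R) (m : ℤ) :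
    (s33t_U n x).coeff m = x.coeff ((n : ℤ) * m) := rfl

theorem s33t_U_qExpand (x : LaurentSeries R) : s33t_U n (qExpand R n x) = x := by
  ext m
  rw [s33t_U_coeff, qExpand_coeff_mul]

theorem s33t_U_add (x y : LaurentSeries R) : s33t_U n (x + y) = s33t_U n x + s33t_U n y := by
  ext m
  simp

theorem s33t_U_one : s33t_U n (1 : LaurentSeries R) = 1 := by
  have h : (1 : LaurentSeries R) = qExpand R n 1 := (map_one _).symm
  conv_lhs => rw [h]
  exact s33t_U_qExpand n 1

theorem s33t_U_C_mul (r : R) (x : LaurentSeries R) :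
    s33t_U n (HahnSeries.C r * x) = HahnSeries.C r * s33t_U n x := by
  ext m
  rw [s33t_U_coeff, HahnSeries.C_mul_eq_smul, HahnSeries.C_mul_eq_smul, HahnSeries.coeff_smul,
    HahnSeries.coeff_smul, s33t_U_coeff]

theorem s33t_U_coeffMap {S : Type*} [CommRing S] (f : R →+* S) (x : LaurentSeries R) :
    s33t_U n (coeffMap f x) = coeffMap f (s33t_U n x) := by
  ext m
  simp

end UOp

/-! ### Generic first-order expansion of a product -/

theorem s33t_prod_one_add {T ι : Type*} [CommRing T] (s : Finset ι) (e : T) (x : ι → T) :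
    ∃ S : T, ∏ b ∈ s, (1 + e * x b) = 1 + e * ∑ b ∈ s, x b + e ^ 2 * S := by
  classical
  induction s using Finset.induction_on with
  | empty => exact ⟨0, by simp⟩
  | insert a s ha ih =>
    obtain ⟨S, hS⟩ := ih
    refine ⟨S + x a * ∑ b ∈ s, x b + e * x a * S, ?_⟩
    rw [Finset.prod_insert ha, Finset.sum_insert ha, hS]
    ring

/-! ### The sum of the twists -/

section SumTw

variable {R : Type*} [CommRing R] [IsDomain R]

/-- `∑_{b<p} ζ^{b n} = p` or `0`. -/
theorem s33t_sum_pow_zeta (p : ℕ) [NeZero p] (ζ : Rˣ) (hζ : IsPrimitiveRoot (ζ : R) p) (n : ℤ) :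
    ∑ b ∈ Finset.range p, (((ζ ^ b : Rˣ) ^ n : Rˣ) : R) =
      if (p : ℤ) ∣ n then (p : R) else 0 := by
  have hζu : IsPrimitiveRoot ζ p := IsPrimitiveRoot.of_map_of_injective
    (f := Units.coeHom R) (by simpa using hζ) Units.val_injective
  have hrw : ∀ b : ℕ, (((ζ ^ b : Rˣ) ^ n : Rˣ) : R) = (((ζ ^ n : Rˣ) : R)) ^ b := by
    intro b
    rw [← Units.val_pow_eq_pow_val]
    congr 1
    rw [← zpow_natCast, ← zpow_natCast, ← zpow_mul, ← zpow_mul, mul_comm]
  simp_rw [hrw]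
  split_ifs with h
  · have h1 : (ζ ^ n : Rˣ) = 1 := (hζu.zpow_eq_one_iff_dvd n).mpr h
    rw [h1]
    simp
  · have h1 : (ζ ^ n : Rˣ) ≠ 1 := fun h1 => h ((hζu.zpow_eq_one_iff_dvd n).mp h1)
    have h2 : (((ζ ^ n : Rˣ) : R)) ≠ 1 := fun h2 => h1 (Units.ext h2)
    have h3 : (((ζ ^ n : Rˣ) : R)) ^ p = 1 := by
      rw [← Units.val_pow_eq_pow_val, ← zpow_natCast, ← zpow_mul, mul_comm, zpow_mul,
        zpow_natCast, hζu.pow_eq_one, one_zpow, Units.val_one]
    have h4 := mul_neg_geom_sum (((ζ ^ n : Rˣ) : R)) p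
    rw [h3, sub_self] at h4
    rcases mul_eq_zero.mp h4 with h5 | h5
    · exact absurd (sub_eq_zero.mp h5).symm h2
    · exact h5

/-- `∑_{b<p} y(ζ^b q) = p · (U_p y)(q^p)`. -/
theorem s33t_sum_tw (p : ℕ) [NeZero p] (ζ : Rˣ) (hζ : IsPrimitiveRoot (ζ : R) p)
    (y : LaurentSeries R) :
    ∑ b ∈ Finset.range p, s28m_tw (ζ ^ b) y =
      HahnSeries.C (p : R) * qExpand R p (s33t_U p y) := by
  ext n
  rw [HahnSeries.C_mul_eq_smul, HahnSeries.coeff_smul, HahnSeries.coeff_sum]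
  simp_rw [s28m_tw_coeff]
  rw [← Finset.sum_mul, s33t_sum_pow_zeta p ζ hζ n]
  split_ifs with h
  · obtain ⟨m, rfl⟩ := h
    rw [qExpand_coeff_mul, s33t_U_coeff, smul_eq_mul]
  · rw [qExpand_coeff_of_not_dvd p _ h, zero_mul, smul_zero]

end SumTw

/-! ### The first-order norm formula -/

section Norm

variable {R : Type*} [CommRing R] [IsDomain R]

/-- First-order expansion of `y(q^{p²}) ∏_b y(ζ^b q)` for `y = 1 + ε U`. -/
theorem s33t_normProd_first_order (p : ℕ) [NeZero p] (ζ : Rˣ) (hζ : IsPrimitiveRoot (ζ : R) p)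
    (ε : R) (U : LaurentSeries R) :
    ∃ S : LaurentSeries R,
      qExpand R (p * p) (1 + HahnSeries.C ε * U) * s37e_prodTw p ζ (1 + HahnSeries.C ε * U) =
        1 + HahnSeries.C ε * qExpand R (p * p) U +
          HahnSeries.C (ε * (p : R)) * qExpand R p (s33t_U p U) + HahnSeries.C (ε ^ 2) * S := by
  obtain ⟨S₁, hS₁⟩ := s33t_prod_one_add (Finset.range p) (HahnSeries.C ε : LaurentSeries R)
    (fun b => s28m_tw (ζ ^ b) U)
  have hprod : s37e_prodTw p ζ (1 + HahnSeries.C ε * U) =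
      1 + HahnSeries.C ε * (HahnSeries.C (p : R) * qExpand R p (s33t_U p U)) +
        HahnSeries.C ε ^ 2 * S₁ := by
    unfold s37e_prodTw
    have : ∀ b ∈ Finset.range p, s28m_tw (ζ ^ b) (1 + HahnSeries.C ε * U) =
        1 + HahnSeries.C ε * s28m_tw (ζ ^ b) U := by
      intro b _
      rw [map_add, map_one, map_mul, s28m_tw_C]
    rw [Finset.prod_congr rfl this, hS₁, s33t_sum_tw p ζ hζ U]
  refine ⟨S₁ + qExpand R (p * p) U * (HahnSeries.C (p : R) * qExpand R p (s33t_U p U)) +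
    HahnSeries.C ε * qExpand R (p * p) U * S₁, ?_⟩
  rw [hprod, map_add, map_one, map_mul, qExpand_C, map_mul, map_pow]
  ring

/-- **First-order norm formula.** If `g(q^p) = y(q^{p²}) ∏_b y(ζ^b q)` with `y = 1 + ε U`, then
`g = 1 + ε U(q^p) + ε p (U_p U) + ε² S`. -/
theorem s33t_norm_first_order (p : ℕ) [NeZero p] (ζ : Rˣ) (hζ : IsPrimitiveRoot (ζ : R) p)
    (ε : R) (U g : LaurentSeries R)
    (hg : qExpand R p g =
      qExpand R (p * p) (1 + HahnSeries.C ε * U) * s37e_prodTw p ζ (1 + HahnSeries.C ε * U)) :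
    ∃ S : LaurentSeries R,
      g = 1 + HahnSeries.C ε * qExpand R p U + HahnSeries.C (ε * (p : R)) * s33t_U p U +
        HahnSeries.C (ε ^ 2) * S := by
  obtain ⟨S, hS⟩ := s33t_normProd_first_order p ζ hζ ε U
  refine ⟨s33t_U p S, ?_⟩
  have h1 := congrArg (s33t_U p) hg
  rw [s33t_U_qExpand, hS, s33t_U_add, s33t_U_add, s33t_U_add, s33t_U_one, s33t_U_C_mul,
    s33t_U_C_mul, s33t_U_C_mul, s33t_U_qExpand, ← qExpand_qExpand, s33t_U_qExpand] at h1
  exact h1

end Norm

end

end Fermat.Agent.Lib.S33
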