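/-
S33 programme (P-AT-P), brick [TP] (helper3), part 3: the first-order Hecke norm formula in PAIR form.

For integral series `Y, W` and a constant `e`, with `P(Y) := Y(q^{p²}) ∏_{b<p} Y(ζ^b q)` (so that
`Nm_α(β y)(q^p) = P(y)`, Lib/S37 package [W]):
`P(Y + e W) = P(Y) + e P₁(Y, W) + e² S`, and modulo a prime above `p` (where `ζ ≡ 1`)
`P(Y) ≡ Ȳ(q^{p²}) Ȳ^p`, `P₁(Y, W) ≡ W̄(q^{p²}) Ȳ^p`.  After applying `U_p` (i.e. extracting `g` from
`g(q^p)`): `N(Y + e W) = N(Y) + e N₁ + e² S` with `N̄ = Ȳ(q^p) · Fr Ȳ`, `N̄₁ = W̄(q^p) · Fr Ȳ`.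
Hence for the Kummer generator `f = (Y + e W)/Y = 1 + e (W/Y)`, the generator `Nm_α(β f)` of `T_p` is
`1 + e (N₁ + e S)/N(Y)` with leading term `(W̄/Ȳ)(q^p)`.
-/
import Fermat.Agent.Lib.S33.TPSeries

set_option autoImplicit false

namespace Fermat.Agent.Lib.S33

open ModularCurve HahnSeries Fermat.Agent.Lib.S28 Fermat.Agent.Lib.S37

noncomputable section

/-! ### Generic first-order expansion of a product of sums -/

theorem s33t_prod_add_first_order {T ι : Type*} [CommRing T] [DecidableEq ι] (s : Finset ι)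
    (e : T) (x w : ι → T) :
    ∃ S : T, ∏ i ∈ s, (x i + e * w i) =
      ∏ i ∈ s, x i + e * ∑ i ∈ s, w i * ∏ j ∈ s.erase i, x j + e ^ 2 * S := by
  induction s using Finset.induction_on with
  | empty => exact ⟨0, by simp⟩
  | insert a s ha ih =>
    obtain ⟨S, hS⟩ := ih
    refine ⟨x a * S + w a * (∑ i ∈ s, w i * ∏ j ∈ s.erase i, x j) + e * w a * S, ?_⟩
    have h1 : ∑ i ∈ insert a s, w i * ∏ j ∈ (insert a s).erase i, x j =
        w a * ∏ j ∈ s, x j + x a * ∑ i ∈ s, w i * ∏ j ∈ s.erase i, x j := by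
      rw [Finset.sum_insert ha, Finset.erase_insert ha, Finset.mul_sum]
      congr 1
      refine Finset.sum_congr rfl fun i hi => ?_
      have hia : i ≠ a := fun h => ha (h ▸ hi)
      have h2 : (insert a s).erase i = insert a (s.erase i) := by
        rw [Finset.erase_insert_of_ne (Ne.symm hia)]
      have h3 : a ∉ s.erase i := fun h => ha (Finset.mem_of_mem_erase h)
      rw [h2, Finset.prod_insert h3]
      ring
    rw [Finset.prod_insert ha, Finset.prod_insert ha, hS, h1]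
    ring

/-! ### The product `P(Y) = Y(q^{p²}) ∏_b Y(ζ^b q)` and its first-order part -/

section Prod

variable {R : Type*} [CommRing R] (p : ℕ) [NeZero p] (ζ : Rˣ)

/-- `P(Y) = Y(q^{p²}) ∏_{b<p} Y(ζ^b q)`. -/
def s33t_P (Y : LaurentSeries R) : LaurentSeries R :=
  qExpand R (p * p) Y * s37e_prodTw p ζ Y

/-- the first-order part of `P(Y + e W)`. -/
def s33t_P1 (Y W : LaurentSeries R) : LaurentSeries R :=
  qExpand R (p * p) W * s37e_prodTw p ζ Y +
    qExpand R (p * p) Y * ∑ b ∈ Finset.range p,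
      s28m_tw (ζ ^ b) W * ∏ j ∈ (Finset.range p).erase b, s28m_tw (ζ ^ j) Y

theorem s33t_P_mul (Y Y' : LaurentSeries R) :
    s33t_P p ζ (Y * Y') = s33t_P p ζ Y * s33t_P p ζ Y' := by
  unfold s33t_P s37e_prodTw
  simp_rw [map_mul]
  rw [Finset.prod_mul_distrib]
  ring

theorem s33t_P_one : s33t_P p ζ (1 : LaurentSeries R) = 1 := by
  unfold s33t_P s37e_prodTw
  simp

theorem s33t_P_add (e : R) (Y W : LaurentSeries R) :
    ∃ S : LaurentSeries R,
      s33t_P p ζ (Y + HahnSeries.C e * W) =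
        s33t_P p ζ Y + HahnSeries.C e * s33t_P1 p ζ Y W + HahnSeries.C (e ^ 2) * S := by
  obtain ⟨S₁, hS₁⟩ := s33t_prod_add_first_order (Finset.range p)
    (HahnSeries.C e : LaurentSeries R) (fun b => s28m_tw (ζ ^ b) Y) (fun b => s28m_tw (ζ ^ b) W)
  have hprod : s37e_prodTw p ζ (Y + HahnSeries.C e * W) =
      s37e_prodTw p ζ Y + HahnSeries.C e * (∑ b ∈ Finset.range p,
        s28m_tw (ζ ^ b) W * ∏ j ∈ (Finset.range p).erase b, s28m_tw (ζ ^ j) Y) +
        HahnSeries.C e ^ 2 * S₁ := by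
    unfold s37e_prodTw
    have : ∀ b ∈ Finset.range p, s28m_tw (ζ ^ b) (Y + HahnSeries.C e * W) =
        s28m_tw (ζ ^ b) Y + HahnSeries.C e * s28m_tw (ζ ^ b) W := by
      intro b _
      rw [map_add, map_mul, s28m_tw_C]
    rw [Finset.prod_congr rfl this, hS₁]
  refine ⟨qExpand R (p * p) Y * S₁ + qExpand R (p * p) W * (∑ b ∈ Finset.range p,
      s28m_tw (ζ ^ b) W * ∏ j ∈ (Finset.range p).erase b, s28m_tw (ζ ^ j) Y) +
      HahnSeries.C e * qExpand R (p * p) W * S₁, ?_⟩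
  unfold s33t_P s33t_P1
  rw [hprod, map_add, map_mul, qExpand_C, map_pow]
  unfold s37e_prodTw
  ring

end Prod

/-! ### Reduction modulo a prime above `p` -/

section Red

theorem s33t_coeffMap_tw_of_map_eq_one {R : Type*} [CommRing R] {k : Type*} [Field k]
    (ζ : Rˣ) (f : R →+* k) (hζ : f (ζ : R) = 1) (b : ℕ) (Y : LaurentSeries R) :
    coeffMap f (s28m_tw (ζ ^ b) Y) = coeffMap f Y := by
  have h1 : Units.map (f : R →* k) (ζ ^ b) = 1 := by
    apply Units.ext
    rw [Units.coe_map, Units.val_pow_eq_pow_val, MonoidHom.coe_coe, map_pow, hζ, one_pow,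
      Units.val_one]
  rw [s28m_coeffMap_tw, h1, s28m_tw_one]

variable {R : Type*} [CommRing R] {k : Type*} [Field k] (p : ℕ) [NeZero p]
  (ζ : Rˣ) (f : R →+* k)

theorem s33t_coeffMap_P (hζ : f (ζ : R) = 1) (Y : LaurentSeries R) :
    coeffMap f (s33t_P p ζ Y) = qExpand k (p * p) (coeffMap f Y) * (coeffMap f Y) ^ p := by
  unfold s33t_P
  rw [map_mul, coeffMap_qExpand, s37e_coeffMap_prodTw p ζ f hζ]

theorem s33t_coeffMap_P1 [CharP k p] (hζ : f (ζ : R) = 1) (Y W : LaurentSeries R) :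
    coeffMap f (s33t_P1 p ζ Y W) = qExpand k (p * p) (coeffMap f W) * (coeffMap f Y) ^ p := by
  unfold s33t_P1
  rw [map_add, map_mul, map_mul, coeffMap_qExpand, coeffMap_qExpand,
    s37e_coeffMap_prodTw p ζ f hζ, map_sum]
  have hterm : ∀ b ∈ Finset.range p,
      coeffMap f (s28m_tw (ζ ^ b) W * ∏ j ∈ (Finset.range p).erase b, s28m_tw (ζ ^ j) Y) =
        coeffMap f W * (coeffMap f Y) ^ (p - 1) := by
    intro b hb
    rw [map_mul, map_prod, s33t_coeffMap_tw_of_map_eq_one ζ f hζ]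
    congr 1
    rw [Finset.prod_congr rfl fun j _ => s33t_coeffMap_tw_of_map_eq_one ζ f hζ j Y,
      Finset.prod_const, Finset.card_erase_of_mem hb, Finset.card_range]
  rw [Finset.sum_congr rfl hterm, Finset.sum_const, Finset.card_range]
  have hchar : CharP (LaurentSeries k) p := by
    have : Function.Injective (HahnSeries.C : k →+* LaurentSeries k) := HahnSeries.C_injective
    exact charP_of_injective_ringHom this p
  rw [nsmul_eq_mul, CharP.cast_eq_zero (LaurentSeries k) p, zero_mul, mul_zero, add_zero]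

end Red


/-! ### The series `N(Y) = U_p (P(Y))` (the `q`-expansion of `Nm_α(β y)`) -/

section NSeries

variable {R : Type*} [CommRing R] (p : ℕ) [NeZero p] (ζ : Rˣ)

/-- `N(Y)`: the series with `N(Y)(q^p) = P(Y)` (when `P(Y)` is a series in `q^p`). -/
def s33t_N (Y : LaurentSeries R) : LaurentSeries R := s33t_U p (s33t_P p ζ Y)

/-- the first-order part of `N(Y + e W)`. -/
def s33t_N1 (Y W : LaurentSeries R) : LaurentSeries R := s33t_U p (s33t_P1 p ζ Y W)

theorem s33t_N_eq_of_qExpand_eq (Y g : LaurentSeries R) (hg : qExpand R p g = s33t_P p ζ Y) :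
    s33t_N p ζ Y = g := by
  unfold s33t_N
  rw [← hg, s33t_U_qExpand]

theorem s33t_N_add (e : R) (Y W : LaurentSeries R) :
    ∃ S : LaurentSeries R,
      s33t_N p ζ (Y + HahnSeries.C e * W) =
        s33t_N p ζ Y + HahnSeries.C e * s33t_N1 p ζ Y W + HahnSeries.C (e ^ 2) * S := by
  obtain ⟨S, hS⟩ := s33t_P_add p ζ e Y W
  refine ⟨s33t_U p S, ?_⟩
  unfold s33t_N s33t_N1
  rw [hS, s33t_U_add, s33t_U_add, s33t_U_C_mul, s33t_U_C_mul]

variable {k : Type*} [Field k] [hp : Fact p.Prime] [CharP k p] (f : R →+* k)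

theorem s33t_coeffMap_N (hζ : f (ζ : R) = 1) (Y : LaurentSeries R) :
    coeffMap f (s33t_N p ζ Y) =
      qExpand k p (coeffMap f Y) * coeffMap (frobenius k p) (coeffMap f Y) := by
  unfold s33t_N
  rw [← s33t_U_coeffMap, s33t_coeffMap_P p ζ f hζ, s37e_pow_char p, ← qExpand_qExpand, ← map_mul,
    s33t_U_qExpand]

theorem s33t_coeffMap_N1 (hζ : f (ζ : R) = 1) (Y W : LaurentSeries R) :
    coeffMap f (s33t_N1 p ζ Y W) =
      qExpand k p (coeffMap f W) * coeffMap (frobenius k p) (coeffMap f Y) := by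
  unfold s33t_N1
  rw [← s33t_U_coeffMap, s33t_coeffMap_P1 p ζ f hζ, s37e_pow_char p, ← qExpand_qExpand, ← map_mul,
    s33t_U_qExpand]

end NSeries

end

end Fermat.Agent.Lib.S33
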