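/-
S33 programme (P-AT-P), brick [TP] (helper3), part 4: the Kummer-side Hecke operator
`τ = Nm_α ∘ β` on the modular function field over a subfield `L₀ ⊆ ℚ̄` containing the `p`-th roots
of unity (`p ∤ M`).

`s33t_tau M p hpM L₀ ζ₀ hζ₀ : 𝓕 →* 𝓕`, `𝓕 = laurentBaseChange L₀ (modularFunctionFieldFull M)`, with
* `s33t_incl_tau`  : `incl (τ y) = Nm_α (β (incl y))` in the function field over `ℚ̄`;
* `s33t_coe_tau`   : the `q`-expansion of `τ y` is `s33t_N p ζ₀ y` (so `τ y (q^p) = y(q^{p²}) ∏_b y(ζ^b q)`);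
* `s33t_tau_algebraMap` : `τ c = c ^ (p + 1)` on constants;  `s33t_tau_ne_zero`.
-/
import Fermat.Agent.Lib.S33.TPPair
import Fermat.Agent.Lib.S37.EFinal
import Fermat.Agent.Lib.S18.QBase
import Fermat.Agent.Lib.S29.DCRetract

set_option autoImplicit false
set_option linter.style.haveILetI false

namespace Fermat.Agent.Lib.S33

open ModularCurve HahnSeries AlgebraicCurve Fermat.Agent.Lib.S18 Fermat.Agent.Lib.S28
  Fermat.Agent.Lib.S29 Fermat.Agent.Lib.S37

noncomputable section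

local notation "Kb" => AlgebraicClosure ℚ

/-! ### Base change of the series operators -/

section BaseChange

variable {R S : Type*} [CommRing R] [CommRing S] (p : ℕ) [NeZero p] (ζ : Rˣ) (g : R →+* S)

theorem s33t_coeffMap_P' (Y : LaurentSeries R) :
    coeffMap g (s33t_P p ζ Y) = s33t_P p (Units.map (g : R →* S) ζ) (coeffMap g Y) := by
  unfold s33t_P
  rw [map_mul, coeffMap_qExpand, s37e_coeffMap_prodTw']

theorem s33t_coeffMap_N' (Y : LaurentSeries R) :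
    coeffMap g (s33t_N p ζ Y) = s33t_N p (Units.map (g : R →* S) ζ) (coeffMap g Y) := by
  unfold s33t_N
  rw [← s33t_U_coeffMap, s33t_coeffMap_P']

theorem s33t_N_C (c : R) : s33t_N p ζ (HahnSeries.C c) = HahnSeries.C (c ^ (p + 1)) := by
  unfold s33t_N s33t_P s37e_prodTw
  simp_rw [s28m_tw_C]
  rw [qExpand_C, Finset.prod_const, Finset.card_range, ← map_pow, ← map_mul, ← pow_succ']
  have h : (HahnSeries.C (c ^ (p + 1)) : LaurentSeries R) =
      qExpand R p (HahnSeries.C (c ^ (p + 1))) := by rw [qExpand_C]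
  conv_lhs => rw [h]
  rw [s33t_U_qExpand]

end BaseChange

/-! ### The operator `τ` -/

section Tau

variable (M : ℕ) [NeZero M] (p : ℕ) [hp : Fact p.Prime] (hpM : ¬ p ∣ M)
variable (L₀ : IntermediateField ℚ Kb) (ζ₀ : (↥L₀)ˣ) (hζ₀ : IsPrimitiveRoot (ζ₀ : ↥L₀) p)

include hpM hζ₀ in
/-- the `q`-expansion of `Nm_α (β (incl y))` is the base change of `N(y)`. -/
theorem s33t_coe_norm_incl (y : ↥(laurentBaseChange ↥L₀ (modularFunctionFieldFull M))) :
    ((s37e_normAlpha M p (heckeBetaBar Kb M p (s18q_incl M L₀ y)) :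
        ↥(modularFunctionFieldBar M)) : LaurentSeries Kb) =
      coeffMap (algebraMap ↥L₀ Kb) (s33t_N p ζ₀ (y : LaurentSeries ↥L₀)) := by
  set ζ : Kbˣ := Units.map ((algebraMap ↥L₀ Kb : ↥L₀ →+* Kb) : ↥L₀ →* Kb) ζ₀ with hζdef
  have hζ : IsPrimitiveRoot (ζ : Kb) p := by
    have : (ζ : Kb) = algebraMap ↥L₀ Kb (ζ₀ : ↥L₀) := rfl
    rw [this]
    exact hζ₀.map_of_injective (algebraMap ↥L₀ Kb).injective
  have h := s37e_hW M p hp.out hpM ζ hζ (s18q_incl M L₀ y)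
  rw [s18q_incl_coe] at h
  have h2 : qExpand Kb (p * p) (coeffMap (algebraMap ↥L₀ Kb) (y : LaurentSeries ↥L₀)) *
      s37e_prodTw p ζ (coeffMap (algebraMap ↥L₀ Kb) (y : LaurentSeries ↥L₀)) =
      s33t_P p ζ (coeffMap (algebraMap ↥L₀ Kb) (y : LaurentSeries ↥L₀)) := rfl
  rw [h2, hζdef, ← s33t_coeffMap_P'] at h
  rw [s33t_coeffMap_N', ← hζdef]
  unfold s33t_N
  rw [hζdef, ← s33t_coeffMap_P', ← h, s33t_U_qExpand]

include hpM hζ₀ in
theorem s33t_N_mem (y : ↥(laurentBaseChange ↥L₀ (modularFunctionFieldFull M))) :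
    s33t_N p ζ₀ (y : LaurentSeries ↥L₀) ∈ laurentBaseChange ↥L₀ (modularFunctionFieldFull M) := by
  apply s29cf_mem_of_coeffMap_mem' (algebraMap ↥L₀ Kb) (modularFunctionFieldFull M)
  rw [← s33t_coe_norm_incl M p hpM L₀ ζ₀ hζ₀ y]
  exact Subtype.mem _

/-- **The Kummer-side Hecke operator** `τ = Nm_α ∘ β` over `L₀`. -/
def s33t_tau : ↥(laurentBaseChange ↥L₀ (modularFunctionFieldFull M)) →*
    ↥(laurentBaseChange ↥L₀ (modularFunctionFieldFull M)) where
  toFun y := ⟨s33t_N p ζ₀ (y : LaurentSeries ↥L₀), s33t_N_mem M p hpM L₀ ζ₀ hζ₀ y⟩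
  map_one' := by
    apply s18q_incl_injective M L₀
    apply Subtype.ext
    rw [s18q_incl_coe, ← s33t_coe_norm_incl M p hpM L₀ ζ₀ hζ₀ 1]
    simp only [map_one]
    unfold s37e_normAlpha
    rw [map_one]
  map_mul' x y := by
    apply s18q_incl_injective M L₀
    rw [map_mul (s18q_incl M L₀)]
    apply Subtype.ext
    show coeffMap (algebraMap ↥L₀ Kb) (s33t_N p ζ₀ ((x * y :
        ↥(laurentBaseChange ↥L₀ (modularFunctionFieldFull M))) : LaurentSeries ↥L₀)) =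
      coeffMap (algebraMap ↥L₀ Kb) (s33t_N p ζ₀ (x : LaurentSeries ↥L₀)) *
        coeffMap (algebraMap ↥L₀ Kb) (s33t_N p ζ₀ (y : LaurentSeries ↥L₀))
    rw [← s33t_coe_norm_incl M p hpM L₀ ζ₀ hζ₀, ← s33t_coe_norm_incl M p hpM L₀ ζ₀ hζ₀,
      ← s33t_coe_norm_incl M p hpM L₀ ζ₀ hζ₀, map_mul, map_mul]
    unfold s37e_normAlpha
    rw [map_mul, MulMemClass.coe_mul]

theorem s33t_coe_tau (y : ↥(laurentBaseChange ↥L₀ (modularFunctionFieldFull M))) :
    ((s33t_tau M p hpM L₀ ζ₀ hζ₀ y : ↥(laurentBaseChange ↥L₀ (modularFunctionFieldFull M))) :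
      LaurentSeries ↥L₀) = s33t_N p ζ₀ (y : LaurentSeries ↥L₀) := rfl

theorem s33t_incl_tau (y : ↥(laurentBaseChange ↥L₀ (modularFunctionFieldFull M))) :
    s18q_incl M L₀ (s33t_tau M p hpM L₀ ζ₀ hζ₀ y) =
      s37e_normAlpha M p (heckeBetaBar Kb M p (s18q_incl M L₀ y)) := by
  apply Subtype.ext
  rw [s18q_incl_coe, s33t_coe_tau, s33t_coe_norm_incl M p hpM L₀ ζ₀ hζ₀ y]

theorem s33t_tau_algebraMap (c : ↥L₀) :
    s33t_tau M p hpM L₀ ζ₀ hζ₀
        (algebraMap ↥L₀ ↥(laurentBaseChange ↥L₀ (modularFunctionFieldFull M)) c) =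
      algebraMap ↥L₀ ↥(laurentBaseChange ↥L₀ (modularFunctionFieldFull M)) (c ^ (p + 1)) := by
  apply Subtype.ext
  rw [s33t_coe_tau]
  have h1 : ∀ d : ↥L₀,
      ((algebraMap ↥L₀ ↥(laurentBaseChange ↥L₀ (modularFunctionFieldFull M)) d :
        ↥(laurentBaseChange ↥L₀ (modularFunctionFieldFull M))) : LaurentSeries ↥L₀) =
        HahnSeries.C d := by
    intro d
    show algebraMap ↥L₀ (LaurentSeries ↥L₀) d = HahnSeries.C d
    rw [algebraMap_laurentSeries_eq_single]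
    rfl
  rw [h1, h1, s33t_N_C]

theorem s33t_tau_ne_zero (y : ↥(laurentBaseChange ↥L₀ (modularFunctionFieldFull M))) (hy : y ≠ 0) :
    s33t_tau M p hpM L₀ ζ₀ hζ₀ y ≠ 0 := by
  intro h
  have h1 := s33t_incl_tau M p hpM L₀ ζ₀ hζ₀ y
  rw [h, map_zero] at h1
  have hy' : s18q_incl M L₀ y ≠ 0 := fun h0 =>
    hy (s18q_incl_injective M L₀ (by rw [h0, map_zero]))
  have hβ : heckeBetaBar Kb M p (s18q_incl M L₀ y) ≠ 0 := fun h0 =>
    hy' ((heckeBetaBar Kb M p).toRingHom.injective (by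
      rw [AlgHom.toRingHom_eq_coe, RingHom.coe_coe, h0, map_zero]))
  unfold s37e_normAlpha at h1
  letI := algebraAlong (heckeAlphaBar Kb M p)
  haveI : Module.Finite ↥(laurentBaseChange Kb (modularFunctionFieldFull M))
      ↥(laurentBaseChange Kb (modularFunctionFieldFull (M * p))) :=
    s37w_finite_alpha M p hp.out hpM
  exact hβ (Algebra.norm_eq_zero_iff.mp h1.symm)

end Tau

end

end Fermat.Agent.Lib.S33
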