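/-
S33 programme (P-AT-P), brick [TP] → [DESC-Tp] (helper3): the J-side ⇄ Kummer-side dictionary for
`T_p` over `ℚ̄`.

`s33t_IsKumGen M p z g`: `g ∈ F̄(M)ˣ` is a Kummer generator of `z ∈ J₀(M)(ℚ̄)`, i.e. `z = [D]` with
`p · D = div g`.  Then
* `s33t_isKumGen_hecke`  : `Nm_α (β g)` is a Kummer generator of `T_p z`;
* `s33t_isKumGen_zero_iff` : `z = 0 ⇔ g = c · h ^ p` (`c` constant);
* `s33t_kum0_of_hecke_eq_zero` : `T_p z = 0 ⇒ Nm_α (β g) = c · h ^ p`; over `L₀ ∋ ζ_p`: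
  `s33t_incl_tau_kum0` : `T_p z = 0 ⇒ incl (τ f) = c · h ^ p` for `g = incl f`.
-/
import Fermat.Agent.Lib.S33.TPTau
import Fermat.Agent.Lib.S37.HUnfold
import Fermat.Agent.Lib.S18.EConst

set_option autoImplicit false
set_option linter.style.haveILetI false
set_option linter.unusedSectionVars false
set_option synthInstance.maxHeartbeats 400000

namespace Fermat.Agent.Lib.S33

open ModularCurve HahnSeries AlgebraicCurve Fermat.Agent.Lib.S18 Fermat.Agent.Lib.S28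
  Fermat.Agent.Lib.S29 Fermat.Agent.Lib.S37 Fermat.Agent.Lib.FF

noncomputable section

local notation "Kb" => AlgebraicClosure ℚ

section Desc

variable (M : ℕ) [NeZero M] (p : ℕ) [hp : Fact p.Prime] (hpM : ¬ p ∣ M)

/-- `g` is a Kummer generator of the class `z`: `z = [D]` with `p · D = div g`. -/
def s33t_IsKumGen (z : JZero M) (g : ffi_F M) : Prop :=
  g ≠ 0 ∧ ∃ D : Divisor.degZero (K := Kb) (F := ffi_F M), Pic0.mk D = z ∧
    ∀ P : Place Kb (ffi_F M), (p : ℤ) * (D : Divisor Kb (ffi_F M)) P = P.ord g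

include hpM in
/-- **`T_p` on Kummer generators**: `Nm_α (β g)` generates `T_p z`. -/
theorem s33t_isKumGen_hecke (z : JZero M) (g : ffi_F M) (h : s33t_IsKumGen M p z g) :
    s33t_IsKumGen M p (heckeOperatorBar M ⟨p, hp.out⟩ z)
      (s37e_normAlpha M p (heckeBetaBar Kb M p g)) := by
  obtain ⟨hg, D, rfl, hD⟩ := h
  haveI : NeZero p := ⟨hp.out.ne_zero⟩
  refine ⟨?_, ?_⟩
  · intro h0
    have hβ : heckeBetaBar Kb M p g ≠ 0 := fun h1 =>
      hg ((heckeBetaBar Kb M p).toRingHom.injective (by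
        rw [AlgHom.toRingHom_eq_coe, RingHom.coe_coe, h1, map_zero]))
    unfold s37e_normAlpha at h0
    letI := algebraAlong (heckeAlphaBar Kb M p)
    haveI : Module.Finite ↥(laurentBaseChange Kb (modularFunctionFieldFull M))
        ↥(laurentBaseChange Kb (modularFunctionFieldFull (M * p))) :=
      s37w_finite_alpha M p hp.out hpM
    exact hβ (Algebra.norm_eq_zero_iff.mp h0)
  · refine ⟨_, (s37h_heckeOperatorBar_mk M p hp.out hpM D).symm, ?_⟩
    intro P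
    rw [s37h_coe_degZeroCorrespondence M p hp.out hpM D]
    have hD' : ∀ v : Place Kb (ffi_F M),
        ((p : ℤ) • (D : Divisor Kb (ffi_F M))) v = v.ord g := by
      intro v
      rw [Finsupp.smul_apply, smul_eq_mul, hD v]
    have key := s37h_heckeDivBar_principal M p hp.out hpM hg hD' P
    rw [map_zsmul, Finsupp.smul_apply, smul_eq_mul] at key
    rw [key]
    rfl

/-- **`z = 0 ⇔ g` is a constant times a `p`-th power.** -/
theorem s33t_isKumGen_zero_iff (z : JZero M) (g : ffi_F M) (h : s33t_IsKumGen M p z g) :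
    z = 0 ↔ ∃ (c : Kb) (x : ffi_F M), c ≠ 0 ∧ x ≠ 0 ∧ g = algebraMap Kb (ffi_F M) c * x ^ p := by
  obtain ⟨hg, D, rfl, hD⟩ := h
  have hp0 : (p : ℤ) ≠ 0 := by exact_mod_cast hp.out.ne_zero
  constructor
  · intro hz
    have hprin : (D : Divisor Kb (ffi_F M)) ∈ Divisor.principal (K := Kb) (F := ffi_F M) := by
      have := (QuotientAddGroup.eq_zero_iff D).mp hz
      exact this
    obtain ⟨x, hx, hDx⟩ := hprin
    -- `g / x ^ p` has trivial divisor
    have hxp : x ^ p ≠ 0 := pow_ne_zero p hx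
    have hord : ∀ P : Place Kb (ffi_F M), P.ord (g * (x ^ p)⁻¹) ≤ 0 := by
      intro P
      rw [P.ord_mul hg (inv_ne_zero hxp), P.ord_inv, s18i_ord_pow, ← hDx P, hD P]
      omega
    obtain ⟨c, hc⟩ := s18e_const_of_ord_nonpos M (g * (x ^ p)⁻¹) hord
    refine ⟨c, x, ?_, hx, ?_⟩
    · rintro rfl
      rw [map_zero] at hc
      exact mul_ne_zero hg (inv_ne_zero hxp) hc
    · rw [← hc, mul_assoc, inv_mul_cancel₀ hxp, mul_one]
  · rintro ⟨c, x, hc, hx, hgx⟩
    have hca : algebraMap Kb (ffi_F M) c ≠ 0 := by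
      intro h0
      exact hc ((algebraMap Kb (ffi_F M)).injective (by rw [h0, map_zero]))
    have hprin : (D : Divisor Kb (ffi_F M)) ∈ Divisor.principal (K := Kb) (F := ffi_F M) := by
      refine ⟨x, hx, fun P => ?_⟩
      have h1 := hD P
      rw [hgx, P.ord_mul hca (pow_ne_zero p hx), ff_ord_algebraMap, zero_add, s18i_ord_pow] at h1
      exact mul_left_cancel₀ hp0 h1
    exact (QuotientAddGroup.eq_zero_iff D).mpr hprin

include hpM in
/-- `T_p z = 0 ⇒ Nm_α (β g) ∈ 𝒢⁰`. -/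
theorem s33t_kum0_of_hecke_eq_zero (z : JZero M) (g : ffi_F M) (h : s33t_IsKumGen M p z g)
    (hz : heckeOperatorBar M ⟨p, hp.out⟩ z = 0) :
    ∃ (c : Kb) (x : ffi_F M), c ≠ 0 ∧ x ≠ 0 ∧
      s37e_normAlpha M p (heckeBetaBar Kb M p g) = algebraMap Kb (ffi_F M) c * x ^ p :=
  (s33t_isKumGen_zero_iff M p _ _ (s33t_isKumGen_hecke M p hpM z g h)).mp hz

variable (L₀ : IntermediateField ℚ Kb) (ζ₀ : (↥L₀)ˣ) (hζ₀ : IsPrimitiveRoot (ζ₀ : ↥L₀) p)

/-- **[DESC-Tp]**: if `incl f` is a Kummer generator of `z` and `T_p z = 0` then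
`incl (τ f) = c · x ^ p` over `ℚ̄`. -/
theorem s33t_incl_tau_kum0 (z : JZero M)
    (f : ↥(laurentBaseChange ↥L₀ (modularFunctionFieldFull M)))
    (h : s33t_IsKumGen M p z (s18q_incl M L₀ f))
    (hz : heckeOperatorBar M ⟨p, hp.out⟩ z = 0) :
    ∃ (c : Kb) (x : ffi_F M), c ≠ 0 ∧ x ≠ 0 ∧
      s18q_incl M L₀ (s33t_tau M p hpM L₀ ζ₀ hζ₀ f) = algebraMap Kb (ffi_F M) c * x ^ p := by
  rw [s33t_incl_tau]
  exact s33t_kum0_of_hecke_eq_zero M p hpM z _ h hz

/-- `incl (τ f)` is a Kummer generator of `T_p z`. -/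
theorem s33t_isKumGen_tau (z : JZero M)
    (f : ↥(laurentBaseChange ↥L₀ (modularFunctionFieldFull M)))
    (h : s33t_IsKumGen M p z (s18q_incl M L₀ f)) :
    s33t_IsKumGen M p (heckeOperatorBar M ⟨p, hp.out⟩ z)
      (s18q_incl M L₀ (s33t_tau M p hpM L₀ ζ₀ hζ₀ f)) := by
  rw [s33t_incl_tau]
  exact s33t_isKumGen_hecke M p hpM z _ h

end Desc

end

end Fermat.Agent.Lib.S33
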