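/-
P-AT-P programme (S33), brick [DESC] (helper1), part 9: the J-SIDE ⇄ KUMMER-SIDE DICTIONARY over a
subfield `L₀ ≤ ℚ̄` at a level `M`.

`f₀ ∈ F_{L₀}(M)` is a Kummer generator of `z ∈ J₀(M)(ℚ̄)[p]` when `s33d_IsKumGen p z (incl f₀)`.
* `s33d_kum_of_gen`        : then `f₀ ∈ 𝒢` (all orders over `L₀` divisible by `p`);
* `s33d_kum0_of_same_class`: two generators over `L₀` of the same class differ by `L₀ˣ · (F_{L₀}ˣ) ^ p`;
* `s33d_zero_of_kum0`, `s33d_kum0_of_zero` : `z = 0 ⇔ f₀ ∈ 𝒢⁰` (over `L₀`);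
* `s33d_isKumGen_tau`, `s33d_isKumGen_tau_iter` : `τ ^ j f₀` generates `T_p ^ j z` (helper3's [DESC-Tp]);
* `s33d_isKumGen_galois`   : `σ|_{L₀} f₀` generates `σ • z` for `L₀ / ℚ` normal.
-/
import Fermat.Agent.Lib.S33.DescGen
import Fermat.Agent.Lib.S33.DescKD
import Fermat.Agent.Lib.S33.DescKummer
import Fermat.Agent.Lib.S33.TPDesc
import Fermat.Agent.Lib.S18.EConst
import Fermat.Agent.Lib.S18.QPlace

set_option autoImplicit false
set_option linter.style.haveILetI false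
set_option linter.unusedSectionVars false
set_option synthInstance.maxHeartbeats 400000

noncomputable section

namespace Fermat.Agent.Lib.S33

open ModularCurve HahnSeries AlgebraicCurve Fermat.Agent.Lib.S18 Fermat.Agent.Lib.S37
  Fermat.Agent.Lib.FF

local notation "Qbar" => AlgebraicClosure ℚ
local notation "Γℚ" => (AlgebraicClosure ℚ ≃ₐ[ℚ] AlgebraicClosure ℚ)

/-- bridge between the two spellings of "Kummer generator". -/
theorem s33d_isKumGen_iff (M : ℕ) [NeZero M] (p : ℕ) [Fact p.Prime] (z : JZero M) (g : ffi_F M) :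
    s33d_IsKumGen p z g ↔ s33t_IsKumGen M p z g := by
  constructor
  · rintro ⟨hg, D, hD, h⟩
    exact ⟨hg, D, hD, fun P => (h P).symm⟩
  · rintro ⟨hg, D, hD, h⟩
    exact ⟨hg, D, hD, fun P => (h P).symm⟩

/-- functions without zeros and poles over `ℚ̄` are constants. -/
theorem s33d_constOfOrdZero_bar (M : ℕ) [NeZero M] : s33d_ConstOfOrdZero Qbar (ffi_F M) :=
  fun x _ hord => s18e_const_of_ord_nonpos M x (fun P => (hord P).le)

/-- an automorphism fixing a primitive `p`-th root of unity acts trivially on `μ_p`. -/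
theorem s33d_pow_of_fix {p : ℕ} (hp : 0 < p) {ζ : Qbar} (hζ : IsPrimitiveRoot ζ p) {σ : Γℚ}
    (hσ : σ ζ = ζ) (ζ' : Qbar) (hζ' : ζ' ^ p = 1) : σ ζ' = ζ' ^ 1 := by
  haveI : NeZero p := ⟨hp.ne'⟩
  obtain ⟨i, -, rfl⟩ := hζ.eq_pow_of_pow_eq_one hζ'
  rw [map_pow, hσ, pow_one]

section Dict

variable (M : ℕ) [NeZero M] (p : ℕ) [hp : Fact p.Prime] (L₀ : IntermediateField ℚ Qbar)

/-- a Kummer generator over `L₀` lies in the Kummer group `𝒢` of `F_{L₀}`. -/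
theorem s33d_kum_of_gen {z : JZero M}
    {f₀ : ↥(laurentBaseChange ↥L₀ (modularFunctionFieldFull M))}
    (h : s33d_IsKumGen p z (s18q_incl M L₀ f₀)) :
    f₀ ≠ 0 ∧ ∀ Q : Place ↥L₀ ↥(laurentBaseChange ↥L₀ (modularFunctionFieldFull M)),
      (p : ℤ) ∣ Q.ord f₀ := by
  obtain ⟨hf0, D, -, hD⟩ := h
  refine ⟨fun h0 => hf0 (by rw [h0, map_zero]), ?_⟩
  exact s18q_dvd_ord_descend M L₀ (p : ℤ) f₀ (fun P => ⟨_, hD P⟩)

/-- two Kummer generators over `L₀` of the same class differ by an element of `𝒢⁰` over `L₀`. -/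
theorem s33d_kum0_of_same_class {z : JZero M}
    {f₀ f₀' : ↥(laurentBaseChange ↥L₀ (modularFunctionFieldFull M))}
    (h : s33d_IsKumGen p z (s18q_incl M L₀ f₀)) (h' : s33d_IsKumGen p z (s18q_incl M L₀ f₀')) :
    ∃ (c₀ : ↥L₀) (h₀ : ↥(laurentBaseChange ↥L₀ (modularFunctionFieldFull M))), c₀ ≠ 0 ∧ h₀ ≠ 0 ∧
      f₀' = algebraMap ↥L₀ _ c₀ * h₀ ^ p * f₀ := by
  haveI : NeZero p := ⟨hp.out.ne_zero⟩
  obtain ⟨ζ, hζ⟩ := HasEnoughRootsOfUnity.exists_primitiveRoot Qbar p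
  have hf0 : f₀ ≠ 0 := (s33d_kum_of_gen M p L₀ h).1
  have hf0' : f₀' ≠ 0 := (s33d_kum_of_gen M p L₀ h').1
  obtain ⟨c, w, hc, hw, hfw⟩ := s33d_kumGen_unique (s33d_constOfOrdZero_bar M) h h'
  have hx : s33d_incl (modularFunctionFieldFull M) L₀ (f₀' / f₀) =
      algebraMap Qbar ↥(laurentBaseChange Qbar (modularFunctionFieldFull M)) c * w ^ p := by
    have h1 : s18q_incl M L₀ (f₀' / f₀) = s18q_incl M L₀ f₀' / s18q_incl M L₀ f₀ := map_div₀ _ _ _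
    show s18q_incl M L₀ (f₀' / f₀) = _
    rw [h1, hfw, mul_div_assoc, div_self h.1, mul_one]
  obtain ⟨c₀, h₀, hc₀, hh₀, e⟩ := s33d_kum0_descent (modularFunctionFieldFull M) p ζ hζ L₀
    (f₀' / f₀) (div_ne_zero hf0' hf0) c w hx
  refine ⟨c₀, h₀, hc₀, hh₀, ?_⟩
  rw [← e, div_mul_cancel₀ _ hf0]

/-- the class of an element of `𝒢⁰` over `L₀` is trivial. -/
theorem s33d_zero_of_kum0 {z : JZero M}
    {f₀ : ↥(laurentBaseChange ↥L₀ (modularFunctionFieldFull M))}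
    (h : s33d_IsKumGen p z (s18q_incl M L₀ f₀)) {c₀ : ↥L₀}
    {h₀ : ↥(laurentBaseChange ↥L₀ (modularFunctionFieldFull M))} (hc₀ : c₀ ≠ 0) (hh₀ : h₀ ≠ 0)
    (e : f₀ = algebraMap ↥L₀ _ c₀ * h₀ ^ p) : z = 0 := by
  refine (s33d_kumGen_zero_iff (s33d_constOfOrdZero_bar M) hp.out.ne_zero h).mpr
    ⟨(c₀ : Qbar), s18q_incl M L₀ h₀, ?_, ?_, ?_⟩
  · exact fun h0 => hc₀ (Subtype.ext h0)
  · rwa [Ne, map_eq_zero]
  · rw [e, map_mul, map_pow, s18q_incl_algebraMap]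

/-- a Kummer generator over `L₀` of the trivial class lies in `𝒢⁰` over `L₀`. -/
theorem s33d_kum0_of_zero {f₀ : ↥(laurentBaseChange ↥L₀ (modularFunctionFieldFull M))}
    (h : s33d_IsKumGen p (0 : JZero M) (s18q_incl M L₀ f₀)) :
    ∃ (c₀ : ↥L₀) (h₀ : ↥(laurentBaseChange ↥L₀ (modularFunctionFieldFull M))), c₀ ≠ 0 ∧ h₀ ≠ 0 ∧
      f₀ = algebraMap ↥L₀ _ c₀ * h₀ ^ p := by
  have h1 : s33d_IsKumGen p (0 : JZero M) (s18q_incl M L₀ 1) := by
    rw [map_one]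
    exact ⟨one_ne_zero, 0, rfl, fun v => by simp⟩
  obtain ⟨c₀, h₀, hc₀, hh₀, e⟩ := s33d_kum0_of_same_class M p L₀ h1 h
  exact ⟨c₀, h₀, hc₀, hh₀, by rw [e, mul_one]⟩

section Tau

variable (hpM : ¬ p ∣ M) (ζ₀ : (↥L₀)ˣ) (hζ₀ : IsPrimitiveRoot (ζ₀ : ↥L₀) p)

/-- **[DESC-Tp]** (helper3): `τ f₀` is a Kummer generator of `T_p z`. -/
theorem s33d_isKumGen_tau {z : JZero M}
    {f₀ : ↥(laurentBaseChange ↥L₀ (modularFunctionFieldFull M))}
    (h : s33d_IsKumGen p z (s18q_incl M L₀ f₀)) :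
    s33d_IsKumGen p (heckeOperatorBar M ⟨p, hp.out⟩ z)
      (s18q_incl M L₀ (s33t_tau M p hpM L₀ ζ₀ hζ₀ f₀)) :=
  (s33d_isKumGen_iff M p _ _).mpr
    (s33t_isKumGen_tau M p hpM L₀ ζ₀ hζ₀ z f₀ ((s33d_isKumGen_iff M p _ _).mp h))

/-- iterated form. -/
theorem s33d_isKumGen_tau_iter (j : ℕ) {z : JZero M}
    {f₀ : ↥(laurentBaseChange ↥L₀ (modularFunctionFieldFull M))}
    (h : s33d_IsKumGen p z (s18q_incl M L₀ f₀)) :
    s33d_IsKumGen p (((heckeOperatorBar M ⟨p, hp.out⟩) ^ j) z)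
      (s18q_incl M L₀ ((s33t_tau M p hpM L₀ ζ₀ hζ₀)^[j] f₀)) := by
  induction j with
  | zero => simpa using h
  | succ j ih =>
    rw [Function.iterate_succ_apply', pow_succ', Module.End.mul_apply]
    exact s33d_isKumGen_tau M p L₀ hpM ζ₀ hζ₀ ih

end Tau

section Galois

/-- for `L₀ / ℚ` normal, `σ|_{L₀}` applied coefficientwise to a Kummer generator of `z` is a Kummer
generator of `σ • z`. -/
theorem s33d_isKumGen_galois [Normal ℚ ↥L₀] (σ : Γℚ) {z : JZero M}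
    {f₀ : ↥(laurentBaseChange ↥L₀ (modularFunctionFieldFull M))}
    (h : s33d_IsKumGen p z (s18q_incl M L₀ f₀)) :
    s33d_IsKumGen p (σ • z)
      (s18q_incl M L₀ (arithmeticRingAut (modularFunctionFieldFull M) (σ.restrictNormal ↥L₀) f₀)) := by
  have h1 := s33d_kumGen_smul (arithmeticGalois (modularFunctionFieldFull M) σ) h
  have h2 := s33d_smul_incl_normal (modularFunctionFieldFull M) L₀ σ f₀
  have h3 : arithmeticGalois (modularFunctionFieldFull M) σ • s18q_incl M L₀ f₀ =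
      s18q_incl M L₀ (arithmeticRingAut (modularFunctionFieldFull M) (σ.restrictNormal ↥L₀) f₀) := h2
  rw [h3] at h1
  exact h1

end Galois

end Dict

end Fermat.Agent.Lib.S33
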