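/-
P-AT-P programme (S33), brick [FO], instantiation, wave 2: the chart geometry for ANY coordinate `w`
of the Gauss datum for which the two S18 per-chart pipelines are available (`s33i_chartGeo_of_inputs`),
and its instance `ℓ = 3`, `2 ∣ M`, base `t₂` (`s33i_chartGeo_three`); then the uniform statements
`s33i_chartGeo_good` (`5 ≤ ℓ` or `ℓ = 3 ∧ 2 ∣ M`: SOME base function `t`) and `s33i_III_good`.
(owner: helper6)
-/
import Fermat.Agent.Lib.S33.FOInstJ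
import Fermat.Agent.Lib.S18.FProv23

set_option autoImplicit false
set_option linter.style.haveILetI false
set_option linter.unusedSectionVars false
noncomputable section

namespace Fermat.Agent.Lib.S33

open AlgebraicCurve ModularCurve Fermat.Agent.Lib.FF Fermat.Agent.Lib.S18 Polynomial IntermediateField

local notation "Qbar" => AlgebraicClosure ℚ

section Generic

variable {K : Type} [Field K] [CharZero K] [Algebra ℚ K] {κ : Type} [Field κ]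
  (G : s18g_GaussData K κ) [IsDiscreteValuationRing G.A] (M : ℕ) [NeZero M]

local notation "𝓕M" => laurentBaseChange K (modularFunctionFieldFull M)
local notation "hFM" => (fun (f : LaurentSeries K)
  (hf : f ∈ laurentBaseChange K (modularFunctionFieldFull M)) => s18g_baseChange_mem_Frac G M hf)

/-- **The chart geometry for a coordinate `w`** with both S18 per-chart pipelines
(generic form of helper9's `s33k_inst_chartGeo_five`, all eight fields). -/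
theorem s33i_chartGeo_of_inputs (hπ : Function.Surjective G.π)
    (hT : s18g_HT κ M) (hdeg : s18g_HDeg K M)
    (p e : ℕ) (ε : K) (hp : p.Prime) (he : 0 < e) (hε : ε ∈ G.A) (hεinv : ε⁻¹ ∈ G.A)
    (hε0 : ε ≠ 0) (hpe : (p : K) = ε * ((G.ϖ : G.A) : K) ^ e)
    (hperf : ∀ c : κ, ∃ d : κ, d ^ p = c)
    (w : ↥𝓕M) [FFGen K w] [FFGen K w⁻¹] (hw0 : w ≠ 0)
    (hwV : w ∈ s18g_V G 𝓕M hFM) (hwinvV : w⁻¹ ∈ s18g_V G 𝓕M hFM)
    (hα₁ : ∀ y ∈ s18g_V G 𝓕M hFM, ∃ s : G.A[X], s.map G.π ≠ 0 ∧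
      (s18b_ev G 𝓕M w).IsIntegralElem (s18b_ev G 𝓕M w s * y))
    (hα₂ : ∀ y ∈ s18g_V G 𝓕M hFM, ∃ s : G.A[X], s.map G.π ≠ 0 ∧
      (s18b_ev G 𝓕M w⁻¹).IsIntegralElem (s18b_ev G 𝓕M w⁻¹ s * y))
    (n₁ : ℕ) (hrank1 : Module.finrank ↥K⟮w⟯ ↥𝓕M = n₁)
    (hch1 : letI := s18f_algF G M hT hdeg w hwV;
      Function.Injective (algebraMap κ[X] ↥(modularFunctionFieldFullC κ M)) ∧
      ∃ bt : Module.Basis (Fin n₁) κ[X]
        ↥(integralClosure κ[X] ↥(modularFunctionFieldFullC κ M)),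
        Algebra.discr κ[X] bt ≠ 0)
    (hI1 : s18r_MainInputs G M w)
    (n₂ : ℕ) (hrank2 : Module.finrank ↥K⟮w⁻¹⟯ ↥𝓕M = n₂)
    (hch2 : letI := s18f_algF G M hT hdeg w⁻¹ hwinvV;
      Function.Injective (algebraMap κ[X] ↥(modularFunctionFieldFullC κ M)) ∧
      ∃ bt : Module.Basis (Fin n₂) κ[X]
        ↥(integralClosure κ[X] ↥(modularFunctionFieldFullC κ M)),
        Algebra.discr κ[X] bt ≠ 0)
    (hI2 : s18r_MainInputs G M w⁻¹) :
    s33f_ChartGeo (s33i_datum G M hT hdeg hπ p e ε hp he hε hεinv hε0 hpe hperf) w := by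
  have hS1 := s33i_chartS_of_inputs G M hπ hT hdeg w hwV hα₁ n₁ hrank1 hch1 hI1
  have hS2 := s33i_chartS_of_inputs G M hπ hT hdeg w⁻¹ hwinvV hα₂ n₂ hrank2 hch2 hI2
  have hp2 : 2 ≤ p := hp.two_le
  refine
    { noeth := s33k_inst_noeth G
      fullConst := s33i_fullConst_of_ffGen _ w
      hclosed1 := ?_
      hclosed2 := ?_
      hinv1 := ?_
      hinv2 := ?_
      hH := ?_
      hglob := s33i_hglob G M hT hdeg hπ p e ε hp he hε hεinv hε0 hpe hperf w hw0 hwV hwinvV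
        hα₁ hα₂
      hplace := fun Q => s33i_hplace G M hT hdeg hπ p e ε hp he hε hεinv hε0 hpe hperf w hw0 hwV
        hwinvV hα₁ hα₂ Q }
  · letI := s18f_algF G M hT hdeg w hwV
    obtain ⟨hDed, hint, hmain⟩ := hS1
    exact s33k_inst_hclosed G M hT hdeg w hwV hα₁ (s18f_algF_apply G M hT hdeg _ hwV) hmain p hp2
  · letI := s18f_algF G M hT hdeg w⁻¹ hwinvV
    obtain ⟨hDed, hint, hmain⟩ := hS2
    exact s33k_inst_hclosed G M hT hdeg w⁻¹ hwinvV hα₂ (s18f_algF_apply G M hT hdeg _ hwinvV)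
      hmain p hp2
  · letI := s18f_algF G M hT hdeg w hwV
    obtain ⟨hDed, hint, hmain⟩ := hS1
    haveI := hDed
    exact s33k_inst_hinv G M hT hdeg w hwV hα₁ (s18f_algF_apply G M hT hdeg _ hwV) hmain p
  · letI := s18f_algF G M hT hdeg w⁻¹ hwinvV
    obtain ⟨hDed, hint, hmain⟩ := hS2
    haveI := hDed
    exact s33k_inst_hinv G M hT hdeg w⁻¹ hwinvV hα₂ (s18f_algF_apply G M hT hdeg _ hwinvV) hmain p
  · exact s33k_inst_hH G (laurentBaseChange K (modularFunctionFieldFull M)) hFM w hw0 hwV hwinvV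
      hα₁ p

end Generic

/-- **The chart geometry of `X₀(M)` at `ℓ = 3`, `2 ∣ M`** (base `t₂`) for the concrete datum. -/
theorem s33i_chartGeo_three (M : ℕ) [NeZero M] (ℓ : ℕ) [Fact ℓ.Prime] (hℓM : ¬ ℓ ∣ M)
    (hℓ3 : ℓ = 3) (h2M : 2 ∣ M) (K₀ : Type) [Field K₀] [NumberField K₀] (φ : K₀ →+* Qbar)
    (κ : Type) [Field κ] [CharP κ ℓ] [PerfectField κ]
    (G : s18g_GaussData K₀ κ) [IsDiscreteValuationRing G.A] (hπ : Function.Surjective G.π)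
    (hT : s18g_HT κ M) (hdeg : s18g_HDeg K₀ M)
    (p e : ℕ) (ε : K₀) (hp : p.Prime) (he : 0 < e) (hε : ε ∈ G.A) (hεinv : ε⁻¹ ∈ G.A)
    (hε0 : ε ≠ 0) (hpe : (p : K₀) = ε * ((G.ϖ : G.A) : K₀) ^ e)
    (hperf : ∀ c : κ, ∃ d : κ, d ^ p = c) :
    ∃ t : ↥(laurentBaseChange K₀ (modularFunctionFieldFull M)),
      s33f_ChartGeo (s33i_datum G M hT hdeg hπ p e ε hp he hε hεinv hε0 hpe hperf) t := by
  have hℓ2 : ¬ ℓ ∣ 2 := by rw [hℓ3]; decide
  have hT2 : s18g_HT κ 2 := s18t_indep_j ℓ 2 hℓ2 κ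
  have hdeg2 : s18g_HDeg K₀ 2 := fun n b hb hn => s18g_exists_relation 2 φ hn b hb
  have hFM : ∀ f ∈ laurentBaseChange K₀ (modularFunctionFieldFull M), f ∈ s18g_Frac G :=
    fun _ hf => s18g_baseChange_mem_Frac G M hf
  obtain ⟨w, hcoe, ⟨hwV, -⟩, hwinvV, hgen, hgeninv⟩ := s18b_W1_t2 G hT2 hdeg2 M h2M hdeg hFM
  haveI : FFGen K₀ w := hgen
  haveI : FFGen K₀ w⁻¹ := hgeninv
  have hw0 : w ≠ 0 := by
    intro h0
    apply s18b_t2_ne_zero K₀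
    rw [← hcoe, h0]
    rfl
  obtain ⟨-, hrank1⟩ := s18t_deg_charZero_t2 G M hFM hdeg ℓ hℓM h2M hdeg2 w hcoe hwV w
    (Or.inl rfl)
  obtain ⟨-, hrank2⟩ := s18t_deg_charZero_t2 G M hFM hdeg ℓ hℓM h2M hdeg2 w hcoe hwV w⁻¹
    (Or.inr rfl)
  refine ⟨w, s33i_chartGeo_of_inputs G M hπ hT hdeg p e ε hp he hε hεinv hε0 hpe hperf w hw0 hwV
    hwinvV (s18f_alpha_of_coe G M w _ hcoe (s18u_alpha_t2_coe G M hT hdeg))
    (s18f_alpha_inv_of_coe G M w _ hcoe (s18u_alpha_t2_inv_coe G M hT hdeg))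
    (dedekindPsi M / 3) hrank1 ?_ (s18r_mainInputs_t2 G M φ ℓ hℓ3 w hcoe)
    (dedekindPsi M / 3) hrank2 ?_ (s18r_mainInputs_t2_inv G M φ ℓ hℓ3 w hcoe)⟩
  · letI := s18f_algF G M hT hdeg w hwV
    exact s18t_deg_chart_t2 G M hFM hT hdeg ℓ hπ hℓM h2M hdeg2 w hcoe hwV _ (Or.inl rfl)
      (s18f_algF_apply G M hT hdeg w hwV)
  · letI := s18f_algF G M hT hdeg w⁻¹ hwinvV
    exact s18t_deg_chart_t2 G M hFM hT hdeg ℓ hπ hℓM h2M hdeg2 w hcoe hwV _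
      (Or.inr (s18f_redF_inv G M hT hdeg w hw0 hwV hwinvV))
      (s18f_algF_apply G M hT hdeg w⁻¹ hwinvV)

/-- **The chart geometry at every S18-good odd pair** (`5 ≤ ℓ`, or `ℓ = 3` and `2 ∣ M`), with SOME base
function. -/
theorem s33i_chartGeo_good (M : ℕ) [NeZero M] (ℓ : ℕ) [Fact ℓ.Prime] (hℓM : ¬ ℓ ∣ M)
    (hgood : 5 ≤ ℓ ∨ (ℓ = 3 ∧ 2 ∣ M)) (K₀ : Type) [Field K₀] [NumberField K₀] (φ : K₀ →+* Qbar)
    (κ : Type) [Field κ] [CharP κ ℓ] [PerfectField κ]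
    (G : s18g_GaussData K₀ κ) [IsDiscreteValuationRing G.A] (hπ : Function.Surjective G.π)
    (hT : s18g_HT κ M) (hdeg : s18g_HDeg K₀ M)
    (p e : ℕ) (ε : K₀) (hp : p.Prime) (he : 0 < e) (hε : ε ∈ G.A) (hεinv : ε⁻¹ ∈ G.A)
    (hε0 : ε ≠ 0) (hpe : (p : K₀) = ε * ((G.ϖ : G.A) : K₀) ^ e)
    (hperf : ∀ c : κ, ∃ d : κ, d ^ p = c) :
    ∃ t : ↥(laurentBaseChange K₀ (modularFunctionFieldFull M)),
      s33f_ChartGeo (s33i_datum G M hT hdeg hπ p e ε hp he hε hεinv hε0 hpe hperf) t := by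
  rcases hgood with h5 | ⟨h3, h2M⟩
  · exact ⟨_, s33i_chartGeo_five M ℓ h5 K₀ φ κ G hπ hT hdeg p e ε hp he hε hεinv hε0 hpe hperf⟩
  · exact s33i_chartGeo_three M ℓ hℓM h3 h2M K₀ φ κ G hπ hT hdeg p e ε hp he hε hεinv hε0 hpe
      hperf

section III

set_option synthInstance.maxHeartbeats 200000

variable (M : ℕ) [NeZero M] (p : ℕ) [hp : Fact p.Prime] (hpM : ¬ p ∣ M)
  (hgood : 5 ≤ p ∨ (p = 3 ∧ 2 ∣ M))
variable (L₀ : IntermediateField ℚ Qbar) [NumberField ↥L₀]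
  (ζ₀ : (↥L₀)ˣ) (hζ₀ : IsPrimitiveRoot (ζ₀ : ↥L₀) p)
variable {κ : Type} [Field κ] [CharP κ p] [PerfectRing κ p] (G : s18g_GaussData ↥L₀ κ)
  [IsDiscreteValuationRing G.A]
variable (hT : s18g_HT κ M) (hdeg : s18g_HDeg ↥L₀ M) (hπ : Function.Surjective G.π)
variable (e : ℕ) (ε : ↥L₀) (he : 0 < e) (hε : ε ∈ G.A) (hεinv : ε⁻¹ ∈ G.A) (hε0 : ε ≠ 0)
variable (hpe : (p : ↥L₀) = ε * ((G.ϖ : G.A) : ↥L₀) ^ e) (hperf : ∀ c : κ, ∃ d : κ, d ^ p = c)

include hgood hpM in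
/-- the chart geometry in helper3's setting (`L₀ ⊂ ℚ̄` a number field). -/
theorem s33i_chartGeo_good' :
    ∃ t : ↥(laurentBaseChange ↥L₀ (modularFunctionFieldFull M)),
      s33f_ChartGeo (s33i_datum G M hT hdeg hπ p e ε hp.out he hε hεinv hε0 hpe hperf) t := by
  haveI : PerfectField κ := PerfectRing.toPerfectField κ p
  exact s33i_chartGeo_good M p hpM hgood ↥L₀ (algebraMap ↥L₀ Qbar) κ G hπ hT hdeg p e ε hp.out he
    hε hεinv hε0 hpe hperf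

include hgood in
/-- **(III-abstract) for the modular datum at every S18-good odd pair `(p, M)`.** -/
theorem s33i_III_good :
    s33f_IIIAbstract (s33i_datum G M hT hdeg hπ p e ε hp.out he hε hεinv hε0 hpe hperf)
      (s33t_TPData M p hpM L₀ ζ₀ hζ₀ G hT hdeg hπ e ε he hε hεinv hε0 hpe hperf) := by
  obtain ⟨t, ht⟩ := s33i_chartGeo_good' M p hpM hgood L₀ G hT hdeg hπ e ε he hε hεinv hε0 hpe hperf
  exact s33f_IIIAbstract_of_chartGeo ht _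
    (s33t_TP M p hpM L₀ ζ₀ hζ₀ G hT hdeg hπ e ε he hε hεinv hε0 hpe hperf)

end III

end Fermat.Agent.Lib.S33
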