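/-
S33 programme (P-AT-P), brick [TP] (helper3), part 7: the residue-side data of `T_p`:
the Frobenius pull-back `Φ : F̄ →+* F̄`, `x ↦ x(q^p)` (`κ`-linear), and the coefficient Frobenius
`σ : F̄ ≃+* F̄` on `F̄ = modularFunctionFieldFullC κ M` (`κ` perfect of characteristic `p`), with
`σ (Φ x) = x ^ p`.  These are the fields `Φ`, `σ` of helper6's `s33f_TPData`.
-/
import Fermat.Agent.Lib.S37.EFun

set_option autoImplicit false
set_option linter.style.haveILetI false
set_option linter.unusedSectionVars false

namespace Fermat.Agent.Lib.S33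

open ModularCurve HahnSeries AlgebraicCurve Fermat.Agent.Lib.S28 Fermat.Agent.Lib.S37

noncomputable section

section Data

variable (κ : Type*) [Field κ] (M : ℕ) [NeZero M] (p : ℕ) [hp : Fact p.Prime] [CharP κ p]
  [PerfectRing κ p]

theorem s33t_qExpand_mem (x : ↥(modularFunctionFieldFullC κ M)) :
    qExpand κ p (x : LaurentSeries κ) ∈ modularFunctionFieldFullC κ M := by
  rw [s37e_qExpand_eq_pow p, ← s37e_coe_psi_inv_smul]
  exact pow_mem (Subtype.mem _) p

/-- The Frobenius pull-back `Φ : x ↦ x(q^p)` on the residue function field. -/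
def s33t_Phi : ↥(modularFunctionFieldFullC κ M) →+* ↥(modularFunctionFieldFullC κ M) where
  toFun x := ⟨qExpand κ p (x : LaurentSeries κ), s33t_qExpand_mem κ M p x⟩
  map_one' := Subtype.ext (by simp)
  map_mul' x y := Subtype.ext (by simp)
  map_zero' := Subtype.ext (by simp)
  map_add' x y := Subtype.ext (by simp)

@[simp] theorem s33t_coe_Phi (x : ↥(modularFunctionFieldFullC κ M)) :
    ((s33t_Phi κ M p x : ↥(modularFunctionFieldFullC κ M)) : LaurentSeries κ) =
      qExpand κ p (x : LaurentSeries κ) := rfl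

/-- The coefficient Frobenius `σ` on the residue function field. -/
def s33t_sigma : ↥(modularFunctionFieldFullC κ M) ≃+* ↥(modularFunctionFieldFullC κ M) :=
  SemilinearAut.toRingAut (s37e_psi κ M p)

theorem s33t_coe_sigma (x : ↥(modularFunctionFieldFullC κ M)) :
    ((s33t_sigma κ M p x : ↥(modularFunctionFieldFullC κ M)) : LaurentSeries κ) =
      coeffMap (frobenius κ p) (x : LaurentSeries κ) :=
  s37e_coe_psi_smul x

theorem s33t_coe_algebraMap_fullC (c : κ) :
    ((algebraMap κ ↥(modularFunctionFieldFullC κ M) c : ↥(modularFunctionFieldFullC κ M)) :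
      LaurentSeries κ) = HahnSeries.C c := by
  show algebraMap κ (LaurentSeries κ) c = HahnSeries.C c
  rw [algebraMap_laurentSeries_eq_single]
  rfl

theorem s33t_Phi_const (c : κ) :
    s33t_Phi κ M p (algebraMap κ ↥(modularFunctionFieldFullC κ M) c) =
      algebraMap κ ↥(modularFunctionFieldFullC κ M) c := by
  apply Subtype.ext
  rw [s33t_coe_Phi, s33t_coe_algebraMap_fullC, qExpand_C]

theorem s33t_sigma_const (c : κ) :
    s33t_sigma κ M p (algebraMap κ ↥(modularFunctionFieldFullC κ M) c) =
      algebraMap κ ↥(modularFunctionFieldFullC κ M) (c ^ p) := by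
  apply Subtype.ext
  rw [s33t_coe_sigma, s33t_coe_algebraMap_fullC, s33t_coe_algebraMap_fullC, HahnSeries.C_apply,
    coeffMap_single, HahnSeries.C_apply, frobenius_def]

theorem s33t_sigma_Phi (x : ↥(modularFunctionFieldFullC κ M)) :
    s33t_sigma κ M p (s33t_Phi κ M p x) = x ^ p := by
  apply Subtype.ext
  rw [s33t_coe_sigma, s33t_coe_Phi, SubmonoidClass.coe_pow, s37e_pow_char p, coeffMap_qExpand]

end Data

end

end Fermat.Agent.Lib.S33
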