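/-
S33 programme (P-AT-P), brick [TP] (helper3), part 6: `τ = Nm_α ∘ β` preserves the Kummer group
`𝒢 = {f ≠ 0 : p ∣ ord_Q f ∀ Q}` over `L₀` (more generally: `m ∣ ord_Q f ∀ Q ⇒ m ∣ ord_Q (τ f) ∀ Q`),
because `div (Nm_α (β g)) = T_p (div g)` over `ℚ̄` (`s37e_heckeDivBar_principal`) and `T_p` is additive
on divisors; orders over `L₀` and over `ℚ̄` agree (`s18q_ord_restrict`).
-/
import Fermat.Agent.Lib.S33.TPTau
import Fermat.Agent.Lib.S37.HInputs
import Fermat.Agent.Lib.S18.QPlace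

set_option autoImplicit false
set_option linter.style.haveILetI false
set_option synthInstance.maxHeartbeats 400000

namespace Fermat.Agent.Lib.S33

open ModularCurve HahnSeries AlgebraicCurve Fermat.Agent.Lib.S18 Fermat.Agent.Lib.S28
  Fermat.Agent.Lib.S29 Fermat.Agent.Lib.S37 Fermat.Agent.Lib.FF

noncomputable section

local notation "Kb" => AlgebraicClosure ℚ

section Kum

variable (M : ℕ) [NeZero M] (p : ℕ) [hp : Fact p.Prime] (hpM : ¬ p ∣ M)

include hpM in
/-- over `ℚ̄`: divisibility of all orders is preserved by `g ↦ Nm_α (β g)`. -/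
theorem s33t_dvd_ord_norm (m : ℤ) (g : ↥(modularFunctionFieldBar M)) (hg : g ≠ 0)
    (h : ∀ P : Place Kb ↥(modularFunctionFieldBar M), m ∣ P.ord g)
    (P : Place Kb ↥(modularFunctionFieldBar M)) :
    m ∣ P.ord (s37e_normAlpha M p (heckeBetaBar Kb M p g)) := by
  classical
  obtain ⟨hα, hβ, hPD, hfin, -, hN⟩ := s37h_heckeInputsAlong M p hp.out hpM
  haveI := hPD
  obtain ⟨D, hD, -⟩ := HasPrincipalDivisors.exists_divisor (K := Kb) g hg
  have key := s37e_heckeDivBar_principal hα hβ hfin hN g hg D hD P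
  rw [← key]
  -- `D = m • E`
  set E : Divisor Kb ↥(modularFunctionFieldBar M) :=
    Finsupp.mapRange (fun n : ℤ => n / m) (by simp) D with hE
  have hDE : D = m • E := by
    ext Q
    rw [Finsupp.smul_apply, hE, Finsupp.mapRange_apply, smul_eq_mul, hD Q,
      Int.mul_ediv_cancel' (h Q)]
  rw [hDE, map_zsmul, Finsupp.smul_apply, smul_eq_mul]
  exact dvd_mul_right _ _

variable (L₀ : IntermediateField ℚ Kb) (ζ₀ : (↥L₀)ˣ) (hζ₀ : IsPrimitiveRoot (ζ₀ : ↥L₀) p)

/-- **`τ` preserves divisibility of the orders** (hence the Kummer group). -/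
theorem s33t_tau_dvd_ord (m : ℤ) (f : ↥(laurentBaseChange ↥L₀ (modularFunctionFieldFull M)))
    (hf : f ≠ 0)
    (h : ∀ Q : Place ↥L₀ ↥(laurentBaseChange ↥L₀ (modularFunctionFieldFull M)), m ∣ Q.ord f)
    (Q : Place ↥L₀ ↥(laurentBaseChange ↥L₀ (modularFunctionFieldFull M))) :
    m ∣ Q.ord (s33t_tau M p hpM L₀ ζ₀ hζ₀ f) := by
  apply s18q_dvd_ord_descend M L₀ m
  intro P
  rw [s33t_incl_tau]
  apply s33t_dvd_ord_norm M p hpM m
  · intro h0
    exact hf (s18q_incl_injective M L₀ (by rw [h0, map_zero]))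
  · intro P'
    rw [s18q_ord_restrict]
    exact h _

end Kum

end

end Fermat.Agent.Lib.S33
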