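/-
S33 programme (P-AT-P), brick [TP] (helper3), part 5: THE LEADING-TERM THEOREM for the Kummer-side
Hecke operator `τ = Nm_α ∘ β` (`s33t_tau`, Lib/S33/TPTau) with respect to the Gauss valuation
(`s18x_V G M`, reduction `s18g_redV`/`s18g_redF`) attached to a Gauss datum `G` on `L₀`.

`s33t_tau_lead`: if `f - 1 = ϖ ^ a z` with `z ∈ V` and `a ≥ 1`, then `τ f - 1 = ϖ ^ a z'` with `z' ∈ V` and
`red z' = (red z)(q^p)`.  I.e. `τ` preserves every `1 + ϖ^a V` and acts on the leading terms by the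
Frobenius pull-back `Φ : x ↦ x(q^p)`.
-/
import Fermat.Agent.Lib.S33.TPTau
import Fermat.Agent.Lib.S37.GGenAbs
import Fermat.Agent.Lib.S18.XGauss

set_option autoImplicit false
set_option linter.style.haveILetI false
set_option linter.unusedSectionVars false

namespace Fermat.Agent.Lib.S33

open ModularCurve HahnSeries AlgebraicCurve Fermat.Agent.Lib.S18 Fermat.Agent.Lib.S28
  Fermat.Agent.Lib.S29 Fermat.Agent.Lib.S37

noncomputable section

local notation "Kb" => AlgebraicClosure ℚ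

/-! ### The pair formula over a Gauss datum -/

section GaussSeries

variable {K : Type*} [Field K] {κ : Type*} [Field κ] (G : s18g_GaussData K κ)
variable (p : ℕ) [hp : Fact p.Prime] [CharP κ p]
variable (ζ₀ : Kˣ) (hζ₀ : ζ₀ ^ p = 1)

/-- the root of unity as a unit of the valuation ring of the datum. -/
def s33t_zetaA : (↥G.A)ˣ := s37e_unitOfRoot G.A hp.out.pos ζ₀ hζ₀

theorem s33t_map_zetaA :
    Units.map ((G.A.subtype : ↥G.A →+* K) : ↥G.A →* K) (s33t_zetaA G p ζ₀ hζ₀) = ζ₀ :=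
  s37e_map_unitOfRoot G.A hp.out.pos ζ₀ hζ₀

theorem s33t_pi_zetaA : G.π ((s33t_zetaA G p ζ₀ hζ₀ : (↥G.A)ˣ) : ↥G.A) = 1 := by
  apply s37e_map_zeta p (s33t_zetaA G p ζ₀ hζ₀) _ G.π
  apply Units.ext
  apply Subtype.ext
  rw [Units.val_pow_eq_pow_val, Units.val_one]
  show ((((s33t_zetaA G p ζ₀ hζ₀ : (↥G.A)ˣ) : ↥G.A) ^ p : ↥G.A) : K) = 1
  rw [SubmonoidClass.coe_pow]
  show (ζ₀ : K) ^ p = 1
  rw [← Units.val_pow_eq_pow_val, hζ₀, Units.val_one]

theorem s33t_iota_N (Y : LaurentSeries G.A) :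
    s18g_iota G (s33t_N p (s33t_zetaA G p ζ₀ hζ₀) Y) = s33t_N p ζ₀ (s18g_iota G Y) := by
  unfold s18g_iota
  rw [s33t_coeffMap_N', s33t_map_zetaA]

theorem s33t_rho_N (Y : LaurentSeries G.A) :
    s18g_rho G (s33t_N p (s33t_zetaA G p ζ₀ hζ₀) Y) =
      qExpand κ p (s18g_rho G Y) * coeffMap (frobenius κ p) (s18g_rho G Y) := by
  unfold s18g_rho
  exact s33t_coeffMap_N p _ G.π (s33t_pi_zetaA G p ζ₀ hζ₀) Y

include hζ₀ in
/-- **The pair formula over a Gauss datum.** -/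
theorem s33t_gauss_pair (a : ℕ) (ha : 1 ≤ a) (Y W : LaurentSeries G.A) :
    ∃ B1 : LaurentSeries G.A,
      s33t_N p ζ₀ (s18g_iota G (Y + HahnSeries.C (G.ϖ ^ a) * W)) =
        s33t_N p ζ₀ (s18g_iota G Y) +
          HahnSeries.C (((G.ϖ : G.A) : K) ^ a) * s18g_iota G B1 ∧
      s18g_rho G B1 = qExpand κ p (s18g_rho G W) * coeffMap (frobenius κ p) (s18g_rho G Y) := by
  obtain ⟨S, hS⟩ := s33t_N_add p (s33t_zetaA G p ζ₀ hζ₀) (G.ϖ ^ a) Y W
  refine ⟨s33t_N1 p (s33t_zetaA G p ζ₀ hζ₀) Y W + HahnSeries.C (G.ϖ ^ a) * S, ?_, ?_⟩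
  · rw [← s33t_iota_N G p ζ₀ hζ₀, hS, ← s33t_iota_N G p ζ₀ hζ₀, map_add, map_add, map_mul,
      map_mul, map_add, map_mul, s18g_iota_C, s18g_iota_C]
    have h1 : (((G.ϖ ^ a : ↥G.A) : ↥G.A) : K) = ((G.ϖ : G.A) : K) ^ a :=
      SubmonoidClass.coe_pow _ _
    have h2 : ((((G.ϖ ^ a) ^ 2 : ↥G.A) : ↥G.A) : K) = (((G.ϖ : G.A) : K) ^ a) ^ 2 := by
      rw [SubmonoidClass.coe_pow, SubmonoidClass.coe_pow]
    rw [h1, h2]
    simp only [map_pow]
    ring
  · have hπ : G.π (G.ϖ ^ a) = 0 := (G.π_eq_zero_iff _).mpr (dvd_pow_self _ (by omega))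
    rw [map_add, map_mul, s18g_rho_C, hπ, map_zero, zero_mul, add_zero]
    unfold s18g_rho
    exact s33t_coeffMap_N1 p _ G.π (s33t_pi_zetaA G p ζ₀ hζ₀) Y W

end GaussSeries


/-! ### The leading-term theorem -/

section Lead

theorem s33t_coeffMap_frobenius_ne_zero {κ : Type*} [Field κ] (p : ℕ) [Fact p.Prime] [CharP κ p]
    {x : LaurentSeries κ} (hx : x ≠ 0) : coeffMap (frobenius κ p) x ≠ 0 := by
  intro h
  apply hx
  ext n
  have h1 := congrArg (fun s => s.coeff n) h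
  simp only [coeffMap_coeff, HahnSeries.coeff_zero] at h1
  rw [HahnSeries.coeff_zero]
  exact (frobenius_inj κ p) (by rw [h1, map_zero])

variable (M : ℕ) [NeZero M] (p : ℕ) [hp : Fact p.Prime] (hpM : ¬ p ∣ M)
variable (L₀ : IntermediateField ℚ Kb) (ζ₀ : (↥L₀)ˣ) (hζ₀ : IsPrimitiveRoot (ζ₀ : ↥L₀) p)
variable {κ : Type*} [Field κ] [CharP κ p] (G : s18g_GaussData ↥L₀ κ)
variable (hT : s18g_HT κ M) (hdeg : s18g_HDeg ↥L₀ M)

include hT hdeg in
/-- **[TP], the leading-term theorem.**  `τ` preserves `1 + ϖ ^ a V` (`a ≥ 1`) and acts on leading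
terms by `x ↦ x(q^p)`. -/
theorem s33t_tau_lead (a : ℕ) (ha : 1 ≤ a)
    (f z : ↥(laurentBaseChange ↥L₀ (modularFunctionFieldFull M))) (hz : z ∈ s18x_V G M)
    (hf : f - 1 = algebraMap ↥L₀ ↥(laurentBaseChange ↥L₀ (modularFunctionFieldFull M))
      ((G.ϖ : G.A) : ↥L₀) ^ a * z) :
    ∃ (z' : ↥(laurentBaseChange ↥L₀ (modularFunctionFieldFull M))) (hz' : z' ∈ s18x_V G M),
      s33t_tau M p hpM L₀ ζ₀ hζ₀ f - 1 =
        algebraMap ↥L₀ ↥(laurentBaseChange ↥L₀ (modularFunctionFieldFull M))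
          ((G.ϖ : G.A) : ↥L₀) ^ a * z' ∧
      s18g_redV G (laurentBaseChange ↥L₀ (modularFunctionFieldFull M))
          (fun _ hf => s18g_baseChange_mem_Frac G M hf) ⟨z', hz'⟩ =
        qExpand κ p (s18g_redV G (laurentBaseChange ↥L₀ (modularFunctionFieldFull M))
          (fun _ hf => s18g_baseChange_mem_Frac G M hf) ⟨z, hz⟩) := by
  classical
  have h𝓕 : ∀ f ∈ laurentBaseChange ↥L₀ (modularFunctionFieldFull M), f ∈ s18g_Frac G :=
    fun _ hf => s18g_baseChange_mem_Frac G M hf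
  have hϖ0 : ((G.ϖ : G.A) : ↥L₀) ≠ 0 := s18g_unifK_ne_zero G
  have hϖF0 : algebraMap ↥L₀ ↥(laurentBaseChange ↥L₀ (modularFunctionFieldFull M))
      ((G.ϖ : G.A) : ↥L₀) ≠ 0 := by
    intro h
    apply hϖ0
    exact (algebraMap ↥L₀ ↥(laurentBaseChange ↥L₀ (modularFunctionFieldFull M))).injective
      (by rw [h, map_zero])
  have hCϖ0 : (HahnSeries.C (((G.ϖ : G.A) : ↥L₀) ^ a) : LaurentSeries ↥L₀) ≠ 0 := by
    intro h
    exact pow_ne_zero a hϖ0 (HahnSeries.C_injective (by rw [h, map_zero]))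
  have hcoeϖ : ((algebraMap ↥L₀ ↥(laurentBaseChange ↥L₀ (modularFunctionFieldFull M))
      ((G.ϖ : G.A) : ↥L₀) ^ a : ↥(laurentBaseChange ↥L₀ (modularFunctionFieldFull M))) :
        LaurentSeries ↥L₀) = HahnSeries.C (((G.ϖ : G.A) : ↥L₀) ^ a) := by
    rw [SubmonoidClass.coe_pow, s18g_coe_algebraMap, map_pow]
  have hζp : ζ₀ ^ p = 1 :=
    Units.ext (by rw [Units.val_pow_eq_pow_val, hζ₀.pow_eq_one, Units.val_one])
  by_cases hz0 : z = 0
  · subst hz0
    have hf1 : f = 1 := by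
      rw [mul_zero] at hf
      exact sub_eq_zero.mp hf
    refine ⟨0, zero_mem _, ?_, ?_⟩
    · rw [hf1, map_one, sub_self, mul_zero]
    · show s18g_redV G (laurentBaseChange ↥L₀ (modularFunctionFieldFull M)) h𝓕 0 =
        qExpand κ p (s18g_redV G (laurentBaseChange ↥L₀ (modularFunctionFieldFull M)) h𝓕 0)
      rw [map_zero, map_zero]
  · obtain ⟨n, Y1, Y2, h1, h2, -, -, h1ne, h2ne, hrel⟩ :=
      s37g_exists_presentation G M hT hdeg (z : LaurentSeries ↥L₀) z.2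
        (fun h => hz0 (Subtype.ext h))
    -- `n ≥ 0`
    have hn : 0 ≤ n := by
      by_contra hneg
      push Not at hneg
      obtain ⟨P, Q, hQ, hPQ⟩ := hz
      obtain ⟨k, hk⟩ : ∃ k : ℕ, n = -((k : ℤ) + 1) := ⟨(-n - 1).toNat, by omega⟩
      have hCϖ : (HahnSeries.C ((G.ϖ : G.A) : ↥L₀) : LaurentSeries ↥L₀) ≠ 0 := by
        intro h
        exact hϖ0 (HahnSeries.C_injective (by rw [h, map_zero]))
      have e1 : HahnSeries.C ((G.ϖ : G.A) : ↥L₀) ^ (k + 1) *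
          (s18g_iota G Y2 * (z : LaurentSeries ↥L₀)) = s18g_iota G Y1 := by
        rw [hrel, hk, zpow_neg, ← mul_assoc]
        have : (HahnSeries.C ((G.ϖ : G.A) : ↥L₀) : LaurentSeries ↥L₀) ^ ((k : ℤ) + 1) =
            HahnSeries.C ((G.ϖ : G.A) : ↥L₀) ^ (k + 1) := by
          rw [← zpow_natCast]
          push_cast
          rfl
        rw [this, mul_inv_cancel₀ (pow_ne_zero _ hCϖ), one_mul]
      have e2 : s18g_iota G (HahnSeries.C G.ϖ ^ (k + 1) * Y2 * P) = s18g_iota G (Y1 * Q) := by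
        rw [map_mul, map_mul, map_pow, s18g_iota_C, map_mul, ← e1, ← hPQ]
        ring
      have e3 := congrArg (s18g_rho G) (s18g_iota_injective G e2)
      rw [map_mul, map_mul, map_pow, s18g_rho_C_unif, zero_pow (Nat.succ_ne_zero k), zero_mul,
        zero_mul, map_mul] at e3
      exact mul_ne_zero h1ne hQ e3.symm
    obtain ⟨k, rfl⟩ := Int.eq_ofNat_of_zero_le hn
    rw [zpow_natCast] at hrel
    -- the numerator `W`
    set W : LaurentSeries ↥G.A := HahnSeries.C G.ϖ ^ k * Y1 with hWdef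
    have hW : s18g_iota G W = s18g_iota G Y2 * (z : LaurentSeries ↥L₀) := by
      rw [hrel, hWdef, map_mul, map_pow, s18g_iota_C]
    obtain ⟨B1, hB1, hρB1⟩ := s33t_gauss_pair G p ζ₀ hζp a ha Y2 W
    set B0 : LaurentSeries ↥G.A := s33t_N p (s33t_zetaA G p ζ₀ hζp) Y2 with hB0def
    have hιB0 : s18g_iota G B0 = s33t_N p ζ₀ (s18g_iota G Y2) := s33t_iota_N G p ζ₀ hζp Y2
    have hρB0 : s18g_rho G B0 =
        qExpand κ p (s18g_rho G Y2) * coeffMap (frobenius κ p) (s18g_rho G Y2) :=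
      s33t_rho_N G p ζ₀ hζp Y2
    have hfrob : coeffMap (frobenius κ p) (s18g_rho G Y2) ≠ 0 :=
      s33t_coeffMap_frobenius_ne_zero p h2ne
    have hqY2 : qExpand κ p (s18g_rho G Y2) ≠ 0 := fun h =>
      h2ne (qExpand_injective (R := κ) p (by rw [h, map_zero]))
    have hρB0ne : s18g_rho G B0 ≠ 0 := by
      rw [hρB0]
      exact mul_ne_zero hqY2 hfrob
    -- `ι Y3 = ι Y2 * f`
    have hcoef : (f : LaurentSeries ↥L₀) =
        1 + HahnSeries.C (((G.ϖ : G.A) : ↥L₀) ^ a) * (z : LaurentSeries ↥L₀) := by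
      have h := congrArg (fun x : ↥(laurentBaseChange ↥L₀ (modularFunctionFieldFull M)) =>
        (x : LaurentSeries ↥L₀)) hf
      simp only [AddSubgroupClass.coe_sub, OneMemClass.coe_one, MulMemClass.coe_mul] at h
      rw [hcoeϖ] at h
      rw [← h]
      ring
    have hY3 : s18g_iota G (Y2 + HahnSeries.C (G.ϖ ^ a) * W) =
        s18g_iota G Y2 * (f : LaurentSeries ↥L₀) := by
      rw [map_add, map_mul, s18g_iota_C, hW, hcoef]
      have : (((G.ϖ ^ a : ↥G.A) : ↥G.A) : ↥L₀) = ((G.ϖ : G.A) : ↥L₀) ^ a :=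
        SubmonoidClass.coe_pow _ _
      rw [this]
      ring
    -- the function `y2`
    set y2 : ↥(laurentBaseChange ↥L₀ (modularFunctionFieldFull M)) := ⟨s18g_iota G Y2, h2⟩
      with hy2
    have hmul : ((s33t_tau M p hpM L₀ ζ₀ hζ₀ y2 :
        ↥(laurentBaseChange ↥L₀ (modularFunctionFieldFull M))) : LaurentSeries ↥L₀) *
        ((s33t_tau M p hpM L₀ ζ₀ hζ₀ f :
          ↥(laurentBaseChange ↥L₀ (modularFunctionFieldFull M))) : LaurentSeries ↥L₀) =
        s18g_iota G B0 + HahnSeries.C (((G.ϖ : G.A) : ↥L₀) ^ a) * s18g_iota G B1 := by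
      rw [← MulMemClass.coe_mul, ← map_mul, s33t_coe_tau, MulMemClass.coe_mul]
      show s33t_N p ζ₀ (s18g_iota G Y2 * (f : LaurentSeries ↥L₀)) = _
      rw [← hY3, hB1, hιB0]
    have hτy2 : ((s33t_tau M p hpM L₀ ζ₀ hζ₀ y2 :
        ↥(laurentBaseChange ↥L₀ (modularFunctionFieldFull M))) : LaurentSeries ↥L₀) =
        s18g_iota G B0 := by
      rw [s33t_coe_tau, hιB0]
    -- the new leading coefficient
    obtain ⟨z', hz'def⟩ : ∃ z' : ↥(laurentBaseChange ↥L₀ (modularFunctionFieldFull M)),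
        z' = (s33t_tau M p hpM L₀ ζ₀ hζ₀ f - 1) /
          algebraMap ↥L₀ ↥(laurentBaseChange ↥L₀ (modularFunctionFieldFull M))
            ((G.ϖ : G.A) : ↥L₀) ^ a := ⟨_, rfl⟩
    refine ⟨z', ?_⟩
    have hz'1 : s33t_tau M p hpM L₀ ζ₀ hζ₀ f - 1 =
        algebraMap ↥L₀ ↥(laurentBaseChange ↥L₀ (modularFunctionFieldFull M))
          ((G.ϖ : G.A) : ↥L₀) ^ a * z' := by
      rw [hz'def, mul_div_cancel₀ _ (pow_ne_zero a hϖF0)]
    have hpres : s18g_iota G B0 * (z' : LaurentSeries ↥L₀) = s18g_iota G B1 := by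
      apply mul_left_cancel₀ hCϖ0
      have h := congrArg (fun x : ↥(laurentBaseChange ↥L₀ (modularFunctionFieldFull M)) =>
        (x : LaurentSeries ↥L₀)) hz'1
      simp only [AddSubgroupClass.coe_sub, OneMemClass.coe_one, MulMemClass.coe_mul] at h
      rw [hcoeϖ] at h
      calc HahnSeries.C (((G.ϖ : G.A) : ↥L₀) ^ a) * (s18g_iota G B0 * (z' : LaurentSeries ↥L₀))
          = s18g_iota G B0 *
              (HahnSeries.C (((G.ϖ : G.A) : ↥L₀) ^ a) * (z' : LaurentSeries ↥L₀)) := by ring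
        _ = s18g_iota G B0 * (((s33t_tau M p hpM L₀ ζ₀ hζ₀ f :
              ↥(laurentBaseChange ↥L₀ (modularFunctionFieldFull M))) : LaurentSeries ↥L₀) - 1) := by
            rw [← h]
        _ = HahnSeries.C (((G.ϖ : G.A) : ↥L₀) ^ a) * s18g_iota G B1 := by
            rw [mul_sub, mul_one, ← hτy2, hmul, hτy2]
            ring
    obtain ⟨hz', hred'⟩ := s18g_mem_V_of_presentation G
      (laurentBaseChange ↥L₀ (modularFunctionFieldFull M)) h𝓕 _ B1 B0 hρB0ne hpres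
    refine ⟨hz', hz'1, ?_⟩
    have hredz : s18g_redV G (laurentBaseChange ↥L₀ (modularFunctionFieldFull M)) h𝓕 ⟨z, hz⟩ =
        s18g_rho G W / s18g_rho G Y2 :=
      s18g_redV_eq G _ h𝓕 ⟨z, hz⟩ W Y2 h2ne hW.symm
    rw [hredz]
    refine hred'.trans ?_
    rw [hρB1, hρB0, mul_div_mul_right _ _ hfrob, map_div₀]

end Lead

end

end Fermat.Agent.Lib.S33
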