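/-
S33 programme (P-AT-P), brick [TP] (helper3), FINAL: helper6's contract `s33f_TP` for the concrete datum
`s33i_datum` (Lib/S33/FOInstD) over a subfield `L₀ ⊆ ℚ̄` containing the `p`-th roots of unity:

* `s33t_TPData … : s33f_TPData (s33i_datum G M …)` with `τ = s33t_tau` (`= Nm_α ∘ β`),
  `Φ = s33t_Phi` (`q ↦ q^p`), `σ = s33t_sigma` (coefficient Frobenius);
* `s33t_TP … : s33f_TP (s33i_datum G M …) (s33t_TPData …)`.
-/
import Fermat.Agent.Lib.S33.FOInstD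
import Fermat.Agent.Lib.S33.TPLead
import Fermat.Agent.Lib.S33.TPKum
import Fermat.Agent.Lib.S33.TPData

set_option autoImplicit false
set_option linter.style.haveILetI false
set_option linter.unusedSectionVars false

namespace Fermat.Agent.Lib.S33

open ModularCurve HahnSeries AlgebraicCurve Fermat.Agent.Lib.S18 Fermat.Agent.Lib.S28
  Fermat.Agent.Lib.S29 Fermat.Agent.Lib.S37

noncomputable section

local notation "Kb" => AlgebraicClosure ℚ

section Inst

variable (M : ℕ) [NeZero M] (p : ℕ) [hp : Fact p.Prime] (hpM : ¬ p ∣ M)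
variable (L₀ : IntermediateField ℚ Kb) (ζ₀ : (↥L₀)ˣ) (hζ₀ : IsPrimitiveRoot (ζ₀ : ↥L₀) p)
variable {κ : Type} [Field κ] [CharP κ p] [PerfectRing κ p] (G : s18g_GaussData ↥L₀ κ)
variable (hT : s18g_HT κ M) (hdeg : s18g_HDeg ↥L₀ M) (hπ : Function.Surjective G.π)
variable (e : ℕ) (ε : ↥L₀) (he : 0 < e) (hε : ε ∈ G.A) (hεinv : ε⁻¹ ∈ G.A) (hε0 : ε ≠ 0)
variable (hpe : (p : ↥L₀) = ε * ((G.ϖ : G.A) : ↥L₀) ^ e) (hperf : ∀ c : κ, ∃ d : κ, d ^ p = c)

/-- **The `T_p`-data for the concrete datum.** -/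
def s33t_TPData :
    s33f_TPData (s33i_datum G M hT hdeg hπ p e ε hp.out he hε hεinv hε0 hpe hperf) where
  τ := s33t_tau M p hpM L₀ ζ₀ hζ₀
  Φ := s33t_Phi κ M p
  σ := s33t_sigma κ M p
  τ_const := fun c => s33t_tau_algebraMap M p hpM L₀ ζ₀ hζ₀ c
  τ_ne_zero := fun f hf => s33t_tau_ne_zero M p hpM L₀ ζ₀ hζ₀ f hf
  Φ_const := fun c => s33t_Phi_const κ M p c
  σ_const := fun c => s33t_sigma_const κ M p c
  σ_Φ := fun x => s33t_sigma_Phi κ M p x

/-- **[TP]** for the concrete datum. -/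
theorem s33t_TP :
    s33f_TP (s33i_datum G M hT hdeg hπ p e ε hp.out he hε hεinv hε0 hpe hperf)
      (s33t_TPData M p hpM L₀ ζ₀ hζ₀ G hT hdeg hπ e ε he hε hεinv hε0 hpe hperf) := by
  refine ⟨?_, ?_⟩
  · rintro f ⟨hf0, hdiv⟩
    exact ⟨s33t_tau_ne_zero M p hpM L₀ ζ₀ hζ₀ f hf0,
      fun Q => s33t_tau_dvd_ord M p hpM L₀ ζ₀ hζ₀ (p : ℤ) f hf0 hdiv Q⟩
  · intro a ha f hcong
    obtain ⟨z, hz, hfz⟩ := hcong
    obtain ⟨z', hz', hτ, hred⟩ := s33t_tau_lead M p hpM L₀ ζ₀ hζ₀ G hT hdeg a ha f z hz hfz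
    have hπ0 : s33f_pi (s33i_datum G M hT hdeg hπ p e ε hp.out he hε hεinv hε0 hpe hperf) ^ a ≠ 0 := by
      apply pow_ne_zero
      intro h
      exact s18g_unifK_ne_zero G
        ((algebraMap ↥L₀ ↥(laurentBaseChange ↥L₀ (modularFunctionFieldFull M))).injective
          (by rw [map_zero]; exact h))
    refine ⟨⟨z', hz', hτ⟩, ?_⟩
    -- the two leading terms
    have hl1 : s33f_lead (s33i_datum G M hT hdeg hπ p e ε hp.out he hε hεinv hε0 hpe hperf) a f =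
        s18g_redF G M (fun _ hf => s18g_baseChange_mem_Frac G M hf) hT hdeg ⟨z, hz⟩ := by
      unfold s33f_lead s33f_redX
      have : (f - 1) / s33f_pi (s33i_datum G M hT hdeg hπ p e ε hp.out he hε hεinv hε0 hpe hperf) ^ a
          = z := by
        rw [hfz]
        exact mul_div_cancel_left₀ z hπ0
      rw [this, dif_pos hz]
      rfl
    have hl2 : s33f_lead (s33i_datum G M hT hdeg hπ p e ε hp.out he hε hεinv hε0 hpe hperf) a
        (s33t_tau M p hpM L₀ ζ₀ hζ₀ f) =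
        s18g_redF G M (fun _ hf => s18g_baseChange_mem_Frac G M hf) hT hdeg ⟨z', hz'⟩ := by
      unfold s33f_lead s33f_redX
      have : (s33t_tau M p hpM L₀ ζ₀ hζ₀ f - 1) /
          s33f_pi (s33i_datum G M hT hdeg hπ p e ε hp.out he hε hεinv hε0 hpe hperf) ^ a = z' := by
        rw [hτ]
        exact mul_div_cancel_left₀ z' hπ0
      have hz'' : z' ∈ (s33i_datum G M hT hdeg hπ p e ε hp.out he hε hεinv hε0 hpe hperf).O := hz'
      rw [this, dif_pos hz'']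
      rfl
    show s33f_lead _ a (s33t_tau M p hpM L₀ ζ₀ hζ₀ f) = s33t_Phi κ M p (s33f_lead _ a f)
    rw [hl1, hl2]
    apply Subtype.ext
    rw [s33t_coe_Phi, s18g_coe_redF, s18g_coe_redF]
    exact hred

end Inst

end

end Fermat.Agent.Lib.S33
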