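/-
P-AT-P programme (S33), brick [RED0] (helper1).

At a level `M` prime to `p` (good for `p` in the sense of `s18_GoodLevel`), the Prelude's reduction
map `reductionModL A M` at a place `A ∣ p` satisfies, ON `p`-TORSION,

  `red (T_p z) = ψ • red z`        (`ψ` = coefficientwise Frobenius of the special fibre),

because the Eichler–Shimura relation `red ∘ T_p = (ψ + p ψ⁻¹) ∘ red` of Lib/S37 (`s37e_hT`) holds for
ALL `z : JZero M` (no restriction on the torsion order) and `p • red z = 0`.
Consequences: `red (T_p ^ n z) = ψ ^ n • red z`, and `red z = 0` as soon as `T_p ^ n z = 0`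
(`ψ` is invertible): **the supersingular part of `J₀(M)[p]` lies in the kernel of reduction**, and on
the image of the ordinary part Frobenius acts as the unit `T_p`.
-/
import Fermat.Agent.Lib.S37.EHecke
import Fermat.Agent.Lib.S37.RClose
import Fermat.Agent.Lib.S37.XGood

set_option autoImplicit false
set_option linter.style.haveILetI false
set_option synthInstance.maxHeartbeats 400000

namespace Fermat.Agent.Lib.S33

open ModularCurve Fermat.Agent.Lib.S37 Fermat.Agent.Lib.S18

noncomputable section

local notation "Kb" => AlgebraicClosure ℚ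

variable (M : ℕ) [NeZero M] (p : ℕ)

/-- The reduction inputs at a good level, from the landed S37 packages. -/
theorem s33r_inputs (hp : p.Prime) (hM : s18_GoodLevel p M) (A : ValuationSubring Kb)
    (hA : A.LiesOverPrime p) : ReductionInputsModL A M :=
  ((s37x_good_of s37r12_exists s37e_es) M p hp hM A hA).1

/-- **Eichler–Shimura at `ℓ = p` on all of `J₀(M)`**: `red ∘ T_p = (ψ + p ψ⁻¹) ∘ red`. -/
theorem s33r_red_hecke (hp : p.Prime) (hM : s18_GoodLevel p M) (A : ValuationSubring Kb)
    (hA : A.LiesOverPrime p)
    [Fact p.Prime] [CharP (IsLocalRing.ResidueField A) p]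
    [PerfectRing (IsLocalRing.ResidueField A) p] (z : JZero M) :
    reductionModL A M (heckeOperatorBar M ⟨p, hp⟩ z) =
      s37e_psi (IsLocalRing.ResidueField A) M p • reductionModL A M z +
        p • ((s37e_psi (IsLocalRing.ResidueField A) M p)⁻¹ • reductionModL A M z) := by
  haveI : NeZero p := ⟨hp.ne_zero⟩
  exact s37e_hT M p hp hM.1 A hA (s33r_inputs M p hp hM A hA)
    (s37h_heckeInputsAlong M p hp hM.1) z

/-- **[RED0]** on `p`-torsion: `red (T_p z) = ψ • red z`. -/
theorem s33r_red_hecke_torsion (hp : p.Prime) (hM : s18_GoodLevel p M) (A : ValuationSubring Kb)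
    (hA : A.LiesOverPrime p)
    [Fact p.Prime] [CharP (IsLocalRing.ResidueField A) p]
    [PerfectRing (IsLocalRing.ResidueField A) p] (z : JZero M) (hz : p • z = 0) :
    reductionModL A M (heckeOperatorBar M ⟨p, hp⟩ z) =
      s37e_psi (IsLocalRing.ResidueField A) M p • reductionModL A M z := by
  rw [s33r_red_hecke M p hp hM A hA z]
  have h0 : p • reductionModL A M z = 0 := by rw [← map_nsmul, hz, map_zero]
  have h1 : p • ((s37e_psi (IsLocalRing.ResidueField A) M p)⁻¹ • reductionModL A M z) = 0 := by
    have e := map_nsmul (DistribSMul.toAddMonoidHom (JZeroC (IsLocalRing.ResidueField A) M)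
      (s37e_psi (IsLocalRing.ResidueField A) M p)⁻¹) p (reductionModL A M z)
    rw [DistribSMul.toAddMonoidHom_apply, DistribSMul.toAddMonoidHom_apply] at e
    rw [← e, h0, smul_zero]
  rw [h1, add_zero]

/-- Iterated form: `red (T_p ^ n z) = ψ ^ n • red z` on `p`-torsion. -/
theorem s33r_red_hecke_pow (hp : p.Prime) (hM : s18_GoodLevel p M) (A : ValuationSubring Kb)
    (hA : A.LiesOverPrime p)
    [Fact p.Prime] [CharP (IsLocalRing.ResidueField A) p]
    [PerfectRing (IsLocalRing.ResidueField A) p] (z : JZero M) (hz : p • z = 0) (n : ℕ) :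
    reductionModL A M (((heckeOperatorBar M ⟨p, hp⟩) ^ n) z) =
      (s37e_psi (IsLocalRing.ResidueField A) M p) ^ n • reductionModL A M z := by
  induction n with
  | zero => simp
  | succ n ih =>
    have hz' : p • (((heckeOperatorBar M ⟨p, hp⟩) ^ n) z) = 0 := by
      rw [← map_nsmul, hz, map_zero]
    rw [pow_succ', Module.End.mul_apply,
      s33r_red_hecke_torsion M p hp hM A hA _ hz', ih, pow_succ', mul_smul]

/-- **The supersingular part of `J₀(M)[p]` reduces to zero**: if `T_p` is nilpotent on the
`p`-torsion point `z`, then `red z = 0`. -/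
theorem s33r_red_eq_zero_of_nilpotent (hp : p.Prime) (hM : s18_GoodLevel p M)
    (A : ValuationSubring Kb) (hA : A.LiesOverPrime p) (z : JZero M) (hz : p • z = 0) (n : ℕ)
    (hn : ((heckeOperatorBar M ⟨p, hp⟩) ^ n) z = 0) : reductionModL A M z = 0 := by
  haveI : Fact p.Prime := ⟨hp⟩
  haveI := s18n_charP_residueField A hp hA
  haveI : IsAlgClosed (IsLocalRing.ResidueField A) := s18n_isAlgClosed_residueField A
  haveI : PerfectRing (IsLocalRing.ResidueField A) p := inferInstance
  have h := s33r_red_hecke_pow M p hp hM A hA z hz n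
  rw [hn, map_zero] at h
  have h2 := congrArg (fun w => ((s37e_psi (IsLocalRing.ResidueField A) M p) ^ n)⁻¹ • w) h
  simp only [inv_smul_smul] at h2
  exact h2.symm

end

end Fermat.Agent.Lib.S33
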