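/-
P-AT-P programme (S33), TOP INTERFACE (helper1, programme lead).  DEFINITIONS AND STATEMENT-LEVEL
CONTRACTS ONLY (every contract is a `def … : Prop`); nothing here is proved.

Setting: `M` a level prime to `p` which is good for `p` (`s18_GoodLevel p M`), `P` a valuation subring
of `ℚ̄` over `p`, `red := reductionModL P M : JZero M →+ JZeroC (ResidueField P) M` (Prelude), which is
equivariant for the decomposition group, invariant under inertia (Lib/S37/UFinal) and satisfies
`red ∘ T_p = (ψ + p ψ⁻¹) ∘ red` on ALL of `JZero M` (Lib/S33/RedZero).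

J-side contracts (what the geometric bricks [FO]/[KUM-p]/[TP]/[COUNT] must deliver at level `M`):

* `s33_NoMuLine`  = (III-out): a non-zero `p`-torsion point on which inertia at `P` acts through the
  mod-`p` cyclotomic character is NOT killed by `T_p`.
* `s33_OldCount`  = (II-old-out): on the `T_p`-bijective (= ordinary) part of `J₀(M)[p^k]` the kernel
  of reduction has at most the square root of the order.

Representation-theoretic contracts (wrappers [REAL], [OLDNEW]):

* `s33_CoinvBound`: for a finite `p`-group `Y` of torsion points, stable under inertia, every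
  inertia-invariant additive map out of a Hecke-eigen piece has image of order at most `√#Y`
  (stated abstractly below as a property of a subgroup).
-/
import Fermat.Agent.Lib.S33.RedZero

set_option autoImplicit false

namespace Fermat.Agent.Lib.S33

open ModularCurve Fermat.Agent.Lib.S37 Fermat.Agent.Lib.S18

noncomputable section

local notation "Kb" => AlgebraicClosure ℚ
local notation "Γℚ" => (AlgebraicClosure ℚ ≃ₐ[ℚ] AlgebraicClosure ℚ)

theorem s33_nsmul_neg_eq_zero {X : Type*} [AddCommGroup X] {n : ℕ} {a : X} (h : n • a = 0) :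
    n • (-a) = 0 := by
  rw [neg_nsmul, h, neg_zero]

/-- `σ` acts on the `p`-th roots of unity of `ℚ̄` by `ζ ↦ ζ ^ a`. -/
def s33_ActsOnMuBy (p : ℕ) (σ : Γℚ) (a : ℕ) : Prop :=
  ∀ ζ : Kb, ζ ^ p = 1 → σ ζ = ζ ^ a

/-- `z` is a point of `μ_p`-type at `P`: every `σ` in the inertia group of `P` acts on `z` through
the mod-`p` cyclotomic character. -/
def s33_IsMuType (M : ℕ) [NeZero M] (p : ℕ) (P : ValuationSubring Kb) (z : JZero M) : Prop :=
  ∀ σ ∈ P.inertiaSubgroupIn ℚ, ∀ a : ℕ, s33_ActsOnMuBy p σ a → σ • z = a • z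

/-- **(III-out)** — output of [FO] + [KUM-p] + [TP] at a good level `M` (`p ∤ M`):
a non-zero `p`-torsion point of `μ_p`-type at `P ∣ p` is not killed by `T_p`.
(Consequently `T_p ^ n z ≠ 0` for all `n`: `T_p` commutes with Galois, so `T_p ^ n z` is again of
`μ_p`-type.) -/
def s33_NoMuLine : Prop :=
  ∀ (M : ℕ) [NeZero M] (p : ℕ) (hp : p.Prime), p ≠ 2 → s18_GoodLevel p M →
    ∀ P : ValuationSubring Kb, P.LiesOverPrime p →
      ∀ z : JZero M, p • z = 0 → z ≠ 0 → s33_IsMuType M p P z →
        heckeOperatorBar M ⟨p, hp⟩ z ≠ 0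

/-- The `T_p`-bijective (ordinary) part of `J₀(M)[p ^ k]`: the points which are `T_p ^ n`-images of
`p ^ k`-torsion points for every `n`. -/
def s33_ordPart (M : ℕ) [NeZero M] (p : ℕ) (hp : p.Prime) (k : ℕ) : AddSubgroup (JZero M) where
  carrier := {y | p ^ k • y = 0 ∧
    ∀ n : ℕ, ∃ y' : JZero M, p ^ k • y' = 0 ∧ ((heckeOperatorBar M ⟨p, hp⟩) ^ n) y' = y}
  zero_mem' := ⟨smul_zero _, fun n => ⟨0, smul_zero _, map_zero _⟩⟩
  add_mem' := by
    rintro a b ⟨ha, ha'⟩ ⟨hb, hb'⟩
    refine ⟨by rw [nsmul_add, ha, hb, add_zero], fun n => ?_⟩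
    obtain ⟨a', h1, h2⟩ := ha' n
    obtain ⟨b', h3, h4⟩ := hb' n
    exact ⟨a' + b', by rw [nsmul_add, h1, h3, add_zero], by rw [map_add, h2, h4]⟩
  neg_mem' := by
    rintro a ⟨ha, ha'⟩
    refine ⟨by rw [s33_nsmul_neg_eq_zero ha], fun n => ?_⟩
    obtain ⟨a', h1, h2⟩ := ha' n
    exact ⟨-a', by rw [s33_nsmul_neg_eq_zero h1], by rw [map_neg, h2]⟩

/-- The kernel of reduction inside the ordinary part. -/
def s33_ordKer (M : ℕ) [NeZero M] (p : ℕ) (hp : p.Prime) (k : ℕ) (P : ValuationSubring Kb) :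
    AddSubgroup (JZero M) :=
  s33_ordPart M p hp k ⊓ (reductionModL P M).ker

/-- **(II-old-out)** — output of [FO] + [KUM-p] + [TP] + [COUNT] at a good level `M`:
`#(ker red ∩ Y_k^ord)² ≤ #Y_k^ord` for every `k`.  (Equivalently the unramified quotient
`red (Y_k^ord)` has order at least `√#Y_k^ord`.) -/
def s33_OldCount : Prop :=
  ∀ (M : ℕ) [NeZero M] (p : ℕ) (hp : p.Prime), p ≠ 2 → s18_GoodLevel p M →
    ∀ P : ValuationSubring Kb, P.LiesOverPrime p → ∀ k : ℕ,
      Nat.card (s33_ordKer M p hp k P) ^ 2 ≤ Nat.card (s33_ordPart M p hp k)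

end

end Fermat.Agent.Lib.S33
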