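/-
P-AT-P programme (S33), brick [DESC] (helper1), part 10 = [DESC-big] / [S1-div]: THE STAGE-1 EXPORT FOR
STAGE 2.

* `s33d_BigField M p L₀` : every `p`-torsion point of `J₀(M)(ℚ̄)` has a Kummer generator defined over `L₀`
  (monotone in `L₀`: `s33d_bigField_mono`; a FINITE such `L₀` exists: `s33d_exists_bigField`, from the
  finiteness of `J₀(M)[p]`).
* **[S1-div] `s33d_ord_div`**: `(p, M)` S18-good, `A ∣ p`, `L₀` finite containing `ζ_p`, big; `x` in the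
  ordinary part of `J₀(M)[p]` and in the kernel of reduction, `f₀` ANY Kummer generator of `x` over `L₀`.
  Then for every `j` there is `f' ∈ 𝒢` over `L₀` of depth `≥ 1` with `f₀ · (τ ^ j f')⁻¹ ∈ 𝒢⁰` — verbatim the
  hypothesis `hdiv` of helper4's `s33f_muAbstract_zeta` / `s33i_mu` (and with `s33f_tau_iter_depth`:
  the class of `f₀` is critical-or-zero, [S1-crit]).
-/
import Fermat.Agent.Lib.S33.TopIface
import Fermat.Agent.Lib.S33.DescRedTop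
import Fermat.Agent.Lib.S33.DescDict
import Fermat.Agent.Lib.S33.TPInst
import Fermat.Agent.Lib.S33.FOInstT
import Fermat.Agent.Lib.S33.FOMu
import Fermat.Agent.Lib.S30.TateLevel

set_option autoImplicit false
set_option linter.style.haveILetI false
set_option linter.unusedSectionVars false
set_option synthInstance.maxHeartbeats 400000

noncomputable section

namespace Fermat.Agent.Lib.S33

open ModularCurve HahnSeries AlgebraicCurve Fermat.Agent.Lib.S18 Fermat.Agent.Lib.S37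
  Fermat.Agent.Lib.FF Fermat.Agent.Lib.S29 Fermat.Agent.Lib.S30

local notation "Qbar" => AlgebraicClosure ℚ

section Big

variable (M : ℕ) [NeZero M] (p : ℕ)

/-- `L₀` is big for `(M, p)`: every `p`-torsion point of `J₀(M)` has a Kummer generator over `L₀`. -/
def s33d_BigField (L₀ : IntermediateField ℚ Qbar) : Prop :=
  ∀ x : JZero M, p • x = 0 →
    ∃ f₀ : ↥(laurentBaseChange ↥L₀ (modularFunctionFieldFull M)),
      s33d_IsKumGen p x (s18q_incl M L₀ f₀)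

theorem s33d_bigField_mono {L₁ L₂ : IntermediateField ℚ Qbar} (h : L₁ ≤ L₂)
    (h1 : s33d_BigField M p L₁) : s33d_BigField M p L₂ := by
  intro x hx
  obtain ⟨f₁, hf₁⟩ := h1 x hx
  obtain ⟨f₂, hf₂⟩ := s18q_incl_range_mono M h ⟨f₁, rfl⟩
  exact ⟨f₂, by rw [hf₂]; exact hf₁⟩

/-- a finite big field exists. -/
theorem s33d_exists_bigField [NeZero p] :
    ∃ L₀ : IntermediateField ℚ Qbar, FiniteDimensional ℚ L₀ ∧ s33d_BigField M p L₀ := by
  classical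
  haveI := s30a_finite_torsion M p
  letI : Fintype (s29k_Jp M p) := Fintype.ofFinite _
  have hex : ∀ x : s29k_Jp M p, ∃ f : ffi_F M, s33d_IsKumGen p (x : JZero M) f := by
    intro x
    have hx : ((p : ℕ) : ℤ) • (x : JZero M) = 0 := Pic0.mem_torsion.mp x.2
    rw [natCast_zsmul] at hx
    exact s33d_exists_kumGen p (x : JZero M) hx
  choose F hF using hex
  obtain ⟨L₀, hfd, hL₀⟩ := s18q_exists_field M (Finset.univ.image F)
  refine ⟨L₀, hfd, fun x hx => ?_⟩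
  have hxt : x ∈ Pic0.torsion Qbar (modularFunctionFieldBar M) p := by
    rw [Pic0.mem_torsion, natCast_zsmul]
    exact hx
  obtain ⟨f₀, hf₀⟩ := hL₀ (F ⟨x, hxt⟩) (Finset.mem_image_of_mem F (Finset.mem_univ _))
  exact ⟨f₀, by rw [hf₀]; exact hF ⟨x, hxt⟩⟩

end Big

section Div

variable (A : ValuationSubring Qbar) (M : ℕ) [NeZero M] {p : ℕ} [hp : Fact p.Prime]
  (hA : A.LiesOverPrime p)
  (L₀ : IntermediateField ℚ Qbar) [FiniteDimensional ℚ ↥L₀]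
  [IsDiscreteValuationRing ↥(s18q_A0 A L₀)] (ϖ : ↥(s18q_A0 A L₀)) (hϖ : Irreducible ϖ)

include hA in
/-- [RED0], converse direction on `p`-torsion: if `T_p ^ j y` reduces to zero so does `y`. -/
theorem s33d_red_eq_zero_of_pow (hM : s18_GoodLevel p M) (y : JZero M) (hy : p • y = 0) (j : ℕ)
    (h : reductionModL A M (((heckeOperatorBar M ⟨p, hp.out⟩) ^ j) y) = 0) :
    reductionModL A M y = 0 := by
  haveI := s18n_charP_residueField A hp.out hA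
  haveI : IsAlgClosed (IsLocalRing.ResidueField A) := s18n_isAlgClosed_residueField A
  haveI : PerfectRing (IsLocalRing.ResidueField A) p := inferInstance
  rw [s33r_red_hecke_pow M p hp.out hM A hA y hy j] at h
  have h2 := congrArg (fun w => ((s37e_psi (IsLocalRing.ResidueField A) M p) ^ j)⁻¹ • w) h
  simp only [inv_smul_smul, smul_zero] at h2
  exact h2

include hA in
/-- **[S1-div]**: the Stage-1 export. -/
theorem s33d_ord_div (hM : s18_GoodLevel p M) (hbig : s33d_BigField M p L₀)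
    (ζ₀ : (↥L₀)ˣ) (hζ₀ : IsPrimitiveRoot (ζ₀ : ↥L₀) p)
    (hT : s18g_HT (IsLocalRing.ResidueField ↥(s18q_A0 A L₀)) M) (hdeg : s18g_HDeg ↥L₀ M)
    (hπ : Function.Surjective (s37r_G A L₀ ϖ hϖ).π) (e : ℕ) (ε : ↥L₀) (he : 0 < e)
    (hε : ε ∈ (s37r_G A L₀ ϖ hϖ).A) (hεinv : ε⁻¹ ∈ (s37r_G A L₀ ϖ hϖ).A) (hε0 : ε ≠ 0)
    (hpe : (p : ↥L₀) = ε * (((s37r_G A L₀ ϖ hϖ).ϖ : (s37r_G A L₀ ϖ hϖ).A) : ↥L₀) ^ e)
    (hperf : ∀ c : IsLocalRing.ResidueField ↥(s18q_A0 A L₀), ∃ d, d ^ p = c)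
    (x : JZero M) (hx : x ∈ s33_ordKer M p hp.out 1 A)
    (f₀ : ↥(laurentBaseChange ↥L₀ (modularFunctionFieldFull M)))
    (hf₀ : s33d_IsKumGen p x (s18q_incl M L₀ f₀)) (j : ℕ) :
    ∃ f' : ↥(laurentBaseChange ↥L₀ (modularFunctionFieldFull M)),
      s33f_IsKum (s33i_datum (s37r_G A L₀ ϖ hϖ) M hT hdeg hπ p e ε hp.out he hε hεinv hε0 hpe hperf)
        f' ∧
      s33f_DepthGE
        (s33i_datum (s37r_G A L₀ ϖ hϖ) M hT hdeg hπ p e ε hp.out he hε hεinv hε0 hpe hperf) 1 f' ∧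
      s33f_IsKum0
        (s33i_datum (s37r_G A L₀ ϖ hϖ) M hT hdeg hπ p e ε hp.out he hε hεinv hε0 hpe hperf)
        (f₀ * ((s33t_tau M p hM.1 L₀ ζ₀ hζ₀)^[j] f')⁻¹) := by
  obtain ⟨⟨-, hdivx⟩, hredx⟩ := hx
  obtain ⟨y, hy, hTy⟩ := hdivx j
  rw [pow_one] at hy
  have hredx' : reductionModL A M x = 0 := hredx
  have hredy : reductionModL A M y = 0 :=
    s33d_red_eq_zero_of_pow A M hA hM y hy j (by rw [hTy]; exact hredx')
  obtain ⟨f', hf'⟩ := hbig y hy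
  have hgen := s33d_isKumGen_tau_iter M p L₀ hM.1 ζ₀ hζ₀ j hf'
  rw [hTy] at hgen
  obtain ⟨c₀, h₀, hc₀, hh₀, e'⟩ := s33d_kum0_of_same_class M p L₀ hgen hf₀
  have hτ0 : (s33t_tau M p hM.1 L₀ ζ₀ hζ₀)^[j] f' ≠ 0 := (s33d_kum_of_gen M p L₀ hgen).1
  refine ⟨f', s33d_kum_of_gen M p L₀ hf',
    s33d_depthGE_one A M hA L₀ ϖ hϖ hM hT hdeg hπ e ε he hε hεinv hε0 hpe hperf y hy hredy f' hf',
    c₀, h₀, hc₀, hh₀, ?_⟩
  rw [e', mul_assoc, mul_inv_cancel₀ hτ0, mul_one]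
  rfl

include hA in
/-- **[S1-crit]**: every Kummer generator over `L₀` (big, `∋ ζ_p`) of a point of the ordinary part of
`J₀(M)[p]` in the kernel of reduction has depth `≥ ac` for the critical exponent `ac`
(`(p - 1) ac = p e`): the class is critical-or-zero. -/
theorem s33d_ord_crit (hM : s18_GoodLevel p M) (hp2 : p ≠ 2) (hbig : s33d_BigField M p L₀)
    (ζ₀ : (↥L₀)ˣ) (hζ₀ : IsPrimitiveRoot (ζ₀ : ↥L₀) p)
    (hT : s18g_HT (IsLocalRing.ResidueField ↥(s18q_A0 A L₀)) M) (hdeg : s18g_HDeg ↥L₀ M)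
    (hπ : Function.Surjective (s37r_G A L₀ ϖ hϖ).π) (e : ℕ) (ε : ↥L₀) (he : 0 < e)
    (hε : ε ∈ (s37r_G A L₀ ϖ hϖ).A) (hεinv : ε⁻¹ ∈ (s37r_G A L₀ ϖ hϖ).A) (hε0 : ε ≠ 0)
    (hpe : (p : ↥L₀) = ε * (((s37r_G A L₀ ϖ hϖ).ϖ : (s37r_G A L₀ ϖ hϖ).A) : ↥L₀) ^ e)
    (hperf : ∀ c : IsLocalRing.ResidueField ↥(s18q_A0 A L₀), ∃ d, d ^ p = c)
    (x : JZero M) (hx : x ∈ s33_ordKer M p hp.out 1 A)
    (f₀ : ↥(laurentBaseChange ↥L₀ (modularFunctionFieldFull M)))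
    (hf₀ : s33d_IsKumGen p x (s18q_incl M L₀ f₀)) (ac : ℕ)
    (hcrit : s33f_Crit
      (s33i_datum (s37r_G A L₀ ϖ hϖ) M hT hdeg hπ p e ε hp.out he hε hεinv hε0 hpe hperf) ac) :
    s33f_DepthGE
      (s33i_datum (s37r_G A L₀ ϖ hϖ) M hT hdeg hπ p e ε hp.out he hε hεinv hε0 hpe hperf) ac f₀ := by
  haveI : NumberField ↥L₀ := ⟨⟩
  haveI hchar₀ : CharP (IsLocalRing.ResidueField ↥(s18q_A0 A L₀)) p := s37rl_charP A hA L₀
  haveI hperf₀ : PerfectField (IsLocalRing.ResidueField ↥(s18q_A0 A L₀)) :=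
    s37rl_perfectField A hA L₀
  haveI : PerfectRing (IsLocalRing.ResidueField ↥(s18q_A0 A L₀)) p := PerfectField.toPerfectRing p
  haveI hdvr' : IsDiscreteValuationRing ↥(s37r_G A L₀ ϖ hϖ).A :=
    (inferInstance : IsDiscreteValuationRing ↥(s18q_A0 A L₀))
  have hgood : 5 ≤ p ∨ (p = 3 ∧ 2 ∣ M) := by
    rcases hM.2 with h | h | h
    · exact Or.inl h
    · exact Or.inr h
    · exact absurd h.1 hp2
  set D := s33i_datum (s37r_G A L₀ ϖ hϖ) M hT hdeg hπ p e ε hp.out he hε hεinv hε0 hpe hperf with hD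
  set T := s33t_TPData M p hM.1 L₀ ζ₀ hζ₀ (s37r_G A L₀ ϖ hϖ) hT hdeg hπ e ε he hε hεinv hε0 hpe hperf
    with hTdef
  obtain ⟨t, hCG⟩ := s33i_chartGeo_good' M p hM.1 hgood L₀ (s37r_G A L₀ ϖ hϖ) hT hdeg hπ e ε he hε
    hεinv hε0 hpe hperf
  have hLC : s33f_LeadConst D := s33f_leadConst_of_chartGeo hCG
  have hTP : s33f_TP D T :=
    s33t_TP M p hM.1 L₀ ζ₀ hζ₀ (s37r_G A L₀ ϖ hϖ) hT hdeg hπ e ε he hε hεinv hε0 hpe hperf
  -- `ac ≥ 1`
  have hac : 1 ≤ ac := by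
    by_contra h0
    have h1 : ac = 0 := by omega
    have h2 : (p - 1) * ac = p * e := hcrit
    rw [h1, mul_zero] at h2
    have := Nat.mul_pos hp.out.pos he
    omega
  obtain ⟨f', hkum, hdep, g₀c, g₀h, hg₀c, hg₀h, hg₀⟩ :=
    s33d_ord_div A M hA L₀ ϖ hϖ hM hbig ζ₀ hζ₀ hT hdeg hπ e ε he hε hεinv hε0 hpe hperf x hx f₀ hf₀
      (ac - 1)
  have hiter := (s33f_tau_iter_depth (D := D) (T := T) hLC hTP hac
    (fun a _ h => s33f_subCrit_of_lt_crit hcrit h) (ac - 1) hkum hdep)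
  obtain ⟨hk2, hd2⟩ := hiter
  have hmin : min (1 + (ac - 1)) ac = ac := by
    have : 1 + (ac - 1) = ac := by omega
    rw [this, min_self]
  rw [hmin] at hd2
  obtain ⟨g, hg, hcong⟩ := hd2
  have hτ0 : (T.τ)^[ac - 1] f' ≠ 0 := hk2.1
  have hg₀K : s33f_IsKum0 D (f₀ * ((T.τ)^[ac - 1] f')⁻¹) := ⟨g₀c, g₀h, hg₀c, hg₀h, hg₀⟩
  refine ⟨g * (f₀ * ((T.τ)^[ac - 1] f')⁻¹)⁻¹, hg.mul hg₀K.inv, ?_⟩
  have hf₀0 : f₀ ≠ 0 := (s33d_kum_of_gen M p L₀ hf₀).1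
  have e1 : g * (f₀ * ((T.τ)^[ac - 1] f')⁻¹)⁻¹ * f₀ = g * (T.τ)^[ac - 1] f' := by
    field_simp
  rw [e1]
  exact hcong

end Div

end Fermat.Agent.Lib.S33
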