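/-
P-AT-P programme (S33), brick [DESC] (helper1), part 2 = [DESC-H90], abstract core:
HILBERT 90 FOR A GROUP ACTING THROUGH A FINITE QUOTIENT (Poincaré series + Dedekind independence).

`E` a field, `H` a group acting on `E` by ring automorphisms (`a : H →* RingAut E`), `E₁ ⊆ E` an
`H`-stable subfield on which the action factors through a finite quotient (`hfin`: finitely many
restrictions), `h : H → E₁ \ {0}` a `1`-cocycle (`h (σ τ) = h σ · σ (h τ)`) which only depends on the
restriction of `σ` to `E₁`.  Then there is `u ∈ E₁`, `u ≠ 0`, with `σ u = (h σ)⁻¹ u` for all `σ`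
(`s33d_h90_abstract`).
-/
import Mathlib

set_option autoImplicit false

noncomputable section

namespace Fermat.Agent.Lib.S33

open scoped BigOperators

theorem s33d_h90_abstract {E : Type*} [Field E] {H : Type*} [Group H] (a : H →* RingAut E)
    (E₁ : Subfield E) (hstab : ∀ σ : H, ∀ x ∈ E₁, a σ x ∈ E₁)
    (h : H → E) (hE₁ : ∀ σ, h σ ∈ E₁) (h0 : ∀ σ, h σ ≠ 0)
    (hcoc : ∀ σ τ : H, h (σ * τ) = h σ * a σ (h τ))
    (hfin : (Set.range fun σ : H => fun y : E₁ => a σ (y : E)).Finite)
    (hdet : ∀ σ σ' : H, (∀ y ∈ E₁, a σ y = a σ' y) → h σ = h σ') :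
    ∃ u ∈ E₁, u ≠ 0 ∧ ∀ τ : H, a τ u = (h τ)⁻¹ * u := by
  classical
  -- the finite set of restrictions
  set res : H → (E₁ → E) := fun σ => fun y : E₁ => a σ (y : E) with hres
  let X : Type _ := ↥(Set.range res)
  haveI : Finite X := hfin.to_subtype
  haveI : Fintype X := Fintype.ofFinite X
  -- a representative of each restriction
  have hrep : ∀ χ : X, ∃ σ : H, res σ = χ.1 := fun χ => χ.2
  choose rep hrep using hrep
  -- the coefficient attached to a restriction
  set c : X → E := fun χ => h (rep χ) with hc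
  have hc_eq : ∀ (σ : H) (χ : X), res σ = χ.1 → h σ = c χ := by
    intro σ χ hσ
    apply hdet
    intro y hy
    have h1 := congrFun (hσ.trans (hrep χ).symm) ⟨y, hy⟩
    exact h1
  -- the monoid homomorphisms
  let M : X → (↥E₁ →* E) := fun χ =>
    ((a (rep χ) : E ≃+* E) : E →* E).comp (E₁.subtype : ↥E₁ →* E)
  have hM : ∀ (χ : X) (y : ↥E₁), M χ y = χ.1 y := by
    intro χ y
    have := congrFun (hrep χ) y
    exact this
  have hMinj : Function.Injective M := by
    intro χ χ' hχ
    apply Subtype.ext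
    funext y
    rw [← hM χ y, ← hM χ' y, hχ]
  have hli : LinearIndependent E (fun χ : X => (M χ : ↥E₁ → E)) :=
    (linearIndependent_monoidHom ↥E₁ E).comp M hMinj
  -- a point where the Poincaré series does not vanish
  have hex : ∃ y : ↥E₁, ∑ χ : X, c χ * χ.1 y ≠ 0 := by
    by_contra hcon
    push Not at hcon
    have hzero : ∑ χ : X, c χ • (M χ : ↥E₁ → E) = 0 := by
      funext y
      rw [Finset.sum_apply, Pi.zero_apply, ← hcon y]
      refine Finset.sum_congr rfl fun χ _ => ?_
      rw [Pi.smul_apply, smul_eq_mul, hM]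
    have := (Fintype.linearIndependent_iff.mp hli) c hzero ⟨res 1, 1, rfl⟩
    exact h0 _ this
  obtain ⟨y, hy⟩ := hex
  refine ⟨∑ χ : X, c χ * χ.1 y, ?_, hy, ?_⟩
  · refine Subfield.sum_mem _ fun χ _ => ?_
    refine mul_mem (hE₁ _) ?_
    rw [← hrep χ]
    exact hstab _ _ y.2
  · intro τ
    -- the permutation of `X` induced by `τ`
    let T : X → X := fun χ => ⟨res (τ * rep χ), τ * rep χ, rfl⟩
    have hT : ∀ (χ : X) (w : ↥E₁), (T χ).1 w = a τ (χ.1 w) := by
      intro χ w
      show a (τ * rep χ) (w : E) = a τ (χ.1 w)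
      rw [map_mul, ← hrep χ]
      rfl
    have hTinj : Function.Injective T := by
      intro χ χ' hχ
      apply Subtype.ext
      funext w
      have h1 : (T χ).1 w = (T χ').1 w := by rw [hχ]
      rw [hT, hT] at h1
      exact (a τ).injective h1
    have hTbij : Function.Bijective T := hTinj.bijective_of_finite
    have hcT : ∀ χ : X, c (T χ) = h τ * a τ (c χ) := by
      intro χ
      rw [← hc_eq (τ * rep χ) (T χ) rfl, hcoc]
    rw [map_sum, Finset.mul_sum]
    have h2 : ∀ χ : X, a τ (c χ * χ.1 y) = (h τ)⁻¹ * (c (T χ) * (T χ).1 y) := by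
      intro χ
      rw [map_mul, hcT, hT, ← mul_assoc, ← mul_assoc, inv_mul_cancel₀ (h0 τ), one_mul]
    rw [Finset.sum_congr rfl fun χ _ => h2 χ]
    exact (Equiv.ofBijective T hTbij).sum_comp (fun χ : X => (h τ)⁻¹ * (c χ * χ.1 y))

end Fermat.Agent.Lib.S33
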