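/-
P-AT-P programme (S33), brick [DESC] (helper1), part 7 = [DESC-red], step [N]: a class `z` with `m • z = 0`
in the kernel of reduction has a Kummer generator of the form `ι Y₁ / ι Y₂` with `Y₁, Y₂` integral series
having EQUAL NONZERO REDUCTIONS (`s33d_exists_kumGen_red`).  This is the first two thirds of the proof of
`s18n_main_along` (Lib/S18/NMain, helper3), re-packaged with the Kummer generator as output.
-/
import Mathlib
import Fermat.Agent.Lib.S18.NMain
import Fermat.Agent.Lib.S33.DescGen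

set_option autoImplicit false
noncomputable section
open HahnSeries IntermediateField AlgebraicCurve ModularCurve

namespace Fermat.Agent.Lib.S33

open Fermat.Agent.Lib.FF Fermat.Agent.Lib.S18

variable {L : Type*} [Field L] [Algebra ℚ L] {A : ValuationSubring L}
variable {k : Type*} [Field k] {π : A →+* k} {N : ℕ}

local notation "FL" => laurentBaseChange L (modularFunctionFieldFull N)

/-- **[DESC-red], step [N].** -/
theorem s33d_exists_kumGen_red [NeZero N] [HasPrincipalDivisors L ↥FL] (hπ : Function.Surjective π)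
    (h : ReductionInputsAlong A π N) (m : ℕ) (hC : s18n_ConstFk k N)
    (z : Pic0 L ↥FL) (hmz : m • z = 0) (hz : reductionAlong A π N z = 0) :
    ∃ (Y1 Y2 : LaurentSeries A) (h1 : coeffMap A.subtype Y1 ∈ FL)
      (h2 : coeffMap A.subtype Y2 ∈ FL),
      coeffMap π Y1 ∈ modularFunctionFieldFullC k N ∧ coeffMap π Y1 = coeffMap π Y2 ∧
      coeffMap π Y1 ≠ 0 ∧
      s33d_IsKumGen m z ((⟨coeffMap A.subtype Y1, h1⟩ : ↥FL) / ⟨coeffMap A.subtype Y2, h2⟩) := by
  obtain ⟨D, rfl⟩ := Pic0.mk_surjective z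
  set r := h.choose with hrdef
  have hr : IsPlaceReductionAlong A π N r := h.choose_spec.1
  have hgen : PrincipalGeneratedByIntegral A π N := h.choose_spec.2
  rw [s18n_nsmul_mk_eq_zero_iff] at hmz
  rw [s18n_reductionAlong_eq_zero_iff h] at hz
  -- integral representatives of `m • D`
  obtain ⟨Y1, Y2, h1, h2, k1, k2, n1, n2, hP, hQ⟩ :=
    s18n_good_of_principal hr hgen (Divisor.mem_principal.mpr hmz)
  -- the reduction of `D` is the divisor of `g`
  obtain ⟨g, hg0, hgQ⟩ := hz
  set y1 : modularFunctionFieldFullC k N := ⟨coeffMap π Y1, k1⟩ with hy1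
  set y2 : modularFunctionFieldFullC k N := ⟨coeffMap π Y2, k2⟩ with hy2
  have hy10 : y1 ≠ 0 := fun h => n1 (congrArg Subtype.val h)
  have hy20 : y2 ≠ 0 := fun h => n2 (congrArg Subtype.val h)
  have hQ' : ∀ Q : Place k (modularFunctionFieldFullC k N),
      Q.ord y1 - Q.ord y2 = m * Q.ord g := by
    intro Q
    rw [← hQ Q, Finsupp.mapDomain_smul, Finsupp.smul_apply, hgQ Q, nsmul_eq_mul]
  -- the constant
  set hh : modularFunctionFieldFullC k N := y1 / (y2 * g ^ m) with hhdef
  have hgm0 : g ^ m ≠ 0 := pow_ne_zero m hg0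
  have hh0 : hh ≠ 0 := div_ne_zero hy10 (mul_ne_zero hy20 hgm0)
  have hhord : ∀ Q : Place k (modularFunctionFieldFullC k N), Q.ord hh = 0 := by
    intro Q
    rw [hhdef, s18n_ord_div Q hy10 (mul_ne_zero hy20 hgm0), Q.ord_mul hy20 hgm0,
      s18n_ord_pow, ← hQ' Q]
    ring
  obtain ⟨c₀, hc₀⟩ := hC hh hh0 hhord
  have hc₀0 : c₀ ≠ 0 := by
    rintro rfl
    rw [map_zero] at hc₀
    exact hh0 hc₀
  -- lift `g` and the constant
  obtain ⟨Pp, Qq, hPL, hQL, hPk, hQk, hgPQ⟩ := s18n_exists_lift_div (A := A) (L := L) hπ g.2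
  have hPk0 : coeffMap π Pp ≠ 0 := by
    intro h0
    apply hg0
    apply Subtype.ext
    rw [hgPQ, h0, zero_div]
    rfl
  have hQk0 : coeffMap π Qq ≠ 0 := by
    intro h0
    apply hg0
    apply Subtype.ext
    rw [hgPQ, h0, div_zero]
    rfl
  obtain ⟨c, rfl⟩ := hπ c₀
  have hcL : (c : L) ≠ 0 := by
    intro h0
    apply hc₀0
    have : c = 0 := Subtype.ext h0
    rw [this, map_zero]
  -- the key relation between the reductions
  have hrel : coeffMap π Y1 * coeffMap π Qq ^ m =
      HahnSeries.single 0 (π c) * coeffMap π Y2 * coeffMap π Pp ^ m := by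
    have e1 := congrArg Subtype.val hc₀
    have e2 : ((hh : modularFunctionFieldFullC k N) : LaurentSeries k) =
        coeffMap π Y1 / (coeffMap π Y2 * (coeffMap π Pp / coeffMap π Qq) ^ m) := by
      rw [hhdef, ← hgPQ]
      rfl
    have e3 : ((algebraMap k (modularFunctionFieldFullC k N) (π c) :
        modularFunctionFieldFullC k N) : LaurentSeries k) = HahnSeries.single 0 (π c) := by
      rw [← algebraMap_laurentSeries_eq_single]
      rfl
    rw [e2, e3] at e1
    have hden : coeffMap π Y2 * (coeffMap π Pp / coeffMap π Qq) ^ m ≠ 0 :=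
      mul_ne_zero n2 (pow_ne_zero m (div_ne_zero hPk0 hQk0))
    rw [div_eq_iff hden, div_pow] at e1
    have hQm : coeffMap π Qq ^ m ≠ 0 := pow_ne_zero m hQk0
    field_simp at e1
    rw [e1]
  -- new integral representatives
  set Y1' : LaurentSeries A := Y1 * Qq ^ m with hY1'
  set Y2' : LaurentSeries A := HahnSeries.single 0 c * Y2 * Pp ^ m with hY2'
  have hcmem : coeffMap A.subtype (HahnSeries.single (0 : ℤ) c) ∈
      laurentBaseChange L (modularFunctionFieldFull N) := by
    rw [coeffMap_single]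
    have : (HahnSeries.single 0 (A.subtype c) : LaurentSeries L) =
        algebraMap L (LaurentSeries L) (c : L) := by
      rw [algebraMap_laurentSeries_eq_single]; rfl
    rw [this]
    exact (laurentBaseChange L (modularFunctionFieldFull N)).algebraMap_mem _
  have h1' : coeffMap A.subtype Y1' ∈ laurentBaseChange L (modularFunctionFieldFull N) := by
    rw [hY1', map_mul, map_pow]
    exact mul_mem h1 (pow_mem hQL m)
  have h2' : coeffMap A.subtype Y2' ∈ laurentBaseChange L (modularFunctionFieldFull N) := by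
    rw [hY2', map_mul, map_mul, map_pow]
    exact mul_mem (mul_mem hcmem h2) (pow_mem hPL m)
  have k1' : coeffMap π Y1' ∈ modularFunctionFieldFullC k N := by
    rw [hY1', map_mul, map_pow]
    exact mul_mem k1 (pow_mem hQk m)
  have heq' : coeffMap π Y1' = coeffMap π Y2' := by
    rw [hY1', hY2', map_mul, map_mul, map_mul, map_pow, map_pow, coeffMap_single]
    exact hrel
  have hne' : coeffMap π Y1' ≠ 0 := by
    rw [hY1', map_mul, map_pow]
    exact mul_ne_zero n1 (pow_ne_zero m hQk0)
  -- names in the function field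
  set a1 : FL := ⟨coeffMap A.subtype Y1, h1⟩ with ha1
  set a2 : FL := ⟨coeffMap A.subtype Y2, h2⟩ with ha2
  set aP : FL := ⟨coeffMap A.subtype Pp, hPL⟩ with haP
  set aQ : FL := ⟨coeffMap A.subtype Qq, hQL⟩ with haQ
  have ha10 : a1 ≠ 0 := fun h => s18n_subtype_ne_zero n1 (congrArg Subtype.val h)
  have ha20 : a2 ≠ 0 := fun h => s18n_subtype_ne_zero n2 (congrArg Subtype.val h)
  have haP0 : aP ≠ 0 := fun h => s18n_subtype_ne_zero hPk0 (congrArg Subtype.val h)
  have haQ0 : aQ ≠ 0 := fun h => s18n_subtype_ne_zero hQk0 (congrArg Subtype.val h)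
  have e1' : (⟨coeffMap A.subtype Y1', h1'⟩ : FL) = a1 * aQ ^ m := by
    apply Subtype.ext
    rw [MulMemClass.coe_mul, SubmonoidClass.coe_pow]
    show coeffMap A.subtype Y1' = coeffMap A.subtype Y1 * coeffMap A.subtype Qq ^ m
    rw [hY1', map_mul, map_pow]
  have e2' : (⟨coeffMap A.subtype Y2', h2'⟩ : FL) = algebraMap L FL (c : L) * a2 * aP ^ m := by
    apply Subtype.ext
    rw [MulMemClass.coe_mul, MulMemClass.coe_mul, SubmonoidClass.coe_pow]
    show coeffMap A.subtype Y2' = algebraMap L (LaurentSeries L) (c : L) *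
      coeffMap A.subtype Y2 * coeffMap A.subtype Pp ^ m
    rw [hY2', map_mul, map_mul, map_pow, coeffMap_single, algebraMap_laurentSeries_eq_single]
    rfl
  have hcF : algebraMap L FL (c : L) ≠ 0 := by
    rw [Ne, map_eq_zero]
    exact hcL
  refine ⟨Y1', Y2', h1', h2', k1', heq', hne', ?_⟩
  -- `a1 / a2` is a Kummer generator of `z`
  have hgen0 : s33d_IsKumGen m (Pic0.mk D) (a1 / a2) := by
    refine ⟨div_ne_zero ha10 ha20, D, rfl, fun v => ?_⟩
    rw [s18n_ord_div v ha10 ha20, ← hP v, Finsupp.smul_apply, nsmul_eq_mul]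
  have hgen1 := s33d_kumGen_mul hgen0 (inv_ne_zero hcL) (div_ne_zero haQ0 haP0)
  have hrew : (⟨coeffMap A.subtype Y1', h1'⟩ : FL) / ⟨coeffMap A.subtype Y2', h2'⟩ =
      algebraMap L FL ((c : L))⁻¹ * (aQ / aP) ^ m * (a1 / a2) := by
    rw [e1', e2', map_inv₀, div_pow]
    have := pow_ne_zero m haP0
    field_simp
  rw [hrew]
  exact hgen1

end Fermat.Agent.Lib.S33
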