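/-
P-AT-P programme (S33), brick [FO], instantiation: the concrete datum `s33i_datum : s33f_Datum` for the
Gauss valuation of `𝓕 = laurentBaseChange K (modularFunctionFieldFull M)` attached to a Gauss datum
`G : s18g_GaussData K κ` (Lib/S18), with reduction `s18g_redF` onto `modularFunctionFieldFullC κ M`.
(owner: helper6)
-/
import Fermat.Agent.Lib.S33.FOIface
import Fermat.Agent.Lib.S18.FGeoB
import Fermat.Agent.Lib.S18.GRedF

set_option autoImplicit false
set_option linter.style.haveILetI false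
set_option linter.unusedSectionVars false
noncomputable section

namespace Fermat.Agent.Lib.S33

open AlgebraicCurve ModularCurve Fermat.Agent.Lib.FF Polynomial Fermat.Agent.Lib.S18

variable {K : Type} [Field K] [CharZero K] [Algebra ℚ K] {κ : Type} [Field κ]
  (G : s18g_GaussData K κ) (M : ℕ)

local notation "𝓕M" => laurentBaseChange K (modularFunctionFieldFull M)
local notation "hFM" => (fun (f : LaurentSeries K)
  (hf : f ∈ laurentBaseChange K (modularFunctionFieldFull M)) => s18g_baseChange_mem_Frac G M hf)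

/-- **The concrete datum** of the Gauss valuation at level `M`. -/
def s33i_datum (hT : s18g_HT κ M) (hdeg : s18g_HDeg K M) (hπ : Function.Surjective G.π)
    (p e : ℕ) (ε : K) (hp : p.Prime) (he : 0 < e) (hε : ε ∈ G.A) (hεinv : ε⁻¹ ∈ G.A) (hε0 : ε ≠ 0)
    (hpe : (p : K) = ε * ((G.ϖ : G.A) : K) ^ e) (hperf : ∀ c : κ, ∃ d : κ, d ^ p = c) :
    s33f_Datum K ↥𝓕M κ ↥(modularFunctionFieldFullC κ M) where
  A₀ := G.A
  O := s18g_V G 𝓕M hFM
  ϖ := ((G.ϖ : G.A) : K)
  p := p
  e := e
  ε := ε
  resA := G.π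
  red := s18g_redF G M hFM hT hdeg
  p_prime := hp
  e_pos := he
  ϖ_ne_zero := s18g_unifK_ne_zero G
  ϖ_mem := (G.ϖ : G.A).2
  ε_mem := hε
  ε_inv_mem := hεinv
  ε_ne_zero := hε0
  p_eq := hpe
  const_mem_iff := fun a => s18g_algebraMap_mem_V_iff G 𝓕M hFM a
  unif := s18f_U_gauss G 𝓕M hFM
  ϖ_not_unit := by
    intro hinv
    apply s18f_unif_not_unit G 𝓕M hFM
    refine ⟨_, hinv, ?_⟩
    have h0 : algebraMap K ↥𝓕M ((G.ϖ : G.A) : K) ≠ 0 := by
      simpa using s18g_unifK_ne_zero G
    rw [mul_inv_cancel₀ h0]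
  red_surjective := s18g_redF_surjective G M hFM hT hdeg hπ
  red_eq_zero_iff := by
    intro x
    constructor
    · intro hx
      have hx' : x ∈ RingHom.ker (s18g_redF G M hFM hT hdeg) := hx
      rw [s18g_ker_redF, Ideal.mem_span_singleton'] at hx'
      obtain ⟨a, ha⟩ := hx'
      refine ⟨(a : ↥𝓕M), a.2, ?_⟩
      rw [← ha, mul_comm]
      rfl
    · rintro ⟨y, hy, e'⟩
      have hx' : x ∈ RingHom.ker (s18g_redF G M hFM hT hdeg) := by
        rw [s18g_ker_redF, Ideal.mem_span_singleton']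
        refine ⟨⟨y, hy⟩, Subtype.ext ?_⟩
        rw [e', mul_comm]
        rfl
      exact hx'
  resA_surjective := hπ
  red_const := fun a => s18g_redF_constV G M hFM hT hdeg a
  κ_perfect := hperf

end Fermat.Agent.Lib.S33
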