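/-
P-AT-P programme (S33), brick [DESC] (helper1), part 8 = [DESC-red], step 2:
ANY Kummer generator `f₀ ∈ F_{L₀}(M)` of a `p`-torsion class `z` in the kernel of reduction has
`s33f_DepthGE 1` for the Gauss datum of `L₀` (`s33d_depthGE_one`).

Method: over `ℚ̄` the class has a Kummer generator `g = ιY₁/ιY₂ ≡ 1` (`s33d_exists_kumGen_red`), so
`incl f₀ = C(c)·w^p·g`; Gauss-normalise `w = C(d)·u` and `f₀ = ϖ^n·f₁` (`u`, `f₁` Gauss units), then
`C(c d^p ϖ^{-n})` is a Gauss unit, i.e. a unit of `A`, and the reduction of `f₁` becomes a constant times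
a `p`-th power over the residue field of `ℚ̄`; descend to the residue field of `L₀`
(`s33d_kum0_descent_charP`) and lift.
-/
import Fermat.Agent.Lib.S33.DescRedN
import Fermat.Agent.Lib.S33.DescKD
import Fermat.Agent.Lib.S33.FOInstD
import Fermat.Agent.Lib.S33.RedZero
import Fermat.Agent.Lib.S37.RChart
import Fermat.Agent.Lib.S37.RLevel
import Fermat.Agent.Lib.S18.NConst
import Fermat.Agent.Lib.S18.EConst

set_option autoImplicit false
set_option linter.style.haveILetI false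
set_option linter.unusedSectionVars false
set_option synthInstance.maxHeartbeats 400000

noncomputable section

namespace Fermat.Agent.Lib.S33

open ModularCurve HahnSeries AlgebraicCurve Fermat.Agent.Lib.S18 Fermat.Agent.Lib.S37
  Fermat.Agent.Lib.FF

local notation "Qbar" => AlgebraicClosure ℚ

section Laurent

variable {L : Type*} [Field L] (A : ValuationSubring L)

/-- an element of the top-level Gauss ring with nonzero reduction is a unit. -/
theorem s33d_top_inv_mem {k : Type*} [Field k] (π : A →+* k) (f : s37r_O A π)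
    (hf : s37r_red A π f ≠ 0) : (f : LaurentSeries L)⁻¹ ∈ s37r_O A π := by
  obtain ⟨P, Q, hQ, h⟩ := f.2
  have hP : coeffMap π P ≠ 0 := (s37r_red_ne_zero_iff A π f P Q hQ h).mp hf
  have hf0 : (f : LaurentSeries L) ≠ 0 := by
    intro h0
    apply hP
    rw [h0, mul_zero] at h
    have : P = 0 := s37r_iota_injective A (by rw [← h, map_zero])
    rw [this, map_zero]
  refine ⟨Q, P, hP, ?_⟩
  rw [← h, mul_assoc, mul_inv_cancel₀ hf0, mul_one]

theorem s33d_coeffMap_C {R S : Type*} [CommRing R] [CommRing S] (φ : R →+* S) (r : R) :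
    coeffMap φ (HahnSeries.C r : LaurentSeries R) = HahnSeries.C (φ r) := by
  rw [HahnSeries.C_apply, coeffMap_single, HahnSeries.C_apply]

/-- a constant is Gauss-integral iff it lies in `A`. -/
theorem s33d_top_C_mem_iff (c : L) :
    (HahnSeries.C c : LaurentSeries L) ∈ s37r_O A (IsLocalRing.residue ↥A) ↔ c ∈ A := by
  constructor
  · rintro ⟨P, Q, hQ, h⟩
    by_contra hc
    have hc0 : c ≠ 0 := fun h0 => hc (h0 ▸ A.zero_mem)
    have hinv : c⁻¹ ∈ A := (A.mem_or_inv_mem c).resolve_left hc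
    set a : A := ⟨c⁻¹, hinv⟩ with ha
    have hnu : ¬ IsUnit a := by
      intro hu
      obtain ⟨b, hb⟩ := hu.exists_right_inv
      apply hc
      have h1 : c⁻¹ * (b : L) = 1 := congrArg Subtype.val hb
      have h2 : (b : L) = c := by
        have := congrArg (fun x => c * x) h1
        simp only [mul_one] at this
        rw [← mul_assoc, mul_inv_cancel₀ hc0, one_mul] at this
        exact this
      rw [← h2]
      exact b.2
    have hres : IsLocalRing.residue ↥A a = 0 :=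
      (IsLocalRing.residue_eq_zero_iff _).mpr ((IsLocalRing.mem_maximalIdeal _).mpr hnu)
    have hQP : Q = P * HahnSeries.C a := by
      apply s37r_iota_injective A
      rw [map_mul, ← h, s33d_coeffMap_C, mul_assoc, ← map_mul]
      have : c * A.subtype a = 1 := mul_inv_cancel₀ hc0
      rw [this, map_one, mul_one]
    apply hQ
    rw [hQP, map_mul, s33d_coeffMap_C, hres, map_zero, mul_zero]
  · intro hc
    have : (HahnSeries.C c : LaurentSeries L) =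
        coeffMap A.subtype (HahnSeries.C (⟨c, hc⟩ : A)) := by
      rw [s33d_coeffMap_C]
      rfl
    rw [this]
    exact s37r_iota_mem_O A _ _

/-- the reduction of an integral constant. -/
theorem s33d_top_red_C {k : Type*} [Field k] (π : A →+* k) (a : A)
    (h : (HahnSeries.C (a : L) : LaurentSeries L) ∈ s37r_O A π) :
    s37r_red A π ⟨_, h⟩ = HahnSeries.C (π a) := by
  have e : (HahnSeries.C (a : L) : LaurentSeries L) = coeffMap A.subtype (HahnSeries.C a) := by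
    rw [s33d_coeffMap_C]
    rfl
  have h1 := s37r_red_iota A π (HahnSeries.C a)
  rw [s33d_coeffMap_C π] at h1
  rw [← h1]
  congr 1
  exact Subtype.ext e

end Laurent

section Top

variable (A : ValuationSubring Qbar) (M : ℕ) [NeZero M] {p : ℕ} [hp : Fact p.Prime]
  (hA : A.LiesOverPrime p)


/-- a constant is in the top-level Gauss ring iff it is in `A`. -/
theorem s33d_algebraMap_mem_OF_iff (c : Qbar) :
    algebraMap Qbar (ffi_F M) c ∈ s37r_OF A M hA ↔ c ∈ A := by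
  rw [s37r_mem_OF_iff]
  have : ((algebraMap Qbar (ffi_F M) c : (ffi_F M)) : LaurentSeries Qbar) = HahnSeries.C c :=
    s18g_coe_algebraMap _ c
  rw [this, s33d_top_C_mem_iff]

/-- the reduction of a constant. -/
theorem s33d_redV_algebraMap (a : A) (h : algebraMap Qbar (ffi_F M) (a : Qbar) ∈ s37r_OF A M hA) :
    s37r_redV A M hA ⟨_, h⟩ = HahnSeries.C (IsLocalRing.residue ↥A a) := by
  have e : ((algebraMap Qbar (ffi_F M) (a : Qbar) : (ffi_F M)) : LaurentSeries Qbar) = HahnSeries.C (a : Qbar) :=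
    s18g_coe_algebraMap _ _
  have h' : (HahnSeries.C (a : Qbar) : LaurentSeries Qbar) ∈ s37r_O A (IsLocalRing.residue ↥A) := by
    rw [← e]; exact h
  rw [← s33d_top_red_C A (IsLocalRing.residue ↥A) a h']
  show s37r_red A _ (s37r_OFtoO A M hA ⟨_, h⟩) = _
  congr 1
  exact Subtype.ext e

/-- an element of `O_F` with nonzero reduction is a unit. -/
theorem s33d_inv_mem_OF (f : ↥(s37r_OF A M hA)) (hf : s37r_redV A M hA f ≠ 0) :
    ((f : (ffi_F M)))⁻¹ ∈ s37r_OF A M hA := by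
  rw [s37r_mem_OF_iff, IntermediateField.coe_inv]
  exact s33d_top_inv_mem A _ (s37r_OFtoO A M hA f) hf

/-- every nonzero function over `ℚ̄` is a constant times a Gauss unit. -/
theorem s33d_exists_gauss_unit (w : (ffi_F M)) (hw : w ≠ 0) :
    ∃ (d : Qbar) (u : (ffi_F M)), d ≠ 0 ∧ u ∈ s37r_OF A M hA ∧ u⁻¹ ∈ s37r_OF A M hA ∧
      w = algebraMap Qbar (ffi_F M) d * u := by
  classical
  obtain ⟨L₁, hfd, hL₁⟩ := s18q_exists_field M {w}
  obtain ⟨w₁, hw₁⟩ := hL₁ w (Finset.mem_singleton_self w)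
  haveI := hfd
  obtain ⟨_, ϖ, hϖ⟩ := s37r_exists_unif A hA L₁
  have hw₁0 : w₁ ≠ 0 := by
    rintro rfl
    rw [map_zero] at hw₁
    exact hw hw₁.symm
  have hFr : ∀ f ∈ laurentBaseChange ↥L₁ (modularFunctionFieldFull M),
      f ∈ s18g_Frac (s37r_G A L₁ ϖ hϖ) :=
    fun _ hf => s18g_baseChange_mem_Frac (s37r_G A L₁ ϖ hϖ) M hf
  obtain ⟨n, u, hu⟩ := s18g_exists_zpow_unitV (s37r_G A L₁ ϖ hϖ)
    (laurentBaseChange ↥L₁ (modularFunctionFieldFull M)) hFr w₁ hw₁0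
  have hϖ0 : ((ϖ : ↥(s18q_A0 A L₁)) : ↥L₁) ≠ 0 := fun h => hϖ.ne_zero (Subtype.ext h)
  set u1 : ↥(laurentBaseChange ↥L₁ (modularFunctionFieldFull M)) :=
    ((u : s18g_V (s37r_G A L₁ ϖ hϖ) (laurentBaseChange ↥L₁ (modularFunctionFieldFull M)) hFr) :
      ↥(laurentBaseChange ↥L₁ (modularFunctionFieldFull M))) with hu1
  set u2 : ↥(laurentBaseChange ↥L₁ (modularFunctionFieldFull M)) :=
    (((u⁻¹ : (s18g_V (s37r_G A L₁ ϖ hϖ)
      (laurentBaseChange ↥L₁ (modularFunctionFieldFull M)) hFr)ˣ) :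
      s18g_V (s37r_G A L₁ ϖ hϖ) (laurentBaseChange ↥L₁ (modularFunctionFieldFull M)) hFr) :
      ↥(laurentBaseChange ↥L₁ (modularFunctionFieldFull M))) with hu2
  have hu1V : u1 ∈ s18x_V (s37r_G A L₁ ϖ hϖ) M :=
    (u : s18g_V (s37r_G A L₁ ϖ hϖ) (laurentBaseChange ↥L₁ (modularFunctionFieldFull M)) hFr).2
  have hu2V : u2 ∈ s18x_V (s37r_G A L₁ ϖ hϖ) M :=
    ((u⁻¹ : (s18g_V (s37r_G A L₁ ϖ hϖ)
      (laurentBaseChange ↥L₁ (modularFunctionFieldFull M)) hFr)ˣ) :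
      s18g_V (s37r_G A L₁ ϖ hϖ) (laurentBaseChange ↥L₁ (modularFunctionFieldFull M)) hFr).2
  have huinv : u2 = u1⁻¹ := by
    have h1 : u1 * u2 = 1 := congrArg Subtype.val (Units.mul_inv u)
    exact eq_inv_of_mul_eq_one_right h1
  refine ⟨(algebraMap ↥L₁ Qbar ((ϖ : ↥(s18q_A0 A L₁)) : ↥L₁)) ^ n, s18q_incl M L₁ u1,
    ?_, ?_, ?_, ?_⟩
  · apply zpow_ne_zero
    rwa [Ne, map_eq_zero]
  · exact (s37r_incl_mem_OF_iff A M hA L₁ ϖ hϖ _).mpr hu1V
  · rw [← map_inv₀, ← huinv]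
    exact (s37r_incl_mem_OF_iff A M hA L₁ ϖ hϖ _).mpr hu2V
  · rw [← hw₁, hu, map_mul, map_zpow₀, s18q_incl_algebraMap, map_zpow₀]
    rfl

/-- **Gauss lemma** for constants: a constant ratio of two Gauss units is a unit of `A`. -/
theorem s33d_gauss_const {c : Qbar} {U W : (ffi_F M)} (hU0 : U ≠ 0) (hW0 : W ≠ 0)
    (hU : U ∈ s37r_OF A M hA) (hU' : U⁻¹ ∈ s37r_OF A M hA) (hW : W ∈ s37r_OF A M hA)
    (hW' : W⁻¹ ∈ s37r_OF A M hA)
    (h : algebraMap Qbar (ffi_F M) c * U = W) : c ∈ A ∧ c⁻¹ ∈ A := by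
  have hc0 : c ≠ 0 := by
    rintro rfl
    rw [map_zero, zero_mul] at h
    exact hW0 h.symm
  have h1 : algebraMap Qbar (ffi_F M) c = W * U⁻¹ := by
    rw [← h, mul_assoc, mul_inv_cancel₀ hU0, mul_one]
  have h2 : algebraMap Qbar (ffi_F M) c⁻¹ = U * W⁻¹ := by
    rw [map_inv₀, h1, mul_inv, inv_inv, mul_comm]
  constructor
  · rw [← s33d_algebraMap_mem_OF_iff A M hA, h1]
    exact (s37r_OF A M hA).mul_mem _ _ hW hU'
  · rw [← s33d_algebraMap_mem_OF_iff A M hA, h2]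
    exact (s37r_OF A M hA).mul_mem _ _ hU hW'

end Top

section Main

variable (A : ValuationSubring Qbar) (M : ℕ) [NeZero M] {p : ℕ} [hp : Fact p.Prime]
  (hA : A.LiesOverPrime p)
  (L₀ : IntermediateField ℚ Qbar) [FiniteDimensional ℚ ↥L₀]
  [IsDiscreteValuationRing ↥(s18q_A0 A L₀)] (ϖ : ↥(s18q_A0 A L₀)) (hϖ : Irreducible ϖ)

include hA in
/-- the residue field of `ℚ̄` at `A` is algebraic over the residue field of `L₀`. -/
theorem s33d_resMap_isAlgebraic :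
    letI : Algebra (IsLocalRing.ResidueField ↥(s18q_A0 A L₀)) (IsLocalRing.ResidueField ↥A) :=
      (s37r_resMap A L₀).toAlgebra
    Algebra.IsAlgebraic (IsLocalRing.ResidueField ↥(s18q_A0 A L₀)) (IsLocalRing.ResidueField ↥A) := by
  letI : Algebra (IsLocalRing.ResidueField ↥(s18q_A0 A L₀)) (IsLocalRing.ResidueField ↥A) :=
    (s37r_resMap A L₀).toAlgebra
  haveI := s37rl_charP A hA L₀
  haveI := s18n_charP_residueField A hp.out hA
  letI : Algebra (ZMod p) (IsLocalRing.ResidueField ↥(s18q_A0 A L₀)) := ZMod.algebra _ p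
  letI : Algebra (ZMod p) (IsLocalRing.ResidueField ↥A) := ZMod.algebra _ p
  haveI : IsScalarTower (ZMod p) (IsLocalRing.ResidueField ↥(s18q_A0 A L₀))
      (IsLocalRing.ResidueField ↥A) := IsScalarTower.of_algebraMap_eq (fun x =>
    RingHom.congr_fun (RingHom.ext_zmod (algebraMap (ZMod p) (IsLocalRing.ResidueField ↥A))
      ((algebraMap (IsLocalRing.ResidueField ↥(s18q_A0 A L₀)) (IsLocalRing.ResidueField ↥A)).comp
        (algebraMap (ZMod p) (IsLocalRing.ResidueField ↥(s18q_A0 A L₀))))) x)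
  haveI := s18q_isAlgebraic_bar
  haveI : Algebra.IsAlgebraic (ZMod p) (IsLocalRing.ResidueField ↥A) :=
    ⟨fun z => s18x_residue_isAlgebraic A z⟩
  exact Algebra.IsAlgebraic.tower_top (K := ZMod p) (IsLocalRing.ResidueField ↥(s18q_A0 A L₀))

include hA in
/-- **[DESC-red], step 2**: any Kummer generator over `L₀` of a `p`-torsion class in the kernel of
reduction is `≡ 1 mod ϖ` after multiplication by a constant times a `p`-th power over `L₀`. -/
theorem s33d_cong_one_of_red_zero (hM : s18_GoodLevel p M)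
    (z : JZero M) (hz : p • z = 0) (hred : reductionModL A M z = 0)
    (f₀ : ↥(laurentBaseChange ↥L₀ (modularFunctionFieldFull M)))
    (hf₀ : s33d_IsKumGen p z (s18q_incl M L₀ f₀)) :
    ∃ (c₀ : ↥L₀) (h₀ : ↥(laurentBaseChange ↥L₀ (modularFunctionFieldFull M))), c₀ ≠ 0 ∧ h₀ ≠ 0 ∧
      ∃ y ∈ s18x_V (s37r_G A L₀ ϖ hϖ) M,
        algebraMap ↥L₀ ↥(laurentBaseChange ↥L₀ (modularFunctionFieldFull M)) c₀ * h₀ ^ p * f₀ - 1 =
          algebraMap ↥L₀ ↥(laurentBaseChange ↥L₀ (modularFunctionFieldFull M))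
            ((ϖ : ↥(s18q_A0 A L₀)) : ↥L₀) * y := by
  have hpM : ¬ p ∣ M := hM.1
  -- step 1: a Kummer generator `≡ 1` over `ℚ̄`
  have hin := s33r_inputs M p hp.out hM A hA
  have hC := s18n_constFk_residueField (N := M) A hp.out hA hpM
  obtain ⟨Y1, Y2, h1, h2, hk1, heq, hne, hgen⟩ :=
    s33d_exists_kumGen_red (N := M) IsLocalRing.residue_surjective hin p hC z hz hred
  set y1 : ffi_F M := ⟨coeffMap A.subtype Y1, h1⟩ with hy1
  set y2 : ffi_F M := ⟨coeffMap A.subtype Y2, h2⟩ with hy2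
  have hY1OF : y1 ∈ s37r_OF A M hA := s37r_iota_mem_OF A M hA Y1 h1
  have hY2OF : y2 ∈ s37r_OF A M hA := s37r_iota_mem_OF A M hA Y2 h2
  have hr1 : s37r_redV A M hA ⟨y1, hY1OF⟩ = coeffMap (IsLocalRing.residue ↥A) Y1 :=
    s37r_redV_iota A M hA Y1 h1
  have hr2 : s37r_redV A M hA ⟨y2, hY2OF⟩ = coeffMap (IsLocalRing.residue ↥A) Y2 :=
    s37r_redV_iota A M hA Y2 h2
  have hne2 : coeffMap (IsLocalRing.residue ↥A) Y2 ≠ 0 := by rw [← heq]; exact hne
  have hY1inv : y1⁻¹ ∈ s37r_OF A M hA :=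
    s33d_inv_mem_OF A M hA ⟨y1, hY1OF⟩ (by rw [hr1]; exact hne)
  have hY2inv : y2⁻¹ ∈ s37r_OF A M hA :=
    s33d_inv_mem_OF A M hA ⟨y2, hY2OF⟩ (by rw [hr2]; exact hne2)
  have hy20 : y2 ≠ 0 := by
    intro h0
    apply hne2
    have : coeffMap A.subtype Y2 = 0 := congrArg Subtype.val h0
    have hY2 : Y2 = 0 := s37r_iota_injective A (by rw [this, map_zero])
    rw [hY2, map_zero]
  have hy10 : y1 ≠ 0 := by
    intro h0
    apply hne
    have : coeffMap A.subtype Y1 = 0 := congrArg Subtype.val h0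
    have hY1 : Y1 = 0 := s37r_iota_injective A (by rw [this, map_zero])
    rw [hY1, map_zero]
  set g : ffi_F M := y1 / y2 with hg
  have hgOF : g ∈ s37r_OF A M hA := by
    rw [hg, div_eq_mul_inv]
    exact (s37r_OF A M hA).mul_mem _ _ hY1OF hY2inv
  have hginv : g⁻¹ ∈ s37r_OF A M hA := by
    rw [hg, inv_div, div_eq_mul_inv]
    exact (s37r_OF A M hA).mul_mem _ _ hY2OF hY1inv
  have hg0 : g ≠ 0 := div_ne_zero hy10 hy20
  have hgred : s37r_redV A M hA ⟨g, hgOF⟩ = 1 := by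
    have e : (⟨g, hgOF⟩ : ↥(s37r_OF A M hA)) * ⟨y2, hY2OF⟩ = ⟨y1, hY1OF⟩ :=
      Subtype.ext (div_mul_cancel₀ y1 hy20)
    have e2 := congrArg (s37r_redV A M hA) e
    rw [map_mul, hr1, hr2, heq] at e2
    exact mul_right_cancel₀ hne2 (by rw [e2, one_mul])
  -- step 2: compare with the given generator
  have hconst : s33d_ConstOfOrdZero Qbar (ffi_F M) := fun x _ hord =>
    s18e_const_of_ord_nonpos M x (fun P => (hord P).le)
  obtain ⟨c, w, hc, hw, hfw⟩ := s33d_kumGen_unique hconst hgen hf₀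
  obtain ⟨d, u, hd, huOF, huinv, hwu⟩ := s33d_exists_gauss_unit A M hA w hw
  have hu0 : u ≠ 0 := by
    rintro rfl
    rw [mul_zero] at hwu
    exact hw hwu
  -- step 3: normalise `f₀` at the level `L₀`
  have hf₀0 : f₀ ≠ 0 := by
    rintro rfl
    exact hf₀.1 (map_zero _)
  have hFr : ∀ f ∈ laurentBaseChange ↥L₀ (modularFunctionFieldFull M),
      f ∈ s18g_Frac (s37r_G A L₀ ϖ hϖ) :=
    fun _ hf => s18g_baseChange_mem_Frac (s37r_G A L₀ ϖ hϖ) M hf
  obtain ⟨n, f1, hf1⟩ := s18g_exists_zpow_unitV (s37r_G A L₀ ϖ hϖ)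
    (laurentBaseChange ↥L₀ (modularFunctionFieldFull M)) hFr f₀ hf₀0
  have hϖ0 : ((ϖ : ↥(s18q_A0 A L₀)) : ↥L₀) ≠ 0 := fun h => hϖ.ne_zero (Subtype.ext h)
  set u1 : ↥(laurentBaseChange ↥L₀ (modularFunctionFieldFull M)) :=
    ((f1 : s18g_V (s37r_G A L₀ ϖ hϖ) (laurentBaseChange ↥L₀ (modularFunctionFieldFull M)) hFr) :
      ↥(laurentBaseChange ↥L₀ (modularFunctionFieldFull M))) with hu1
  set u2 : ↥(laurentBaseChange ↥L₀ (modularFunctionFieldFull M)) :=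
    (((f1⁻¹ : (s18g_V (s37r_G A L₀ ϖ hϖ)
      (laurentBaseChange ↥L₀ (modularFunctionFieldFull M)) hFr)ˣ) :
      s18g_V (s37r_G A L₀ ϖ hϖ) (laurentBaseChange ↥L₀ (modularFunctionFieldFull M)) hFr) :
      ↥(laurentBaseChange ↥L₀ (modularFunctionFieldFull M))) with hu2
  have hu1V : u1 ∈ s18x_V (s37r_G A L₀ ϖ hϖ) M :=
    (f1 : s18g_V (s37r_G A L₀ ϖ hϖ) (laurentBaseChange ↥L₀ (modularFunctionFieldFull M)) hFr).2
  have hu2V : u2 ∈ s18x_V (s37r_G A L₀ ϖ hϖ) M :=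
    ((f1⁻¹ : (s18g_V (s37r_G A L₀ ϖ hϖ)
      (laurentBaseChange ↥L₀ (modularFunctionFieldFull M)) hFr)ˣ) :
      s18g_V (s37r_G A L₀ ϖ hϖ) (laurentBaseChange ↥L₀ (modularFunctionFieldFull M)) hFr).2
  have hu12 : u1 * u2 = 1 := congrArg Subtype.val (Units.mul_inv f1)
  have hu2inv : u2 = u1⁻¹ := eq_inv_of_mul_eq_one_right hu12
  have hu10 : u1 ≠ 0 := by
    rintro h0
    rw [h0, zero_mul] at hu12
    exact zero_ne_one hu12
  -- the two Gauss units over `ℚ̄`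
  set U : ffi_F M := u ^ p * g with hU
  set W : ffi_F M := s18q_incl M L₀ u1 with hW
  have hUOF : U ∈ s37r_OF A M hA :=
    (s37r_OF A M hA).mul_mem _ _ ((s37r_OF A M hA).pow_mem huOF p) hgOF
  have hUinv : U⁻¹ ∈ s37r_OF A M hA := by
    rw [hU, mul_inv, ← inv_pow]
    exact (s37r_OF A M hA).mul_mem _ _ ((s37r_OF A M hA).pow_mem huinv p) hginv
  have hWOF : W ∈ s37r_OF A M hA := (s37r_incl_mem_OF_iff A M hA L₀ ϖ hϖ _).mpr hu1V
  have hWinv : W⁻¹ ∈ s37r_OF A M hA := by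
    rw [hW, ← map_inv₀, ← hu2inv]
    exact (s37r_incl_mem_OF_iff A M hA L₀ ϖ hϖ _).mpr hu2V
  have hU0 : U ≠ 0 := mul_ne_zero (pow_ne_zero p hu0) hg0
  have hW0 : W ≠ 0 := by
    rw [hW, Ne, map_eq_zero]
    exact hu10
  set ϖQ : Qbar := algebraMap ↥L₀ Qbar ((ϖ : ↥(s18q_A0 A L₀)) : ↥L₀) with hϖQ
  have hϖQ0 : ϖQ ≠ 0 := by rwa [hϖQ, Ne, map_eq_zero]
  set c' : Qbar := c * d ^ p * ϖQ ^ (-n) with hc'
  have hrel : algebraMap Qbar (ffi_F M) c' * U = W := by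
    have e1 : s18q_incl M L₀ f₀ = algebraMap Qbar (ffi_F M) (ϖQ ^ n) * W := by
      rw [hf1, map_mul, map_zpow₀, s18q_incl_algebraMap, map_zpow₀]
      rfl
    have e2 : s18q_incl M L₀ f₀ = algebraMap Qbar (ffi_F M) (c * d ^ p) * U := by
      rw [hfw, hwu, mul_pow, map_mul, map_pow, hU]
      ring
    have e3 : algebraMap Qbar (ffi_F M) (ϖQ ^ n) ≠ 0 := by
      rw [Ne, map_eq_zero]
      exact zpow_ne_zero n hϖQ0
    have e4 : W = (algebraMap Qbar (ffi_F M) (ϖQ ^ n))⁻¹ * s18q_incl M L₀ f₀ := by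
      rw [e1, ← mul_assoc, inv_mul_cancel₀ e3, one_mul]
    rw [e4, e2, hc', map_mul, zpow_neg, map_inv₀]
    ring
  obtain ⟨hc'A, hc'invA⟩ := s33d_gauss_const A M hA hU0 hW0 hUOF hUinv hWOF hWinv hrel
  -- step 4: the reductions
  set x₀ : LaurentSeries (IsLocalRing.ResidueField ↥(s18q_A0 A L₀)) :=
    s18g_redV (s37r_G A L₀ ϖ hϖ) (laurentBaseChange ↥L₀ (modularFunctionFieldFull M)) hFr
      ⟨u1, hu1V⟩ with hx₀def
  have hredW : s37r_redV A M hA ⟨W, hWOF⟩ = coeffMap (s37r_resMap A L₀) x₀ :=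
    s37r_redV_incl A M hA L₀ ϖ hϖ u1 hu1V hWOF
  have hcOF : algebraMap Qbar (ffi_F M) c' ∈ s37r_OF A M hA :=
    (s33d_algebraMap_mem_OF_iff A M hA c').mpr hc'A
  set v : LaurentSeries (IsLocalRing.ResidueField ↥A) := s37r_redV A M hA ⟨u, huOF⟩ with hv
  set a : IsLocalRing.ResidueField ↥A := IsLocalRing.residue ↥A ⟨c', hc'A⟩ with ha
  have hredW' : s37r_redV A M hA ⟨W, hWOF⟩ = HahnSeries.C a * v ^ p := by
    have e : (⟨W, hWOF⟩ : ↥(s37r_OF A M hA)) =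
        ⟨algebraMap Qbar (ffi_F M) c', hcOF⟩ * ⟨u, huOF⟩ ^ p * ⟨g, hgOF⟩ := by
      apply Subtype.ext
      show W = algebraMap Qbar (ffi_F M) c' * u ^ p * g
      rw [← hrel, hU, mul_assoc]
    rw [e, map_mul, map_mul, map_pow, hgred, mul_one,
      s33d_redV_algebraMap A M hA ⟨c', hc'A⟩ hcOF]
  -- step 5: descend the residue Kummer class to the residue field of `L₀`
  haveI hchar₀ : CharP (IsLocalRing.ResidueField ↥(s18q_A0 A L₀)) p := s37rl_charP A hA L₀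
  haveI hchar : CharP (IsLocalRing.ResidueField ↥A) p := s18n_charP_residueField A hp.out hA
  haveI hperf₀ : PerfectField (IsLocalRing.ResidueField ↥(s18q_A0 A L₀)) :=
    s37rl_perfectField A hA L₀
  haveI : PerfectRing (IsLocalRing.ResidueField ↥(s18q_A0 A L₀)) p := PerfectField.toPerfectRing p
  letI : Algebra (IsLocalRing.ResidueField ↥(s18q_A0 A L₀)) (IsLocalRing.ResidueField ↥A) :=
    (s37r_resMap A L₀).toAlgebra
  haveI : Algebra.IsAlgebraic (IsLocalRing.ResidueField ↥(s18q_A0 A L₀))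
      (IsLocalRing.ResidueField ↥A) := s33d_resMap_isAlgebraic A hA L₀
  have hT : s18g_HT (IsLocalRing.ResidueField ↥(s18q_A0 A L₀)) M := s18t_indep_j p M hpM _
  have hdeg : s18g_HDeg ↥L₀ M := fun n b hb hn =>
    s18g_exists_relation M (algebraMap ↥L₀ Qbar) hn b hb
  have hx₀mem : x₀ ∈ modularFunctionFieldFullC (IsLocalRing.ResidueField ↥(s18q_A0 A L₀)) M :=
    s18g_redV_mem_fullC (s37r_G A L₀ ϖ hϖ) M hFr hT hdeg ⟨u1, hu1V⟩
  have hx₀0 : x₀ ≠ 0 :=
    (s18g_isUnit_V_iff (s37r_G A L₀ ϖ hϖ) _ hFr _).mp f1.isUnit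
  have hvmem : v ∈ modularFunctionFieldFullC (IsLocalRing.ResidueField ↥A) M :=
    s37r_redV_mem_fullC A M hA hpM ⟨u, huOF⟩
  have hx : coeffMap (algebraMap (IsLocalRing.ResidueField ↥(s18q_A0 A L₀))
      (IsLocalRing.ResidueField ↥A)) x₀ =
      algebraMap (IsLocalRing.ResidueField ↥A) (LaurentSeries (IsLocalRing.ResidueField ↥A)) a *
        v ^ p := by
    have e : algebraMap (IsLocalRing.ResidueField ↥A)
        (LaurentSeries (IsLocalRing.ResidueField ↥A)) a = HahnSeries.C a := by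
      rw [algebraMap_laurentSeries_eq_single, HahnSeries.C_apply]
    rw [e, ← hredW', hredW]
    rfl
  obtain ⟨a₀, v₀, hv₀mem, ha₀, hv₀0, hx₀eq⟩ :=
    s33d_kum0_descent_charP M p x₀ hx₀mem hx₀0 a v hvmem hx
  -- step 6: lift to `L₀`
  obtain ⟨α₀, hα₀⟩ := IsLocalRing.residue_surjective a₀
  obtain ⟨V₀, hV₀⟩ := s18g_redF_surjective (s37r_G A L₀ ϖ hϖ) M hFr hT hdeg
    IsLocalRing.residue_surjective ⟨v₀, hv₀mem⟩
  have hV₀red : s18g_redV (s37r_G A L₀ ϖ hϖ)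
      (laurentBaseChange ↥L₀ (modularFunctionFieldFull M)) hFr V₀ = v₀ := by
    have := congrArg Subtype.val hV₀
    rwa [s18g_coe_redF] at this
  set t : ↥(s18g_V (s37r_G A L₀ ϖ hϖ) (laurentBaseChange ↥L₀ (modularFunctionFieldFull M)) hFr) :=
    s18g_constV (s37r_G A L₀ ϖ hϖ) (laurentBaseChange ↥L₀ (modularFunctionFieldFull M)) hFr α₀ *
      V₀ ^ p with ht
  have htred : s18g_redV (s37r_G A L₀ ϖ hϖ)
      (laurentBaseChange ↥L₀ (modularFunctionFieldFull M)) hFr t = x₀ := by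
    rw [ht, map_mul, map_pow, s18g_redV_constV, hV₀red, hx₀eq,
      algebraMap_laurentSeries_eq_single, HahnSeries.C_apply, ← hα₀]
    rfl
  have htunit : IsUnit t :=
    (s18g_isUnit_V_iff (s37r_G A L₀ ϖ hϖ) _ hFr t).mpr (by rw [htred]; exact hx₀0)
  obtain ⟨tinv, htinv⟩ := htunit.exists_right_inv
  have hzero : s18g_redV (s37r_G A L₀ ϖ hϖ)
      (laurentBaseChange ↥L₀ (modularFunctionFieldFull M)) hFr (tinv * ⟨u1, hu1V⟩ - 1) = 0 := by
    have e := congrArg (s18g_redV (s37r_G A L₀ ϖ hϖ)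
      (laurentBaseChange ↥L₀ (modularFunctionFieldFull M)) hFr) htinv
    rw [map_mul, map_one, htred] at e
    rw [map_sub, map_mul, map_one, ← hx₀def, mul_comm, e, sub_self]
  obtain ⟨y, hy⟩ := (s18g_redV_eq_zero_iff (s37r_G A L₀ ϖ hϖ) _ hFr _).mp hzero
  have hα₀0 : ((α₀ : ↥(s18q_A0 A L₀)) : ↥L₀) ≠ 0 := by
    intro h0
    apply ha₀
    have : α₀ = 0 := Subtype.ext h0
    rw [← hα₀, this, map_zero]
  have hV₀0 : ((V₀ : s18g_V (s37r_G A L₀ ϖ hϖ)
      (laurentBaseChange ↥L₀ (modularFunctionFieldFull M)) hFr) :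
      ↥(laurentBaseChange ↥L₀ (modularFunctionFieldFull M))) ≠ 0 := by
    intro h0
    apply hv₀0
    have : V₀ = 0 := Subtype.ext h0
    rw [← hV₀red, this, map_zero]
  refine ⟨((α₀ : ↥(s18q_A0 A L₀)) : ↥L₀)⁻¹ * ((ϖ : ↥(s18q_A0 A L₀)) : ↥L₀) ^ (-n),
    ((V₀ : s18g_V (s37r_G A L₀ ϖ hϖ)
      (laurentBaseChange ↥L₀ (modularFunctionFieldFull M)) hFr) :
      ↥(laurentBaseChange ↥L₀ (modularFunctionFieldFull M)))⁻¹,
    mul_ne_zero (inv_ne_zero hα₀0) (zpow_ne_zero _ hϖ0), inv_ne_zero hV₀0,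
    (y : ↥(laurentBaseChange ↥L₀ (modularFunctionFieldFull M))), y.2, ?_⟩
  have hy' : ((tinv : s18g_V (s37r_G A L₀ ϖ hϖ)
      (laurentBaseChange ↥L₀ (modularFunctionFieldFull M)) hFr) :
      ↥(laurentBaseChange ↥L₀ (modularFunctionFieldFull M))) * u1 - 1 =
      algebraMap ↥L₀ ↥(laurentBaseChange ↥L₀ (modularFunctionFieldFull M))
        ((ϖ : ↥(s18q_A0 A L₀)) : ↥L₀) * y := congrArg Subtype.val hy
  have htcoe : ((t : s18g_V (s37r_G A L₀ ϖ hϖ)
      (laurentBaseChange ↥L₀ (modularFunctionFieldFull M)) hFr) :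
      ↥(laurentBaseChange ↥L₀ (modularFunctionFieldFull M))) =
      algebraMap ↥L₀ ↥(laurentBaseChange ↥L₀ (modularFunctionFieldFull M))
        ((α₀ : ↥(s18q_A0 A L₀)) : ↥L₀) *
      ((V₀ : s18g_V (s37r_G A L₀ ϖ hϖ)
        (laurentBaseChange ↥L₀ (modularFunctionFieldFull M)) hFr) :
        ↥(laurentBaseChange ↥L₀ (modularFunctionFieldFull M))) ^ p := rfl
  have htt : ((t : s18g_V (s37r_G A L₀ ϖ hϖ)
      (laurentBaseChange ↥L₀ (modularFunctionFieldFull M)) hFr) :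
      ↥(laurentBaseChange ↥L₀ (modularFunctionFieldFull M))) *
      ((tinv : s18g_V (s37r_G A L₀ ϖ hϖ)
      (laurentBaseChange ↥L₀ (modularFunctionFieldFull M)) hFr) :
      ↥(laurentBaseChange ↥L₀ (modularFunctionFieldFull M))) = 1 := congrArg Subtype.val htinv
  have htinv' : ((tinv : s18g_V (s37r_G A L₀ ϖ hϖ)
      (laurentBaseChange ↥L₀ (modularFunctionFieldFull M)) hFr) :
      ↥(laurentBaseChange ↥L₀ (modularFunctionFieldFull M))) =
      (algebraMap ↥L₀ ↥(laurentBaseChange ↥L₀ (modularFunctionFieldFull M))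
        ((α₀ : ↥(s18q_A0 A L₀)) : ↥L₀) *
      ((V₀ : s18g_V (s37r_G A L₀ ϖ hϖ)
        (laurentBaseChange ↥L₀ (modularFunctionFieldFull M)) hFr) :
        ↥(laurentBaseChange ↥L₀ (modularFunctionFieldFull M))) ^ p)⁻¹ := by
    rw [← htcoe]
    exact eq_inv_of_mul_eq_one_right htt
  rw [← hy', htinv', hf1, map_mul, map_inv₀, map_zpow₀, zpow_neg, inv_pow, mul_inv]
  have hπ0 : algebraMap ↥L₀ ↥(laurentBaseChange ↥L₀ (modularFunctionFieldFull M))
      ((ϖ : ↥(s18q_A0 A L₀)) : ↥L₀) ≠ 0 := by rwa [Ne, map_eq_zero]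
  have hπn : (algebraMap ↥L₀ ↥(laurentBaseChange ↥L₀ (modularFunctionFieldFull M))
      ((ϖ : ↥(s18q_A0 A L₀)) : ↥L₀)) ^ n ≠ 0 := zpow_ne_zero n hπ0
  have e5 : ((s37r_G A L₀ ϖ hϖ).ϖ : ↥(s18q_A0 A L₀)) = ϖ := rfl
  rw [e5]
  field_simp

include hA in
/-- **[DESC-red]** in the vocabulary of the [FO] brick: any Kummer generator over `L₀` of a `p`-torsion
class in the kernel of reduction has depth `≥ 1` for the Gauss datum of `L₀`. -/
theorem s33d_depthGE_one (hM : s18_GoodLevel p M)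
    (hT : s18g_HT (IsLocalRing.ResidueField ↥(s18q_A0 A L₀)) M) (hdeg : s18g_HDeg ↥L₀ M)
    (hπ : Function.Surjective (s37r_G A L₀ ϖ hϖ).π) (e : ℕ) (ε : ↥L₀) (he : 0 < e)
    (hε : ε ∈ (s37r_G A L₀ ϖ hϖ).A) (hεinv : ε⁻¹ ∈ (s37r_G A L₀ ϖ hϖ).A) (hε0 : ε ≠ 0)
    (hpe : (p : ↥L₀) = ε * (((s37r_G A L₀ ϖ hϖ).ϖ : (s37r_G A L₀ ϖ hϖ).A) : ↥L₀) ^ e)
    (hperf : ∀ c : IsLocalRing.ResidueField ↥(s18q_A0 A L₀), ∃ d, d ^ p = c)
    (z : JZero M) (hz : p • z = 0) (hred : reductionModL A M z = 0)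
    (f₀ : ↥(laurentBaseChange ↥L₀ (modularFunctionFieldFull M)))
    (hf₀ : s33d_IsKumGen p z (s18q_incl M L₀ f₀)) :
    s33f_DepthGE (s33i_datum (s37r_G A L₀ ϖ hϖ) M hT hdeg hπ p e ε hp.out he hε hεinv hε0 hpe hperf)
      1 f₀ := by
  obtain ⟨c₀, h₀, hc₀, hh₀, y, hy, hcong⟩ :=
    s33d_cong_one_of_red_zero A M hA L₀ ϖ hϖ hM z hz hred f₀ hf₀
  refine ⟨algebraMap ↥L₀ _ c₀ * h₀ ^ p, ⟨c₀, h₀, hc₀, hh₀, rfl⟩, y, hy, ?_⟩
  rw [hcong, pow_one]
  rfl

end Main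

end Fermat.Agent.Lib.S33
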