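/-
P-AT-P programme (S33), brick [DESC] (helper1), part 9: THE J-SIDE WRAPPER **`s33_noMuLine : s33_NoMuLine`**
((III-out) of `TopIface.lean` is a THEOREM).

`z ≠ 0` a `p`-torsion point of `μ_p`-type at `P ∣ p` at an S18-good level `M` with `T_p z = 0`:
* [RED0] ⇒ `red z = 0`;
* a Kummer generator `f` of `z` is defined over a finite Galois `K ∋ ζ_p`; `μ_p`-type ⇒ the Kummer class is
  invariant under `H = I_P ∩ Stab ζ_p`; Kummer descent ([DESC-H90]) ⇒ a Kummer generator `f₀` over the TAME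
  field `L₀ = K ∩ ℚ̄^H`, where `e = p - 1` ([DESC-ram], helper7);
* [DESC-red] ⇒ depth `≥ 1`; [DESC-Tp] + [DESC-KD] ⇒ `τ f₀ ∈ 𝒢⁰`; (III-abstract) (helper6/helper9/helper3) ⇒
  `f₀ ∈ 𝒢⁰` ⇒ `z = 0`.
-/
import Fermat.Agent.Lib.S33.TopIface
import Fermat.Agent.Lib.S33.DescRedTop
import Fermat.Agent.Lib.S33.DescKummer
import Fermat.Agent.Lib.S33.DescRam
import Fermat.Agent.Lib.S33.FOInstT
import Fermat.Agent.Lib.S33.TPDesc
import Fermat.Agent.Lib.S33.DescDict

set_option autoImplicit false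
set_option linter.style.haveILetI false
set_option linter.unusedSectionVars false
set_option synthInstance.maxHeartbeats 400000

noncomputable section

namespace Fermat.Agent.Lib.S33

open ModularCurve HahnSeries AlgebraicCurve Fermat.Agent.Lib.S18 Fermat.Agent.Lib.S37
  Fermat.Agent.Lib.FF

local notation "Qbar" => AlgebraicClosure ℚ
local notation "Γℚ" => (AlgebraicClosure ℚ ≃ₐ[ℚ] AlgebraicClosure ℚ)

/-- **(III-out) is a theorem.** -/
theorem s33_noMuLine : s33_NoMuLine := by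
  intro M _ p hp hp2 hM P hP z hz hz0 hmu hTz
  haveI hpF : Fact p.Prime := ⟨hp⟩
  haveI : NeZero p := ⟨hp.ne_zero⟩
  have hpM : ¬ p ∣ M := hM.1
  have hgood : 5 ≤ p ∨ (p = 3 ∧ 2 ∣ M) := by
    rcases hM.2 with h | h | h
    · exact Or.inl h
    · exact Or.inr h
    · exact absurd h.1 hp2
  -- [RED0]
  have hred : reductionModL P M z = 0 :=
    s33r_red_eq_zero_of_nilpotent M p hp hM P hP z hz 1 (by rw [pow_one]; exact hTz)
  -- a Kummer generator over a finite Galois field containing `ζ_p`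
  obtain ⟨ζ, hζ⟩ := HasEnoughRootsOfUnity.exists_primitiveRoot Qbar p
  obtain ⟨f, hf⟩ := s33d_exists_kumGen p z hz
  classical
  obtain ⟨L₁, hL₁fd, hL₁⟩ := s18q_exists_field M {f}
  haveI := hL₁fd
  set K₁ : IntermediateField ℚ Qbar := L₁ ⊔ IntermediateField.adjoin ℚ {ζ} with hK₁
  haveI : FiniteDimensional ℚ ↥(IntermediateField.adjoin ℚ {ζ}) :=
    IntermediateField.adjoin.finiteDimensional
      ((hζ.isIntegral hp.pos).tower_top (A := ℚ))
  haveI : FiniteDimensional ℚ ↥K₁ := IntermediateField.finiteDimensional_sup _ _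
  haveI : Normal ℚ Qbar := Fermat.Agent.Lib.CFT.cfg_isGalois_QBar.to_normal
  set K : IntermediateField ℚ Qbar := IntermediateField.normalClosure ℚ ↥K₁ Qbar with hK
  haveI hKfd : FiniteDimensional ℚ ↥K := normalClosure.is_finiteDimensional ℚ ↥K₁ Qbar
  haveI hKn : Normal ℚ ↥K := normalClosure.normal ℚ ↥K₁ Qbar
  have hK₁K : K₁ ≤ K := IntermediateField.le_normalClosure K₁
  have hζK : ζ ∈ K := hK₁K ((le_sup_right : _ ≤ K₁)
    (IntermediateField.subset_adjoin ℚ {ζ} (Set.mem_singleton ζ)))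
  have hfK : f ∈ Set.range (s33d_incl (modularFunctionFieldFull M) K) :=
    s18q_incl_range_mono M ((le_sup_left : L₁ ≤ K₁).trans hK₁K)
      (hL₁ f (Finset.mem_singleton_self f))
  -- invariance of the Kummer class under `H = I_P ∩ Stab ζ`
  have hH : ∀ σ ∈ s33d_H P ζ, ∃ (c : Qbar) (h : ↥(laurentBaseChange Qbar (modularFunctionFieldFull M))),
      arithmeticGalois (modularFunctionFieldFull M) σ • f =
        algebraMap Qbar ↥(laurentBaseChange Qbar (modularFunctionFieldFull M)) c * h ^ p * f := by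
    intro σ hσ
    obtain ⟨hσI, hσζ⟩ := s33d_mem_H.mp hσ
    have hσz : arithmeticGalois (modularFunctionFieldFull M) σ • z = z := by
      have := hmu σ hσI 1 (s33d_pow_of_fix hp.pos hζ hσζ)
      rw [one_smul] at this
      exact this
    obtain ⟨c, w, -, -, e⟩ := s33d_kumGen_fixed (s33d_constOfOrdZero_bar M)
      (arithmeticGalois (modularFunctionFieldFull M) σ) hf hσz
    exact ⟨c, w, e⟩
  obtain ⟨c, u, hc, hu, hcu⟩ := s33d_kummer_descent (modularFunctionFieldFull M) p ζ hζ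
    (s33d_H P ζ) K f hf.1 hfK hH
  -- the tame field
  set L₀ : IntermediateField ℚ Qbar := s33d_L0 P K ζ with hL₀
  obtain ⟨f₀, hf₀⟩ : ∃ f₀ : ↥(laurentBaseChange ↥L₀ (modularFunctionFieldFull M)),
      s18q_incl M L₀ f₀ =
        algebraMap Qbar ↥(laurentBaseChange Qbar (modularFunctionFieldFull M)) c * u ^ p * f := hcu
  have hgen₀ : s33d_IsKumGen p z (s18q_incl M L₀ f₀) := by
    rw [hf₀]
    exact s33d_kumGen_mul hf hc hu
  -- the datum over `L₀`: `ϖ = 1 - ζ`, `e = p - 1`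
  have hle : L₀ ≤ K := s33d_L0_le P K ζ
  haveI hfin : FiniteDimensional ℚ ↥L₀ :=
    Module.Finite.of_injective (IntermediateField.inclusion hle).toLinearMap
      (IntermediateField.inclusion_injective hle)
  haveI : NumberField ↥L₀ := ⟨⟩
  have hζL₀ : ζ ∈ L₀ := s33d_zeta_mem_L0 hζK
  obtain ⟨hirr, ε, hε, hεinv, hpε⟩ := s33d_ram_aux hp P hP L₀ ζ hζ hζL₀
    (fun σ hσ a ha => (s33d_mem_L0.mp ha).2 σ hσ)
  haveI hdvr : IsDiscreteValuationRing ↥(s18q_A0 P L₀) := s18q_A0_dvr P L₀ hP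
  have hζP : ζ ∈ P := s18q_mem_of_isIntegral_int P (hζ.isIntegral hp.pos)
  set ϖ : ↥(s18q_A0 P L₀) := ⟨⟨1 - ζ, L₀.sub_mem L₀.one_mem hζL₀⟩,
    (s18q_mem_A0 P L₀).mpr (P.toSubring.sub_mem P.one_mem hζP)⟩ with hϖdef
  have hϖ : Irreducible ϖ := hirr ϖ rfl
  set G := s37r_G P L₀ ϖ hϖ with hG
  haveI hdvr' : IsDiscreteValuationRing ↥G.A := hdvr
  haveI hchar₀ : CharP (IsLocalRing.ResidueField ↥(s18q_A0 P L₀)) p := s37rl_charP P hP L₀
  haveI hperf₀ : PerfectField (IsLocalRing.ResidueField ↥(s18q_A0 P L₀)) :=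
    s37rl_perfectField P hP L₀
  haveI : PerfectRing (IsLocalRing.ResidueField ↥(s18q_A0 P L₀)) p := PerfectField.toPerfectRing p
  have hT : s18g_HT (IsLocalRing.ResidueField ↥(s18q_A0 P L₀)) M := s18t_indep_j p M hpM _
  have hdeg : s18g_HDeg ↥L₀ M := fun n b hb hn =>
    s18g_exists_relation M (algebraMap ↥L₀ Qbar) hn b hb
  have hπ : Function.Surjective G.π := IsLocalRing.residue_surjective
  have he : 0 < p - 1 := Nat.sub_pos_of_lt hp.one_lt
  have hε0 : ε ≠ 0 := by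
    rintro rfl
    rw [ZeroMemClass.coe_zero, zero_mul] at hpε
    exact (Nat.cast_ne_zero.mpr hp.ne_zero) hpε
  have hpe : (p : ↥L₀) = ε * ((G.ϖ : G.A) : ↥L₀) ^ (p - 1) := by
    apply Subtype.ext
    have : (((p : ℕ) : ↥L₀) : Qbar) = (p : Qbar) := by simp
    rw [this, hpε]
    rfl
  have hperf : ∀ c : IsLocalRing.ResidueField ↥(s18q_A0 P L₀), ∃ d, d ^ p = c :=
    fun c => surjective_frobenius _ p c
  -- the primitive root in `L₀`
  have hζ₀ne : (⟨ζ, hζL₀⟩ : ↥L₀) ≠ 0 := by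
    intro h0
    exact hζ.ne_zero hp.ne_zero (congrArg Subtype.val h0)
  set ζ₀ : (↥L₀)ˣ := Units.mk0 ⟨ζ, hζL₀⟩ hζ₀ne with hζ₀def
  have hζ₀ : IsPrimitiveRoot (ζ₀ : ↥L₀) p :=
    IsPrimitiveRoot.of_map_of_injective (f := algebraMap ↥L₀ Qbar) (by exact hζ)
      (algebraMap ↥L₀ Qbar).injective
  -- (III-abstract)
  have hIII := s33i_III_good M p hpM hgood L₀ ζ₀ hζ₀ G hT hdeg hπ (p - 1) ε he hε hεinv hε0 hpe hperf
  have hkum := s33d_kum_of_gen M p L₀ hgen₀
  have hdepth := s33d_depthGE_one P M hP L₀ ϖ hϖ hM hT hdeg hπ (p - 1) ε he hε hεinv hε0 hpe hperf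
    z hz hred f₀ hgen₀
  have hτ : s33f_IsKum0 (s33i_datum G M hT hdeg hπ p (p - 1) ε hp he hε hεinv hε0 hpe hperf)
      (s33t_tau M p hpM L₀ ζ₀ hζ₀ f₀) := by
    have hgenτ := s33d_isKumGen_tau M p L₀ hpM ζ₀ hζ₀ hgen₀
    rw [hTz] at hgenτ
    exact s33d_kum0_of_zero M p L₀ hgenτ
  obtain ⟨c₀, h₀, hc₀, hh₀, e⟩ := hIII rfl f₀ hkum hdepth hτ
  exact hz0 (s33d_zero_of_kum0 M p L₀ hgen₀ hc₀ hh₀ e)

end Fermat.Agent.Lib.S33
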