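/-
P-AT-P (S33 programme, private branch), brick [KUM-p] (helper9): **`p`-th roots around the critical
radius** — the pure algebra that replaces `Lib/S18/CNewton` (`m` a unit) when `m = p` is the residue
characteristic and the base has absolute ramification index `e`, i.e. `p = π ^ e * ε` with `ε` a
unit. The critical level is `m_c = e/(p-1)` (for `π = ζ_p - 1`: `e = p - 1`, `m_c = 1`, `ε ≡ -1`).

Ring level (`B` any commutative ring):
* `s33k_add_pow`, `s33k_one_add_pow` : `(1 + x) ^ p = 1 + x ^ p + p x + p x² r`.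
* the TRICHOTOMY for `(1 + π ^ m a) ^ p`:
  - `s33k_sub_pow`    (`m (p-1) < e`): `= 1 + π ^ (pm) a ^ p + π ^ (pm+1) r`;
  - `s33k_crit_pow'`  (`m (p-1) = e`): `= 1 + π ^ (pm) (a ^ p + ε a) + π ^ (pm+1) r`
                       (`s33k_crit_pow`: the case `e = p - 1`, `m = 1`);
  - `s33k_level_pow`  (`m (p-1) > e`): `= 1 + π ^ (m+e) ε a + π ^ (m+e+1) r`.
* `s33k_exists_pow_sub_mem` : Newton beyond the critical radius (`m₀ (p-1) > e`): if `w₁ ≡ 1 mod π`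
  and `w₁ ^ p ≡ f mod π ^ (m₀+e)` then for every `n` there is `w ≡ w₁ mod π ^ m₀` with
  `w ^ p ≡ f mod π ^ n`.
* `s33k_exists_pow_sub_mem_of_AS` : the same at the critical level from an Artin–Schreier solution
  `w₀ ^ p + ε w₀ ≡ β mod π`, `f = 1 + π ^ (pm) β`.
Field level (`O` a valuation subring of a field, `π` a non-unit, as in `s18x_sub_mem`):
* `s33k_sub_mem` : uniqueness of approximate `p`-th roots with the fixed loss `e`:
  `a₁ ≡ a₂ mod π ^ m₀`, `a₂` a unit, `a₁ ^ p ≡ a₂ ^ p mod π ^ (n+e)` ⇒ `a₁ ≡ a₂ mod π ^ n`.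
-/
import Mathlib

set_option autoImplicit false

namespace Fermat.Agent.Lib.S33

section Ring

variable {B : Type*} [CommRing B]

/-- `(h + w) ^ p = w ^ p + h ^ p + p w ^ (p-1) h + p h² r`. -/
theorem s33k_add_pow (p : ℕ) (hp : p.Prime) (h w : B) :
    ∃ r : B, (h + w) ^ p = w ^ p + h ^ p + (p : B) * w ^ (p - 1) * h + (p : B) * h ^ 2 * r := by
  obtain ⟨q, rfl⟩ : ∃ q, p = q + 2 := ⟨p - 2, by have := hp.two_le; omega⟩
  -- the middle binomial coefficients are divisible by `p`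
  have hdiv : ∀ k ∈ Finset.range q, ∃ c : ℕ, (q + 2).choose (k + 2) = (q + 2) * c := by
    intro k hk
    have hk' := Finset.mem_range.mp hk
    exact hp.dvd_choose_self (by omega) (by omega)
  choose! c hc using hdiv
  refine ⟨∑ k ∈ Finset.range q, h ^ k * w ^ (q - k) * (c k : B), ?_⟩
  rw [add_pow, Finset.sum_range_succ, Finset.sum_range_succ', Finset.sum_range_succ']
  have e1 : ∑ k ∈ Finset.range q, h ^ (k + 1 + 1) * w ^ (q + 2 - (k + 1 + 1)) *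
      (((q + 2).choose (k + 1 + 1) : ℕ) : B) =
      ((q + 2 : ℕ) : B) * h ^ 2 * ∑ k ∈ Finset.range q, h ^ k * w ^ (q - k) * (c k : B) := by
    rw [Finset.mul_sum]
    refine Finset.sum_congr rfl fun k hk => ?_
    have hk' := Finset.mem_range.mp hk
    rw [show k + 1 + 1 = k + 2 from rfl, hc k hk, show q + 2 - (k + 2) = q - k by omega]
    push_cast
    ring
  rw [e1]
  simp only [Nat.choose_self, Nat.cast_one, mul_one, Nat.sub_self, pow_zero, zero_add, pow_one,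
    Nat.choose_one_right, Nat.choose_zero_right, Nat.sub_zero, one_mul]
  have e2 : q + 2 - 1 = q + 1 := by omega
  rw [e2]
  ring

/-- `(1 + x) ^ p = 1 + x ^ p + p x + p x² r`. -/
theorem s33k_one_add_pow (p : ℕ) (hp : p.Prime) (x : B) :
    ∃ r : B, (1 + x) ^ p = 1 + x ^ p + (p : B) * x + (p : B) * x ^ 2 * r := by
  obtain ⟨r, hr⟩ := s33k_add_pow p hp x (1 : B)
  refine ⟨r, ?_⟩
  rw [add_comm 1 x, hr]
  ring

variable (p : ℕ) (hp : p.Prime) (π ε : B) (e : ℕ) (hpπ : (p : B) = π ^ e * ε)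

include hp hpπ

/-- **Sub-critical level** `m (p-1) < e`: `(1 + π ^ m a) ^ p = 1 + π ^ (p m) a ^ p + π ^ (p m + 1) r`
(only the `p`-th power term survives: `F c_m = 0`). -/
theorem s33k_sub_pow (m : ℕ) (hm : m * (p - 1) < e) (a : B) :
    ∃ r : B, (1 + π ^ m * a) ^ p = 1 + π ^ (p * m) * a ^ p + π ^ (p * m + 1) * r := by
  obtain ⟨r, hr⟩ := s33k_one_add_pow p hp (π ^ m * a)
  have h2 := hp.two_le
  have hpm : p * m = m * (p - 1) + m := by
    obtain ⟨q, rfl⟩ : ∃ q, p = q + 1 := ⟨p - 1, by omega⟩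
    simp only [Nat.add_sub_cancel]; ring
  obtain ⟨d, hd⟩ : ∃ d, e + m = p * m + 1 + d := ⟨e + m - (p * m + 1), by omega⟩
  refine ⟨π ^ d * (ε * a) + π ^ (d + m) * (ε * a ^ 2 * r), ?_⟩
  have e1 : (π ^ m * a) ^ p = π ^ (p * m) * a ^ p := by
    rw [mul_pow, ← pow_mul, mul_comm m p]
  have e2 : π ^ e * π ^ m = π ^ (p * m + 1) * π ^ d := by
    rw [← pow_add, ← pow_add, hd]
  have e3 : π ^ e * (π ^ m) ^ 2 = π ^ (p * m + 1) * π ^ (d + m) := by
    rw [← pow_mul, ← pow_add, ← pow_add]; congr 1; omega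
  rw [hr, e1, hpπ]
  have t1 : π ^ e * ε * (π ^ m * a) = (π ^ e * π ^ m) * (ε * a) := by ring
  have t2 : π ^ e * ε * (π ^ m * a) ^ 2 * r = (π ^ e * (π ^ m) ^ 2) * (ε * a ^ 2 * r) := by ring
  rw [t1, t2, e2, e3]
  ring

/-- **Critical level** `m (p-1) = e`, `m ≥ 1`:
`(1 + π ^ m a) ^ p = 1 + π ^ (p m) (a ^ p + ε a) + π ^ (p m + 1) r`
(the Artin–Schreier leading term: `F c_m = -ε c_m`). -/
theorem s33k_crit_pow' (m : ℕ) (hm1 : 1 ≤ m) (hm : m * (p - 1) = e) (a : B) :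
    ∃ r : B, (1 + π ^ m * a) ^ p = 1 + π ^ (p * m) * (a ^ p + ε * a) + π ^ (p * m + 1) * r := by
  obtain ⟨r, hr⟩ := s33k_one_add_pow p hp (π ^ m * a)
  have h2 := hp.two_le
  have hpm : p * m = m * (p - 1) + m := by
    obtain ⟨q, rfl⟩ : ∃ q, p = q + 1 := ⟨p - 1, by omega⟩
    simp only [Nat.add_sub_cancel]; ring
  refine ⟨π ^ (m - 1) * (ε * a ^ 2 * r), ?_⟩
  have e1 : (π ^ m * a) ^ p = π ^ (p * m) * a ^ p := by
    rw [mul_pow, ← pow_mul, mul_comm m p]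
  have e2 : π ^ e * π ^ m = π ^ (p * m) := by
    rw [← pow_add]; congr 1; omega
  have e3 : π ^ e * (π ^ m) ^ 2 = π ^ (p * m + 1) * π ^ (m - 1) := by
    rw [← pow_mul, ← pow_add, ← pow_add]; congr 1; omega
  rw [hr, e1, hpπ]
  have t1 : π ^ e * ε * (π ^ m * a) = (π ^ e * π ^ m) * (ε * a) := by ring
  have t2 : π ^ e * ε * (π ^ m * a) ^ 2 * r = (π ^ e * (π ^ m) ^ 2) * (ε * a ^ 2 * r) := by ring
  rw [t1, t2, e2, e3]
  ring

/-- **Beyond the critical level** `m (p-1) > e`: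
`(1 + π ^ m a) ^ p = 1 + π ^ (m+e) ε a + π ^ (m+e+1) r` (only the LINEAR term survives). -/
theorem s33k_level_pow (m : ℕ) (hm : e < m * (p - 1)) (a : B) :
    ∃ r : B, (1 + π ^ m * a) ^ p = 1 + π ^ (m + e) * (ε * a) + π ^ (m + e + 1) * r := by
  obtain ⟨r, hr⟩ := s33k_one_add_pow p hp (π ^ m * a)
  have h2 := hp.two_le
  have hm1 : 1 ≤ m := by
    rcases Nat.eq_zero_or_pos m with h | h
    · subst h; simp at hm
    · exact h
  have hpm : p * m = m * (p - 1) + m := by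
    obtain ⟨q, rfl⟩ : ∃ q, p = q + 1 := ⟨p - 1, by omega⟩
    simp only [Nat.add_sub_cancel]; ring
  obtain ⟨d, hd⟩ : ∃ d, p * m = m + e + 1 + d := ⟨p * m - (m + e + 1), by omega⟩
  refine ⟨π ^ d * a ^ p + π ^ (m - 1) * (ε * a ^ 2 * r), ?_⟩
  have e1 : (π ^ m * a) ^ p = π ^ (m + e + 1) * (π ^ d * a ^ p) := by
    rw [mul_pow, ← pow_mul, mul_comm m p, hd, pow_add]; ring
  have e2 : π ^ e * π ^ m = π ^ (m + e) := by
    rw [← pow_add]; congr 1; omega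
  have e3 : π ^ e * (π ^ m) ^ 2 = π ^ (m + e + 1) * π ^ (m - 1) := by
    rw [← pow_mul, ← pow_add, ← pow_add]; congr 1; omega
  rw [hr, e1, hpπ]
  have t1 : π ^ e * ε * (π ^ m * a) = (π ^ e * π ^ m) * (ε * a) := by ring
  have t2 : π ^ e * ε * (π ^ m * a) ^ 2 * r = (π ^ e * (π ^ m) ^ 2) * (ε * a ^ 2 * r) := by ring
  rw [t1, t2, e2, e3]
  ring

/-- One Newton step beyond the critical radius (`m₀ (p-1) > e`, `n ≥ m₀ + e`). -/
theorem s33k_newton_step (m₀ : ℕ) (hm₀ : e < m₀ * (p - 1))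
    (εinv : B) (hε : ε * εinv = 1) (f w : B)
    (hw : w - 1 ∈ Ideal.span {π}) (n : ℕ) (hn : m₀ + e ≤ n)
    (h : w ^ p - f ∈ Ideal.span {π ^ n}) :
    ∃ w' : B, w' - w ∈ Ideal.span {π ^ (n - e)} ∧ w' ^ p - f ∈ Ideal.span {π ^ (n + 1)} := by
  have h2 := hp.two_le
  obtain ⟨y, hy⟩ := Ideal.mem_span_singleton'.mp h
  obtain ⟨z, hz⟩ := Ideal.mem_span_singleton'.mp hw
  -- `w ^ p ≡ 1 mod π`
  have hwp : ∃ t : B, w ^ p - 1 = π * t := by
    have hd := sub_dvd_pow_sub_pow w 1 p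
    rw [one_pow] at hd
    obtain ⟨t, ht⟩ := hd
    exact ⟨z * t, by rw [ht, ← hz]; ring⟩
  obtain ⟨t, ht⟩ := hwp
  set k : ℕ := n - e with hk
  have hkm : m₀ ≤ k := by omega
  have hk2 : e < k * (p - 1) := lt_of_lt_of_le hm₀ (Nat.mul_le_mul_right _ hkm)
  set c : B := -(εinv * y) with hc
  obtain ⟨r, hr⟩ := s33k_level_pow p hp π ε e hpπ k hk2 c
  refine ⟨w * (1 + π ^ k * c), ?_, ?_⟩
  · refine Ideal.mem_span_singleton'.mpr ⟨w * c, ?_⟩
    ring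
  · have ekp : k + e = n := by omega
    rw [ekp] at hr
    refine Ideal.mem_span_singleton'.mpr ⟨w ^ p * r - y * t, ?_⟩
    rw [mul_pow, hr]
    have e2 : ε * c = -y := by
      rw [hc, mul_neg, ← mul_assoc, hε, one_mul]
    have e3 : w ^ p * (1 + π ^ n * (ε * c) + π ^ (n + 1) * r) - f =
        (w ^ p - f) - π ^ n * y * w ^ p + π ^ (n + 1) * (w ^ p * r) := by
      rw [e2]; ring
    rw [e3, ← hy]
    have e4 : w ^ p = 1 + π * t := by rw [← ht]; ring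
    rw [e4, pow_succ]
    ring

/-- **Newton beyond the critical radius**: an approximate `p`-th root modulo `π ^ (m₀+e)` which is
`≡ 1 mod π` refines to every order, without changing it modulo `π ^ m₀` (`m₀ (p-1) > e`). -/
theorem s33k_exists_pow_sub_mem (m₀ : ℕ) (hm₀ : e < m₀ * (p - 1))
    (εinv : B) (hε : ε * εinv = 1) (f w₁ : B)
    (hw₁ : w₁ - 1 ∈ Ideal.span {π}) (h : w₁ ^ p - f ∈ Ideal.span {π ^ (m₀ + e)}) (n : ℕ) :
    ∃ w : B, w - w₁ ∈ Ideal.span {π ^ m₀} ∧ w - 1 ∈ Ideal.span {π} ∧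
      w ^ p - f ∈ Ideal.span {π ^ n} := by
  have h2 := hp.two_le
  have hm1 : 1 ≤ m₀ := by
    rcases Nat.eq_zero_or_pos m₀ with h | h
    · subst h; simp at hm₀
    · exact h
  -- induction on `j`, `n = m₀ + e + j`
  have key : ∀ j : ℕ, ∃ w : B, w - w₁ ∈ Ideal.span {π ^ m₀} ∧ w - 1 ∈ Ideal.span {π} ∧
      w ^ p - f ∈ Ideal.span {π ^ (m₀ + e + j)} := by
    intro j
    induction j with
    | zero => exact ⟨w₁, by simp, hw₁, h⟩
    | succ j ih =>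
      obtain ⟨w, hw1, hw2, hw3⟩ := ih
      obtain ⟨w', hw'1, hw'2⟩ :=
        s33k_newton_step p hp π ε e hpπ m₀ hm₀ εinv hε f w hw2 (m₀ + e + j) (by omega) hw3
      have hle : Ideal.span {π ^ (m₀ + e + j - e)} ≤ Ideal.span {π ^ m₀} := by
        rw [Ideal.span_singleton_le_span_singleton]
        exact pow_dvd_pow π (by omega)
      have hle1 : Ideal.span {π ^ m₀} ≤ Ideal.span {π} := by
        rw [Ideal.span_singleton_le_span_singleton]
        exact dvd_pow_self π (by omega)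
      refine ⟨w', ?_, ?_, hw'2⟩
      · have : w' - w₁ = (w' - w) + (w - w₁) := by ring
        rw [this]
        exact Ideal.add_mem _ (hle hw'1) hw1
      · have : w' - 1 = (w' - w) + (w - 1) := by ring
        rw [this]
        exact Ideal.add_mem _ (hle1 (hle hw'1)) hw2
  obtain ⟨w, hw1, hw2, hw3⟩ := key n
  refine ⟨w, hw1, hw2, ?_⟩
  have hle : Ideal.span {π ^ (m₀ + e + n)} ≤ Ideal.span {π ^ n} := by
    rw [Ideal.span_singleton_le_span_singleton]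
    exact pow_dvd_pow π (by omega)
  exact hle hw3

/-- **From an Artin–Schreier solution** (critical level `m (p-1) = e`, `m ≥ 1`): if
`f = 1 + π ^ (p m) β` and `w₀ ^ p + ε w₀ ≡ β mod π`, then `f` has approximate `p`-th roots
`w ≡ 1 + π ^ m w₀ mod π ^ (m+1)` to every order. -/
theorem s33k_exists_pow_sub_mem_of_AS (m : ℕ) (hm1 : 1 ≤ m) (hm : m * (p - 1) = e)
    (εinv : B) (hε : ε * εinv = 1) (β w₀ : B)
    (hAS : w₀ ^ p + ε * w₀ - β ∈ Ideal.span {π}) (n : ℕ) :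
    ∃ w : B, w - (1 + π ^ m * w₀) ∈ Ideal.span {π ^ (m + 1)} ∧ w - 1 ∈ Ideal.span {π} ∧
      w ^ p - (1 + π ^ (p * m) * β) ∈ Ideal.span {π ^ n} := by
  have h2 := hp.two_le
  obtain ⟨r, hr⟩ := s33k_crit_pow' p hp π ε e hpπ m hm1 hm w₀
  obtain ⟨s, hs⟩ := Ideal.mem_span_singleton'.mp hAS
  have hpm : p * m = m * (p - 1) + m := by
    obtain ⟨q, rfl⟩ : ∃ q, p = q + 1 := ⟨p - 1, by omega⟩
    simp only [Nat.add_sub_cancel]; ring
  have hcrit : e < (m + 1) * (p - 1) := by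
    rw [add_mul, one_mul, hm]; omega
  have hexp : m + 1 + e = p * m + 1 := by omega
  refine s33k_exists_pow_sub_mem p hp π ε e hpπ (m + 1) hcrit εinv hε (1 + π ^ (p * m) * β)
    (1 + π ^ m * w₀) ?_ ?_ n
  · refine Ideal.mem_span_singleton'.mpr ⟨π ^ (m - 1) * w₀, ?_⟩
    have : π ^ m = π ^ (m - 1) * π := by rw [← pow_succ]; congr 1; omega
    rw [this]; ring
  · rw [hexp]
    refine Ideal.mem_span_singleton'.mpr ⟨s + r, ?_⟩
    rw [hr]
    have : w₀ ^ p + ε * w₀ = β + s * π := by rw [hs]; ring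
    rw [this, pow_succ]
    ring

omit hpπ in
/-- The classical case `e = p - 1`, `m = 1` (`π = ζ_p - 1`):
`(1 + π a) ^ p = 1 + π ^ p (a ^ p + ε a) + π ^ (p+1) r`. -/
theorem s33k_crit_pow (hpπ' : (p : B) = π ^ (p - 1) * ε) (a : B) :
    ∃ r : B, (1 + π * a) ^ p = 1 + π ^ p * (a ^ p + ε * a) + π ^ (p + 1) * r := by
  obtain ⟨r, hr⟩ := s33k_crit_pow' p hp π ε (p - 1) hpπ' 1 le_rfl (one_mul _) a
  refine ⟨r, ?_⟩
  rw [pow_one, mul_one] at hr
  exact hr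

end Ring

section Field

variable {𝓕 : Type*} [Field 𝓕]

/-- In a valuation subring, `u + π s` is a unit when `u` is a unit and `π` is not. -/
theorem s33k_unit_add (O : ValuationSubring 𝓕) (π : 𝓕) (hπO : π ∈ O)
    (hπ : ¬ ∃ y ∈ O, (1 : 𝓕) = π * y) (u uinv s : 𝓕) (_hu : u ∈ O) (huinv : uinv ∈ O)
    (huu : u * uinv = 1) (hs : s ∈ O) : ∃ v ∈ O, (u + π * s) * v = 1 := by
  -- `π` lies in the Jacobson radical of the local ring `O`
  have hπJ : (⟨π, hπO⟩ : O) ∈ (⊥ : Ideal O).jacobson := by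
    rw [IsLocalRing.jacobson_eq_maximalIdeal _ bot_ne_top, IsLocalRing.mem_maximalIdeal,
      mem_nonunits_iff]
    intro hunit
    obtain ⟨v, hv⟩ := hunit.exists_right_inv
    exact hπ ⟨v, v.2, by have := congrArg Subtype.val hv; simpa using this.symm⟩
  have hmem : (⟨π, hπO⟩ : O) * (⟨uinv, huinv⟩ * ⟨s, hs⟩) ∈ (⊥ : Ideal O).jacobson :=
    Ideal.mul_mem_right _ _ hπJ
  have h1 := (Ideal.mem_jacobson_bot.mp hmem) 1
  obtain ⟨w, hw⟩ := h1.exists_right_inv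
  refine ⟨uinv * (w : 𝓕), mul_mem huinv w.2, ?_⟩
  have hw' : (π * (uinv * s) * 1 + 1) * (w : 𝓕) = 1 := by
    have := congrArg Subtype.val hw
    simpa using this
  have : (u + π * s) * (uinv * (w : 𝓕)) = (u * uinv) * ((π * (uinv * s) * 1 + 1) * (w : 𝓕)) +
      (1 - u * uinv) * (π * s * uinv * (w : 𝓕)) := by ring
  rw [this, hw', huu]
  ring

/-- **Uniqueness of approximate `p`-th roots with loss `e`** (compare `s18x_sub_mem`, where the
exponent is a unit and there is no loss): in a valuation subring `O` with a non-unit `π ≠ 0` such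
that `p = π ^ e ε`, `ε ∈ O^×`, and `m₀ (p-1) > e`: if `a₂` is a unit of `O`, `a₁ ≡ a₂ mod π ^ m₀`
and `a₁ ^ p ≡ a₂ ^ p mod π ^ (n+e)` then `a₁ ≡ a₂ mod π ^ n`. -/
theorem s33k_sub_mem (O : ValuationSubring 𝓕) (p : ℕ) (hp : p.Prime) (π ε εinv : 𝓕) (hπO : π ∈ O)
    (hπ : ¬ ∃ y ∈ O, (1 : 𝓕) = π * y) (hπ0 : π ≠ 0) (hεO : ε ∈ O) (hεinv : εinv ∈ O)
    (hεε : ε * εinv = 1) (e m₀ : ℕ) (hm₀ : e < m₀ * (p - 1)) (hpπ : (p : 𝓕) = π ^ e * ε)
    {a₁ a₂ b₂ : 𝓕} (_ha₂ : a₂ ∈ O) (hb₂ : b₂ ∈ O) (hab : a₂ * b₂ = 1)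
    (h12 : ∃ y ∈ O, a₁ - a₂ = π ^ m₀ * y)
    (n : ℕ) (h : ∃ y ∈ O, a₁ ^ p - a₂ ^ p = π ^ (n + e) * y) :
    ∃ y ∈ O, a₁ - a₂ = π ^ n * y := by
  have h2 := hp.two_le
  have hm1 : 1 ≤ m₀ := by
    rcases Nat.eq_zero_or_pos m₀ with h | h
    · subst h; simp at hm₀
    · exact h
  obtain ⟨d, hd, e12⟩ := h12
  obtain ⟨y, hy, e'⟩ := h
  -- `x = (a₁ - a₂) / a₂ ∈ π ^ m₀ O`
  set x : 𝓕 := π ^ m₀ * (d * b₂) with hx
  have hxO : x ∈ O := mul_mem (pow_mem hπO m₀) (mul_mem hd hb₂)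
  have ha₁ : a₁ = a₂ * (1 + x) := by
    have : a₁ = a₂ + π ^ m₀ * d := by rw [← e12]; ring
    rw [this, hx]
    have : a₂ * (1 + π ^ m₀ * (d * b₂)) = a₂ + π ^ m₀ * d * (a₂ * b₂) := by ring
    rw [this, hab, mul_one]
  -- binomial expansion inside `O`
  obtain ⟨r, hr⟩ := s33k_one_add_pow (B := O) p hp ⟨x, hxO⟩
  have hr' : (1 + x) ^ p = 1 + x ^ p + (p : 𝓕) * x + (p : 𝓕) * x ^ 2 * (r : 𝓕) := by
    have := congrArg Subtype.val hr
    simpa using this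
  -- `(1 + x) ^ p - 1 = x π ^ e U`, `U = ε + π s`
  obtain ⟨k, hk⟩ : ∃ k, m₀ * (p - 1) = e + 1 + k := ⟨m₀ * (p - 1) - (e + 1), by omega⟩
  set s : 𝓕 := π ^ k * (d * b₂) ^ (p - 1) + ε * π ^ (m₀ - 1) * (d * b₂) * (r : 𝓕) with hs
  have hsO : s ∈ O := add_mem (mul_mem (pow_mem hπO _) (pow_mem (mul_mem hd hb₂) _))
    (mul_mem (mul_mem (mul_mem hεO (pow_mem hπO _)) (mul_mem hd hb₂)) r.2)
  have hU : (1 + x) ^ p - 1 = x * π ^ e * (ε + π * s) := by
    rw [hr', hpπ]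
    have e1 : x ^ p = x * x ^ (p - 1) := by
      rw [← pow_succ']; congr 1; omega
    have e2 : x ^ (p - 1) = π ^ e * (π * (π ^ k * (d * b₂) ^ (p - 1))) := by
      rw [hx, mul_pow, ← pow_mul, hk]
      have : π ^ (e + 1 + k) = π ^ e * (π * π ^ k) := by
        rw [pow_add, pow_add, pow_one]; ring
      rw [this]; ring
    rw [e1, e2, hs]
    have e3 : π ^ m₀ = π * π ^ (m₀ - 1) := by
      rw [← pow_succ']; congr 1; omega
    have : x ^ 2 = x * (π * (π ^ (m₀ - 1) * (d * b₂))) := by rw [hx, e3]; ring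
    rw [this]
    ring
  obtain ⟨v, hv, eUv⟩ := s33k_unit_add O π hπO hπ ε εinv s hεO hεinv hεε hsO
  have e3 : a₁ ^ p - a₂ ^ p = a₂ ^ p * ((1 + x) ^ p - 1) := by rw [ha₁, mul_pow]; ring
  have e4 : π ^ (n + e) = π ^ n * π ^ e := pow_add π n e
  have hπp : π ^ e ≠ 0 := pow_ne_zero _ hπ0
  have e5 : a₂ ^ p * x * (ε + π * s) = π ^ n * y := by
    have h6 : π ^ e * (a₂ ^ p * x * (ε + π * s)) = π ^ e * (π ^ n * y) := by
      have : π ^ e * (a₂ ^ p * x * (ε + π * s)) = a₂ ^ p * (x * π ^ e * (ε + π * s)) := by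
        ring
      rw [this, ← hU, ← e3, e', e4]; ring
    exact mul_left_cancel₀ hπp h6
  refine ⟨y * v * b₂ ^ (p - 1), mul_mem (mul_mem hy hv) (pow_mem hb₂ _), ?_⟩
  have e6 : a₁ - a₂ = a₂ * x := by rw [ha₁]; ring
  have e7 : a₂ ^ p * b₂ ^ (p - 1) = a₂ := by
    have : a₂ ^ p = a₂ * a₂ ^ (p - 1) := by
      rw [← pow_succ']; congr 1; omega
    rw [this, mul_assoc, ← mul_pow, hab, one_pow, mul_one]
  calc a₁ - a₂ = a₂ * x := e6
    _ = (a₂ ^ p * b₂ ^ (p - 1)) * x * ((ε + π * s) * v) := by rw [e7, eUv, mul_one]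
    _ = (a₂ ^ p * x * (ε + π * s)) * (v * b₂ ^ (p - 1)) := by ring
    _ = π ^ n * (y * v * b₂ ^ (p - 1)) := by rw [e5]; ring

end Field

end Fermat.Agent.Lib.S33
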