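/-
P-AT-P (S33 programme, private branch), brick [KUM-p] part 2 = **[LT-SEP]** (helper9): **Theorem X₀
of S18 for `m = p`, beyond the critical radius** — "a `p`-torsion class whose local equations are
`≡ 1 mod π ^ m₀` on both charts, `m₀ (p-1) > e`, is zero" (the separatedness step of the
leading-term route [LT]: 'level infinite ⇒ x = 0', case (iii) of the trichotomy, and the injectivity
of the leading-term maps), in the chart/lattice language of `Lib/S18`.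

Base: `A₀ ⊆ L₀` a (noetherian) valuation ring with uniformiser `ϖ`, `p = ϖ ^ e ε`, `ε ∈ A₀^×`
(absolute ramification index `e`; e.g. `L₀ ⊇ ℚ(ζ_p)` unramified over it, `ϖ = ζ_p - 1`, `e = p - 1`,
`m₀ = 2`); `O ⊆ 𝓕` the Gauss valuation ring of the function field.

* `s33k_pure_pow`        : purity for powers of `π` from purity for `π`.
* `s33k_exists_inv_root` : in a ring `B` with `p = π ^ e ε`: `b₀ ≡ 1 mod π ^ (m₀+e)` has
                           approximate inverse `p`-th roots `w ≡ 1 mod π ^ m₀` to every order.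
* `s33k_approx_of_one`   : (compare `s18k_approx_of_one`) a lattice `I` containing `g ≡ 1 mod π ^ m₀`,
                           `I ^ p ⊆ f B`, `f ≡ 1 mod π ^ (m₀+e)`: the `p`-th root of `f` is
                           approximable in `I` to every order by elements `≡ 1 mod π ^ m₀`.
* `s33k_exists_section`  : (compare `s18x_exists_section`) chart-wise approximations + Čech
                           finiteness ⇒ a nonzero global section of `L(-E)`.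
* `s33k_zero`            : (compare `s18x_zero`) **Theorem X₀ for `p`-th roots**: if `p ∣ div f`,
                           `f ≡ 1 mod π ^ (m₀+e)` and `E = div(f)/p` has local equations
                           `≡ 1 mod π ^ m₀` on both charts, then `E` is principal.
-/
import Fermat.Agent.Lib.S33.KumP
import Fermat.Agent.Lib.S18.XZero

set_option autoImplicit false

noncomputable section

namespace Fermat.Agent.Lib.S33

open AlgebraicCurve Fermat.Agent.Lib.FF Fermat.Agent.Lib.S18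

section Abstract

variable {𝓕 : Type*} [Field 𝓕]

/-- Purity for `π ^ k` from purity for `π`. -/
theorem s33k_pure_pow (O B : Subring 𝓕) (π : 𝓕) (hπ0 : π ≠ 0) (hπO : π ∈ O)
    (hpureB : ∀ b ∈ B, (∃ x ∈ O, b = π * x) → ∃ b' ∈ B, b = π * b') (k : ℕ) :
    ∀ b ∈ B, (∃ x ∈ O, b = π ^ k * x) → ∃ b' ∈ B, b = π ^ k * b' := by
  induction k with
  | zero =>
    intro b hb _
    exact ⟨b, hb, by rw [pow_zero, one_mul]⟩
  | succ k ih =>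
    rintro b hb ⟨x, hx, e⟩
    obtain ⟨b₁, hb₁, e₁⟩ := hpureB b hb ⟨π ^ k * x, O.mul_mem (O.pow_mem hπO k) hx, by
      rw [e, pow_succ]; ring⟩
    have e₂ : b₁ = π ^ k * x := by
      apply mul_left_cancel₀ hπ0
      rw [← e₁, e, pow_succ]; ring
    obtain ⟨b', hb', e'⟩ := ih b₁ hb₁ ⟨x, hx, e₂⟩
    exact ⟨b', hb', by rw [e₁, e', pow_succ]; ring⟩

/-- Approximate inverse `p`-th roots beyond the critical radius (compare `s18k_exists_inv_root`). -/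
theorem s33k_exists_inv_root {B : Type*} [CommRing B] (p : ℕ) (hp : p.Prime) (π ε εinv : B)
    (e m₀ : ℕ) (hm₀ : e < m₀ * (p - 1))
    (hpπ : (p : B) = π ^ e * ε) (hε : ε * εinv = 1)
    (b₀ : B) (hb₀ : b₀ - 1 ∈ Ideal.span {π ^ (m₀ + e)}) (n : ℕ) :
    ∃ w : B, w - 1 ∈ Ideal.span {π ^ m₀} ∧ w ^ p * b₀ - 1 ∈ Ideal.span {π ^ n} := by
  have hm1 : 1 ≤ m₀ := by
    rcases Nat.eq_zero_or_pos m₀ with h | h
    · subst h; simp at hm₀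
    · exact h
  have hstart : (1 : B) ^ p - b₀ ∈ Ideal.span {π ^ (m₀ + e)} := by
    rw [one_pow]
    have : (1 : B) - b₀ = -(b₀ - 1) := by ring
    rw [this]; exact (Ideal.neg_mem_iff _).mpr hb₀
  obtain ⟨w₀, hw₀1, -, hw₀⟩ :=
    s33k_exists_pow_sub_mem p hp π ε e hpπ m₀ hm₀ εinv hε b₀ 1 (by simp) hstart n
  set x : B := 1 - w₀ with hx
  have hxπ : x ∈ Ideal.span {π ^ m₀} := by
    have : x = -(w₀ - 1) := by rw [hx]; ring
    rw [this]; exact (Ideal.neg_mem_iff _).mpr hw₀1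
  set w : B := ∑ i ∈ Finset.range (n + 1), x ^ i with hw
  have hxn : x ^ (n + 1) ∈ Ideal.span {π ^ n} := by
    have h1 : x ^ (n + 1) ∈ Ideal.span {(π ^ m₀) ^ (n + 1)} := by
      rw [← Ideal.span_singleton_pow]
      exact Ideal.pow_mem_pow hxπ _
    have hle : Ideal.span {(π ^ m₀) ^ (n + 1)} ≤ Ideal.span {π ^ n} := by
      rw [Ideal.span_singleton_le_span_singleton, ← pow_mul]
      refine pow_dvd_pow π ?_
      calc n ≤ 1 * (n + 1) := by omega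
        _ ≤ m₀ * (n + 1) := Nat.mul_le_mul_right _ hm1
    exact hle h1
  have hww₀ : w * w₀ = 1 - x ^ (n + 1) := by
    have h := geom_sum_mul x (n + 1)
    have : w₀ = -(x - 1) := by rw [hx]; ring
    rw [this, mul_neg, hw, h]; ring
  refine ⟨w, ?_, ?_⟩
  · rw [hw, Finset.sum_range_succ', pow_zero, add_sub_cancel_right]
    refine Ideal.sum_mem _ fun i _ => ?_
    rw [pow_succ x i]
    exact Ideal.mul_mem_left _ _ hxπ
  · have h1 : w ^ p * b₀ - 1 = w ^ p * (b₀ - w₀ ^ p) + ((w * w₀) ^ p - 1) := by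
      rw [mul_pow]; ring
    rw [h1]
    refine Ideal.add_mem _ (Ideal.mul_mem_left _ _ ?_) ?_
    · have : b₀ - w₀ ^ p = -(w₀ ^ p - b₀) := by ring
      rw [this]; exact (Ideal.neg_mem_iff _).mpr hw₀
    · have hd := sub_dvd_pow_sub_pow (w * w₀) 1 p
      rw [one_pow] at hd
      refine Ideal.mem_of_dvd _ hd ?_
      have : w * w₀ - 1 = -(x ^ (n + 1)) := by rw [hww₀]; ring
      rw [this]; exact (Ideal.neg_mem_iff _).mpr hxn

/-- **[KC] for `m = p` beyond the critical radius** (compare `s18k_approx_of_one`). -/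
theorem s33k_approx_of_one (O B : Subring 𝓕) (hBO : B ≤ O) (p : ℕ) (hp : p.Prime)
    (π ε εinv f : 𝓕) (hπ0 : π ≠ 0) (e m₀ : ℕ) (hm₀ : e < m₀ * (p - 1))
    (I : AddSubgroup 𝓕)
    (hπB : π ∈ B) (hεB : ε ∈ B) (hεinvB : εinv ∈ B) (hε : ε * εinv = 1)
    (hpπ : (p : 𝓕) = π ^ e * ε)
    (hIO : ∀ a ∈ I, a ∈ O)
    (hBI : ∀ b ∈ B, ∀ a ∈ I, b * a ∈ I)
    (hpureB : ∀ b ∈ B, (∃ x ∈ O, b = π * x) → ∃ b' ∈ B, b = π * b')
    (hg : ∃ g ∈ I, ∃ y ∈ O, g - 1 = π ^ m₀ * y)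
    (hpowI : ∀ a ∈ I, ∃ b ∈ B, a ^ p = f * b)
    (hf : f ∈ O) (hf1 : ∃ y ∈ O, f - 1 = π ^ (m₀ + e) * y) :
    ∀ n : ℕ, ∃ a ∈ I, (∃ y ∈ O, a - 1 = π ^ m₀ * y) ∧ ∃ y ∈ O, a ^ p - f = π ^ n * y := by
  classical
  have h2 := hp.two_le
  have hπO : π ∈ O := hBO hπB
  obtain ⟨yf, hyf, ef⟩ := hf1
  obtain ⟨g, hgI, yg, hyg, eg⟩ := hg
  have hgO : g ∈ O := hIO g hgI
  obtain ⟨b₀, hb₀, eb₀⟩ := hpowI g hgI
  have hb₀O : b₀ ∈ O := hBO hb₀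
  -- `g ^ p ≡ 1 mod π ^ (m₀+e)` by the level formula in `O`
  have hgm : ∃ y ∈ O, g ^ p - 1 = π ^ (m₀ + e) * y := by
    have hpπO : ((p : ℕ) : O) = (⟨π, hπO⟩ : O) ^ e * ⟨ε, hBO hεB⟩ := by
      apply Subtype.ext
      simpa using hpπ
    obtain ⟨r, hr⟩ := s33k_level_pow (B := O) p hp ⟨π, hπO⟩ ⟨ε, hBO hεB⟩ e hpπO m₀ hm₀ ⟨yg, hyg⟩
    have hr' : (1 + π ^ m₀ * yg) ^ p =
        1 + π ^ (m₀ + e) * (ε * yg) + π ^ (m₀ + e + 1) * (r : 𝓕) := by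
      have := congrArg Subtype.val hr
      simpa using this
    refine ⟨ε * yg + π * (r : 𝓕), O.add_mem (O.mul_mem (hBO hεB) hyg) (O.mul_mem hπO r.2), ?_⟩
    have : g = 1 + π ^ m₀ * yg := by rw [← eg]; ring
    rw [this, hr', pow_succ]; ring
  obtain ⟨ygm, hygm, egm⟩ := hgm
  have hb₀1 : ∃ b' ∈ B, b₀ - 1 = π ^ (m₀ + e) * b' := by
    refine s33k_pure_pow O B π hπ0 hπO hpureB (m₀ + e) (b₀ - 1) (B.sub_mem hb₀ B.one_mem)
      ⟨ygm - yf * b₀, O.sub_mem hygm (O.mul_mem hyf hb₀O), ?_⟩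
    have : b₀ - 1 = (g ^ p - 1) - (f - 1) * b₀ := by rw [eb₀]; ring
    rw [this, egm, ef]; ring
  obtain ⟨b', hb', eb'⟩ := hb₀1
  have hpπB : ((p : ℕ) : B) = (⟨π, hπB⟩ : B) ^ e * ⟨ε, hεB⟩ := by
    apply Subtype.ext
    simpa using hpπ
  have hεB' : (⟨ε, hεB⟩ : B) * ⟨εinv, hεinvB⟩ = 1 := by
    apply Subtype.ext
    simpa using hε
  intro n
  obtain ⟨w, hw1, hw⟩ := s33k_exists_inv_root (B := B) p hp ⟨π, hπB⟩ ⟨ε, hεB⟩ ⟨εinv, hεinvB⟩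
    e m₀ hm₀ hpπB hεB' ⟨b₀, hb₀⟩
    (Ideal.mem_span_singleton'.mpr ⟨⟨b', hb'⟩, by
      apply Subtype.ext
      show b' * π ^ (m₀ + e) = b₀ - 1
      rw [eb']; ring⟩) n
  obtain ⟨c₁, hc₁⟩ := Ideal.mem_span_singleton'.mp hw1
  obtain ⟨c, hc⟩ := Ideal.mem_span_singleton'.mp hw
  have e1 : (c₁ : 𝓕) * π ^ m₀ = (w : 𝓕) - 1 := by
    have := congrArg Subtype.val hc₁
    simpa using this
  have e2 : (c : 𝓕) * π ^ n = (w : 𝓕) ^ p * b₀ - 1 := by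
    have := congrArg Subtype.val hc
    simpa using this
  refine ⟨(w : 𝓕) * g, hBI _ w.2 _ hgI, ?_, ?_⟩
  · refine ⟨(w : 𝓕) * yg + c₁, O.add_mem (O.mul_mem (hBO w.2) hyg) (hBO c₁.2), ?_⟩
    have : (w : 𝓕) * g - 1 = (w : 𝓕) * (g - 1) + ((w : 𝓕) - 1) := by ring
    rw [this, eg, ← e1]; ring
  · refine ⟨f * c, O.mul_mem hf (hBO c.2), ?_⟩
    have : ((w : 𝓕) * g) ^ p - f = f * ((w : 𝓕) ^ p * b₀ - 1) := by
      rw [mul_pow, eb₀]; ring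
    rw [this, ← e2]; ring

end Abstract

section Charts

variable {L₀ 𝓕 : Type*} [Field L₀] [Field 𝓕] [Algebra L₀ 𝓕]

/-- **Abstract assembly for `p`-th roots** (compare `s18x_exists_section`): chart-wise approximate
`p`-th roots `≡ 1 mod π ^ m₀` to every order, plus Čech finiteness, give a nonzero global section. -/
theorem s33k_exists_section (A₀ : ValuationSubring L₀) [IsNoetherianRing A₀]
    (O : ValuationSubring 𝓕) (hAO : ∀ a : A₀, algebraMap L₀ 𝓕 (a : L₀) ∈ O)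
    (ϖ : A₀) (hϖ0 : (ϖ : L₀) ≠ 0)
    (hϖ : ¬ ∃ y ∈ O, (1 : 𝓕) = algebraMap L₀ 𝓕 (ϖ : L₀) * y)
    (p : ℕ) (hp : p.Prime) (ε εinv : A₀) (hε : ε * εinv = 1)
    (e m₀ : ℕ) (hm₀ : e < m₀ * (p - 1))
    (hpϖ : (p : L₀) = (ϖ : L₀) ^ e * (ε : L₀))
    (t f : 𝓕) (E : Place L₀ 𝓕 → ℤ)
    (h1 : ∀ n : ℕ, ∃ a ∈ s18_latSet O (s18_chart1 t) E,
      (∃ y ∈ O, a - 1 = algebraMap L₀ 𝓕 (ϖ : L₀) ^ m₀ * y) ∧
        ∃ y ∈ O, a ^ p - f = algebraMap L₀ 𝓕 (ϖ : L₀) ^ n * y)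
    (h2 : ∀ n : ℕ, ∃ a ∈ s18_latSet O (s18_chart2 t) E,
      (∃ y ∈ O, a - 1 = algebraMap L₀ 𝓕 (ϖ : L₀) ^ m₀ * y) ∧
        ∃ y ∈ O, a ^ p - f = algebraMap L₀ 𝓕 (ϖ : L₀) ^ n * y)
    (hH : ∃ G : Submodule A₀ 𝓕, G.FG ∧
      s18_lat A₀ O hAO (s18_chart12 t) E ≤
        G ⊔ (s18_lat A₀ O hAO (s18_chart1 t) E ⊔ s18_lat A₀ O hAO (s18_chart2 t) E)) :
    ∃ x : 𝓕, x ≠ 0 ∧ x ∈ O ∧ ∀ Q : Place L₀ 𝓕, E Q ≤ Q.ord x := by
  have hp2 := hp.two_le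
  have hm1 : 1 ≤ m₀ := by
    rcases Nat.eq_zero_or_pos m₀ with h | h
    · subst h; simp at hm₀
    · exact h
  set π : 𝓕 := algebraMap L₀ 𝓕 (ϖ : L₀) with hπdef
  have hπO : π ∈ O := hAO ϖ
  have hπ0 : π ≠ 0 := by
    rw [hπdef]; simpa using hϖ0
  have hεO : algebraMap L₀ 𝓕 (ε : L₀) ∈ O := hAO ε
  have hεinvO : algebraMap L₀ 𝓕 (εinv : L₀) ∈ O := hAO εinv
  have hεε : algebraMap L₀ 𝓕 (ε : L₀) * algebraMap L₀ 𝓕 (εinv : L₀) = 1 := by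
    rw [← map_mul]
    have : (ε : L₀) * (εinv : L₀) = 1 := by
      have := congrArg Subtype.val hε
      simpa using this
    rw [this, map_one]
  have hpπ : (p : 𝓕) = π ^ e * algebraMap L₀ 𝓕 (ε : L₀) := by
    rw [hπdef, ← map_pow, ← map_mul, ← hpϖ, map_natCast]
  obtain ⟨G, hG, hcover⟩ := hH
  have hsmul : ∀ (n : ℕ) (c : 𝓕), (ϖ ^ n) • c = π ^ n * c := by
    intro n c
    rw [Algebra.smul_def, hπdef, ← map_pow]; rfl
  have hsmul1 : ∀ c : 𝓕, ϖ • c = π * c := by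
    intro c
    rw [Algebra.smul_def]; rfl
  have h12_1 : s18_lat A₀ O hAO (s18_chart1 t) E ≤ s18_lat A₀ O hAO (s18_chart12 t) E :=
    s18_lat_mono A₀ O hAO Set.inter_subset_left E
  have h12_2 : s18_lat A₀ O hAO (s18_chart2 t) E ≤ s18_lat A₀ O hAO (s18_chart12 t) E :=
    s18_lat_mono A₀ O hAO Set.inter_subset_right E
  -- congruence mod `π ^ m₀` implies congruence mod `π`
  have hmod1 : ∀ a : 𝓕, (∃ y ∈ O, a - 1 = π ^ m₀ * y) → ∃ y ∈ O, a - 1 = π * y := by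
    rintro a ⟨y, hy, e'⟩
    exact ⟨π ^ (m₀ - 1) * y, O.mul_mem _ _ (O.pow_mem hπO _) hy, by
      have e3 : π ^ m₀ = π * π ^ (m₀ - 1) := by
        rw [← pow_succ']; congr 1; omega
      rw [e', e3]; ring⟩
  obtain ⟨x, hx, hx0⟩ := s18a_core_fg ϖ (s18_lat A₀ O hAO (s18_chart1 t) E)
    (s18_lat A₀ O hAO (s18_chart2 t) E) (s18_lat A₀ O hAO (s18_chart12 t) E) G h12_1 hG hcover
    (by
      intro n
      obtain ⟨a₁, ha₁, ha₁1, ha₁f⟩ := h1 (n + e)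
      obtain ⟨a₂, ha₂, ha₂1, ha₂f⟩ := h2 (n + e)
      refine ⟨a₁, ha₁, a₂, ha₂, ?_, ?_⟩
      · rintro ⟨y, hy, hay⟩
        obtain ⟨y', hy', e'⟩ := hmod1 a₁ ha₁1
        apply hϖ
        refine ⟨y - y', O.sub_mem hy.1 hy', ?_⟩
        rw [hsmul1] at hay
        rw [mul_sub, ← hay, ← e']; ring
      · have hdiff : ∃ y ∈ O, a₁ ^ p - a₂ ^ p = π ^ (n + e) * y := by
          obtain ⟨y₁, hy₁, e₁⟩ := ha₁f
          obtain ⟨y₂, hy₂, e₂⟩ := ha₂f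
          refine ⟨y₁ - y₂, O.sub_mem hy₁ hy₂, ?_⟩
          rw [mul_sub, ← e₁, ← e₂]; ring
        have h12 : ∃ y ∈ O, a₁ - a₂ = π ^ m₀ * y := by
          obtain ⟨y₁, hy₁, e₁⟩ := ha₁1
          obtain ⟨y₂, hy₂, e₂⟩ := ha₂1
          refine ⟨y₁ - y₂, O.sub_mem hy₁ hy₂, ?_⟩
          rw [mul_sub, ← e₁, ← e₂]; ring
        have ha₂inv : a₂⁻¹ ∈ O := s18x_inv_mem O π a₂ hπO hϖ (hmod1 a₂ ha₂1)
        have ha₂0 : a₂ ≠ 0 := by
          rintro rfl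
          obtain ⟨y, hy, e⟩ := hmod1 0 ha₂1
          exact hϖ ⟨-y, O.neg_mem _ hy, by rw [mul_neg, ← e]; ring⟩
        obtain ⟨c, hc, hceq⟩ := s33k_sub_mem O p hp π _ _ hπO hϖ hπ0 hεO hεinvO hεε e m₀ hm₀ hpπ
          ha₂.1 ha₂inv (mul_inv_cancel₀ ha₂0) h12 n hdiff
        refine ⟨c, ?_, by rw [hsmul]; exact hceq⟩
        have hmem : a₁ - a₂ ∈ s18_lat A₀ O hAO (s18_chart12 t) E :=
          Submodule.sub_mem _ (h12_1 ha₁) (h12_2 ha₂)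
        have hpow : (ϖ : L₀) ^ n ≠ 0 := pow_ne_zero _ hϖ0
        exact s18_lat_pure O (s18_chart12 t) E ((ϖ : L₀) ^ n) hpow hmem hc
          (by rw [hceq, map_pow]))
  refine ⟨x, hx0, hx.1.1, fun Q => ?_⟩
  have hQ : Q ∈ s18_chart1 t ∪ s18_chart2 t := by
    rw [s18_chart1_union_chart2]; trivial
  rcases hQ with hQ | hQ
  · exact (hx.1.2 Q hQ).resolve_left hx0
  · exact (hx.2.2 Q hQ).resolve_left hx0

/-- Chart-wise approximation from a local equation `≡ 1 mod π ^ m₀` (compare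
`s18x_chart_approx_of_one`). -/
theorem s33k_chart_approx_of_one (A₀ : ValuationSubring L₀) (O : ValuationSubring 𝓕)
    (hAO : ∀ a : A₀, algebraMap L₀ 𝓕 (a : L₀) ∈ O)
    (ϖ : A₀) (hϖ0 : (ϖ : L₀) ≠ 0)
    (hϖ : ¬ ∃ y ∈ O, (1 : 𝓕) = algebraMap L₀ 𝓕 (ϖ : L₀) * y)
    (p : ℕ) (hp : p.Prime) (ε εinv : A₀) (hε : ε * εinv = 1)
    (e m₀ : ℕ) (hm₀ : e < m₀ * (p - 1))
    (hpϖ : (p : L₀) = (ϖ : L₀) ^ e * (ε : L₀))
    (S : Set (Place L₀ 𝓕)) (f : 𝓕)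
    (hdiv : ∀ Q : Place L₀ 𝓕, (p : ℤ) ∣ Q.ord f)
    (hf1 : ∃ y ∈ O, f - 1 = algebraMap L₀ 𝓕 (ϖ : L₀) ^ (m₀ + e) * y)
    (hg : ∃ g ∈ s18_latSet O S (s18_E f p), ∃ y ∈ O, g - 1 = algebraMap L₀ 𝓕 (ϖ : L₀) ^ m₀ * y) :
    ∀ n : ℕ, ∃ a ∈ s18_latSet O S (s18_E f p),
      (∃ y ∈ O, a - 1 = algebraMap L₀ 𝓕 (ϖ : L₀) ^ m₀ * y) ∧
        ∃ y ∈ O, a ^ p - f = algebraMap L₀ 𝓕 (ϖ : L₀) ^ n * y := by
  have hp2 := hp.two_le
  have hp0 : p ≠ 0 := hp.ne_zero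
  have hm1 : 1 ≤ m₀ := by
    rcases Nat.eq_zero_or_pos m₀ with h | h
    · subst h; simp at hm₀
    · exact h
  set π : 𝓕 := algebraMap L₀ 𝓕 (ϖ : L₀) with hπdef
  have hπO : π ∈ O := hAO ϖ
  have hπ0 : π ≠ 0 := by
    rw [hπdef]; simpa using hϖ0
  have hf1' : ∃ y ∈ O, f - 1 = π * y := by
    obtain ⟨y, hy, e'⟩ := hf1
    refine ⟨π ^ (m₀ + e - 1) * y, O.mul_mem _ _ (O.pow_mem hπO _) hy, ?_⟩
    have e3 : π ^ (m₀ + e) = π * π ^ (m₀ + e - 1) := by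
      rw [← pow_succ']; congr 1; omega
    rw [e', e3]; ring
  have hfO : f ∈ O := by
    obtain ⟨y, hy, e⟩ := hf1'
    have : f = 1 + π * y := by rw [← e]; ring
    rw [this]; exact O.add_mem _ _ O.one_mem (O.mul_mem _ _ hπO hy)
  have hfinv : f⁻¹ ∈ O := s18x_inv_mem O π f hπO hϖ hf1'
  have hf0 : f ≠ 0 := by
    rintro rfl
    obtain ⟨y, hy, e⟩ := hf1'
    exact hϖ ⟨-y, O.neg_mem _ hy, by rw [mul_neg, ← e]; ring⟩
  have hE : ∀ Q : Place L₀ 𝓕, (p : ℤ) * s18_E f p Q = Q.ord f := s18_E_mul f p hdiv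
  have hconst : ∀ a : A₀, algebraMap L₀ 𝓕 (a : L₀) ∈ s18_ring O S := fun a =>
    ⟨hAO a, fun Q _ => Q.algebraMap_mem' _⟩
  have hεε : algebraMap L₀ 𝓕 (ε : L₀) * algebraMap L₀ 𝓕 (εinv : L₀) = 1 := by
    rw [← map_mul]
    have : (ε : L₀) * (εinv : L₀) = 1 := by
      have := congrArg Subtype.val hε
      simpa using this
    rw [this, map_one]
  have hpπ : (p : 𝓕) = π ^ e * algebraMap L₀ 𝓕 (ε : L₀) := by
    rw [hπdef, ← map_pow, ← map_mul, ← hpϖ, map_natCast]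
  exact s33k_approx_of_one (𝓕 := 𝓕) O.toSubring (s18_ring O S) (s18_ring_le O S) p hp π
    (algebraMap L₀ 𝓕 (ε : L₀)) (algebraMap L₀ 𝓕 (εinv : L₀)) f hπ0 e m₀ hm₀
    (s18_latAdd O S (s18_E f p))
    (hconst ϖ) (hconst ε) (hconst εinv) hεε hpπ (fun a ha => ha.1)
    (by
      intro b hb a ha
      have hb' : b ∈ s18_latSet O S (fun _ => 0) := by
        rw [← s18_ringSet_eq_latSet_zero]; exact hb
      have := s18_latSet_mul O S _ _ hb' ha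
      simp only [zero_add] at this
      exact this)
    (by
      intro b hb ⟨x, hx, hbx⟩
      have hb' : b ∈ s18_latSet O S (fun _ => 0) := by
        rw [← s18_ringSet_eq_latSet_zero]; exact hb
      have hx' := s18_lat_pure O S (fun _ => 0) (ϖ : L₀) hϖ0 hb' hx hbx
      rw [← s18_ringSet_eq_latSet_zero] at hx'
      exact ⟨x, hx', hbx⟩)
    hg
    (by
      intro a ha
      refine ⟨f⁻¹ * a ^ p, ?_, by rw [← mul_assoc, mul_inv_cancel₀ hf0, one_mul]⟩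
      refine ⟨O.mul_mem _ _ hfinv (O.pow_mem ha.1 p), fun Q hQ => ?_⟩
      by_cases ha0 : a = 0
      · rw [ha0, zero_pow hp0, mul_zero]; exact Q.toValuationSubring.zero_mem
      have hne : f⁻¹ * a ^ p ≠ 0 := mul_ne_zero (inv_ne_zero hf0) (pow_ne_zero _ ha0)
      rw [ff_mem_iff_ord_nonneg Q hne, Q.ord_mul (inv_ne_zero hf0) (pow_ne_zero _ ha0),
        Q.ord_inv, ← zpow_natCast, Q.ord_zpow, ← hE Q]
      have h := (ha.2 Q hQ).resolve_left ha0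
      have hm' : (0 : ℤ) ≤ (p : ℤ) := Int.natCast_nonneg p
      nlinarith [mul_le_mul_of_nonneg_left h hm'])
    hfO hf1

/-- **Theorem X₀ for `p`-th roots beyond the critical radius** (compare `s18x_zero`): if
`p ∣ div f`, `f ≡ 1 mod π ^ (m₀+e)`, and `E = div(f)/p` has local equations `≡ 1 mod π ^ m₀` on both
charts, there is a nonzero `x ∈ O` with `p · ord_Q x ≥ ord_Q f` at every place `Q`. -/
theorem s33k_zero (A₀ : ValuationSubring L₀) [IsNoetherianRing A₀]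
    (O : ValuationSubring 𝓕) (hAO : ∀ a : A₀, algebraMap L₀ 𝓕 (a : L₀) ∈ O)
    (ϖ : A₀) (hϖ0 : (ϖ : L₀) ≠ 0)
    (hϖ : ¬ ∃ y ∈ O, (1 : 𝓕) = algebraMap L₀ 𝓕 (ϖ : L₀) * y)
    (p : ℕ) (hp : p.Prime) (ε εinv : A₀) (hε : ε * εinv = 1)
    (e m₀ : ℕ) (hm₀ : e < m₀ * (p - 1))
    (hpϖ : (p : L₀) = (ϖ : L₀) ^ e * (ε : L₀))
    (t f : 𝓕)
    (hdiv : ∀ Q : Place L₀ 𝓕, (p : ℤ) ∣ Q.ord f)
    (hf1 : ∃ y ∈ O, f - 1 = algebraMap L₀ 𝓕 (ϖ : L₀) ^ (m₀ + e) * y)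
    (hg1 : ∃ g ∈ s18_latSet O (s18_chart1 (L₀ := L₀) t) (s18_E f p),
      ∃ y ∈ O, g - 1 = algebraMap L₀ 𝓕 (ϖ : L₀) ^ m₀ * y)
    (hg2 : ∃ g ∈ s18_latSet O (s18_chart2 (L₀ := L₀) t) (s18_E f p),
      ∃ y ∈ O, g - 1 = algebraMap L₀ 𝓕 (ϖ : L₀) ^ m₀ * y)
    (hH : ∃ G : Submodule A₀ 𝓕, G.FG ∧
      s18_lat A₀ O hAO (s18_chart12 t) (s18_E f p) ≤
        G ⊔ (s18_lat A₀ O hAO (s18_chart1 t) (s18_E f p) ⊔
          s18_lat A₀ O hAO (s18_chart2 t) (s18_E f p))) :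
    ∃ x : 𝓕, x ≠ 0 ∧ x ∈ O ∧ ∀ Q : Place L₀ 𝓕, Q.ord f ≤ (p : ℤ) * Q.ord x := by
  obtain ⟨x, hx0, hxO, hx⟩ := s33k_exists_section A₀ O hAO ϖ hϖ0 hϖ p hp ε εinv hε e m₀ hm₀ hpϖ t f
    (s18_E f p)
    (s33k_chart_approx_of_one A₀ O hAO ϖ hϖ0 hϖ p hp ε εinv hε e m₀ hm₀ hpϖ _ f hdiv hf1 hg1)
    (s33k_chart_approx_of_one A₀ O hAO ϖ hϖ0 hϖ p hp ε εinv hε e m₀ hm₀ hpϖ _ f hdiv hf1 hg2) hH
  refine ⟨x, hx0, hxO, fun Q => ?_⟩
  rw [← s18_E_mul f p hdiv Q]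
  exact mul_le_mul_of_nonneg_left (hx Q) (Int.natCast_nonneg p)

end Charts

end Fermat.Agent.Lib.S33
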