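/-
P-AT-P (S33 programme, private branch), brick **[LT-SEP]**, Kummer-side form (helper9):
"`f ∈ 𝒢` (all orders divisible by `p`), `f ≡ 1 mod π ^ a` with `a` SUPER-critical
(`(p-1) a > p e`) ⇒ `f ∈ 𝒢⁰ = L₀ˣ · (𝓕ˣ) ^ p`" — the contract `s33f_SuperCritical` of helper6's
`FOIface`, proved from the chart inputs that `Lib/S18` produces ([S] = integral closedness of the
reduced chart rings, [I] = invertibility of the chart lattices, [H] = Čech finiteness).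

* `s33k_one_mod_pi`   : (first half of `s18k_approx`, valid for every exponent) from `hroot` and
                        `hinv`: the lattice `I` contains `g ≡ 1 mod π`.
* `s33k_lift_level`   : if `f ≡ 1 mod π ^ (m₀+e)` and `g ∈ I`, `g ≡ 1 mod π ^ k`, `1 ≤ k < m₀`, then
                        `I` contains `g' ≡ 1 mod π ^ (k+1)` (sub-critical `k`: `ȳ ^ p ∈ B̄ ⇒ ȳ ∈ B̄`;
                        critical `k`: `ȳ ^ p + ε̄ ȳ ∈ B̄ ⇒ ȳ ∈ B̄`; super-critical `k`: linear).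
* `s33k_one_mod_pow`  : hence `I` contains `g ≡ 1 mod π ^ m₀`: **the Kummer-side depth `m₀ + e`
                        forces the divisor-side level `m₀`**.
* `s33k_superCritical`: the two-chart theorem: `f = c · x ^ p`.
-/
import Fermat.Agent.Lib.S33.KumPLat

set_option autoImplicit false

noncomputable section

namespace Fermat.Agent.Lib.S33

open AlgebraicCurve Fermat.Agent.Lib.FF Fermat.Agent.Lib.S18

section Abstract

variable {𝓕 : Type*} [Field 𝓕]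

/-- From `hroot` ([S]) and `hinv` ([I]): the lattice `I` contains an element `≡ 1 mod π`
(first half of `s18k_approx`; no condition on the exponent `m`). -/
theorem s33k_one_mod_pi (O B : Subring 𝓕) (π f : 𝓕) (m : ℕ)
    (I I' : AddSubgroup 𝓕)
    (hIO : ∀ a ∈ I, a ∈ O) (hI'O : ∀ b ∈ I', b ∈ O)
    (hBI : ∀ b ∈ B, ∀ a ∈ I, b * a ∈ I)
    (hroot : ∀ x ∈ O, ∀ b ∈ B, (∃ y ∈ O, x ^ m - b = π * y) → ∃ b' ∈ B, ∃ y ∈ O, x - b' = π * y)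
    (hinv : ∃ (s : Finset ℕ) (a b : ℕ → 𝓕), (∀ j ∈ s, a j ∈ I) ∧ (∀ j ∈ s, b j ∈ I') ∧
      ∑ j ∈ s, a j * b j = 1)
    (hpowI' : ∀ a ∈ I', ∃ b ∈ B, f * a ^ m = b)
    (hf1 : ∃ y ∈ O, f - 1 = π * y) :
    ∃ g ∈ I, ∃ y ∈ O, g - 1 = π * y := by
  classical
  obtain ⟨yf, hyf, ef⟩ := hf1
  have ef' : f = 1 + π * yf := by rw [← ef]; ring
  -- elements of `I'` are congruent to elements of `B`
  have hI'B : ∀ b ∈ I', ∃ β ∈ B, ∃ y ∈ O, b - β = π * y := by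
    intro b hb
    obtain ⟨c, hc, ec⟩ := hpowI' b hb
    refine hroot b (hI'O b hb) c hc ⟨-(yf * b ^ m), ?_, ?_⟩
    · exact O.neg_mem (O.mul_mem hyf (O.pow_mem (hI'O b hb) m))
    · rw [← ec, ef']; ring
  obtain ⟨s, a, b, ha, hb, hsum⟩ := hinv
  choose! β hβB yβ hyβ eβ using hI'B
  refine ⟨∑ j ∈ s, β (b j) * a j,
    AddSubgroup.sum_mem _ fun j hj => hBI _ (hβB _ (hb j hj)) _ (ha j hj),
    -∑ j ∈ s, yβ (b j) * a j, O.neg_mem (O.sum_mem fun j hj =>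
      O.mul_mem (hyβ _ (hb j hj)) (hIO _ (ha j hj))), ?_⟩
  rw [← hsum, ← Finset.sum_sub_distrib, mul_neg, Finset.mul_sum, ← Finset.sum_neg_distrib]
  refine Finset.sum_congr rfl fun j hj => ?_
  have := eβ (b j) (hb j hj)
  have h2 : β (b j) = b j - π * yβ (b j) := by rw [← this]; ring
  rw [h2]; ring

/-- **One step of level lifting.** -/
theorem s33k_lift_level (O B : Subring 𝓕) (hBO : B ≤ O) (p : ℕ) (hp : p.Prime)
    (π ε εinv f : 𝓕) (hπ0 : π ≠ 0) (e m₀ : ℕ)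
    (I : AddSubgroup 𝓕)
    (hπB : π ∈ B) (hεB : ε ∈ B) (hεinvB : εinv ∈ B) (hε : ε * εinv = 1)
    (hpπ : (p : 𝓕) = π ^ e * ε)
    (hBI : ∀ b ∈ B, ∀ a ∈ I, b * a ∈ I)
    (hpureB : ∀ b ∈ B, (∃ x ∈ O, b = π * x) → ∃ b' ∈ B, b = π * b')
    (hclosed : ∀ c ∈ B, ∀ x ∈ O, ∀ b ∈ B, (∃ y ∈ O, x ^ p + c * x - b = π * y) →
      ∃ b' ∈ B, ∃ y ∈ O, x - b' = π * y)
    (hpowI : ∀ a ∈ I, ∃ b ∈ B, a ^ p = f * b)
    (hf1 : ∃ y ∈ O, f - 1 = π ^ (m₀ + e) * y)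
    (k : ℕ) (hk1 : 1 ≤ k) (hkm : k < m₀)
    (hg : ∃ g ∈ I, ∃ y ∈ O, g - 1 = π ^ k * y) :
    ∃ g ∈ I, ∃ y ∈ O, g - 1 = π ^ (k + 1) * y := by
  have h2 := hp.two_le
  have hπO : π ∈ O := hBO hπB
  have hεO : ε ∈ O := hBO hεB
  obtain ⟨yf, hyf, ef⟩ := hf1
  obtain ⟨g, hgI, y, hy, eg⟩ := hg
  have hg' : g = 1 + π ^ k * y := by rw [← eg]; ring
  obtain ⟨b₀, hb₀, eb₀⟩ := hpowI g hgI
  have hb₀O : b₀ ∈ O := hBO hb₀
  have hpπO : ((p : ℕ) : O) = (⟨π, hπO⟩ : O) ^ e * ⟨ε, hεO⟩ := by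
    apply Subtype.ext
    simpa using hpπ
  have hpk : p * k = k * (p - 1) + k := by
    obtain ⟨q, rfl⟩ : ∃ q, p = q + 1 := ⟨p - 1, by omega⟩
    simp only [Nat.add_sub_cancel]; ring
  -- it suffices to find `b' ∈ B` with `y ≡ b' mod π`
  suffices hsuff : ∃ b' ∈ B, ∃ z ∈ O, y - b' = π * z by
    obtain ⟨b', hb', z, hz, ez⟩ := hsuff
    refine ⟨(1 - π ^ k * b') * g, hBI _ (B.sub_mem B.one_mem (B.mul_mem (B.pow_mem hπB k) hb')) _ hgI,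
      z - π ^ (k - 1) * (y * b'), O.sub_mem hz (O.mul_mem (O.pow_mem hπO _)
        (O.mul_mem hy (hBO hb'))), ?_⟩
    have e3 : π ^ k = π * π ^ (k - 1) := by
      rw [← pow_succ']; congr 1; omega
    have : (1 - π ^ k * b') * g - 1 = π ^ k * (y - b') - π ^ k * π ^ k * (y * b') := by
      rw [hg']; ring
    rw [this, ez, pow_succ]
    nth_rewrite 3 [e3]
    ring
  -- the common shape: `g ^ p = 1 + π ^ N (u + π r)`, `N + 1 ≤ m₀ + e`, gives `u ≡ β ∈ B`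
  have hcommon : ∀ (N : ℕ) (u r : 𝓕), u ∈ O → r ∈ O → N + 1 ≤ m₀ + e →
      g ^ p = 1 + π ^ N * u + π ^ (N + 1) * r → ∃ β ∈ B, ∃ z ∈ O, u - β = π * z := by
    intro N u r hu hr hN egp
    obtain ⟨d, hd⟩ : ∃ d, m₀ + e = N + 1 + d := ⟨m₀ + e - (N + 1), by omega⟩
    have hb₀1 : ∃ b' ∈ B, b₀ - 1 = π ^ N * b' := by
      refine s33k_pure_pow O B π hπ0 hπO hpureB N (b₀ - 1) (B.sub_mem hb₀ B.one_mem)
        ⟨u + π * r - π * (π ^ d * (yf * b₀)), O.sub_mem (O.add_mem hu (O.mul_mem hπO hr))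
          (O.mul_mem hπO (O.mul_mem (O.pow_mem hπO d) (O.mul_mem hyf hb₀O))), ?_⟩
      have : b₀ - 1 = (g ^ p - 1) - (f - 1) * b₀ := by rw [eb₀]; ring
      rw [this, egp, ef, hd, pow_add, pow_add, pow_one]; ring
    obtain ⟨β, hβ, eβ⟩ := hb₀1
    refine ⟨β, hβ, π ^ d * (yf * b₀) - r, O.sub_mem (O.mul_mem (O.pow_mem hπO d)
      (O.mul_mem hyf hb₀O)) hr, ?_⟩
    have hπN : π ^ N ≠ 0 := pow_ne_zero _ hπ0
    apply mul_left_cancel₀ hπN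
    have : π ^ N * (u - β) = (g ^ p - 1) - π ^ (N + 1) * r - (b₀ - 1) := by
      rw [egp, eβ]; ring
    rw [this]
    have : b₀ - 1 = (g ^ p - 1) - (f - 1) * b₀ := by rw [eb₀]; ring
    rw [this, ef, hd, pow_add, pow_add, pow_one]; ring
  rcases lt_trichotomy (k * (p - 1)) e with hlt | heq | hgt
  · -- sub-critical
    obtain ⟨r, hr⟩ := s33k_sub_pow (B := O) p hp ⟨π, hπO⟩ ⟨ε, hεO⟩ e hpπO k hlt ⟨y, hy⟩
    have hr' : (1 + π ^ k * y) ^ p = 1 + π ^ (p * k) * y ^ p + π ^ (p * k + 1) * (r : 𝓕) := by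
      have := congrArg Subtype.val hr
      simpa using this
    obtain ⟨β, hβ, z, hz, ez⟩ := hcommon (p * k) (y ^ p) r (O.pow_mem hy p) r.2 (by omega)
      (by rw [hg', hr'])
    exact hclosed 0 B.zero_mem y hy β hβ ⟨z, hz, by rw [zero_mul, add_zero, ez]⟩
  · -- critical
    obtain ⟨r, hr⟩ := s33k_crit_pow' (B := O) p hp ⟨π, hπO⟩ ⟨ε, hεO⟩ e hpπO k hk1 heq ⟨y, hy⟩
    have hr' : (1 + π ^ k * y) ^ p =
        1 + π ^ (p * k) * (y ^ p + ε * y) + π ^ (p * k + 1) * (r : 𝓕) := by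
      have := congrArg Subtype.val hr
      simpa using this
    obtain ⟨β, hβ, z, hz, ez⟩ := hcommon (p * k) (y ^ p + ε * y) r
      (O.add_mem (O.pow_mem hy p) (O.mul_mem hεO hy)) r.2 (by omega) (by rw [hg', hr'])
    exact hclosed ε hεB y hy β hβ ⟨z, hz, ez⟩
  · -- super-critical
    obtain ⟨r, hr⟩ := s33k_level_pow (B := O) p hp ⟨π, hπO⟩ ⟨ε, hεO⟩ e hpπO k hgt ⟨y, hy⟩
    have hr' : (1 + π ^ k * y) ^ p =
        1 + π ^ (k + e) * (ε * y) + π ^ (k + e + 1) * (r : 𝓕) := by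
      have := congrArg Subtype.val hr
      simpa using this
    obtain ⟨β, hβ, z, hz, ez⟩ := hcommon (k + e) (ε * y) r (O.mul_mem hεO hy) r.2 (by omega)
      (by rw [hg', hr'])
    refine ⟨εinv * β, B.mul_mem hεinvB hβ, εinv * z, O.mul_mem (hBO hεinvB) hz, ?_⟩
    have : y - εinv * β = εinv * (ε * y - β) + (1 - ε * εinv) * y := by ring
    rw [this, ez, hε]; ring

/-- **Kummer-side depth `m₀ + e` forces divisor-side level `m₀`.** -/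
theorem s33k_one_mod_pow (O B : Subring 𝓕) (hBO : B ≤ O) (p : ℕ) (hp : p.Prime)
    (π ε εinv f : 𝓕) (hπ0 : π ≠ 0) (e m₀ : ℕ) (hm1 : 1 ≤ m₀)
    (I : AddSubgroup 𝓕)
    (hπB : π ∈ B) (hεB : ε ∈ B) (hεinvB : εinv ∈ B) (hε : ε * εinv = 1)
    (hpπ : (p : 𝓕) = π ^ e * ε)
    (hBI : ∀ b ∈ B, ∀ a ∈ I, b * a ∈ I)
    (hpureB : ∀ b ∈ B, (∃ x ∈ O, b = π * x) → ∃ b' ∈ B, b = π * b')
    (hclosed : ∀ c ∈ B, ∀ x ∈ O, ∀ b ∈ B, (∃ y ∈ O, x ^ p + c * x - b = π * y) →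
      ∃ b' ∈ B, ∃ y ∈ O, x - b' = π * y)
    (hpowI : ∀ a ∈ I, ∃ b ∈ B, a ^ p = f * b)
    (hf1 : ∃ y ∈ O, f - 1 = π ^ (m₀ + e) * y)
    (hg : ∃ g ∈ I, ∃ y ∈ O, g - 1 = π * y) :
    ∃ g ∈ I, ∃ y ∈ O, g - 1 = π ^ m₀ * y := by
  have key : ∀ k : ℕ, 1 ≤ k → k ≤ m₀ → ∃ g ∈ I, ∃ y ∈ O, g - 1 = π ^ k * y := by
    intro k hk1
    induction k, hk1 using Nat.le_induction with
    | base =>
      intro _
      simpa using hg
    | succ k hk ih =>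
      intro hkm
      exact s33k_lift_level O B hBO p hp π ε εinv f hπ0 e m₀ I hπB hεB hεinvB hε hpπ hBI
        hpureB hclosed hpowI hf1 k hk (by omega) (ih (by omega))
  exact key m₀ hm1 le_rfl

end Abstract

section Charts

variable {L₀ 𝓕 : Type*} [Field L₀] [Field 𝓕] [Algebra L₀ 𝓕]

/-- Chart level: `f ≡ 1 mod π ^ (m₀+e)`, `p ∣ div f`, [S] (`hclosed`) and [I] (`hinv`) on the chart
`S` ⇒ the lattice of `E = div(f)/p` on `S` contains `g ≡ 1 mod π ^ m₀`. -/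
theorem s33k_chart_one_mod_pow (A₀ : ValuationSubring L₀) (O : ValuationSubring 𝓕)
    (hAO : ∀ a : A₀, algebraMap L₀ 𝓕 (a : L₀) ∈ O)
    (ϖ : A₀) (hϖ0 : (ϖ : L₀) ≠ 0)
    (hϖ : ¬ ∃ y ∈ O, (1 : 𝓕) = algebraMap L₀ 𝓕 (ϖ : L₀) * y)
    (p : ℕ) (hp : p.Prime) (ε εinv : A₀) (hε : ε * εinv = 1)
    (e m₀ : ℕ) (hm1 : 1 ≤ m₀)
    (hpϖ : (p : L₀) = (ϖ : L₀) ^ e * (ε : L₀))
    (S : Set (Place L₀ 𝓕)) (f : 𝓕)
    (hdiv : ∀ Q : Place L₀ 𝓕, (p : ℤ) ∣ Q.ord f)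
    (hf1 : ∃ y ∈ O, f - 1 = algebraMap L₀ 𝓕 (ϖ : L₀) ^ (m₀ + e) * y)
    (hclosed : ∀ c ∈ s18_ring O S, ∀ x ∈ O, ∀ b ∈ s18_ring O S,
      (∃ y ∈ O, x ^ p + c * x - b = algebraMap L₀ 𝓕 (ϖ : L₀) * y) →
        ∃ b' ∈ s18_ring O S, ∃ y ∈ O, x - b' = algebraMap L₀ 𝓕 (ϖ : L₀) * y)
    (hinv : ∃ (s : Finset ℕ) (a b : ℕ → 𝓕), (∀ j ∈ s, a j ∈ s18_latSet O S (s18_E f p)) ∧
      (∀ j ∈ s, b j ∈ s18_latSet O S (fun Q => -s18_E f p Q)) ∧ ∑ j ∈ s, a j * b j = 1) :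
    ∃ g ∈ s18_latSet O S (s18_E f p), ∃ y ∈ O, g - 1 = algebraMap L₀ 𝓕 (ϖ : L₀) ^ m₀ * y := by
  have hp0 : p ≠ 0 := hp.ne_zero
  set π : 𝓕 := algebraMap L₀ 𝓕 (ϖ : L₀) with hπdef
  have hπO : π ∈ O := hAO ϖ
  have hπ0 : π ≠ 0 := by rw [hπdef]; simpa using hϖ0
  have hf1' : ∃ y ∈ O, f - 1 = π * y := by
    obtain ⟨y, hy, e'⟩ := hf1
    refine ⟨π ^ (m₀ + e - 1) * y, O.mul_mem _ _ (O.pow_mem hπO _) hy, ?_⟩
    have e3 : π ^ (m₀ + e) = π * π ^ (m₀ + e - 1) := by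
      rw [← pow_succ']; congr 1; omega
    rw [e', e3]; ring
  have hfO : f ∈ O := by
    obtain ⟨y, hy, e'⟩ := hf1'
    have : f = 1 + π * y := by rw [← e']; ring
    rw [this]; exact O.add_mem _ _ O.one_mem (O.mul_mem _ _ hπO hy)
  have hfinv : f⁻¹ ∈ O := s18x_inv_mem O π f hπO hϖ hf1'
  have hf0 : f ≠ 0 := by
    rintro rfl
    obtain ⟨y, hy, e'⟩ := hf1'
    exact hϖ ⟨-y, O.neg_mem _ hy, by rw [mul_neg, ← e']; ring⟩
  have hE : ∀ Q : Place L₀ 𝓕, (p : ℤ) * s18_E f p Q = Q.ord f := s18_E_mul f p hdiv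
  have hconst : ∀ a : A₀, algebraMap L₀ 𝓕 (a : L₀) ∈ s18_ring O S := fun a =>
    ⟨hAO a, fun Q _ => Q.algebraMap_mem' _⟩
  have hεε : algebraMap L₀ 𝓕 (ε : L₀) * algebraMap L₀ 𝓕 (εinv : L₀) = 1 := by
    rw [← map_mul]
    have : (ε : L₀) * (εinv : L₀) = 1 := by
      have := congrArg Subtype.val hε
      simpa using this
    rw [this, map_one]
  have hpπ : (p : 𝓕) = π ^ e * algebraMap L₀ 𝓕 (ε : L₀) := by
    rw [hπdef, ← map_pow, ← map_mul, ← hpϖ, map_natCast]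
  have hBI : ∀ b ∈ s18_ring O S, ∀ a ∈ s18_latAdd O S (s18_E f p),
      b * a ∈ s18_latAdd O S (s18_E f p) := by
    intro b hb a ha
    have hb' : b ∈ s18_latSet O S (fun _ => 0) := by
      rw [← s18_ringSet_eq_latSet_zero]; exact hb
    have := s18_latSet_mul O S _ _ hb' ha
    simp only [zero_add] at this
    exact this
  have hpowI : ∀ a ∈ s18_latAdd O S (s18_E f p), ∃ b ∈ s18_ring O S, a ^ p = f * b := by
    intro a ha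
    refine ⟨f⁻¹ * a ^ p, ?_, by rw [← mul_assoc, mul_inv_cancel₀ hf0, one_mul]⟩
    refine ⟨O.mul_mem _ _ hfinv (O.pow_mem ha.1 p), fun Q hQ => ?_⟩
    by_cases ha0 : a = 0
    · rw [ha0, zero_pow hp0, mul_zero]; exact Q.toValuationSubring.zero_mem
    have hne : f⁻¹ * a ^ p ≠ 0 := mul_ne_zero (inv_ne_zero hf0) (pow_ne_zero _ ha0)
    rw [ff_mem_iff_ord_nonneg Q hne, Q.ord_mul (inv_ne_zero hf0) (pow_ne_zero _ ha0),
      Q.ord_inv, ← zpow_natCast, Q.ord_zpow, ← hE Q]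
    have h := (ha.2 Q hQ).resolve_left ha0
    have hm' : (0 : ℤ) ≤ (p : ℤ) := Int.natCast_nonneg p
    nlinarith [mul_le_mul_of_nonneg_left h hm']
  have hpowI' : ∀ a ∈ s18_latAdd O S (fun Q => -s18_E f p Q),
      ∃ b ∈ s18_ring O S, f * a ^ p = b := by
    intro a ha
    refine ⟨f * a ^ p, ?_, rfl⟩
    refine ⟨O.mul_mem _ _ hfO (O.pow_mem ha.1 p), fun Q hQ => ?_⟩
    by_cases ha0 : a = 0
    · rw [ha0, zero_pow hp0, mul_zero]; exact Q.toValuationSubring.zero_mem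
    have hne : f * a ^ p ≠ 0 := mul_ne_zero hf0 (pow_ne_zero _ ha0)
    rw [ff_mem_iff_ord_nonneg Q hne, Q.ord_mul hf0 (pow_ne_zero _ ha0),
      ← zpow_natCast, Q.ord_zpow, ← hE Q]
    have h := (ha.2 Q hQ).resolve_left ha0
    have hm' : (0 : ℤ) ≤ (p : ℤ) := Int.natCast_nonneg p
    nlinarith [mul_le_mul_of_nonneg_left h hm']
  have hpure : ∀ b ∈ s18_ring O S, (∃ x ∈ O.toSubring, b = π * x) →
      ∃ b' ∈ s18_ring O S, b = π * b' := by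
    intro b hb ⟨x, hx, hbx⟩
    have hb' : b ∈ s18_latSet O S (fun _ => 0) := by
      rw [← s18_ringSet_eq_latSet_zero]; exact hb
    have hx' := s18_lat_pure O S (fun _ => 0) (ϖ : L₀) hϖ0 hb' hx hbx
    rw [← s18_ringSet_eq_latSet_zero] at hx'
    exact ⟨x, hx', hbx⟩
  -- `hroot` is `hclosed` with `c = 0`
  have hroot : ∀ x ∈ O.toSubring, ∀ b ∈ s18_ring O S, (∃ y ∈ O.toSubring, x ^ p - b = π * y) →
      ∃ b' ∈ s18_ring O S, ∃ y ∈ O.toSubring, x - b' = π * y := by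
    intro x hx b hb ⟨y, hy, e'⟩
    exact hclosed 0 (s18_ring O S).zero_mem x hx b hb ⟨y, hy, by rw [zero_mul, add_zero, e']⟩
  have hg1 := s33k_one_mod_pi (𝓕 := 𝓕) O.toSubring (s18_ring O S) π f p
    (s18_latAdd O S (s18_E f p)) (s18_latAdd O S (fun Q => -s18_E f p Q))
    (fun a ha => ha.1) (fun b hb => hb.1) hBI hroot hinv hpowI' hf1'
  exact s33k_one_mod_pow (𝓕 := 𝓕) O.toSubring (s18_ring O S) (s18_ring_le O S) p hp π
    (algebraMap L₀ 𝓕 (ε : L₀)) (algebraMap L₀ 𝓕 (εinv : L₀)) f hπ0 e m₀ hm1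
    (s18_latAdd O S (s18_E f p)) (hconst ϖ) (hconst ε) (hconst εinv) hεε hpπ hBI hpure
    hclosed hpowI hf1 hg1

/-- **[LT-SEP], Kummer-side form (`s33f_SuperCritical` from the chart inputs).**  `f` with all orders
divisible by `p`, `f ≡ 1 mod π ^ a` with `a` super-critical (`p e < (p-1) a`); [S] and [I] on both
charts, [H], and `L₀` the full constant field ⇒ `f = c · x ^ p`. -/
theorem s33k_superCritical (A₀ : ValuationSubring L₀) [IsNoetherianRing A₀]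
    (O : ValuationSubring 𝓕) (hAO : ∀ a : A₀, algebraMap L₀ 𝓕 (a : L₀) ∈ O)
    (ϖ : A₀) (hϖ0 : (ϖ : L₀) ≠ 0)
    (hϖ : ¬ ∃ y ∈ O, (1 : 𝓕) = algebraMap L₀ 𝓕 (ϖ : L₀) * y)
    (p : ℕ) (hp : p.Prime) (ε εinv : A₀) (hε : ε * εinv = 1)
    (e : ℕ) (hpϖ : (p : L₀) = (ϖ : L₀) ^ e * (ε : L₀))
    (hconst𝓕 : ∀ h : 𝓕, (∀ Q : Place L₀ 𝓕, h ∈ Q.toValuationSubring) →
      ∃ c : L₀, h = algebraMap L₀ 𝓕 c)
    (t f : 𝓕) (a : ℕ) (ha : p * e < (p - 1) * a)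
    (hdiv : ∀ Q : Place L₀ 𝓕, (p : ℤ) ∣ Q.ord f)
    (hf1 : ∃ y ∈ O, f - 1 = algebraMap L₀ 𝓕 (ϖ : L₀) ^ a * y)
    (hclosed1 : ∀ c ∈ s18_ring O (s18_chart1 (L₀ := L₀) t), ∀ x ∈ O,
      ∀ b ∈ s18_ring O (s18_chart1 (L₀ := L₀) t),
      (∃ y ∈ O, x ^ p + c * x - b = algebraMap L₀ 𝓕 (ϖ : L₀) * y) →
        ∃ b' ∈ s18_ring O (s18_chart1 (L₀ := L₀) t), ∃ y ∈ O,
          x - b' = algebraMap L₀ 𝓕 (ϖ : L₀) * y)
    (hclosed2 : ∀ c ∈ s18_ring O (s18_chart2 (L₀ := L₀) t), ∀ x ∈ O,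
      ∀ b ∈ s18_ring O (s18_chart2 (L₀ := L₀) t),
      (∃ y ∈ O, x ^ p + c * x - b = algebraMap L₀ 𝓕 (ϖ : L₀) * y) →
        ∃ b' ∈ s18_ring O (s18_chart2 (L₀ := L₀) t), ∃ y ∈ O,
          x - b' = algebraMap L₀ 𝓕 (ϖ : L₀) * y)
    (hinv1 : ∃ (s : Finset ℕ) (a b : ℕ → 𝓕),
      (∀ j ∈ s, a j ∈ s18_latSet O (s18_chart1 (L₀ := L₀) t) (s18_E f p)) ∧
      (∀ j ∈ s, b j ∈ s18_latSet O (s18_chart1 (L₀ := L₀) t) (fun Q => -s18_E f p Q)) ∧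
      ∑ j ∈ s, a j * b j = 1)
    (hinv2 : ∃ (s : Finset ℕ) (a b : ℕ → 𝓕),
      (∀ j ∈ s, a j ∈ s18_latSet O (s18_chart2 (L₀ := L₀) t) (s18_E f p)) ∧
      (∀ j ∈ s, b j ∈ s18_latSet O (s18_chart2 (L₀ := L₀) t) (fun Q => -s18_E f p Q)) ∧
      ∑ j ∈ s, a j * b j = 1)
    (hH : ∃ G : Submodule A₀ 𝓕, G.FG ∧
      s18_lat A₀ O hAO (s18_chart12 t) (s18_E f p) ≤
        G ⊔ (s18_lat A₀ O hAO (s18_chart1 t) (s18_E f p) ⊔
          s18_lat A₀ O hAO (s18_chart2 t) (s18_E f p))) :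
    ∃ (c : L₀) (x : 𝓕), c ≠ 0 ∧ x ≠ 0 ∧ f = algebraMap L₀ 𝓕 c * x ^ p := by
  have hp2 := hp.two_le
  have hp0 : p ≠ 0 := hp.ne_zero
  -- `m₀ = a - e`
  have hea : e < a := by
    by_contra hcon
    have h1 : a ≤ e := by omega
    have h2 : (p - 1) * a ≤ (p - 1) * e := Nat.mul_le_mul_left _ h1
    have h3 : (p - 1) * e ≤ p * e := Nat.mul_le_mul_right _ (by omega)
    omega
  obtain ⟨m₀, rfl⟩ : ∃ m₀, a = m₀ + e := ⟨a - e, by omega⟩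
  have hm1 : 1 ≤ m₀ := by omega
  have hm₀ : e < m₀ * (p - 1) := by
    have h1 : (p - 1) * (m₀ + e) = m₀ * (p - 1) + (p - 1) * e := by ring
    have h2 : p * e = (p - 1) * e + e := by
      obtain ⟨q, rfl⟩ : ∃ q, p = q + 1 := ⟨p - 1, by omega⟩
      simp only [Nat.add_sub_cancel]; ring
    omega
  set π : 𝓕 := algebraMap L₀ 𝓕 (ϖ : L₀) with hπdef
  have hπO : π ∈ O := hAO ϖ
  have hf1' : ∃ y ∈ O, f - 1 = π * y := by
    obtain ⟨y, hy, e'⟩ := hf1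
    refine ⟨π ^ (m₀ + e - 1) * y, O.mul_mem _ _ (O.pow_mem hπO _) hy, ?_⟩
    have e3 : π ^ (m₀ + e) = π * π ^ (m₀ + e - 1) := by
      rw [← pow_succ']; congr 1; omega
    rw [e', e3]; ring
  have hf0 : f ≠ 0 := by
    rintro rfl
    obtain ⟨y, hy, e'⟩ := hf1'
    exact hϖ ⟨-y, O.neg_mem _ hy, by rw [mul_neg, ← e']; ring⟩
  have hg1 := s33k_chart_one_mod_pow A₀ O hAO ϖ hϖ0 hϖ p hp ε εinv hε e m₀ hm1 hpϖ _ f hdiv hf1
    hclosed1 hinv1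
  have hg2 := s33k_chart_one_mod_pow A₀ O hAO ϖ hϖ0 hϖ p hp ε εinv hε e m₀ hm1 hpϖ _ f hdiv hf1
    hclosed2 hinv2
  obtain ⟨x, hx0, -, hx⟩ := s33k_zero A₀ O hAO ϖ hϖ0 hϖ p hp ε εinv hε e m₀ hm₀ hpϖ t f hdiv hf1
    hg1 hg2 hH
  -- `x ^ p / f` has no poles, hence is a constant
  have hu0 : x ^ p * f⁻¹ ≠ 0 := mul_ne_zero (pow_ne_zero _ hx0) (inv_ne_zero hf0)
  obtain ⟨c, hc⟩ := hconst𝓕 (x ^ p * f⁻¹) (fun Q => by
    rw [ff_mem_iff_ord_nonneg Q hu0, Q.ord_mul (pow_ne_zero _ hx0) (inv_ne_zero hf0), Q.ord_inv,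
      ← zpow_natCast, Q.ord_zpow]
    have := hx Q
    linarith)
  have hc0 : c ≠ 0 := by
    rintro rfl
    rw [map_zero] at hc
    exact hu0 hc
  refine ⟨c⁻¹, x, inv_ne_zero hc0, hx0, ?_⟩
  have hc' : algebraMap L₀ 𝓕 c ≠ 0 := by simpa using hc0
  have : x ^ p = algebraMap L₀ 𝓕 c * f := by
    rw [← hc, mul_assoc, inv_mul_cancel₀ hf0, mul_one]
  rw [this, map_inv₀, ← mul_assoc, inv_mul_cancel₀ hc', one_mul]

end Charts

section Closed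

open Polynomial

variable {L₀ 𝓕 : Type*} [Field L₀] [Field 𝓕] [Algebra L₀ 𝓕]
  (O : ValuationSubring 𝓕) (S : Set (Place L₀ 𝓕)) (π : L₀)
  (hπO : algebraMap L₀ 𝓕 π ∈ O)
  {Fb : Type*} [Field Fb] (red : O →+* Fb)
  (hker : ∀ x : O, red x = 0 → ∃ y ∈ O, (x : 𝓕) = algebraMap L₀ 𝓕 π * y)
  (hkerπ : red ⟨algebraMap L₀ 𝓕 π, hπO⟩ = 0)
  {P : Type*} [CommRing P] [Algebra P Fb]
  (hint : ∀ b : 𝓕, ∀ hb : b ∈ s18_ring O S, IsIntegral P (red ⟨b, hb.1⟩))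
  (hmain : ∀ z : Fb, IsIntegral P z → ∃ (b : 𝓕) (hb : b ∈ s18_ring O S), red ⟨b, hb.1⟩ = z)

include hker hkerπ hint hmain in
/-- **`hclosed`** (the [S] input of `s33k_superCritical`) from the S18 chart contract
(`hint`/`hmain`: the reduction of the chart ring is the integral closure of `P` in the residue
function field), exactly as `s18f_hroot_of_main`: a root of `X ^ p + c̄ X - b̄` with `c̄, b̄` integral
over `P` is integral over `P`. -/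
theorem s33k_hclosed_of_main (p : ℕ) (hp2 : 2 ≤ p) :
    ∀ c ∈ s18_ring O S, ∀ x ∈ O, ∀ b ∈ s18_ring O S,
      (∃ y ∈ O, x ^ p + c * x - b = algebraMap L₀ 𝓕 π * y) →
        ∃ b' ∈ s18_ring O S, ∃ y ∈ O, x - b' = algebraMap L₀ 𝓕 π * y := by
  intro c hc x hx b hb ⟨y, hy, e'⟩
  set z : Fb := red ⟨x, hx⟩ with hz
  set cb : Fb := red ⟨c, hc.1⟩ with hcb
  set bb : Fb := red ⟨b, hb.1⟩ with hbb
  -- the relation `z ^ p + c̄ z - b̄ = 0`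
  have hrel : z ^ p + cb * z - bb = 0 := by
    have h1 : (⟨x, hx⟩ : O) ^ p + ⟨c, hc.1⟩ * ⟨x, hx⟩ - ⟨b, hb.1⟩ =
        ⟨algebraMap L₀ 𝓕 π, hπO⟩ * ⟨y, hy⟩ := by
      apply Subtype.ext
      simpa using e'
    have h2 := congrArg red h1
    rw [map_sub, map_add, map_pow, map_mul, map_mul, hkerπ, zero_mul] at h2
    exact h2
  -- `z` is integral over `P`
  have hcI : IsIntegral P cb := hint c hc
  have hbI : IsIntegral P bb := hint b hb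
  have hzI : IsIntegral P z := by
    have hzc : IsIntegral (integralClosure P Fb) z := by
      refine ⟨X ^ p + (C (⟨cb, hcI⟩ : integralClosure P Fb) * X - C ⟨bb, hbI⟩), ?_, ?_⟩
      · refine monic_X_pow_add ?_
        refine lt_of_le_of_lt (degree_sub_le _ _) ?_
        refine max_lt ?_ ?_
        · refine lt_of_le_of_lt (degree_C_mul_X_le _) ?_
          exact_mod_cast hp2
        · refine lt_of_le_of_lt degree_C_le ?_
          exact_mod_cast (by omega : 0 < p)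
      · simp only [eval₂_add, eval₂_sub, eval₂_mul, eval₂_pow, eval₂_X, eval₂_C]
        have : z ^ p + (cb * z - bb) = z ^ p + cb * z - bb := by ring
        rw [← hrel, ← this]
        rfl
    exact isIntegral_trans z hzc
  obtain ⟨b', hb', hb'z⟩ := hmain z hzI
  refine ⟨b', hb', ?_⟩
  have h0 : red (⟨x, hx⟩ - ⟨b', hb'.1⟩) = 0 := by rw [map_sub, hb'z, sub_self]
  obtain ⟨y', hy', hxy'⟩ := hker _ h0
  exact ⟨y', hy', hxy'⟩

end Closed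

end Fermat.Agent.Lib.S33
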