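/-
P-AT-P (S33 programme, private branch), brick **[FO-chart]** (helper9): the FIRST-ORDER / leading-term
computation in the chart/lattice language of `Lib/S18` — the chart-language versions of helper6's
contracts `s33f_LeadConst` and `s33f_LocSol` (`FOIface`).

Setting (abstract): `B ⊆ O` subrings of a field (`B` = chart ring, `O` = Gauss ring), `π ∈ B`,
`p = π ^ e ε`, `I` a `B`-stable lattice with `I ^ p ⊆ f B` (`I` = chart lattice of `E = div(f)/p`),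
`f - 1 = π ^ a u` (Kummer-side depth `a`).

* `s33k_common_lt/eq/gt` : compare `g ^ p = 1 + π ^ N v + π ^ (N+1) r` (`g ∈ I`) with `f = 1 + π ^ a u`:
  `N < a ⇒ v ≡ β`, `N = a ⇒ v - u ≡ β`, `N > a ⇒ -u ≡ β` modulo `π`, for some `β ∈ B`.
* `s33k_lift_level_gen`  : one step of level lifting at a general depth `a`.
* `s33k_level_reach`     : reach the level `K` when all `k < K` are sub-critical with `p k < a`.
* `s33k_locsol_sub/crit` : **[LocSol], chart form**: `a = p K`, `(p-1) K < e` resp. `= e`: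
  `u ≡ y ^ p - β` resp. `u ≡ y ^ p + ε y - β mod π` with `y ∈ O`, `β ∈ B`.
* `s33k_leadconst_chart_abs` : **[LeadConst], chart form**: `p ∤ a`, `(p-1) a < p e`: `u ≡ -β mod π`, `β ∈ B`.
S18 vocabulary: `s33k_chart_locsol_sub/crit`, `s33k_chart_leadconst`, and the two-chart
`s33k_leadconst` (`u ≡ c mod π` with `c ∈ A₀`, by [GLOB-1]).
-/
import Fermat.Agent.Lib.S33.KumPLevel

set_option autoImplicit false

noncomputable section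

namespace Fermat.Agent.Lib.S33

open AlgebraicCurve Fermat.Agent.Lib.FF Fermat.Agent.Lib.S18

section Abstract

variable {𝓕 : Type*} [Field 𝓕]

/-- `N < a`: the leading coefficient of `g ^ p` is congruent to an element of `B`. -/
theorem s33k_common_lt (O B : Subring 𝓕) (hBO : B ≤ O) (π : 𝓕) (hπ0 : π ≠ 0) (hπB : π ∈ B)
    (hpureB : ∀ b ∈ B, (∃ x ∈ O, b = π * x) → ∃ b' ∈ B, b = π * b')
    (f G b₀ u : 𝓕) (a : ℕ) (hb₀ : b₀ ∈ B) (eb₀ : G = f * b₀)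
    (hu : u ∈ O) (ef : f - 1 = π ^ a * u)
    (N : ℕ) (v r : 𝓕) (hv : v ∈ O) (hr : r ∈ O) (hN : N + 1 ≤ a)
    (eG : G = 1 + π ^ N * v + π ^ (N + 1) * r) :
    ∃ β ∈ B, ∃ z ∈ O, v - β = π * z := by
  have hπO : π ∈ O := hBO hπB
  have hb₀O : b₀ ∈ O := hBO hb₀
  obtain ⟨d, hd⟩ : ∃ d, a = N + 1 + d := ⟨a - (N + 1), by omega⟩
  have hb₀1 : ∃ b' ∈ B, b₀ - 1 = π ^ N * b' := by
    refine s33k_pure_pow O B π hπ0 hπO hpureB N (b₀ - 1) (B.sub_mem hb₀ B.one_mem)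
      ⟨v + π * r - π * (π ^ d * (u * b₀)), O.sub_mem (O.add_mem hv (O.mul_mem hπO hr))
        (O.mul_mem hπO (O.mul_mem (O.pow_mem hπO d) (O.mul_mem hu hb₀O))), ?_⟩
    have : b₀ - 1 = (G - 1) - (f - 1) * b₀ := by rw [eb₀]; ring
    rw [this, eG, ef, hd, pow_add, pow_add, pow_one]; ring
  obtain ⟨β, hβ, eβ⟩ := hb₀1
  refine ⟨β, hβ, π ^ d * (u * b₀) - r, O.sub_mem (O.mul_mem (O.pow_mem hπO d)
    (O.mul_mem hu hb₀O)) hr, ?_⟩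
  have hπN : π ^ N ≠ 0 := pow_ne_zero _ hπ0
  apply mul_left_cancel₀ hπN
  have : π ^ N * (v - β) = (G - 1) - π ^ (N + 1) * r - (b₀ - 1) := by
    rw [eG, eβ]; ring
  rw [this]
  have : b₀ - 1 = (G - 1) - (f - 1) * b₀ := by rw [eb₀]; ring
  rw [this, ef, hd, pow_add, pow_add, pow_one]; ring

/-- `N = a ≥ 1`: the difference of the leading coefficients is congruent to an element of `B`. -/
theorem s33k_common_eq (O B : Subring 𝓕) (hBO : B ≤ O) (π : 𝓕) (hπ0 : π ≠ 0) (hπB : π ∈ B)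
    (hpureB : ∀ b ∈ B, (∃ x ∈ O, b = π * x) → ∃ b' ∈ B, b = π * b')
    (f G b₀ u : 𝓕) (a : ℕ) (ha : 1 ≤ a) (hb₀ : b₀ ∈ B) (eb₀ : G = f * b₀)
    (hu : u ∈ O) (ef : f - 1 = π ^ a * u)
    (v r : 𝓕) (hv : v ∈ O) (hr : r ∈ O)
    (eG : G = 1 + π ^ a * v + π ^ (a + 1) * r) :
    ∃ β ∈ B, ∃ z ∈ O, v - u - β = π * z := by
  have hπO : π ∈ O := hBO hπB
  have hb₀O : b₀ ∈ O := hBO hb₀
  have hb₀1 : ∃ b' ∈ B, b₀ - 1 = π ^ a * b' := by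
    refine s33k_pure_pow O B π hπ0 hπO hpureB a (b₀ - 1) (B.sub_mem hb₀ B.one_mem)
      ⟨v + π * r - u * b₀, O.sub_mem (O.add_mem hv (O.mul_mem hπO hr)) (O.mul_mem hu hb₀O), ?_⟩
    have : b₀ - 1 = (G - 1) - (f - 1) * b₀ := by rw [eb₀]; ring
    rw [this, eG, ef, pow_succ]; ring
  obtain ⟨β, hβ, eβ⟩ := hb₀1
  refine ⟨β, hβ, π ^ (a - 1) * (u * β) - r, O.sub_mem (O.mul_mem (O.pow_mem hπO _)
    (O.mul_mem hu (hBO hβ))) hr, ?_⟩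
  have hπa : π ^ a ≠ 0 := pow_ne_zero _ hπ0
  apply mul_left_cancel₀ hπa
  have e3 : π ^ a = π * π ^ (a - 1) := by
    rw [← pow_succ']; congr 1; omega
  have eG' : G = 1 + π ^ a * v + π ^ a * π * r := by rw [eG, pow_succ]
  linear_combination (-1) * eG' + eb₀ + b₀ * ef + (1 + π ^ a * u) * eβ + π ^ a * u * β * e3

/-- `N > a ≥ 1`: the leading coefficient of `f` is congruent to an element of `B`. -/
theorem s33k_common_gt (O B : Subring 𝓕) (hBO : B ≤ O) (π : 𝓕) (hπ0 : π ≠ 0) (hπB : π ∈ B)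
    (hpureB : ∀ b ∈ B, (∃ x ∈ O, b = π * x) → ∃ b' ∈ B, b = π * b')
    (f G b₀ u : 𝓕) (a : ℕ) (ha : 1 ≤ a) (hb₀ : b₀ ∈ B) (eb₀ : G = f * b₀)
    (hu : u ∈ O) (ef : f - 1 = π ^ a * u)
    (w : 𝓕) (hw : w ∈ O) (eG : G = 1 + π ^ (a + 1) * w) :
    ∃ β ∈ B, ∃ z ∈ O, u + β = π * z := by
  have hπO : π ∈ O := hBO hπB
  have hb₀O : b₀ ∈ O := hBO hb₀
  have hb₀1 : ∃ b' ∈ B, b₀ - 1 = π ^ a * b' := by
    refine s33k_pure_pow O B π hπ0 hπO hpureB a (b₀ - 1) (B.sub_mem hb₀ B.one_mem)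
      ⟨π * w - u * b₀, O.sub_mem (O.mul_mem hπO hw) (O.mul_mem hu hb₀O), ?_⟩
    have : b₀ - 1 = (G - 1) - (f - 1) * b₀ := by rw [eb₀]; ring
    rw [this, eG, ef, pow_succ]; ring
  obtain ⟨β, hβ, eβ⟩ := hb₀1
  refine ⟨β, hβ, w - π ^ (a - 1) * (u * β), O.sub_mem hw (O.mul_mem (O.pow_mem hπO _)
    (O.mul_mem hu (hBO hβ))), ?_⟩
  have hπa : π ^ a ≠ 0 := pow_ne_zero _ hπ0
  apply mul_left_cancel₀ hπa
  have e3 : π ^ a = π * π ^ (a - 1) := by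
    rw [← pow_succ']; congr 1; omega
  have eG' : G = 1 + π ^ a * π * w := by rw [eG, pow_succ]
  linear_combination eG' - eb₀ - b₀ * ef - (1 + π ^ a * u) * eβ - π ^ a * u * β * e3

/-- **One step of level lifting at a general Kummer-side depth `a`.** -/
theorem s33k_lift_level_gen (O B : Subring 𝓕) (hBO : B ≤ O) (p : ℕ) (hp : p.Prime)
    (π ε εinv f : 𝓕) (hπ0 : π ≠ 0) (e a : ℕ)
    (I : AddSubgroup 𝓕)
    (hπB : π ∈ B) (hεB : ε ∈ B) (hεinvB : εinv ∈ B) (hε : ε * εinv = 1)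
    (hpπ : (p : 𝓕) = π ^ e * ε)
    (hBI : ∀ b ∈ B, ∀ a ∈ I, b * a ∈ I)
    (hpureB : ∀ b ∈ B, (∃ x ∈ O, b = π * x) → ∃ b' ∈ B, b = π * b')
    (hclosed : ∀ c ∈ B, ∀ x ∈ O, ∀ b ∈ B, (∃ y ∈ O, x ^ p + c * x - b = π * y) →
      ∃ b' ∈ B, ∃ y ∈ O, x - b' = π * y)
    (hpowI : ∀ a ∈ I, ∃ b ∈ B, a ^ p = f * b)
    (hf1 : ∃ u ∈ O, f - 1 = π ^ a * u)
    (k : ℕ) (hk1 : 1 ≤ k)
    (h1 : k * (p - 1) ≤ e → p * k + 1 ≤ a)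
    (h2 : e < k * (p - 1) → k + e + 1 ≤ a)
    (hg : ∃ g ∈ I, ∃ y ∈ O, g - 1 = π ^ k * y) :
    ∃ g ∈ I, ∃ y ∈ O, g - 1 = π ^ (k + 1) * y := by
  have hp2 := hp.two_le
  have hπO : π ∈ O := hBO hπB
  have hεO : ε ∈ O := hBO hεB
  obtain ⟨u, hu, ef⟩ := hf1
  obtain ⟨g, hgI, y, hy, eg⟩ := hg
  have hg' : g = 1 + π ^ k * y := by rw [← eg]; ring
  obtain ⟨b₀, hb₀, eb₀⟩ := hpowI g hgI
  have hpπO : ((p : ℕ) : O) = (⟨π, hπO⟩ : O) ^ e * ⟨ε, hεO⟩ := by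
    apply Subtype.ext
    simpa using hpπ
  -- it suffices to find `b' ∈ B` with `y ≡ b' mod π`
  suffices hsuff : ∃ b' ∈ B, ∃ z ∈ O, y - b' = π * z by
    obtain ⟨b', hb', z, hz, ez⟩ := hsuff
    refine ⟨(1 - π ^ k * b') * g, hBI _ (B.sub_mem B.one_mem (B.mul_mem (B.pow_mem hπB k) hb')) _ hgI,
      z - π ^ (k - 1) * (y * b'), O.sub_mem hz (O.mul_mem (O.pow_mem hπO _)
        (O.mul_mem hy (hBO hb'))), ?_⟩
    have e3 : π ^ k = π * π ^ (k - 1) := by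
      rw [← pow_succ']; congr 1; omega
    have e4 : π ^ (k + 1) = π ^ k * π := pow_succ π k
    rw [e4]
    linear_combination (1 - π ^ k * b') * eg + π ^ k * ez - π ^ k * (y * b') * e3
  rcases lt_trichotomy (k * (p - 1)) e with hlt | heq | hgt
  · -- sub-critical
    obtain ⟨r, hr⟩ := s33k_sub_pow (B := O) p hp ⟨π, hπO⟩ ⟨ε, hεO⟩ e hpπO k hlt ⟨y, hy⟩
    have hr' : (1 + π ^ k * y) ^ p = 1 + π ^ (p * k) * y ^ p + π ^ (p * k + 1) * (r : 𝓕) := by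
      have := congrArg Subtype.val hr
      simpa using this
    obtain ⟨β, hβ, z, hz, ez⟩ := s33k_common_lt O B hBO π hπ0 hπB hpureB f (g ^ p) b₀ u a hb₀ eb₀
      hu ef (p * k) (y ^ p) r (O.pow_mem hy p) r.2 (h1 hlt.le) (by rw [hg', hr'])
    exact hclosed 0 B.zero_mem y hy β hβ ⟨z, hz, by rw [zero_mul, add_zero, ez]⟩
  · -- critical
    obtain ⟨r, hr⟩ := s33k_crit_pow' (B := O) p hp ⟨π, hπO⟩ ⟨ε, hεO⟩ e hpπO k hk1 heq ⟨y, hy⟩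
    have hr' : (1 + π ^ k * y) ^ p =
        1 + π ^ (p * k) * (y ^ p + ε * y) + π ^ (p * k + 1) * (r : 𝓕) := by
      have := congrArg Subtype.val hr
      simpa using this
    obtain ⟨β, hβ, z, hz, ez⟩ := s33k_common_lt O B hBO π hπ0 hπB hpureB f (g ^ p) b₀ u a hb₀ eb₀
      hu ef (p * k) (y ^ p + ε * y) r (O.add_mem (O.pow_mem hy p) (O.mul_mem hεO hy)) r.2
      (h1 heq.le) (by rw [hg', hr'])
    exact hclosed ε hεB y hy β hβ ⟨z, hz, ez⟩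
  · -- super-critical
    obtain ⟨r, hr⟩ := s33k_level_pow (B := O) p hp ⟨π, hπO⟩ ⟨ε, hεO⟩ e hpπO k hgt ⟨y, hy⟩
    have hr' : (1 + π ^ k * y) ^ p =
        1 + π ^ (k + e) * (ε * y) + π ^ (k + e + 1) * (r : 𝓕) := by
      have := congrArg Subtype.val hr
      simpa using this
    obtain ⟨β, hβ, z, hz, ez⟩ := s33k_common_lt O B hBO π hπ0 hπB hpureB f (g ^ p) b₀ u a hb₀ eb₀
      hu ef (k + e) (ε * y) r (O.mul_mem hεO hy) r.2 (h2 hgt) (by rw [hg', hr'])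
    refine ⟨εinv * β, B.mul_mem hεinvB hβ, εinv * z, O.mul_mem (hBO hεinvB) hz, ?_⟩
    linear_combination εinv * ez - y * hε

/-- **Reaching the level `K`** when all `1 ≤ k < K` are sub-critical with `p k < a`. -/
theorem s33k_level_reach (O B : Subring 𝓕) (hBO : B ≤ O) (p : ℕ) (hp : p.Prime)
    (π ε εinv f : 𝓕) (hπ0 : π ≠ 0) (e a : ℕ)
    (I : AddSubgroup 𝓕)
    (hπB : π ∈ B) (hεB : ε ∈ B) (hεinvB : εinv ∈ B) (hε : ε * εinv = 1)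
    (hpπ : (p : 𝓕) = π ^ e * ε)
    (hBI : ∀ b ∈ B, ∀ a ∈ I, b * a ∈ I)
    (hpureB : ∀ b ∈ B, (∃ x ∈ O, b = π * x) → ∃ b' ∈ B, b = π * b')
    (hclosed : ∀ c ∈ B, ∀ x ∈ O, ∀ b ∈ B, (∃ y ∈ O, x ^ p + c * x - b = π * y) →
      ∃ b' ∈ B, ∃ y ∈ O, x - b' = π * y)
    (hpowI : ∀ a ∈ I, ∃ b ∈ B, a ^ p = f * b)
    (hf1 : ∃ u ∈ O, f - 1 = π ^ a * u)
    (K : ℕ) (hK : 1 ≤ K)
    (hsteps : ∀ k, 1 ≤ k → k < K → k * (p - 1) < e ∧ p * k + 1 ≤ a)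
    (hg : ∃ g ∈ I, ∃ y ∈ O, g - 1 = π * y) :
    ∃ g ∈ I, ∃ y ∈ O, g - 1 = π ^ K * y := by
  have key : ∀ k : ℕ, 1 ≤ k → k ≤ K → ∃ g ∈ I, ∃ y ∈ O, g - 1 = π ^ k * y := by
    intro k hk1
    induction k, hk1 using Nat.le_induction with
    | base =>
      intro _
      simpa using hg
    | succ k hk ih =>
      intro hkK
      obtain ⟨hs1, hs2⟩ := hsteps k hk (by omega)
      exact s33k_lift_level_gen O B hBO p hp π ε εinv f hπ0 e a I hπB hεB hεinvB hε hpπ hBI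
        hpureB hclosed hpowI hf1 k hk (fun _ => hs2) (fun h => absurd h (by omega)) (ih (by omega))
  exact key K hK le_rfl

/-- **[LocSol], chart form, sub-critical**: `a = p K`, `K (p-1) < e`: `u ≡ y ^ p - β mod π`. -/
theorem s33k_locsol_sub_abs (O B : Subring 𝓕) (hBO : B ≤ O) (p : ℕ) (hp : p.Prime)
    (π ε εinv f : 𝓕) (hπ0 : π ≠ 0) (e : ℕ)
    (I : AddSubgroup 𝓕)
    (hπB : π ∈ B) (hεB : ε ∈ B) (hεinvB : εinv ∈ B) (hε : ε * εinv = 1)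
    (hpπ : (p : 𝓕) = π ^ e * ε)
    (hBI : ∀ b ∈ B, ∀ a ∈ I, b * a ∈ I)
    (hpureB : ∀ b ∈ B, (∃ x ∈ O, b = π * x) → ∃ b' ∈ B, b = π * b')
    (hclosed : ∀ c ∈ B, ∀ x ∈ O, ∀ b ∈ B, (∃ y ∈ O, x ^ p + c * x - b = π * y) →
      ∃ b' ∈ B, ∃ y ∈ O, x - b' = π * y)
    (hpowI : ∀ a ∈ I, ∃ b ∈ B, a ^ p = f * b)
    (K : ℕ) (hK : 1 ≤ K) (hsub : K * (p - 1) < e)
    (u : 𝓕) (hu : u ∈ O) (ef : f - 1 = π ^ (p * K) * u)
    (hg : ∃ g ∈ I, ∃ y ∈ O, g - 1 = π * y) :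
    ∃ y ∈ O, ∃ β ∈ B, ∃ z ∈ O, y ^ p - u - β = π * z := by
  have hp2 := hp.two_le
  have hπO : π ∈ O := hBO hπB
  have hεO : ε ∈ O := hBO hεB
  have hpπO : ((p : ℕ) : O) = (⟨π, hπO⟩ : O) ^ e * ⟨ε, hεO⟩ := by
    apply Subtype.ext
    simpa using hpπ
  obtain ⟨g, hgI, y, hy, eg⟩ := s33k_level_reach O B hBO p hp π ε εinv f hπ0 e (p * K) I hπB hεB
    hεinvB hε hpπ hBI hpureB hclosed hpowI ⟨u, hu, ef⟩ K hK
    (by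
      intro k hk1 hkK
      constructor
      · exact lt_of_le_of_lt (Nat.mul_le_mul_right _ hkK.le) hsub
      · have : p * (k + 1) ≤ p * K := Nat.mul_le_mul_left _ hkK
        have h3 : p * (k + 1) = p * k + p := by ring
        omega) hg
  have hg' : g = 1 + π ^ K * y := by rw [← eg]; ring
  obtain ⟨b₀, hb₀, eb₀⟩ := hpowI g hgI
  obtain ⟨r, hr⟩ := s33k_sub_pow (B := O) p hp ⟨π, hπO⟩ ⟨ε, hεO⟩ e hpπO K hsub ⟨y, hy⟩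
  have hr' : (1 + π ^ K * y) ^ p = 1 + π ^ (p * K) * y ^ p + π ^ (p * K + 1) * (r : 𝓕) := by
    have := congrArg Subtype.val hr
    simpa using this
  have hpK : 1 ≤ p * K := Nat.mul_pos (by omega) hK
  obtain ⟨β, hβ, z, hz, ez⟩ := s33k_common_eq O B hBO π hπ0 hπB hpureB f (g ^ p) b₀ u (p * K) hpK
    hb₀ eb₀ hu ef (y ^ p) r (O.pow_mem hy p) r.2 (by rw [hg', hr'])
  exact ⟨y, hy, β, hβ, z, hz, ez⟩

/-- **[LocSol], chart form, critical**: `a = p K`, `K (p-1) = e`: `u ≡ y ^ p + ε y - β mod π`. -/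
theorem s33k_locsol_crit_abs (O B : Subring 𝓕) (hBO : B ≤ O) (p : ℕ) (hp : p.Prime)
    (π ε εinv f : 𝓕) (hπ0 : π ≠ 0) (e : ℕ)
    (I : AddSubgroup 𝓕)
    (hπB : π ∈ B) (hεB : ε ∈ B) (hεinvB : εinv ∈ B) (hε : ε * εinv = 1)
    (hpπ : (p : 𝓕) = π ^ e * ε)
    (hBI : ∀ b ∈ B, ∀ a ∈ I, b * a ∈ I)
    (hpureB : ∀ b ∈ B, (∃ x ∈ O, b = π * x) → ∃ b' ∈ B, b = π * b')
    (hclosed : ∀ c ∈ B, ∀ x ∈ O, ∀ b ∈ B, (∃ y ∈ O, x ^ p + c * x - b = π * y) →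
      ∃ b' ∈ B, ∃ y ∈ O, x - b' = π * y)
    (hpowI : ∀ a ∈ I, ∃ b ∈ B, a ^ p = f * b)
    (K : ℕ) (hK : 1 ≤ K) (hcrit : K * (p - 1) = e)
    (u : 𝓕) (hu : u ∈ O) (ef : f - 1 = π ^ (p * K) * u)
    (hg : ∃ g ∈ I, ∃ y ∈ O, g - 1 = π * y) :
    ∃ y ∈ O, ∃ β ∈ B, ∃ z ∈ O, y ^ p + ε * y - u - β = π * z := by
  have hp2 := hp.two_le
  have hπO : π ∈ O := hBO hπB
  have hεO : ε ∈ O := hBO hεB
  have hpπO : ((p : ℕ) : O) = (⟨π, hπO⟩ : O) ^ e * ⟨ε, hεO⟩ := by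
    apply Subtype.ext
    simpa using hpπ
  obtain ⟨g, hgI, y, hy, eg⟩ := s33k_level_reach O B hBO p hp π ε εinv f hπ0 e (p * K) I hπB hεB
    hεinvB hε hpπ hBI hpureB hclosed hpowI ⟨u, hu, ef⟩ K hK
    (by
      intro k hk1 hkK
      constructor
      · rw [← hcrit]
        exact Nat.mul_lt_mul_of_pos_right hkK (by omega)
      · have : p * (k + 1) ≤ p * K := Nat.mul_le_mul_left _ hkK
        have h3 : p * (k + 1) = p * k + p := by ring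
        omega) hg
  have hg' : g = 1 + π ^ K * y := by rw [← eg]; ring
  obtain ⟨b₀, hb₀, eb₀⟩ := hpowI g hgI
  obtain ⟨r, hr⟩ := s33k_crit_pow' (B := O) p hp ⟨π, hπO⟩ ⟨ε, hεO⟩ e hpπO K hK hcrit ⟨y, hy⟩
  have hr' : (1 + π ^ K * y) ^ p =
      1 + π ^ (p * K) * (y ^ p + ε * y) + π ^ (p * K + 1) * (r : 𝓕) := by
    have := congrArg Subtype.val hr
    simpa using this
  have hpK : 1 ≤ p * K := Nat.mul_pos (by omega) hK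
  obtain ⟨β, hβ, z, hz, ez⟩ := s33k_common_eq O B hBO π hπ0 hπB hpureB f (g ^ p) b₀ u (p * K) hpK
    hb₀ eb₀ hu ef (y ^ p + ε * y) r (O.add_mem (O.pow_mem hy p) (O.mul_mem hεO hy)) r.2
    (by rw [hg', hr'])
  exact ⟨y, hy, β, hβ, z, hz, ez⟩

/-- **[LeadConst], chart form**: `p ∤ a`, `(p-1) a < p e` (sub-critical): `u ≡ -β mod π`, `β ∈ B`:
the leading term is regular on the chart. -/
theorem s33k_leadconst_abs (O B : Subring 𝓕) (hBO : B ≤ O) (p : ℕ) (hp : p.Prime)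
    (π ε εinv f : 𝓕) (hπ0 : π ≠ 0) (e a : ℕ)
    (I : AddSubgroup 𝓕)
    (hπB : π ∈ B) (hεB : ε ∈ B) (hεinvB : εinv ∈ B) (hε : ε * εinv = 1)
    (hpπ : (p : 𝓕) = π ^ e * ε)
    (hBI : ∀ b ∈ B, ∀ a ∈ I, b * a ∈ I)
    (hpureB : ∀ b ∈ B, (∃ x ∈ O, b = π * x) → ∃ b' ∈ B, b = π * b')
    (hclosed : ∀ c ∈ B, ∀ x ∈ O, ∀ b ∈ B, (∃ y ∈ O, x ^ p + c * x - b = π * y) →
      ∃ b' ∈ B, ∃ y ∈ O, x - b' = π * y)
    (hpowI : ∀ a ∈ I, ∃ b ∈ B, a ^ p = f * b)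
    (ha1 : 1 ≤ a) (hpa : ¬ p ∣ a) (hsub : (p - 1) * a < p * e)
    (u : 𝓕) (hu : u ∈ O) (ef : f - 1 = π ^ a * u)
    (hg : ∃ g ∈ I, ∃ y ∈ O, g - 1 = π * y) :
    ∃ β ∈ B, ∃ z ∈ O, u + β = π * z := by
  have hp2 := hp.two_le
  have hπO : π ∈ O := hBO hπB
  have hεO : ε ∈ O := hBO hεB
  have hpπO : ((p : ℕ) : O) = (⟨π, hπO⟩ : O) ^ e * ⟨ε, hεO⟩ := by
    apply Subtype.ext
    simpa using hpπ
  -- `K = ⌈a/p⌉ = a / p + 1`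
  obtain ⟨q, m, hdm, hmod, hmodlt⟩ : ∃ q m : ℕ, p * q + m = a ∧ 0 < m ∧ m < p :=
    ⟨a / p, a % p, Nat.div_add_mod a p,
      Nat.pos_of_ne_zero (fun h => hpa (Nat.dvd_of_mod_eq_zero h)), Nat.mod_lt _ (by omega)⟩
  set K : ℕ := q + 1 with hKdef
  have hK : 1 ≤ K := by omega
  have hpK : a + 1 ≤ p * K := by
    have : p * K = p * q + p := by rw [hKdef]; ring
    omega
  obtain ⟨g, hgI, y, hy, eg⟩ := s33k_level_reach O B hBO p hp π ε εinv f hπ0 e a I hπB hεB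
    hεinvB hε hpπ hBI hpureB hclosed hpowI ⟨u, hu, ef⟩ K hK
    (by
      intro k hk1 hkK
      have hk : k ≤ q := by omega
      have hpk : p * k ≤ p * q := Nat.mul_le_mul_left _ hk
      have hpk' : p * k + 1 ≤ a := by omega
      refine ⟨?_, hpk'⟩
      -- `p k (p-1) < a (p-1) < p e`
      by_contra hcon
      have h5 : e ≤ k * (p - 1) := by omega
      have h6 : p * e ≤ p * (k * (p - 1)) := Nat.mul_le_mul_left _ h5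
      have h7 : p * (k * (p - 1)) = (p - 1) * (p * k) := by ring
      have h8 : (p - 1) * (p * k) ≤ (p - 1) * a := Nat.mul_le_mul_left _ (by omega)
      omega) hg
  have hg' : g = 1 + π ^ K * y := by rw [← eg]; ring
  obtain ⟨b₀, hb₀, eb₀⟩ := hpowI g hgI
  -- `g ^ p ≡ 1 mod π ^ (a+1)`
  have hw : ∃ w ∈ O, g ^ p = 1 + π ^ (a + 1) * w := by
    rcases lt_trichotomy (K * (p - 1)) e with hlt | heq | hgt
    · obtain ⟨r, hr⟩ := s33k_sub_pow (B := O) p hp ⟨π, hπO⟩ ⟨ε, hεO⟩ e hpπO K hlt ⟨y, hy⟩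
      have hr' : (1 + π ^ K * y) ^ p = 1 + π ^ (p * K) * y ^ p + π ^ (p * K + 1) * (r : 𝓕) := by
        have := congrArg Subtype.val hr
        simpa using this
      obtain ⟨d, hd⟩ : ∃ d, p * K = a + 1 + d := ⟨p * K - (a + 1), by omega⟩
      refine ⟨π ^ d * (y ^ p + π * r), O.mul_mem (O.pow_mem hπO d)
        (O.add_mem (O.pow_mem hy p) (O.mul_mem hπO r.2)), ?_⟩
      rw [hg', hr', hd, pow_succ (π) (a + 1 + d), pow_add π (a + 1) d]; ring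
    · obtain ⟨r, hr⟩ := s33k_crit_pow' (B := O) p hp ⟨π, hπO⟩ ⟨ε, hεO⟩ e hpπO K hK heq ⟨y, hy⟩
      have hr' : (1 + π ^ K * y) ^ p =
          1 + π ^ (p * K) * (y ^ p + ε * y) + π ^ (p * K + 1) * (r : 𝓕) := by
        have := congrArg Subtype.val hr
        simpa using this
      obtain ⟨d, hd⟩ : ∃ d, p * K = a + 1 + d := ⟨p * K - (a + 1), by omega⟩
      refine ⟨π ^ d * (y ^ p + ε * y + π * r), O.mul_mem (O.pow_mem hπO d)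
        (O.add_mem (O.add_mem (O.pow_mem hy p) (O.mul_mem hεO hy)) (O.mul_mem hπO r.2)), ?_⟩
      rw [hg', hr', hd, pow_succ (π) (a + 1 + d), pow_add π (a + 1) d]; ring
    · obtain ⟨r, hr⟩ := s33k_level_pow (B := O) p hp ⟨π, hπO⟩ ⟨ε, hεO⟩ e hpπO K hgt ⟨y, hy⟩
      have hr' : (1 + π ^ K * y) ^ p =
          1 + π ^ (K + e) * (ε * y) + π ^ (K + e + 1) * (r : 𝓕) := by
        have := congrArg Subtype.val hr
        simpa using this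
      -- `a < K + e`
      have hKe : a + 1 ≤ K + e := by
        by_contra hcon
        have h5 : K + e ≤ a := by omega
        have h6 : (p - 1) * (K + e) ≤ (p - 1) * a := Nat.mul_le_mul_left _ h5
        have h7 : (p - 1) * (K + e) = K * (p - 1) + (p - 1) * e := by ring
        have h8 : p * e = (p - 1) * e + e := by
          obtain ⟨q, rfl⟩ : ∃ q, p = q + 1 := ⟨p - 1, by omega⟩
          simp only [Nat.add_sub_cancel]; ring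
        omega
      obtain ⟨d, hd⟩ : ∃ d, K + e = a + 1 + d := ⟨K + e - (a + 1), by omega⟩
      refine ⟨π ^ d * (ε * y + π * r), O.mul_mem (O.pow_mem hπO d)
        (O.add_mem (O.mul_mem hεO hy) (O.mul_mem hπO r.2)), ?_⟩
      rw [hg', hr', hd, pow_succ (π) (a + 1 + d), pow_add π (a + 1) d]; ring
  obtain ⟨w, hw, eG⟩ := hw
  exact s33k_common_gt O B hBO π hπ0 hπB hpureB f (g ^ p) b₀ u a ha1 hb₀ eb₀ hu ef w hw eG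

end Abstract

section Charts

variable {L₀ 𝓕 : Type*} [Field L₀] [Field 𝓕] [Algebra L₀ 𝓕]

/-- The abstract hypotheses of the first-order lemmas for a chart `S` of the S18 model: `B`-stability,
purity, `I ^ p ⊆ f B`, and an element `≡ 1 mod π` of the chart lattice of `E = div(f)/p`. -/
theorem s33k_chart_setup (A₀ : ValuationSubring L₀) (O : ValuationSubring 𝓕)
    (hAO : ∀ a : A₀, algebraMap L₀ 𝓕 (a : L₀) ∈ O)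
    (ϖ : A₀) (hϖ0 : (ϖ : L₀) ≠ 0)
    (hϖ : ¬ ∃ y ∈ O, (1 : 𝓕) = algebraMap L₀ 𝓕 (ϖ : L₀) * y)
    (p : ℕ) (hp : p.Prime) (ε εinv : A₀) (hε : ε * εinv = 1)
    (e : ℕ) (hpϖ : (p : L₀) = (ϖ : L₀) ^ e * (ε : L₀))
    (S : Set (Place L₀ 𝓕)) (f : 𝓕)
    (hdiv : ∀ Q : Place L₀ 𝓕, (p : ℤ) ∣ Q.ord f)
    (hf1 : ∃ y ∈ O, f - 1 = algebraMap L₀ 𝓕 (ϖ : L₀) * y)
    (hclosed : ∀ c ∈ s18_ring O S, ∀ x ∈ O, ∀ b ∈ s18_ring O S,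
      (∃ y ∈ O, x ^ p + c * x - b = algebraMap L₀ 𝓕 (ϖ : L₀) * y) →
        ∃ b' ∈ s18_ring O S, ∃ y ∈ O, x - b' = algebraMap L₀ 𝓕 (ϖ : L₀) * y)
    (hinv : ∃ (s : Finset ℕ) (a b : ℕ → 𝓕), (∀ j ∈ s, a j ∈ s18_latSet O S (s18_E f p)) ∧
      (∀ j ∈ s, b j ∈ s18_latSet O S (fun Q => -s18_E f p Q)) ∧ ∑ j ∈ s, a j * b j = 1) :
    algebraMap L₀ 𝓕 (ϖ : L₀) ≠ 0 ∧
    algebraMap L₀ 𝓕 (ϖ : L₀) ∈ s18_ring O S ∧
    algebraMap L₀ 𝓕 (ε : L₀) ∈ s18_ring O S ∧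
    algebraMap L₀ 𝓕 (εinv : L₀) ∈ s18_ring O S ∧
    algebraMap L₀ 𝓕 (ε : L₀) * algebraMap L₀ 𝓕 (εinv : L₀) = 1 ∧
    (p : 𝓕) = algebraMap L₀ 𝓕 (ϖ : L₀) ^ e * algebraMap L₀ 𝓕 (ε : L₀) ∧
    (∀ b ∈ s18_ring O S, ∀ a ∈ s18_latAdd O S (s18_E f p),
      b * a ∈ s18_latAdd O S (s18_E f p)) ∧
    (∀ b ∈ s18_ring O S, (∃ x ∈ O.toSubring, b = algebraMap L₀ 𝓕 (ϖ : L₀) * x) →
      ∃ b' ∈ s18_ring O S, b = algebraMap L₀ 𝓕 (ϖ : L₀) * b') ∧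
    (∀ a ∈ s18_latAdd O S (s18_E f p), ∃ b ∈ s18_ring O S, a ^ p = f * b) ∧
    (∃ g ∈ s18_latAdd O S (s18_E f p), ∃ y ∈ O.toSubring,
      g - 1 = algebraMap L₀ 𝓕 (ϖ : L₀) * y) := by
  have hp0 : p ≠ 0 := hp.ne_zero
  set π : 𝓕 := algebraMap L₀ 𝓕 (ϖ : L₀) with hπdef
  have hπO : π ∈ O := hAO ϖ
  have hπ0 : π ≠ 0 := by rw [hπdef]; simpa using hϖ0
  have hfO : f ∈ O := by
    obtain ⟨y, hy, e'⟩ := hf1
    have : f = 1 + π * y := by rw [← e']; ring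
    rw [this]; exact O.add_mem _ _ O.one_mem (O.mul_mem _ _ hπO hy)
  have hfinv : f⁻¹ ∈ O := s18x_inv_mem O π f hπO hϖ hf1
  have hf0 : f ≠ 0 := by
    rintro rfl
    obtain ⟨y, hy, e'⟩ := hf1
    exact hϖ ⟨-y, O.neg_mem _ hy, by rw [mul_neg, ← e']; ring⟩
  have hE : ∀ Q : Place L₀ 𝓕, (p : ℤ) * s18_E f p Q = Q.ord f := s18_E_mul f p hdiv
  have hconst : ∀ a : A₀, algebraMap L₀ 𝓕 (a : L₀) ∈ s18_ring O S := fun a =>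
    ⟨hAO a, fun Q _ => Q.algebraMap_mem' _⟩
  have hεε : algebraMap L₀ 𝓕 (ε : L₀) * algebraMap L₀ 𝓕 (εinv : L₀) = 1 := by
    rw [← map_mul]
    have : (ε : L₀) * (εinv : L₀) = 1 := by
      have := congrArg Subtype.val hε
      simpa using this
    rw [this, map_one]
  have hpπ : (p : 𝓕) = π ^ e * algebraMap L₀ 𝓕 (ε : L₀) := by
    rw [hπdef, ← map_pow, ← map_mul, ← hpϖ, map_natCast]
  have hBI : ∀ b ∈ s18_ring O S, ∀ a ∈ s18_latAdd O S (s18_E f p),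
      b * a ∈ s18_latAdd O S (s18_E f p) := by
    intro b hb a ha
    have hb' : b ∈ s18_latSet O S (fun _ => 0) := by
      rw [← s18_ringSet_eq_latSet_zero]; exact hb
    have := s18_latSet_mul O S _ _ hb' ha
    simp only [zero_add] at this
    exact this
  have hpowI : ∀ a ∈ s18_latAdd O S (s18_E f p), ∃ b ∈ s18_ring O S, a ^ p = f * b := by
    intro a ha
    refine ⟨f⁻¹ * a ^ p, ?_, by rw [← mul_assoc, mul_inv_cancel₀ hf0, one_mul]⟩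
    refine ⟨O.mul_mem _ _ hfinv (O.pow_mem ha.1 p), fun Q hQ => ?_⟩
    by_cases ha0 : a = 0
    · rw [ha0, zero_pow hp0, mul_zero]; exact Q.toValuationSubring.zero_mem
    have hne : f⁻¹ * a ^ p ≠ 0 := mul_ne_zero (inv_ne_zero hf0) (pow_ne_zero _ ha0)
    rw [ff_mem_iff_ord_nonneg Q hne, Q.ord_mul (inv_ne_zero hf0) (pow_ne_zero _ ha0),
      Q.ord_inv, ← zpow_natCast, Q.ord_zpow, ← hE Q]
    have h := (ha.2 Q hQ).resolve_left ha0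
    have hm' : (0 : ℤ) ≤ (p : ℤ) := Int.natCast_nonneg p
    nlinarith [mul_le_mul_of_nonneg_left h hm']
  have hpowI' : ∀ a ∈ s18_latAdd O S (fun Q => -s18_E f p Q),
      ∃ b ∈ s18_ring O S, f * a ^ p = b := by
    intro a ha
    refine ⟨f * a ^ p, ?_, rfl⟩
    refine ⟨O.mul_mem _ _ hfO (O.pow_mem ha.1 p), fun Q hQ => ?_⟩
    by_cases ha0 : a = 0
    · rw [ha0, zero_pow hp0, mul_zero]; exact Q.toValuationSubring.zero_mem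
    have hne : f * a ^ p ≠ 0 := mul_ne_zero hf0 (pow_ne_zero _ ha0)
    rw [ff_mem_iff_ord_nonneg Q hne, Q.ord_mul hf0 (pow_ne_zero _ ha0),
      ← zpow_natCast, Q.ord_zpow, ← hE Q]
    have h := (ha.2 Q hQ).resolve_left ha0
    have hm' : (0 : ℤ) ≤ (p : ℤ) := Int.natCast_nonneg p
    nlinarith [mul_le_mul_of_nonneg_left h hm']
  have hpure : ∀ b ∈ s18_ring O S, (∃ x ∈ O.toSubring, b = π * x) →
      ∃ b' ∈ s18_ring O S, b = π * b' := by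
    intro b hb ⟨x, hx, hbx⟩
    have hb' : b ∈ s18_latSet O S (fun _ => 0) := by
      rw [← s18_ringSet_eq_latSet_zero]; exact hb
    have hx' := s18_lat_pure O S (fun _ => 0) (ϖ : L₀) hϖ0 hb' hx hbx
    rw [← s18_ringSet_eq_latSet_zero] at hx'
    exact ⟨x, hx', hbx⟩
  have hroot : ∀ x ∈ O.toSubring, ∀ b ∈ s18_ring O S, (∃ y ∈ O.toSubring, x ^ p - b = π * y) →
      ∃ b' ∈ s18_ring O S, ∃ y ∈ O.toSubring, x - b' = π * y := by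
    intro x hx b hb ⟨y, hy, e'⟩
    exact hclosed 0 (s18_ring O S).zero_mem x hx b hb ⟨y, hy, by rw [zero_mul, add_zero, e']⟩
  have hg1 := s33k_one_mod_pi (𝓕 := 𝓕) O.toSubring (s18_ring O S) π f p
    (s18_latAdd O S (s18_E f p)) (s18_latAdd O S (fun Q => -s18_E f p Q))
    (fun a ha => ha.1) (fun b hb => hb.1) hBI hroot hinv hpowI' hf1
  exact ⟨hπ0, hconst ϖ, hconst ε, hconst εinv, hεε, hpπ, hBI, hpure, hpowI, hg1⟩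

/-- `f ≡ 1 mod π ^ a`, `a ≥ 1` ⇒ `f ≡ 1 mod π`. -/
theorem s33k_cong_one_of_pow (O : ValuationSubring 𝓕) (π f u : 𝓕) (hπO : π ∈ O) (a : ℕ)
    (ha : 1 ≤ a) (hu : u ∈ O) (ef : f - 1 = π ^ a * u) : ∃ y ∈ O, f - 1 = π * y := by
  refine ⟨π ^ (a - 1) * u, O.mul_mem _ _ (O.pow_mem hπO _) hu, ?_⟩
  have e3 : π ^ a = π * π ^ (a - 1) := by
    rw [← pow_succ']; congr 1; omega
  rw [ef, e3]; ring

/-- **[LocSol], S18 chart form, sub-critical** (`a = p K`, `K (p-1) < e`): on the chart `S` the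
leading coefficient `u = (f-1)/π ^ a` is `≡ y ^ p - β mod π` with `y ∈ O`, `β` in the chart ring. -/
theorem s33k_chart_locsol_sub (A₀ : ValuationSubring L₀) (O : ValuationSubring 𝓕)
    (hAO : ∀ a : A₀, algebraMap L₀ 𝓕 (a : L₀) ∈ O)
    (ϖ : A₀) (hϖ0 : (ϖ : L₀) ≠ 0)
    (hϖ : ¬ ∃ y ∈ O, (1 : 𝓕) = algebraMap L₀ 𝓕 (ϖ : L₀) * y)
    (p : ℕ) (hp : p.Prime) (ε εinv : A₀) (hε : ε * εinv = 1)
    (e : ℕ) (hpϖ : (p : L₀) = (ϖ : L₀) ^ e * (ε : L₀))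
    (S : Set (Place L₀ 𝓕)) (f : 𝓕)
    (hdiv : ∀ Q : Place L₀ 𝓕, (p : ℤ) ∣ Q.ord f)
    (K : ℕ) (hK : 1 ≤ K) (hsub : K * (p - 1) < e)
    (u : 𝓕) (hu : u ∈ O) (ef : f - 1 = algebraMap L₀ 𝓕 (ϖ : L₀) ^ (p * K) * u)
    (hclosed : ∀ c ∈ s18_ring O S, ∀ x ∈ O, ∀ b ∈ s18_ring O S,
      (∃ y ∈ O, x ^ p + c * x - b = algebraMap L₀ 𝓕 (ϖ : L₀) * y) →
        ∃ b' ∈ s18_ring O S, ∃ y ∈ O, x - b' = algebraMap L₀ 𝓕 (ϖ : L₀) * y)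
    (hinv : ∃ (s : Finset ℕ) (a b : ℕ → 𝓕), (∀ j ∈ s, a j ∈ s18_latSet O S (s18_E f p)) ∧
      (∀ j ∈ s, b j ∈ s18_latSet O S (fun Q => -s18_E f p Q)) ∧ ∑ j ∈ s, a j * b j = 1) :
    ∃ y ∈ O, ∃ β ∈ s18_ring O S, ∃ z ∈ O,
      y ^ p - u - β = algebraMap L₀ 𝓕 (ϖ : L₀) * z := by
  have hpK : 1 ≤ p * K := Nat.mul_pos hp.pos hK
  obtain ⟨hπ0, hπB, hεB, hεinvB, hεε, hpπ, hBI, hpure, hpowI, hg1⟩ :=
    s33k_chart_setup A₀ O hAO ϖ hϖ0 hϖ p hp ε εinv hε e hpϖ S f hdiv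
      (s33k_cong_one_of_pow O _ f u (hAO ϖ) (p * K) hpK hu ef) hclosed hinv
  exact s33k_locsol_sub_abs (𝓕 := 𝓕) O.toSubring (s18_ring O S) (s18_ring_le O S) p hp _ _ _ f hπ0 e
    (s18_latAdd O S (s18_E f p)) hπB hεB hεinvB hεε hpπ hBI hpure hclosed hpowI K hK hsub u hu ef
    hg1

/-- **[LocSol], S18 chart form, critical** (`a = p K`, `K (p-1) = e`):
`u ≡ y ^ p + ε y - β mod π`. -/
theorem s33k_chart_locsol_crit (A₀ : ValuationSubring L₀) (O : ValuationSubring 𝓕)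
    (hAO : ∀ a : A₀, algebraMap L₀ 𝓕 (a : L₀) ∈ O)
    (ϖ : A₀) (hϖ0 : (ϖ : L₀) ≠ 0)
    (hϖ : ¬ ∃ y ∈ O, (1 : 𝓕) = algebraMap L₀ 𝓕 (ϖ : L₀) * y)
    (p : ℕ) (hp : p.Prime) (ε εinv : A₀) (hε : ε * εinv = 1)
    (e : ℕ) (hpϖ : (p : L₀) = (ϖ : L₀) ^ e * (ε : L₀))
    (S : Set (Place L₀ 𝓕)) (f : 𝓕)
    (hdiv : ∀ Q : Place L₀ 𝓕, (p : ℤ) ∣ Q.ord f)
    (K : ℕ) (hK : 1 ≤ K) (hcrit : K * (p - 1) = e)
    (u : 𝓕) (hu : u ∈ O) (ef : f - 1 = algebraMap L₀ 𝓕 (ϖ : L₀) ^ (p * K) * u)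
    (hclosed : ∀ c ∈ s18_ring O S, ∀ x ∈ O, ∀ b ∈ s18_ring O S,
      (∃ y ∈ O, x ^ p + c * x - b = algebraMap L₀ 𝓕 (ϖ : L₀) * y) →
        ∃ b' ∈ s18_ring O S, ∃ y ∈ O, x - b' = algebraMap L₀ 𝓕 (ϖ : L₀) * y)
    (hinv : ∃ (s : Finset ℕ) (a b : ℕ → 𝓕), (∀ j ∈ s, a j ∈ s18_latSet O S (s18_E f p)) ∧
      (∀ j ∈ s, b j ∈ s18_latSet O S (fun Q => -s18_E f p Q)) ∧ ∑ j ∈ s, a j * b j = 1) :
    ∃ y ∈ O, ∃ β ∈ s18_ring O S, ∃ z ∈ O,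
      y ^ p + algebraMap L₀ 𝓕 (ε : L₀) * y - u - β = algebraMap L₀ 𝓕 (ϖ : L₀) * z := by
  have hpK : 1 ≤ p * K := Nat.mul_pos hp.pos hK
  obtain ⟨hπ0, hπB, hεB, hεinvB, hεε, hpπ, hBI, hpure, hpowI, hg1⟩ :=
    s33k_chart_setup A₀ O hAO ϖ hϖ0 hϖ p hp ε εinv hε e hpϖ S f hdiv
      (s33k_cong_one_of_pow O _ f u (hAO ϖ) (p * K) hpK hu ef) hclosed hinv
  exact s33k_locsol_crit_abs (𝓕 := 𝓕) O.toSubring (s18_ring O S) (s18_ring_le O S) p hp _ _ _ f hπ0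
    e (s18_latAdd O S (s18_E f p)) hπB hεB hεinvB hεε hpπ hBI hpure hclosed hpowI K hK hcrit u hu ef
    hg1

/-- **[LeadConst], S18 chart form** (`p ∤ a`, `(p-1) a < p e`): on the chart `S` the leading
coefficient `u` is `≡ -β mod π` with `β` in the chart ring. -/
theorem s33k_chart_leadconst (A₀ : ValuationSubring L₀) (O : ValuationSubring 𝓕)
    (hAO : ∀ a : A₀, algebraMap L₀ 𝓕 (a : L₀) ∈ O)
    (ϖ : A₀) (hϖ0 : (ϖ : L₀) ≠ 0)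
    (hϖ : ¬ ∃ y ∈ O, (1 : 𝓕) = algebraMap L₀ 𝓕 (ϖ : L₀) * y)
    (p : ℕ) (hp : p.Prime) (ε εinv : A₀) (hε : ε * εinv = 1)
    (e : ℕ) (hpϖ : (p : L₀) = (ϖ : L₀) ^ e * (ε : L₀))
    (S : Set (Place L₀ 𝓕)) (f : 𝓕)
    (hdiv : ∀ Q : Place L₀ 𝓕, (p : ℤ) ∣ Q.ord f)
    (a : ℕ) (ha1 : 1 ≤ a) (hpa : ¬ p ∣ a) (hsub : (p - 1) * a < p * e)
    (u : 𝓕) (hu : u ∈ O) (ef : f - 1 = algebraMap L₀ 𝓕 (ϖ : L₀) ^ a * u)
    (hclosed : ∀ c ∈ s18_ring O S, ∀ x ∈ O, ∀ b ∈ s18_ring O S,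
      (∃ y ∈ O, x ^ p + c * x - b = algebraMap L₀ 𝓕 (ϖ : L₀) * y) →
        ∃ b' ∈ s18_ring O S, ∃ y ∈ O, x - b' = algebraMap L₀ 𝓕 (ϖ : L₀) * y)
    (hinv : ∃ (s : Finset ℕ) (a b : ℕ → 𝓕), (∀ j ∈ s, a j ∈ s18_latSet O S (s18_E f p)) ∧
      (∀ j ∈ s, b j ∈ s18_latSet O S (fun Q => -s18_E f p Q)) ∧ ∑ j ∈ s, a j * b j = 1) :
    ∃ β ∈ s18_ring O S, ∃ z ∈ O, u + β = algebraMap L₀ 𝓕 (ϖ : L₀) * z := by
  obtain ⟨hπ0, hπB, hεB, hεinvB, hεε, hpπ, hBI, hpure, hpowI, hg1⟩ :=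
    s33k_chart_setup A₀ O hAO ϖ hϖ0 hϖ p hp ε εinv hε e hpϖ S f hdiv
      (s33k_cong_one_of_pow O _ f u (hAO ϖ) a ha1 hu ef) hclosed hinv
  exact s33k_leadconst_abs (𝓕 := 𝓕) O.toSubring (s18_ring O S) (s18_ring_le O S) p hp _ _ _ f hπ0
    e a (s18_latAdd O S (s18_E f p)) hπB hεB hεinvB hεε hpπ hBI hpure hclosed hpowI ha1 hpa hsub
    u hu ef hg1

/-- **[LeadConst], two-chart form**: `p ∤ a`, `a` sub-critical, [S]/[I] on both charts and [GLOB-1]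
⇒ the leading coefficient `u = (f - 1)/π ^ a` is congruent to a CONSTANT modulo `π`. -/
theorem s33k_leadconst (A₀ : ValuationSubring L₀) (O : ValuationSubring 𝓕)
    (hAO : ∀ a : A₀, algebraMap L₀ 𝓕 (a : L₀) ∈ O)
    (ϖ : A₀) (hϖ0 : (ϖ : L₀) ≠ 0)
    (hϖ : ¬ ∃ y ∈ O, (1 : 𝓕) = algebraMap L₀ 𝓕 (ϖ : L₀) * y)
    (p : ℕ) (hp : p.Prime) (ε εinv : A₀) (hε : ε * εinv = 1)
    (e : ℕ) (hpϖ : (p : L₀) = (ϖ : L₀) ^ e * (ε : L₀))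
    (t f : 𝓕)
    (hdiv : ∀ Q : Place L₀ 𝓕, (p : ℤ) ∣ Q.ord f)
    (a : ℕ) (ha1 : 1 ≤ a) (hpa : ¬ p ∣ a) (hsub : (p - 1) * a < p * e)
    (u : 𝓕) (hu : u ∈ O) (ef : f - 1 = algebraMap L₀ 𝓕 (ϖ : L₀) ^ a * u)
    (hclosed1 : ∀ c ∈ s18_ring O (s18_chart1 (L₀ := L₀) t), ∀ x ∈ O,
      ∀ b ∈ s18_ring O (s18_chart1 (L₀ := L₀) t),
      (∃ y ∈ O, x ^ p + c * x - b = algebraMap L₀ 𝓕 (ϖ : L₀) * y) →
        ∃ b' ∈ s18_ring O (s18_chart1 (L₀ := L₀) t), ∃ y ∈ O,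
          x - b' = algebraMap L₀ 𝓕 (ϖ : L₀) * y)
    (hclosed2 : ∀ c ∈ s18_ring O (s18_chart2 (L₀ := L₀) t), ∀ x ∈ O,
      ∀ b ∈ s18_ring O (s18_chart2 (L₀ := L₀) t),
      (∃ y ∈ O, x ^ p + c * x - b = algebraMap L₀ 𝓕 (ϖ : L₀) * y) →
        ∃ b' ∈ s18_ring O (s18_chart2 (L₀ := L₀) t), ∃ y ∈ O,
          x - b' = algebraMap L₀ 𝓕 (ϖ : L₀) * y)
    (hinv1 : ∃ (s : Finset ℕ) (a b : ℕ → 𝓕),
      (∀ j ∈ s, a j ∈ s18_latSet O (s18_chart1 (L₀ := L₀) t) (s18_E f p)) ∧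
      (∀ j ∈ s, b j ∈ s18_latSet O (s18_chart1 (L₀ := L₀) t) (fun Q => -s18_E f p Q)) ∧
      ∑ j ∈ s, a j * b j = 1)
    (hinv2 : ∃ (s : Finset ℕ) (a b : ℕ → 𝓕),
      (∀ j ∈ s, a j ∈ s18_latSet O (s18_chart2 (L₀ := L₀) t) (s18_E f p)) ∧
      (∀ j ∈ s, b j ∈ s18_latSet O (s18_chart2 (L₀ := L₀) t) (fun Q => -s18_E f p Q)) ∧
      ∑ j ∈ s, a j * b j = 1)
    (hglob : ∀ y ∈ O,
      (∃ b ∈ s18_ring O (s18_chart1 (L₀ := L₀) t), ∃ z ∈ O,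
        y - b = algebraMap L₀ 𝓕 (ϖ : L₀) * z) →
      (∃ b ∈ s18_ring O (s18_chart2 (L₀ := L₀) t), ∃ z ∈ O,
        y - b = algebraMap L₀ 𝓕 (ϖ : L₀) * z) →
      ∃ c : A₀, ∃ z ∈ O, y - algebraMap L₀ 𝓕 (c : L₀) = algebraMap L₀ 𝓕 (ϖ : L₀) * z) :
    ∃ c : A₀, ∃ z ∈ O, u - algebraMap L₀ 𝓕 (c : L₀) = algebraMap L₀ 𝓕 (ϖ : L₀) * z := by
  obtain ⟨β₁, hβ₁, z₁, hz₁, e₁⟩ := s33k_chart_leadconst A₀ O hAO ϖ hϖ0 hϖ p hp ε εinv hε e hpϖ _ f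
    hdiv a ha1 hpa hsub u hu ef hclosed1 hinv1
  obtain ⟨β₂, hβ₂, z₂, hz₂, e₂⟩ := s33k_chart_leadconst A₀ O hAO ϖ hϖ0 hϖ p hp ε εinv hε e hpϖ _ f
    hdiv a ha1 hpa hsub u hu ef hclosed2 hinv2
  exact hglob u hu
    ⟨-β₁, (s18_ring O _).neg_mem hβ₁, z₁, hz₁, by rw [sub_neg_eq_add, e₁]⟩
    ⟨-β₂, (s18_ring O _).neg_mem hβ₂, z₂, hz₂, by rw [sub_neg_eq_add, e₂]⟩

end Charts

end Fermat.Agent.Lib.S33
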