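/-
P-AT-P (S33 programme, private branch), brick **[FO-chart-out]** (helper9): the chart-language
leading-term statements in EXACTLY the shape asked by helper6 (#2007) for his bridge `FOGeo`:

  `f - 1 = π ^ a * (Ψ_a x + β) + π ^ (a + 1) * y`,  `x, y ∈ O` (Gauss ring), `β ∈ B = s18_ring O S`,

with `Ψ_a x = 0` (`p ∤ a`, `(p-1) a < p e`: `s33k_lead_chart_lin`), `Ψ_a x = x ^ p`
(`a = p m`, `(p-1) m < e`: `s33k_lead_chart_sub`), `Ψ_a x = x ^ p + ε x`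
(`a = p m`, `(p-1) m = e`: `s33k_lead_chart_crit`).  Inputs: `p ∣ ord_Q f` for all `Q`,
`f ≡ 1 mod π ^ a`, `a ≥ 1`, and the S18 chart inputs [S] `hclosed`, [I] `hinv`.
The super-critical case is `s33k_superCritical` (`KumPLevel`).
-/
import Fermat.Agent.Lib.S33.KumPLead

set_option autoImplicit false

noncomputable section

namespace Fermat.Agent.Lib.S33

open AlgebraicCurve Fermat.Agent.Lib.FF Fermat.Agent.Lib.S18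

section ChartsOut

variable {L₀ 𝓕 : Type*} [Field L₀] [Field 𝓕] [Algebra L₀ 𝓕]

/-- **Leading term, linear range** (`p ∤ a`, `(p-1) a < p e`): the leading coefficient of `f - 1` at
depth `a` is congruent mod `π` to an element of the chart ring. -/
theorem s33k_lead_chart_lin (A₀ : ValuationSubring L₀) (O : ValuationSubring 𝓕)
    (hAO : ∀ a : A₀, algebraMap L₀ 𝓕 (a : L₀) ∈ O)
    (ϖ : A₀) (hϖ0 : (ϖ : L₀) ≠ 0)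
    (hϖ : ¬ ∃ y ∈ O, (1 : 𝓕) = algebraMap L₀ 𝓕 (ϖ : L₀) * y)
    (p : ℕ) (hp : p.Prime) (ε εinv : A₀) (hε : ε * εinv = 1)
    (e : ℕ) (hpϖ : (p : L₀) = (ϖ : L₀) ^ e * (ε : L₀))
    (S : Set (Place L₀ 𝓕)) (f : 𝓕)
    (hdiv : ∀ Q : Place L₀ 𝓕, (p : ℤ) ∣ Q.ord f)
    (a : ℕ) (ha1 : 1 ≤ a) (hpa : ¬ p ∣ a) (hsub : (p - 1) * a < p * e)
    (hf1 : ∃ u ∈ O, f - 1 = algebraMap L₀ 𝓕 (ϖ : L₀) ^ a * u)
    (hclosed : ∀ c ∈ s18_ring O S, ∀ x ∈ O, ∀ b ∈ s18_ring O S,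
      (∃ y ∈ O, x ^ p + c * x - b = algebraMap L₀ 𝓕 (ϖ : L₀) * y) →
        ∃ b' ∈ s18_ring O S, ∃ y ∈ O, x - b' = algebraMap L₀ 𝓕 (ϖ : L₀) * y)
    (hinv : ∃ (s : Finset ℕ) (a b : ℕ → 𝓕), (∀ j ∈ s, a j ∈ s18_latSet O S (s18_E f p)) ∧
      (∀ j ∈ s, b j ∈ s18_latSet O S (fun Q => -s18_E f p Q)) ∧ ∑ j ∈ s, a j * b j = 1) :
    ∃ β ∈ s18_ring O S, ∃ y ∈ O,
      f - 1 = algebraMap L₀ 𝓕 (ϖ : L₀) ^ a * β + algebraMap L₀ 𝓕 (ϖ : L₀) ^ (a + 1) * y := by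
  obtain ⟨u, hu, ef⟩ := hf1
  obtain ⟨β, hβ, z, hz, h⟩ := s33k_chart_leadconst A₀ O hAO ϖ hϖ0 hϖ p hp ε εinv hε e hpϖ S f hdiv
    a ha1 hpa hsub u hu ef hclosed hinv
  refine ⟨-β, (s18_ring O S).neg_mem hβ, z, hz, ?_⟩
  have hu' : u = algebraMap L₀ 𝓕 (ϖ : L₀) * z - β := by rw [← h]; ring
  rw [ef, hu']; ring

/-- **Leading term, sub-critical range** (`a = p m`, `(p-1) m < e`): the leading coefficient of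
`f - 1` at depth `a` is `x ^ p + β` mod `π`, `x ∈ O`, `β` in the chart ring. -/
theorem s33k_lead_chart_sub (A₀ : ValuationSubring L₀) (O : ValuationSubring 𝓕)
    (hAO : ∀ a : A₀, algebraMap L₀ 𝓕 (a : L₀) ∈ O)
    (ϖ : A₀) (hϖ0 : (ϖ : L₀) ≠ 0)
    (hϖ : ¬ ∃ y ∈ O, (1 : 𝓕) = algebraMap L₀ 𝓕 (ϖ : L₀) * y)
    (p : ℕ) (hp : p.Prime) (ε εinv : A₀) (hε : ε * εinv = 1)
    (e : ℕ) (hpϖ : (p : L₀) = (ϖ : L₀) ^ e * (ε : L₀))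
    (S : Set (Place L₀ 𝓕)) (f : 𝓕)
    (hdiv : ∀ Q : Place L₀ 𝓕, (p : ℤ) ∣ Q.ord f)
    (m : ℕ) (hm : 1 ≤ m) (hsub : (p - 1) * m < e)
    (hf1 : ∃ u ∈ O, f - 1 = algebraMap L₀ 𝓕 (ϖ : L₀) ^ (p * m) * u)
    (hclosed : ∀ c ∈ s18_ring O S, ∀ x ∈ O, ∀ b ∈ s18_ring O S,
      (∃ y ∈ O, x ^ p + c * x - b = algebraMap L₀ 𝓕 (ϖ : L₀) * y) →
        ∃ b' ∈ s18_ring O S, ∃ y ∈ O, x - b' = algebraMap L₀ 𝓕 (ϖ : L₀) * y)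
    (hinv : ∃ (s : Finset ℕ) (a b : ℕ → 𝓕), (∀ j ∈ s, a j ∈ s18_latSet O S (s18_E f p)) ∧
      (∀ j ∈ s, b j ∈ s18_latSet O S (fun Q => -s18_E f p Q)) ∧ ∑ j ∈ s, a j * b j = 1) :
    ∃ x ∈ O, ∃ β ∈ s18_ring O S, ∃ y ∈ O,
      f - 1 = algebraMap L₀ 𝓕 (ϖ : L₀) ^ (p * m) * (x ^ p + β)
        + algebraMap L₀ 𝓕 (ϖ : L₀) ^ (p * m + 1) * y := by
  obtain ⟨u, hu, ef⟩ := hf1
  obtain ⟨x, hx, β, hβ, z, hz, h⟩ := s33k_chart_locsol_sub A₀ O hAO ϖ hϖ0 hϖ p hp ε εinv hε e hpϖ S f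
    hdiv m hm (by rw [Nat.mul_comm]; exact hsub) u hu ef hclosed hinv
  refine ⟨x, hx, -β, (s18_ring O S).neg_mem hβ, -z, O.neg_mem _ hz, ?_⟩
  have hu' : u = x ^ p - β - algebraMap L₀ 𝓕 (ϖ : L₀) * z := by rw [← h]; ring
  rw [ef, hu']; ring

/-- **Leading term, critical level** (`a = p m`, `(p-1) m = e`): the leading coefficient of `f - 1`
at depth `a` is `x ^ p + ε x + β` mod `π`, `x ∈ O`, `β` in the chart ring (`p = π ^ e ε`). -/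
theorem s33k_lead_chart_crit (A₀ : ValuationSubring L₀) (O : ValuationSubring 𝓕)
    (hAO : ∀ a : A₀, algebraMap L₀ 𝓕 (a : L₀) ∈ O)
    (ϖ : A₀) (hϖ0 : (ϖ : L₀) ≠ 0)
    (hϖ : ¬ ∃ y ∈ O, (1 : 𝓕) = algebraMap L₀ 𝓕 (ϖ : L₀) * y)
    (p : ℕ) (hp : p.Prime) (ε εinv : A₀) (hε : ε * εinv = 1)
    (e : ℕ) (hpϖ : (p : L₀) = (ϖ : L₀) ^ e * (ε : L₀))
    (S : Set (Place L₀ 𝓕)) (f : 𝓕)
    (hdiv : ∀ Q : Place L₀ 𝓕, (p : ℤ) ∣ Q.ord f)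
    (m : ℕ) (hm : 1 ≤ m) (hcrit : (p - 1) * m = e)
    (hf1 : ∃ u ∈ O, f - 1 = algebraMap L₀ 𝓕 (ϖ : L₀) ^ (p * m) * u)
    (hclosed : ∀ c ∈ s18_ring O S, ∀ x ∈ O, ∀ b ∈ s18_ring O S,
      (∃ y ∈ O, x ^ p + c * x - b = algebraMap L₀ 𝓕 (ϖ : L₀) * y) →
        ∃ b' ∈ s18_ring O S, ∃ y ∈ O, x - b' = algebraMap L₀ 𝓕 (ϖ : L₀) * y)
    (hinv : ∃ (s : Finset ℕ) (a b : ℕ → 𝓕), (∀ j ∈ s, a j ∈ s18_latSet O S (s18_E f p)) ∧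
      (∀ j ∈ s, b j ∈ s18_latSet O S (fun Q => -s18_E f p Q)) ∧ ∑ j ∈ s, a j * b j = 1) :
    ∃ x ∈ O, ∃ β ∈ s18_ring O S, ∃ y ∈ O,
      f - 1 = algebraMap L₀ 𝓕 (ϖ : L₀) ^ (p * m)
          * (x ^ p + algebraMap L₀ 𝓕 (ε : L₀) * x + β)
        + algebraMap L₀ 𝓕 (ϖ : L₀) ^ (p * m + 1) * y := by
  obtain ⟨u, hu, ef⟩ := hf1
  obtain ⟨x, hx, β, hβ, z, hz, h⟩ := s33k_chart_locsol_crit A₀ O hAO ϖ hϖ0 hϖ p hp ε εinv hε e hpϖ S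
    f hdiv m hm (by rw [Nat.mul_comm]; exact hcrit) u hu ef hclosed hinv
  refine ⟨x, hx, -β, (s18_ring O S).neg_mem hβ, -z, O.neg_mem _ hz, ?_⟩
  have hu' : u = x ^ p + algebraMap L₀ 𝓕 (ε : L₀) * x - β - algebraMap L₀ 𝓕 (ϖ : L₀) * z := by
    rw [← h]; ring
  rw [ef, hu']; ring

end ChartsOut

end Fermat.Agent.Lib.S33
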