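/-
P-AT-P programme (S33), brick [FO]: the bridge from the S18 chart/lattice vocabulary (helper9's
`KumP*` files) to the Kummer-side contracts of `FOIface.lean`.  (owner: helper6)

* `s33f_ChartGeo D t`  : the geometric inputs of the two-chart model with base function `t`
                          ([S] `hclosed`, [I] `hinv`, [H] `hH`, [GLOB-1] `hglob`, chart ↔ place `hplace`);
* `s33f_superCritical_of_chartGeo` : `s33f_SuperCritical D`   (helper9's `s33k_superCritical`);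
* `s33f_LeadChart D S` : the chart-language leading-term statement (helper9's `s33k_lead_chart`);
* `s33f_leadConst_of_chart`, `s33f_locSol_of_chart` : `s33f_LeadConst D`, `s33f_LocSol D`.
-/
import Fermat.Agent.Lib.S33.FOOut
import Fermat.Agent.Lib.S33.KumPOut

set_option autoImplicit false
set_option linter.style.haveILetI false

noncomputable section

namespace Fermat.Agent.Lib.S33

open AlgebraicCurve Fermat.Agent.Lib.S18

variable {L₀ 𝓕 κ Fb : Type*} [Field L₀] [Field 𝓕] [Algebra L₀ 𝓕] [Field κ] [Field Fb] [Algebra κ Fb]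

/-- **The geometric inputs of the two-chart model** (base function `t`; chart 1 = `t` regular,
chart 2 = `t⁻¹` regular), in the S18 vocabulary. -/
structure s33f_ChartGeo (D : s33f_Datum L₀ 𝓕 κ Fb) (t : 𝓕) : Prop where
  noeth : IsNoetherianRing D.A₀
  fullConst : s33f_FullConst L₀ 𝓕
  /-- [S] on chart 1: the reduction of the chart ring is closed under roots of `X ^ p + c X - b`. -/
  hclosed1 : ∀ c ∈ s18_ring D.O (s18_chart1 (L₀ := L₀) t), ∀ x ∈ D.O,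
      ∀ b ∈ s18_ring D.O (s18_chart1 (L₀ := L₀) t),
      (∃ y ∈ D.O, x ^ D.p + c * x - b = algebraMap L₀ 𝓕 D.ϖ * y) →
        ∃ b' ∈ s18_ring D.O (s18_chart1 (L₀ := L₀) t), ∃ y ∈ D.O,
          x - b' = algebraMap L₀ 𝓕 D.ϖ * y
  hclosed2 : ∀ c ∈ s18_ring D.O (s18_chart2 (L₀ := L₀) t), ∀ x ∈ D.O,
      ∀ b ∈ s18_ring D.O (s18_chart2 (L₀ := L₀) t),
      (∃ y ∈ D.O, x ^ D.p + c * x - b = algebraMap L₀ 𝓕 D.ϖ * y) →
        ∃ b' ∈ s18_ring D.O (s18_chart2 (L₀ := L₀) t), ∃ y ∈ D.O,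
          x - b' = algebraMap L₀ 𝓕 D.ϖ * y
  /-- [I]: the chart lattices of `div f / p` are invertible. -/
  hinv1 : ∀ f : 𝓕, f ≠ 0 → ∃ (s : Finset ℕ) (a b : ℕ → 𝓕),
      (∀ j ∈ s, a j ∈ s18_latSet D.O (s18_chart1 (L₀ := L₀) t) (s18_E f D.p)) ∧
      (∀ j ∈ s, b j ∈ s18_latSet D.O (s18_chart1 (L₀ := L₀) t) (fun Q => -s18_E f D.p Q)) ∧
      ∑ j ∈ s, a j * b j = 1
  hinv2 : ∀ f : 𝓕, f ≠ 0 → ∃ (s : Finset ℕ) (a b : ℕ → 𝓕),
      (∀ j ∈ s, a j ∈ s18_latSet D.O (s18_chart2 (L₀ := L₀) t) (s18_E f D.p)) ∧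
      (∀ j ∈ s, b j ∈ s18_latSet D.O (s18_chart2 (L₀ := L₀) t) (fun Q => -s18_E f D.p Q)) ∧
      ∑ j ∈ s, a j * b j = 1
  /-- [H]: Čech finiteness. -/
  hH : ∀ f : 𝓕, f ≠ 0 → ∃ G : Submodule D.A₀ 𝓕, G.FG ∧
      s18_lat D.A₀ D.O (s33f_const_mem D) (s18_chart12 t) (s18_E f D.p) ≤
        G ⊔ (s18_lat D.A₀ D.O (s33f_const_mem D) (s18_chart1 t) (s18_E f D.p) ⊔
          s18_lat D.A₀ D.O (s33f_const_mem D) (s18_chart2 t) (s18_E f D.p))
  /-- [GLOB-1]: a function whose reduction is regular on both charts is constant mod `ϖ`. -/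
  hglob : ∀ b₁ ∈ s18_ring D.O (s18_chart1 (L₀ := L₀) t), ∀ b₂ ∈ s18_ring D.O (s18_chart2 (L₀ := L₀) t),
      s33f_Cong D 1 b₁ b₂ → ∃ c : D.A₀, s33f_Cong D 1 b₁ (algebraMap L₀ 𝓕 (c : L₀))
  /-- chart ↔ place: every point of the special fibre lies on (the reduction of) a chart. -/
  hplace : ∀ Q : Place κ Fb,
      (∀ b ∈ s18_ring D.O (s18_chart1 (L₀ := L₀) t), s33f_redX D b ∈ Q.toValuationSubring) ∨
      (∀ b ∈ s18_ring D.O (s18_chart2 (L₀ := L₀) t), s33f_redX D b ∈ Q.toValuationSubring)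

variable {D : s33f_Datum L₀ 𝓕 κ Fb}

/-- **`s33f_SuperCritical`** from the chart inputs (helper9's [LT-SEP]). -/
theorem s33f_superCritical_of_chartGeo {t : 𝓕} (h : s33f_ChartGeo D t) : s33f_SuperCritical D := by
  intro a ha f hf hcong
  haveI := h.noeth
  have hε : (⟨D.ε, D.ε_mem⟩ : D.A₀) * ⟨D.ε⁻¹, D.ε_inv_mem⟩ = 1 :=
    Subtype.ext (mul_inv_cancel₀ D.ε_ne_zero)
  have hϖ : ¬ ∃ y ∈ D.O, (1 : 𝓕) = algebraMap L₀ 𝓕 D.ϖ * y := by
    rintro ⟨y, hy, e⟩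
    apply D.ϖ_not_unit
    rw [inv_eq_of_mul_eq_one_right e.symm]
    exact hy
  obtain ⟨c, x, hc, hx, e⟩ := s33k_superCritical D.A₀ D.O (s33f_const_mem D) ⟨D.ϖ, D.ϖ_mem⟩
    D.ϖ_ne_zero hϖ D.p D.p_prime ⟨D.ε, D.ε_mem⟩ ⟨D.ε⁻¹, D.ε_inv_mem⟩ hε D.e
    (by rw [D.p_eq]; exact mul_comm _ _) h.fullConst t f a ha hf.2 hcong
    h.hclosed1 h.hclosed2 (h.hinv1 f hf.1) (h.hinv2 f hf.1) (h.hH f hf.1)
  exact ⟨c, x, hc, hx, e⟩

/-! ### the chart-language leading-term statement -/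

open Classical in
/-- the leading-term operator on the level of `O`: `0` (`p ∤ a`), `x ^ p` (`p ∣ a` sub-critical),
`x ^ p + ε x` (critical). -/
def s33f_Psi (D : s33f_Datum L₀ 𝓕 κ Fb) (a : ℕ) (x : 𝓕) : 𝓕 :=
  if D.p ∣ a then (if s33f_Crit D a then x ^ D.p + algebraMap L₀ 𝓕 D.ε * x else x ^ D.p) else 0

/-- **chart-language leading-term statement** on the chart `S` (helper9's `s33k_lead_chart`):
for `f ∈ 𝒢 ∩ (1 + ϖ ^ a O)`, `a ≥ 1` not super-critical,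
`f - 1 = ϖ ^ a (Ψ_a x + β) + ϖ ^ (a+1) y` with `x, y ∈ O`, `β` in the chart ring. -/
def s33f_LeadChart (D : s33f_Datum L₀ 𝓕 κ Fb) (S : Set (Place L₀ 𝓕)) : Prop :=
  ∀ a : ℕ, 1 ≤ a → ¬ s33f_SuperCrit D a → ∀ f : 𝓕, s33f_IsKum D f → s33f_Cong D a f 1 →
    ∃ x ∈ D.O, ∃ β ∈ s18_ring D.O S, ∃ y ∈ D.O,
      f - 1 = s33f_pi D ^ a * (s33f_Psi D a x + β) + s33f_pi D ^ (a + 1) * y

theorem s33f_Psi_mem {a : ℕ} {x : 𝓕} (hx : x ∈ D.O) : s33f_Psi D a x ∈ D.O := by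
  unfold s33f_Psi
  split_ifs
  · exact D.O.add_mem _ _ (D.O.pow_mem hx _) (D.O.mul_mem _ _ s33f_eps_mem hx)
  · exact D.O.pow_mem hx _
  · exact D.O.zero_mem

theorem s33f_redX_Psi {a : ℕ} {x : 𝓕} (hx : x ∈ D.O) :
    s33f_redX D (s33f_Psi D a x) = if D.p ∣ a then s33f_phi D a (s33f_redX D x) else 0 := by
  unfold s33f_Psi s33f_phi
  by_cases hpa : D.p ∣ a
  · rw [if_pos hpa, if_pos hpa]
    by_cases hc : s33f_Crit D a
    · rw [if_pos hc, if_pos hc, s33f_redX_add (D.O.pow_mem hx _) (D.O.mul_mem _ _ s33f_eps_mem hx),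
        s33f_redX_pow hx, s33f_redX_mul s33f_eps_mem hx]
      congr 2
      exact s33f_redX_const (D := D) ⟨D.ε, D.ε_mem⟩
    · rw [if_neg hc, if_neg hc, s33f_redX_pow hx]
  · rw [if_neg hpa, if_neg hpa, s33f_redX_zero]

/-- the leading term read off from the chart statement. -/
theorem s33f_lead_of_chart {a : ℕ} {f x β y : 𝓕} {S : Set (Place L₀ 𝓕)} (hx : x ∈ D.O)
    (hβ : β ∈ s18_ring D.O S) (hy : y ∈ D.O)
    (e : f - 1 = s33f_pi D ^ a * (s33f_Psi D a x + β) + s33f_pi D ^ (a + 1) * y) :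
    s33f_lead D a f =
      (if D.p ∣ a then s33f_phi D a (s33f_redX D x) else 0) + s33f_redX D β := by
  have hβO : β ∈ D.O := hβ.1
  have e' : f - 1 = s33f_pi D ^ a * (s33f_Psi D a x + β + s33f_pi D * y) := by
    rw [e, pow_succ]; ring
  have hπy : s33f_pi D * y ∈ D.O := D.O.mul_mem _ _ (s33f_pi_mem D) hy
  rw [s33f_lead_eq e', s33f_redX_add (D.O.add_mem _ _ (s33f_Psi_mem hx) hβO) hπy,
    s33f_redX_add (s33f_Psi_mem hx) hβO, s33f_redX_mul (s33f_pi_mem D) hy, s33f_redX_pi, zero_mul,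
    add_zero, s33f_redX_Psi hx]

/-- **`s33f_LeadChart`** on a chart `S` from [S] (`hclosed`) and [I] (`hinv`) of that chart
(helper9's `s33k_lead_chart_lin/sub/crit`). -/
theorem s33f_leadChart_of (S : Set (Place L₀ 𝓕))
    (hclosed : ∀ c ∈ s18_ring D.O S, ∀ x ∈ D.O, ∀ b ∈ s18_ring D.O S,
      (∃ y ∈ D.O, x ^ D.p + c * x - b = algebraMap L₀ 𝓕 D.ϖ * y) →
        ∃ b' ∈ s18_ring D.O S, ∃ y ∈ D.O, x - b' = algebraMap L₀ 𝓕 D.ϖ * y)
    (hinv : ∀ f : 𝓕, f ≠ 0 → ∃ (s : Finset ℕ) (a b : ℕ → 𝓕),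
      (∀ j ∈ s, a j ∈ s18_latSet D.O S (s18_E f D.p)) ∧
      (∀ j ∈ s, b j ∈ s18_latSet D.O S (fun Q => -s18_E f D.p Q)) ∧
      ∑ j ∈ s, a j * b j = 1) : s33f_LeadChart D S := by
  intro a ha hns f hf hcong
  have hp := D.p_prime
  have hε : (⟨D.ε, D.ε_mem⟩ : D.A₀) * ⟨D.ε⁻¹, D.ε_inv_mem⟩ = 1 :=
    Subtype.ext (mul_inv_cancel₀ D.ε_ne_zero)
  have hϖ : ¬ ∃ y ∈ D.O, (1 : 𝓕) = algebraMap L₀ 𝓕 D.ϖ * y := by
    rintro ⟨y, hy, e⟩
    apply D.ϖ_not_unit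
    rw [inv_eq_of_mul_eq_one_right e.symm]
    exact hy
  have hpϖ : (D.p : L₀) = D.ϖ ^ D.e * D.ε := by rw [D.p_eq]; exact mul_comm _ _
  have hns' : (D.p - 1) * a ≤ D.p * D.e := by
    unfold s33f_SuperCrit at hns
    exact not_lt.mp hns
  by_cases hpa : D.p ∣ a
  · obtain ⟨m, rfl⟩ := hpa
    have hm : 1 ≤ m := by
      rcases Nat.eq_zero_or_pos m with rfl | hm
      · simp at ha
      · exact hm
    have h1 : (D.p - 1) * (D.p * m) = D.p * ((D.p - 1) * m) := by ring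
    have hme : (D.p - 1) * m ≤ D.e := by
      rw [h1] at hns'
      exact Nat.le_of_mul_le_mul_left hns' hp.pos
    have hcrit_iff : s33f_Crit D (D.p * m) ↔ (D.p - 1) * m = D.e := by
      unfold s33f_Crit
      rw [h1]
      exact ⟨fun h => Nat.eq_of_mul_eq_mul_left hp.pos h, fun h => by rw [h]⟩
    by_cases hcrit : (D.p - 1) * m = D.e
    · obtain ⟨x, hx, β, hβ, y, hy, e⟩ := s33k_lead_chart_crit D.A₀ D.O (s33f_const_mem D)
        ⟨D.ϖ, D.ϖ_mem⟩ D.ϖ_ne_zero hϖ D.p hp ⟨D.ε, D.ε_mem⟩ ⟨D.ε⁻¹, D.ε_inv_mem⟩ hε D.e hpϖ S f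
        hf.2 m hm hcrit hcong hclosed (hinv f hf.1)
      refine ⟨x, hx, β, hβ, y, hy, ?_⟩
      unfold s33f_Psi
      rw [if_pos (dvd_mul_right _ _), if_pos (hcrit_iff.mpr hcrit)]
      exact e
    · obtain ⟨x, hx, β, hβ, y, hy, e⟩ := s33k_lead_chart_sub D.A₀ D.O (s33f_const_mem D)
        ⟨D.ϖ, D.ϖ_mem⟩ D.ϖ_ne_zero hϖ D.p hp ⟨D.ε, D.ε_mem⟩ ⟨D.ε⁻¹, D.ε_inv_mem⟩ hε D.e hpϖ S f
        hf.2 m hm (lt_of_le_of_ne hme hcrit) hcong hclosed (hinv f hf.1)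
      refine ⟨x, hx, β, hβ, y, hy, ?_⟩
      unfold s33f_Psi
      rw [if_pos (dvd_mul_right _ _), if_neg (fun h => hcrit (hcrit_iff.mp h))]
      exact e
  · have hsub : (D.p - 1) * a < D.p * D.e := by
      rcases Nat.lt_or_ge ((D.p - 1) * a) (D.p * D.e) with h | h
      · exact h
      · exact (hpa (s33f_dvd_of_crit (le_antisymm hns' h))).elim
    obtain ⟨β, hβ, y, hy, e⟩ := s33k_lead_chart_lin D.A₀ D.O (s33f_const_mem D)
      ⟨D.ϖ, D.ϖ_mem⟩ D.ϖ_ne_zero hϖ D.p hp ⟨D.ε, D.ε_mem⟩ ⟨D.ε⁻¹, D.ε_inv_mem⟩ hε D.e hpϖ S f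
      hf.2 a ha hpa hsub hcong hclosed (hinv f hf.1)
    refine ⟨0, D.O.zero_mem, β, hβ, y, hy, ?_⟩
    unfold s33f_Psi
    rw [if_neg hpa, zero_add]
    exact e

/-- **`s33f_LeadConst`** from the chart statements on both charts and [GLOB-1]. -/
theorem s33f_leadConst_of_chart {t : 𝓕} (h : s33f_ChartGeo D t)
    (h1 : s33f_LeadChart D (s18_chart1 (L₀ := L₀) t))
    (h2 : s33f_LeadChart D (s18_chart2 (L₀ := L₀) t)) : s33f_LeadConst D := by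
  intro a ha hsub hpa f hf hcong
  have hns : ¬ s33f_SuperCrit D a := by
    unfold s33f_SuperCrit
    unfold s33f_SubCrit at hsub
    omega
  obtain ⟨x₁, hx₁, β₁, hβ₁, y₁, hy₁, e₁⟩ := h1 a ha hns f hf hcong
  obtain ⟨x₂, hx₂, β₂, hβ₂, y₂, hy₂, e₂⟩ := h2 a ha hns f hf hcong
  have l₁ := s33f_lead_of_chart hx₁ hβ₁ hy₁ e₁
  have l₂ := s33f_lead_of_chart hx₂ hβ₂ hy₂ e₂
  rw [if_neg hpa, zero_add] at l₁ l₂
  have hcg : s33f_Cong D 1 β₁ β₂ := by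
    rw [← s33f_redX_eq_iff hβ₁.1 hβ₂.1, ← l₁, ← l₂]
  obtain ⟨c, hc⟩ := h.hglob β₁ hβ₁ β₂ hβ₂ hcg
  refine ⟨D.resA c, ?_⟩
  rw [l₁, ← s33f_redX_const c]
  exact (s33f_redX_eq_iff hβ₁.1 (s33f_const_mem D c)).mpr hc

/-- **`s33f_LocSol`** from the chart statements on both charts and chart ↔ place. -/
theorem s33f_locSol_of_chart {t : 𝓕} (h : s33f_ChartGeo D t)
    (h1 : s33f_LeadChart D (s18_chart1 (L₀ := L₀) t))
    (h2 : s33f_LeadChart D (s18_chart2 (L₀ := L₀) t)) : s33f_LocSol D := by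
  intro a ha hns hpa f hf hcong Q
  rcases h.hplace Q with hQ | hQ
  · obtain ⟨x, hx, β, hβ, y, hy, e⟩ := h1 a ha hns f hf hcong
    refine ⟨s33f_redX D x, ?_⟩
    rw [s33f_lead_of_chart hx hβ hy e, if_pos hpa, add_sub_cancel_left]
    exact hQ β hβ
  · obtain ⟨x, hx, β, hβ, y, hy, e⟩ := h2 a ha hns f hf hcong
    refine ⟨s33f_redX D x, ?_⟩
    rw [s33f_lead_of_chart hx hβ hy e, if_pos hpa, add_sub_cancel_left]
    exact hQ β hβ

theorem s33f_leadConst_of_chartGeo {t : 𝓕} (h : s33f_ChartGeo D t) : s33f_LeadConst D :=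
  s33f_leadConst_of_chart h (s33f_leadChart_of _ h.hclosed1 h.hinv1)
    (s33f_leadChart_of _ h.hclosed2 h.hinv2)

theorem s33f_locSol_of_chartGeo {t : 𝓕} (h : s33f_ChartGeo D t) : s33f_LocSol D :=
  s33f_locSol_of_chart h (s33f_leadChart_of _ h.hclosed1 h.hinv1)
    (s33f_leadChart_of _ h.hclosed2 h.hinv2)

/-- **(III), abstract form**, from the chart inputs and [TP]. -/
theorem s33f_IIIAbstract_of_chartGeo {t : 𝓕} (h : s33f_ChartGeo D t)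
    (T : s33f_TPData D) (hTP : s33f_TP D T) : s33f_IIIAbstract D T :=
  s33f_IIIAbstract_of T (s33f_leadConst_of_chartGeo h) (s33f_superCritical_of_chartGeo h) hTP

end Fermat.Agent.Lib.S33
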