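/-
P-AT-P programme (S33), brick [FO], instantiation: constants.
* `s33i_laurent_const_of_isIntegral`: an element of `k((q))` integral over `k` is a constant;
* `s33i_mem_of_isIntegral_adjoin`: a valuation subring containing `k` and `y` contains everything
  integral over `k[y]`.
(owner: helper6)
-/
import Mathlib

set_option autoImplicit false
set_option linter.style.haveILetI false
noncomputable section

namespace Fermat.Agent.Lib.S33

open Polynomial

/-- **an element of `k((q))` integral over `k` is a constant.** -/
theorem s33i_laurent_const_of_isIntegral {k : Type*} [Field k] (z : LaurentSeries k)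
    (hz : IsIntegral k z) : ∃ c : k, z = algebraMap k (LaurentSeries k) c := by
  have hcomp : (algebraMap (PowerSeries k) (LaurentSeries k)).comp
      (algebraMap k (PowerSeries k)) = algebraMap k (LaurentSeries k) := rfl
  -- `z` is a power series
  have hz' : IsIntegral (PowerSeries k) z := by
    obtain ⟨P, hP, hPz⟩ := hz
    refine ⟨P.map (algebraMap k (PowerSeries k)), hP.map _, ?_⟩
    rw [Polynomial.eval₂_map, hcomp]
    exact hPz
  obtain ⟨y, rfl⟩ := IsIntegrallyClosed.isIntegral_iff.mp hz'
  have hinj : Function.Injective (algebraMap (PowerSeries k) (LaurentSeries k)) :=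
    IsFractionRing.injective _ _
  -- evaluate the minimal polynomial at the constant coefficient
  have hy : IsIntegral k y := by
    obtain ⟨P, hP, hPz⟩ := hz
    refine ⟨P, hP, hinj ?_⟩
    rw [map_zero, Polynomial.hom_eval₂, hcomp]
    exact hPz
  set P := minpoly k y with hP
  have hroot : Polynomial.aeval y P = 0 := minpoly.aeval k y
  have hroot0 : Polynomial.eval (PowerSeries.constantCoeff y) P = 0 := by
    have h1 := congrArg (PowerSeries.constantCoeff (R := k)) hroot
    rw [map_zero, Polynomial.aeval_def, Polynomial.hom_eval₂] at h1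
    have h2 : (PowerSeries.constantCoeff (R := k)).comp (algebraMap k (PowerSeries k)) =
        RingHom.id k := by
      ext a
      simp
    rw [h2] at h1
    simpa [Polynomial.eval₂_id] using h1
  have hdeg : P.degree = 1 :=
    Polynomial.degree_eq_one_of_irreducible_of_root (minpoly.irreducible hy) hroot0
  obtain ⟨c, hc⟩ := minpoly.mem_range_of_degree_eq_one k y hdeg
  refine ⟨c, ?_⟩
  rw [← hc]
  rfl

/-- a valuation subring containing `K` and `y` contains everything integral over `K[y]`. -/
theorem s33i_mem_of_isIntegral_adjoin {K F : Type*} [Field K] [Field F] [Algebra K F]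
    (V : ValuationSubring F) (hK : ∀ c : K, algebraMap K F c ∈ V) {y : F} (hy : y ∈ V) {h : F}
    (hint : IsIntegral (Algebra.adjoin K {y}) h) : h ∈ V := by
  haveI : IsIntegrallyClosedIn V.toSubring F := inferInstanceAs (IsIntegrallyClosedIn V F)
  have hsub : (Algebra.adjoin K {y}).toSubring ≤ V.toSubring := by
    have : Algebra.adjoin K {y} ≤
        ({ V.toSubring with algebraMap_mem' := hK } : Subalgebra K F) :=
      Algebra.adjoin_le (Set.singleton_subset_iff.mpr hy)
    exact fun a ha => this ha
  have hle : (integralClosure (Algebra.adjoin K {y}) F).toSubring ≤ V.toSubring :=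
    Subring.integralClosure_le_iff.mpr fun r => hsub r.2
  exact hle hint

/-- integrality over `K[X]` (acting through `X ↦ y`) is integrality over `K[y]`. -/
theorem s33i_isIntegral_adjoin_of_poly {K F : Type*} [Field K] [Field F] [Algebra K F]
    [Algebra K[X] F] (y : F)
    (hA : ∀ p : K[X], algebraMap K[X] F p = Polynomial.aeval y p) {h : F}
    (hint : IsIntegral K[X] h) : IsIntegral (Algebra.adjoin K {y}) h := by
  obtain ⟨P, hP, hPh⟩ := hint
  let φ : K[X] →+* Algebra.adjoin K {y} :=
    (Polynomial.aeval (⟨y, Algebra.self_mem_adjoin_singleton K y⟩ : Algebra.adjoin K {y})).toRingHom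
  have hφ : ∀ p : K[X], ((φ p : Algebra.adjoin K {y}) : F) = algebraMap K[X] F p := by
    intro p
    rw [hA]
    show ((Polynomial.aeval (⟨y, _⟩ : Algebra.adjoin K {y}) p : Algebra.adjoin K {y}) : F) = _
    rw [← Subalgebra.coe_val, ← Polynomial.aeval_algHom_apply]
    rfl
  refine ⟨P.map φ, hP.map φ, ?_⟩
  rw [Polynomial.eval₂_map]
  have : (algebraMap (Algebra.adjoin K {y}) F).comp φ = algebraMap K[X] F := by
    ext p
    · simp only [RingHom.comp_apply]
      exact hφ _
    · simp only [RingHom.comp_apply]
      exact hφ _
  rw [this]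
  exact hPh

end Fermat.Agent.Lib.S33
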