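/-
P-AT-P programme (S33), brick [FO], instantiation step (0): the S18 per-chart [S]-pipeline re-run with
its three hidden outputs EXPOSED (`IsDedekindDomain (integralClosure κ[X] F̄)`, `hint`, `hmain`),
for a coordinate `w` of the Gauss datum on `𝓕 = laurentBaseChange K (modularFunctionFieldFull M)`.
(Verbatim the bodies of `s18f_chartS_of_inputs` / `s18f_chartS_of_data` / `s18f_chartS_of_main`,
Lib/S18/FProv5, FProv, FChartG.)  (owner: helper6)
-/
import Fermat.Agent.Lib.S18.FProv5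

set_option autoImplicit false
set_option linter.style.haveILetI false
set_option linter.unusedSectionVars false
noncomputable section

namespace Fermat.Agent.Lib.S33

open AlgebraicCurve ModularCurve Fermat.Agent.Lib.FF Polynomial IntermediateField
  Fermat.Agent.Lib.S18

section Param

variable {K : Type} [Field K] [CharZero K] [Algebra ℚ K] {κ : Type} [Field κ]
  (G : s18g_GaussData K κ) (M : ℕ) [NeZero M]

local notation "𝓕M" => laurentBaseChange K (modularFunctionFieldFull M)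
local notation "hFM" => (fun (f : LaurentSeries K)
  (hf : f ∈ laurentBaseChange K (modularFunctionFieldFull M)) => s18g_baseChange_mem_Frac G M hf)

/-- **The per-chart [S]-package with `hint`/`hmain` exposed**, from the data of `s18s_main`. -/
theorem s33i_chartS_of_data [IsDiscreteValuationRing G.A] (hπ : Function.Surjective G.π)
    (hT : s18g_HT κ M) (hdeg : s18g_HDeg K M)
    (w : ↥𝓕M) [FFGen K w] (hwV : w ∈ s18g_V G 𝓕M hFM)
    (hα : ∀ y ∈ s18g_V G 𝓕M hFM, ∃ s : G.A[X], s.map G.π ≠ 0 ∧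
      (s18b_ev G 𝓕M w).IsIntegralElem (s18b_ev G 𝓕M w s * y))
    {ι : Type} [Fintype ι] [DecidableEq ι]
    (β : letI := s18p_algR (K := K) w; Module.Basis ι K[X] ↥(ffB K w))
    (hinj : letI := s18f_algF G M hT hdeg w hwV;
      Function.Injective (algebraMap κ[X] ↥(modularFunctionFieldFullC κ M)))
    (bt : letI := s18f_algF G M hT hdeg w hwV;
      Module.Basis ι κ[X] ↥(integralClosure κ[X] ↥(modularFunctionFieldFullC κ M)))
    (hsep : letI := s18f_algF G M hT hdeg w hwV;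
      Algebra.discr κ[X] bt ≠ 0)
    (Cs : Finset ↥G.A) (hCs : Set.InjOn G.π Cs) (α : ↥G.A → ℕ) (e : K) (he : e ≠ 0)
    (hΔ : letI := s18p_algR (K := K) w;
      Algebra.discr K[X] β = C e * ∏ c ∈ Cs, (X - C (algebraMap ↥G.A K c)) ^ α c)
    (hα' : letI := s18p_algR (K := K) w;
      ∀ c ∈ Cs, ∀ (r : ℕ) (u : Fin r → ↥(ffB K w)),
        (∀ a : Fin r → K, (∑ j, (C (a j) : K[X]) • u j) ∈
          (Ideal.span {algebraMap K[X] ↥(ffB K w) (X - C (algebraMap ↥G.A K c))}).radical →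
            a = 0) →
        α c + r ≤ Fintype.card ι) :
    letI := s18f_algF G M hT hdeg w hwV
    IsDedekindDomain (integralClosure κ[X] ↥(modularFunctionFieldFullC κ M)) ∧
    (∀ b : ↥𝓕M, ∀ hb : b ∈ s18_ring (L₀ := K) (s18g_V G 𝓕M hFM) (s18_chart1 w),
      IsIntegral κ[X] (s18g_redF G M hFM hT hdeg ⟨b, hb.1⟩)) ∧
    (∀ z : ↥(modularFunctionFieldFullC κ M), IsIntegral κ[X] z →
      ∃ (b : ↥𝓕M) (hb : b ∈ s18_ring (L₀ := K) (s18g_V G 𝓕M hFM) (s18_chart1 w)),
        s18g_redF G M hFM hT hdeg ⟨b, hb.1⟩ = z) := by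
  letI algR := s18p_algR (K := K) w
  letI algF := s18f_algF G M hT hdeg w hwV
  letI algB := s18p_algB G 𝓕M hFM w hwV
  haveI finB : Module.Finite G.A[X] ↥(s18p_B G 𝓕M hFM w) := s18p_finite_B G 𝓕M hFM w hwV hα
  haveI hDed : IsDedekindDomain (integralClosure κ[X] ↥(modularFunctionFieldFullC κ M)) :=
    s18s_isDedekindDomain_of_basis bt
  have hA : ∀ p : κ[X], algebraMap κ[X] ↥(modularFunctionFieldFullC κ M) p =
      Polynomial.aeval (s18g_redF G M hFM hT hdeg ⟨w, hwV⟩) p := fun p => by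
    rw [Polynomial.aeval_def]
    rfl
  have hkerF : ∀ y : ↥(s18g_V G 𝓕M hFM), s18g_redF G M hFM hT hdeg y = 0 →
      ∃ g : ↥(s18g_V G 𝓕M hFM), y = s18g_unifV G 𝓕M hFM * g := by
    intro y hy
    have hy' : y ∈ RingHom.ker (s18g_redF G M hFM hT hdeg) := hy
    rw [s18g_ker_redF, Ideal.mem_span_singleton'] at hy'
    obtain ⟨a, ha⟩ := hy'
    exact ⟨a, by rw [← ha, mul_comm]⟩
  have hmain : ∀ z : ↥(modularFunctionFieldFullC κ M), IsIntegral κ[X] z →
      ∃ y : ↥(s18p_B G 𝓕M hFM w), s18p_redB G 𝓕M hFM w (s18g_redF G M hFM hT hdeg) y = z := by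
    refine s18s_main (A₀ := ↥G.A) (L₀ := K) (k₀ := κ) G.π hπ G.ϖ (s18f_irreducible_unif G)
      G.π_eq_zero_iff (R₁ := ↥(ffB K w)) β (B := ↥(s18p_B G 𝓕M hFM w))
      (s18p_jB w (s18g_V G 𝓕M hFM)) (s18p_jB_injective w _) ?_ ?_
      (κ := ↥(modularFunctionFieldFullC κ M)) hinj
      (s18p_redB G 𝓕M hFM w (s18g_redF G M hFM hT hdeg)) ?_ ?_
      bt hsep Cs hCs α e he ?_ ?_
    · intro p
      apply Subtype.ext
      show s18b_ev G 𝓕M w p = Polynomial.aeval w (p.map (algebraMap ↥G.A K))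
      rfl
    · exact fun x => s18p_hloc w (s18g_V G 𝓕M hFM) ((G.ϖ : G.A) : K)
        (s18f_hO_of_U (s18g_V G 𝓕M hFM) ((G.ϖ : G.A) : K) (s18f_U_gauss G 𝓕M hFM)) x
    · exact fun p => s18p_hredP G 𝓕M hFM w hwV (s18g_redF G M hFM hT hdeg)
        (algebraMap κ ↥(modularFunctionFieldFullC κ M))
        (fun a => s18g_redF_constV G M hFM hT hdeg a) p
    · exact fun y hy => s18p_hker G 𝓕M hFM w hwV (s18g_redF G M hFM hT hdeg) hkerF y hy
    · convert hΔ using 3
    · intro c hc r u hu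
      convert hα' c hc r u ?_ using 2
      intro a ha
      apply hu a
      convert ha using 3
  refine ⟨hDed, fun b hb => ?_, fun z hz => ?_⟩
  · exact s18f_isIntegral_redF G M hT hdeg w hwV hA b hb.1
      (s18b_isIntegralElem_of_mem_ring G 𝓕M hFM w hα b hb)
  · obtain ⟨y, hy⟩ := hmain z hz
    exact ⟨(y : ↥𝓕M), y.2, hy⟩

/-- **The per-chart [S]-package with `hint`/`hmain` exposed**, from the three packaged inputs
(as `s18f_chartS_of_inputs`). -/
theorem s33i_chartS_of_inputs [IsDiscreteValuationRing G.A] (hπ : Function.Surjective G.π)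
    (hT : s18g_HT κ M) (hdeg : s18g_HDeg K M)
    (w : ↥𝓕M) [FFGen K w] (hwV : w ∈ s18g_V G 𝓕M hFM)
    (hα : ∀ y ∈ s18g_V G 𝓕M hFM, ∃ s : G.A[X], s.map G.π ≠ 0 ∧
      (s18b_ev G 𝓕M w).IsIntegralElem (s18b_ev G 𝓕M w s * y))
    (n : ℕ) (hrank : Module.finrank ↥K⟮w⟯ ↥𝓕M = n)
    (hch : letI := s18f_algF G M hT hdeg w hwV;
      Function.Injective (algebraMap κ[X] ↥(modularFunctionFieldFullC κ M)) ∧
      ∃ bt : Module.Basis (Fin n) κ[X]
        ↥(integralClosure κ[X] ↥(modularFunctionFieldFullC κ M)),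
        Algebra.discr κ[X] bt ≠ 0)
    (hI : s18r_MainInputs G M w) :
    letI := s18f_algF G M hT hdeg w hwV
    IsDedekindDomain (integralClosure κ[X] ↥(modularFunctionFieldFullC κ M)) ∧
    (∀ b : ↥𝓕M, ∀ hb : b ∈ s18_ring (L₀ := K) (s18g_V G 𝓕M hFM) (s18_chart1 w),
      IsIntegral κ[X] (s18g_redF G M hFM hT hdeg ⟨b, hb.1⟩)) ∧
    (∀ z : ↥(modularFunctionFieldFullC κ M), IsIntegral κ[X] z →
      ∃ (b : ↥𝓕M) (hb : b ∈ s18_ring (L₀ := K) (s18g_V G 𝓕M hFM) (s18_chart1 w)),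
        s18g_redF G M hFM hT hdeg ⟨b, hb.1⟩ = z) := by
  letI algR := s18p_algR (K := K) w
  letI algF := s18f_algF G M hT hdeg w hwV
  obtain ⟨β₀, -⟩ := s18g_ffB_basis (K := K) w n hrank
  obtain ⟨β, -⟩ := s18g_ffB_basis_poly w (FFGen.transc : Transcendental K w) β₀
    (s18p_coe_algebraMap_R w)
  obtain ⟨hinj, bt, hsep⟩ := hch
  obtain ⟨Cs, hCs, hβ⟩ := hI
  obtain ⟨α, e, he, hΔ, hα'⟩ := hβ β
  exact s33i_chartS_of_data G M hπ hT hdeg w hwV hα β hinj bt hsep Cs hCs α e he hΔ hα'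

end Param

end Fermat.Agent.Lib.S33
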