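/-
P-AT-P programme (S33), brick [FO], instantiation: the fields `hplace` (chart ↔ place) and `hglob`
([GLOB-1]) of `s33f_ChartGeo` for the Gauss datum on `𝓕 = laurentBaseChange K (modularFunctionFieldFull M)`
and a coordinate `w` (with `w`, `w⁻¹` in the Gauss ring and (α) for both).  (owner: helper6)
-/
import Fermat.Agent.Lib.S33.FOInstC
import Fermat.Agent.Lib.S33.FOInstD
import Fermat.Agent.Lib.S33.FOInstS
import Fermat.Agent.Lib.S33.FOGeo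
import Fermat.Agent.Lib.S18.NConst

set_option autoImplicit false
set_option linter.style.haveILetI false
set_option linter.unusedSectionVars false
noncomputable section

namespace Fermat.Agent.Lib.S33

open AlgebraicCurve ModularCurve Fermat.Agent.Lib.FF Polynomial IntermediateField
  Fermat.Agent.Lib.S18

/-- **full constant field** for a function field inside `K((q))` (characteristic `0`): a function
regular at all places is a constant. -/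
theorem s33i_fullConst_of_ffGen {K : Type*} [Field K] [CharZero K]
    (F : IntermediateField K (LaurentSeries K)) (x : ↥F) [FFGen K x] : s33f_FullConst K ↥F := by
  intro h hh
  haveI : FiniteDimensional K⟮x⟯ ↥F := FFGen.finite
  haveI : Algebra.IsSeparable K⟮x⟯ ↥F := inferInstance
  have hord : ∀ Q : Place K ↥F, 0 ≤ Q.ord h := by
    intro Q
    rcases eq_or_ne h 0 with rfl | h0
    · simp
    · exact (ff_mem_iff_ord_nonneg Q h0).mp (hh Q)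
  have hint : IsIntegral K h := s18n_isIntegral_of_no_poles x FFGen.transc h hord
  have hint' : IsIntegral K ((h : ↥F) : LaurentSeries K) :=
    (isIntegral_algHom_iff F.val Subtype.val_injective).mpr hint
  obtain ⟨c, hc⟩ := s33i_laurent_const_of_isIntegral _ hint'
  exact ⟨c, Subtype.ext hc⟩

section Param

variable {K : Type} [Field K] [CharZero K] [Algebra ℚ K] {κ : Type} [Field κ]
  (G : s18g_GaussData K κ) [IsDiscreteValuationRing G.A] (M : ℕ) [NeZero M]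

local notation "𝓕M" => laurentBaseChange K (modularFunctionFieldFull M)
local notation "hFM" => (fun (f : LaurentSeries K)
  (hf : f ∈ laurentBaseChange K (modularFunctionFieldFull M)) => s18g_baseChange_mem_Frac G M hf)

/-- the reduction of an element of the chart ring of `w` is integral over `κ[w̄]`. -/
theorem s33i_isIntegral_adjoin_redF (hT : s18g_HT κ M) (hdeg : s18g_HDeg K M)
    (w : ↥𝓕M) [FFGen K w] (hwV : w ∈ s18g_V G 𝓕M hFM)
    (hα : ∀ y ∈ s18g_V G 𝓕M hFM, ∃ s : G.A[X], s.map G.π ≠ 0 ∧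
      (s18b_ev G 𝓕M w).IsIntegralElem (s18b_ev G 𝓕M w s * y))
    (b : ↥𝓕M) (hb : b ∈ s18_ring (L₀ := K) (s18g_V G 𝓕M hFM) (s18_chart1 w)) :
    IsIntegral (Algebra.adjoin κ {s18g_redF G M hFM hT hdeg ⟨w, hwV⟩})
      (s18g_redF G M hFM hT hdeg ⟨b, hb.1⟩) := by
  letI algF := s18f_algF G M hT hdeg w hwV
  have hA := s18f_algF_apply G M hT hdeg w hwV
  have hint : IsIntegral κ[X] (s18g_redF G M hFM hT hdeg ⟨b, hb.1⟩) :=
    s18f_isIntegral_redF G M hT hdeg w hwV hA b hb.1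
      (s18b_isIntegralElem_of_mem_ring G 𝓕M hFM w hα b hb)
  exact s33i_isIntegral_adjoin_of_poly _ hA hint

/-- **chart ↔ place**: reductions of the chart ring of `w` are regular at every place of `F̄` at
which `w̄` is regular. -/
theorem s33i_redF_mem_place (hT : s18g_HT κ M) (hdeg : s18g_HDeg K M)
    (w : ↥𝓕M) [FFGen K w] (hwV : w ∈ s18g_V G 𝓕M hFM)
    (hα : ∀ y ∈ s18g_V G 𝓕M hFM, ∃ s : G.A[X], s.map G.π ≠ 0 ∧
      (s18b_ev G 𝓕M w).IsIntegralElem (s18b_ev G 𝓕M w s * y))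
    (Q : Place κ ↥(modularFunctionFieldFullC κ M))
    (hQ : s18g_redF G M hFM hT hdeg ⟨w, hwV⟩ ∈ Q.toValuationSubring)
    (b : ↥𝓕M) (hb : b ∈ s18_ring (L₀ := K) (s18g_V G 𝓕M hFM) (s18_chart1 w)) :
    s18g_redF G M hFM hT hdeg ⟨b, hb.1⟩ ∈ Q.toValuationSubring :=
  s33i_mem_of_isIntegral_adjoin Q.toValuationSubring Q.algebraMap_mem' hQ
    (s33i_isIntegral_adjoin_redF G M hT hdeg w hwV hα b hb)

/-- **[GLOB-1], reduction form**: a common value of the reductions of the two chart rings is a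
constant. -/
theorem s33i_glob_redF (hT : s18g_HT κ M) (hdeg : s18g_HDeg K M)
    (w : ↥𝓕M) [FFGen K w] [FFGen K w⁻¹] (hw0 : w ≠ 0) (hwV : w ∈ s18g_V G 𝓕M hFM)
    (hwinvV : w⁻¹ ∈ s18g_V G 𝓕M hFM)
    (hα₁ : ∀ y ∈ s18g_V G 𝓕M hFM, ∃ s : G.A[X], s.map G.π ≠ 0 ∧
      (s18b_ev G 𝓕M w).IsIntegralElem (s18b_ev G 𝓕M w s * y))
    (hα₂ : ∀ y ∈ s18g_V G 𝓕M hFM, ∃ s : G.A[X], s.map G.π ≠ 0 ∧
      (s18b_ev G 𝓕M w⁻¹).IsIntegralElem (s18b_ev G 𝓕M w⁻¹ s * y))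
    (b₁ : ↥𝓕M) (hb₁ : b₁ ∈ s18_ring (L₀ := K) (s18g_V G 𝓕M hFM) (s18_chart1 w))
    (b₂ : ↥𝓕M) (hb₂ : b₂ ∈ s18_ring (L₀ := K) (s18g_V G 𝓕M hFM) (s18_chart1 w⁻¹))
    (h : s18g_redF G M hFM hT hdeg ⟨b₁, hb₁.1⟩ = s18g_redF G M hFM hT hdeg ⟨b₂, hb₂.1⟩) :
    ∃ c : κ, s18g_redF G M hFM hT hdeg ⟨b₁, hb₁.1⟩ =
      algebraMap κ ↥(modularFunctionFieldFullC κ M) c := by
  have h1 := s33i_isIntegral_adjoin_redF G M hT hdeg w hwV hα₁ b₁ hb₁
  have h2 := s33i_isIntegral_adjoin_redF G M hT hdeg w⁻¹ hwinvV hα₂ b₂ hb₂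
  rw [← h, s18f_redF_inv G M hT hdeg w hw0 hwV hwinvV] at h2
  have hz : IsIntegral κ (s18g_redF G M hFM hT hdeg ⟨b₁, hb₁.1⟩) :=
    s18n_isIntegral_of_adjoin_of_adjoin_inv _ _ h1 h2
  have hz' : IsIntegral κ ((s18g_redF G M hFM hT hdeg ⟨b₁, hb₁.1⟩ :
      ↥(modularFunctionFieldFullC κ M)) : LaurentSeries κ) :=
    (isIntegral_algHom_iff (modularFunctionFieldFullC κ M).val Subtype.val_injective).mpr hz
  obtain ⟨c, hc⟩ := s33i_laurent_const_of_isIntegral _ hz'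
  exact ⟨c, Subtype.ext hc⟩

/-! ### the two fields for the concrete datum -/

section Datum

variable (hT : s18g_HT κ M) (hdeg : s18g_HDeg K M) (hπ : Function.Surjective G.π)
  (p e : ℕ) (ε : K) (hp : p.Prime) (he : 0 < e) (hε : ε ∈ G.A) (hεinv : ε⁻¹ ∈ G.A) (hε0 : ε ≠ 0)
  (hpe : (p : K) = ε * ((G.ϖ : G.A) : K) ^ e) (hperf : ∀ c : κ, ∃ d : κ, d ^ p = c)

/-- **`hplace`** for the concrete datum and a coordinate `w`. -/
theorem s33i_hplace (w : ↥𝓕M) [FFGen K w] [FFGen K w⁻¹] (hw0 : w ≠ 0)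
    (hwV : w ∈ s18g_V G 𝓕M hFM) (hwinvV : w⁻¹ ∈ s18g_V G 𝓕M hFM)
    (hα₁ : ∀ y ∈ s18g_V G 𝓕M hFM, ∃ s : G.A[X], s.map G.π ≠ 0 ∧
      (s18b_ev G 𝓕M w).IsIntegralElem (s18b_ev G 𝓕M w s * y))
    (hα₂ : ∀ y ∈ s18g_V G 𝓕M hFM, ∃ s : G.A[X], s.map G.π ≠ 0 ∧
      (s18b_ev G 𝓕M w⁻¹).IsIntegralElem (s18b_ev G 𝓕M w⁻¹ s * y))
    (Q : Place κ ↥(modularFunctionFieldFullC κ M)) :
    (∀ b ∈ s18_ring (s33i_datum G M hT hdeg hπ p e ε hp he hε hεinv hε0 hpe hperf).O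
        (s18_chart1 (L₀ := K) w),
      s33f_redX (s33i_datum G M hT hdeg hπ p e ε hp he hε hεinv hε0 hpe hperf) b ∈
        Q.toValuationSubring) ∨
    (∀ b ∈ s18_ring (s33i_datum G M hT hdeg hπ p e ε hp he hε hεinv hε0 hpe hperf).O
        (s18_chart2 (L₀ := K) w),
      s33f_redX (s33i_datum G M hT hdeg hπ p e ε hp he hε hεinv hε0 hpe hperf) b ∈
        Q.toValuationSubring) := by
  rcases Q.toValuationSubring.mem_or_inv_mem (s18g_redF G M hFM hT hdeg ⟨w, hwV⟩) with h | h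
  · left
    intro b hb
    rw [s33f_redX_of_mem _ hb.1]
    exact s33i_redF_mem_place G M hT hdeg w hwV hα₁ Q h b hb
  · right
    intro b hb
    rw [s33f_redX_of_mem _ hb.1]
    rw [← s18f_redF_inv G M hT hdeg w hw0 hwV hwinvV] at h
    exact s33i_redF_mem_place G M hT hdeg w⁻¹ hwinvV hα₂ Q h b hb

/-- **`hglob`** ([GLOB-1]) for the concrete datum and a coordinate `w`. -/
theorem s33i_hglob (w : ↥𝓕M) [FFGen K w] [FFGen K w⁻¹] (hw0 : w ≠ 0)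
    (hwV : w ∈ s18g_V G 𝓕M hFM) (hwinvV : w⁻¹ ∈ s18g_V G 𝓕M hFM)
    (hα₁ : ∀ y ∈ s18g_V G 𝓕M hFM, ∃ s : G.A[X], s.map G.π ≠ 0 ∧
      (s18b_ev G 𝓕M w).IsIntegralElem (s18b_ev G 𝓕M w s * y))
    (hα₂ : ∀ y ∈ s18g_V G 𝓕M hFM, ∃ s : G.A[X], s.map G.π ≠ 0 ∧
      (s18b_ev G 𝓕M w⁻¹).IsIntegralElem (s18b_ev G 𝓕M w⁻¹ s * y)) :
    ∀ b₁ ∈ s18_ring (s33i_datum G M hT hdeg hπ p e ε hp he hε hεinv hε0 hpe hperf).O
        (s18_chart1 (L₀ := K) w),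
    ∀ b₂ ∈ s18_ring (s33i_datum G M hT hdeg hπ p e ε hp he hε hεinv hε0 hpe hperf).O
        (s18_chart2 (L₀ := K) w),
    s33f_Cong (s33i_datum G M hT hdeg hπ p e ε hp he hε hεinv hε0 hpe hperf) 1 b₁ b₂ →
      ∃ c : (s33i_datum G M hT hdeg hπ p e ε hp he hε hεinv hε0 hpe hperf).A₀,
        s33f_Cong (s33i_datum G M hT hdeg hπ p e ε hp he hε hεinv hε0 hpe hperf) 1 b₁
          (algebraMap K _ (c : K)) := by
  intro b₁ hb₁ b₂ hb₂ hc
  have hb₁O : b₁ ∈ (s33i_datum G M hT hdeg hπ p e ε hp he hε hεinv hε0 hpe hperf).O := hb₁.1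
  have hb₂O : b₂ ∈ (s33i_datum G M hT hdeg hπ p e ε hp he hε hεinv hε0 hpe hperf).O := hb₂.1
  have h := (s33f_redX_eq_iff hb₁O hb₂O).mpr hc
  rw [s33f_redX_of_mem _ hb₁O, s33f_redX_of_mem _ hb₂O] at h
  have h' : s18g_redF G M hFM hT hdeg ⟨b₁, hb₁.1⟩ = s18g_redF G M hFM hT hdeg ⟨b₂, hb₂.1⟩ := h
  obtain ⟨c0, hc0⟩ := s33i_glob_redF G M hT hdeg w hw0 hwV hwinvV hα₁ hα₂ b₁ hb₁ b₂ hb₂ h'
  obtain ⟨c, rfl⟩ := hπ c0
  refine ⟨c, ?_⟩
  have hcO := s33f_const_mem (s33i_datum G M hT hdeg hπ p e ε hp he hε hεinv hε0 hpe hperf) c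
  rw [← s33f_redX_eq_iff hb₁O hcO, s33f_redX_of_mem _ hb₁O]
  exact hc0.trans
    (s33f_redX_const (D := s33i_datum G M hT hdeg hπ p e ε hp he hε hεinv hε0 hpe hperf) c).symm

end Datum

end Param

end Fermat.Agent.Lib.S33
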