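/-
P-AT-P programme (S33), brick [FO], instantiation, FINAL ASSEMBLY (base `j`, residue characteristic
`ℓ ≥ 5`, `ℓ ∤ M`):
* `s33i_chartGeo_five : s33f_ChartGeo (s33i_datum …) (s18g_jF M)`  (helper9's five S18-shaped fields,
  `KumPInstJ`, + `fullConst`, `hglob`, `hplace` of `FOInstG`);
* `s33i_III : s33f_IIIAbstract (s33i_datum …) (s33t_TPData …)`  (with helper3's `s33t_TP`).
(owner: helper6)
-/
import Fermat.Agent.Lib.S33.FOInstG
import Fermat.Agent.Lib.S33.KumPInstJ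
import Fermat.Agent.Lib.S33.TPInst

set_option autoImplicit false
set_option linter.style.haveILetI false
set_option linter.unusedSectionVars false
noncomputable section

namespace Fermat.Agent.Lib.S33

open AlgebraicCurve ModularCurve Fermat.Agent.Lib.FF Fermat.Agent.Lib.S18 Polynomial

local notation "Qbar" => AlgebraicClosure ℚ

/-- **The chart geometry of `X₀(M)` with base `j` at a prime `ℓ ≥ 5`** for the concrete datum
`s33i_datum` — no hypothesis left. -/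
theorem s33i_chartGeo_five (M : ℕ) [NeZero M] (ℓ : ℕ) [Fact ℓ.Prime]
    (h5 : 5 ≤ ℓ) (K₀ : Type) [Field K₀] [NumberField K₀] (φ : K₀ →+* Qbar)
    (κ : Type) [Field κ] [CharP κ ℓ] [PerfectField κ]
    (G : s18g_GaussData K₀ κ) [IsDiscreteValuationRing G.A] (hπ : Function.Surjective G.π)
    (hT : s18g_HT κ M) (hdeg : s18g_HDeg K₀ M)
    (p e : ℕ) (ε : K₀) (hp : p.Prime) (he : 0 < e) (hε : ε ∈ G.A) (hεinv : ε⁻¹ ∈ G.A)
    (hε0 : ε ≠ 0) (hpe : (p : K₀) = ε * ((G.ϖ : G.A) : K₀) ^ e)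
    (hperf : ∀ c : κ, ∃ d : κ, d ^ p = c) :
    s33f_ChartGeo (s33i_datum G M hT hdeg hπ p e ε hp he hε hεinv hε0 hpe hperf)
      (s18g_jF (K := K₀) M) := by
  have hFM : ∀ f ∈ laurentBaseChange K₀ (modularFunctionFieldFull M), f ∈ s18g_Frac G :=
    fun _ hf => s18g_baseChange_mem_Frac G M hf
  haveI hgen1 : FFGen K₀ (s18g_jF (K := K₀) M) := s18b_ffGen_jF M hdeg
  haveI hgen2 : FFGen K₀ (s18g_jF (K := K₀) M)⁻¹ := s18b_ffGen_jF_inv M hdeg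
  have hα₁ := s18g_alpha_j_b G M hT hdeg hFM
  have hα₂ := s18g_alpha_inv_b G M hT hdeg hFM
  exact s33k_inst_chartGeo_five M ℓ h5 K₀ φ κ G hπ hT hdeg p e ε hp he hε hεinv hε0 hpe hperf
    (s33i_fullConst_of_ffGen _ (s18g_jF (K := K₀) M))
    (s33i_hglob G M hT hdeg hπ p e ε hp he hε hεinv hε0 hpe hperf (s18g_jF (K := K₀) M)
      (s18g_jF_ne_zero M) (s18g_jF_mem_V G M hFM) (s18g_jF_inv_mem_V G M hFM) hα₁ hα₂)
    (fun Q => s33i_hplace G M hT hdeg hπ p e ε hp he hε hεinv hε0 hpe hperf (s18g_jF (K := K₀) M)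
      (s18g_jF_ne_zero M) (s18g_jF_mem_V G M hFM) (s18g_jF_inv_mem_V G M hFM) hα₁ hα₂ Q)

section III

set_option synthInstance.maxHeartbeats 200000

variable (M : ℕ) [NeZero M] (p : ℕ) [hp : Fact p.Prime] (hpM : ¬ p ∣ M) (h5 : 5 ≤ p)
variable (L₀ : IntermediateField ℚ Qbar) [NumberField ↥L₀]
  (ζ₀ : (↥L₀)ˣ) (hζ₀ : IsPrimitiveRoot (ζ₀ : ↥L₀) p)
variable {κ : Type} [Field κ] [CharP κ p] [PerfectRing κ p] (G : s18g_GaussData ↥L₀ κ)
  [IsDiscreteValuationRing G.A]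
variable (hT : s18g_HT κ M) (hdeg : s18g_HDeg ↥L₀ M) (hπ : Function.Surjective G.π)
variable (e : ℕ) (ε : ↥L₀) (he : 0 < e) (hε : ε ∈ G.A) (hεinv : ε⁻¹ ∈ G.A) (hε0 : ε ≠ 0)
variable (hpe : (p : ↥L₀) = ε * ((G.ϖ : G.A) : ↥L₀) ^ e) (hperf : ∀ c : κ, ∃ d : κ, d ^ p = c)

include h5 in
/-- **(III-abstract) for the modular datum** at level `M`, `p ≥ 5`, `p ∤ M`, over a number field
`L₀ ⊂ ℚ̄` containing `ζ_p`: no `f ∈ 𝒢 ∖ 𝒢⁰` of depth `≥ 1` with `τ f ∈ 𝒢⁰` (`τ = Nm_α ∘ β`), in the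
tame case `e = p − 1` (see `s33f_IIIAbstract`). -/
theorem s33i_III :
    s33f_IIIAbstract (s33i_datum G M hT hdeg hπ p e ε hp.out he hε hεinv hε0 hpe hperf)
      (s33t_TPData M p hpM L₀ ζ₀ hζ₀ G hT hdeg hπ e ε he hε hεinv hε0 hpe hperf) := by
  haveI : PerfectField κ := PerfectRing.toPerfectField κ p
  exact s33f_IIIAbstract_of_chartGeo
    (s33i_chartGeo_five M p h5 ↥L₀ (algebraMap ↥L₀ Qbar) κ G hπ hT hdeg p e ε hp.out he hε hεinv
      hε0 hpe hperf) _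
    (s33t_TP M p hpM L₀ ζ₀ hζ₀ G hT hdeg hπ e ε he hε hεinv hε0 hpe hperf)

end III

end Fermat.Agent.Lib.S33
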