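/-
P-AT-P programme (S33), brick [GAL-inst] (helper4): **the `s33f_GalAut` instance for the concrete datum**
`s33i_datum` (helper6's FOInstD): an automorphism `s₀ : K ≃ₐ[ℚ] K` of the constant field which preserves the
valuation ring `G.A` and acts trivially on the residue field (`G.π (s₀ a) = G.π a`) — i.e. an element of the
inertia group at the place — acts coefficientwise on `𝓕 = laurentBaseChange K (modularFunctionFieldFull M)`
(Prelude `arithmeticRingAut`), preserves the Gauss ring `s18g_V`, commutes with the reduction `s18g_redF`,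
and `s₀ ϖ = ϖ · w` with `w ∈ G.A`.
-/
import Fermat.Agent.Lib.S33.FOMuArith
import Fermat.Agent.Lib.S33.FOInstD
import Fermat.Agent.Lib.S33.FOGeo
import Fermat.Prelude.Def_ModularCurve_ArithmeticGalois

set_option autoImplicit false
set_option linter.style.haveILetI false
set_option linter.unusedSectionVars false
noncomputable section

namespace Fermat.Agent.Lib.S33

open AlgebraicCurve ModularCurve Fermat.Agent.Lib.FF Polynomial Fermat.Agent.Lib.S18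

variable {K : Type} [Field K] [CharZero K] [Algebra ℚ K] {κ : Type} [Field κ]
  (G : s18g_GaussData K κ) (M : ℕ)

local notation "𝓕M" => laurentBaseChange K (modularFunctionFieldFull M)
local notation "hFM" => (fun (f : LaurentSeries K)
  (hf : f ∈ laurentBaseChange K (modularFunctionFieldFull M)) => s18g_baseChange_mem_Frac G M hf)

/-- `s₀` is of inertia type for the Gauss datum `G`: it preserves `G.A` and induces the identity on the
residue field. -/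
structure s33i_InertiaAut (s₀ : K ≃ₐ[ℚ] K) : Prop where
  mem : ∀ a : K, a ∈ G.A → s₀ a ∈ G.A
  res : ∀ (a : K) (ha : a ∈ G.A), G.π ⟨s₀ a, mem a ha⟩ = G.π ⟨a, ha⟩

/-- convenience constructor: `s₀` preserves `G.A` and `s₀ a - a ∈ ϖ G.A` for all `a ∈ G.A`
(the usual definition of the inertia group). -/
theorem s33i_inertiaAut_of_dvd (s₀ : K ≃ₐ[ℚ] K) (hmem : ∀ a : K, a ∈ G.A → s₀ a ∈ G.A)
    (hdvd : ∀ (a : K) (ha : a ∈ G.A), G.ϖ ∣ (⟨s₀ a, hmem a ha⟩ - ⟨a, ha⟩ : G.A)) :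
    s33i_InertiaAut G s₀ := by
  refine ⟨hmem, fun a ha => ?_⟩
  have h := (G.π_eq_zero_iff _).mpr (hdvd a ha)
  rw [map_sub, sub_eq_zero] at h
  exact h

variable {G}

/-- the restriction of `s₀` to `G.A`. -/
def s33i_resA {s₀ : K ≃ₐ[ℚ] K} (hs : s33i_InertiaAut G s₀) : G.A →+* G.A where
  toFun a := ⟨s₀ (a : K), hs.mem _ a.2⟩
  map_one' := Subtype.ext (map_one s₀)
  map_mul' _ _ := Subtype.ext (map_mul s₀ _ _)
  map_zero' := Subtype.ext (map_zero s₀)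
  map_add' _ _ := Subtype.ext (map_add s₀ _ _)

theorem s33i_pi_resA {s₀ : K ≃ₐ[ℚ] K} (hs : s33i_InertiaAut G s₀) (a : G.A) :
    G.π (s33i_resA hs a) = G.π a := hs.res _ a.2

/-- `coeffMap s₀ ∘ ι = ι ∘ coeffMap (s₀|A)`. -/
theorem s33i_coeffMap_iota {s₀ : K ≃ₐ[ℚ] K} (hs : s33i_InertiaAut G s₀) (P : LaurentSeries G.A) :
    coeffMap (s₀ : K →+* K) (s18g_iota G P) = s18g_iota G (coeffMap (s33i_resA hs) P) := by
  ext n
  rw [coeffMap_coeff, s18g_iota_coeff, s18g_iota_coeff, coeffMap_coeff]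
  rfl

/-- `ρ ∘ coeffMap (s₀|A) = ρ`. -/
theorem s33i_rho_coeffMap {s₀ : K ≃ₐ[ℚ] K} (hs : s33i_InertiaAut G s₀) (P : LaurentSeries G.A) :
    s18g_rho G (coeffMap (s33i_resA hs) P) = s18g_rho G P := by
  ext n
  rw [s18g_rho_coeff, s18g_rho_coeff, coeffMap_coeff, s33i_pi_resA]

/-- the coefficientwise action preserves the Gauss ring. -/
theorem s33i_coeffMap_mem_O {s₀ : K ≃ₐ[ℚ] K} (hs : s33i_InertiaAut G s₀) {f : LaurentSeries K}
    (hf : f ∈ s18g_O G) : coeffMap (s₀ : K →+* K) f ∈ s18g_O G := by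
  obtain ⟨P, Q, hQ, h⟩ := hf
  refine ⟨coeffMap (s33i_resA hs) P, coeffMap (s33i_resA hs) Q, ?_, ?_⟩
  · rw [s33i_rho_coeffMap]; exact hQ
  · rw [← s33i_coeffMap_iota, ← s33i_coeffMap_iota, ← map_mul, h]

/-- the coefficientwise action commutes with the reduction `redV`. -/
theorem s33i_redV_coeffMap {s₀ : K ≃ₐ[ℚ] K} (hs : s33i_InertiaAut G s₀) (x : ↥𝓕M)
    (hx : x ∈ s18g_V G 𝓕M hFM)
    (hsx : arithmeticRingAut (modularFunctionFieldFull M) s₀ x ∈ s18g_V G 𝓕M hFM) :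
    s18g_redV G 𝓕M hFM ⟨arithmeticRingAut (modularFunctionFieldFull M) s₀ x, hsx⟩ =
      s18g_redV G 𝓕M hFM ⟨x, hx⟩ := by
  obtain ⟨P, Q, hQ, h⟩ := hx
  rw [s18g_redV_eq G 𝓕M hFM ⟨x, ⟨P, Q, hQ, h⟩⟩ P Q hQ h]
  have hQ' : s18g_rho G (coeffMap (s33i_resA hs) Q) ≠ 0 := by rw [s33i_rho_coeffMap]; exact hQ
  have h' : s18g_iota G (coeffMap (s33i_resA hs) Q) *
      ((arithmeticRingAut (modularFunctionFieldFull M) s₀ x : ↥𝓕M) : LaurentSeries K) =
      s18g_iota G (coeffMap (s33i_resA hs) P) := by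
    rw [coe_arithmeticRingAut_apply, ← s33i_coeffMap_iota, ← s33i_coeffMap_iota, ← map_mul, h]
  rw [s18g_redV_eq G 𝓕M hFM ⟨_, hsx⟩ _ _ hQ' h', s33i_rho_coeffMap, s33i_rho_coeffMap]

variable (G)

/-- **The `s33f_GalAut` instance.** -/
def s33i_galAut (hT : s18g_HT κ M) (hdeg : s18g_HDeg K M) (hπ : Function.Surjective G.π)
    (p e : ℕ) (ε : K) (hp : p.Prime) (he : 0 < e) (hε : ε ∈ G.A) (hεinv : ε⁻¹ ∈ G.A) (hε0 : ε ≠ 0)
    (hpe : (p : K) = ε * ((G.ϖ : G.A) : K) ^ e) (hperf : ∀ c : κ, ∃ d : κ, d ^ p = c)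
    (s₀ : K ≃ₐ[ℚ] K) (hs : s33i_InertiaAut G s₀) :
    s33f_GalAut (s33i_datum G M hT hdeg hπ p e ε hp he hε hεinv hε0 hpe hperf) where
  s := arithmeticRingAut (modularFunctionFieldFull M) s₀
  s₀ := s₀.toRingEquiv
  s_const := fun c => arithmeticRingAut_algebraMap (modularFunctionFieldFull M) s₀ c
  s_mem := fun x hx => s33i_coeffMap_mem_O hs hx
  s_red := by
    intro x hx
    apply Subtype.ext
    exact s33i_redV_coeffMap (M := M) hs x hx (s33i_coeffMap_mem_O hs hx)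
  w := ((G.ϖ : G.A) : K)⁻¹ * s₀ ((G.ϖ : G.A) : K)
  w_mem := by
    have h0 : G.π (s33i_resA hs G.ϖ) = 0 := by rw [s33i_pi_resA, s18g_pi_unif]
    obtain ⟨y, hy⟩ := (G.π_eq_zero_iff _).mp h0
    have hy' : s₀ ((G.ϖ : G.A) : K) = ((G.ϖ : G.A) : K) * (y : K) :=
      congrArg (fun t : G.A => (t : K)) hy
    rw [hy', ← mul_assoc, inv_mul_cancel₀ (s18g_unifK_ne_zero G), one_mul]
    exact y.2
  s_unif := by
    show s₀ ((G.ϖ : G.A) : K) = ((G.ϖ : G.A) : K) * (((G.ϖ : G.A) : K)⁻¹ * s₀ ((G.ϖ : G.A) : K))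
    rw [← mul_assoc, mul_inv_cancel₀ (s18g_unifK_ne_zero G), one_mul]

/-- **(MU) for the modular datum**: `s33f_ChartGeo` (helper6/helper9) + `s33f_TP` (helper3) + an
automorphism `s₀` of inertia type with `s₀ ζ = ζ ^ n` (`ζ ∈ K` a primitive `p`-th root of unity) ⇒
on every Kummer class which is `τ ^ j`-divisible inside the depth-`≥ 1` classes for all `j`,
the coefficientwise action of `s₀` is multiplication by `n`. -/
theorem s33i_mu (hT : s18g_HT κ M) (hdeg : s18g_HDeg K M) (hπ : Function.Surjective G.π)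
    (p e : ℕ) (ε : K) (hp : p.Prime) (he : 0 < e) (hε : ε ∈ G.A) (hεinv : ε⁻¹ ∈ G.A) (hε0 : ε ≠ 0)
    (hpe : (p : K) = ε * ((G.ϖ : G.A) : K) ^ e) (hperf : ∀ c : κ, ∃ d : κ, d ^ p = c)
    {t : ↥𝓕M}
    (hCG : s33f_ChartGeo (s33i_datum G M hT hdeg hπ p e ε hp he hε hεinv hε0 hpe hperf) t)
    (T : s33f_TPData (s33i_datum G M hT hdeg hπ p e ε hp he hε hεinv hε0 hpe hperf))
    (hTP : s33f_TP (s33i_datum G M hT hdeg hπ p e ε hp he hε hεinv hε0 hpe hperf) T)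
    (s₀ : K ≃ₐ[ℚ] K) (hs : s33i_InertiaAut G s₀) {ζ : K} (hζ : IsPrimitiveRoot ζ p) (n : ℕ)
    (hsζ : s₀ ζ = ζ ^ n) {f : ↥𝓕M}
    (hdiv : ∀ j : ℕ, ∃ f' : ↥𝓕M,
      s33f_IsKum (s33i_datum G M hT hdeg hπ p e ε hp he hε hεinv hε0 hpe hperf) f' ∧
      s33f_DepthGE (s33i_datum G M hT hdeg hπ p e ε hp he hε hεinv hε0 hpe hperf) 1 f' ∧
      s33f_IsKum0 (s33i_datum G M hT hdeg hπ p e ε hp he hε hεinv hε0 hpe hperf)
        (f * ((T.τ)^[j] f')⁻¹)) :
    s33f_IsKum0 (s33i_datum G M hT hdeg hπ p e ε hp he hε hεinv hε0 hpe hperf)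
      (arithmeticRingAut (modularFunctionFieldFull M) s₀ f * (f ^ n)⁻¹) :=
  s33f_muAbstract_zeta T (s33f_leadConst_of_chartGeo hCG) (s33f_superCritical_of_chartGeo hCG) hTP
    (s33i_galAut G M hT hdeg hπ p e ε hp he hε hεinv hε0 hpe hperf s₀ hs) hζ n hsζ hdiv

end Fermat.Agent.Lib.S33
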