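/-
S33 (programme P-AT-P), package [GLUE] (helper2), part 17: **[HALF] FROM THE J-SIDE CONTRACT (U) + (M)**:
the instantiation of helper8's Λ-side wrapper `s33w_half` (Lib/S33/AccLambda) with the Hecke scalars
of `Lib/S33/G*.lean`.

* `s33g_cayley2_apply` : Cayley–Hamilton in rank two, `f v + det f • f⁻¹ v = tr f • v`;
* `s33g_pow_eq_p_mul`  : an element of the maximal ideal of the local factor `Q = A / (1 - e)` has a
  power divisible by `p`;
* `s33g_half_abs`      : the abstract theorem.  `J` an abelian group with `G_ℚ`-action whose Tate module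
  `Λ = T_p J` is finite free, `A` a commutative `ℤ_[p]`-algebra acting faithfully on `Λ` and commuting
  with `G_ℚ`, `πA : A →+* T`, `rT : GaloisRepAdic T` residually irreducible with `tr rT(g) = πA(t g)`,
  `det rT(g) = πA(ε g)`, `τ₀ ∈ I` with `1 - ε τ₀` a unit, `ε τ₀ ≡ a mod p`, residual ordinarity at
  `τ₀`; `J1 ≤ J` with (U) `σ x - x ∈ J1` (`σ ∈ I`, `x` of `p`-power order) and (M) `τ₀ x = a x` for
  `x ∈ J1 ∩ J[p] ∩ pr₁(Λ_θ)`.  Then `Λ' := T_p J1` satisfies [HALF] for the primary part `Λ_θ`.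
-/
import Fermat.Agent.Lib.S33.GTheta
import Fermat.Agent.Lib.S33.AccLambda
import Fermat.Prelude.Def_GaloisRep_Adic

set_option autoImplicit false
set_option linter.unusedSectionVars false
set_option linter.style.haveILetI false

namespace Fermat.Agent.Lib.S33

open IsLocalRing Module Polynomial Fermat.Agent.Lib.S30
open scoped TensorProduct

local notation "Γℚ" => (AlgebraicClosure ℚ ≃ₐ[ℚ] AlgebraicClosure ℚ)

noncomputable section

section CH

variable {k : Type*} [Field k] {V : Type*} [AddCommGroup V] [Module k V] [Module.Finite k V]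

/-- Cayley–Hamilton in rank two. -/
theorem s33g_cayley2 (h2 : finrank k V = 2) (f : Module.End k V) :
    f * f - LinearMap.trace k V f • f + LinearMap.det f • (1 : Module.End k V) = 0 := by
  set b : Basis (Fin 2) k V := Module.finBasisOfFinrankEq k V h2 with hb
  have h0 := LinearMap.aeval_self_charpoly f
  rw [← LinearMap.charpoly_toMatrix f b, Matrix.charpoly_fin_two,
    ← LinearMap.trace_eq_matrix_trace k b, LinearMap.det_toMatrix] at h0
  simp only [map_add, map_sub, map_mul, aeval_X, aeval_C, pow_two,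
    Algebra.algebraMap_eq_smul_one, smul_mul_assoc, one_mul] at h0
  exact h0

/-- Cayley–Hamilton in rank two, solved for the inverse. -/
theorem s33g_cayley2_apply (h2 : finrank k V = 2) (f finv : Module.End k V) (hinv : f * finv = 1)
    (v : V) : f v + LinearMap.det f • finv v = LinearMap.trace k V f • v := by
  have h := LinearMap.congr_fun (s33g_cayley2 h2 f) (finv v)
  have h1 : f (finv v) = v := by
    rw [← Module.End.mul_apply, hinv, Module.End.one_apply]
  rw [LinearMap.add_apply, LinearMap.sub_apply, Module.End.mul_apply, LinearMap.smul_apply,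
    LinearMap.smul_apply, Module.End.one_apply, h1, LinearMap.zero_apply] at h
  rw [← sub_eq_zero, ← h]
  abel

end CH

section PowP

variable {p : ℕ} [Fact p.Prime]
  {Λ : Type} [AddCommGroup Λ] [Module ℤ_[p] Λ] [Module.Free ℤ_[p] Λ] [Module.Finite ℤ_[p] Λ]
  {A : Type} [CommRing A] [Algebra ℤ_[p] A]
  {T : Type*} [CommRing T] [IsLocalRing T]

/-- An element of the maximal ideal of the local factor has a power divisible by `p`. -/
theorem s33g_pow_eq_p_mul (act : A →ₐ[ℤ_[p]] Module.End ℤ_[p] Λ) (hact : Function.Injective act)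
    (πA : A →+* T) (e : A) (hπe : πA e = 1)
    (he3 : ∀ a : A, IsUnit (πA a) → ∃ b : A, a * b * e = e)
    (x : s33g_Q e)
    (hx : letI := s33g_Q_isLocalRing πA e hπe he3; x ∈ maximalIdeal (s33g_Q e)) :
    ∃ (j : ℕ) (y : s33g_Q e), x ^ j = algebraMap ℤ_[p] (s33g_Q e) (p : ℤ_[p]) * y := by
  letI := s33g_Q_isLocalRing πA e hπe he3
  obtain ⟨a, rfl⟩ := Ideal.Quotient.mk_surjective x
  set f : ℤ_[p][X] := LinearMap.charpoly (act a) with hf
  have hA : aeval a f = 0 := by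
    apply hact
    rw [← Polynomial.aeval_algHom_apply, hf, LinearMap.aeval_self_charpoly, map_zero]
  have h0 : aeval (Ideal.Quotient.mk (Ideal.span {1 - e}) a : s33g_Q e) f = 0 := by
    have h1 : (Ideal.Quotient.mk (Ideal.span {1 - e}) a : s33g_Q e) =
        Ideal.Quotient.mkₐ ℤ_[p] (Ideal.span {1 - e}) a := rfl
    rw [h1, Polynomial.aeval_algHom_apply, hA, map_zero]
  obtain ⟨j, hj⟩ := s33g_pow_mem_of_monic (R := ℤ_[p]) _ hx f (LinearMap.charpoly_monic _) h0
  rw [PadicInt.maximalIdeal_eq_span_p, Ideal.map_span, Set.image_singleton,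
    Ideal.mem_span_singleton'] at hj
  obtain ⟨y, hy⟩ := hj
  exact ⟨j, y, by rw [← hy, mul_comm]⟩

end PowP

section Main

variable {p : ℕ} [Fact p.Prime]
  {J : Type} [AddCommGroup J] [DistribMulAction Γℚ J]
  [Module.Finite ℤ_[p] (s30a_Tp J p)] [Module.Free ℤ_[p] (s30a_Tp J p)]
  {A : Type} [CommRing A] [Algebra ℤ_[p] A]
  {T : Type} [CommRing T] [IsLocalRing T]

/-- **[HALF] from (U) + (M), abstract form.** -/
theorem s33g_half_abs
    (act : A →ₐ[ℤ_[p]] Module.End ℤ_[p] (s30a_Tp J p)) (hact : Function.Injective act)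
    (πA : A →+* T) (hpT : (p : T) ∈ maximalIdeal T)
    (rT : GaloisRepAdic T)
    (hirr : ∀ W : Submodule (ResidueField T) rT.residual.V,
      (∀ g : Γℚ, ∀ x ∈ W, rT.residual.ρ g x ∈ W) → W = ⊥ ∨ W = ⊤)
    (hcomm : ∀ (g : Γℚ) (a : A) (w : s30a_Tp J p),
      s33w_rho J p Γℚ g (act a w) = act a (s33w_rho J p Γℚ g w))
    (ε : Γℚ →* ℤ_[p]ˣ) (tA : Γℚ → A)
    (hCH : ∀ (g : Γℚ) (w : s30a_Tp J p),
      s33w_rho J p Γℚ g w + ((ε g : ℤ_[p]ˣ) : ℤ_[p]) • s33w_rho J p Γℚ g⁻¹ w = act (tA g) w)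
    (htr : ∀ g : Γℚ, πA (tA g) = LinearMap.trace T rT.V (rT.ρ g))
    (hdet : ∀ g : Γℚ, πA (algebraMap ℤ_[p] A ((ε g : ℤ_[p]ˣ) : ℤ_[p])) = LinearMap.det (rT.ρ g))
    (I : Set Γℚ) (τ₀ : Γℚ) (hτ₀ : τ₀ ∈ I) (hετ : IsUnit (1 - ((ε τ₀ : ℤ_[p]ˣ) : ℤ_[p])))
    (a : ℕ) (haε : ∃ c : ℤ_[p], ((ε τ₀ : ℤ_[p]ˣ) : ℤ_[p]) - (a : ℤ_[p]) = (p : ℤ_[p]) * c)
    (hres : LinearMap.trace T rT.V (rT.ρ τ₀) - 1 - LinearMap.det (rT.ρ τ₀) ∈ maximalIdeal T)
    (Wθ : Submodule ℤ_[p] (s30a_Tp J p))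
    (hWθ : ∀ w : s30a_Tp J p, w ∈ Wθ ↔ ∀ a : A, πA a ∈ maximalIdeal T →
      ∀ m : ℕ, ∃ j : ℕ, ∃ w' : s30a_Tp J p, (act a ^ j) w = (p : ℤ_[p]) ^ m • w')
    (J1 : AddSubgroup J)
    (hU : ∀ (j : ℕ) (x : J), p ^ j • x = 0 → ∀ σ ∈ I, σ • x - x ∈ J1)
    (hM : ∀ x ∈ J1, p • x = 0 → (∃ w ∈ Wθ, (w : ℕ → J) 1 = x) → τ₀ • x = a • x) :
    ∃ Λ' : Submodule ℤ_[p] (s30a_Tp J p),
      (∀ σ ∈ I, ∀ w : s30a_Tp J p, s33w_rho J p Γℚ σ w - w ∈ Λ') ∧
      2 * finrank ℤ_[p] ↥(Λ' ⊓ Wθ) = finrank ℤ_[p] ↥Wθ := by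
  classical
  -- finiteness of `A` and the local idempotent
  haveI : Module.Finite ℤ_[p] A := Module.Finite.of_injective act.toLinearMap hact
  obtain ⟨e, hee, hπe, he3⟩ := s33g_exists_idem πA hpT
  letI hloc : IsLocalRing (s33g_Q e) := s33g_Q_isLocalRing πA e hπe he3
  haveI hcompl : IsAdicComplete (maximalIdeal (s33g_Q e)) (s33g_Q e) :=
    s33g_Q_complete πA e hπe he3 hpT
  haveI hhens : HenselianRing (s33g_Q e) (maximalIdeal (s33g_Q e)) := inferInstance
  set πQ : s33g_Q e →+* T := s33g_piQ πA e hπe with hπQ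
  have hunitQ : ∀ x : s33g_Q e, IsUnit (πQ x) → IsUnit x :=
    fun x hx => s33g_isUnit_of_piQ πA e hπe he3 x hx
  have hmemQ : ∀ x : s33g_Q e, πQ x ∈ maximalIdeal T → x ∈ maximalIdeal (s33g_Q e) := by
    intro x hx
    rw [mem_maximalIdeal, mem_nonunits_iff]
    intro hu
    exact (mem_maximalIdeal _).mp hx (hu.map πQ)
  -- scalars on the local factor
  set tQ : Γℚ → s33g_Q e := fun g => Ideal.Quotient.mk (Ideal.span {1 - e}) (tA g) with htQ
  set dQ : Γℚ →* (s33g_Q e)ˣ :=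
    (Units.map (algebraMap ℤ_[p] (s33g_Q e) : ℤ_[p] →* s33g_Q e)).comp ε with hdQ
  have hdQ_coe : ∀ g : Γℚ, ((dQ g : (s33g_Q e)ˣ) : s33g_Q e) =
      algebraMap ℤ_[p] (s33g_Q e) ((ε g : ℤ_[p]ˣ) : ℤ_[p]) := fun g => rfl
  have hπtQ : ∀ g : Γℚ, πQ (tQ g) = LinearMap.trace T rT.V (rT.ρ g) := by
    intro g
    rw [htQ, hπQ, s33g_piQ_mk, htr]
  have hπdQ : ∀ g : Γℚ, πQ ((dQ g : (s33g_Q e)ˣ) : s33g_Q e) = LinearMap.det (rT.ρ g) := by
    intro g
    rw [hdQ_coe, ← hdet g]
    have : algebraMap ℤ_[p] (s33g_Q e) ((ε g : ℤ_[p]ˣ) : ℤ_[p]) =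
        Ideal.Quotient.mk (Ideal.span {1 - e}) (algebraMap ℤ_[p] A ((ε g : ℤ_[p]ˣ) : ℤ_[p])) := rfl
    rw [this, hπQ, s33g_piQ_mk]
  -- Hensel roots
  have h1 : 1 - tQ τ₀ + ((dQ τ₀ : (s33g_Q e)ˣ) : s33g_Q e) ∈ maximalIdeal (s33g_Q e) := by
    apply hmemQ
    rw [map_add, map_sub, map_one, hπtQ, hπdQ]
    have := (Ideal.neg_mem_iff _).mpr hres
    have e1 : -(LinearMap.trace T rT.V (rT.ρ τ₀) - 1 - LinearMap.det (rT.ρ τ₀)) =
        1 - LinearMap.trace T rT.V (rT.ρ τ₀) + LinearMap.det (rT.ρ τ₀) := by ring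
    rwa [e1] at this
  have h2 : IsUnit (1 - ((dQ τ₀ : (s33g_Q e)ˣ) : s33g_Q e)) := by
    rw [hdQ_coe, ← map_one (algebraMap ℤ_[p] (s33g_Q e)), ← map_sub]
    exact hετ.map _
  obtain ⟨α, β, hsum, hprod, hβ1, hαβ, hα1⟩ := s33g_hensel_roots (tQ τ₀) _ h1 h2
  obtain ⟨uu, huu⟩ := hαβ
  set u : s33g_Q e := ((uu⁻¹ : (s33g_Q e)ˣ) : s33g_Q e) with hu_def
  have hu : u * (α - β) = 1 := by rw [← huu, hu_def, Units.inv_mul]
  -- `p` lies in the maximal ideal of `Q`
  have hpQ : algebraMap ℤ_[p] (s33g_Q e) (p : ℤ_[p]) ∈ maximalIdeal (s33g_Q e) := by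
    apply hmemQ
    have : algebraMap ℤ_[p] (s33g_Q e) (p : ℤ_[p]) =
        Ideal.Quotient.mk (Ideal.span {1 - e}) (algebraMap ℤ_[p] A (p : ℤ_[p])) := rfl
    rw [this, hπQ, s33g_piQ_mk, map_natCast, map_natCast]
    exact hpT
  -- the `e`-part and its structures
  have hWeq : s33g_W act e = Wθ := s33g_W_eq_of_char act hact πA e hee hπe he3 Wθ hWθ
  set ρW := s33g_rhoW act e (s33w_rho J p Γℚ) hcomm with hρW
  have hCHW : ∀ g : Γℚ, ρW g + ((dQ g : (s33g_Q e)ˣ) : s33g_Q e) • ρW g⁻¹ =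
      tQ g • (1 : Module.End (s33g_Q e) ↥(s33g_W act e)) := by
    intro g
    refine LinearMap.ext fun w => Subtype.ext ?_
    rw [LinearMap.add_apply, LinearMap.smul_apply, LinearMap.smul_apply, Module.End.one_apply,
      hdQ_coe, algebraMap_smul, Submodule.coe_add, Submodule.coe_smul, hρW, s33g_rhoW_coe,
      s33g_rhoW_coe, htQ, s33g_mk_smul_coe]
    exact hCH g w
  have hsatW : ∀ w : s30a_Tp J p, (p : ℤ_[p]) • w ∈ s33g_W act e → w ∈ s33g_W act e := by
    intro w hw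
    unfold s33g_W at hw ⊢
    rw [LinearMap.mem_ker] at hw ⊢
    rw [map_smul] at hw
    exact (smul_eq_zero.mp hw).resolve_left
      (by exact_mod_cast (Fact.out : p.Prime).ne_zero)
  -- the residual representation as a module over `Q`
  letI algQk : Algebra (s33g_Q e) (ResidueField T) := ((residue T).comp πQ).toAlgebra
  letI modQV : Module (s33g_Q e) rT.residual.V :=
    Module.compHom rT.residual.V (algebraMap (s33g_Q e) (ResidueField T))
  haveI towQV : IsScalarTower (s33g_Q e) (ResidueField T) rT.residual.V :=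
    IsScalarTower.of_algebraMap_smul (fun _ _ => rfl)
  have halg : ∀ x : s33g_Q e, algebraMap (s33g_Q e) (ResidueField T) x = residue T (πQ x) :=
    fun _ => rfl
  have htrV : ∀ g : Γℚ, algebraMap (s33g_Q e) (ResidueField T) (tQ g) =
      LinearMap.trace (ResidueField T) rT.residual.V (rT.residual.ρ g) := by
    intro g
    rw [halg, hπtQ]
    have e2 : LinearMap.trace (ResidueField T) (ResidueField T ⊗[T] rT.V)
        ((rT.ρ g).baseChange (ResidueField T)) =
        algebraMap T (ResidueField T) (LinearMap.trace T rT.V (rT.ρ g)) :=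
      LinearMap.trace_baseChange _ _
    rw [ResidueField.algebraMap_eq] at e2
    exact e2.symm
  have hdetV : ∀ g : Γℚ, algebraMap (s33g_Q e) (ResidueField T)
      ((dQ g : (s33g_Q e)ˣ) : s33g_Q e) = LinearMap.det (rT.residual.ρ g) := by
    intro g
    rw [halg, hπdQ]
    have e3 : LinearMap.det ((rT.ρ g).baseChange (ResidueField T)) =
        algebraMap T (ResidueField T) (LinearMap.det (rT.ρ g)) :=
      LinearMap.det_baseChange _
    rw [ResidueField.algebraMap_eq] at e3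
    exact e3.symm
  have hrelV : ∀ g : Γℚ, rT.residual.ρ g + ((dQ g : (s33g_Q e)ˣ) : s33g_Q e) • rT.residual.ρ g⁻¹ =
      tQ g • (1 : Module.End (ResidueField T) rT.residual.V) := by
    intro g
    refine LinearMap.ext fun v => ?_
    rw [LinearMap.add_apply, LinearMap.smul_apply, LinearMap.smul_apply, Module.End.one_apply,
      ← algebraMap_smul (ResidueField T) ((dQ g : (s33g_Q e)ˣ) : s33g_Q e),
      ← algebraMap_smul (ResidueField T) (tQ g), hdetV, htrV]
    refine s33g_cayley2_apply rT.residual.finrank_eq _ _ ?_ v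
    rw [← map_mul, mul_inv_cancel, map_one]
  have hunitk : ∀ s : s33g_Q e, algebraMap (s33g_Q e) (ResidueField T) s ≠ 0 → IsUnit s := by
    intro s hs
    apply hunitQ
    rw [halg, Ne, residue_eq_zero_iff] at hs
    exact (notMem_maximalIdeal).mp hs
  -- both eigenvalues occur residually
  have hαβk : algebraMap (s33g_Q e) (ResidueField T) α ≠ algebraMap (s33g_Q e) (ResidueField T) β := by
    intro h
    have h3 : algebraMap (s33g_Q e) (ResidueField T) (u * (α - β)) = 0 := by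
      rw [map_mul, map_sub, h, sub_self, mul_zero]
    rw [hu, map_one] at h3
    exact one_ne_zero h3
  have huk : algebraMap (s33g_Q e) (ResidueField T) u ≠ 0 := by
    intro h
    have h3 : algebraMap (s33g_Q e) (ResidueField T) (u * (α - β)) = 0 := by
      rw [map_mul, h, zero_mul]
    rw [hu, map_one] at h3
    exact one_ne_zero h3
  have htr2 : ∀ γ : s33g_Q e, rT.residual.ρ τ₀ = γ • (1 : Module.End (ResidueField T) rT.residual.V) →
      algebraMap (s33g_Q e) (ResidueField T) (α + β) =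
        2 * algebraMap (s33g_Q e) (ResidueField T) γ := by
    intro γ hγ
    rw [hsum, htrV, hγ, ← algebraMap_smul (ResidueField T) γ, map_smul, LinearMap.trace_one,
      rT.residual.finrank_eq, smul_eq_mul, mul_comm]
    norm_num
  have hαV : s33w_e rT.residual.ρ τ₀ u β ≠ 0 := by
    intro h
    unfold s33w_e at h
    have h3 : rT.residual.ρ τ₀ = β • (1 : Module.End (ResidueField T) rT.residual.V) := by
      rw [← algebraMap_smul (ResidueField T) u] at h
      have := (smul_eq_zero.mp h).resolve_left huk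
      exact sub_eq_zero.mp this
    have h4 := htr2 β h3
    rw [map_add, two_mul] at h4
    exact hαβk (add_right_cancel h4)
  have hβV : s33w_e rT.residual.ρ τ₀ (-u) α ≠ 0 := by
    intro h
    unfold s33w_e at h
    have h3 : rT.residual.ρ τ₀ = α • (1 : Module.End (ResidueField T) rT.residual.V) := by
      rw [neg_smul, neg_eq_zero, ← algebraMap_smul (ResidueField T) u] at h
      have := (smul_eq_zero.mp h).resolve_left huk
      exact sub_eq_zero.mp this
    have h4 := htr2 α h3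
    rw [map_add, two_mul] at h4
    exact hαβk (add_left_cancel h4).symm
  -- nilpotency of `a - α` modulo `p`
  have hnil : ∃ n : ℕ, ∀ w : ↥(s33g_W act e), ∃ w' : ↥(s33g_W act e),
      ((a : s33g_Q e) - α) ^ n • w = (p : s33g_Q e) • w' := by
    have hx : (a : s33g_Q e) - α ∈ maximalIdeal (s33g_Q e) := by
      obtain ⟨c, hc⟩ := haε
      have e1 : (a : s33g_Q e) - α =
          -(algebraMap ℤ_[p] (s33g_Q e) (p : ℤ_[p]) * algebraMap ℤ_[p] (s33g_Q e) c) +
            α * (β - 1) := by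
        rw [← map_mul, ← hc, map_sub, map_natCast, ← hdQ_coe, ← hprod]
        ring
      rw [e1]
      exact Ideal.add_mem _ ((Ideal.neg_mem_iff _).mpr (Ideal.mul_mem_right _ _ hpQ))
        (Ideal.mul_mem_left _ _ hβ1)
    obtain ⟨n, y, hy⟩ := s33g_pow_eq_p_mul act hact πA e hπe he3 _ hx
    refine ⟨n, fun w => ⟨y • w, ?_⟩⟩
    rw [hy, map_natCast, mul_smul]
  -- helper8's wrapper
  obtain ⟨Λ', hΛ'1, hΛ'2⟩ := s33w_half (A := J) (p := p) (G := Γℚ) (s33g_W act e) hsatW ρW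
    (fun g w => s33g_rhoW_coe act e (s33w_rho J p Γℚ) hcomm g w) dQ tQ hCHW
    (k := ResidueField T) (V := rT.residual.V) rT.residual.ρ hrelV hirr hunitk τ₀ hsum hprod hu
    hαV hβV hα1 a hnil I hτ₀ J1 hU
    (fun x hx hpx hw => hM x hx hpx (by rw [← hWeq]; exact hw))
  refine ⟨Λ', hΛ'1, ?_⟩
  rw [← hWeq]
  exact hΛ'2

end Main

end

end Fermat.Agent.Lib.S33
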