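/-
S33 (programme P-AT-P), package [GLUE] (helper2), part 18: **THE J-SIDE CONTRACT (U) + (M) IMPLIES S33.**

* `s33g_irr_of_absIrr`  : an absolutely irreducible residual representation is irreducible;
* `s33g_halfAt_of_UM`   : for `P ∣ p`, ONE subgroup `J1 ≤ J₀(N)(ℚ̄)` with
    (U) `σ x - x ∈ J1` for `σ ∈ I_P` and `x` of `p`-power order,
    (M) `σ x = 2 x` for `x ∈ J1 ∩ J[p] ∩ pr₁(Λ_θ)` and every `σ ∈ I_P` squaring the `p`-th roots of unity,
  gives `s33g_HalfAt N p S θ P`  (helper8's `s33w_half` fed with the Hecke scalars of `G*.lean`);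
* `s33g_UM`             : **the J-side contract** (a `Prop`): under the hypotheses of S33 such a `J1`
  exists at every `P ∣ p`;
* `s33g_half_of_UM : s33g_UM → s33g_Half`, `s33g_S33_of_UM : s33g_UM → S33`.
-/
import Fermat.Agent.Lib.S33.GHalf
import Fermat.Agent.Lib.S33.GTop

set_option autoImplicit false
set_option linter.unusedSectionVars false
set_option linter.style.haveILetI false

open IsLocalRing CuspForm CongruenceSubgroup

namespace Fermat.Agent.Lib.S33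

open Fermat.Agent.Lib.S29 Fermat.Agent.Lib.S30 Fermat.Agent.Lib.S31 Fermat.Agent.Lib.S53
open ModularCurve AlgebraicCurve

local notation "Kb" => AlgebraicClosure ℚ

section Irr

/-- An absolutely irreducible residual representation is irreducible. -/
theorem s33g_irr_of_absIrr {k : Type} [Field k] (ρ : ResidualGaloisRep k)
    (h : ρ.IsAbsolutelyIrreducible) :
    ∀ W : Submodule k ρ.V, (∀ g : s29k_G, ∀ x ∈ W, ρ.ρ g x ∈ W) → W = ⊥ ∨ W = ⊤ := by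
  haveI : Nontrivial ρ.V := by
    apply Module.nontrivial_of_finrank_pos (R := k)
    rw [ρ.finrank_eq]
    norm_num
  have hspan : Submodule.span k (Set.range fun g : s29k_G => ρ.ρ g) = ⊤ :=
    s31a_span_eq_top_of_trace (V := ρ.V) (fun g : s29k_G => ρ.ρ g)
      (fun y hy => s31a_eq_zero_of_trace_absIrr (AlgebraicClosure k) ρ.ρ h y hy)
  intro W hW
  by_cases hbot : W = ⊥
  · exact Or.inl hbot
  right
  obtain ⟨w, hwW, hw0⟩ := Submodule.exists_mem_ne_zero_of_ne_bot hbot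
  -- `W` is stable under all endomorphisms
  have hend : ∀ f : Module.End k ρ.V, f w ∈ W := by
    intro f
    have hf : f ∈ Submodule.span k (Set.range fun g : s29k_G => ρ.ρ g) := by
      rw [hspan]; trivial
    induction hf using Submodule.span_induction with
    | mem x hx =>
      obtain ⟨g, rfl⟩ := hx
      exact hW g w hwW
    | zero => rw [LinearMap.zero_apply]; exact W.zero_mem
    | add x y _ _ hx hy => rw [LinearMap.add_apply]; exact W.add_mem hx hy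
    | smul c x _ hx => rw [LinearMap.smul_apply]; exact W.smul_mem c hx
  rw [eq_top_iff]
  intro v _
  have hker : LinearMap.ker (LinearMap.toSpanSingleton k ρ.V w) = ⊥ :=
    LinearMap.ker_toSpanSingleton k hw0
  obtain ⟨g, hg⟩ := LinearMap.exists_leftInverse_of_injective _ hker
  have hgw : g w = 1 := by
    have := LinearMap.congr_fun hg 1
    rwa [LinearMap.comp_apply, LinearMap.toSpanSingleton_apply, one_smul,
      LinearMap.id_apply] at this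
  have := hend ((LinearMap.toSpanSingleton k ρ.V v).comp g)
  rwa [LinearMap.comp_apply, hgw, LinearMap.toSpanSingleton_apply, one_smul] at this

end Irr

variable {p : ℕ} {N : ℕ} [NeZero N] {S : Finset ℕ}
  {𝒪 : Type} [CommRing 𝒪] [IsDomain 𝒪] [IsDiscreteValuationRing 𝒪]
  [IsAdicComplete (IsLocalRing.maximalIdeal 𝒪) 𝒪]
  {θ : CuspForm.heckeAlgebra N 2 (↑S : Set ℕ) →+* IsLocalRing.ResidueField 𝒪}
  {T : Type} [CommRing T] [IsLocalRing T] [IsNoetherianRing T]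
  [IsAdicComplete (IsLocalRing.maximalIdeal T) T] [Algebra 𝒪 T] [IsLocalHom (algebraMap 𝒪 T)]
  [Module.Finite 𝒪 T] [Module.Free 𝒪 T]

/-- **[HALF] at `P` from (U) + (M).** -/
theorem s33g_halfAt_of_UM [Fact p.Prime] (hp2 : p ≠ 2)
    (hp𝒪 : (p : 𝒪) ∈ IsLocalRing.maximalIdeal 𝒪) (hpS : p ∈ S)
    (hNS : ∀ q : ℕ, q.Prime → q ∣ N → q ∈ S)
    (H : CuspForm.HeckeGaloisRepDatum N (↑S : Set ℕ) 𝒪 θ T)
    (hres : (GaloisRepAdic.ofResidualGaloisRep H.ρ.residual).IsOrdinaryAt p)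
    (P : ValuationSubring Kb) (hP : P.LiesOverPrime p)
    (J1 : AddSubgroup (JZero N))
    (hU : ∀ (j : ℕ) (x : JZero N), p ^ j • x = 0 →
      ∀ σ ∈ P.inertiaSubgroupIn ℚ, σ • x - x ∈ J1)
    (hM : ∀ σ ∈ P.inertiaSubgroupIn ℚ, (∀ ζ : Kb, ζ ^ p = 1 → σ ζ = ζ ^ 2) →
      ∀ x ∈ J1, p • x = 0 →
        (∃ w ∈ s33g_thetaPart N p S θ, (w : ℕ → JZero N) 1 = x) → σ • x = 2 • x) :
    s33g_HalfAt N p S θ P := by
  have hpT : (p : T) ∈ maximalIdeal T := s31e_p_mem p hp𝒪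
  obtain ⟨τ₀, hτ₀, hζ, hunit⟩ := s33g_tau0_unit p hp2 P hP
  obtain ⟨Λ', h1, h2⟩ := s33g_half_abs (J := JZero N) (s33g_actA N p S)
    (s33g_actA_injective N p S) (s33g_piT hpT H.π) hpT H.ρ
    (s33g_irr_of_absIrr H.ρ.residual H.residual_absIrr)
    (fun g a w => s33g_hcomm g a w) (s30y_cycDatum p).ε (s33g_tA hpS hNS H)
    (fun g w => s33g_hCH hpS hNS H g w) (fun g => s33g_piT_tA hpS hNS H hpT g)
    (fun g => s33g_piT_eps hpS hNS H hpT g)
    (↑(P.inertiaSubgroupIn ℚ) : Set s29k_G) τ₀ hτ₀ hunit 2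
    (s33g_eps_sub_of_zeta p τ₀ 2 hζ)
    (s33g_res_of_ordinary H.ρ hres P hP τ₀ hτ₀)
    (s33g_thetaPart N p S θ) (fun w => s33g_thetaPart_iff H hpT w) J1
    (fun j x hx σ hσ => hU j x hx σ hσ)
    (fun x hx hpx hw => hM τ₀ hτ₀ hζ x hx hpx hw)
  exact ⟨Λ', fun σ hσ w => h1 σ hσ w, h2.le⟩

/-- **The J-side contract (U) + (M)**: under exactly the hypotheses of S33, at every `P ∣ p` there is
ONE subgroup `J1 ≤ J₀(N)(ℚ̄)` such that
(U) `σ x - x ∈ J1` for all `σ ∈ I_P` and all `x` of `p`-power order;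
(M) every `σ ∈ I_P` squaring the `p`-th roots of unity acts as multiplication by `2` on
`J1 ∩ J[p] ∩ pr₁(Λ_θ)`. -/
def s33g_UM : Prop :=
  ∀ {p : ℕ} {N : ℕ} [NeZero N] {S : Finset ℕ}
    {𝒪 : Type} [CommRing 𝒪] [IsDomain 𝒪] [IsDiscreteValuationRing 𝒪]
    [IsAdicComplete (IsLocalRing.maximalIdeal 𝒪) 𝒪]
    {θ : CuspForm.heckeAlgebra N 2 (↑S : Set ℕ) →+* IsLocalRing.ResidueField 𝒪}
    {T : Type} [CommRing T] [IsLocalRing T] [IsNoetherianRing T]
    [IsAdicComplete (IsLocalRing.maximalIdeal T) T] [Algebra 𝒪 T] [IsLocalHom (algebraMap 𝒪 T)]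
    [Module.Finite 𝒪 T] [Module.Free 𝒪 T]
    [Finite (IsLocalRing.ResidueField 𝒪)] [CharZero 𝒪]
    (hp : p.Prime), p ≠ 2 → (p : 𝒪) ∈ IsLocalRing.maximalIdeal 𝒪 → (p ∣ N ∧ ¬ p ^ 2 ∣ N) →
    (∀ q : ℕ, q.Prime → q ∣ N → q ∈ S) →
    ∀ H : CuspForm.HeckeGaloisRepDatum N (↑S : Set ℕ) 𝒪 θ T,
      (GaloisRepAdic.ofResidualGaloisRep H.ρ.residual).IsOrdinaryAt p →
      ∀ P : ValuationSubring Kb, P.LiesOverPrime p →
        (haveI : Fact p.Prime := ⟨hp⟩;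
          ∃ J1 : AddSubgroup (JZero N),
            (∀ (j : ℕ) (x : JZero N), p ^ j • x = 0 →
              ∀ σ ∈ P.inertiaSubgroupIn ℚ, σ • x - x ∈ J1) ∧
            (∀ σ ∈ P.inertiaSubgroupIn ℚ, (∀ ζ : Kb, ζ ^ p = 1 → σ ζ = ζ ^ 2) →
              ∀ x ∈ J1, p • x = 0 →
                (∃ w ∈ s33g_thetaPart N p S θ, (w : ℕ → JZero N) 1 = x) → σ • x = 2 • x))

/-- (U) + (M) implies [HALF]. -/
theorem s33g_half_of_UM (h : s33g_UM) : s33g_Half := by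
  intro p N _ S 𝒪 _ _ _ _ θ T _ _ _ _ _ _ _ _ _ _ hp hp2 hp𝒪 hN hNS H hres P hP
  haveI : Fact p.Prime := ⟨hp⟩
  obtain ⟨J1, hU, hM⟩ := h hp hp2 hp𝒪 hN hNS H hres P hP
  exact s33g_halfAt_of_UM hp2 hp𝒪 (hNS p hp hN.1) hNS H hres P hP J1 hU hM

/-- **(U) + (M) implies S33.** -/
theorem s33g_S33_of_UM (h : s33g_UM)
    [Finite (IsLocalRing.ResidueField 𝒪)] [CharZero 𝒪]
    (hp : p.Prime) (hp2 : p ≠ 2) (hp𝒪 : (p : 𝒪) ∈ IsLocalRing.maximalIdeal 𝒪)
    (hN : p ∣ N ∧ ¬ p ^ 2 ∣ N)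
    (hNS : ∀ q : ℕ, q.Prime → q ∣ N → q ∈ S)
    (H : CuspForm.HeckeGaloisRepDatum N (↑S : Set ℕ) 𝒪 θ T)
    (hres : (GaloisRepAdic.ofResidualGaloisRep H.ρ.residual).IsOrdinaryAt p) :
    H.ρ.IsOrdinaryAt p :=
  s33g_S33_of_half (s33g_half_of_UM h) hp hp2 hp𝒪 hN hNS H hres

end Fermat.Agent.Lib.S33
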