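/-
S33 (programme P-AT-P), package [GLUE] (helper2), part 15: **the residual ordinarity hypothesis**, in the
form used by the abstract main theorem.

* `s33g_trace_det_of_line` : an endomorphism `f` of a plane with `(f - 1) V ⊆ k b₀` has
  `tr f = 1 + det f`;
* `s33g_res_of_ordinary`   : if the residual representation of `r : GaloisRepAdic T` is ordinary at
  `p`, then `tr r(τ₀) - 1 - det r(τ₀) ∈ 𝔪_T` for `τ₀` in an inertia group at `p`;
* `s33g_inertia_le_decomposition`, `s33g_inertia_normal` : `I_P ≤ D_P`, `I_P ⊴ D_P`.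
-/
import Mathlib
import Fermat.Prelude.Def_GaloisRep_LocalConditions

set_option autoImplicit false
set_option linter.unusedSectionVars false

namespace Fermat.Agent.Lib.S33

open IsLocalRing
open scoped TensorProduct

local notation "Kb" => AlgebraicClosure ℚ
local notation "Γℚ" => (AlgebraicClosure ℚ ≃ₐ[ℚ] AlgebraicClosure ℚ)

section LinAlg

variable {k : Type*} [Field k] {V : Type*} [AddCommGroup V] [Module k V]

/-- An endomorphism `f` of a plane with `(f - 1) V ⊆ k b₀` has `tr f = 1 + det f`. -/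
theorem s33g_trace_det_of_line (b : Module.Basis (Fin 2) k V) (f : Module.End k V)
    (h : ∀ v : V, f v - v ∈ Submodule.span k {b 0}) :
    LinearMap.trace k V f - 1 - LinearMap.det f = 0 := by
  have key : ∀ j : Fin 2, LinearMap.toMatrix b b f 1 j = if j = 1 then 1 else 0 := by
    intro j
    obtain ⟨c, hc⟩ := Submodule.mem_span_singleton.mp (h (b j))
    have e : f (b j) = b j + c • b 0 := by rw [hc]; abel
    rw [LinearMap.toMatrix_apply, e, map_add, map_smul, Finsupp.add_apply, Finsupp.smul_apply,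
      Module.Basis.repr_self, Module.Basis.repr_self, Finsupp.single_apply, Finsupp.single_apply]
    have : ¬ ((0 : Fin 2) = 1) := by decide
    rw [if_neg this, smul_zero, add_zero]
  have h10 := key 0
  have h11 := key 1
  rw [if_neg (by decide)] at h10
  rw [if_pos rfl] at h11
  rw [LinearMap.trace_eq_matrix_trace k b, ← LinearMap.det_toMatrix b, Matrix.trace_fin_two,
    Matrix.det_fin_two, h10, h11]
  ring

end LinAlg

section Res

variable {T : Type} [CommRing T] [IsLocalRing T]

/-- **Residual ordinarity at `p`, trace form.** -/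
theorem s33g_res_of_ordinary (r : GaloisRepAdic T) {p : ℕ}
    (hres : (GaloisRepAdic.ofResidualGaloisRep r.residual).IsOrdinaryAt p)
    (P : ValuationSubring Kb) (hP : P.LiesOverPrime p) (τ₀ : Γℚ)
    (hτ₀ : τ₀ ∈ P.inertiaSubgroupIn ℚ) :
    LinearMap.trace T r.V (r.ρ τ₀) - 1 - LinearMap.det (r.ρ τ₀) ∈ maximalIdeal T := by
  obtain ⟨L, ⟨b, hb⟩, -, hI⟩ := hres P hP
  have h1 := s33g_trace_det_of_line b
    ((GaloisRepAdic.ofResidualGaloisRep r.residual).ρ τ₀) (fun v => by
      have := hI τ₀ hτ₀ v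
      rwa [hb] at this)
  have e1 : (GaloisRepAdic.ofResidualGaloisRep r.residual).ρ τ₀ =
      (r.ρ τ₀).baseChange (ResidueField T) := rfl
  rw [e1] at h1
  have e2 : LinearMap.trace (ResidueField T) (ResidueField T ⊗[T] r.V)
      ((r.ρ τ₀).baseChange (ResidueField T)) =
      algebraMap T (ResidueField T) (LinearMap.trace T r.V (r.ρ τ₀)) :=
    LinearMap.trace_baseChange _ _
  have e3 : LinearMap.det ((r.ρ τ₀).baseChange (ResidueField T)) =
      algebraMap T (ResidueField T) (LinearMap.det (r.ρ τ₀)) :=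
    LinearMap.det_baseChange _
  rw [← residue_eq_zero_iff, map_sub, map_sub, map_one]
  rw [ResidueField.algebraMap_eq] at e2 e3
  rw [← e2, ← e3]
  exact h1

end Res

section Groups

/-- `I_P ≤ D_P`. -/
theorem s33g_inertia_le_decomposition (P : ValuationSubring Kb) :
    P.inertiaSubgroupIn ℚ ≤ P.decompositionSubgroup ℚ := by
  intro σ hσ
  obtain ⟨g, -, rfl⟩ := Subgroup.mem_map.mp hσ
  exact g.2

/-- `I_P` is normalised by `D_P`. -/
theorem s33g_inertia_normal (P : ValuationSubring Kb) (δ : Γℚ)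
    (hδ : δ ∈ P.decompositionSubgroup ℚ) (σ : Γℚ) (hσ : σ ∈ P.inertiaSubgroupIn ℚ) :
    δ * σ * δ⁻¹ ∈ P.inertiaSubgroupIn ℚ := by
  obtain ⟨g, hg, rfl⟩ := Subgroup.mem_map.mp hσ
  refine Subgroup.mem_map.mpr ⟨⟨δ, hδ⟩ * g * ⟨δ, hδ⟩⁻¹, ?_, rfl⟩
  have hn : (P.inertiaSubgroup ℚ).Normal := by
    unfold ValuationSubring.inertiaSubgroup
    infer_instance
  exact hn.conj_mem g hg ⟨δ, hδ⟩

end Groups

end Fermat.Agent.Lib.S33
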