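/-
P-AT-P (S33 programme, private branch), brick **[FOInst-S18]** (helper9): the five "S18-shaped" fields
of helper6's `s33f_ChartGeo` for the Gauss datum on the modular function field
`𝓕 = laurentBaseChange K F₀(M)` — [S] `hclosed` and [I] `hinv` per chart (from the per-chart data
`hA`, Dedekind integral closure, `hmain` exposed by helper6's `FOInstS`), [H] `hH`, and `noeth` —
all exponent-free (`p` arbitrary, `2 ≤ p` for [S]).

* `s33k_inst_hint`   : `hint` from (α) (as in `s18f_chartS_of_main`);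
* `s33k_inst_hclosed`: [S] `hclosed` on chart 1 of `w` (apply to `w` and `w⁻¹`);
* `s33k_inst_hinv`   : [I] `hinv` on chart 1 of `w`, for all `f ≠ 0` and every exponent;
* `s33k_inst_hH`     : [H] Čech finiteness for the two charts of `t` (general Gauss field `𝓕`);
* `s33k_inst_noeth`  : `IsNoetherianRing G.A` for a DVR.
-/
import Fermat.Agent.Lib.S33.KumPLevel
import Fermat.Agent.Lib.S18.FProv

set_option autoImplicit false
set_option linter.style.haveILetI false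
set_option linter.unusedSectionVars false

noncomputable section

namespace Fermat.Agent.Lib.S33

open AlgebraicCurve ModularCurve Fermat.Agent.Lib.FF Fermat.Agent.Lib.S18 Polynomial

section Modular

variable {K : Type} [Field K] [CharZero K] [Algebra ℚ K] {κ : Type} [Field κ]
  (G : s18g_GaussData K κ) (M : ℕ)

local notation "𝓕M" => laurentBaseChange K (modularFunctionFieldFull M)
local notation "hFM" => (fun (f : LaurentSeries K)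
  (hf : f ∈ laurentBaseChange K (modularFunctionFieldFull M)) => s18g_baseChange_mem_Frac G M hf)

/-- the kernel of the reduction `redF` is `ϖ V` (element form). -/
theorem s33k_inst_hker (hT : s18g_HT κ M) (hdeg : s18g_HDeg K M) :
    ∀ x : s18g_V G 𝓕M hFM, s18g_redF G M hFM hT hdeg x = 0 →
      ∃ y ∈ s18g_V G 𝓕M hFM, (x : ↥𝓕M) = algebraMap K ↥𝓕M ((G.ϖ : G.A) : K) * y := by
  intro x hx
  have hx' : x ∈ RingHom.ker (s18g_redF G M hFM hT hdeg) := hx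
  rw [s18g_ker_redF, Ideal.mem_span_singleton'] at hx'
  obtain ⟨a, ha⟩ := hx'
  refine ⟨(a : ↥𝓕M), a.2, ?_⟩
  rw [← ha, mul_comm]
  rfl

/-- the uniformiser reduces to `0`. -/
theorem s33k_inst_hkerϖ (hT : s18g_HT κ M) (hdeg : s18g_HDeg K M)
    (hϖV : algebraMap K ↥𝓕M ((G.ϖ : G.A) : K) ∈ s18g_V G 𝓕M hFM) :
    s18g_redF G M hFM hT hdeg ⟨algebraMap K ↥𝓕M ((G.ϖ : G.A) : K), hϖV⟩ = 0 := by
  have : (⟨algebraMap K ↥𝓕M ((G.ϖ : G.A) : K), hϖV⟩ : s18g_V G 𝓕M hFM) ∈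
      RingHom.ker (s18g_redF G M hFM hT hdeg) := by
    rw [s18g_ker_redF]
    exact Ideal.subset_span rfl
  exact this

/-- **`hint`**: the reduction of the chart ring of `w` is integral over `κ[X]` (`X ↦ redF w`). -/
theorem s33k_inst_hint [IsDiscreteValuationRing G.A] (hT : s18g_HT κ M) (hdeg : s18g_HDeg K M)
    (w : ↥𝓕M) [FFGen K w] (hwV : w ∈ s18g_V G 𝓕M hFM)
    (hα : ∀ y ∈ s18g_V G 𝓕M hFM, ∃ s : G.A[X], s.map G.π ≠ 0 ∧
      (s18b_ev G 𝓕M w).IsIntegralElem (s18b_ev G 𝓕M w s * y))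
    [Algebra κ[X] ↥(modularFunctionFieldFullC κ M)]
    (hA : ∀ p : κ[X], algebraMap κ[X] ↥(modularFunctionFieldFullC κ M) p =
      Polynomial.aeval (s18g_redF G M hFM hT hdeg ⟨w, hwV⟩) p) :
    ∀ b : ↥𝓕M, ∀ hb : b ∈ s18_ring (L₀ := K) (s18g_V G 𝓕M hFM) (s18_chart1 w),
      IsIntegral κ[X] (s18g_redF G M hFM hT hdeg ⟨b, hb.1⟩) := fun b hb =>
  s18f_isIntegral_redF G M hT hdeg w hwV hA b hb.1
    (s18b_isIntegralElem_of_mem_ring G 𝓕M hFM w hα b hb)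

/-- **[S] `hclosed`** on chart 1 of `w` for the Gauss datum, from `hmain`. -/
theorem s33k_inst_hclosed [IsDiscreteValuationRing G.A] (hT : s18g_HT κ M) (hdeg : s18g_HDeg K M)
    (w : ↥𝓕M) [FFGen K w] (hwV : w ∈ s18g_V G 𝓕M hFM)
    (hα : ∀ y ∈ s18g_V G 𝓕M hFM, ∃ s : G.A[X], s.map G.π ≠ 0 ∧
      (s18b_ev G 𝓕M w).IsIntegralElem (s18b_ev G 𝓕M w s * y))
    [Algebra κ[X] ↥(modularFunctionFieldFullC κ M)]
    (hA : ∀ p : κ[X], algebraMap κ[X] ↥(modularFunctionFieldFullC κ M) p =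
      Polynomial.aeval (s18g_redF G M hFM hT hdeg ⟨w, hwV⟩) p)
    (hmain : ∀ z : ↥(modularFunctionFieldFullC κ M), IsIntegral κ[X] z →
      ∃ (b : ↥𝓕M) (hb : b ∈ s18_ring (L₀ := K) (s18g_V G 𝓕M hFM) (s18_chart1 w)),
        s18g_redF G M hFM hT hdeg ⟨b, hb.1⟩ = z)
    (p : ℕ) (hp2 : 2 ≤ p) :
    ∀ c ∈ s18_ring (L₀ := K) (s18g_V G 𝓕M hFM) (s18_chart1 w), ∀ x ∈ s18g_V G 𝓕M hFM,
      ∀ b ∈ s18_ring (L₀ := K) (s18g_V G 𝓕M hFM) (s18_chart1 w),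
      (∃ y ∈ s18g_V G 𝓕M hFM, x ^ p + c * x - b = algebraMap K ↥𝓕M ((G.ϖ : G.A) : K) * y) →
        ∃ b' ∈ s18_ring (L₀ := K) (s18g_V G 𝓕M hFM) (s18_chart1 w), ∃ y ∈ s18g_V G 𝓕M hFM,
          x - b' = algebraMap K ↥𝓕M ((G.ϖ : G.A) : K) * y := by
  have hϖV : algebraMap K ↥𝓕M ((G.ϖ : G.A) : K) ∈ s18g_V G 𝓕M hFM :=
    (s18g_algebraMap_mem_V_iff G 𝓕M hFM _).mpr (G.ϖ : G.A).2
  exact s33k_hclosed_of_main (s18g_V G 𝓕M hFM) (s18_chart1 (L₀ := K) w) ((G.ϖ : G.A) : K) hϖV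
    (s18g_redF G M hFM hT hdeg) (s33k_inst_hker G M hT hdeg) (s33k_inst_hkerϖ G M hT hdeg hϖV)
    (s33k_inst_hint G M hT hdeg w hwV hα hA) hmain p hp2

/-- **[I] `hinv`** on chart 1 of `w` for the Gauss datum: the chart lattices of `div f / p` are
invertible, for every `f ≠ 0` and every exponent `p`. -/
theorem s33k_inst_hinv [IsDiscreteValuationRing G.A] (hT : s18g_HT κ M) (hdeg : s18g_HDeg K M)
    (w : ↥𝓕M) [FFGen K w] (hwV : w ∈ s18g_V G 𝓕M hFM)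
    (hα : ∀ y ∈ s18g_V G 𝓕M hFM, ∃ s : G.A[X], s.map G.π ≠ 0 ∧
      (s18b_ev G 𝓕M w).IsIntegralElem (s18b_ev G 𝓕M w s * y))
    [Algebra κ[X] ↥(modularFunctionFieldFullC κ M)]
    (hA : ∀ p : κ[X], algebraMap κ[X] ↥(modularFunctionFieldFullC κ M) p =
      Polynomial.aeval (s18g_redF G M hFM hT hdeg ⟨w, hwV⟩) p)
    [IsDedekindDomain (integralClosure κ[X] ↥(modularFunctionFieldFullC κ M))]
    (hmain : ∀ z : ↥(modularFunctionFieldFullC κ M), IsIntegral κ[X] z →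
      ∃ (b : ↥𝓕M) (hb : b ∈ s18_ring (L₀ := K) (s18g_V G 𝓕M hFM) (s18_chart1 w)),
        s18g_redF G M hFM hT hdeg ⟨b, hb.1⟩ = z)
    (p : ℕ) :
    ∀ f : ↥𝓕M, f ≠ 0 → ∃ (s : Finset ℕ) (a b : ℕ → ↥𝓕M),
      (∀ j ∈ s, a j ∈ s18_latSet (s18g_V G 𝓕M hFM) (s18_chart1 (L₀ := K) w) (s18_E f p)) ∧
      (∀ j ∈ s, b j ∈ s18_latSet (s18g_V G 𝓕M hFM) (s18_chart1 (L₀ := K) w)
        (fun Q => -s18_E f p Q)) ∧
      ∑ j ∈ s, a j * b j = 1 := by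
  intro f hf0
  have hϖ0 : ((G.ϖ : G.A) : K) ≠ 0 := s18g_unifK_ne_zero G
  have hϖV : algebraMap K ↥𝓕M ((G.ϖ : G.A) : K) ∈ s18g_V G 𝓕M hFM :=
    (s18g_algebraMap_mem_V_iff G 𝓕M hFM _).mpr (G.ϖ : G.A).2
  have hint := s33k_inst_hint G M hT hdeg w hwV hα hA
  haveI : IsNoetherianRing (s18_ring (L₀ := K) (s18g_V G 𝓕M hFM) (s18_chart1 w)) :=
    s18b_isNoetherianRing_ring G 𝓕M w hFM hwV hα
  exact s18f_hinv_chart1_of_dedekind w (s18g_V G 𝓕M hFM) ((G.ϖ : G.A) : K) hϖ0 hϖV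
    (s18f_U_gauss G 𝓕M hFM) hf0 p
    (s18f_psi (s18g_V G 𝓕M hFM) (s18_chart1 (L₀ := K) w) (s18g_redF G M hFM hT hdeg) hint)
    (s18f_psi_surjective _ _ _ hint hmain)
    (s18f_ker_psi _ _ _ hϖ0 hϖV _ (s33k_inst_hker G M hT hdeg)
      (s33k_inst_hkerϖ G M hT hdeg hϖV) hint)

end Modular

section HH

variable {L₀ 𝓕 : Type*} [Field L₀] [Field 𝓕] [Algebra L₀ 𝓕]

/-- the statement [H] (Čech finiteness for the two charts of `t`, all `f ≠ 0`, exponent `p`), in the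
exact shape of the field `hH` of `s33f_ChartGeo`. -/
def s33k_HH (A₀ : ValuationSubring L₀) (O : ValuationSubring 𝓕)
    (hAO : ∀ a : A₀, algebraMap L₀ 𝓕 (a : L₀) ∈ O) (t : 𝓕) (p : ℕ) : Prop :=
  ∀ f : 𝓕, f ≠ 0 → ∃ G' : Submodule A₀ 𝓕, G'.FG ∧
    s18_lat A₀ O hAO (s18_chart12 t) (s18_E f p) ≤
      G' ⊔ (s18_lat A₀ O hAO (s18_chart1 t) (s18_E f p) ⊔
        s18_lat A₀ O hAO (s18_chart2 t) (s18_E f p))

end HH

section Gauss

variable {K : Type*} [Field K] [CharZero K] {κ : Type*} [Field κ] (G : s18g_GaussData K κ)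
  [IsDiscreteValuationRing G.A]
  (𝓕 : IntermediateField K (LaurentSeries K)) (h𝓕 : ∀ f ∈ 𝓕, f ∈ s18g_Frac G)

/-- **[H]** Čech finiteness for the two charts of `t`, for every `f ≠ 0` and every exponent. -/
theorem s33k_inst_hH (t : 𝓕) [FFGen K t] (ht0 : t ≠ 0)
    (htV : t ∈ s18g_V G 𝓕 h𝓕) (htinvV : t⁻¹ ∈ s18g_V G 𝓕 h𝓕)
    (hα₁ : ∀ y ∈ s18g_V G 𝓕 h𝓕, ∃ s : G.A[X], s.map G.π ≠ 0 ∧
      (s18b_ev G 𝓕 t).IsIntegralElem (s18b_ev G 𝓕 t s * y))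
    (p : ℕ) :
    s33k_HH G.A (s18g_V G 𝓕 h𝓕) (s18f_const_mem_V G 𝓕 h𝓕) t p := by
  intro f hf0
  have hO := s18f_hO_of_U (s18g_V G 𝓕 h𝓕) ((G.ϖ : G.A) : K) (s18f_U_gauss G 𝓕 h𝓕)
  exact s18f_hH G.A (s18g_V G 𝓕 h𝓕) (s18f_const_mem_V G 𝓕 h𝓕) t ht0 htV htinvV
    ((G.ϖ : G.A) : K) (s18g_unifK_ne_zero G) hO
    (s18f_hB2_of_poly G.A (s18g_V G 𝓕 h𝓕) t ht0
      (fun M hM hMB => s18b_fg_of_le_ring G 𝓕 t h𝓕 htV hα₁ M hM hMB)) hf0 p

omit [CharZero K] in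
/-- the constant ring of a Gauss datum with DVR is noetherian. -/
theorem s33k_inst_noeth : IsNoetherianRing G.A := inferInstance

end Gauss

end Fermat.Agent.Lib.S33
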