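/-
P-AT-P (S33 programme, private branch), brick **[FOInst-S18], base `j`** (helper9): for residue
characteristic `ℓ ≥ 5`, `ℓ ∤ M`, `K₀` a number field with Gauss datum `G` (DVR, `G.π` onto, `κ` perfect
of characteristic `ℓ`), the five "S18-shaped" fields (`noeth`, [S] `hclosed1/2`, [I] `hinv1/2`,
[H] `hH`) of helper6's `s33f_ChartGeo (s33i_datum …) (s18g_jF M)` are THEOREMS; the remaining three
fields (`fullConst`, [GLOB-1] `hglob`, `hplace`: helper6) are hypotheses of the assembled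
`s33k_inst_chartGeo_five`.
-/
import Fermat.Agent.Lib.S33.KumPInst
import Fermat.Agent.Lib.S33.FOInstS
import Fermat.Agent.Lib.S33.FOInstD
import Fermat.Agent.Lib.S33.FOGeo

set_option autoImplicit false
set_option linter.style.haveILetI false
set_option linter.unusedSectionVars false

noncomputable section

namespace Fermat.Agent.Lib.S33

open AlgebraicCurve ModularCurve Fermat.Agent.Lib.FF Fermat.Agent.Lib.S18 Polynomial

local notation "Qbar" => AlgebraicClosure ℚ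

/-- **The chart geometry of `X₀(M)` with base `j` at a prime `ℓ ≥ 5`, `ℓ ∤ M`**, for the concrete
datum `s33i_datum`, from the three "new" fields (`fullConst`, [GLOB-1], chart ↔ place). -/
theorem s33k_inst_chartGeo_five (M : ℕ) [NeZero M] (ℓ : ℕ) [Fact ℓ.Prime]
    (h5 : 5 ≤ ℓ) (K₀ : Type) [Field K₀] [NumberField K₀] (φ : K₀ →+* Qbar)
    (κ : Type) [Field κ] [CharP κ ℓ] [PerfectField κ]
    (G : s18g_GaussData K₀ κ) [IsDiscreteValuationRing G.A] (hπ : Function.Surjective G.π)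
    (hT : s18g_HT κ M) (hdeg : s18g_HDeg K₀ M)
    (p e : ℕ) (ε : K₀) (hp : p.Prime) (he : 0 < e) (hε : ε ∈ G.A) (hεinv : ε⁻¹ ∈ G.A)
    (hε0 : ε ≠ 0) (hpe : (p : K₀) = ε * ((G.ϖ : G.A) : K₀) ^ e)
    (hperf : ∀ c : κ, ∃ d : κ, d ^ p = c)
    (hfull : s33f_FullConst K₀ ↥(laurentBaseChange K₀ (modularFunctionFieldFull M)))
    (hglob : ∀ b₁ ∈ s18_ring (s33i_datum G M hT hdeg hπ p e ε hp he hε hεinv hε0 hpe hperf).O
        (s18_chart1 (L₀ := K₀) (s18g_jF (K := K₀) M)),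
      ∀ b₂ ∈ s18_ring (s33i_datum G M hT hdeg hπ p e ε hp he hε hεinv hε0 hpe hperf).O
        (s18_chart2 (L₀ := K₀) (s18g_jF (K := K₀) M)),
      s33f_Cong (s33i_datum G M hT hdeg hπ p e ε hp he hε hεinv hε0 hpe hperf) 1 b₁ b₂ →
        ∃ c : (s33i_datum G M hT hdeg hπ p e ε hp he hε hεinv hε0 hpe hperf).A₀,
          s33f_Cong (s33i_datum G M hT hdeg hπ p e ε hp he hε hεinv hε0 hpe hperf) 1 b₁
            (algebraMap K₀ _ (c : K₀)))
    (hplace : ∀ Q : Place κ ↥(modularFunctionFieldFullC κ M),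
      (∀ b ∈ s18_ring (s33i_datum G M hT hdeg hπ p e ε hp he hε hεinv hε0 hpe hperf).O
          (s18_chart1 (L₀ := K₀) (s18g_jF (K := K₀) M)),
        s33f_redX (s33i_datum G M hT hdeg hπ p e ε hp he hε hεinv hε0 hpe hperf) b ∈
          Q.toValuationSubring) ∨
      (∀ b ∈ s18_ring (s33i_datum G M hT hdeg hπ p e ε hp he hε hεinv hε0 hpe hperf).O
          (s18_chart2 (L₀ := K₀) (s18g_jF (K := K₀) M)),
        s33f_redX (s33i_datum G M hT hdeg hπ p e ε hp he hε hεinv hε0 hpe hperf) b ∈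
          Q.toValuationSubring)) :
    s33f_ChartGeo (s33i_datum G M hT hdeg hπ p e ε hp he hε hεinv hε0 hpe hperf)
      (s18g_jF (K := K₀) M) := by
  have hFM : ∀ f ∈ laurentBaseChange K₀ (modularFunctionFieldFull M), f ∈ s18g_Frac G :=
    fun _ hf => s18g_baseChange_mem_Frac G M hf
  obtain ⟨hgen1, hrank1⟩ := s18g_deg_j_charZero G M hFM hT hdeg (s18g_jF (K := K₀) M) (Or.inl rfl)
  obtain ⟨hgen2, hrank2⟩ := s18g_deg_j_charZero G M hFM hT hdeg (s18g_jF (K := K₀) M)⁻¹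
    (Or.inr rfl)
  haveI := hgen1
  haveI := hgen2
  have hred1 : s18g_redF G M hFM hT hdeg ⟨s18g_jF (K := K₀) M, s18g_jF_mem_V G M hFM⟩ =
      s18g_jFbar κ M := s18g_redF_jV G M hFM hT hdeg
  have hred2 : s18g_redF G M hFM hT hdeg ⟨(s18g_jF (K := K₀) M)⁻¹, s18g_jF_inv_mem_V G M hFM⟩ =
      (s18g_jFbar κ M)⁻¹ := by
    rw [s18f_redF_inv G M hT hdeg _ (s18g_jF_ne_zero M) (s18g_jF_mem_V G M hFM), hred1]
  have hα₁ := s18g_alpha_j_b G M hT hdeg hFM
  have hα₂ := s18g_alpha_inv_b G M hT hdeg hFM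
  -- chart 1
  have hS1 := s33i_chartS_of_inputs G M hπ hT hdeg (s18g_jF (K := K₀) M) (s18g_jF_mem_V G M hFM)
    hα₁ (dedekindPsi M) hrank1
    (by
      letI := s18f_algF G M hT hdeg (s18g_jF (K := K₀) M) (s18g_jF_mem_V G M hFM)
      exact s18g_deg_j G M hFM hT hdeg ℓ hπ _ (Or.inl hred1)
        (s18f_algF_apply G M hT hdeg _ (s18g_jF_mem_V G M hFM)))
    (s18r_mainInputs_j G M φ ℓ h5)
  -- chart 2
  have hS2 := s33i_chartS_of_inputs G M hπ hT hdeg (s18g_jF (K := K₀) M)⁻¹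
    (s18g_jF_inv_mem_V G M hFM) hα₂ (dedekindPsi M) hrank2
    (by
      letI := s18f_algF G M hT hdeg (s18g_jF (K := K₀) M)⁻¹ (s18g_jF_inv_mem_V G M hFM)
      exact s18g_deg_j G M hFM hT hdeg ℓ hπ _ (Or.inr hred2)
        (s18f_algF_apply G M hT hdeg _ (s18g_jF_inv_mem_V G M hFM)))
    (s18r_mainInputs_j_inv G M φ ℓ h5)
  have hp2 : 2 ≤ p := hp.two_le
  refine
    { noeth := s33k_inst_noeth G
      fullConst := hfull
      hclosed1 := ?_
      hclosed2 := ?_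
      hinv1 := ?_
      hinv2 := ?_
      hH := ?_
      hglob := hglob
      hplace := hplace }
  · letI := s18f_algF G M hT hdeg (s18g_jF (K := K₀) M) (s18g_jF_mem_V G M hFM)
    obtain ⟨hDed, hint, hmain⟩ := hS1
    exact s33k_inst_hclosed G M hT hdeg (s18g_jF (K := K₀) M) (s18g_jF_mem_V G M hFM) hα₁
      (s18f_algF_apply G M hT hdeg _ (s18g_jF_mem_V G M hFM)) hmain p hp2
  · letI := s18f_algF G M hT hdeg (s18g_jF (K := K₀) M)⁻¹ (s18g_jF_inv_mem_V G M hFM)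
    obtain ⟨hDed, hint, hmain⟩ := hS2
    exact s33k_inst_hclosed G M hT hdeg (s18g_jF (K := K₀) M)⁻¹ (s18g_jF_inv_mem_V G M hFM) hα₂
      (s18f_algF_apply G M hT hdeg _ (s18g_jF_inv_mem_V G M hFM)) hmain p hp2
  · letI := s18f_algF G M hT hdeg (s18g_jF (K := K₀) M) (s18g_jF_mem_V G M hFM)
    obtain ⟨hDed, hint, hmain⟩ := hS1
    haveI := hDed
    exact s33k_inst_hinv G M hT hdeg (s18g_jF (K := K₀) M) (s18g_jF_mem_V G M hFM) hα₁
      (s18f_algF_apply G M hT hdeg _ (s18g_jF_mem_V G M hFM)) hmain p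
  · letI := s18f_algF G M hT hdeg (s18g_jF (K := K₀) M)⁻¹ (s18g_jF_inv_mem_V G M hFM)
    obtain ⟨hDed, hint, hmain⟩ := hS2
    haveI := hDed
    exact s33k_inst_hinv G M hT hdeg (s18g_jF (K := K₀) M)⁻¹ (s18g_jF_inv_mem_V G M hFM) hα₂
      (s18f_algF_apply G M hT hdeg _ (s18g_jF_inv_mem_V G M hFM)) hmain p
  · exact s33k_inst_hH G (laurentBaseChange K₀ (modularFunctionFieldFull M)) hFM
      (s18g_jF (K := K₀) M) (s18g_jF_ne_zero M) (s18g_jF_mem_V G M hFM)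
      (s18g_jF_inv_mem_V G M hFM) hα₁ p

end Fermat.Agent.Lib.S33
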