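/-
P-AT-P (S33 programme, private branch), brick **[SEP-ss]** part 3 (helper9): **[I-Σ]**, the partition of
unity `hinv` for the chart lattices `I(E)`, `I(-E)` of a SUBRING `O = ⨅ i, O i` (a finite intersection
of valuation rings: the "components"), for a divisor `E` whose support avoids the bad closed points.
Port of S18's package [I] (`IInvLocal`, `IInvGlobal`, `IInv`) with two changes:

* local generators are required ONLY at the places of the support of `E`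
  (so nothing is asked at the closed points — nodes — avoided by `E`);
* a local generator need not be a unit of `O`, only of the components THROUGH the closed point `𝔫`;
  the other components are killed by `s34x_exists_kill_comps`.

* `s33k_ss_compThrough`, `s33k_ss_LG` : vocabulary;
* `s33k_ss_local`         : local step (`a ∈ I(E)`, `b ∈ I(-E)`, `a b ∈ B ∖ 𝔫`);
* `s33k_ss_hinv_of_local` : global step (partition of unity).
-/
import Fermat.Agent.Lib.S34.FIface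
import Fermat.Agent.Lib.S18.IInvGlobal

set_option autoImplicit false

noncomputable section

namespace Fermat.Agent.Lib.S33

open AlgebraicCurve Fermat.Agent.Lib.FF Fermat.Agent.Lib.S18 Fermat.Agent.Lib.S34

variable {L₀ 𝓕 : Type*} [Field L₀] [Field 𝓕] [Algebra L₀ 𝓕]

/-- The component `i` passes through the prime `𝔫` of the chart ring: every element of the chart ring
vanishing on the component (`b ∈ π (O i)`) lies in `𝔫`. -/
def s33k_ss_compThrough {ι : Type*} (O : ι → ValuationSubring 𝓕) (S : Set (Place L₀ 𝓕)) (π : 𝓕)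
    (𝔫 : Ideal (s34x_ring (s34x_infRing O) S)) (i : ι) : Prop :=
  ∀ b : s34x_ring (s34x_infRing O) S, (∃ y ∈ O i, (b : 𝓕) = π * y) → b ∈ 𝔫

/-- A LOCAL GENERATOR of the place `Q` at the prime `𝔫`: order `1` at `Q`, order `0` at the other
places of the chart through `𝔫`, and a unit of every component through `𝔫`. -/
def s33k_ss_LG {ι : Type*} (O : ι → ValuationSubring 𝓕) (S : Set (Place L₀ 𝓕)) (π : 𝓕)
    (𝔫 : Ideal (s34x_ring (s34x_infRing O) S)) (Q : Place L₀ 𝓕) : Prop :=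
  ∃ y : 𝓕, Q.ord y = 1 ∧
    (∀ Q' ∈ S, Q' ≠ Q → s34f_through (s34x_infRing O) S 𝔫 Q' → Q'.ord y = 0) ∧
    ∀ i, s33k_ss_compThrough O S π 𝔫 i → y ∈ O i ∧ y⁻¹ ∈ O i

/-- integer powers of a unit of a valuation ring lie in it. -/
theorem s33k_ss_zpow_mem (V : ValuationSubring 𝓕) {y : 𝓕} (hy : y ∈ V) (hy' : y⁻¹ ∈ V) (n : ℤ) :
    y ^ n ∈ V := by
  rcases le_or_gt 0 n with h | h
  · obtain ⟨k, hk⟩ := Int.eq_ofNat_of_zero_le h
    rw [hk, zpow_natCast]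
    exact V.pow_mem hy k
  · obtain ⟨k, hk⟩ := Int.exists_eq_neg_ofNat h.le
    rw [hk, zpow_neg, zpow_natCast, ← inv_pow]
    exact V.pow_mem hy' k

/-- **local step** (compare `s18i_local`). -/
theorem s33k_ss_local {ι : Type*} [Fintype ι] (O : ι → ValuationSubring 𝓕)
    (S : Set (Place L₀ 𝓕)) (E : Place L₀ 𝓕 → ℤ)
    (hE : {Q | Q ∈ S ∧ E Q ≠ 0}.Finite)
    (F3 : ∀ y : 𝓕, y ≠ 0 → {Q | Q ∈ S ∧ Q.ord y ≠ 0}.Finite)
    (π : 𝓕) (hπO : ∀ i, π ∈ O i) (hU : ∀ i, ∀ y : 𝓕, ∃ k : ℕ, π ^ k * y ∈ O i)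
    (𝔫 : Ideal (s34x_ring (s34x_infRing O) S)) [h𝔫 : 𝔫.IsPrime]
    (LG : ∀ Q ∈ S, E Q ≠ 0 → s34f_through (s34x_infRing O) S 𝔫 Q → s33k_ss_LG O S π 𝔫 Q) :
    ∃ a ∈ s34x_latSet (s34x_infRing O) S E,
      ∃ b ∈ s34x_latSet (s34x_infRing O) S (fun Q => - E Q),
      ∃ hab : a * b ∈ s34x_ring (s34x_infRing O) S,
        (⟨a * b, hab⟩ : s34x_ring (s34x_infRing O) S) ∉ 𝔫 := by
  classical
  have hBO : ∀ (b : s34x_ring (s34x_infRing O) S) (i : ι), (b : 𝓕) ∈ O i := fun b i =>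
    (s34x_mem_infRing O _).mp b.2.1 i
  -- the places of the support through 𝔫
  set T : Finset (Place L₀ 𝓕) :=
    hE.toFinset.filter fun Q => s34f_through (s34x_infRing O) S 𝔫 Q with hT
  have hTmem : ∀ Q, Q ∈ T ↔ (Q ∈ S ∧ E Q ≠ 0) ∧ s34f_through (s34x_infRing O) S 𝔫 Q := by
    intro Q
    rw [hT, Finset.mem_filter, Set.Finite.mem_toFinset]
    rfl
  -- choose the local generators
  have hLG : ∀ Q : Place L₀ 𝓕, ∃ y : 𝓕, Q ∈ T → (Q.ord y = 1 ∧
      (∀ Q' ∈ S, Q' ≠ Q → s34f_through (s34x_infRing O) S 𝔫 Q' → Q'.ord y = 0) ∧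
      ∀ i, s33k_ss_compThrough O S π 𝔫 i → y ∈ O i ∧ y⁻¹ ∈ O i) := by
    intro Q
    by_cases hQ : Q ∈ T
    · obtain ⟨y, hy⟩ := LG Q ((hTmem Q).mp hQ).1.1 ((hTmem Q).mp hQ).1.2 ((hTmem Q).mp hQ).2
      exact ⟨y, fun _ => hy⟩
    · exact ⟨0, fun h => absurd h hQ⟩
  choose y hy using hLG
  have hy0 : ∀ Q ∈ T, y Q ≠ 0 := by
    intro Q hQ h0
    have := (hy Q hQ).1
    rw [h0, Place.ord_zero] at this
    exact zero_ne_one this
  set s : 𝓕 := ∏ Q ∈ T, y Q ^ E Q with hs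
  have hs0 : s ≠ 0 := Finset.prod_ne_zero_iff.mpr fun Q hQ => zpow_ne_zero _ (hy0 Q hQ)
  -- `s` is a unit of the components through `𝔫`
  have hsO : ∀ i, s33k_ss_compThrough O S π 𝔫 i → s ∈ O i := by
    intro i hi
    rw [hs]
    refine Subring.prod_mem (O i).toSubring fun Q hQ => ?_
    exact s33k_ss_zpow_mem (O i) ((hy Q hQ).2.2 i hi).1 ((hy Q hQ).2.2 i hi).2 _
  have hsO' : ∀ i, s33k_ss_compThrough O S π 𝔫 i → s⁻¹ ∈ O i := by
    intro i hi
    rw [hs, ← Finset.prod_inv_distrib]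
    refine Subring.prod_mem (O i).toSubring fun Q hQ => ?_
    rw [← zpow_neg]
    exact s33k_ss_zpow_mem (O i) ((hy Q hQ).2.2 i hi).1 ((hy Q hQ).2.2 i hi).2 _
  -- the order of `s` at the places through 𝔫
  have hords : ∀ Q ∈ S, s34f_through (s34x_infRing O) S 𝔫 Q → Q.ord s = E Q := by
    intro Q hQS hQ𝔫
    rw [hs, s18i_ord_prod_zpow Q T y E hy0]
    by_cases hQT : Q ∈ T
    · rw [Finset.sum_eq_single_of_mem Q hQT, (hy Q hQT).1, mul_one]
      intro Q'' hQ'' hne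
      rw [(hy Q'' hQ'').2.1 Q hQS (Ne.symm hne) hQ𝔫, mul_zero]
    · have hE0 : E Q = 0 := by
        by_contra hne
        exact hQT ((hTmem Q).mpr ⟨⟨hQS, hne⟩, hQ𝔫⟩)
      rw [hE0]
      refine Finset.sum_eq_zero fun Q'' hQ'' => ?_
      have hne : Q ≠ Q'' := fun h => hQT (h ▸ hQ'')
      rw [(hy Q'' hQ'').2.1 Q hQS hne hQ𝔫, mul_zero]
  -- the bad places
  have hZfin : {Q | Q ∈ S ∧ Q.ord s ≠ E Q}.Finite := by
    refine ((F3 s hs0).union hE).subset ?_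
    rintro Q ⟨hQS, hne⟩
    by_cases h0 : E Q = 0
    · left
      exact ⟨hQS, fun h => hne (by rw [h, h0])⟩
    · right
      exact ⟨hQS, h0⟩
  have hZmem : ∀ Q, Q ∈ hZfin.toFinset ↔ Q ∈ S ∧ Q.ord s ≠ E Q := by
    intro Q; rw [Set.Finite.mem_toFinset]; rfl
  obtain ⟨s₁, hs₁𝔫, hs₁0, hs₁⟩ := s34x_exists_kill_places (s34x_infRing O) S 𝔫
    (fun Q => |Q.ord s - E Q|) hZfin.toFinset (by
      intro Q hQ
      obtain ⟨hQS, hne⟩ := (hZmem Q).mp hQ
      refine ⟨hQS, ?_⟩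
      by_contra hcon
      push Not at hcon
      exact hne (hords Q hQS (fun b hb0 hbpos => hcon b hb0 hbpos)))
  -- the components not through `𝔫`
  let I : Finset ι := Finset.univ.filter fun i =>
    ∃ b : s34x_ring (s34x_infRing O) S, (∃ y ∈ O i, (b : 𝓕) = π * y) ∧ b ∉ 𝔫
  have hInot : ∀ i, i ∉ I → s33k_ss_compThrough O S π 𝔫 i := by
    intro i hi b hb
    by_contra hb𝔫
    exact hi (Finset.mem_filter.mpr ⟨Finset.mem_univ _, b, hb, hb𝔫⟩)
  obtain ⟨s₂, hs₂𝔫, hs₂⟩ := s34x_exists_kill_comps O S π hU 𝔫 s I (by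
    intro i hi
    exact (Finset.mem_filter.mp hi).2)
  obtain ⟨s₃, hs₃𝔫, hs₃⟩ := s34x_exists_kill_comps O S π hU 𝔫 s⁻¹ I (by
    intro i hi
    exact (Finset.mem_filter.mp hi).2)
  have hne0 : ∀ x : s34x_ring (s34x_infRing O) S, x ∉ 𝔫 → (x : 𝓕) ≠ 0 := by
    intro x hx h0
    apply hx
    have : x = 0 := Subtype.ext h0
    rw [this]; exact 𝔫.zero_mem
  have hs₂0 := hne0 s₂ hs₂𝔫
  have hs₃0 := hne0 s₃ hs₃𝔫
  set cc : s34x_ring (s34x_infRing O) S := s₁ * s₂ * s₃ with hcc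
  have hccn : cc ∉ 𝔫 := by
    intro hmem
    rcases h𝔫.mem_or_mem hmem with h | h
    · rcases h𝔫.mem_or_mem h with h | h
      · exact hs₁𝔫 h
      · exact hs₂𝔫 h
    · exact hs₃𝔫 h
  have hcc_coe : (cc : 𝓕) = (s₁ : 𝓕) * s₂ * s₃ := by rw [hcc]; push_cast; rfl
  have hcc0 : (cc : 𝓕) ≠ 0 := hne0 cc hccn
  have hBord : ∀ (x : s34x_ring (s34x_infRing O) S), ∀ Q ∈ S, 0 ≤ Q.ord (x : 𝓕) :=
    fun x Q hQ => s34x_ord_nonneg_of_mem_ring _ S x Q hQ
  have hccord : ∀ Q ∈ S, Q.ord (s₁ : 𝓕) ≤ Q.ord (cc : 𝓕) := by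
    intro Q hQ
    rw [hcc_coe, Q.ord_mul (mul_ne_zero hs₁0 hs₂0) hs₃0, Q.ord_mul hs₁0 hs₂0]
    have h2 := hBord s₂ Q hQ
    have h3 := hBord s₃ Q hQ
    omega
  -- membership in `O`
  have haO : (cc : 𝓕) * s ∈ s34x_infRing O := by
    rw [s34x_mem_infRing]
    intro i
    by_cases hi : i ∈ I
    · obtain ⟨-, y₂, hy₂, e₂⟩ := hs₂ i hi
      have : (cc : 𝓕) * s = (s₁ : 𝓕) * s₃ * ((s₂ : 𝓕) * s) := by rw [hcc_coe]; ring
      rw [this, e₂]
      exact (O i).mul_mem _ _ ((O i).mul_mem _ _ (hBO s₁ i) (hBO s₃ i))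
        ((O i).mul_mem _ _ (hπO i) hy₂)
    · exact (O i).mul_mem _ _ (hBO cc i) (hsO i (hInot i hi))
  have hbO : (cc : 𝓕) * s⁻¹ ∈ s34x_infRing O := by
    rw [s34x_mem_infRing]
    intro i
    by_cases hi : i ∈ I
    · obtain ⟨-, y₃, hy₃, e₃⟩ := hs₃ i hi
      have : (cc : 𝓕) * s⁻¹ = (s₁ : 𝓕) * s₂ * ((s₃ : 𝓕) * s⁻¹) := by rw [hcc_coe]; ring
      rw [this, e₃]
      exact (O i).mul_mem _ _ ((O i).mul_mem _ _ (hBO s₁ i) (hBO s₂ i))
        ((O i).mul_mem _ _ (hπO i) hy₃)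
    · exact (O i).mul_mem _ _ (hBO cc i) (hsO' i (hInot i hi))
  -- the elements
  refine ⟨(cc : 𝓕) * s, ⟨haO, fun Q hQ => Or.inr ?_⟩,
    (cc : 𝓕) * s⁻¹, ⟨hbO, fun Q hQ => Or.inr ?_⟩, ?_⟩
  · rw [Q.ord_mul hcc0 hs0]
    have hc := hccord Q hQ
    have h1 := hBord s₁ Q hQ
    by_cases hQZ : Q ∈ hZfin.toFinset
    · have h2 : |Q.ord s - E Q| ≤ Q.ord (s₁ : 𝓕) := hs₁ Q hQZ
      have h3 := neg_abs_le (Q.ord s - E Q)
      linarith
    · have h2 : Q.ord s = E Q := by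
        by_contra hne
        exact hQZ ((hZmem Q).mpr ⟨hQ, hne⟩)
      linarith
  · rw [Q.ord_mul hcc0 (inv_ne_zero hs0), Q.ord_inv]
    have hc := hccord Q hQ
    have h1 := hBord s₁ Q hQ
    by_cases hQZ : Q ∈ hZfin.toFinset
    · have h2 : |Q.ord s - E Q| ≤ Q.ord (s₁ : 𝓕) := hs₁ Q hQZ
      have h3 := le_abs_self (Q.ord s - E Q)
      linarith
    · have h2 : Q.ord s = E Q := by
        by_contra hne
        exact hQZ ((hZmem Q).mpr ⟨hQ, hne⟩)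
      linarith
  · have hprod : (cc : 𝓕) * s * ((cc : 𝓕) * s⁻¹) =
        ((cc * cc : s34x_ring (s34x_infRing O) S) : 𝓕) := by
      push_cast
      field_simp
    refine ⟨hprod ▸ (cc * cc).2, ?_⟩
    intro hmem
    have h2 : (⟨(cc : 𝓕) * s * ((cc : 𝓕) * s⁻¹), hprod ▸ (cc * cc).2⟩ :
        s34x_ring (s34x_infRing O) S) = cc * cc := Subtype.ext hprod
    rw [h2] at hmem
    rcases h𝔫.mem_or_mem hmem with h | h <;> exact hccn h

/-- the chart ring acts on the lattices. -/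
theorem s33k_ss_ring_mul_lat (O : Subring 𝓕) (S : Set (Place L₀ 𝓕)) (E : Place L₀ 𝓕 → ℤ)
    {r a : 𝓕} (hr : r ∈ s34x_ring O S) (ha : a ∈ s34x_latSet O S E) :
    r * a ∈ s34x_latSet O S E := by
  have hr' : r ∈ s34x_latSet O S (fun _ => 0) := by
    rw [← s34x_ringSet_eq_latSet_zero]; exact hr
  have := s34x_latSet_mul O S (fun _ => 0) E hr' ha
  simpa using this

/-- **global step** (compare `s18i_hinv_of_local`): local invertibility at every maximal ideal gives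
the partition of unity. -/
theorem s33k_ss_hinv_of_local (O : Subring 𝓕) (S : Set (Place L₀ 𝓕)) (E : Place L₀ 𝓕 → ℤ)
    (h : ∀ 𝔫 : Ideal (s34x_ring O S), 𝔫.IsMaximal →
      ∃ a ∈ s34x_latSet O S E, ∃ b ∈ s34x_latSet O S (fun Q => - E Q),
        ∃ hab : a * b ∈ s34x_ring O S, (⟨a * b, hab⟩ : s34x_ring O S) ∉ 𝔫) :
    ∃ (s : Finset ℕ) (a b : ℕ → 𝓕), (∀ j ∈ s, a j ∈ s34x_latSet O S E) ∧
      (∀ j ∈ s, b j ∈ s34x_latSet O S (fun Q => - E Q)) ∧ ∑ j ∈ s, a j * b j = 1 := by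
  classical
  set G : Set (s34x_ring O S) :=
    {x | ∃ a ∈ s34x_latSet O S E, ∃ b ∈ s34x_latSet O S (fun Q => - E Q), (x : 𝓕) = a * b} with hG
  have htop : Ideal.span G = ⊤ := by
    by_contra hne
    obtain ⟨𝔫, h𝔫, hle⟩ := Ideal.exists_le_maximal _ hne
    obtain ⟨a, ha, b, hb, hab, hnot⟩ := h 𝔫 h𝔫
    exact hnot (hle (Ideal.subset_span ⟨a, ha, b, hb, rfl⟩))
  have h1 : (1 : s34x_ring O S) ∈ Ideal.span G := by rw [htop]; exact Submodule.mem_top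
  -- list form by span induction
  have key : ∀ x ∈ Ideal.span G, ∃ l : List (𝓕 × 𝓕),
      (∀ p ∈ l, p.1 ∈ s34x_latSet O S E ∧ p.2 ∈ s34x_latSet O S (fun Q => - E Q)) ∧
      (l.map fun p => p.1 * p.2).sum = (x : 𝓕) := by
    intro x hx
    induction hx using Submodule.span_induction with
    | mem x hx =>
      obtain ⟨a, ha, b, hb, hab⟩ := hx
      exact ⟨[(a, b)], by simpa using ⟨ha, hb⟩, by simp [hab]⟩
    | zero => exact ⟨[], by simp, by simp⟩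
    | add x y _ _ hx hy =>
      obtain ⟨l, hl, hls⟩ := hx
      obtain ⟨l', hl', hls'⟩ := hy
      refine ⟨l ++ l', ?_, ?_⟩
      · intro p hp
        rcases List.mem_append.mp hp with hp | hp
        · exact hl p hp
        · exact hl' p hp
      · rw [List.map_append, List.sum_append, hls, hls']
        push_cast; rfl
    | smul r x _ hx =>
      obtain ⟨l, hl, hls⟩ := hx
      refine ⟨l.map fun p => ((r : 𝓕) * p.1, p.2), ?_, ?_⟩
      · intro p hp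
        obtain ⟨p', hp', rfl⟩ := List.mem_map.mp hp
        exact ⟨s33k_ss_ring_mul_lat O S E r.2 (hl p' hp').1, (hl p' hp').2⟩
      · rw [List.map_map]
        have : ((fun p : 𝓕 × 𝓕 => p.1 * p.2) ∘ fun p : 𝓕 × 𝓕 => ((r : 𝓕) * p.1, p.2)) =
            fun p => (r : 𝓕) * (p.1 * p.2) := by
          funext p; simp [mul_assoc]
        rw [this, List.sum_map_mul_left, hls]
        rfl
  obtain ⟨l, hl, hls⟩ := key 1 h1
  obtain ⟨s, a, b, ha, hb, hsum⟩ := s18i_list_to_finset (fun x => x ∈ s34x_latSet O S E)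
    (fun x => x ∈ s34x_latSet O S (fun Q => - E Q)) l hl
  refine ⟨s, a, b, ha, hb, ?_⟩
  rw [hsum, hls]
  rfl

end Fermat.Agent.Lib.S33
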