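/-
P-AT-P (S33 programme, private branch), brick **[SEP-ss]** part 7 (helper9): **[S-Σ]**, the closedness
input `hclosed_S` of `s33k_ss_superCritical`, by a LOCAL–GLOBAL argument on the chart ring
`B = s34x_ring (⨅ i, O i) S`:

for `x ∈ O` the set `J = {s ∈ B | s x ∈ B + π O}` is an ideal of `B` containing `π`; it is not contained
in a maximal ideal `𝔫 ∋ π` as soon as
* (node) `x` is regular at all places of the chart through `𝔫` (`s33k_ss_exists_mul_mem_ring`: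
  the chart ring has Hartogs built in), or
* (smooth) only ONE component `i` passes through `𝔫` and `x ≡ g mod π (O i)` for some `g ∈ B`
  (`s33k_ss_local_of_lift`) — the one-component statement [LIFT-1].

`s33k_ss_hclosed` : [S-Σ] in the exact shape of the hypotheses `hclosed1`, `hclosed2` of
`s33k_ss_superCritical`.  No gluing data, no residue rings.
-/
import Fermat.Agent.Lib.S33.KumPSsInv

set_option autoImplicit false

noncomputable section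

namespace Fermat.Agent.Lib.S33

open AlgebraicCurve Fermat.Agent.Lib.FF Fermat.Agent.Lib.S18 Fermat.Agent.Lib.S34

variable {L₀ 𝓕 : Type*} [Field L₀] [Field 𝓕] [Algebra L₀ 𝓕]

/-- **local–global**: if at every maximal ideal `𝔫 ∋ π` of the chart ring some `s ∉ 𝔫` moves `x` into
`B + π O`, then `x ∈ B + π O`. -/
theorem s33k_ss_mem_add_of_local (O : Subring 𝓕) (S : Set (Place L₀ 𝓕)) (π : 𝓕)
    (hπB : π ∈ s34x_ring O S) (x : 𝓕) (hx : x ∈ O)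
    (hloc : ∀ 𝔫 : Ideal (s34x_ring O S), 𝔫.IsMaximal → (⟨π, hπB⟩ : s34x_ring O S) ∈ 𝔫 →
      ∃ s : s34x_ring O S, s ∉ 𝔫 ∧ ∃ g ∈ s34x_ring O S, ∃ y ∈ O, (s : 𝓕) * x - g = π * y) :
    ∃ b' ∈ s34x_ring O S, ∃ y ∈ O, x - b' = π * y := by
  -- the conductor ideal
  let J : Ideal (s34x_ring O S) :=
    { carrier := {s | ∃ g ∈ s34x_ring O S, ∃ y ∈ O, (s : 𝓕) * x - g = π * y}
      zero_mem' := ⟨0, Subring.zero_mem _, 0, O.zero_mem, by simp⟩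
      add_mem' := by
        rintro a b ⟨g, hg, y, hy, e⟩ ⟨g', hg', y', hy', e'⟩
        refine ⟨g + g', Subring.add_mem _ hg hg', y + y', O.add_mem hy hy', ?_⟩
        push_cast
        have : ((a : 𝓕) + b) * x - (g + g') = ((a : 𝓕) * x - g) + ((b : 𝓕) * x - g') := by ring
        rw [this, e, e']; ring
      smul_mem' := by
        rintro r a ⟨g, hg, y, hy, e⟩
        refine ⟨(r : 𝓕) * g, Subring.mul_mem _ r.2 hg, (r : 𝓕) * y, O.mul_mem r.2.1 hy, ?_⟩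
        rw [smul_eq_mul]
        push_cast
        have : (r : 𝓕) * (a : 𝓕) * x - (r : 𝓕) * g = (r : 𝓕) * ((a : 𝓕) * x - g) := by ring
        rw [this, e]; ring }
  have hπJ : (⟨π, hπB⟩ : s34x_ring O S) ∈ J :=
    ⟨0, Subring.zero_mem _, x, hx, by simp⟩
  have htop : J = ⊤ := by
    by_contra hne
    obtain ⟨𝔫, h𝔫, hle⟩ := Ideal.exists_le_maximal J hne
    obtain ⟨s, hs𝔫, g, hg, y, hy, e⟩ := hloc 𝔫 h𝔫 (hle hπJ)
    exact hs𝔫 (hle ⟨g, hg, y, hy, e⟩)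
  have h1 : (1 : s34x_ring O S) ∈ J := by rw [htop]; exact Submodule.mem_top
  obtain ⟨g, hg, y, hy, e⟩ := h1
  refine ⟨g, hg, y, hy, ?_⟩
  rw [← e]
  push_cast
  ring

/-- **(node)**: a function of `O` which is regular at all places of the chart through `𝔫` lies in the
local ring `B_𝔫`. -/
theorem s33k_ss_exists_mul_mem_ring (O : Subring 𝓕) (S : Set (Place L₀ 𝓕))
    (F3 : ∀ y : 𝓕, y ≠ 0 → {Q | Q ∈ S ∧ Q.ord y ≠ 0}.Finite)
    (𝔫 : Ideal (s34x_ring O S)) [h𝔫 : 𝔫.IsPrime] (x : 𝓕) (hx : x ∈ O)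
    (hreg : ∀ Q ∈ S, s34f_through O S 𝔫 Q → x ∈ Q.toValuationSubring) :
    ∃ s : s34x_ring O S, s ∉ 𝔫 ∧ (s : 𝓕) * x ∈ s34x_ring O S := by
  classical
  by_cases hx0 : x = 0
  · refine ⟨1, fun h => h𝔫.ne_top ((Ideal.eq_top_iff_one _).mpr h), ?_⟩
    rw [hx0, mul_zero]; exact Subring.zero_mem _
  set T : Finset (Place L₀ 𝓕) :=
    (F3 x hx0).toFinset.filter fun Q => ¬ s34f_through O S 𝔫 Q with hT
  have hTmem : ∀ Q, Q ∈ T ↔ (Q ∈ S ∧ Q.ord x ≠ 0) ∧ ¬ s34f_through O S 𝔫 Q := by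
    intro Q
    rw [hT, Finset.mem_filter, Set.Finite.mem_toFinset]
    rfl
  obtain ⟨s, hs𝔫, hs0, hs⟩ := s34x_exists_kill_places O S 𝔫 (fun Q => - Q.ord x) T (by
    intro Q hQ
    obtain ⟨⟨hQS, -⟩, hnot⟩ := (hTmem Q).mp hQ
    refine ⟨hQS, ?_⟩
    unfold s34f_through at hnot
    push Not at hnot
    obtain ⟨b, hb0, hbpos, hb𝔫⟩ := hnot
    exact ⟨b, hb0, hbpos, hb𝔫⟩)
  refine ⟨s, hs𝔫, O.mul_mem s.2.1 hx, fun Q hQS => ?_⟩
  by_cases hth : s34f_through O S 𝔫 Q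
  · exact Q.toValuationSubring.mul_mem _ _ (s.2.2 Q hQS) (hreg Q hQS hth)
  · rw [ff_mem_iff_ord_nonneg Q (mul_ne_zero hs0 hx0), Q.ord_mul hs0 hx0]
    have hsnn : 0 ≤ Q.ord (s : 𝓕) := s34x_ord_nonneg_of_mem_ring O S s Q hQS
    by_cases hord : Q.ord x = 0
    · omega
    · have := hs Q ((hTmem Q).mpr ⟨⟨hQS, hord⟩, hth⟩)
      omega

/-- **(smooth)**: if only the component `i` passes through `𝔫` and `x ≡ g mod π (O i)` with `g ∈ B`,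
some `s ∉ 𝔫` moves `x` into `B + π O`. -/
theorem s33k_ss_local_of_lift {ι : Type*} [Fintype ι] (O : ι → ValuationSubring 𝓕)
    (S : Set (Place L₀ 𝓕)) (π : 𝓕) (hπ0 : π ≠ 0)
    (hU : ∀ i, ∀ y : 𝓕, ∃ k : ℕ, π ^ k * y ∈ O i)
    (𝔫 : Ideal (s34x_ring (s34x_infRing O) S)) [h𝔫 : 𝔫.IsPrime] (i : ι)
    (hi : ∀ i', i' ≠ i → ¬ s33k_ss_compThrough O S π 𝔫 i')
    (x : 𝓕) (hx : x ∈ s34x_infRing O) (g : 𝓕) (hg : g ∈ s34x_ring (s34x_infRing O) S)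
    (hxg : ∃ y ∈ O i, x - g = π * y) :
    ∃ s : s34x_ring (s34x_infRing O) S, s ∉ 𝔫 ∧ ∃ g' ∈ s34x_ring (s34x_infRing O) S,
      ∃ y ∈ s34x_infRing O, (s : 𝓕) * x - g' = π * y := by
  classical
  have hBO : ∀ (b : s34x_ring (s34x_infRing O) S) (j : ι), (b : 𝓕) ∈ O j := fun b j =>
    (s34x_mem_infRing O _).mp b.2.1 j
  obtain ⟨s, hs𝔫, hs⟩ := s34x_exists_kill_comps O S π hU 𝔫 0 (Finset.univ.erase i) (by
    intro i' hi'
    have hne : i' ≠ i := (Finset.mem_erase.mp hi').1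
    have := hi i' hne
    unfold s33k_ss_compThrough at this
    push Not at this
    obtain ⟨b, hb, hb𝔫⟩ := this
    exact ⟨b, hb, hb𝔫⟩)
  obtain ⟨y, hy, e⟩ := hxg
  refine ⟨s, hs𝔫, (s : 𝓕) * g, Subring.mul_mem _ s.2 hg, π⁻¹ * ((s : 𝓕) * (x - g)), ?_, ?_⟩
  · rw [s34x_mem_infRing]
    intro j
    by_cases hj : j = i
    · subst hj
      have : π⁻¹ * ((s : 𝓕) * (x - g)) = (s : 𝓕) * y := by
        rw [e]; field_simp
      rw [this]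
      exact (O j).mul_mem _ _ (hBO s j) hy
    · obtain ⟨⟨y', hy', e'⟩, -⟩ := hs j (Finset.mem_erase.mpr ⟨hj, Finset.mem_univ _⟩)
      have : π⁻¹ * ((s : 𝓕) * (x - g)) = y' * (x - g) := by
        rw [e']; field_simp
      rw [this]
      exact (O j).mul_mem _ _ hy' ((O j).toSubring.sub_mem ((s34x_mem_infRing O _).mp hx j)
        ((s34x_mem_infRing O _).mp hg.1 j))
  · rw [← mul_assoc, mul_inv_cancel₀ hπ0, one_mul]
    ring

/-- **[S-Σ]**: the closedness input of `s33k_ss_superCritical` on a chart `S`, from the one-component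
lifting statements [LIFT-1] and the description of the closed points: every maximal ideal `𝔫 ∋ π` of
the chart ring either has all its places in `N` (the crossing points) or lies on one component only. -/
theorem s33k_ss_hclosed {ι : Type*} [Fintype ι] (O : ι → ValuationSubring 𝓕)
    (S : Set (Place L₀ 𝓕)) (π₀ : L₀) (hπ0 : π₀ ≠ 0) (hπO : ∀ i, algebraMap L₀ 𝓕 π₀ ∈ O i)
    (hU : ∀ i, ∀ y : 𝓕, ∃ k : ℕ, algebraMap L₀ 𝓕 π₀ ^ k * y ∈ O i)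
    (F3 : ∀ y : 𝓕, y ≠ 0 → {Q | Q ∈ S ∧ Q.ord y ≠ 0}.Finite)
    (N : Set (Place L₀ 𝓕)) (p : ℕ)
    (hpt : ∀ 𝔫 : Ideal (s34x_ring (s34x_infRing O) S), 𝔫.IsMaximal →
      s34x_const (s34x_infRing O) S π₀ ((s34x_mem_infRing O _).mpr hπO) ∈ 𝔫 →
      (∀ Q ∈ S, s34f_through (s34x_infRing O) S 𝔫 Q → Q ∈ N) ∨
      ∃ i, ∀ i', i' ≠ i → ¬ s33k_ss_compThrough O S (algebraMap L₀ 𝓕 π₀) 𝔫 i')
    (hlift1 : ∀ i, ∀ c ∈ s34x_ring (s34x_infRing O) S, ∀ x ∈ s34x_infRing O,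
      ∀ b ∈ s34x_ring (s34x_infRing O) S,
      (∃ y ∈ O i, x ^ p + c * x - b = algebraMap L₀ 𝓕 π₀ * y) →
        ∃ g ∈ s34x_ring (s34x_infRing O) S, ∃ y ∈ O i, x - g = algebraMap L₀ 𝓕 π₀ * y) :
    ∀ c ∈ s34x_ring (s34x_infRing O) S, ∀ x ∈ s34x_ring (s34x_infRing O) (N ∩ S),
      ∀ b ∈ s34x_ring (s34x_infRing O) S,
      (∃ y ∈ s34x_infRing O, x ^ p + c * x - b = algebraMap L₀ 𝓕 π₀ * y) →
        ∃ b' ∈ s34x_ring (s34x_infRing O) S, ∃ y ∈ s34x_infRing O,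
          x - b' = algebraMap L₀ 𝓕 π₀ * y := by
  intro c hc x hx b hb hxcb
  have hπ' : algebraMap L₀ 𝓕 π₀ ≠ 0 := by simpa using hπ0
  refine s33k_ss_mem_add_of_local (s34x_infRing O) S (algebraMap L₀ 𝓕 π₀)
    (s34x_const (s34x_infRing O) S π₀ ((s34x_mem_infRing O _).mpr hπO)).2 x hx.1 ?_
  intro 𝔫 h𝔫 hπ𝔫
  have h𝔫p : 𝔫.IsPrime := h𝔫.isPrime
  rcases hpt 𝔫 h𝔫 hπ𝔫 with hnode | ⟨i, hi⟩
  · obtain ⟨s, hs𝔫, hsx⟩ := s33k_ss_exists_mul_mem_ring (s34x_infRing O) S F3 𝔫 x hx.1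
      (fun Q hQS hth => hx.2 Q ⟨hnode Q hQS hth, hQS⟩)
    exact ⟨s, hs𝔫, (s : 𝓕) * x, hsx, 0, Subring.zero_mem _, by simp⟩
  · obtain ⟨y, hy, e⟩ := hxcb
    obtain ⟨g, hg, hxg⟩ := hlift1 i c hc x hx.1 b hb
      ⟨y, (s34x_mem_infRing O _).mp hy i, e⟩
    exact s33k_ss_local_of_lift O S (algebraMap L₀ 𝓕 π₀) hπ' hU 𝔫 i hi x hx.1 g hg hxg

end Fermat.Agent.Lib.S33
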