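/-
P-AT-P (S33 programme, private branch), brick **[SEP-ss]** part 4 (helper9): commutative algebra of a
SMOOTH closed point of a relative curve (Mathlib only).

`R` a noetherian local ring with `𝔪 = (t, ϖ)`:
* `s33k_ss_pir_of_maximal_principal` : a noetherian local ring with principal maximal ideal is a
  principal ideal ring (no domain hypothesis);
* `s33k_ss_pir_quot`  : `R ⧸ (ϖ)` is a principal ideal ring (= hypothesis of `s18i_LP_of_pir`);
* `s33k_ss_prime_le_span` : a prime `𝔮 ∋ ϖ`, `𝔮 ≠ 𝔪`, equals `(ϖ)` (only `𝔮 ≤ (ϖ)` is stated).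
-/
import Mathlib

set_option autoImplicit false

namespace Fermat.Agent.Lib.S33

open IsLocalRing

/-- A noetherian local ring with principal maximal ideal is a principal ideal ring. -/
theorem s33k_ss_pir_of_maximal_principal {R : Type*} [CommRing R] [IsLocalRing R]
    [IsNoetherianRing R] (t : R) (ht : maximalIdeal R = Ideal.span {t}) :
    IsPrincipalIdealRing R := by
  classical
  refine ⟨fun J => ?_⟩
  by_cases hJ0 : J = ⊥
  · rw [hJ0]; exact ⟨0, by simp⟩
  by_cases hJtop : J = ⊤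
  · rw [hJtop]; exact ⟨1, by simp⟩
  have hmtop : maximalIdeal R ≠ ⊤ := Ideal.IsPrime.ne_top'
  have hkrull := Ideal.iInf_pow_eq_bot_of_isLocalRing (maximalIdeal R) hmtop
  -- some power of the maximal ideal does not contain `J`
  have hex : ∃ k : ℕ, ¬ J ≤ maximalIdeal R ^ k := by
    by_contra hcon
    push Not at hcon
    apply hJ0
    rw [eq_bot_iff, ← hkrull]
    exact le_iInf hcon
  set m := Nat.find hex with hm
  have hm_spec : ¬ J ≤ maximalIdeal R ^ m := Nat.find_spec hex
  have hm0 : m ≠ 0 := by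
    intro h0
    rw [h0, pow_zero, Ideal.one_eq_top] at hm_spec
    exact hm_spec le_top
  obtain ⟨n, hn⟩ := Nat.exists_eq_succ_of_ne_zero hm0
  have hJn : J ≤ maximalIdeal R ^ n := by
    by_contra hcon
    have := Nat.find_min' hex hcon
    omega
  rw [hn] at hm_spec
  obtain ⟨x, hxJ, hxn⟩ := SetLike.not_le_iff_exists.mp hm_spec
  have hxn' : x ∈ maximalIdeal R ^ n := hJn hxJ
  rw [ht, Ideal.span_singleton_pow, Ideal.mem_span_singleton'] at hxn'
  obtain ⟨u, hu⟩ := hxn'
  have huunit : IsUnit u := by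
    by_contra hnu
    apply hxn
    have humem : u ∈ maximalIdeal R := (mem_maximalIdeal u).mpr hnu
    rw [ht, Ideal.mem_span_singleton'] at humem
    obtain ⟨v, hv⟩ := humem
    rw [ht, Ideal.span_singleton_pow, Ideal.mem_span_singleton']
    exact ⟨v, by rw [← hu, ← hv, pow_succ]; ring⟩
  have htn : t ^ n ∈ J := by
    obtain ⟨w, hw⟩ := huunit.exists_left_inv
    have : t ^ n = w * x := by rw [← hu, ← mul_assoc, hw, one_mul]
    rw [this]
    exact J.mul_mem_left w hxJ
  refine ⟨t ^ n, le_antisymm ?_ ?_⟩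
  · rw [ht, Ideal.span_singleton_pow] at hJn
    exact hJn
  · rw [Ideal.submodule_span_eq, Ideal.span_singleton_le_iff_mem]
    exact htn

/-- If `𝔪 = (t, ϖ)` in a noetherian local ring `R` then `R ⧸ (ϖ)` is a principal ideal ring. -/
theorem s33k_ss_pir_quot {R : Type*} [CommRing R] [IsLocalRing R] [IsNoetherianRing R] (t ϖ : R)
    (hm : maximalIdeal R = Ideal.span {t, ϖ}) :
    IsPrincipalIdealRing (R ⧸ Ideal.span {ϖ}) := by
  have hϖm : ϖ ∈ maximalIdeal R := by
    rw [hm]; exact Ideal.subset_span (by simp)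
  have htm : t ∈ maximalIdeal R := by
    rw [hm]; exact Ideal.subset_span (by simp)
  have hne : Ideal.span {ϖ} ≠ (⊤ : Ideal R) := by
    intro htop
    have : (1 : R) ∈ Ideal.span {ϖ} := by rw [htop]; exact Submodule.mem_top
    have h1 : (1 : R) ∈ maximalIdeal R :=
      ((Ideal.span_singleton_le_iff_mem _).mpr hϖm) this
    exact (Ideal.ne_top_iff_one _).mp Ideal.IsPrime.ne_top' h1
  have : Nontrivial (R ⧸ Ideal.span {ϖ}) := Ideal.Quotient.nontrivial_iff.mpr hne
  have : IsLocalRing (R ⧸ Ideal.span {ϖ}) :=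
    IsLocalRing.of_surjective' (Ideal.Quotient.mk (Ideal.span {ϖ})) Ideal.Quotient.mk_surjective
  refine s33k_ss_pir_of_maximal_principal (Ideal.Quotient.mk (Ideal.span {ϖ}) t) ?_
  apply le_antisymm
  · intro z hz
    obtain ⟨x, rfl⟩ := Ideal.Quotient.mk_surjective z
    have hx : x ∈ maximalIdeal R := by
      rw [mem_maximalIdeal, mem_nonunits_iff]
      intro hu
      exact (mem_maximalIdeal _).mp hz (hu.map _)
    rw [hm, Ideal.mem_span_pair] at hx
    obtain ⟨a, b, rfl⟩ := hx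
    rw [Ideal.mem_span_singleton']
    refine ⟨Ideal.Quotient.mk _ a, ?_⟩
    rw [map_add, map_mul, map_mul]
    have : Ideal.Quotient.mk (Ideal.span {ϖ}) ϖ = 0 :=
      Ideal.Quotient.eq_zero_iff_mem.mpr (Ideal.mem_span_singleton_self ϖ)
    rw [this, mul_zero, add_zero]
  · rw [Ideal.span_singleton_le_iff_mem, mem_maximalIdeal, mem_nonunits_iff]
    intro hu
    obtain ⟨y, hy⟩ := hu.exists_right_inv
    obtain ⟨y', rfl⟩ := Ideal.Quotient.mk_surjective y
    rw [← map_mul, ← map_one (Ideal.Quotient.mk (Ideal.span {ϖ})), Ideal.Quotient.eq] at hy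
    have h1 : t * y' - 1 ∈ maximalIdeal R := ((Ideal.span_singleton_le_iff_mem _).mpr hϖm) hy
    have h2 : t * y' ∈ maximalIdeal R := Ideal.mul_mem_right _ _ htm
    have h3 : (1 : R) ∈ maximalIdeal R := by
      have := (maximalIdeal R).sub_mem h2 h1
      simp at this
    exact (Ideal.ne_top_iff_one _).mp Ideal.IsPrime.ne_top' h3

/-- In a noetherian local ring with `𝔪 = (t, ϖ)`, a prime `𝔮 ∋ ϖ` different from `𝔪` is contained
in `(ϖ)` (Nakayama). -/
theorem s33k_ss_prime_le_span {R : Type*} [CommRing R] [IsLocalRing R] [IsNoetherianRing R]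
    (t ϖ : R) (hm : maximalIdeal R = Ideal.span {t, ϖ}) (𝔮 : Ideal R) [h𝔮 : 𝔮.IsPrime]
    (hϖ : ϖ ∈ 𝔮) (hne : 𝔮 ≠ maximalIdeal R) : 𝔮 ≤ Ideal.span {ϖ} := by
  have htm : t ∈ maximalIdeal R := by
    rw [hm]; exact Ideal.subset_span (by simp)
  have ht𝔮 : t ∉ 𝔮 := by
    intro ht
    apply hne
    apply le_antisymm (le_maximalIdeal h𝔮.ne_top)
    rw [hm, Ideal.span_le]
    intro x hx
    rcases hx with rfl | rfl
    · exact ht
    · exact hϖ
  have hjac : Ideal.span {t} ≤ (⊥ : Ideal R).jacobson := by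
    rw [IsLocalRing.jacobson_eq_maximalIdeal _ bot_ne_top, Ideal.span_singleton_le_iff_mem]
    exact htm
  refine Submodule.le_of_le_smul_of_le_jacobson_bot (I := Ideal.span {t})
    (IsNoetherian.noetherian 𝔮) hjac ?_
  intro x hx
  have hxm : x ∈ maximalIdeal R := le_maximalIdeal h𝔮.ne_top hx
  rw [hm, Ideal.mem_span_pair] at hxm
  obtain ⟨a, b, rfl⟩ := hxm
  have ha : a ∈ 𝔮 := by
    have h1 : a * t ∈ 𝔮 := by
      have := 𝔮.sub_mem hx (𝔮.mul_mem_left b hϖ)
      simpa using this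
    exact (h𝔮.mem_or_mem h1).resolve_right ht𝔮
  rw [add_comm]
  apply Submodule.add_mem_sup
  · exact Ideal.mem_span_singleton'.mpr ⟨b, rfl⟩
  · rw [mul_comm, ← smul_eq_mul]
    exact Submodule.smul_mem_smul (Ideal.mem_span_singleton_self t) ha

end Fermat.Agent.Lib.S33
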