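/-
P-AT-P (S33 programme, private branch), brick **[SEP-ss]** part 5 (helper9): **[I-Σ]**, the LOCAL
GENERATORS `s33k_ss_LG` at the closed points of a chart of a SUBRING `O = ⨅ i, O i`:

* `s33k_ss_primeOf`     : the prime of the chart ring cut out by a place of the chart;
* `s33k_ss_compIdeal`   : the prime `B ∩ π (O i)` of the chart ring cut out by the component `i`;
* `s33k_ss_LG_generic`  : local generator at a prime `𝔫 ∌ π` (generic fibre; from (F1), (F2), (F5));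
* `s33k_ss_LG_smooth`   : local generator at a SMOOTH closed point `𝔫 ∋ π` of the special fibre
  (`𝔫 B_𝔫 = (t, π)`, `B` noetherian), provided no component through `𝔫` is all of `𝔫` (SM2):
  local principality from `s33k_ss_pir_quot` + S18's `s18i_LP_of_pir`; the generator is a unit of
  every component through `𝔫` by Nakayama (`s33k_ss_prime_le_span`).
-/
import Fermat.Agent.Lib.S33.KumPSsInv
import Fermat.Agent.Lib.S33.KumPSsPir
import Fermat.Agent.Lib.S18.ILP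

set_option autoImplicit false

noncomputable section

namespace Fermat.Agent.Lib.S33

open AlgebraicCurve Fermat.Agent.Lib.FF Fermat.Agent.Lib.S18 Fermat.Agent.Lib.S34 IsLocalRing

variable {L₀ 𝓕 : Type*} [Field L₀] [Field 𝓕] [Algebra L₀ 𝓕]

/-- the prime of the chart ring cut out by a place of the chart. -/
def s33k_ss_primeOf (O : Subring 𝓕) (S : Set (Place L₀ 𝓕)) (Q : Place L₀ 𝓕) (hQS : Q ∈ S) :
    Ideal (s34x_ring O S) where
  carrier := {y | s18i_van Q (y : 𝓕)}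
  zero_mem' := Or.inl rfl
  add_mem' := by
    rintro a b ha hb
    show s18i_van Q ((a + b : s34x_ring O S) : 𝓕)
    by_cases hab : ((a + b : s34x_ring O S) : 𝓕) = 0
    · exact Or.inl hab
    right
    push_cast at hab ⊢
    by_cases ha0 : (a : 𝓕) = 0
    · rw [ha0, zero_add] at hab ⊢
      exact hb.resolve_left hab
    by_cases hb0 : (b : 𝓕) = 0
    · rw [hb0, add_zero] at hab ⊢
      exact ha.resolve_left hab
    have h1 := ha.resolve_left ha0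
    have h2 := hb.resolve_left hb0
    exact lt_of_lt_of_le (lt_min h1 h2) (ff_ord_add_ge Q ha0 hb0 hab)
  smul_mem' := by
    rintro r a ha
    show s18i_van Q ((r * a : s34x_ring O S) : 𝓕)
    push_cast
    by_cases hr0 : (r : 𝓕) = 0
    · exact Or.inl (by rw [hr0, zero_mul])
    by_cases ha0 : (a : 𝓕) = 0
    · exact Or.inl (by rw [ha0, mul_zero])
    right
    rw [Q.ord_mul hr0 ha0]
    have h1 : 0 ≤ Q.ord (r : 𝓕) := (ff_mem_iff_ord_nonneg Q hr0).mp (r.2.2 Q hQS)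
    have h2 := ha.resolve_left ha0
    omega

theorem s33k_ss_mem_primeOf (O : Subring 𝓕) (S : Set (Place L₀ 𝓕)) (Q : Place L₀ 𝓕)
    (hQS : Q ∈ S) (y : s34x_ring O S) :
    y ∈ s33k_ss_primeOf O S Q hQS ↔ s18i_van Q (y : 𝓕) := Iff.rfl

theorem s33k_ss_primeOf_isPrime (O : Subring 𝓕) (S : Set (Place L₀ 𝓕)) (Q : Place L₀ 𝓕)
    (hQS : Q ∈ S) : (s33k_ss_primeOf O S Q hQS).IsPrime := by
  refine ⟨?_, ?_⟩
  · intro htop
    have h1 : (1 : s34x_ring O S) ∈ s33k_ss_primeOf O S Q hQS := by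
      rw [htop]; exact Submodule.mem_top
    rcases h1 with h | h
    · simp at h
    · simp at h
  · intro a b hab
    have hab' : s18i_van Q ((a : 𝓕) * (b : 𝓕)) := by
      have := (s33k_ss_mem_primeOf O S Q hQS (a * b)).mp hab
      simpa using this
    by_cases ha0 : (a : 𝓕) = 0
    · exact Or.inl (Or.inl ha0)
    by_cases hb0 : (b : 𝓕) = 0
    · exact Or.inr (Or.inl hb0)
    have hpos := hab'.resolve_left (mul_ne_zero ha0 hb0)
    rw [Q.ord_mul ha0 hb0] at hpos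
    have h1 : 0 ≤ Q.ord (a : 𝓕) := (ff_mem_iff_ord_nonneg Q ha0).mp (a.2.2 Q hQS)
    have h2 : 0 ≤ Q.ord (b : 𝓕) := (ff_mem_iff_ord_nonneg Q hb0).mp (b.2.2 Q hQS)
    by_cases h3 : 0 < Q.ord (a : 𝓕)
    · exact Or.inl (Or.inr h3)
    · exact Or.inr (Or.inr (by omega))

/-- `Q` passes through `𝔫` iff its prime lies in `𝔫`. -/
theorem s33k_ss_through_iff (O : Subring 𝓕) (S : Set (Place L₀ 𝓕)) (𝔫 : Ideal (s34x_ring O S))
    (Q : Place L₀ 𝓕) (hQS : Q ∈ S) :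
    s34f_through O S 𝔫 Q ↔ s33k_ss_primeOf O S Q hQS ≤ 𝔫 := by
  constructor
  · intro h y hy
    by_cases hy0 : (y : 𝓕) = 0
    · have : y = 0 := Subtype.ext hy0
      rw [this]; exact 𝔫.zero_mem
    · exact h y hy0 (hy.resolve_left hy0)
  · intro h b hb0 hpos
    exact h (Or.inr hpos)

/-- elements of the chart ring outside `𝔫` have order `0` at the places through `𝔫`. -/
theorem s33k_ss_ord_eq_zero_of_not_mem (O : Subring 𝓕) (S : Set (Place L₀ 𝓕))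
    (𝔫 : Ideal (s34x_ring O S)) (Q : Place L₀ 𝓕) (hQS : Q ∈ S) (hQ : s34f_through O S 𝔫 Q)
    (h : s34x_ring O S) (hh : h ∉ 𝔫) : (h : 𝓕) ≠ 0 ∧ Q.ord (h : 𝓕) = 0 := by
  have h0 : (h : 𝓕) ≠ 0 := by
    intro h0
    apply hh
    have : h = 0 := Subtype.ext h0
    rw [this]; exact 𝔫.zero_mem
  refine ⟨h0, le_antisymm ?_ ((ff_mem_iff_ord_nonneg Q h0).mp (h.2.2 Q hQS))⟩
  by_contra hpos
  push Not at hpos
  exact hh (hQ h h0 hpos)

/-- the local generators at a prime not containing `π` (generic fibre). -/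
theorem s33k_ss_LG_generic {ι : Type*} (O : ι → ValuationSubring 𝓕) (S : Set (Place L₀ 𝓕))
    (π₀ : L₀) (hπO : ∀ i, algebraMap L₀ 𝓕 π₀ ∈ O i)
    (F1 : ∀ Q ∈ S, ∃ u : s34x_ring (s34x_infRing O) S, Q.ord (u : 𝓕) = 1)
    (F2 : ∀ Q ∈ S, ∀ Q' ∈ S, Q' ≠ Q →
      ∃ y : s34x_ring (s34x_infRing O) S, 0 < Q.ord (y : 𝓕) ∧ Q'.ord (y : 𝓕) = 0)
    (F5 : ∀ Q ∈ S, ∀ y : s34x_ring (s34x_infRing O) S, (y : 𝓕) ≠ 0 → Q.ord (y : 𝓕) = 0 →
      ∃ (k : ℕ) (p c : s34x_ring (s34x_infRing O) S), s18i_van Q (p : 𝓕) ∧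
        s34x_const (s34x_infRing O) S π₀ ((s34x_mem_infRing O _).mpr hπO) ^ k = p + c * y)
    (𝔫 : Ideal (s34x_ring (s34x_infRing O) S)) [h𝔫 : 𝔫.IsPrime]
    (hπ𝔫 : s34x_const (s34x_infRing O) S π₀ ((s34x_mem_infRing O _).mpr hπO) ∉ 𝔫)
    (Q : Place L₀ 𝓕) (hQS : Q ∈ S) (hQ : s34f_through (s34x_infRing O) S 𝔫 Q) :
    s33k_ss_LG O S (algebraMap L₀ 𝓕 π₀) 𝔫 Q := by
  obtain ⟨u, hu⟩ := F1 Q hQS
  refine ⟨(u : 𝓕), hu, ?_, ?_⟩
  · intro Q' hQ'S hne hQ'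
    exfalso
    obtain ⟨y', hy'pos, hy'0⟩ := F2 Q' hQ'S Q hQS (Ne.symm hne)
    have hy'ne : (y' : 𝓕) ≠ 0 := by
      intro h0; rw [h0, Place.ord_zero] at hy'pos; exact lt_irrefl _ hy'pos
    obtain ⟨k', p, c, hp, hpc⟩ := F5 Q hQS y' hy'ne hy'0
    have h1 : p ∈ 𝔫 := (s33k_ss_through_iff _ S 𝔫 Q hQS).mp hQ hp
    have h2 : y' ∈ 𝔫 := hQ' y' hy'ne hy'pos
    have h3 : s34x_const (s34x_infRing O) S π₀ ((s34x_mem_infRing O _).mpr hπO) ^ k' ∈ 𝔫 := by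
      rw [hpc]; exact 𝔫.add_mem h1 (𝔫.mul_mem_left c h2)
    exact hπ𝔫 (h𝔫.mem_of_pow_mem k' h3)
  · intro i hi
    exfalso
    apply hπ𝔫
    refine hi _ ⟨1, (O i).one_mem, ?_⟩
    rw [s34x_const_coe, mul_one]

/-- the prime of the chart ring cut out by the component `i`: `B ∩ π (O i)`. -/
def s33k_ss_compIdeal {ι : Type*} (O : ι → ValuationSubring 𝓕) (S : Set (Place L₀ 𝓕)) (π : 𝓕)
    (i : ι) : Ideal (s34x_ring (s34x_infRing O) S) where
  carrier := {b | ∃ y ∈ O i, (b : 𝓕) = π * y}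
  zero_mem' := ⟨0, (O i).zero_mem, by simp⟩
  add_mem' := by
    rintro a b ⟨y, hy, e⟩ ⟨y', hy', e'⟩
    refine ⟨y + y', (O i).add_mem _ _ hy hy', ?_⟩
    push_cast
    rw [e, e']; ring
  smul_mem' := by
    rintro r a ⟨y, hy, e⟩
    refine ⟨(r : 𝓕) * y, (O i).mul_mem _ _ ((s34x_mem_infRing O _).mp r.2.1 i) hy, ?_⟩
    rw [smul_eq_mul]
    push_cast
    rw [e]; ring

theorem s33k_ss_mem_compIdeal {ι : Type*} (O : ι → ValuationSubring 𝓕) (S : Set (Place L₀ 𝓕))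
    (π : 𝓕) (i : ι) (b : s34x_ring (s34x_infRing O) S) :
    b ∈ s33k_ss_compIdeal O S π i ↔ ∃ y ∈ O i, (b : 𝓕) = π * y := Iff.rfl

theorem s33k_ss_compThrough_iff {ι : Type*} (O : ι → ValuationSubring 𝓕) (S : Set (Place L₀ 𝓕))
    (π : 𝓕) (𝔫 : Ideal (s34x_ring (s34x_infRing O) S)) (i : ι) :
    s33k_ss_compThrough O S π 𝔫 i ↔ s33k_ss_compIdeal O S π i ≤ 𝔫 :=
  ⟨fun h b hb => h b hb, fun h _ hb => h hb⟩

/-- the component ideal is prime as soon as `π` is a uniformiser of the valuation ring `O i` and a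
non-unit of it. -/
theorem s33k_ss_compIdeal_isPrime {ι : Type*} (O : ι → ValuationSubring 𝓕)
    (S : Set (Place L₀ 𝓕)) (π : 𝓕) (hπ0 : π ≠ 0) (i : ι)
    (hUi : ∀ u : 𝓕, u ∈ O i → u ≠ 0 → ∃ (k : ℕ) (w : 𝓕), w ∈ O i ∧ w⁻¹ ∈ O i ∧ u = π ^ k * w)
    (hnu : ¬ ∃ y ∈ O i, (1 : 𝓕) = π * y) :
    (s33k_ss_compIdeal O S π i).IsPrime := by
  have hBO : ∀ b : s34x_ring (s34x_infRing O) S, (b : 𝓕) ∈ O i := fun b =>
    (s34x_mem_infRing O _).mp b.2.1 i
  have hπO : π ∈ O i := by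
    by_contra hπ
    -- then `π⁻¹ ∈ O i`
    rcases (O i).mem_or_inv_mem π with h | h
    · exact hπ h
    · exact hnu ⟨π⁻¹, h, by rw [mul_inv_cancel₀ hπ0]⟩
  refine ⟨?_, ?_⟩
  · intro htop
    have h1 : (1 : s34x_ring (s34x_infRing O) S) ∈ s33k_ss_compIdeal O S π i := by
      rw [htop]; exact Submodule.mem_top
    obtain ⟨y, hy, e⟩ := h1
    exact hnu ⟨y, hy, by simpa using e⟩
  · intro a b hab
    obtain ⟨y, hy, e⟩ := hab
    have e' : (a : 𝓕) * (b : 𝓕) = π * y := by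
      rw [← e]; push_cast; rfl
    by_cases ha0 : (a : 𝓕) = 0
    · exact Or.inl ⟨0, (O i).zero_mem, by rw [ha0, mul_zero]⟩
    by_cases hb0 : (b : 𝓕) = 0
    · exact Or.inr ⟨0, (O i).zero_mem, by rw [hb0, mul_zero]⟩
    obtain ⟨k, w, hw, hw', ea⟩ := hUi (a : 𝓕) (hBO a) ha0
    obtain ⟨l, w', hw2, hw2', eb⟩ := hUi (b : 𝓕) (hBO b) hb0
    have hw0 : w ≠ 0 := by
      rintro rfl
      rw [mul_zero] at ea
      exact ha0 ea
    have hw20 : w' ≠ 0 := by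
      rintro rfl
      rw [mul_zero] at eb
      exact hb0 eb
    rcases Nat.eq_zero_or_pos k with hk | hk
    · rcases Nat.eq_zero_or_pos l with hl | hl
      · exfalso
        subst hk hl
        rw [pow_zero, one_mul] at ea eb
        apply hnu
        refine ⟨y * (w⁻¹ * w'⁻¹), (O i).mul_mem _ _ hy ((O i).mul_mem _ _ hw' hw2'), ?_⟩
        rw [← mul_assoc, ← e', ea, eb]
        field_simp
      · right
        obtain ⟨l', rfl⟩ := Nat.exists_eq_succ_of_ne_zero hl.ne'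
        refine ⟨π ^ l' * w', (O i).mul_mem _ _ ((O i).pow_mem hπO l') hw2, ?_⟩
        rw [eb, pow_succ]; ring
    · left
      obtain ⟨k', rfl⟩ := Nat.exists_eq_succ_of_ne_zero hk.ne'
      refine ⟨π ^ k' * w, (O i).mul_mem _ _ ((O i).pow_mem hπO k') hw, ?_⟩
      rw [ea, pow_succ]; ring

/-- the local generators at a SMOOTH closed point of the special fibre. -/
theorem s33k_ss_LG_smooth {ι : Type*} (O : ι → ValuationSubring 𝓕) (S : Set (Place L₀ 𝓕))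
    (π₀ : L₀) (hπ0 : π₀ ≠ 0) (hπO : ∀ i, algebraMap L₀ 𝓕 π₀ ∈ O i)
    (hUi : ∀ i, ∀ u : 𝓕, u ∈ O i → u ≠ 0 → ∃ (k : ℕ) (w : 𝓕), w ∈ O i ∧ w⁻¹ ∈ O i ∧
      u = algebraMap L₀ 𝓕 π₀ ^ k * w)
    (F1 : ∀ Q ∈ S, ∃ u : s34x_ring (s34x_infRing O) S, Q.ord (u : 𝓕) = 1)
    (F2 : ∀ Q ∈ S, ∀ Q' ∈ S, Q' ≠ Q →
      ∃ y : s34x_ring (s34x_infRing O) S, 0 < Q.ord (y : 𝓕) ∧ Q'.ord (y : 𝓕) = 0)
    [IsNoetherianRing (s34x_ring (s34x_infRing O) S)]
    (𝔫 : Ideal (s34x_ring (s34x_infRing O) S)) [h𝔫 : 𝔫.IsPrime]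
    (hπ𝔫 : s34x_const (s34x_infRing O) S π₀ ((s34x_mem_infRing O _).mpr hπO) ∈ 𝔫)
    (t : s34x_ring (s34x_infRing O) S)
    (hm : maximalIdeal (Localization.AtPrime 𝔫) =
      Ideal.span {algebraMap _ (Localization.AtPrime 𝔫) t,
        algebraMap _ (Localization.AtPrime 𝔫)
          (s34x_const (s34x_infRing O) S π₀ ((s34x_mem_infRing O _).mpr hπO))})
    (hSM2 : ∀ i, s33k_ss_compThrough O S (algebraMap L₀ 𝓕 π₀) 𝔫 i →
      ∃ b ∈ 𝔫, ¬ ∃ y ∈ O i, ((b : s34x_ring (s34x_infRing O) S) : 𝓕) = algebraMap L₀ 𝓕 π₀ * y)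
    (Q : Place L₀ 𝓕) (hQS : Q ∈ S) (hQ : s34f_through (s34x_infRing O) S 𝔫 Q) :
    s33k_ss_LG O S (algebraMap L₀ 𝓕 π₀) 𝔫 Q := by
  classical
  set π : 𝓕 := algebraMap L₀ 𝓕 π₀ with hπdef
  set πB : (s34x_ring (s34x_infRing O) S) := s34x_const (s34x_infRing O) S π₀ ((s34x_mem_infRing O _).mpr hπO) with hπB
  have hπ' : π ≠ 0 := by rw [hπdef]; simpa using hπ0
  have hπBcoe : (πB : 𝓕) = π := rfl
  have hBO : ∀ (b : (s34x_ring (s34x_infRing O) S)) (i : ι), (b : 𝓕) ∈ O i := fun b i => (s34x_mem_infRing O _).mp b.2.1 i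
  have hordπ : ∀ Q' : Place L₀ 𝓕, Q'.ord π = 0 := fun Q' => ff_ord_algebraMap Q' π₀
  -- local principality of the prime of `Q`
  have hpir : IsPrincipalIdealRing (Localization.AtPrime 𝔫 ⧸
      Ideal.span {algebraMap (s34x_ring (s34x_infRing O) S) (Localization.AtPrime 𝔫) πB}) :=
    s33k_ss_pir_quot _ _ hm
  have hprime := s33k_ss_primeOf_isPrime (s34x_infRing O) S Q hQS
  have hπ𝔭 : πB ∉ s33k_ss_primeOf (s34x_infRing O) S Q hQS := by
    intro hmem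
    rcases hmem with h | h
    · exact hπ' h
    · have : Q.ord π = 0 := hordπ Q
      change 0 < Q.ord π at h
      omega
  obtain ⟨y₀, hy₀van, hLP⟩ := s18i_LP_of_pir πB 𝔫 hπ𝔫
    (s33k_ss_primeOf (s34x_infRing O) S Q hQS)
    ((s33k_ss_through_iff _ S 𝔫 Q hQS).mp hQ) hπ𝔭
  have hy₀van : s18i_van Q (y₀ : 𝓕) := hy₀van
  have hLP : ∀ p : (s34x_ring (s34x_infRing O) S), s18i_van Q (p : 𝓕) → ∃ h : (s34x_ring (s34x_infRing O) S), h ∉ 𝔫 ∧ ∃ c : (s34x_ring (s34x_infRing O) S), h * p = c * y₀ :=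
    fun p hp => hLP p hp
  obtain ⟨u, hu⟩ := F1 Q hQS
  have hu0 : (u : 𝓕) ≠ 0 := by
    intro h0; rw [h0, Place.ord_zero] at hu; exact zero_ne_one hu
  -- `y₀ ≠ 0` and `ord_Q y₀ = 1`
  obtain ⟨h, hh, c, hc⟩ := hLP u (Or.inr (by rw [hu]; exact one_pos))
  obtain ⟨hh0, hhord⟩ := s33k_ss_ord_eq_zero_of_not_mem _ S 𝔫 Q hQS hQ h hh
  have hc' : (h : 𝓕) * (u : 𝓕) = (c : 𝓕) * (y₀ : 𝓕) := by
    have := congrArg (fun x : (s34x_ring (s34x_infRing O) S) => (x : 𝓕)) hc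
    simpa using this
  have hy₀0 : (y₀ : 𝓕) ≠ 0 := by
    intro h0
    rw [h0, mul_zero] at hc'
    exact mul_ne_zero hh0 hu0 hc'
  have hc0 : (c : 𝓕) ≠ 0 := by
    intro h0
    rw [h0, zero_mul] at hc'
    exact mul_ne_zero hh0 hu0 hc'
  have hy₀pos : 0 < Q.ord (y₀ : 𝓕) := hy₀van.resolve_left hy₀0
  have hcord : 0 ≤ Q.ord (c : 𝓕) := (ff_mem_iff_ord_nonneg Q hc0).mp (c.2.2 Q hQS)
  have hy₀ord : Q.ord (y₀ : 𝓕) = 1 := by
    have := congrArg Q.ord hc'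
    rw [Q.ord_mul hh0 hu0, Q.ord_mul hc0 hy₀0, hhord, hu, zero_add] at this
    omega
  refine ⟨(y₀ : 𝓕), hy₀ord, ?_, ?_⟩
  · -- order `0` at the other places through `𝔫`
    intro Q' hQ'S hne hQ'
    have hnn : 0 ≤ Q'.ord (y₀ : 𝓕) := (ff_mem_iff_ord_nonneg Q' hy₀0).mp (y₀.2.2 Q' hQ'S)
    by_contra hne0
    have hpos : 0 < Q'.ord (y₀ : 𝓕) := lt_of_le_of_ne hnn (Ne.symm hne0)
    obtain ⟨p, hppos, hp0⟩ := F2 Q hQS Q' hQ'S hne
    have hpne : (p : 𝓕) ≠ 0 := by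
      intro h0; rw [h0, Place.ord_zero] at hppos; exact lt_irrefl _ hppos
    obtain ⟨h₂, hh₂, c₂, hc₂⟩ := hLP p (Or.inr hppos)
    obtain ⟨hh₂0, hh₂ord⟩ := s33k_ss_ord_eq_zero_of_not_mem _ S 𝔫 Q' hQ'S hQ' h₂ hh₂
    have hc₂' : (h₂ : 𝓕) * (p : 𝓕) = (c₂ : 𝓕) * (y₀ : 𝓕) := by
      have := congrArg (fun x : (s34x_ring (s34x_infRing O) S) => (x : 𝓕)) hc₂
      simpa using this
    have hc₂0 : (c₂ : 𝓕) ≠ 0 := by
      intro h0
      rw [h0, zero_mul] at hc₂'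
      exact mul_ne_zero hh₂0 hpne hc₂'
    have hc₂ord : 0 ≤ Q'.ord (c₂ : 𝓕) := (ff_mem_iff_ord_nonneg Q' hc₂0).mp (c₂.2.2 Q' hQ'S)
    have := congrArg Q'.ord hc₂'
    rw [Q'.ord_mul hh₂0 hpne, Q'.ord_mul hc₂0 hy₀0, hh₂ord, hp0] at this
    omega
  · -- unit of the components through `𝔫`
    intro i hi
    refine ⟨hBO y₀ i, ?_⟩
    obtain ⟨k, w, hwO, hwO', hyw⟩ := hUi i (y₀ : 𝓕) (hBO y₀ i) hy₀0
    have hw0 : w ≠ 0 := by
      intro h0; rw [h0, mul_zero] at hyw; exact hy₀0 hyw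
    have hk : k = 0 := by
      by_contra hk
      obtain ⟨k', rfl⟩ := Nat.exists_eq_succ_of_ne_zero hk
      -- `y₀` lies in the component prime `𝔮`
      have hy₀𝔮 : y₀ ∈ s33k_ss_compIdeal O S π i := by
        refine ⟨π ^ k' * w, (O i).mul_mem _ _ ((O i).pow_mem (hπO i) k') hwO, ?_⟩
        rw [hyw, pow_succ]; ring
      have h𝔮𝔫 : s33k_ss_compIdeal O S π i ≤ 𝔫 := (s33k_ss_compThrough_iff O S π 𝔫 i).mp hi
      have hnu : ¬ ∃ y ∈ O i, (1 : 𝓕) = π * y := by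
        rintro ⟨y, hy, e⟩
        have h1 : (1 : (s34x_ring (s34x_infRing O) S)) ∈ s33k_ss_compIdeal O S π i := ⟨y, hy, by simpa using e⟩
        exact h𝔫.ne_top ((Ideal.eq_top_iff_one _).mpr (h𝔮𝔫 h1))
      have h𝔮prime : (s33k_ss_compIdeal O S π i).IsPrime :=
        s33k_ss_compIdeal_isPrime O S π hπ' i (hUi i) hnu
      have hπ𝔮 : πB ∈ s33k_ss_compIdeal O S π i := ⟨1, (O i).one_mem, by rw [hπBcoe, mul_one]⟩
      obtain ⟨b, hb𝔫, hb𝔮⟩ := hSM2 i hi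
      -- the extension of `𝔮` to the localisation
      set R := Localization.AtPrime 𝔫 with hR
      set M := 𝔫.primeCompl with hM
      set I : Ideal R := (s33k_ss_compIdeal O S π i).map (algebraMap (s34x_ring (s34x_infRing O) S) R) with hI
      have hdisj : Disjoint (M : Set (s34x_ring (s34x_infRing O) S)) (s33k_ss_compIdeal O S π i : Set (s34x_ring (s34x_infRing O) S)) := by
        rw [Set.disjoint_left]
        intro x hxM hx𝔮
        exact hxM (h𝔮𝔫 hx𝔮)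
      have hIprime : I.IsPrime :=
        IsLocalization.isPrime_of_isPrime_disjoint M R _ h𝔮prime hdisj
      have hunder : I.under (s34x_ring (s34x_infRing O) S) = s33k_ss_compIdeal O S π i :=
        IsLocalization.under_map_of_isPrime_disjoint M R h𝔮prime hdisj
      have hIne : I ≠ maximalIdeal R := by
        intro heq
        apply hb𝔮
        have hbI : algebraMap (s34x_ring (s34x_infRing O) S) R b ∈ I := by
          rw [heq]
          exact (IsLocalization.AtPrime.to_map_mem_maximal_iff R 𝔫 b).mpr hb𝔫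
        have : b ∈ I.under (s34x_ring (s34x_infRing O) S) := hbI
        rw [hunder] at this
        exact this
      have hnoeth : IsNoetherianRing R := IsLocalization.isNoetherianRing M R inferInstance
      have hIle : I ≤ Ideal.span {algebraMap (s34x_ring (s34x_infRing O) S) R πB} :=
        s33k_ss_prime_le_span _ _ hm I (Ideal.mem_map_of_mem _ hπ𝔮) hIne
      have hy₀I : algebraMap (s34x_ring (s34x_infRing O) S) R y₀ ∈ Ideal.span {algebraMap (s34x_ring (s34x_infRing O) S) R πB} :=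
        hIle (Ideal.mem_map_of_mem _ hy₀𝔮)
      obtain ⟨r, hr⟩ := Ideal.mem_span_singleton'.mp hy₀I
      obtain ⟨⟨c₁, s⟩, hcs⟩ := IsLocalization.surj M r
      have heq : algebraMap (s34x_ring (s34x_infRing O) S) R (y₀ * s) = algebraMap (s34x_ring (s34x_infRing O) S) R (c₁ * πB) := by
        rw [map_mul, map_mul, ← hr, ← hcs]
        ring
      obtain ⟨m, hm'⟩ := (IsLocalization.eq_iff_exists M R).mp heq
      -- `h₁ * y₀ = y₁ * π` in `(s34x_ring (s34x_infRing O) S)`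
      set h₁ : (s34x_ring (s34x_infRing O) S) := m * s with hh₁
      set y₁ : (s34x_ring (s34x_infRing O) S) := m * c₁ with hy₁
      have hh₁𝔫 : h₁ ∉ 𝔫 := M.mul_mem m.2 s.2
      have he1 : h₁ * y₀ = y₁ * πB := by
        rw [hh₁, hy₁]
        calc (m : (s34x_ring (s34x_infRing O) S)) * s * y₀ = m * (y₀ * s) := by ring
          _ = m * (c₁ * πB) := hm'
          _ = m * c₁ * πB := by ring
      have he1' : (h₁ : 𝓕) * (y₀ : 𝓕) = (y₁ : 𝓕) * π := by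
        have := congrArg (fun x : (s34x_ring (s34x_infRing O) S) => (x : 𝓕)) he1
        rw [← hπBcoe]
        simpa using this
      obtain ⟨hh₁0, hh₁ord⟩ := s33k_ss_ord_eq_zero_of_not_mem _ S 𝔫 Q hQS hQ h₁ hh₁𝔫
      have hy₁0 : (y₁ : 𝓕) ≠ 0 := by
        intro h0
        rw [h0, zero_mul] at he1'
        exact mul_ne_zero hh₁0 hy₀0 he1'
      have hy₁ord : Q.ord (y₁ : 𝓕) = 1 := by
        have := congrArg Q.ord he1'
        rw [Q.ord_mul hh₁0 hy₀0, Q.ord_mul hy₁0 hπ', hh₁ord, hy₀ord, hordπ Q] at this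
        omega
      obtain ⟨h₂, hh₂, c₂, hc₂⟩ := hLP y₁ (Or.inr (by rw [hy₁ord]; exact one_pos))
      -- `h₂ * h₁ = c₂ * π`
      have hfin : h₂ * h₁ = c₂ * πB := by
        have h3 : (h₂ * h₁ - c₂ * πB) * y₀ = 0 := by
          calc (h₂ * h₁ - c₂ * πB) * y₀ = h₂ * (h₁ * y₀) - c₂ * y₀ * πB := by ring
            _ = h₂ * (y₁ * πB) - c₂ * y₀ * πB := by rw [he1]
            _ = (h₂ * y₁) * πB - c₂ * y₀ * πB := by ring
            _ = 0 := by rw [hc₂]; ring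
        have hy₀ne : y₀ ≠ 0 := fun h0 => hy₀0 (by rw [h0]; rfl)
        have := (mul_eq_zero.mp h3).resolve_right hy₀ne
        exact sub_eq_zero.mp this
      have : h₂ * h₁ ∈ 𝔫 := by rw [hfin]; exact 𝔫.mul_mem_left _ hπ𝔫
      rcases h𝔫.mem_or_mem this with h' | h'
      · exact hh₂ h'
      · exact hh₁𝔫 h'
    subst hk
    rw [pow_zero, one_mul] at hyw
    rw [hyw]
    exact hwO'

end Fermat.Agent.Lib.S33
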