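/-
P-AT-P (S33 programme, private branch), brick **[SEP-ss]** part 6 (helper9): **[I-Σ] assembled**.

`s33k_ss_hinv` : the partition of unity `hinv` for the chart lattices `I(E)`, `I(-E)` of a chart `S` of
the SUBRING `O = ⨅ i, O i` (finitely many discrete valuation rings with common uniformiser `π`), for a
divisor `E` of finite support such that every closed point `𝔫 ∋ π` of the chart is either
* SMOOTH (`𝔫 B_𝔫 = (t, π)`) with (SM2) (no component through `𝔫` is all of `𝔫`), or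
* AVOIDED by `E` (`E Q = 0` at all places `Q` of the chart through `𝔫`) — the nodes.

`s33k_ss_F5` : the dictionary fact (F5) for the charts of a generator `t`, Subring version;
`s33k_ss_hinv_chart1`, `s33k_ss_hinv_chart2` : the same with (F1), (F2), (F3), (F5) discharged.
-/
import Fermat.Agent.Lib.S33.KumPSsLG
import Fermat.Agent.Lib.S34.XDict
import Fermat.Agent.Lib.S18.FDictI

set_option autoImplicit false
set_option linter.unusedSectionVars false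

noncomputable section

namespace Fermat.Agent.Lib.S33

open AlgebraicCurve Fermat.Agent.Lib.FF Fermat.Agent.Lib.S18 Fermat.Agent.Lib.S34 IsLocalRing

variable {L₀ 𝓕 : Type*} [Field L₀] [Field 𝓕] [Algebra L₀ 𝓕]

/-- **[I-Σ]**: `hinv` for a divisor avoiding the non-smooth closed points of the special fibre. -/
theorem s33k_ss_hinv {ι : Type*} [Fintype ι] (O : ι → ValuationSubring 𝓕) (S : Set (Place L₀ 𝓕))
    (π₀ : L₀) (hπ0 : π₀ ≠ 0) (hπO : ∀ i, algebraMap L₀ 𝓕 π₀ ∈ O i)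
    (hUi : ∀ i, ∀ u : 𝓕, u ∈ O i → u ≠ 0 → ∃ (k : ℕ) (w : 𝓕), w ∈ O i ∧ w⁻¹ ∈ O i ∧
      u = algebraMap L₀ 𝓕 π₀ ^ k * w)
    (E : Place L₀ 𝓕 → ℤ) (hE : {Q | Q ∈ S ∧ E Q ≠ 0}.Finite)
    (F1 : ∀ Q ∈ S, ∃ u : s34x_ring (s34x_infRing O) S, Q.ord (u : 𝓕) = 1)
    (F2 : ∀ Q ∈ S, ∀ Q' ∈ S, Q' ≠ Q →
      ∃ y : s34x_ring (s34x_infRing O) S, 0 < Q.ord (y : 𝓕) ∧ Q'.ord (y : 𝓕) = 0)
    (F3 : ∀ y : 𝓕, y ≠ 0 → {Q | Q ∈ S ∧ Q.ord y ≠ 0}.Finite)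
    (F5 : ∀ Q ∈ S, ∀ y : s34x_ring (s34x_infRing O) S, (y : 𝓕) ≠ 0 → Q.ord (y : 𝓕) = 0 →
      ∃ (k : ℕ) (p c : s34x_ring (s34x_infRing O) S), s18i_van Q (p : 𝓕) ∧
        s34x_const (s34x_infRing O) S π₀ ((s34x_mem_infRing O _).mpr hπO) ^ k = p + c * y)
    [IsNoetherianRing (s34x_ring (s34x_infRing O) S)]
    (hpt : ∀ (𝔫 : Ideal (s34x_ring (s34x_infRing O) S)) [𝔫.IsMaximal],
      s34x_const (s34x_infRing O) S π₀ ((s34x_mem_infRing O _).mpr hπO) ∈ 𝔫 →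
      ((∃ t : s34x_ring (s34x_infRing O) S, maximalIdeal (Localization.AtPrime 𝔫) =
          Ideal.span {algebraMap _ (Localization.AtPrime 𝔫) t,
            algebraMap _ (Localization.AtPrime 𝔫)
              (s34x_const (s34x_infRing O) S π₀ ((s34x_mem_infRing O _).mpr hπO))}) ∧
        ∀ i, s33k_ss_compThrough O S (algebraMap L₀ 𝓕 π₀) 𝔫 i →
          ∃ b ∈ 𝔫, ¬ ∃ y ∈ O i,
            ((b : s34x_ring (s34x_infRing O) S) : 𝓕) = algebraMap L₀ 𝓕 π₀ * y) ∨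
      (∀ Q ∈ S, s34f_through (s34x_infRing O) S 𝔫 Q → E Q = 0)) :
    ∃ (s : Finset ℕ) (a b : ℕ → 𝓕), (∀ j ∈ s, a j ∈ s34x_latSet (s34x_infRing O) S E) ∧
      (∀ j ∈ s, b j ∈ s34x_latSet (s34x_infRing O) S (fun Q => - E Q)) ∧
      ∑ j ∈ s, a j * b j = 1 := by
  refine s33k_ss_hinv_of_local _ S E fun 𝔫 h𝔫 => ?_
  have := h𝔫
  have h𝔫p : 𝔫.IsPrime := h𝔫.isPrime
  have hU : ∀ i, ∀ y : 𝓕, ∃ k : ℕ, algebraMap L₀ 𝓕 π₀ ^ k * y ∈ O i := fun i =>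
    s18f_hO_of_U (O i) π₀ (hUi i)
  refine s33k_ss_local O S E hE F3 (algebraMap L₀ 𝓕 π₀) hπO hU 𝔫 fun Q hQS hEQ hQ => ?_
  by_cases hπ𝔫 : s34x_const (s34x_infRing O) S π₀ ((s34x_mem_infRing O _).mpr hπO) ∈ 𝔫
  · rcases hpt 𝔫 hπ𝔫 with ⟨⟨t, hm⟩, hSM2⟩ | havoid
    · exact s33k_ss_LG_smooth O S π₀ hπ0 hπO hUi F1 F2 𝔫 hπ𝔫 t hm hSM2 Q hQS hQ
    · exact absurd (havoid Q hQS hQ) hEQ
  · exact s33k_ss_LG_generic O S π₀ hπO F1 F2 F5 𝔫 hπ𝔫 Q hQS hQ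

/-- every function lies in `⨅ i, O i` after multiplication by a power of `π`. -/
theorem s33k_ss_hO_inf {ι : Type*} [Fintype ι] (O : ι → ValuationSubring 𝓕) (π : 𝓕)
    (hπO : ∀ i, π ∈ O i) (hU : ∀ i, ∀ y : 𝓕, ∃ k : ℕ, π ^ k * y ∈ O i) :
    ∀ f : 𝓕, ∃ k : ℕ, π ^ k * f ∈ s34x_infRing O := by
  classical
  intro f
  choose k hk using fun i => hU i f
  refine ⟨∑ i, k i, (s34x_mem_infRing O _).mpr fun i => ?_⟩
  have hle : k i ≤ ∑ j, k j := Finset.single_le_sum (fun _ _ => Nat.zero_le _) (Finset.mem_univ i)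
  obtain ⟨d, hd⟩ := Nat.exists_eq_add_of_le hle
  rw [hd, add_comm, pow_add, mul_assoc]
  exact (O i).mul_mem _ _ ((O i).pow_mem (hπO i) d) (hk i)

variable [CharZero L₀]

/-- **(F5)** for chart 1 of a generator `t`, Subring version: if `y ∈ B` is a unit at the place `Q`
of the chart, a power of `π` lies in `𝔭_Q + y B`. -/
theorem s33k_ss_F5 (t : 𝓕) [FFGen L₀ t] (O : Subring 𝓕) (π₀ : L₀) (hπ0 : π₀ ≠ 0)
    (hπO : algebraMap L₀ 𝓕 π₀ ∈ O) (hO : ∀ f : 𝓕, ∃ k : ℕ, algebraMap L₀ 𝓕 π₀ ^ k * f ∈ O) :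
    ∀ Q ∈ s18_chart1 (L₀ := L₀) t, ∀ y : s34x_ring O (s18_chart1 (L₀ := L₀) t), (y : 𝓕) ≠ 0 →
      Q.ord (y : 𝓕) = 0 → ∃ (k : ℕ) (p c : s34x_ring O (s18_chart1 (L₀ := L₀) t)),
        s18i_van Q (p : 𝓕) ∧ s34x_const O (s18_chart1 (L₀ := L₀) t) π₀ hπO ^ k = p + c * y := by
  intro Q hQ y hy0 hy
  obtain ⟨k, p, b, hp, hpv, hb, hkpb⟩ := s18f_exists_pow_mem t (⊤ : ValuationSubring 𝓕) π₀ hπ0
    (ValuationSubring.mem_top _) (fun _ => ⟨0, ValuationSubring.mem_top _⟩) Q hQ (y : 𝓕)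
    ⟨ValuationSubring.mem_top _, y.2.2⟩ hy0 hy
  obtain ⟨k1, hk1⟩ := hO p
  obtain ⟨k2, hk2⟩ := hO b
  have hpowO : ∀ n : ℕ, algebraMap L₀ 𝓕 π₀ ^ n ∈ O := fun n => O.pow_mem hπO n
  have hp1 : algebraMap L₀ 𝓕 π₀ ^ (k1 + k2) * p ∈ O := by
    rw [add_comm, pow_add, mul_assoc]
    exact O.mul_mem (hpowO k2) hk1
  have hb1 : algebraMap L₀ 𝓕 π₀ ^ (k1 + k2) * b ∈ O := by
    rw [pow_add, mul_assoc]
    exact O.mul_mem (hpowO k1) hk2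
  have hreg : ∀ z : 𝓕, (∀ Q' ∈ s18_chart1 (L₀ := L₀) t, z ∈ Q'.toValuationSubring) →
      ∀ Q' ∈ s18_chart1 (L₀ := L₀) t,
        algebraMap L₀ 𝓕 π₀ ^ (k1 + k2) * z ∈ Q'.toValuationSubring := by
    intro z hz
    rw [← map_pow]
    exact s18f_const_mul_regular _ hz
  refine ⟨k + (k1 + k2), ⟨algebraMap L₀ 𝓕 π₀ ^ (k1 + k2) * p, hp1, hreg p hp.2⟩,
    ⟨algebraMap L₀ 𝓕 π₀ ^ (k1 + k2) * b, hb1, hreg b hb.2⟩, ?_, ?_⟩
  · show s18i_van Q (algebraMap L₀ 𝓕 π₀ ^ (k1 + k2) * p)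
    by_cases hp0 : p = 0
    · left
      rw [hp0, mul_zero]
    · right
      rw [s18f_ord_pow_mul π₀ hπ0 Q _ hp0]
      exact hpv.resolve_left hp0
  · apply Subtype.ext
    push_cast
    show algebraMap L₀ 𝓕 π₀ ^ (k + (k1 + k2)) =
      algebraMap L₀ 𝓕 π₀ ^ (k1 + k2) * p + algebraMap L₀ 𝓕 π₀ ^ (k1 + k2) * b * (y : 𝓕)
    rw [pow_add, hkpb]
    ring

/-- **[I-Σ] on chart 1** of a generator `t`, the dictionary facts discharged. -/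
theorem s33k_ss_hinv_chart1 (t : 𝓕) [FFGen L₀ t] {ι : Type*} [Fintype ι]
    (O : ι → ValuationSubring 𝓕)
    (π₀ : L₀) (hπ0 : π₀ ≠ 0) (hπO : ∀ i, algebraMap L₀ 𝓕 π₀ ∈ O i)
    (hUi : ∀ i, ∀ u : 𝓕, u ∈ O i → u ≠ 0 → ∃ (k : ℕ) (w : 𝓕), w ∈ O i ∧ w⁻¹ ∈ O i ∧
      u = algebraMap L₀ 𝓕 π₀ ^ k * w)
    (E : Place L₀ 𝓕 → ℤ) (hE : {Q | Q ∈ s18_chart1 (L₀ := L₀) t ∧ E Q ≠ 0}.Finite)
    [IsNoetherianRing (s34x_ring (s34x_infRing O) (s18_chart1 (L₀ := L₀) t))]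
    (hpt : ∀ (𝔫 : Ideal (s34x_ring (s34x_infRing O) (s18_chart1 (L₀ := L₀) t))) [𝔫.IsMaximal],
      s34x_const (s34x_infRing O) (s18_chart1 (L₀ := L₀) t) π₀
          ((s34x_mem_infRing O _).mpr hπO) ∈ 𝔫 →
      ((∃ u : s34x_ring (s34x_infRing O) (s18_chart1 (L₀ := L₀) t),
          maximalIdeal (Localization.AtPrime 𝔫) =
          Ideal.span {algebraMap _ (Localization.AtPrime 𝔫) u,
            algebraMap _ (Localization.AtPrime 𝔫)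
              (s34x_const (s34x_infRing O) (s18_chart1 (L₀ := L₀) t) π₀
                ((s34x_mem_infRing O _).mpr hπO))}) ∧
        ∀ i, s33k_ss_compThrough O (s18_chart1 (L₀ := L₀) t) (algebraMap L₀ 𝓕 π₀) 𝔫 i →
          ∃ b ∈ 𝔫, ¬ ∃ y ∈ O i,
            ((b : s34x_ring (s34x_infRing O) (s18_chart1 (L₀ := L₀) t)) : 𝓕) =
              algebraMap L₀ 𝓕 π₀ * y) ∨
      (∀ Q ∈ s18_chart1 (L₀ := L₀) t,
        s34f_through (s34x_infRing O) (s18_chart1 (L₀ := L₀) t) 𝔫 Q → E Q = 0)) :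
    ∃ (s : Finset ℕ) (a b : ℕ → 𝓕),
      (∀ j ∈ s, a j ∈ s34x_latSet (s34x_infRing O) (s18_chart1 (L₀ := L₀) t) E) ∧
      (∀ j ∈ s, b j ∈ s34x_latSet (s34x_infRing O) (s18_chart1 (L₀ := L₀) t) (fun Q => - E Q)) ∧
      ∑ j ∈ s, a j * b j = 1 := by
  have hU : ∀ i, ∀ y : 𝓕, ∃ k : ℕ, algebraMap L₀ 𝓕 π₀ ^ k * y ∈ O i := fun i =>
    s18f_hO_of_U (O i) π₀ (hUi i)
  have hO := s33k_ss_hO_inf O (algebraMap L₀ 𝓕 π₀) hπO hU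
  obtain ⟨F1, F2, F3⟩ := s34x_dict1 t (s34x_infRing O) π₀ hπ0 hO
  exact s33k_ss_hinv O _ π₀ hπ0 hπO hUi E hE F1 F2 F3
    (s33k_ss_F5 t (s34x_infRing O) π₀ hπ0 ((s34x_mem_infRing O _).mpr hπO) hO) hpt

/-- **[I-Σ] on chart 2** of a generator `t` (= chart 1 of `t⁻¹`). -/
theorem s33k_ss_hinv_chart2 (t : 𝓕) [FFGen L₀ t] {ι : Type*} [Fintype ι]
    (O : ι → ValuationSubring 𝓕)
    (π₀ : L₀) (hπ0 : π₀ ≠ 0) (hπO : ∀ i, algebraMap L₀ 𝓕 π₀ ∈ O i)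
    (hUi : ∀ i, ∀ u : 𝓕, u ∈ O i → u ≠ 0 → ∃ (k : ℕ) (w : 𝓕), w ∈ O i ∧ w⁻¹ ∈ O i ∧
      u = algebraMap L₀ 𝓕 π₀ ^ k * w)
    (E : Place L₀ 𝓕 → ℤ) (hE : {Q | Q ∈ s18_chart2 (L₀ := L₀) t ∧ E Q ≠ 0}.Finite)
    [IsNoetherianRing (s34x_ring (s34x_infRing O) (s18_chart2 (L₀ := L₀) t))]
    (hpt : ∀ (𝔫 : Ideal (s34x_ring (s34x_infRing O) (s18_chart2 (L₀ := L₀) t))) [𝔫.IsMaximal],
      s34x_const (s34x_infRing O) (s18_chart2 (L₀ := L₀) t) π₀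
          ((s34x_mem_infRing O _).mpr hπO) ∈ 𝔫 →
      ((∃ u : s34x_ring (s34x_infRing O) (s18_chart2 (L₀ := L₀) t),
          maximalIdeal (Localization.AtPrime 𝔫) =
          Ideal.span {algebraMap _ (Localization.AtPrime 𝔫) u,
            algebraMap _ (Localization.AtPrime 𝔫)
              (s34x_const (s34x_infRing O) (s18_chart2 (L₀ := L₀) t) π₀
                ((s34x_mem_infRing O _).mpr hπO))}) ∧
        ∀ i, s33k_ss_compThrough O (s18_chart2 (L₀ := L₀) t) (algebraMap L₀ 𝓕 π₀) 𝔫 i →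
          ∃ b ∈ 𝔫, ¬ ∃ y ∈ O i,
            ((b : s34x_ring (s34x_infRing O) (s18_chart2 (L₀ := L₀) t)) : 𝓕) =
              algebraMap L₀ 𝓕 π₀ * y) ∨
      (∀ Q ∈ s18_chart2 (L₀ := L₀) t,
        s34f_through (s34x_infRing O) (s18_chart2 (L₀ := L₀) t) 𝔫 Q → E Q = 0)) :
    ∃ (s : Finset ℕ) (a b : ℕ → 𝓕),
      (∀ j ∈ s, a j ∈ s34x_latSet (s34x_infRing O) (s18_chart2 (L₀ := L₀) t) E) ∧
      (∀ j ∈ s, b j ∈ s34x_latSet (s34x_infRing O) (s18_chart2 (L₀ := L₀) t) (fun Q => - E Q)) ∧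
      ∑ j ∈ s, a j * b j = 1 := by
  have hN : IsNoetherianRing (s34x_ring (s34x_infRing O) (s18_chart1 (L₀ := L₀) t⁻¹)) :=
    ‹IsNoetherianRing (s34x_ring (s34x_infRing O) (s18_chart2 (L₀ := L₀) t))›
  exact s33k_ss_hinv_chart1 t⁻¹ O π₀ hπ0 hπO hUi E hE hpt

end Fermat.Agent.Lib.S33
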