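/-
P-AT-P (S33 programme, private branch), brick **[SEP-ss]** part 10 (helper9): **(R1)** for the model — the
two reductions of the chart ring `B = s34x_ring O₂ (chart1 (α w))` are integral over `κ[w̄]`.

`B` is integral over `A[α w]` (`s34x_isIntegralElem_of_mem_ring`, from (α) at level `M q`); the reductions
of the coefficients are `r₁ (s(α w)) = s̄(w̄)` and `r₂ (s(α w)) = s̄(Φ w̄) = s̄(w̄ ^ q)` (`w̄` has coefficients
in the prime field).
-/
import Fermat.Agent.Lib.S33.KumPSsModel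
import Fermat.Agent.Lib.S34.XFin
import Fermat.Agent.Lib.S34.CChart

set_option autoImplicit false
set_option linter.unusedSectionVars false
set_option linter.style.haveILetI false

noncomputable section

namespace Fermat.Agent.Lib.S33

open ModularCurve AlgebraicCurve Polynomial IntermediateField Fermat.Agent.Lib.FF
  Fermat.Agent.Lib.S18 Fermat.Agent.Lib.S37 Fermat.Agent.Lib.S34

local notation "Kb" => AlgebraicClosure ℚ

section

variable {K₀ : Type} [Field K₀] [CharZero K₀] [Algebra ℚ K₀] {κ : Type} [Field κ]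
  (G : s18g_GaussData K₀ κ) (φ : K₀ →+* Kb) (M q : ℕ) [NeZero M] [NeZero q]
  (hq : q.Prime) (hqM : ¬ q ∣ M) [CharP κ q] [PerfectField κ] [PerfectRing κ q]

local notation "𝓕M" => laurentBaseChange K₀ (modularFunctionFieldFull M)
local notation "𝓕N" => laurentBaseChange K₀ (modularFunctionFieldFull (M * q))
local notation "hFM" => (fun (f : LaurentSeries K₀)
  (hf : f ∈ laurentBaseChange K₀ (modularFunctionFieldFull M)) => s18g_baseChange_mem_Frac G M hf)

include hq hqM in
/-- **(R1)**: both reductions of the chart ring of `α w` are integral over `κ[w̄]`. -/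
theorem s33k_ss_model_R1 [IsDiscreteValuationRing G.A]
    (hdeg : s34m_HDeg K₀ M q) (hT : s18g_HT κ M)
    (hdegM : s18g_HDeg K₀ M) (w : ↥𝓕M) (hwV : w ∈ s18g_V G 𝓕M hFM)
    (hwtw : ∀ τ : κ ≃+* κ, ModularCurve.coeffMap (τ : κ →+* κ)
      ((s18g_redF G M hFM hT hdegM ⟨w, hwV⟩ : ↥(modularFunctionFieldFullC κ M)) : LaurentSeries κ) =
      ((s18g_redF G M hFM hT hdegM ⟨w, hwV⟩ : ↥(modularFunctionFieldFullC κ M)) : LaurentSeries κ))
    [FFGen K₀ (heckeAlphaBar K₀ M q w)]
    (hαN : ∀ y ∈ s34x_infRing (s34m_VV G φ M q hq hqM), ∃ s : G.A[X], s.map G.π ≠ 0 ∧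
      (s18b_ev G 𝓕N (heckeAlphaBar K₀ M q w)).IsIntegralElem
        (s18b_ev G 𝓕N (heckeAlphaBar K₀ M q w) s * y)) :
    letI := s18f_algF G M hT hdegM w hwV
    (∀ b : s34x_ring (s34x_infRing (s34m_VV G φ M q hq hqM))
        (s18_chart1 (L₀ := K₀) (heckeAlphaBar K₀ M q w)),
      IsIntegral κ[X] (⟨s34df_r1 G φ M q hq hqM _ b,
        s34df_hF₁ G φ M q hq hqM _ hdeg hT hdegM b⟩ : ↥(modularFunctionFieldFullC κ M))) ∧
    (∀ b : s34x_ring (s34x_infRing (s34m_VV G φ M q hq hqM))
        (s18_chart1 (L₀ := K₀) (heckeAlphaBar K₀ M q w)),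
      IsIntegral κ[X] (⟨s34df_r2 G φ M q hq hqM _ b,
        s34df_hF₂ G φ M q hq hqM _ hdeg hT hdegM b⟩ : ↥(modularFunctionFieldFullC κ M))) := by
  haveI : Fact q.Prime := ⟨hq⟩
  letI algF := s18f_algF G M hT hdegM w hwV
  have hA : ∀ p : κ[X], algebraMap κ[X] ↥(modularFunctionFieldFullC κ M) p =
      Polynomial.aeval (s18g_redF G M hFM hT hdegM ⟨w, hwV⟩) p :=
    s18f_algF_apply G M hT hdegM w hwV
  set wN : ↥𝓕N := heckeAlphaBar K₀ M q w with hwN
  set S : Set (Place K₀ (s34m_F K₀ (M * q))) := s18_chart1 (L₀ := K₀) wN with hS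
  have hwV' : w ∈ s34m_Vinf G M := hwV
  -- `wN ∈ B`
  have hwNO : wN ∈ s34x_infRing (s34m_VV G φ M q hq hqM) :=
    (s34df_mem_O_iff G φ M q hq hqM _).mpr
      ⟨s34m_alpha_mem_Vinf G M q hwV', s34m_alpha_mem_Vzero G φ M q hq hqM hwV'⟩
  have hwNB : wN ∈ s34x_ring (s34x_infRing (s34m_VV G φ M q hq hqM)) S :=
    ⟨hwNO, fun Q hQ => hQ⟩
  -- the constants
  have hcB : ∀ a : G.A, algebraMap K₀ ↥𝓕N (a : K₀) ∈
      s34x_ring (s34x_infRing (s34m_VV G φ M q hq hqM)) S := fun a =>
    ⟨(s34x_mem_infRing _ _).mpr fun i => s34c_const_mem_VV G φ M q hq hqM i a,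
      fun Q _ => Q.algebraMap_mem' _⟩
  let c : G.A →+* s34x_ring (s34x_infRing (s34m_VV G φ M q hq hqM)) S :=
    ((algebraMap K₀ ↥𝓕N).comp (algebraMap G.A K₀)).codRestrict
      (s34x_ring (s34x_infRing (s34m_VV G φ M q hq hqM)) S) (fun a => hcB a)
  let wB : s34x_ring (s34x_infRing (s34m_VV G φ M q hq hqM)) S := ⟨wN, hwNB⟩
  let evB : G.A[X] →+* s34x_ring (s34x_infRing (s34m_VV G φ M q hq hqM)) S :=
    Polynomial.eval₂RingHom c wB
  have hcomp : ((s34x_ring (s34x_infRing (s34m_VV G φ M q hq hqM)) S).subtype).comp evB =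
      s18b_ev G 𝓕N wN := by
    refine Polynomial.ringHom_ext (fun a => ?_) ?_
    · show ((Polynomial.eval₂ c wB (Polynomial.C a) :
        s34x_ring (s34x_infRing (s34m_VV G φ M q hq hqM)) S) : ↥𝓕N) = _
      rw [Polynomial.eval₂_C, s18b_evA_C]
      rfl
    · show ((Polynomial.eval₂ c wB Polynomial.X :
        s34x_ring (s34x_infRing (s34m_VV G φ M q hq hqM)) S) : ↥𝓕N) = _
      rw [Polynomial.eval₂_X, s18b_evA_X]
  -- integrality of the chart ring over `A[wN]`, inside `B`
  have hint : ∀ b : s34x_ring (s34x_infRing (s34m_VV G φ M q hq hqM)) S,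
      ∃ P : (G.A[X])[X], P.Monic ∧ Polynomial.eval₂ evB b P = 0 := by
    intro b
    obtain ⟨P, hPm, hP⟩ := s34x_isIntegralElem_of_mem_ring G 𝓕N wN (s34m_VV G φ M q hq hqM)
      hαN (b : ↥𝓕N) b.2
    refine ⟨P, hPm, ?_⟩
    apply Subtype.ext
    have h := Polynomial.hom_eval₂ P evB
      ((s34x_ring (s34x_infRing (s34m_VV G φ M q hq hqM)) S).subtype) b
    rw [hcomp] at h
    show ((s34x_ring (s34x_infRing (s34m_VV G φ M q hq hqM)) S).subtype)
      (Polynomial.eval₂ evB b P) = 0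
    rw [h]
    exact hP
  -- the two reductions with values in `F̄_M`
  set r₁ : s34x_ring (s34x_infRing (s34m_VV G φ M q hq hqM)) S →+*
      ↥(modularFunctionFieldFullC κ M) :=
    (s34df_r1 G φ M q hq hqM S).codRestrict (modularFunctionFieldFullC κ M)
      (fun b => s34df_hF₁ G φ M q hq hqM S hdeg hT hdegM b) with hr₁
  set r₂ : s34x_ring (s34x_infRing (s34m_VV G φ M q hq hqM)) S →+*
      ↥(modularFunctionFieldFullC κ M) :=
    (s34df_r2 G φ M q hq hqM S).codRestrict (modularFunctionFieldFullC κ M)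
      (fun b => s34df_hF₂ G φ M q hq hqM S hdeg hT hdegM b) with hr₂
  set wb : ↥(modularFunctionFieldFullC κ M) := s18g_redF G M hFM hT hdegM ⟨w, hwV⟩ with hwb
  -- the reductions of the constants
  have hconstI : ∀ a : G.A, s34df_r1 G φ M q hq hqM S (c a) = HahnSeries.C (G.π a) := by
    intro a
    rw [s34df_r1_apply]
    exact s18g_redV_constV G 𝓕N (s34m_hF G (M * q)) a
  have hconst0 : ∀ a : G.A, s34df_r2 G φ M q hq hqM S (c a) = HahnSeries.C (G.π a) := by
    intro a
    rw [s34df_r2_apply, s34m_redZero_apply]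
    have e : (⟨s34m_al φ M q hq hqM (algebraMap K₀ ↥𝓕N (a : K₀)),
        (s34c_const_mem_VV G φ M q hq hqM false a)⟩ : s34m_Vinf G (M * q)) =
        s18g_constV G 𝓕N (s34m_hF G (M * q)) a :=
      Subtype.ext ((s34m_al φ M q hq hqM).commutes _)
    exact (congrArg (s34m_redInf G (M * q)) e).trans
      (s18g_redV_constV G 𝓕N (s34m_hF G (M * q)) a)
  have hCcoe : ∀ a : G.A, ((algebraMap κ ↥(modularFunctionFieldFullC κ M) (G.π a) :
      ↥(modularFunctionFieldFullC κ M)) : LaurentSeries κ) = HahnSeries.C (G.π a) := by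
    intro a
    show algebraMap κ (LaurentSeries κ) (G.π a) = HahnSeries.C (G.π a)
    rw [algebraMap_laurentSeries_eq_single, HahnSeries.C_apply]
  -- the reductions of `wN`
  have hwI : s34df_r1 G φ M q hq hqM S wB = (wb : LaurentSeries κ) := by
    rw [s34df_r1_eq G φ M q hq hqM S wB _ (s34m_alpha_mem_Vinf G M q hwV') rfl,
      s34m_redInf_alpha G M q ⟨w, hwV'⟩]
    rfl
  have hw0 : s34df_r2 G φ M q hq hqM S wB = ((wb ^ q : ↥(modularFunctionFieldFullC κ M)) :
      LaurentSeries κ) := by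
    rw [s34df_r2_eq G φ M q hq hqM S wB _ (s34m_alpha_mem_Vzero G φ M q hq hqM hwV') rfl,
      s34m_redZero_alpha G φ M q hq hqM ⟨w, hwV'⟩, s37e_qExpand_eq_pow q]
    have h1 : s34m_redInf G M ⟨w, hwV'⟩ = (wb : LaurentSeries κ) := rfl
    rw [h1, hwtw]
    rfl
  constructor
  · intro b
    obtain ⟨P, hPm, hP⟩ := hint b
    have h1 : Polynomial.eval₂ (r₁.comp evB) (r₁ b) P = 0 := by
      rw [← Polynomial.hom_eval₂, hP, map_zero]
    have hψ : r₁.comp evB = (algebraMap κ[X] ↥(modularFunctionFieldFullC κ M)).comp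
        (Polynomial.mapRingHom G.π) := by
      refine Polynomial.ringHom_ext (fun a => ?_) ?_
      · apply Subtype.ext
        show s34df_r1 G φ M q hq hqM S (Polynomial.eval₂ c wB (Polynomial.C a)) = _
        rw [Polynomial.eval₂_C, hconstI, RingHom.comp_apply, Polynomial.coe_mapRingHom,
          Polynomial.map_C, hA, Polynomial.aeval_C, hCcoe]
      · apply Subtype.ext
        show s34df_r1 G φ M q hq hqM S (Polynomial.eval₂ c wB Polynomial.X) = _
        rw [Polynomial.eval₂_X, hwI, RingHom.comp_apply, Polynomial.coe_mapRingHom,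
          Polynomial.map_X, hA, Polynomial.aeval_X]
    refine ⟨P.map (Polynomial.mapRingHom G.π), hPm.map _, ?_⟩
    rw [Polynomial.eval₂_map, ← hψ]
    exact h1
  · intro b
    obtain ⟨P, hPm, hP⟩ := hint b
    have h1 : Polynomial.eval₂ (r₂.comp evB) (r₂ b) P = 0 := by
      rw [← Polynomial.hom_eval₂, hP, map_zero]
    set θ : G.A[X] →+* κ[X] :=
      ((Polynomial.expand κ q : κ[X] →ₐ[κ] κ[X]) : κ[X] →+* κ[X]).comp
        (Polynomial.mapRingHom G.π) with hθ
    have hψ : r₂.comp evB = (algebraMap κ[X] ↥(modularFunctionFieldFullC κ M)).comp θ := by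
      refine Polynomial.ringHom_ext (fun a => ?_) ?_
      · apply Subtype.ext
        show s34df_r2 G φ M q hq hqM S (Polynomial.eval₂ c wB (Polynomial.C a)) = _
        rw [Polynomial.eval₂_C, hconst0, RingHom.comp_apply, hθ, RingHom.comp_apply,
          Polynomial.coe_mapRingHom, Polynomial.map_C]
        show _ = ((algebraMap κ[X] ↥(modularFunctionFieldFullC κ M)
          (Polynomial.expand κ q (Polynomial.C (G.π a))) : ↥(modularFunctionFieldFullC κ M)) :
            LaurentSeries κ)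
        rw [Polynomial.expand_C, hA, Polynomial.aeval_C, hCcoe]
      · apply Subtype.ext
        show s34df_r2 G φ M q hq hqM S (Polynomial.eval₂ c wB Polynomial.X) = _
        rw [Polynomial.eval₂_X, hw0, RingHom.comp_apply, hθ, RingHom.comp_apply,
          Polynomial.coe_mapRingHom, Polynomial.map_X]
        show _ = ((algebraMap κ[X] ↥(modularFunctionFieldFullC κ M)
          (Polynomial.expand κ q Polynomial.X) : ↥(modularFunctionFieldFullC κ M)) :
            LaurentSeries κ)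
        rw [Polynomial.expand_X, hA, map_pow, Polynomial.aeval_X]
    refine ⟨P.map θ, hPm.map _, ?_⟩
    rw [Polynomial.eval₂_map, ← hψ]
    exact h1

end

end Fermat.Agent.Lib.S33
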