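/-
P-AT-P (S33 programme, private branch), brick **[SEP-ss]** part 11 (helper9): [I-Σ] and [S-Σ] ASSEMBLED
on one chart `S = chart1 (α w)` of the concrete two-component model of `Lib/S34`, under the hypotheses
of helper8's `s34df_elem_of_hmain` and (α) for `α w` at level `M q`.

* `s33k_ss_hUi_VV`        : `V_∞`, `V_0` are discrete valuation rings with uniformiser `ϖ`;
* `s33k_ss_model_chart`   : for every divisor `E` of finite support on the chart which vanishes at the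
  places through the CROSSING POINTS (maximal ideals `𝔫 ∋ ϖ` through which both components pass):
  `hinv`; and for every set `N` containing the places of the chart through the crossing points:
  `hclosed` — verbatim the hypotheses `hinv_i`, `hclosed_i` of `s33k_ss_superCritical`.
-/
import Fermat.Agent.Lib.S33.KumPSsInt
import Fermat.Agent.Lib.S33.KumPSsHinv
import Fermat.Agent.Lib.S33.KumPSsClosed
import Fermat.Agent.Lib.S34.XChartJ
import Fermat.Agent.Lib.S34.FFinal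

set_option autoImplicit false
set_option linter.unusedSectionVars false
set_option linter.style.haveILetI false

noncomputable section

namespace Fermat.Agent.Lib.S33

open ModularCurve AlgebraicCurve Polynomial IntermediateField Fermat.Agent.Lib.FF
  Fermat.Agent.Lib.S18 Fermat.Agent.Lib.S37 Fermat.Agent.Lib.S34 IsLocalRing

local notation "Kb" => AlgebraicClosure ℚ

section DVR

variable {K₀ : Type*} [Field K₀] [Algebra ℚ K₀] {κ : Type*} [Field κ] (G : s18g_GaussData K₀ κ)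
variable (φ : K₀ →+* Kb) (M q : ℕ) [NeZero M] [NeZero q] (hq : q.Prime) (hqM : ¬ q ∣ M)

/-- `V_∞` and `V_0` are discrete valuation rings with uniformiser `ϖ` (the hypothesis `hUi`). -/
theorem s33k_ss_hUi_VV (i : Bool) (u : s34m_F K₀ (M * q)) (hu : u ∈ s34m_VV G φ M q hq hqM i)
    (hu0 : u ≠ 0) :
    ∃ (k : ℕ) (w : s34m_F K₀ (M * q)), w ∈ s34m_VV G φ M q hq hqM i ∧
      w⁻¹ ∈ s34m_VV G φ M q hq hqM i ∧
      u = algebraMap K₀ (s34m_F K₀ (M * q)) ((G.ϖ : G.A) : K₀) ^ k * w := by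
  obtain ⟨n, v, hv, hv', e⟩ := s34m_exists_zpow_VV G φ M q hq hqM i u hu0
  have hϖ : algebraMap K₀ (s34m_F K₀ (M * q)) ((G.ϖ : G.A) : K₀) = s34m_unif G (M * q) := rfl
  have hϖ0 : s34m_unif G (M * q) ≠ 0 := s34m_unif_ne_zero G (M * q)
  have hϖV := s34m_unif_mem_VV G φ M q hq hqM i
  rcases le_or_gt 0 n with hn | hn
  · obtain ⟨k, rfl⟩ := Int.eq_ofNat_of_zero_le hn
    exact ⟨k, v, hv, hv', by rw [hϖ, e, zpow_natCast]⟩
  · exfalso
    obtain ⟨k, hk⟩ := Int.exists_eq_neg_ofNat hn.le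
    have hk1 : 1 ≤ k := by
      rcases Nat.eq_zero_or_pos k with h | h
      · rw [h] at hk; simp at hk; omega
      · exact h
    obtain ⟨k', rfl⟩ := Nat.exists_eq_add_of_le hk1
    apply s34f_unif_not_unit_VV G φ M q hq hqM i
    refine ⟨s34m_unif G (M * q) ^ k' * (u * v⁻¹), (s34m_VV G φ M q hq hqM i).mul_mem _ _
      ((s34m_VV G φ M q hq hqM i).pow_mem hϖV _)
      ((s34m_VV G φ M q hq hqM i).mul_mem _ _ hu hv'), ?_⟩
    have hv0 : v ≠ 0 := by
      rintro rfl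
      rw [mul_zero] at e
      exact hu0 e
    rw [hϖ, e, hk, zpow_neg, zpow_natCast]
    field_simp
    ring

end DVR

section Chart

variable {K₀ : Type} [Field K₀] [CharZero K₀] [Algebra ℚ K₀] {κ : Type} [Field κ]
  (G : s18g_GaussData K₀ κ) (φ : K₀ →+* Kb) (M q : ℕ) [NeZero M] [NeZero q]
  (hq : q.Prime) (hqM : ¬ q ∣ M) [CharP κ q] [PerfectField κ] [PerfectRing κ q]

local notation "𝓕M" => laurentBaseChange K₀ (modularFunctionFieldFull M)
local notation "𝓕N" => laurentBaseChange K₀ (modularFunctionFieldFull (M * q))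
local notation "hFM" => (fun (f : LaurentSeries K₀)
  (hf : f ∈ laurentBaseChange K₀ (modularFunctionFieldFull M)) => s18g_baseChange_mem_Frac G M hf)

include hq hqM in
/-- **[I-Σ] and [S-Σ] on the chart of `α w`.** -/
theorem s33k_ss_model_chart [IsDiscreteValuationRing G.A]
    (hdeg : s34m_HDeg K₀ M q) (hT : s18g_HT κ M)
    (hdegM : s18g_HDeg K₀ M) (w : ↥𝓕M) (hwV : w ∈ s18g_V G 𝓕M hFM)
    (hcoord : s37b_Coord κ q
      ((s18g_redF G M hFM hT hdegM ⟨w, hwV⟩ : ↥(modularFunctionFieldFullC κ M)) : LaurentSeries κ))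
    (hwtw : ∀ τ : κ ≃+* κ, ModularCurve.coeffMap (τ : κ →+* κ)
      ((s18g_redF G M hFM hT hdegM ⟨w, hwV⟩ : ↥(modularFunctionFieldFullC κ M)) : LaurentSeries κ) =
      ((s18g_redF G M hFM hT hdegM ⟨w, hwV⟩ : ↥(modularFunctionFieldFullC κ M)) : LaurentSeries κ))
    (hmain : letI := s18f_algF G M hT hdegM w hwV
      ∀ z : ↥(modularFunctionFieldFullC κ M), IsIntegral κ[X] z →
        ∃ (b : ↥𝓕M) (hb : b ∈ s18_ring (L₀ := K₀) (s18g_V G 𝓕M hFM) (s18_chart1 w)),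
          s18g_redF G M hFM hT hdegM ⟨b, hb.1⟩ = z)
    [FFGen K₀ (heckeAlphaBar K₀ M q w)]
    (hαN : ∀ y ∈ s34x_infRing (s34m_VV G φ M q hq hqM), ∃ s : G.A[X], s.map G.π ≠ 0 ∧
      (s18b_ev G 𝓕N (heckeAlphaBar K₀ M q w)).IsIntegralElem
        (s18b_ev G 𝓕N (heckeAlphaBar K₀ M q w) s * y))
    (hαB : ∀ g ∈ (s18_ring (L₀ := K₀) (s34m_Vinf G M) (s18_chart1 w) : Set (s34m_F K₀ M)),
      heckeAlphaBar K₀ M q g ∈ s34x_ring (s34x_infRing (s34m_VV G φ M q hq hqM))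
        (s18_chart1 (L₀ := K₀) (heckeAlphaBar K₀ M q w)))
    (hβB : ∀ g ∈ (s18_ring (L₀ := K₀) (s34m_Vinf G M) (s18_chart1 w) : Set (s34m_F K₀ M)),
      ∃ b' ∈ s34x_ring (s34x_infRing (s34m_VV G φ M q hq hqM))
        (s18_chart1 (L₀ := K₀) (heckeAlphaBar K₀ M q w)),
      ∃ z, z ∈ s34m_Vinf G (M * q) ∧ z ∈ s34m_Vzero G φ M q hq hqM ∧
        b' - heckeBetaBar K₀ M q g = s34m_unif G (M * q) * z) :
    (∀ E : Place K₀ (s34m_F K₀ (M * q)) → ℤ,
      {Q | Q ∈ s18_chart1 (L₀ := K₀) (heckeAlphaBar K₀ M q w) ∧ E Q ≠ 0}.Finite →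
      (∀ 𝔫 : Ideal (s34x_ring (s34x_infRing (s34m_VV G φ M q hq hqM))
          (s18_chart1 (L₀ := K₀) (heckeAlphaBar K₀ M q w))), 𝔫.IsMaximal →
        s33k_ss_compThrough (s34m_VV G φ M q hq hqM) _ (s34m_unif G (M * q)) 𝔫 true →
        s33k_ss_compThrough (s34m_VV G φ M q hq hqM) _ (s34m_unif G (M * q)) 𝔫 false →
        ∀ Q ∈ s18_chart1 (L₀ := K₀) (heckeAlphaBar K₀ M q w),
          s34f_through (s34x_infRing (s34m_VV G φ M q hq hqM)) _ 𝔫 Q → E Q = 0) →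
      ∃ (s : Finset ℕ) (a b : ℕ → s34m_F K₀ (M * q)),
        (∀ j ∈ s, a j ∈ s34x_latSet (s34x_infRing (s34m_VV G φ M q hq hqM))
          (s18_chart1 (L₀ := K₀) (heckeAlphaBar K₀ M q w)) E) ∧
        (∀ j ∈ s, b j ∈ s34x_latSet (s34x_infRing (s34m_VV G φ M q hq hqM))
          (s18_chart1 (L₀ := K₀) (heckeAlphaBar K₀ M q w)) (fun Q => - E Q)) ∧
        ∑ j ∈ s, a j * b j = 1) ∧
    (∀ (N : Set (Place K₀ (s34m_F K₀ (M * q)))) (p : ℕ), 2 ≤ p →
      (∀ 𝔫 : Ideal (s34x_ring (s34x_infRing (s34m_VV G φ M q hq hqM))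
          (s18_chart1 (L₀ := K₀) (heckeAlphaBar K₀ M q w))), 𝔫.IsMaximal →
        s33k_ss_compThrough (s34m_VV G φ M q hq hqM) _ (s34m_unif G (M * q)) 𝔫 true →
        s33k_ss_compThrough (s34m_VV G φ M q hq hqM) _ (s34m_unif G (M * q)) 𝔫 false →
        ∀ Q ∈ s18_chart1 (L₀ := K₀) (heckeAlphaBar K₀ M q w),
          s34f_through (s34x_infRing (s34m_VV G φ M q hq hqM)) _ 𝔫 Q → Q ∈ N) →
      ∀ c ∈ s34x_ring (s34x_infRing (s34m_VV G φ M q hq hqM))
          (s18_chart1 (L₀ := K₀) (heckeAlphaBar K₀ M q w)),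
        ∀ x ∈ s34x_ring (s34x_infRing (s34m_VV G φ M q hq hqM))
          (N ∩ s18_chart1 (L₀ := K₀) (heckeAlphaBar K₀ M q w)),
        ∀ b ∈ s34x_ring (s34x_infRing (s34m_VV G φ M q hq hqM))
          (s18_chart1 (L₀ := K₀) (heckeAlphaBar K₀ M q w)),
        (∃ y ∈ s34x_infRing (s34m_VV G φ M q hq hqM),
          x ^ p + c * x - b = algebraMap K₀ (s34m_F K₀ (M * q)) ((G.ϖ : G.A) : K₀) * y) →
        ∃ b' ∈ s34x_ring (s34x_infRing (s34m_VV G φ M q hq hqM))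
          (s18_chart1 (L₀ := K₀) (heckeAlphaBar K₀ M q w)),
          ∃ y ∈ s34x_infRing (s34m_VV G φ M q hq hqM),
            x - b' = algebraMap K₀ (s34m_F K₀ (M * q)) ((G.ϖ : G.A) : K₀) * y) := by
  set wN : ↥𝓕N := heckeAlphaBar K₀ M q w with hwN
  set S : Set (Place K₀ (s34m_F K₀ (M * q))) := s18_chart1 (L₀ := K₀) wN with hS
  have hwV' : w ∈ s34m_Vinf G M := hwV
  have hϖ0 : ((G.ϖ : G.A) : K₀) ≠ 0 := s18g_unifK_ne_zero G
  have hπO : ∀ i, algebraMap K₀ (s34m_F K₀ (M * q)) ((G.ϖ : G.A) : K₀) ∈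
      s34m_VV G φ M q hq hqM i := fun i => s34m_unif_mem_VV G φ M q hq hqM i
  have hUi := fun i u hu hu0 => s33k_ss_hUi_VV G φ M q hq hqM i u hu hu0
  have hwO : ∀ i, wN ∈ s34m_VV G φ M q hq hqM i := by
    intro i
    cases i
    · exact s34m_alpha_mem_Vzero G φ M q hq hqM hwV'
    · exact s34m_alpha_mem_Vinf G M q hwV'
  obtain ⟨hnoeth, -, -, F3⟩ := s34x_chart1_w G φ M q hq hqM wN hwO hαN
  haveI := hnoeth
  obtain ⟨hR1₁, hR1₂⟩ := s33k_ss_model_R1 G φ M q hq hqM hdeg hT hdegM w hwV hwtw hαN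
  constructor
  · intro E hE hnode
    refine s33k_ss_hinv_chart1 wN (s34m_VV G φ M q hq hqM) ((G.ϖ : G.A) : K₀) hϖ0 hπO hUi E hE ?_
    intro 𝔫 h𝔫 hπ𝔫
    by_cases hboth : s33k_ss_compThrough (s34m_VV G φ M q hq hqM) S (s34m_unif G (M * q)) 𝔫 true ∧
        s33k_ss_compThrough (s34m_VV G φ M q hq hqM) S (s34m_unif G (M * q)) 𝔫 false
    · exact Or.inr (hnode 𝔫 h𝔫 hboth.1 hboth.2)
    · left
      obtain ⟨hsm, hSM2⟩ := s33k_ss_model_smooth G φ M q hq hqM hdeg hT hdegM w hwV hcoord hmain S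
        hαB hβB hR1₁ hR1₂ _ rfl 𝔫 hπ𝔫 hboth
      exact ⟨hsm, fun i _ => hSM2 i⟩
  · intro N p hp hnode
    refine s33k_ss_hclosed (s34m_VV G φ M q hq hqM) S ((G.ϖ : G.A) : K₀) hϖ0 hπO
      (fun i => s34c_hU_VV G φ M q hq hqM i) F3 N p ?_ ?_
    · intro 𝔫 h𝔫 hπ𝔫
      by_cases htrue : s33k_ss_compThrough (s34m_VV G φ M q hq hqM) S (s34m_unif G (M * q)) 𝔫 true
      · by_cases hfalse : s33k_ss_compThrough (s34m_VV G φ M q hq hqM) S
            (s34m_unif G (M * q)) 𝔫 false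
        · exact Or.inl (hnode 𝔫 h𝔫 htrue hfalse)
        · refine Or.inr ⟨true, fun i' hi' => ?_⟩
          cases i'
          · exact hfalse
          · exact absurd rfl hi'
      · refine Or.inr ⟨false, fun i' hi' => ?_⟩
        cases i'
        · exact absurd rfl hi'
        · exact htrue
    · exact s33k_ss_model_lift G φ M q hq hqM hdeg hT hdegM w hwV hcoord hmain S hαB hβB
        hR1₁ hR1₂ p hp

end Chart

end Fermat.Agent.Lib.S33
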