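/-
P-AT-P (S33 programme, private branch), brick **[SEP-ss]** part 1 (helper9): **Theorem X₀ for `p`-th
roots beyond the critical radius over a SUBRING `O`** of the function field whose Jacobson radical
contains `π` (`hJ`; in the application `O = V_∞ ⊓ V_0`, the two-valuation ring of the semistable model
of `X₀(pM')`).  Port of `KumPLat.lean` (S18 vocabulary, `O` a valuation ring) to the S34 X″ vocabulary
(`Lib/S34/XLat`, `XCore`).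

* `s33k_ss_unit_add`, `s33k_ss_sub_mem` : uniqueness of approximate `p`-th roots with loss `e`;
* `s33k_ss_exists_section`, `s33k_ss_chart_approx_of_one`, `s33k_ss_zero`.
-/
import Fermat.Agent.Lib.S33.KumPLat
import Fermat.Agent.Lib.S34.XCore

set_option autoImplicit false

noncomputable section

namespace Fermat.Agent.Lib.S33

open AlgebraicCurve Fermat.Agent.Lib.FF Fermat.Agent.Lib.S18 Fermat.Agent.Lib.S34

section SsField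

variable {𝓕 : Type*} [Field 𝓕]

/-- In a subring `O` with `π` in its Jacobson radical, `u + π s` is a unit when `u` is. -/
theorem s33k_ss_unit_add (O : Subring 𝓕) (π : 𝓕)
    (hJ : ∀ y ∈ O, ∃ u ∈ O, (1 + π * y) * u = 1) (u uinv s : 𝓕) (huinv : uinv ∈ O)
    (huu : u * uinv = 1) (hs : s ∈ O) : ∃ v ∈ O, (u + π * s) * v = 1 := by
  obtain ⟨w, hw, ew⟩ := hJ (uinv * s) (mul_mem huinv hs)
  refine ⟨uinv * w, mul_mem huinv hw, ?_⟩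
  have : (u + π * s) * (uinv * w) = (u * uinv) * ((1 + π * (uinv * s)) * w) +
      (1 - u * uinv) * (π * s * uinv * w) := by ring
  rw [this, ew, huu]
  ring

/-- **Uniqueness of approximate `p`-th roots with loss `e`** (compare `s18x_sub_mem`, where the
exponent is a unit and there is no loss): in a valuation subring `O` with a non-unit `π ≠ 0` such
that `p = π ^ e ε`, `ε ∈ O^×`, and `m₀ (p-1) > e`: if `a₂` is a unit of `O`, `a₁ ≡ a₂ mod π ^ m₀`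
and `a₁ ^ p ≡ a₂ ^ p mod π ^ (n+e)` then `a₁ ≡ a₂ mod π ^ n`. -/
theorem s33k_ss_sub_mem (O : Subring 𝓕) (p : ℕ) (hp : p.Prime) (π ε εinv : 𝓕) (hπO : π ∈ O)
    (hJ : ∀ y ∈ O, ∃ u ∈ O, (1 + π * y) * u = 1) (hπ0 : π ≠ 0) (hεO : ε ∈ O) (hεinv : εinv ∈ O)
    (hεε : ε * εinv = 1) (e m₀ : ℕ) (hm₀ : e < m₀ * (p - 1)) (hpπ : (p : 𝓕) = π ^ e * ε)
    {a₁ a₂ b₂ : 𝓕} (_ha₂ : a₂ ∈ O) (hb₂ : b₂ ∈ O) (hab : a₂ * b₂ = 1)
    (h12 : ∃ y ∈ O, a₁ - a₂ = π ^ m₀ * y)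
    (n : ℕ) (h : ∃ y ∈ O, a₁ ^ p - a₂ ^ p = π ^ (n + e) * y) :
    ∃ y ∈ O, a₁ - a₂ = π ^ n * y := by
  have h2 := hp.two_le
  have hm1 : 1 ≤ m₀ := by
    rcases Nat.eq_zero_or_pos m₀ with h | h
    · subst h; simp at hm₀
    · exact h
  obtain ⟨d, hd, e12⟩ := h12
  obtain ⟨y, hy, e'⟩ := h
  -- `x = (a₁ - a₂) / a₂ ∈ π ^ m₀ O`
  set x : 𝓕 := π ^ m₀ * (d * b₂) with hx
  have hxO : x ∈ O := mul_mem (pow_mem hπO m₀) (mul_mem hd hb₂)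
  have ha₁ : a₁ = a₂ * (1 + x) := by
    have : a₁ = a₂ + π ^ m₀ * d := by rw [← e12]; ring
    rw [this, hx]
    have : a₂ * (1 + π ^ m₀ * (d * b₂)) = a₂ + π ^ m₀ * d * (a₂ * b₂) := by ring
    rw [this, hab, mul_one]
  -- binomial expansion inside `O`
  obtain ⟨r, hr⟩ := s33k_one_add_pow (B := O) p hp ⟨x, hxO⟩
  have hr' : (1 + x) ^ p = 1 + x ^ p + (p : 𝓕) * x + (p : 𝓕) * x ^ 2 * (r : 𝓕) := by
    have := congrArg Subtype.val hr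
    simpa using this
  -- `(1 + x) ^ p - 1 = x π ^ e U`, `U = ε + π s`
  obtain ⟨k, hk⟩ : ∃ k, m₀ * (p - 1) = e + 1 + k := ⟨m₀ * (p - 1) - (e + 1), by omega⟩
  set s : 𝓕 := π ^ k * (d * b₂) ^ (p - 1) + ε * π ^ (m₀ - 1) * (d * b₂) * (r : 𝓕) with hs
  have hsO : s ∈ O := add_mem (mul_mem (pow_mem hπO _) (pow_mem (mul_mem hd hb₂) _))
    (mul_mem (mul_mem (mul_mem hεO (pow_mem hπO _)) (mul_mem hd hb₂)) r.2)
  have hU : (1 + x) ^ p - 1 = x * π ^ e * (ε + π * s) := by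
    rw [hr', hpπ]
    have e1 : x ^ p = x * x ^ (p - 1) := by
      rw [← pow_succ']; congr 1; omega
    have e2 : x ^ (p - 1) = π ^ e * (π * (π ^ k * (d * b₂) ^ (p - 1))) := by
      rw [hx, mul_pow, ← pow_mul, hk]
      have : π ^ (e + 1 + k) = π ^ e * (π * π ^ k) := by
        rw [pow_add, pow_add, pow_one]; ring
      rw [this]; ring
    rw [e1, e2, hs]
    have e3 : π ^ m₀ = π * π ^ (m₀ - 1) := by
      rw [← pow_succ']; congr 1; omega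
    have : x ^ 2 = x * (π * (π ^ (m₀ - 1) * (d * b₂))) := by rw [hx, e3]; ring
    rw [this]
    ring
  obtain ⟨v, hv, eUv⟩ := s33k_ss_unit_add O π hJ ε εinv s hεinv hεε hsO
  have e3 : a₁ ^ p - a₂ ^ p = a₂ ^ p * ((1 + x) ^ p - 1) := by rw [ha₁, mul_pow]; ring
  have e4 : π ^ (n + e) = π ^ n * π ^ e := pow_add π n e
  have hπp : π ^ e ≠ 0 := pow_ne_zero _ hπ0
  have e5 : a₂ ^ p * x * (ε + π * s) = π ^ n * y := by
    have h6 : π ^ e * (a₂ ^ p * x * (ε + π * s)) = π ^ e * (π ^ n * y) := by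
      have : π ^ e * (a₂ ^ p * x * (ε + π * s)) = a₂ ^ p * (x * π ^ e * (ε + π * s)) := by
        ring
      rw [this, ← hU, ← e3, e', e4]; ring
    exact mul_left_cancel₀ hπp h6
  refine ⟨y * v * b₂ ^ (p - 1), mul_mem (mul_mem hy hv) (pow_mem hb₂ _), ?_⟩
  have e6 : a₁ - a₂ = a₂ * x := by rw [ha₁]; ring
  have e7 : a₂ ^ p * b₂ ^ (p - 1) = a₂ := by
    have : a₂ ^ p = a₂ * a₂ ^ (p - 1) := by
      rw [← pow_succ']; congr 1; omega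
    rw [this, mul_assoc, ← mul_pow, hab, one_pow, mul_one]
  calc a₁ - a₂ = a₂ * x := e6
    _ = (a₂ ^ p * b₂ ^ (p - 1)) * x * ((ε + π * s) * v) := by rw [e7, eUv, mul_one]
    _ = (a₂ ^ p * x * (ε + π * s)) * (v * b₂ ^ (p - 1)) := by ring
    _ = π ^ n * (y * v * b₂ ^ (p - 1)) := by rw [e5]; ring

end SsField

section SsCharts

variable {L₀ 𝓕 : Type*} [Field L₀] [Field 𝓕] [Algebra L₀ 𝓕]

/-- **Abstract assembly for `p`-th roots** (compare `s18x_exists_section`): chart-wise approximate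
`p`-th roots `≡ 1 mod π ^ m₀` to every order, plus Čech finiteness, give a nonzero global section. -/
theorem s33k_ss_exists_section (A₀ : ValuationSubring L₀) [IsNoetherianRing A₀]
    (O : Subring 𝓕) (hAO : ∀ a : A₀, algebraMap L₀ 𝓕 (a : L₀) ∈ O)
    (ϖ : A₀) (hϖ0 : (ϖ : L₀) ≠ 0)
    (hJ : ∀ y ∈ O, ∃ u ∈ O, (1 + algebraMap L₀ 𝓕 (ϖ : L₀) * y) * u = 1)
    (p : ℕ) (hp : p.Prime) (ε εinv : A₀) (hε : ε * εinv = 1)
    (e m₀ : ℕ) (hm₀ : e < m₀ * (p - 1))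
    (hpϖ : (p : L₀) = (ϖ : L₀) ^ e * (ε : L₀))
    (t f : 𝓕) (E : Place L₀ 𝓕 → ℤ)
    (h1 : ∀ n : ℕ, ∃ a ∈ s34x_latSet O (s18_chart1 t) E,
      (∃ y ∈ O, a - 1 = algebraMap L₀ 𝓕 (ϖ : L₀) ^ m₀ * y) ∧
        ∃ y ∈ O, a ^ p - f = algebraMap L₀ 𝓕 (ϖ : L₀) ^ n * y)
    (h2 : ∀ n : ℕ, ∃ a ∈ s34x_latSet O (s18_chart2 t) E,
      (∃ y ∈ O, a - 1 = algebraMap L₀ 𝓕 (ϖ : L₀) ^ m₀ * y) ∧
        ∃ y ∈ O, a ^ p - f = algebraMap L₀ 𝓕 (ϖ : L₀) ^ n * y)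
    (hH : ∃ G : Submodule A₀ 𝓕, G.FG ∧
      s34x_lat A₀ O hAO (s18_chart12 t) E ≤
        G ⊔ (s34x_lat A₀ O hAO (s18_chart1 t) E ⊔ s34x_lat A₀ O hAO (s18_chart2 t) E)) :
    ∃ x : 𝓕, x ≠ 0 ∧ x ∈ O ∧ ∀ Q : Place L₀ 𝓕, E Q ≤ Q.ord x := by
  have hp2 := hp.two_le
  have hm1 : 1 ≤ m₀ := by
    rcases Nat.eq_zero_or_pos m₀ with h | h
    · subst h; simp at hm₀
    · exact h
  set π : 𝓕 := algebraMap L₀ 𝓕 (ϖ : L₀) with hπdef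
  have hπO : π ∈ O := hAO ϖ
  have hϖ : ¬ ∃ y ∈ O, (1 : 𝓕) = π * y := s34x_not_unit O π hJ
  have hπ0 : π ≠ 0 := by
    rw [hπdef]; simpa using hϖ0
  have hεO : algebraMap L₀ 𝓕 (ε : L₀) ∈ O := hAO ε
  have hεinvO : algebraMap L₀ 𝓕 (εinv : L₀) ∈ O := hAO εinv
  have hεε : algebraMap L₀ 𝓕 (ε : L₀) * algebraMap L₀ 𝓕 (εinv : L₀) = 1 := by
    rw [← map_mul]
    have : (ε : L₀) * (εinv : L₀) = 1 := by
      have := congrArg Subtype.val hε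
      simpa using this
    rw [this, map_one]
  have hpπ : (p : 𝓕) = π ^ e * algebraMap L₀ 𝓕 (ε : L₀) := by
    rw [hπdef, ← map_pow, ← map_mul, ← hpϖ, map_natCast]
  obtain ⟨G, hG, hcover⟩ := hH
  have hsmul : ∀ (n : ℕ) (c : 𝓕), (ϖ ^ n) • c = π ^ n * c := by
    intro n c
    rw [Algebra.smul_def, hπdef, ← map_pow]; rfl
  have hsmul1 : ∀ c : 𝓕, ϖ • c = π * c := by
    intro c
    rw [Algebra.smul_def]; rfl
  have h12_1 : s34x_lat A₀ O hAO (s18_chart1 t) E ≤ s34x_lat A₀ O hAO (s18_chart12 t) E :=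
    s34x_lat_mono A₀ O hAO Set.inter_subset_left E
  have h12_2 : s34x_lat A₀ O hAO (s18_chart2 t) E ≤ s34x_lat A₀ O hAO (s18_chart12 t) E :=
    s34x_lat_mono A₀ O hAO Set.inter_subset_right E
  -- congruence mod `π ^ m₀` implies congruence mod `π`
  have hmod1 : ∀ a : 𝓕, (∃ y ∈ O, a - 1 = π ^ m₀ * y) → ∃ y ∈ O, a - 1 = π * y := by
    rintro a ⟨y, hy, e'⟩
    exact ⟨π ^ (m₀ - 1) * y, mul_mem (pow_mem hπO _) hy, by
      have e3 : π ^ m₀ = π * π ^ (m₀ - 1) := by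
        rw [← pow_succ']; congr 1; omega
      rw [e', e3]; ring⟩
  obtain ⟨x, hx, hx0⟩ := s18a_core_fg ϖ (s34x_lat A₀ O hAO (s18_chart1 t) E)
    (s34x_lat A₀ O hAO (s18_chart2 t) E) (s34x_lat A₀ O hAO (s18_chart12 t) E) G h12_1 hG hcover
    (by
      intro n
      obtain ⟨a₁, ha₁, ha₁1, ha₁f⟩ := h1 (n + e)
      obtain ⟨a₂, ha₂, ha₂1, ha₂f⟩ := h2 (n + e)
      refine ⟨a₁, ha₁, a₂, ha₂, ?_, ?_⟩
      · rintro ⟨y, hy, hay⟩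
        obtain ⟨y', hy', e'⟩ := hmod1 a₁ ha₁1
        apply hϖ
        refine ⟨y - y', sub_mem hy.1 hy', ?_⟩
        rw [hsmul1] at hay
        rw [mul_sub, ← hay, ← e']; ring
      · have hdiff : ∃ y ∈ O, a₁ ^ p - a₂ ^ p = π ^ (n + e) * y := by
          obtain ⟨y₁, hy₁, e₁⟩ := ha₁f
          obtain ⟨y₂, hy₂, e₂⟩ := ha₂f
          refine ⟨y₁ - y₂, sub_mem hy₁ hy₂, ?_⟩
          rw [mul_sub, ← e₁, ← e₂]; ring
        have h12 : ∃ y ∈ O, a₁ - a₂ = π ^ m₀ * y := by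
          obtain ⟨y₁, hy₁, e₁⟩ := ha₁1
          obtain ⟨y₂, hy₂, e₂⟩ := ha₂1
          refine ⟨y₁ - y₂, sub_mem hy₁ hy₂, ?_⟩
          rw [mul_sub, ← e₁, ← e₂]; ring
        have ha₂inv : a₂⁻¹ ∈ O := s34x_inv_mem O π a₂ hJ (hmod1 a₂ ha₂1)
        have ha₂0 : a₂ ≠ 0 := by
          rintro rfl
          obtain ⟨y, hy, e⟩ := hmod1 0 ha₂1
          exact hϖ ⟨-y, neg_mem hy, by rw [mul_neg, ← e]; ring⟩
        obtain ⟨c, hc, hceq⟩ := s33k_ss_sub_mem O p hp π _ _ hπO hJ hπ0 hεO hεinvO hεε e m₀ hm₀ hpπ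
          ha₂.1 ha₂inv (mul_inv_cancel₀ ha₂0) h12 n hdiff
        refine ⟨c, ?_, by rw [hsmul]; exact hceq⟩
        have hmem : a₁ - a₂ ∈ s34x_lat A₀ O hAO (s18_chart12 t) E :=
          Submodule.sub_mem _ (h12_1 ha₁) (h12_2 ha₂)
        have hpow : (ϖ : L₀) ^ n ≠ 0 := pow_ne_zero _ hϖ0
        exact s34x_lat_pure O (s18_chart12 t) E ((ϖ : L₀) ^ n) hpow hmem hc
          (by rw [hceq, map_pow]))
  refine ⟨x, hx0, hx.1.1, fun Q => ?_⟩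
  have hQ : Q ∈ s18_chart1 t ∪ s18_chart2 t := by
    rw [s18_chart1_union_chart2]; trivial
  rcases hQ with hQ | hQ
  · exact (hx.1.2 Q hQ).resolve_left hx0
  · exact (hx.2.2 Q hQ).resolve_left hx0

/-- Chart-wise approximation from a local equation `≡ 1 mod π ^ m₀` (compare
`s18x_chart_approx_of_one`). -/
theorem s33k_ss_chart_approx_of_one (A₀ : ValuationSubring L₀) (O : Subring 𝓕)
    (hAO : ∀ a : A₀, algebraMap L₀ 𝓕 (a : L₀) ∈ O)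
    (ϖ : A₀) (hϖ0 : (ϖ : L₀) ≠ 0)
    (hJ : ∀ y ∈ O, ∃ u ∈ O, (1 + algebraMap L₀ 𝓕 (ϖ : L₀) * y) * u = 1)
    (p : ℕ) (hp : p.Prime) (ε εinv : A₀) (hε : ε * εinv = 1)
    (e m₀ : ℕ) (hm₀ : e < m₀ * (p - 1))
    (hpϖ : (p : L₀) = (ϖ : L₀) ^ e * (ε : L₀))
    (S : Set (Place L₀ 𝓕)) (f : 𝓕)
    (hdiv : ∀ Q : Place L₀ 𝓕, (p : ℤ) ∣ Q.ord f)
    (hf1 : ∃ y ∈ O, f - 1 = algebraMap L₀ 𝓕 (ϖ : L₀) ^ (m₀ + e) * y)
    (hg : ∃ g ∈ s34x_latSet O S (s18_E f p), ∃ y ∈ O, g - 1 = algebraMap L₀ 𝓕 (ϖ : L₀) ^ m₀ * y) :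
    ∀ n : ℕ, ∃ a ∈ s34x_latSet O S (s18_E f p),
      (∃ y ∈ O, a - 1 = algebraMap L₀ 𝓕 (ϖ : L₀) ^ m₀ * y) ∧
        ∃ y ∈ O, a ^ p - f = algebraMap L₀ 𝓕 (ϖ : L₀) ^ n * y := by
  have hp2 := hp.two_le
  have hp0 : p ≠ 0 := hp.ne_zero
  have hm1 : 1 ≤ m₀ := by
    rcases Nat.eq_zero_or_pos m₀ with h | h
    · subst h; simp at hm₀
    · exact h
  set π : 𝓕 := algebraMap L₀ 𝓕 (ϖ : L₀) with hπdef
  have hπO : π ∈ O := hAO ϖ
  have hϖ : ¬ ∃ y ∈ O, (1 : 𝓕) = π * y := s34x_not_unit O π hJ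
  have hπ0 : π ≠ 0 := by
    rw [hπdef]; simpa using hϖ0
  have hf1' : ∃ y ∈ O, f - 1 = π * y := by
    obtain ⟨y, hy, e'⟩ := hf1
    refine ⟨π ^ (m₀ + e - 1) * y, mul_mem (pow_mem hπO _) hy, ?_⟩
    have e3 : π ^ (m₀ + e) = π * π ^ (m₀ + e - 1) := by
      rw [← pow_succ']; congr 1; omega
    rw [e', e3]; ring
  have hfO : f ∈ O := by
    obtain ⟨y, hy, e⟩ := hf1'
    have : f = 1 + π * y := by rw [← e]; ring
    rw [this]; exact add_mem (one_mem O) (mul_mem hπO hy)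
  have hfinv : f⁻¹ ∈ O := s34x_inv_mem O π f hJ hf1'
  have hf0 : f ≠ 0 := by
    rintro rfl
    obtain ⟨y, hy, e⟩ := hf1'
    exact hϖ ⟨-y, neg_mem hy, by rw [mul_neg, ← e]; ring⟩
  have hE : ∀ Q : Place L₀ 𝓕, (p : ℤ) * s18_E f p Q = Q.ord f := s18_E_mul f p hdiv
  have hconst : ∀ a : A₀, algebraMap L₀ 𝓕 (a : L₀) ∈ s34x_ring O S := fun a =>
    ⟨hAO a, fun Q _ => Q.algebraMap_mem' _⟩
  have hεε : algebraMap L₀ 𝓕 (ε : L₀) * algebraMap L₀ 𝓕 (εinv : L₀) = 1 := by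
    rw [← map_mul]
    have : (ε : L₀) * (εinv : L₀) = 1 := by
      have := congrArg Subtype.val hε
      simpa using this
    rw [this, map_one]
  have hpπ : (p : 𝓕) = π ^ e * algebraMap L₀ 𝓕 (ε : L₀) := by
    rw [hπdef, ← map_pow, ← map_mul, ← hpϖ, map_natCast]
  exact s33k_approx_of_one (𝓕 := 𝓕) O (s34x_ring O S) (s34x_ring_le O S) p hp π
    (algebraMap L₀ 𝓕 (ε : L₀)) (algebraMap L₀ 𝓕 (εinv : L₀)) f hπ0 e m₀ hm₀
    (s34x_latAdd O S (s18_E f p))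
    (hconst ϖ) (hconst ε) (hconst εinv) hεε hpπ (fun a ha => ha.1)
    (by
      intro b hb a ha
      have hb' : b ∈ s34x_latSet O S (fun _ => 0) := by
        rw [← s34x_ringSet_eq_latSet_zero]; exact hb
      have := s34x_latSet_mul O S _ _ hb' ha
      simp only [zero_add] at this
      exact this)
    (by
      intro b hb ⟨x, hx, hbx⟩
      have hb' : b ∈ s34x_latSet O S (fun _ => 0) := by
        rw [← s34x_ringSet_eq_latSet_zero]; exact hb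
      have hx' := s34x_lat_pure O S (fun _ => 0) (ϖ : L₀) hϖ0 hb' hx hbx
      rw [← s34x_ringSet_eq_latSet_zero] at hx'
      exact ⟨x, hx', hbx⟩)
    hg
    (by
      intro a ha
      refine ⟨f⁻¹ * a ^ p, ?_, by rw [← mul_assoc, mul_inv_cancel₀ hf0, one_mul]⟩
      refine ⟨mul_mem hfinv (pow_mem ha.1 p), fun Q hQ => ?_⟩
      by_cases ha0 : a = 0
      · rw [ha0, zero_pow hp0, mul_zero]; exact Q.toValuationSubring.zero_mem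
      have hne : f⁻¹ * a ^ p ≠ 0 := mul_ne_zero (inv_ne_zero hf0) (pow_ne_zero _ ha0)
      rw [ff_mem_iff_ord_nonneg Q hne, Q.ord_mul (inv_ne_zero hf0) (pow_ne_zero _ ha0),
        Q.ord_inv, ← zpow_natCast, Q.ord_zpow, ← hE Q]
      have h := (ha.2 Q hQ).resolve_left ha0
      have hm' : (0 : ℤ) ≤ (p : ℤ) := Int.natCast_nonneg p
      nlinarith [mul_le_mul_of_nonneg_left h hm'])
    hfO hf1

/-- **Theorem X₀ for `p`-th roots beyond the critical radius** (compare `s18x_zero`): if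
`p ∣ div f`, `f ≡ 1 mod π ^ (m₀+e)`, and `E = div(f)/p` has local equations `≡ 1 mod π ^ m₀` on both
charts, there is a nonzero `x ∈ O` with `p · ord_Q x ≥ ord_Q f` at every place `Q`. -/
theorem s33k_ss_zero (A₀ : ValuationSubring L₀) [IsNoetherianRing A₀]
    (O : Subring 𝓕) (hAO : ∀ a : A₀, algebraMap L₀ 𝓕 (a : L₀) ∈ O)
    (ϖ : A₀) (hϖ0 : (ϖ : L₀) ≠ 0)
    (hJ : ∀ y ∈ O, ∃ u ∈ O, (1 + algebraMap L₀ 𝓕 (ϖ : L₀) * y) * u = 1)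
    (p : ℕ) (hp : p.Prime) (ε εinv : A₀) (hε : ε * εinv = 1)
    (e m₀ : ℕ) (hm₀ : e < m₀ * (p - 1))
    (hpϖ : (p : L₀) = (ϖ : L₀) ^ e * (ε : L₀))
    (t f : 𝓕)
    (hdiv : ∀ Q : Place L₀ 𝓕, (p : ℤ) ∣ Q.ord f)
    (hf1 : ∃ y ∈ O, f - 1 = algebraMap L₀ 𝓕 (ϖ : L₀) ^ (m₀ + e) * y)
    (hg1 : ∃ g ∈ s34x_latSet O (s18_chart1 (L₀ := L₀) t) (s18_E f p),
      ∃ y ∈ O, g - 1 = algebraMap L₀ 𝓕 (ϖ : L₀) ^ m₀ * y)
    (hg2 : ∃ g ∈ s34x_latSet O (s18_chart2 (L₀ := L₀) t) (s18_E f p),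
      ∃ y ∈ O, g - 1 = algebraMap L₀ 𝓕 (ϖ : L₀) ^ m₀ * y)
    (hH : ∃ G : Submodule A₀ 𝓕, G.FG ∧
      s34x_lat A₀ O hAO (s18_chart12 t) (s18_E f p) ≤
        G ⊔ (s34x_lat A₀ O hAO (s18_chart1 t) (s18_E f p) ⊔
          s34x_lat A₀ O hAO (s18_chart2 t) (s18_E f p))) :
    ∃ x : 𝓕, x ≠ 0 ∧ x ∈ O ∧ ∀ Q : Place L₀ 𝓕, Q.ord f ≤ (p : ℤ) * Q.ord x := by
  obtain ⟨x, hx0, hxO, hx⟩ := s33k_ss_exists_section A₀ O hAO ϖ hϖ0 hJ p hp ε εinv hε e m₀ hm₀ hpϖ t f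
    (s18_E f p)
    (s33k_ss_chart_approx_of_one A₀ O hAO ϖ hϖ0 hJ p hp ε εinv hε e m₀ hm₀ hpϖ _ f hdiv hf1 hg1)
    (s33k_ss_chart_approx_of_one A₀ O hAO ϖ hϖ0 hJ p hp ε εinv hε e m₀ hm₀ hpϖ _ f hdiv hf1 hg2) hH
  refine ⟨x, hx0, hxO, fun Q => ?_⟩
  rw [← s18_E_mul f p hdiv Q]
  exact mul_le_mul_of_nonneg_left (hx Q) (Int.natCast_nonneg p)

end SsCharts

end Fermat.Agent.Lib.S33
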