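/-
P-AT-P (S33 programme, private branch), brick **[SEP-ss]** part 2 (helper9): **`SuperCritical_Σ`** —
"`f` with all orders divisible by `p`, NODE-AVOIDING (`ord_Q f = 0` at the places `Q ∈ N` through the
nodes), `f ≡ 1 mod π ^ a O` with `a` super-critical (`p e < (p-1) a`) ⇒ `f = c · x ^ p`" for a
SUBRING `O` of the function field with `π` in its Jacobson radical (`O = V_∞ ⊓ V_0`, the
two-valuation ring of the semistable model of `X₀(pM')`), in the S34 X″ vocabulary.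

Inputs per chart `S` (with `NS = N ∩ S` the node places of the chart):
* [S-Σ] `hclosed`: `x ^ p + c x ≡ b mod πO`, `c, b ∈ B_S`, **`x ∈ s34x_ring O NS`** (`x ∈ O` regular at
  the node places of the chart) ⇒ `x ≡ b' mod πO`, `b' ∈ B_S` — for arbitrary `x ∈ O` this FAILS at the
  critical level (the two branch values of `x̄` at a node are two roots of `X ^ p + c̄ X - b̄`);
* [I-Σ] `hinv`: invertibility of the chart lattice of `E = div(f)/p`;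
and [H] (Čech finiteness), `L₀` the full constant field.

The level lifting is NOT re-proved: the abstract lemmas `s33k_one_mod_pi`, `s33k_one_mod_pow`
(`KumPLevel`) are applied with the ring `R_S = s34x_ring O NS` in the role of `O`.
-/
import Fermat.Agent.Lib.S33.KumPSsLat
import Fermat.Agent.Lib.S33.KumPLevel

set_option autoImplicit false

noncomputable section

namespace Fermat.Agent.Lib.S33

open AlgebraicCurve Fermat.Agent.Lib.FF Fermat.Agent.Lib.S18 Fermat.Agent.Lib.S34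

section SsLevel

variable {L₀ 𝓕 : Type*} [Field L₀] [Field 𝓕] [Algebra L₀ 𝓕]

/-- the chart rings are antitone in the set of places. -/
theorem s33k_ss_ring_anti (O : Subring 𝓕) {S S' : Set (Place L₀ 𝓕)} (h : S' ⊆ S) :
    s34x_ring O S ≤ s34x_ring O S' := fun _ hy => ⟨hy.1, fun Q hQ => hy.2 Q (h hQ)⟩

/-- `s34x_ring O S` is saturated in `O` with respect to powers of a nonzero constant. -/
theorem s33k_ss_ring_sat (O : Subring 𝓕) (S : Set (Place L₀ 𝓕)) (c : L₀) (hc : c ≠ 0) (k : ℕ)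
    {x y : 𝓕} (hx : x ∈ s34x_ring O S) (hy : y ∈ O) (hxy : x = algebraMap L₀ 𝓕 c ^ k * y) :
    y ∈ s34x_ring O S := by
  have hx' : x ∈ s34x_latSet O S (fun _ => 0) := by
    rw [← s34x_ringSet_eq_latSet_zero]; exact hx
  have h := s34x_lat_pure O S (fun _ => 0) (c ^ k) (pow_ne_zero _ hc) hx' hy
    (by rw [hxy, map_pow])
  rw [← s34x_ringSet_eq_latSet_zero] at h
  exact h

/-- Chart level on a semistable chart: `f ≡ 1 mod π ^ (m₀+e) O`, `p ∣ div f`, `f` without zeros or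
poles on `NS ⊆ S`, [S-Σ] and [I-Σ] on the chart `S` ⇒ the lattice of `E = div(f)/p` on `S` contains
`g ≡ 1 mod π ^ m₀ O`. -/
theorem s33k_ss_chart_one_mod_pow (A₀ : ValuationSubring L₀) (O : Subring 𝓕)
    (hAO : ∀ a : A₀, algebraMap L₀ 𝓕 (a : L₀) ∈ O)
    (ϖ : A₀) (hϖ0 : (ϖ : L₀) ≠ 0)
    (hJ : ∀ y ∈ O, ∃ u ∈ O, (1 + algebraMap L₀ 𝓕 (ϖ : L₀) * y) * u = 1)
    (p : ℕ) (hp : p.Prime) (ε εinv : A₀) (hε : ε * εinv = 1)
    (e m₀ : ℕ) (hm1 : 1 ≤ m₀)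
    (hpϖ : (p : L₀) = (ϖ : L₀) ^ e * (ε : L₀))
    (S NS : Set (Place L₀ 𝓕)) (hNS : NS ⊆ S) (f : 𝓕)
    (hdiv : ∀ Q : Place L₀ 𝓕, (p : ℤ) ∣ Q.ord f)
    (hN : ∀ Q ∈ NS, Q.ord f = 0)
    (hf1 : ∃ y ∈ O, f - 1 = algebraMap L₀ 𝓕 (ϖ : L₀) ^ (m₀ + e) * y)
    (hclosed : ∀ c ∈ s34x_ring O S, ∀ x ∈ s34x_ring O NS, ∀ b ∈ s34x_ring O S,
      (∃ y ∈ O, x ^ p + c * x - b = algebraMap L₀ 𝓕 (ϖ : L₀) * y) →
        ∃ b' ∈ s34x_ring O S, ∃ y ∈ O, x - b' = algebraMap L₀ 𝓕 (ϖ : L₀) * y)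
    (hinv : ∃ (s : Finset ℕ) (a b : ℕ → 𝓕), (∀ j ∈ s, a j ∈ s34x_latSet O S (s18_E f p)) ∧
      (∀ j ∈ s, b j ∈ s34x_latSet O S (fun Q => -s18_E f p Q)) ∧ ∑ j ∈ s, a j * b j = 1) :
    ∃ g ∈ s34x_latSet O S (s18_E f p), ∃ y ∈ O, g - 1 = algebraMap L₀ 𝓕 (ϖ : L₀) ^ m₀ * y := by
  have hp0 : p ≠ 0 := hp.ne_zero
  set π : 𝓕 := algebraMap L₀ 𝓕 (ϖ : L₀) with hπdef
  have hπO : π ∈ O := hAO ϖ
  have hϖ : ¬ ∃ y ∈ O, (1 : 𝓕) = π * y := s34x_not_unit O π hJ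
  have hπ0 : π ≠ 0 := by rw [hπdef]; simpa using hϖ0
  set B : Subring 𝓕 := s34x_ring O S with hB
  set R : Subring 𝓕 := s34x_ring O NS with hR
  have hBR : B ≤ R := s33k_ss_ring_anti O hNS
  have hRO : R ≤ O := s34x_ring_le O NS
  -- saturation of `R` in `O`
  have hsat1 : ∀ x ∈ R, ∀ y ∈ O, x = π * y → y ∈ R := by
    intro x hx y hy hxy
    exact s33k_ss_ring_sat O NS (ϖ : L₀) hϖ0 1 hx hy (by rw [pow_one]; exact hxy)
  have hsatk : ∀ k : ℕ, ∀ x ∈ R, ∀ y ∈ O, x = π ^ k * y → y ∈ R := by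
    intro k x hx y hy hxy
    exact s33k_ss_ring_sat O NS (ϖ : L₀) hϖ0 k hx hy hxy
  have hf1' : ∃ y ∈ O, f - 1 = π * y := by
    obtain ⟨y, hy, e'⟩ := hf1
    refine ⟨π ^ (m₀ + e - 1) * y, mul_mem (pow_mem hπO _) hy, ?_⟩
    have e3 : π ^ (m₀ + e) = π * π ^ (m₀ + e - 1) := by
      rw [← pow_succ']; congr 1; omega
    rw [e', e3]; ring
  have hfO : f ∈ O := by
    obtain ⟨y, hy, e'⟩ := hf1'
    have : f = 1 + π * y := by rw [← e']; ring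
    rw [this]; exact add_mem (one_mem O) (mul_mem hπO hy)
  have hfinv : f⁻¹ ∈ O := s34x_inv_mem O π f hJ hf1'
  have hf0 : f ≠ 0 := by
    rintro rfl
    obtain ⟨y, hy, e'⟩ := hf1'
    exact hϖ ⟨-y, neg_mem hy, by rw [mul_neg, ← e']; ring⟩
  have hE : ∀ Q : Place L₀ 𝓕, (p : ℤ) * s18_E f p Q = Q.ord f := s18_E_mul f p hdiv
  -- `E = 0` on the node places
  have hEN : ∀ Q ∈ NS, s18_E f p Q = 0 := by
    intro Q hQ
    have h := hE Q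
    rw [hN Q hQ] at h
    have hp' : (p : ℤ) ≠ 0 := by exact_mod_cast hp0
    exact (mul_eq_zero.mp h).resolve_left hp'
  -- `f ∈ R`
  have hfR : f ∈ R := by
    refine ⟨hfO, fun Q hQ => ?_⟩
    rw [ff_mem_iff_ord_nonneg Q hf0, hN Q hQ]
  have hconst : ∀ a : A₀, algebraMap L₀ 𝓕 (a : L₀) ∈ B := fun a =>
    ⟨hAO a, fun Q _ => Q.algebraMap_mem' _⟩
  have hεε : algebraMap L₀ 𝓕 (ε : L₀) * algebraMap L₀ 𝓕 (εinv : L₀) = 1 := by
    rw [← map_mul]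
    have : (ε : L₀) * (εinv : L₀) = 1 := by
      have := congrArg Subtype.val hε
      simpa using this
    rw [this, map_one]
  have hpπ : (p : 𝓕) = π ^ e * algebraMap L₀ 𝓕 (ε : L₀) := by
    rw [hπdef, ← map_pow, ← map_mul, ← hpϖ, map_natCast]
  -- the lattices lie in `R`
  have hIR : ∀ a ∈ s34x_latAdd O S (s18_E f p), a ∈ R := by
    intro a ha
    refine ⟨ha.1, fun Q hQ => ?_⟩
    by_cases ha0 : a = 0
    · rw [ha0]; exact Q.toValuationSubring.zero_mem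
    rw [ff_mem_iff_ord_nonneg Q ha0]
    have h := (ha.2 Q (hNS hQ)).resolve_left ha0
    rwa [hEN Q hQ] at h
  have hI'R : ∀ a ∈ s34x_latAdd O S (fun Q => -s18_E f p Q), a ∈ R := by
    intro a ha
    refine ⟨ha.1, fun Q hQ => ?_⟩
    by_cases ha0 : a = 0
    · rw [ha0]; exact Q.toValuationSubring.zero_mem
    rw [ff_mem_iff_ord_nonneg Q ha0]
    have h : -s18_E f p Q ≤ Q.ord a := (ha.2 Q (hNS hQ)).resolve_left ha0
    rwa [hEN Q hQ, neg_zero] at h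
  have hBI : ∀ b ∈ B, ∀ a ∈ s34x_latAdd O S (s18_E f p),
      b * a ∈ s34x_latAdd O S (s18_E f p) := by
    intro b hb a ha
    have hb' : b ∈ s34x_latSet O S (fun _ => 0) := by
      rw [← s34x_ringSet_eq_latSet_zero]; exact hb
    have := s34x_latSet_mul O S _ _ hb' ha
    simp only [zero_add] at this
    exact this
  have hpowI : ∀ a ∈ s34x_latAdd O S (s18_E f p), ∃ b ∈ B, a ^ p = f * b := by
    intro a ha
    refine ⟨f⁻¹ * a ^ p, ?_, by rw [← mul_assoc, mul_inv_cancel₀ hf0, one_mul]⟩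
    refine ⟨mul_mem hfinv (pow_mem ha.1 p), fun Q hQ => ?_⟩
    by_cases ha0 : a = 0
    · rw [ha0, zero_pow hp0, mul_zero]; exact Q.toValuationSubring.zero_mem
    have hne : f⁻¹ * a ^ p ≠ 0 := mul_ne_zero (inv_ne_zero hf0) (pow_ne_zero _ ha0)
    rw [ff_mem_iff_ord_nonneg Q hne, Q.ord_mul (inv_ne_zero hf0) (pow_ne_zero _ ha0),
      Q.ord_inv, ← zpow_natCast, Q.ord_zpow, ← hE Q]
    have h := (ha.2 Q hQ).resolve_left ha0
    have hm' : (0 : ℤ) ≤ (p : ℤ) := Int.natCast_nonneg p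
    nlinarith [mul_le_mul_of_nonneg_left h hm']
  have hpowI' : ∀ a ∈ s34x_latAdd O S (fun Q => -s18_E f p Q), ∃ b ∈ B, f * a ^ p = b := by
    intro a ha
    refine ⟨f * a ^ p, ?_, rfl⟩
    refine ⟨mul_mem hfO (pow_mem ha.1 p), fun Q hQ => ?_⟩
    by_cases ha0 : a = 0
    · rw [ha0, zero_pow hp0, mul_zero]; exact Q.toValuationSubring.zero_mem
    have hne : f * a ^ p ≠ 0 := mul_ne_zero hf0 (pow_ne_zero _ ha0)
    rw [ff_mem_iff_ord_nonneg Q hne, Q.ord_mul hf0 (pow_ne_zero _ ha0),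
      ← zpow_natCast, Q.ord_zpow, ← hE Q]
    have h := (ha.2 Q hQ).resolve_left ha0
    have hm' : (0 : ℤ) ≤ (p : ℤ) := Int.natCast_nonneg p
    nlinarith [mul_le_mul_of_nonneg_left h hm']
  -- purity of `B` relative to `R`
  have hpure : ∀ b ∈ B, (∃ x ∈ R, b = π * x) → ∃ b' ∈ B, b = π * b' := by
    intro b hb ⟨x, hx, hbx⟩
    have hb' : b ∈ s34x_latSet O S (fun _ => 0) := by
      rw [← s34x_ringSet_eq_latSet_zero]; exact hb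
    have hx' := s34x_lat_pure O S (fun _ => 0) (ϖ : L₀) hϖ0 hb' (hRO hx) hbx
    rw [← s34x_ringSet_eq_latSet_zero] at hx'
    exact ⟨x, hx', hbx⟩
  -- [S-Σ] relative to `R`
  have hclosedR : ∀ c ∈ B, ∀ x ∈ R, ∀ b ∈ B, (∃ y ∈ R, x ^ p + c * x - b = π * y) →
      ∃ b' ∈ B, ∃ y ∈ R, x - b' = π * y := by
    intro c hc x hx b hb ⟨y, hy, e'⟩
    obtain ⟨b', hb', y', hy', e''⟩ := hclosed c hc x hx b hb ⟨y, hRO hy, e'⟩
    exact ⟨b', hb', y', hsat1 _ (sub_mem hx (hBR hb')) y' hy' e'', e''⟩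
  have hrootR : ∀ x ∈ R, ∀ b ∈ B, (∃ y ∈ R, x ^ p - b = π * y) →
      ∃ b' ∈ B, ∃ y ∈ R, x - b' = π * y := by
    intro x hx b hb ⟨y, hy, e'⟩
    exact hclosedR 0 B.zero_mem x hx b hb ⟨y, hy, by rw [zero_mul, add_zero, e']⟩
  -- the congruences of `f` relative to `R`
  have hf1R' : ∃ y ∈ R, f - 1 = π * y := by
    obtain ⟨y, hy, e'⟩ := hf1'
    exact ⟨y, hsat1 _ (sub_mem hfR (one_mem R)) y hy e', e'⟩
  have hf1R : ∃ y ∈ R, f - 1 = π ^ (m₀ + e) * y := by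
    obtain ⟨y, hy, e'⟩ := hf1
    exact ⟨y, hsatk _ _ (sub_mem hfR (one_mem R)) y hy e', e'⟩
  have hg1 := s33k_one_mod_pi (𝓕 := 𝓕) R B π f p
    (s34x_latAdd O S (s18_E f p)) (s34x_latAdd O S (fun Q => -s18_E f p Q))
    hIR hI'R hBI hrootR hinv hpowI' hf1R'
  obtain ⟨g, hg, y, hy, e'⟩ := s33k_one_mod_pow (𝓕 := 𝓕) R B hBR p hp π
    (algebraMap L₀ 𝓕 (ε : L₀)) (algebraMap L₀ 𝓕 (εinv : L₀)) f hπ0 e m₀ hm1
    (s34x_latAdd O S (s18_E f p)) (hconst ϖ) (hconst ε) (hconst εinv) hεε hpπ hBI hpure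
    hclosedR hpowI hf1R hg1
  exact ⟨g, hg, y, hRO hy, e'⟩

/-- **[SEP-ss] = `SuperCritical_Σ`.**  `f` with all orders divisible by `p`, without zeros or poles
on the node places `N`, `f ≡ 1 mod π ^ a O` with `a` super-critical (`p e < (p-1) a`); [S-Σ] and
[I-Σ] on both charts, [H], and `L₀` the full constant field ⇒ `f = c · x ^ p`. -/
theorem s33k_ss_superCritical (A₀ : ValuationSubring L₀) [IsNoetherianRing A₀]
    (O : Subring 𝓕) (hAO : ∀ a : A₀, algebraMap L₀ 𝓕 (a : L₀) ∈ O)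
    (ϖ : A₀) (hϖ0 : (ϖ : L₀) ≠ 0)
    (hJ : ∀ y ∈ O, ∃ u ∈ O, (1 + algebraMap L₀ 𝓕 (ϖ : L₀) * y) * u = 1)
    (p : ℕ) (hp : p.Prime) (ε εinv : A₀) (hε : ε * εinv = 1)
    (e : ℕ) (hpϖ : (p : L₀) = (ϖ : L₀) ^ e * (ε : L₀))
    (hconst𝓕 : ∀ h : 𝓕, (∀ Q : Place L₀ 𝓕, h ∈ Q.toValuationSubring) →
      ∃ c : L₀, h = algebraMap L₀ 𝓕 c)
    (t f : 𝓕) (a : ℕ) (ha : p * e < (p - 1) * a)
    (N : Set (Place L₀ 𝓕))
    (hdiv : ∀ Q : Place L₀ 𝓕, (p : ℤ) ∣ Q.ord f)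
    (hN : ∀ Q ∈ N, Q.ord f = 0)
    (hf1 : ∃ y ∈ O, f - 1 = algebraMap L₀ 𝓕 (ϖ : L₀) ^ a * y)
    (hclosed1 : ∀ c ∈ s34x_ring O (s18_chart1 (L₀ := L₀) t),
      ∀ x ∈ s34x_ring O (N ∩ s18_chart1 (L₀ := L₀) t),
      ∀ b ∈ s34x_ring O (s18_chart1 (L₀ := L₀) t),
      (∃ y ∈ O, x ^ p + c * x - b = algebraMap L₀ 𝓕 (ϖ : L₀) * y) →
        ∃ b' ∈ s34x_ring O (s18_chart1 (L₀ := L₀) t), ∃ y ∈ O,
          x - b' = algebraMap L₀ 𝓕 (ϖ : L₀) * y)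
    (hclosed2 : ∀ c ∈ s34x_ring O (s18_chart2 (L₀ := L₀) t),
      ∀ x ∈ s34x_ring O (N ∩ s18_chart2 (L₀ := L₀) t),
      ∀ b ∈ s34x_ring O (s18_chart2 (L₀ := L₀) t),
      (∃ y ∈ O, x ^ p + c * x - b = algebraMap L₀ 𝓕 (ϖ : L₀) * y) →
        ∃ b' ∈ s34x_ring O (s18_chart2 (L₀ := L₀) t), ∃ y ∈ O,
          x - b' = algebraMap L₀ 𝓕 (ϖ : L₀) * y)
    (hinv1 : ∃ (s : Finset ℕ) (a b : ℕ → 𝓕),
      (∀ j ∈ s, a j ∈ s34x_latSet O (s18_chart1 (L₀ := L₀) t) (s18_E f p)) ∧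
      (∀ j ∈ s, b j ∈ s34x_latSet O (s18_chart1 (L₀ := L₀) t) (fun Q => -s18_E f p Q)) ∧
      ∑ j ∈ s, a j * b j = 1)
    (hinv2 : ∃ (s : Finset ℕ) (a b : ℕ → 𝓕),
      (∀ j ∈ s, a j ∈ s34x_latSet O (s18_chart2 (L₀ := L₀) t) (s18_E f p)) ∧
      (∀ j ∈ s, b j ∈ s34x_latSet O (s18_chart2 (L₀ := L₀) t) (fun Q => -s18_E f p Q)) ∧
      ∑ j ∈ s, a j * b j = 1)
    (hH : ∃ G : Submodule A₀ 𝓕, G.FG ∧
      s34x_lat A₀ O hAO (s18_chart12 t) (s18_E f p) ≤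
        G ⊔ (s34x_lat A₀ O hAO (s18_chart1 t) (s18_E f p) ⊔
          s34x_lat A₀ O hAO (s18_chart2 t) (s18_E f p))) :
    ∃ (c : L₀) (x : 𝓕), c ≠ 0 ∧ x ≠ 0 ∧ f = algebraMap L₀ 𝓕 c * x ^ p := by
  have hp2 := hp.two_le
  have hp0 : p ≠ 0 := hp.ne_zero
  -- `m₀ = a - e`
  have hea : e < a := by
    by_contra hcon
    have h1 : a ≤ e := by omega
    have h2 : (p - 1) * a ≤ (p - 1) * e := Nat.mul_le_mul_left _ h1
    have h3 : (p - 1) * e ≤ p * e := Nat.mul_le_mul_right _ (by omega)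
    omega
  obtain ⟨m₀, rfl⟩ : ∃ m₀, a = m₀ + e := ⟨a - e, by omega⟩
  have hm1 : 1 ≤ m₀ := by omega
  have hm₀ : e < m₀ * (p - 1) := by
    have h1 : (p - 1) * (m₀ + e) = m₀ * (p - 1) + (p - 1) * e := by ring
    have h2 : p * e = (p - 1) * e + e := by
      obtain ⟨q, rfl⟩ : ∃ q, p = q + 1 := ⟨p - 1, by omega⟩
      simp only [Nat.add_sub_cancel]; ring
    omega
  set π : 𝓕 := algebraMap L₀ 𝓕 (ϖ : L₀) with hπdef
  have hπO : π ∈ O := hAO ϖ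
  have hϖ : ¬ ∃ y ∈ O, (1 : 𝓕) = π * y := s34x_not_unit O π hJ
  have hf1' : ∃ y ∈ O, f - 1 = π * y := by
    obtain ⟨y, hy, e'⟩ := hf1
    refine ⟨π ^ (m₀ + e - 1) * y, mul_mem (pow_mem hπO _) hy, ?_⟩
    have e3 : π ^ (m₀ + e) = π * π ^ (m₀ + e - 1) := by
      rw [← pow_succ']; congr 1; omega
    rw [e', e3]; ring
  have hf0 : f ≠ 0 := by
    rintro rfl
    obtain ⟨y, hy, e'⟩ := hf1'
    exact hϖ ⟨-y, neg_mem hy, by rw [mul_neg, ← e']; ring⟩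
  have hg1 := s33k_ss_chart_one_mod_pow A₀ O hAO ϖ hϖ0 hJ p hp ε εinv hε e m₀ hm1 hpϖ
    (s18_chart1 (L₀ := L₀) t) (N ∩ s18_chart1 (L₀ := L₀) t) Set.inter_subset_right f hdiv
    (fun Q hQ => hN Q hQ.1) hf1 hclosed1 hinv1
  have hg2 := s33k_ss_chart_one_mod_pow A₀ O hAO ϖ hϖ0 hJ p hp ε εinv hε e m₀ hm1 hpϖ
    (s18_chart2 (L₀ := L₀) t) (N ∩ s18_chart2 (L₀ := L₀) t) Set.inter_subset_right f hdiv
    (fun Q hQ => hN Q hQ.1) hf1 hclosed2 hinv2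
  obtain ⟨x, hx0, -, hx⟩ := s33k_ss_zero A₀ O hAO ϖ hϖ0 hJ p hp ε εinv hε e m₀ hm₀ hpϖ t f hdiv
    hf1 hg1 hg2 hH
  -- `x ^ p / f` has no poles, hence is a constant
  have hu0 : x ^ p * f⁻¹ ≠ 0 := mul_ne_zero (pow_ne_zero _ hx0) (inv_ne_zero hf0)
  obtain ⟨c, hc⟩ := hconst𝓕 (x ^ p * f⁻¹) (fun Q => by
    rw [ff_mem_iff_ord_nonneg Q hu0, Q.ord_mul (pow_ne_zero _ hx0) (inv_ne_zero hf0), Q.ord_inv,
      ← zpow_natCast, Q.ord_zpow]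
    have := hx Q
    linarith)
  have hc0 : c ≠ 0 := by
    rintro rfl
    rw [map_zero] at hc
    exact hu0 hc
  refine ⟨c⁻¹, x, inv_ne_zero hc0, hx0, ?_⟩
  have hc' : algebraMap L₀ 𝓕 c ≠ 0 := by simpa using hc0
  have : x ^ p = algebraMap L₀ 𝓕 c * f := by
    rw [← hc, mul_assoc, inv_mul_cancel₀ hf0, mul_one]
  rw [this, map_inv₀, ← mul_assoc, inv_mul_cancel₀ hc', one_mul]

end SsLevel

end Fermat.Agent.Lib.S33
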