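/-
P-AT-P (S33 programme, private branch), brick **[SEP-ss]** part 12 (helper9): **`SuperCritical_Σ` IS A
THEOREM for the concrete two-component model of `Lib/S34` at level `M p`, `p ≥ 5`** (charts of `j`).

`s33k_ss_superCritical_five`: `K₀` a number field, `G` a Gauss datum over it with residue
characteristic `p ≥ 5`, `p ∤ M`, `p = ϖ ^ e ε`; `O₂ = V_∞ ⊓ V_0 ⊂ 𝓕 = K₀(X(M p))`.  Let `N` be any set of
places containing the places of the two `j`-charts through the CROSSING POINTS (maximal ideals `𝔫 ∋ ϖ`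
of the chart ring through which both components pass).  If `f ∈ 𝓕ˣ` has all orders divisible by `p`,
no zero or pole on `N`, and `f ≡ 1 mod ϖ ^ a O₂` with `a` super-critical (`p e < (p-1) a`), then
`f = c x ^ p`.  The only hypothesis left is `hfull` (`K₀` is the full constant field of `𝓕`; helper6's
`s33i_fullConst_of_ffGen`).
-/
import Fermat.Agent.Lib.S33.KumPSsChart
import Fermat.Agent.Lib.S33.KumPSsLevel
import Fermat.Agent.Lib.S34.DFibreFive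

set_option autoImplicit false
set_option linter.unusedSectionVars false
set_option linter.style.haveILetI false

noncomputable section

namespace Fermat.Agent.Lib.S33

open ModularCurve AlgebraicCurve Polynomial IntermediateField Fermat.Agent.Lib.FF
  Fermat.Agent.Lib.S18 Fermat.Agent.Lib.S37 Fermat.Agent.Lib.S34 IsLocalRing

local notation "Kb" => AlgebraicClosure ℚ

section Chart'

variable {K₀ : Type} [Field K₀] [CharZero K₀] [Algebra ℚ K₀] {κ : Type} [Field κ]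
  (G : s18g_GaussData K₀ κ) (φ : K₀ →+* Kb) (M q : ℕ) [NeZero M] [NeZero q]
  (hq : q.Prime) (hqM : ¬ q ∣ M) [CharP κ q] [PerfectField κ] [PerfectRing κ q]

local notation "𝓕M" => laurentBaseChange K₀ (modularFunctionFieldFull M)
local notation "𝓕N" => laurentBaseChange K₀ (modularFunctionFieldFull (M * q))
local notation "hFM" => (fun (f : LaurentSeries K₀)
  (hf : f ∈ laurentBaseChange K₀ (modularFunctionFieldFull M)) => s18g_baseChange_mem_Frac G M hf)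

include hq hqM in
/-- `s33k_ss_model_chart` with the coordinate `wN = α w` of level `M q` as a variable. -/
theorem s33k_ss_model_chart' [IsDiscreteValuationRing G.A]
    (hdeg : s34m_HDeg K₀ M q) (hT : s18g_HT κ M)
    (hdegM : s18g_HDeg K₀ M) (w : ↥𝓕M) (hwV : w ∈ s18g_V G 𝓕M hFM)
    (hcoord : s37b_Coord κ q
      ((s18g_redF G M hFM hT hdegM ⟨w, hwV⟩ : ↥(modularFunctionFieldFullC κ M)) : LaurentSeries κ))
    (hwtw : ∀ τ : κ ≃+* κ, ModularCurve.coeffMap (τ : κ →+* κ)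
      ((s18g_redF G M hFM hT hdegM ⟨w, hwV⟩ : ↥(modularFunctionFieldFullC κ M)) : LaurentSeries κ) =
      ((s18g_redF G M hFM hT hdegM ⟨w, hwV⟩ : ↥(modularFunctionFieldFullC κ M)) : LaurentSeries κ))
    (hmain : letI := s18f_algF G M hT hdegM w hwV
      ∀ z : ↥(modularFunctionFieldFullC κ M), IsIntegral κ[X] z →
        ∃ (b : ↥𝓕M) (hb : b ∈ s18_ring (L₀ := K₀) (s18g_V G 𝓕M hFM) (s18_chart1 w)),
          s18g_redF G M hFM hT hdegM ⟨b, hb.1⟩ = z)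
    (wN : ↥𝓕N) (hwN : heckeAlphaBar K₀ M q w = wN) [FFGen K₀ wN]
    (hαN : ∀ y ∈ s34x_infRing (s34m_VV G φ M q hq hqM), ∃ s : G.A[X], s.map G.π ≠ 0 ∧
      (s18b_ev G 𝓕N wN).IsIntegralElem (s18b_ev G 𝓕N wN s * y))
    (hαB : ∀ g ∈ (s18_ring (L₀ := K₀) (s34m_Vinf G M) (s18_chart1 w) : Set (s34m_F K₀ M)),
      heckeAlphaBar K₀ M q g ∈ s34x_ring (s34x_infRing (s34m_VV G φ M q hq hqM))
        (s18_chart1 (L₀ := K₀) wN))
    (hβB : ∀ g ∈ (s18_ring (L₀ := K₀) (s34m_Vinf G M) (s18_chart1 w) : Set (s34m_F K₀ M)),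
      ∃ b' ∈ s34x_ring (s34x_infRing (s34m_VV G φ M q hq hqM)) (s18_chart1 (L₀ := K₀) wN),
      ∃ z, z ∈ s34m_Vinf G (M * q) ∧ z ∈ s34m_Vzero G φ M q hq hqM ∧
        b' - heckeBetaBar K₀ M q g = s34m_unif G (M * q) * z) :
    (∀ E : Place K₀ (s34m_F K₀ (M * q)) → ℤ,
      {Q | Q ∈ s18_chart1 (L₀ := K₀) wN ∧ E Q ≠ 0}.Finite →
      (∀ 𝔫 : Ideal (s34x_ring (s34x_infRing (s34m_VV G φ M q hq hqM))
          (s18_chart1 (L₀ := K₀) wN)), 𝔫.IsMaximal →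
        s33k_ss_compThrough (s34m_VV G φ M q hq hqM) _ (s34m_unif G (M * q)) 𝔫 true →
        s33k_ss_compThrough (s34m_VV G φ M q hq hqM) _ (s34m_unif G (M * q)) 𝔫 false →
        ∀ Q ∈ s18_chart1 (L₀ := K₀) wN,
          s34f_through (s34x_infRing (s34m_VV G φ M q hq hqM)) _ 𝔫 Q → E Q = 0) →
      ∃ (s : Finset ℕ) (a b : ℕ → s34m_F K₀ (M * q)),
        (∀ j ∈ s, a j ∈ s34x_latSet (s34x_infRing (s34m_VV G φ M q hq hqM))
          (s18_chart1 (L₀ := K₀) wN) E) ∧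
        (∀ j ∈ s, b j ∈ s34x_latSet (s34x_infRing (s34m_VV G φ M q hq hqM))
          (s18_chart1 (L₀ := K₀) wN) (fun Q => - E Q)) ∧
        ∑ j ∈ s, a j * b j = 1) ∧
    (∀ (N : Set (Place K₀ (s34m_F K₀ (M * q)))) (p : ℕ), 2 ≤ p →
      (∀ 𝔫 : Ideal (s34x_ring (s34x_infRing (s34m_VV G φ M q hq hqM))
          (s18_chart1 (L₀ := K₀) wN)), 𝔫.IsMaximal →
        s33k_ss_compThrough (s34m_VV G φ M q hq hqM) _ (s34m_unif G (M * q)) 𝔫 true →
        s33k_ss_compThrough (s34m_VV G φ M q hq hqM) _ (s34m_unif G (M * q)) 𝔫 false →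
        ∀ Q ∈ s18_chart1 (L₀ := K₀) wN,
          s34f_through (s34x_infRing (s34m_VV G φ M q hq hqM)) _ 𝔫 Q → Q ∈ N) →
      ∀ c ∈ s34x_ring (s34x_infRing (s34m_VV G φ M q hq hqM)) (s18_chart1 (L₀ := K₀) wN),
        ∀ x ∈ s34x_ring (s34x_infRing (s34m_VV G φ M q hq hqM))
          (N ∩ s18_chart1 (L₀ := K₀) wN),
        ∀ b ∈ s34x_ring (s34x_infRing (s34m_VV G φ M q hq hqM)) (s18_chart1 (L₀ := K₀) wN),
        (∃ y ∈ s34x_infRing (s34m_VV G φ M q hq hqM),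
          x ^ p + c * x - b = algebraMap K₀ (s34m_F K₀ (M * q)) ((G.ϖ : G.A) : K₀) * y) →
        ∃ b' ∈ s34x_ring (s34x_infRing (s34m_VV G φ M q hq hqM)) (s18_chart1 (L₀ := K₀) wN),
          ∃ y ∈ s34x_infRing (s34m_VV G φ M q hq hqM),
            x - b' = algebraMap K₀ (s34m_F K₀ (M * q)) ((G.ϖ : G.A) : K₀) * y) := by
  subst hwN
  exact s33k_ss_model_chart G φ M q hq hqM hdeg hT hdegM w hwV hcoord hwtw hmain hαN hαB hβB

end Chart'

/-- **`SuperCritical_Σ` for the model at level `M p`, `p ≥ 5`.** -/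
theorem s33k_ss_superCritical_five (M p : ℕ) [NeZero M] [NeZero p] (hp : p.Prime)
    (hpM : ¬ p ∣ M) (h5 : 5 ≤ p) (K₀ : Type) [Field K₀] [NumberField K₀] (φ : K₀ →+* Kb)
    (κ : Type) [Field κ] [CharP κ p] [PerfectField κ]
    (G : s18g_GaussData K₀ κ) [IsDiscreteValuationRing G.A] (hπ : Function.Surjective G.π)
    (ε εinv : G.A) (hε : ε * εinv = 1) (e : ℕ)
    (hpϖ : (p : K₀) = ((G.ϖ : G.A) : K₀) ^ e * (ε : K₀))
    (hfull : ∀ h : s34m_F K₀ (M * p), (∀ Q : Place K₀ (s34m_F K₀ (M * p)),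
      h ∈ Q.toValuationSubring) → ∃ c : K₀, h = algebraMap K₀ (s34m_F K₀ (M * p)) c)
    (N : Set (Place K₀ (s34m_F K₀ (M * p))))
    (hN1 : ∀ 𝔫 : Ideal (s34x_ring (s34x_infRing (s34m_VV G φ M p hp hpM))
        (s18_chart1 (L₀ := K₀) (s18g_jF (K := K₀) (M * p)))), 𝔫.IsMaximal →
      s33k_ss_compThrough (s34m_VV G φ M p hp hpM) _ (s34m_unif G (M * p)) 𝔫 true →
      s33k_ss_compThrough (s34m_VV G φ M p hp hpM) _ (s34m_unif G (M * p)) 𝔫 false →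
      ∀ Q ∈ s18_chart1 (L₀ := K₀) (s18g_jF (K := K₀) (M * p)),
        s34f_through (s34x_infRing (s34m_VV G φ M p hp hpM)) _ 𝔫 Q → Q ∈ N)
    (hN2 : ∀ 𝔫 : Ideal (s34x_ring (s34x_infRing (s34m_VV G φ M p hp hpM))
        (s18_chart2 (L₀ := K₀) (s18g_jF (K := K₀) (M * p)))), 𝔫.IsMaximal →
      s33k_ss_compThrough (s34m_VV G φ M p hp hpM) _ (s34m_unif G (M * p)) 𝔫 true →
      s33k_ss_compThrough (s34m_VV G φ M p hp hpM) _ (s34m_unif G (M * p)) 𝔫 false →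
      ∀ Q ∈ s18_chart2 (L₀ := K₀) (s18g_jF (K := K₀) (M * p)),
        s34f_through (s34x_infRing (s34m_VV G φ M p hp hpM)) _ 𝔫 Q → Q ∈ N)
    (f : s34m_F K₀ (M * p)) (a : ℕ) (ha : p * e < (p - 1) * a)
    (hdiv : ∀ Q : Place K₀ (s34m_F K₀ (M * p)), (p : ℤ) ∣ Q.ord f)
    (hNf : ∀ Q ∈ N, Q.ord f = 0)
    (hf1 : ∃ y ∈ s34x_infRing (s34m_VV G φ M p hp hpM),
      f - 1 = algebraMap K₀ (s34m_F K₀ (M * p)) ((G.ϖ : G.A) : K₀) ^ a * y) :
    ∃ (c : K₀) (x : s34m_F K₀ (M * p)), c ≠ 0 ∧ x ≠ 0 ∧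
      f = algebraMap K₀ (s34m_F K₀ (M * p)) c * x ^ p := by
  haveI : Fact p.Prime := ⟨hp⟩
  haveI : PerfectRing κ p := inferInstance
  have hT : s18g_HT κ M := s18t_indep_j p M hpM κ
  have hdegM : s18g_HDeg K₀ M := fun n b hb hn => s18g_exists_relation M φ hn b hb
  have hdeg : s34m_HDeg K₀ M p := fun b hb y => s34r_deg_spanning φ M p hp hpM b hb y
  have hdegN : s18g_HDeg K₀ (M * p) := fun n b hb hn => s18g_exists_relation (M * p) φ hn b hb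
  haveI hgen : FFGen K₀ (s18g_jF (K := K₀) (M * p)) := s18b_ffGen_jF (M * p) hdegN
  haveI hgen' : FFGen K₀ (s18g_jF (K := K₀) (M * p))⁻¹ := ff_gen_inv
  have hFM : ∀ f ∈ laurentBaseChange K₀ (modularFunctionFieldFull M), f ∈ s18g_Frac G :=
    fun _ hf => s18g_baseChange_mem_Frac G M hf
  obtain ⟨hmain1, hmain2⟩ := s34df_hmain_five M p h5 K₀ φ κ G hπ hT hdegM
  have hred1 : ((s18g_redF G M hFM hT hdegM ⟨s18g_jF (K := K₀) M, s18g_jF_mem_V G M hFM⟩ :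
      ↥(modularFunctionFieldFullC κ M)) : LaurentSeries κ) = jqModC κ := by
    rw [s18g_coe_redF]
    exact s18g_red_jq G
  have hred2 : ((s18g_redF G M hFM hT hdegM
      ⟨(s18g_jF (K := K₀) M)⁻¹, s18g_jF_inv_mem_V G M hFM⟩ :
      ↥(modularFunctionFieldFullC κ M)) : LaurentSeries κ) = (jqModC κ)⁻¹ := by
    rw [s18f_redF_inv G M hT hdegM _ (s18g_jF_ne_zero M) (s18g_jF_mem_V G M hFM),
      IntermediateField.coe_inv, hred1]
  -- the two charts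
  obtain ⟨hI1, hS1⟩ := s33k_ss_model_chart' G φ M p hp hpM hdeg hT hdegM
    (s18g_jF (K := K₀) M) (s18g_jF_mem_V G M hFM)
    (by rw [hred1]; exact s37b_coord_jq κ p)
    (by intro τ; rw [hred1]; exact coeffMap_jqModC _)
    hmain1 (s18g_jF (K := K₀) (M * p)) (s34m_alpha_jF M p)
    (s34f_alpha_j G φ M p hp hpM)
    (fun g hg => s34d_alpha_liftJ₁ G φ M p hp hpM g hg)
    (fun g hg => s34d_beta_liftJ₁ G φ M p hp hpM g hg)
  obtain ⟨hI2, hS2⟩ := s33k_ss_model_chart' G φ M p hp hpM hdeg hT hdegM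
    (s18g_jF (K := K₀) M)⁻¹ (s18g_jF_inv_mem_V G M hFM)
    (by rw [hred2]; exact s37b_coord_inv (s37b_coord_jq κ p))
    (by intro τ; rw [hred2, map_inv₀, coeffMap_jqModC])
    hmain2 (s18g_jF (K := K₀) (M * p))⁻¹ (by rw [map_inv₀, s34m_alpha_jF])
    (s34f_alpha_inv G φ M p hp hpM)
    (fun g hg => s34d_alpha_liftJ₂ G φ M p hp hpM g hg)
    (fun g hg => s34d_beta_liftJ₂ G φ M p hp hpM g hg)
  -- `f ≠ 0`
  have hϖ0 : ((G.ϖ : G.A) : K₀) ≠ 0 := s18g_unifK_ne_zero G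
  have hπO : ∀ i, algebraMap K₀ (s34m_F K₀ (M * p)) ((G.ϖ : G.A) : K₀) ∈
      s34m_VV G φ M p hp hpM i := fun i => s34m_unif_mem_VV G φ M p hp hpM i
  have hJ := s34x_inf_hJ (s34m_VV G φ M p hp hpM)
    (algebraMap K₀ (s34m_F K₀ (M * p)) ((G.ϖ : G.A) : K₀)) hπO
    (fun i => s34f_unif_not_unit_VV G φ M p hp hpM i)
  have ha1 : 1 ≤ a := by
    rcases Nat.eq_zero_or_pos a with h | h
    · rw [h] at ha; omega
    · exact h
  have hf0 : f ≠ 0 := by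
    rintro rfl
    obtain ⟨y, hy, e'⟩ := hf1
    apply s34f_unif_not_unit_VV G φ M p hp hpM true
    obtain ⟨a', rfl⟩ := Nat.exists_eq_add_of_le ha1
    refine ⟨-(algebraMap K₀ (s34m_F K₀ (M * p)) ((G.ϖ : G.A) : K₀) ^ a' * y),
      (s34m_VV G φ M p hp hpM true).neg_mem _ ((s34m_VV G φ M p hp hpM true).mul_mem _ _
        ((s34m_VV G φ M p hp hpM true).pow_mem (hπO true) _)
        ((s34x_mem_infRing _ _).mp hy true)), ?_⟩
    have : algebraMap K₀ (s34m_F K₀ (M * p)) ((G.ϖ : G.A) : K₀) ^ (1 + a') * y = -1 := by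
      rw [← e']; ring
    rw [mul_neg, ← mul_assoc, ← pow_succ', add_comm a' 1, this]
    ring
  have hEN : ∀ Q ∈ N, s18_E f p Q = 0 := by
    intro Q hQ
    rw [s18_E, hNf Q hQ, Int.zero_ediv]
  refine s33k_ss_superCritical G.A (s34x_infRing (s34m_VV G φ M p hp hpM))
    (s34x_inf_const_mem (s34m_VV G φ M p hp hpM) G.A (s34c_const_mem_VV G φ M p hp hpM))
    G.ϖ hϖ0 hJ p hp ε εinv hε e hpϖ hfull (s18g_jF (K := K₀) (M * p)) f a ha N hdiv hNf hf1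
    ?_ ?_ ?_ ?_ ?_
  · exact hS1 N p hp.two_le hN1
  · exact hS2 N p hp.two_le hN2
  · exact hI1 (s18_E f p) (s18f_finite_E (s18g_jF (K := K₀) (M * p)) hf0 p)
      (fun 𝔫 h𝔫 h1 h2 Q hQ hth => hEN Q (hN1 𝔫 h𝔫 h1 h2 Q hQ hth))
  · exact hI2 (s18_E f p) (s18f_finite_E (s18g_jF (K := K₀) (M * p))⁻¹ hf0 p)
      (fun 𝔫 h𝔫 h1 h2 Q hQ hth => hEN Q (hN2 𝔫 h𝔫 h1 h2 Q hQ hth))
  · exact s34c_hH G φ M p hp hpM (s34f_alpha_j G φ M p hp hpM) hf0 p

end Fermat.Agent.Lib.S33
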