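/-
P-AT-P (S33 programme, private branch), brick **[SEP-ss]** part 14 (helper9): **`SuperCritical_Σ` for
the two-component model of `Lib/S34` at level `M q` and an ARBITRARY base coordinate `wN = α w`**
(`w` a level-`M` function with `w^{±1}` in the Gauss ring; `w = j` gives back
`s33k_ss_superCritical_five`, `w = t₂`, `t₃` the branches `q = 3, 2 ∣ M` and `q = 2, 3 ∣ M`).

`s33k_ss_superCritical_base`: the inputs are those of `s34d_elem_of_hmain` for `w` and for `w⁻¹`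
(`hcoord`, `hwtw`, `hmain`, `hαB`, `hβB`) + (α) for `wN` and `wN⁻¹` (`s34f_AlphaW`) + `hfull`.
-/
import Fermat.Agent.Lib.S33.KumPSsFive
import Fermat.Agent.Lib.S34.FBase
import Fermat.Agent.Lib.S34.EBaseT

set_option autoImplicit false
set_option linter.unusedSectionVars false
set_option linter.style.haveILetI false

noncomputable section

namespace Fermat.Agent.Lib.S33

open ModularCurve AlgebraicCurve Polynomial IntermediateField Fermat.Agent.Lib.FF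
  Fermat.Agent.Lib.S18 Fermat.Agent.Lib.S37 Fermat.Agent.Lib.S34 IsLocalRing

local notation "Kb" => AlgebraicClosure ℚ

section Base

variable {K₀ : Type} [Field K₀] [CharZero K₀] [Algebra ℚ K₀] {κ : Type} [Field κ]
  (G : s18g_GaussData K₀ κ) (φ : K₀ →+* Kb) (M q : ℕ) [NeZero M] [NeZero q]
  (hq : q.Prime) (hqM : ¬ q ∣ M) [CharP κ q] [PerfectField κ] [PerfectRing κ q]

local notation "𝓕M" => laurentBaseChange K₀ (modularFunctionFieldFull M)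
local notation "𝓕N" => laurentBaseChange K₀ (modularFunctionFieldFull (M * q))
local notation "hFM" => (fun (f : LaurentSeries K₀)
  (hf : f ∈ laurentBaseChange K₀ (modularFunctionFieldFull M)) => s18g_baseChange_mem_Frac G M hf)

include hq hqM in
/-- **`SuperCritical_Σ` for the model at level `M q` with base coordinate `wN = α w`.** -/
theorem s33k_ss_superCritical_base [IsDiscreteValuationRing G.A]
    (hdeg : s34m_HDeg K₀ M q) (hT : s18g_HT κ M) (hdegM : s18g_HDeg K₀ M)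
    (w : ↥𝓕M) (hw0 : w ≠ 0) (hwV : w ∈ s18g_V G 𝓕M hFM) (hwinvV : w⁻¹ ∈ s18g_V G 𝓕M hFM)
    (hcoord : s37b_Coord κ q
      ((s18g_redF G M hFM hT hdegM ⟨w, hwV⟩ : ↥(modularFunctionFieldFullC κ M)) : LaurentSeries κ))
    (hwtw : ∀ τ : κ ≃+* κ, ModularCurve.coeffMap (τ : κ →+* κ)
      ((s18g_redF G M hFM hT hdegM ⟨w, hwV⟩ : ↥(modularFunctionFieldFullC κ M)) : LaurentSeries κ) =
      ((s18g_redF G M hFM hT hdegM ⟨w, hwV⟩ : ↥(modularFunctionFieldFullC κ M)) : LaurentSeries κ))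
    (hmain1 : letI := s18f_algF G M hT hdegM w hwV
      ∀ z : ↥(modularFunctionFieldFullC κ M), IsIntegral κ[X] z →
        ∃ (b : ↥𝓕M) (hb : b ∈ s18_ring (L₀ := K₀) (s18g_V G 𝓕M hFM) (s18_chart1 w)),
          s18g_redF G M hFM hT hdegM ⟨b, hb.1⟩ = z)
    (hmain2 : letI := s18f_algF G M hT hdegM w⁻¹ hwinvV
      ∀ z : ↥(modularFunctionFieldFullC κ M), IsIntegral κ[X] z →
        ∃ (b : ↥𝓕M) (hb : b ∈ s18_ring (L₀ := K₀) (s18g_V G 𝓕M hFM) (s18_chart1 w⁻¹)),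
          s18g_redF G M hFM hT hdegM ⟨b, hb.1⟩ = z)
    (wN : ↥𝓕N) (hwN : heckeAlphaBar K₀ M q w = wN) [FFGen K₀ wN]
    (hα1 : s34f_AlphaW G φ M q hq hqM wN) (hα2 : s34f_AlphaW G φ M q hq hqM wN⁻¹)
    (hαB1 : ∀ g ∈ (s18_ring (L₀ := K₀) (s34m_Vinf G M) (s18_chart1 w) : Set (s34m_F K₀ M)),
      heckeAlphaBar K₀ M q g ∈ s34x_ring (s34x_infRing (s34m_VV G φ M q hq hqM))
        (s18_chart1 (L₀ := K₀) wN))
    (hβB1 : ∀ g ∈ (s18_ring (L₀ := K₀) (s34m_Vinf G M) (s18_chart1 w) : Set (s34m_F K₀ M)),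
      ∃ b' ∈ s34x_ring (s34x_infRing (s34m_VV G φ M q hq hqM)) (s18_chart1 (L₀ := K₀) wN),
      ∃ z, z ∈ s34m_Vinf G (M * q) ∧ z ∈ s34m_Vzero G φ M q hq hqM ∧
        b' - heckeBetaBar K₀ M q g = s34m_unif G (M * q) * z)
    (hαB2 : ∀ g ∈ (s18_ring (L₀ := K₀) (s34m_Vinf G M) (s18_chart1 w⁻¹) : Set (s34m_F K₀ M)),
      heckeAlphaBar K₀ M q g ∈ s34x_ring (s34x_infRing (s34m_VV G φ M q hq hqM))
        (s18_chart2 (L₀ := K₀) wN))
    (hβB2 : ∀ g ∈ (s18_ring (L₀ := K₀) (s34m_Vinf G M) (s18_chart1 w⁻¹) : Set (s34m_F K₀ M)),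
      ∃ b' ∈ s34x_ring (s34x_infRing (s34m_VV G φ M q hq hqM)) (s18_chart2 (L₀ := K₀) wN),
      ∃ z, z ∈ s34m_Vinf G (M * q) ∧ z ∈ s34m_Vzero G φ M q hq hqM ∧
        b' - heckeBetaBar K₀ M q g = s34m_unif G (M * q) * z)
    (ε εinv : G.A) (hε : ε * εinv = 1) (e : ℕ)
    (hpϖ : (q : K₀) = ((G.ϖ : G.A) : K₀) ^ e * (ε : K₀))
    (hfull : ∀ h : s34m_F K₀ (M * q), (∀ Q : Place K₀ (s34m_F K₀ (M * q)),
      h ∈ Q.toValuationSubring) → ∃ c : K₀, h = algebraMap K₀ (s34m_F K₀ (M * q)) c)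
    (N : Set (Place K₀ (s34m_F K₀ (M * q))))
    (hN1 : ∀ 𝔫 : Ideal (s34x_ring (s34x_infRing (s34m_VV G φ M q hq hqM))
        (s18_chart1 (L₀ := K₀) wN)), 𝔫.IsMaximal →
      s33k_ss_compThrough (s34m_VV G φ M q hq hqM) _ (s34m_unif G (M * q)) 𝔫 true →
      s33k_ss_compThrough (s34m_VV G φ M q hq hqM) _ (s34m_unif G (M * q)) 𝔫 false →
      ∀ Q ∈ s18_chart1 (L₀ := K₀) wN,
        s34f_through (s34x_infRing (s34m_VV G φ M q hq hqM)) _ 𝔫 Q → Q ∈ N)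
    (hN2 : ∀ 𝔫 : Ideal (s34x_ring (s34x_infRing (s34m_VV G φ M q hq hqM))
        (s18_chart2 (L₀ := K₀) wN)), 𝔫.IsMaximal →
      s33k_ss_compThrough (s34m_VV G φ M q hq hqM) _ (s34m_unif G (M * q)) 𝔫 true →
      s33k_ss_compThrough (s34m_VV G φ M q hq hqM) _ (s34m_unif G (M * q)) 𝔫 false →
      ∀ Q ∈ s18_chart2 (L₀ := K₀) wN,
        s34f_through (s34x_infRing (s34m_VV G φ M q hq hqM)) _ 𝔫 Q → Q ∈ N)
    (f : s34m_F K₀ (M * q)) (a : ℕ) (ha : q * e < (q - 1) * a)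
    (hdiv : ∀ Q : Place K₀ (s34m_F K₀ (M * q)), (q : ℤ) ∣ Q.ord f)
    (hNf : ∀ Q ∈ N, Q.ord f = 0)
    (hf1 : ∃ y ∈ s34x_infRing (s34m_VV G φ M q hq hqM),
      f - 1 = algebraMap K₀ (s34m_F K₀ (M * q)) ((G.ϖ : G.A) : K₀) ^ a * y) :
    ∃ (c : K₀) (x : s34m_F K₀ (M * q)), c ≠ 0 ∧ x ≠ 0 ∧
      f = algebraMap K₀ (s34m_F K₀ (M * q)) c * x ^ q := by
  haveI hgen' : FFGen K₀ wN⁻¹ := ff_gen_inv
  have hredinv : ((s18g_redF G M hFM hT hdegM ⟨w⁻¹, hwinvV⟩ :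
      ↥(modularFunctionFieldFullC κ M)) : LaurentSeries κ) =
      (((s18g_redF G M hFM hT hdegM ⟨w, hwV⟩ : ↥(modularFunctionFieldFullC κ M)) :
        LaurentSeries κ))⁻¹ := by
    rw [s18f_redF_inv G M hT hdegM w hw0 hwV hwinvV, IntermediateField.coe_inv]
  have hwN0 : wN ≠ 0 := by
    rw [← hwN]
    exact (_root_.map_ne_zero _).mpr hw0
  have hwO : ∀ i, wN ∈ s34m_VV G φ M q hq hqM i := fun i => by
    rw [← hwN]; exact s34m_alpha_mem_VV G φ M q hq hqM hwV i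
  have hwO' : ∀ i, wN⁻¹ ∈ s34m_VV G φ M q hq hqM i := fun i => by
    rw [← hwN, ← map_inv₀]; exact s34m_alpha_mem_VV G φ M q hq hqM hwinvV i
  -- the two charts
  obtain ⟨hI1, hS1⟩ := s33k_ss_model_chart' G φ M q hq hqM hdeg hT hdegM w hwV hcoord hwtw
    hmain1 wN hwN hα1 hαB1 hβB1
  obtain ⟨hI2, hS2⟩ := s33k_ss_model_chart' G φ M q hq hqM hdeg hT hdegM w⁻¹ hwinvV
    (by rw [hredinv]; exact s37b_coord_inv hcoord)
    (by intro τ; rw [hredinv, map_inv₀, hwtw τ])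
    hmain2 wN⁻¹ (by rw [map_inv₀, hwN]) hα2 hαB2 hβB2
  -- `f ≠ 0`
  have hϖ0 : ((G.ϖ : G.A) : K₀) ≠ 0 := s18g_unifK_ne_zero G
  have hπO : ∀ i, algebraMap K₀ (s34m_F K₀ (M * q)) ((G.ϖ : G.A) : K₀) ∈
      s34m_VV G φ M q hq hqM i := fun i => s34m_unif_mem_VV G φ M q hq hqM i
  have hJ := s34x_inf_hJ (s34m_VV G φ M q hq hqM)
    (algebraMap K₀ (s34m_F K₀ (M * q)) ((G.ϖ : G.A) : K₀)) hπO
    (fun i => s34f_unif_not_unit_VV G φ M q hq hqM i)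
  have ha1 : 1 ≤ a := by
    rcases Nat.eq_zero_or_pos a with h | h
    · rw [h] at ha; omega
    · exact h
  have hf0 : f ≠ 0 := by
    rintro rfl
    obtain ⟨y, hy, e'⟩ := hf1
    apply s34f_unif_not_unit_VV G φ M q hq hqM true
    obtain ⟨a', rfl⟩ := Nat.exists_eq_add_of_le ha1
    refine ⟨-(algebraMap K₀ (s34m_F K₀ (M * q)) ((G.ϖ : G.A) : K₀) ^ a' * y),
      (s34m_VV G φ M q hq hqM true).neg_mem _ ((s34m_VV G φ M q hq hqM true).mul_mem _ _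
        ((s34m_VV G φ M q hq hqM true).pow_mem (hπO true) _)
        ((s34x_mem_infRing _ _).mp hy true)), ?_⟩
    have : algebraMap K₀ (s34m_F K₀ (M * q)) ((G.ϖ : G.A) : K₀) ^ (1 + a') * y = -1 := by
      rw [← e']; ring
    rw [mul_neg, ← mul_assoc, ← pow_succ', add_comm a' 1, this]
    ring
  have hEN : ∀ Q ∈ N, s18_E f q Q = 0 := by
    intro Q hQ
    rw [s18_E, hNf Q hQ, Int.zero_ediv]
  refine s33k_ss_superCritical G.A (s34x_infRing (s34m_VV G φ M q hq hqM))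
    (s34x_inf_const_mem (s34m_VV G φ M q hq hqM) G.A (s34c_const_mem_VV G φ M q hq hqM))
    G.ϖ hϖ0 hJ q hq ε εinv hε e hpϖ hfull wN f a ha N hdiv hNf hf1
    ?_ ?_ ?_ ?_ ?_
  · exact hS1 N q hq.two_le hN1
  · exact hS2 N q hq.two_le hN2
  · exact hI1 (s18_E f q) (s18f_finite_E wN hf0 q)
      (fun 𝔫 h𝔫 h1 h2 Q hQ hth => hEN Q (hN1 𝔫 h𝔫 h1 h2 Q hQ hth))
  · exact hI2 (s18_E f q) (s18f_finite_E wN⁻¹ hf0 q)
      (fun 𝔫 h𝔫 h1 h2 Q hQ hth => hEN Q (hN2 𝔫 h𝔫 h1 h2 Q hQ hth))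
  · exact s34f_hH_w G φ M q hq hqM wN hwN0 hwO hwO' hα1 hf0 q

end Base

end Fermat.Agent.Lib.S33
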