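/-
P-AT-P programme (S33), Stage 2, brick [CONN] (helper8): CONNECTEDNESS OF THE TWO-COMPONENT SPECIAL
FIBRE, in the abstract chart framework of Lib/S34 (`s34x_ring`, `s34x_lat`, `s34x_infRing`).

Setting: `O : Bool → ValuationSubring 𝓕` the two vertical valuation rings (`true ↦ V_∞`,
`false ↦ V_0`), `π = ϖ` a non-unit of both, charts `S₁ = chart1 t`, `S₂ = chart2 t`,
`B_i = s34x_ring (s34x_infRing O) S_i`.  A "splitting idempotent" on a chart is `e ∈ B_i` with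
`e ∈ π O_false` and `1 - e ∈ π O_true` (`e ≡ (1, 0)` on the two components; it exists iff no maximal
ideal of `B_i` contains both component primes, i.e. iff the chart contains no node).

* `s33s_idem_lift`, `s33s_idem_unique` : lifting / uniqueness of idempotents modulo `π ^ n`
  (pure algebra, no units needed);
* **`s33s_no_split`** : the two charts cannot BOTH carry a splitting idempotent, as soon as the
  Čech `H¹` is finitely generated (`hH` of `s34f_Geo` with `f = 1`) and the global functions are the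
  constants `A₀`.  (Zariski connectedness via finiteness: the idempotents lift to compatible
  idempotents modulo `π ^ n` for all `n`, bounded torsion produces a GLOBAL function `≡ (1, 0)`,
  which is a constant — absurd.)
-/
import Fermat.Agent.Lib.S34.XInf
import Fermat.Agent.Lib.S18.ACore2

set_option autoImplicit false

noncomputable section

namespace Fermat.Agent.Lib.S33

open AlgebraicCurve Fermat.Agent.Lib.FF Fermat.Agent.Lib.S18 Fermat.Agent.Lib.S34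

section Alg

variable {B : Type*} [CommRing B]

/-- Lifting of idempotents modulo powers of `π` (Newton step `e ↦ 3e² - 2e³`). -/
theorem s33s_idem_lift (π e : B) (h : ∃ y, e * e - e = π * y) (n : ℕ) :
    ∃ e' : B, (∃ y, e' - e = π * y) ∧ ∃ y, e' * e' - e' = π ^ (n + 1) * y := by
  induction n with
  | zero =>
    obtain ⟨y, hy⟩ := h
    exact ⟨e, ⟨0, by ring⟩, y, by rw [zero_add, pow_one, hy]⟩
  | succ n ih =>
    obtain ⟨e₁, ⟨y₁, h₁⟩, y₂, h₂⟩ := ih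
    refine ⟨3 * e₁ ^ 2 - 2 * e₁ ^ 3, ⟨y₁ - π ^ n * y₂ * (2 * e₁ - 1), ?_⟩,
      π ^ n * y₂ ^ 2 * (4 * e₁ ^ 2 - 4 * e₁ - 3), ?_⟩
    · have : 3 * e₁ ^ 2 - 2 * e₁ ^ 3 - e = (e₁ - e) - (e₁ * e₁ - e₁) * (2 * e₁ - 1) := by ring
      rw [this, h₁, h₂]
      ring
    · have : (3 * e₁ ^ 2 - 2 * e₁ ^ 3) * (3 * e₁ ^ 2 - 2 * e₁ ^ 3) - (3 * e₁ ^ 2 - 2 * e₁ ^ 3) =
          (e₁ * e₁ - e₁) ^ 2 * (4 * e₁ ^ 2 - 4 * e₁ - 3) := by ring
      rw [this, h₂]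
      ring

/-- Uniqueness of idempotents modulo `π ^ n` which agree modulo `π`. -/
theorem s33s_idem_unique (π x y : B) (n : ℕ) (hx : ∃ z, x * x - x = π ^ n * z)
    (hy : ∃ z, y * y - y = π ^ n * z) (hxy : ∃ z, x - y = π * z) (k : ℕ) (hk : k ≤ n) :
    ∃ z, x - y = π ^ k * z := by
  induction k with
  | zero => exact ⟨x - y, by rw [pow_zero, one_mul]⟩
  | succ k ih =>
    obtain ⟨a, ha⟩ := hx
    obtain ⟨b, hb⟩ := hy
    by_cases hk0 : k = 0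
    · subst hk0
      obtain ⟨z, hz⟩ := hxy
      exact ⟨z, by rw [zero_add, pow_one, hz]⟩
    obtain ⟨z, hz⟩ := ih (Nat.le_of_succ_le hk)
    -- `δ = δ³ - (a-part) - (b-part)`
    have key : x - y = (x - y) ^ 3 - (x * x - x) * (1 + x - 3 * y) - (y * y - y) * (3 * x - y - 1) := by
      ring
    obtain ⟨j, hj⟩ : ∃ j, n = (k + 1) + j := ⟨n - (k + 1), by omega⟩
    obtain ⟨i, hi⟩ : ∃ i, 3 * k = (k + 1) + i := ⟨3 * k - (k + 1), by omega⟩
    refine ⟨π ^ i * z ^ 3 - π ^ j * a * (1 + x - 3 * y) - π ^ j * b * (3 * x - y - 1), ?_⟩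
    have h3 : (x - y) ^ 3 = π ^ (k + 1) * (π ^ i * z ^ 3) := by
      rw [hz, mul_pow, ← pow_mul, mul_comm k 3, hi, pow_add]
      ring
    have ha' : x * x - x = π ^ (k + 1) * (π ^ j * a) := by rw [ha, hj, pow_add]; ring
    have hb' : y * y - y = π ^ (k + 1) * (π ^ j * b) := by rw [hb, hj, pow_add]; ring
    rw [key, h3, ha', hb']
    ring

end Alg

section Sub

variable {𝓕 : Type*} [Field 𝓕]

/-- `s33s_idem_lift` inside a subring of a field. -/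
theorem s33s_idem_lift_sub (B : Subring 𝓕) (π e : 𝓕) (hπ : π ∈ B) (he : e ∈ B)
    (h : ∃ y ∈ B, e * e - e = π * y) (n : ℕ) :
    ∃ e' ∈ B, (∃ y ∈ B, e' - e = π * y) ∧ ∃ y ∈ B, e' * e' - e' = π ^ (n + 1) * y := by
  obtain ⟨y, hy, hey⟩ := h
  obtain ⟨e', ⟨y₁, h₁⟩, y₂, h₂⟩ := s33s_idem_lift (B := B) ⟨π, hπ⟩ ⟨e, he⟩
    ⟨⟨y, hy⟩, Subtype.ext hey⟩ n
  exact ⟨e', e'.2, ⟨y₁, y₁.2, congrArg Subtype.val h₁⟩, y₂, y₂.2, congrArg Subtype.val h₂⟩

/-- `s33s_idem_unique` inside a subring of a field. -/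
theorem s33s_idem_unique_sub (B : Subring 𝓕) (π x y : 𝓕) (hπ : π ∈ B) (hx : x ∈ B) (hy : y ∈ B)
    (n : ℕ) (h1 : ∃ z ∈ B, x * x - x = π ^ n * z) (h2 : ∃ z ∈ B, y * y - y = π ^ n * z)
    (h3 : ∃ z ∈ B, x - y = π * z) : ∃ z ∈ B, x - y = π ^ n * z := by
  obtain ⟨a, ha, hxa⟩ := h1
  obtain ⟨b, hb, hyb⟩ := h2
  obtain ⟨c, hc, hxyc⟩ := h3
  obtain ⟨z, hz⟩ := s33s_idem_unique (B := B) ⟨π, hπ⟩ ⟨x, hx⟩ ⟨y, hy⟩ n
    ⟨⟨a, ha⟩, Subtype.ext hxa⟩ ⟨⟨b, hb⟩, Subtype.ext hyb⟩ ⟨⟨c, hc⟩, Subtype.ext hxyc⟩ n le_rfl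
  exact ⟨z, z.2, congrArg Subtype.val hz⟩

end Sub

section Conn

variable {L₀ 𝓕 : Type*} [Field L₀] [Field 𝓕] [Algebra L₀ 𝓕]

/-- Purity of chart rings: dividing by a non-zero constant. -/
theorem s33s_ring_pure (O : Subring 𝓕) (S : Set (Place L₀ 𝓕)) (c : L₀) (hc : c ≠ 0) {x z : 𝓕}
    (hx : x ∈ s34x_ring O S) (hz : z ∈ O) (e : x = algebraMap L₀ 𝓕 c * z) : z ∈ s34x_ring O S := by
  refine ⟨hz, fun Q hQ => ?_⟩
  have hc' : algebraMap L₀ 𝓕 c ≠ 0 := by simpa using hc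
  have : z = algebraMap L₀ 𝓕 c⁻¹ * x := by
    rw [e, ← mul_assoc, ← map_mul, inv_mul_cancel₀ hc, map_one, one_mul]
  rw [this]
  exact Q.toValuationSubring.mul_mem _ _ (Q.algebraMap_mem' _) (hx.2 Q hQ)

theorem s33s_ring_mono (O : Subring 𝓕) {S S' : Set (Place L₀ 𝓕)} (h : S' ⊆ S) :
    s34x_ring O S ≤ s34x_ring O S' :=
  fun _ hy => ⟨hy.1, fun Q hQ => hy.2 Q (h hQ)⟩

theorem s33s_mem_lat_zero_iff (A₀ : ValuationSubring L₀) (O : Subring 𝓕)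
    (hAO : ∀ a : A₀, algebraMap L₀ 𝓕 (a : L₀) ∈ O) (S : Set (Place L₀ 𝓕)) (y : 𝓕) :
    y ∈ s34x_lat A₀ O hAO S (fun _ => 0) ↔ y ∈ s34x_ring O S := by
  change y ∈ s34x_latSet O S (fun _ => 0) ↔ y ∈ s34x_ringSet O S
  rw [s34x_ringSet_eq_latSet_zero]

/-- **[CONN], abstract form**: the two charts cannot both carry a splitting idempotent. -/
theorem s33s_no_split (A₀ : ValuationSubring L₀) [IsNoetherianRing A₀]
    (O : Bool → ValuationSubring 𝓕) (hAO : ∀ i, ∀ a : A₀, algebraMap L₀ 𝓕 (a : L₀) ∈ O i)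
    (ϖ : A₀) (hϖ0 : (ϖ : L₀) ≠ 0)
    (hϖ : ∀ i, ¬ ∃ y ∈ O i, (1 : 𝓕) = algebraMap L₀ 𝓕 (ϖ : L₀) * y)
    (t : 𝓕)
    (hH : ∃ G : Submodule A₀ 𝓕, G.FG ∧
      s34x_lat A₀ (s34x_infRing O) (s34x_inf_const_mem O A₀ hAO) (s18_chart12 t) (fun _ => 0) ≤
        G ⊔ (s34x_lat A₀ (s34x_infRing O) (s34x_inf_const_mem O A₀ hAO) (s18_chart1 t)
              (fun _ => 0) ⊔
            s34x_lat A₀ (s34x_infRing O) (s34x_inf_const_mem O A₀ hAO) (s18_chart2 t)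
              (fun _ => 0)))
    (hconst : ∀ x : 𝓕, x ∈ s34x_ring (s34x_infRing O) (s18_chart1 (L₀ := L₀) t) →
      x ∈ s34x_ring (s34x_infRing O) (s18_chart2 (L₀ := L₀) t) →
        ∃ a : A₀, x = algebraMap L₀ 𝓕 (a : L₀))
    (e : 𝓕) (he : e ∈ s34x_ring (s34x_infRing O) (s18_chart1 (L₀ := L₀) t))
    (he0 : ∃ z ∈ O false, e = algebraMap L₀ 𝓕 (ϖ : L₀) * z)
    (he1 : ∃ z ∈ O true, 1 - e = algebraMap L₀ 𝓕 (ϖ : L₀) * z)
    (f : 𝓕) (hf : f ∈ s34x_ring (s34x_infRing O) (s18_chart2 (L₀ := L₀) t))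
    (hf0 : ∃ z ∈ O false, f = algebraMap L₀ 𝓕 (ϖ : L₀) * z)
    (hf1 : ∃ z ∈ O true, 1 - f = algebraMap L₀ 𝓕 (ϖ : L₀) * z) : False := by
  set π : 𝓕 := algebraMap L₀ 𝓕 (ϖ : L₀) with hπdef
  set OO := s34x_infRing O with hOO
  have hAOO := s34x_inf_const_mem O A₀ hAO
  set B₁ := s34x_ring OO (s18_chart1 (L₀ := L₀) t) with hB₁
  set B₂ := s34x_ring OO (s18_chart2 (L₀ := L₀) t) with hB₂
  set B₁₂ := s34x_ring OO (s18_chart12 (L₀ := L₀) t) with hB₁₂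
  have h1le : B₁ ≤ B₁₂ := s33s_ring_mono OO Set.inter_subset_left
  have h2le : B₂ ≤ B₁₂ := s33s_ring_mono OO Set.inter_subset_right
  have hπ0 : π ≠ 0 := by rw [hπdef]; simpa using hϖ0
  have hπmem : ∀ S : Set (Place L₀ 𝓕), π ∈ s34x_ring OO S := fun S =>
    ⟨hAOO ϖ, fun Q _ => Q.algebraMap_mem' _⟩
  -- membership in `π OO` from membership in both `π O i`
  have hboth : ∀ x : 𝓕, (∃ z ∈ O false, x = π * z) → (∃ z ∈ O true, x = π * z) →
      ∃ z ∈ OO, x = π * z := by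
    intro x h0 h1
    refine (s34x_inf_cong O π hπ0 x).2 (fun i => ?_)
    cases i
    · exact h0
    · exact h1
  have hpure : ∀ (S : Set (Place L₀ 𝓕)) (x : 𝓕), x ∈ s34x_ring OO S → (∃ z ∈ OO, x = π * z) →
      ∃ z ∈ s34x_ring OO S, x = π * z := by
    rintro S x hx ⟨z, hz, e⟩
    exact ⟨z, s33s_ring_pure OO S (ϖ : L₀) hϖ0 hx hz e, e⟩
  have heO : ∀ i, e ∈ O i := fun i => (s34x_mem_infRing O e).1 he.1 i
  have hfO : ∀ i, f ∈ O i := fun i => (s34x_mem_infRing O f).1 hf.1 i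
  -- `e² - e ∈ π B₁`, `f² - f ∈ π B₂`
  have hsq : ∀ (x : 𝓕), (∀ i, x ∈ O i) → (∃ z ∈ O false, x = π * z) →
      (∃ z ∈ O true, 1 - x = π * z) → ∃ z ∈ OO, x * x - x = π * z := by
    intro x hxO h0 h1
    apply hboth
    · obtain ⟨z, hz, ez⟩ := h0
      refine ⟨z * (x - 1), (O false).mul_mem _ _ hz (sub_mem (hxO false)
        (O false).one_mem), ?_⟩
      have : x * x - x = x * (x - 1) := by ring
      rw [this]
      nth_rewrite 1 [ez]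
      ring
    · obtain ⟨z, hz, ez⟩ := h1
      refine ⟨-(x * z), (O true).neg_mem _ ((O true).mul_mem _ _ (hxO true) hz), ?_⟩
      have : x * x - x = -(x * (1 - x)) := by ring
      rw [this, ez]
      ring
  have he2 := hpure _ _ (B₁.sub_mem (B₁.mul_mem he he) he) (hsq e heO he0 he1)
  have hf2 := hpure _ _ (B₂.sub_mem (B₂.mul_mem hf hf) hf) (hsq f hfO hf0 hf1)
  -- `e - f ∈ π B₁₂`
  have hef : ∃ z ∈ B₁₂, e - f = π * z := by
    apply hpure _ _ (B₁₂.sub_mem (h1le he) (h2le hf))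
    apply hboth
    · obtain ⟨z, hz, ez⟩ := he0
      obtain ⟨z', hz', ez'⟩ := hf0
      exact ⟨z - z', sub_mem hz hz', by rw [ez, ez']; ring⟩
    · obtain ⟨z, hz, ez⟩ := he1
      obtain ⟨z', hz', ez'⟩ := hf1
      refine ⟨z' - z, sub_mem hz' hz, ?_⟩
      have : e - f = (1 - f) - (1 - e) := by ring
      rw [this, ez, ez']
      ring
  -- bounded torsion
  obtain ⟨G, hG, hcover⟩ := hH
  obtain ⟨e₀, hbdd⟩ := s18a_bounded_torsion_quot ϖ
    (s34x_lat A₀ OO hAOO (s18_chart1 t) (fun _ => 0))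
    (s34x_lat A₀ OO hAOO (s18_chart2 t) (fun _ => 0))
    (s34x_lat A₀ OO hAOO (s18_chart12 t) (fun _ => 0)) G hG hcover
  -- the approximations at level `n = e₀ + 1`
  obtain ⟨e', he'B, ⟨y₁, hy₁, hey₁⟩, y₂, hy₂, hey₂⟩ :=
    s33s_idem_lift_sub B₁ π e (hπmem _) he he2 e₀
  obtain ⟨f', hf'B, ⟨w₁, hw₁, hfw₁⟩, w₂, hw₂, hfw₂⟩ :=
    s33s_idem_lift_sub B₂ π f (hπmem _) hf hf2 e₀
  have he'f' : ∃ z ∈ B₁₂, e' - f' = π * z := by
    obtain ⟨z, hz, ez⟩ := hef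
    refine ⟨y₁ + z - w₁, B₁₂.sub_mem (B₁₂.add_mem (h1le hy₁) hz) (h2le hw₁), ?_⟩
    have : e' - f' = (e' - e) + (e - f) - (f' - f) := by ring
    rw [this, hey₁, ez, hfw₁]
    ring
  obtain ⟨c, hc, hce⟩ := s33s_idem_unique_sub B₁₂ π e' f' (hπmem _) (h1le he'B) (h2le hf'B)
    (e₀ + 1) ⟨y₂, h1le hy₂, hey₂⟩ ⟨w₂, h2le hw₂, hfw₂⟩ he'f'
  have hsmul : ∀ (n : ℕ) (x : 𝓕), (ϖ ^ n) • x = π ^ n * x := by
    intro n x
    rw [Algebra.smul_def, hπdef, ← map_pow]; rfl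
  have hcL : c ∈ s34x_lat A₀ OO hAOO (s18_chart12 t) (fun _ => 0) :=
    (s33s_mem_lat_zero_iff A₀ OO hAOO _ c).2 hc
  have hsup : (ϖ ^ (e₀ + 1)) • c ∈ s34x_lat A₀ OO hAOO (s18_chart1 t) (fun _ => 0) ⊔
      s34x_lat A₀ OO hAOO (s18_chart2 t) (fun _ => 0) := by
    rw [hsmul, ← hce]
    exact Submodule.sub_mem _
      (Submodule.mem_sup_left ((s33s_mem_lat_zero_iff A₀ OO hAOO _ e').2 he'B))
      (Submodule.mem_sup_right ((s33s_mem_lat_zero_iff A₀ OO hAOO _ f').2 hf'B))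
  obtain ⟨b₁, hb₁, b₂, hb₂, hb⟩ := Submodule.mem_sup.mp (hbdd (e₀ + 1) c hcL hsup)
  rw [s33s_mem_lat_zero_iff] at hb₁ hb₂
  rw [hsmul] at hb
  -- the global function `x = e' - π b₁ = f' + π b₂`
  have hkey : e' - f' = π * b₁ + π * b₂ := by
    rw [hce, pow_succ', mul_assoc, ← hb]
    ring
  have hx1 : e' - π * b₁ ∈ B₁ := B₁.sub_mem he'B (B₁.mul_mem (hπmem _) hb₁)
  have hx2 : e' - π * b₁ ∈ B₂ := by
    have : e' - π * b₁ = f' + π * b₂ := by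
      have h := hkey
      rw [sub_eq_iff_eq_add] at h
      rw [h]; ring
    rw [this]
    exact B₂.add_mem hf'B (B₂.mul_mem (hπmem _) hb₂)
  obtain ⟨a, ha⟩ := hconst _ hx1 hx2
  -- `a ≡ e mod π OO`
  have hae : ∃ z ∈ OO, algebraMap L₀ 𝓕 (a : L₀) - e = π * z := by
    refine ⟨y₁ - b₁, OO.sub_mem hy₁.1 hb₁.1, ?_⟩
    rw [← ha]
    have : e' - π * b₁ - e = (e' - e) - π * b₁ := by ring
    rw [this, hey₁]
    ring
  obtain ⟨z, hz, eaz⟩ := hae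
  have hzO : ∀ i, z ∈ O i := fun i => (s34x_mem_infRing O z).1 hz i
  -- `a` is a non-unit (look in `O false`)
  have ha_nonunit : ¬ IsUnit a := by
    intro hu
    obtain ⟨a', ha'⟩ := hu.exists_right_inv
    apply hϖ false
    obtain ⟨z₀, hz₀, ez₀⟩ := he0
    refine ⟨algebraMap L₀ 𝓕 (a' : L₀) * (z + z₀),
      (O false).mul_mem _ _ (hAO false a') ((O false).add_mem _ _ (hzO false) hz₀), ?_⟩
    have h1 : algebraMap L₀ 𝓕 (a : L₀) = π * (z + z₀) := by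
      have : algebraMap L₀ 𝓕 (a : L₀) = (algebraMap L₀ 𝓕 (a : L₀) - e) + e := by ring
      rw [this, eaz, ez₀]
      ring
    have h2 : algebraMap L₀ 𝓕 (a : L₀) * algebraMap L₀ 𝓕 (a' : L₀) = 1 := by
      rw [← map_mul]
      have := congrArg (fun x : A₀ => (x : L₀)) ha'
      simp only [MulMemClass.coe_mul, OneMemClass.coe_one] at this
      rw [this, map_one]
    rw [← h2, h1]
    ring
  -- `1 - a` is a non-unit (look in `O true`)
  have ha1_nonunit : ¬ IsUnit (1 - a) := by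
    intro hu
    obtain ⟨a', ha'⟩ := hu.exists_right_inv
    apply hϖ true
    obtain ⟨z₁, hz₁, ez₁⟩ := he1
    refine ⟨algebraMap L₀ 𝓕 (a' : L₀) * (z₁ - z),
      (O true).mul_mem _ _ (hAO true a') (sub_mem hz₁ (hzO true)), ?_⟩
    have h1 : algebraMap L₀ 𝓕 ((1 - a : A₀) : L₀) = π * (z₁ - z) := by
      have hc1 : ((1 - a : A₀) : L₀) = 1 - (a : L₀) := rfl
      have : algebraMap L₀ 𝓕 ((1 - a : A₀) : L₀) =
          (1 - e) - (algebraMap L₀ 𝓕 (a : L₀) - e) := by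
        rw [hc1, map_sub, map_one]
        ring
      rw [this, eaz, ez₁]
      ring
    have h2 : algebraMap L₀ 𝓕 ((1 - a : A₀) : L₀) * algebraMap L₀ 𝓕 (a' : L₀) = 1 := by
      rw [← map_mul]
      have := congrArg (fun x : A₀ => (x : L₀)) ha'
      simp only [MulMemClass.coe_mul, OneMemClass.coe_one] at this
      rw [this, map_one]
    rw [← h2, h1]
    ring
  -- contradiction in the local ring `A₀`
  rcases IsLocalRing.isUnit_or_isUnit_one_sub_self a with h | h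
  · exact ha_nonunit h
  · exact ha1_nonunit h

/-- The component prime `𝔭_i = B ∩ π O_i` of a chart ring. -/
def s33s_comp (O : Bool → ValuationSubring 𝓕) (π : 𝓕) (S : Set (Place L₀ 𝓕)) (i : Bool) :
    Ideal (s34x_ring (s34x_infRing O) S) where
  carrier := {b | ∃ z ∈ O i, (b : 𝓕) = π * z}
  zero_mem' := ⟨0, (O i).zero_mem, by simp⟩
  add_mem' := by
    rintro a b ⟨z, hz, ez⟩ ⟨z', hz', ez'⟩
    exact ⟨z + z', (O i).add_mem _ _ hz hz', by push_cast; rw [ez, ez']; ring⟩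
  smul_mem' := by
    rintro c b ⟨z, hz, ez⟩
    refine ⟨(c : 𝓕) * z, (O i).mul_mem _ _ ((s34x_mem_infRing O _).1 c.2.1 i) hz, ?_⟩
    rw [smul_eq_mul]
    push_cast
    rw [ez]
    ring

theorem s33s_mem_comp (O : Bool → ValuationSubring 𝓕) (π : 𝓕) (S : Set (Place L₀ 𝓕)) (i : Bool)
    (b : s34x_ring (s34x_infRing O) S) :
    b ∈ s33s_comp O π S i ↔ ∃ z ∈ O i, (b : 𝓕) = π * z := Iff.rfl

/-- A NODE of the chart `S`: a maximal ideal containing both component primes. -/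
def s33s_IsNode (O : Bool → ValuationSubring 𝓕) (π : 𝓕) (S : Set (Place L₀ 𝓕))
    (𝔫 : Ideal (s34x_ring (s34x_infRing O) S)) : Prop :=
  𝔫.IsMaximal ∧ s33s_comp O π S true ≤ 𝔫 ∧ s33s_comp O π S false ≤ 𝔫

/-- A chart without node carries a splitting idempotent. -/
theorem s33s_split_of_no_node (O : Bool → ValuationSubring 𝓕) (π : 𝓕) (S : Set (Place L₀ 𝓕))
    (h : ¬ ∃ 𝔫, s33s_IsNode O π S 𝔫) :
    ∃ e : 𝓕, e ∈ s34x_ring (s34x_infRing O) S ∧ (∃ z ∈ O false, e = π * z) ∧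
      ∃ z ∈ O true, 1 - e = π * z := by
  have htop : s33s_comp O π S true ⊔ s33s_comp O π S false = ⊤ := by
    by_contra hne
    obtain ⟨𝔫, h𝔫, hle⟩ := Ideal.exists_le_maximal _ hne
    exact h ⟨𝔫, h𝔫, le_trans le_sup_left hle, le_trans le_sup_right hle⟩
  have h1 : (1 : s34x_ring (s34x_infRing O) S) ∈
      s33s_comp O π S true ⊔ s33s_comp O π S false := by
    rw [htop]; trivial
  obtain ⟨x, hx, y, hy, hxy⟩ := Submodule.mem_sup.mp h1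
  obtain ⟨z, hz, ez⟩ := hx
  refine ⟨(y : 𝓕), y.2, hy, z, hz, ?_⟩
  rw [← ez]
  have := congrArg (fun b : s34x_ring (s34x_infRing O) S => (b : 𝓕)) hxy
  simp only [Subring.coe_add, Subring.coe_one] at this
  rw [← this]
  ring

/-- **[CONN] (a)**: one of the two charts contains a node. -/
theorem s33s_exists_node (A₀ : ValuationSubring L₀) [IsNoetherianRing A₀]
    (O : Bool → ValuationSubring 𝓕) (hAO : ∀ i, ∀ a : A₀, algebraMap L₀ 𝓕 (a : L₀) ∈ O i)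
    (ϖ : A₀) (hϖ0 : (ϖ : L₀) ≠ 0)
    (hϖ : ∀ i, ¬ ∃ y ∈ O i, (1 : 𝓕) = algebraMap L₀ 𝓕 (ϖ : L₀) * y)
    (t : 𝓕)
    (hH : ∃ G : Submodule A₀ 𝓕, G.FG ∧
      s34x_lat A₀ (s34x_infRing O) (s34x_inf_const_mem O A₀ hAO) (s18_chart12 t) (fun _ => 0) ≤
        G ⊔ (s34x_lat A₀ (s34x_infRing O) (s34x_inf_const_mem O A₀ hAO) (s18_chart1 t)
              (fun _ => 0) ⊔
            s34x_lat A₀ (s34x_infRing O) (s34x_inf_const_mem O A₀ hAO) (s18_chart2 t)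
              (fun _ => 0)))
    (hconst : ∀ x : 𝓕, x ∈ s34x_ring (s34x_infRing O) (s18_chart1 (L₀ := L₀) t) →
      x ∈ s34x_ring (s34x_infRing O) (s18_chart2 (L₀ := L₀) t) →
        ∃ a : A₀, x = algebraMap L₀ 𝓕 (a : L₀)) :
    (∃ 𝔫, s33s_IsNode O (algebraMap L₀ 𝓕 (ϖ : L₀)) (s18_chart1 (L₀ := L₀) t) 𝔫) ∨
      ∃ 𝔫, s33s_IsNode O (algebraMap L₀ 𝓕 (ϖ : L₀)) (s18_chart2 (L₀ := L₀) t) 𝔫 := by
  by_contra hcon
  rw [not_or] at hcon
  obtain ⟨e, he, he0, he1⟩ := s33s_split_of_no_node O _ _ hcon.1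
  obtain ⟨f, hf, hf0, hf1⟩ := s33s_split_of_no_node O _ _ hcon.2
  exact s33s_no_split A₀ O hAO ϖ hϖ0 hϖ t hH hconst e he he0 he1 f hf hf0 hf1

end Conn

end Fermat.Agent.Lib.S33
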