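/-
P-AT-P programme (S33), Stage 2, brick [SS-MODEL] (helper8), part 2: PLACES THROUGH A POINT OF THE
SPECIAL FIBRE versus LOCALISATION OF THE CHART RING (S34 X″ vocabulary).

`O : Subring 𝓕`, `S` a chart, `B = s34x_ring O S`, `𝔫` a prime of `B`.  The chart ring has Hartogs
built in: for `x ∈ O` with finitely many poles on `S`

  `x` regular at all places `Q ∈ S` through `𝔫`  ⟺  `∃ s ∈ B ∖ 𝔫, s x ∈ B`   (`x ∈ B_𝔫`)

(`s33s_frac_of_reg`, `s33s_reg_of_frac`), and `1 + π y` (`y ∈ B_𝔫`, `π ∈ 𝔫`) has no zero or pole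
through `𝔫` (`s33s_unit`).  `s33s_nodePlaces O π S` : the places of the chart through a node.
-/
import Fermat.Agent.Lib.S33.SSConn
import Fermat.Agent.Lib.S34.FIface

set_option autoImplicit false

noncomputable section

namespace Fermat.Agent.Lib.S33

open AlgebraicCurve Fermat.Agent.Lib.FF Fermat.Agent.Lib.S18 Fermat.Agent.Lib.S34

section Place

variable {L₀ 𝓕 : Type*} [Field L₀] [Field 𝓕] [Algebra L₀ 𝓕]

/-- An element of the chart ring outside `𝔫` has order `0` at every place of the chart through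
`𝔫`. -/
theorem s33s_ord_eq_zero_of_not_mem (O : Subring 𝓕) (S : Set (Place L₀ 𝓕))
    (𝔫 : Ideal (s34x_ring O S)) (s : s34x_ring O S) (hs : s ∉ 𝔫) (Q : Place L₀ 𝓕) (hQ : Q ∈ S)
    (hth : s34f_through O S 𝔫 Q) : Q.ord (s : 𝓕) = 0 := by
  have hs0 : (s : 𝓕) ≠ 0 := by
    intro h0
    apply hs
    have : s = 0 := Subtype.ext h0
    rw [this]
    exact 𝔫.zero_mem
  have h1 : 0 ≤ Q.ord (s : 𝓕) := s34x_ord_nonneg_of_mem_ring O S s Q hQ
  by_contra hne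
  exact hs (hth s hs0 (lt_of_le_of_ne h1 (Ne.symm hne)))

/-- **Hartogs**: `x ∈ O` regular at the places of the chart through `𝔫` is a fraction with
denominator outside `𝔫`. -/
theorem s33s_frac_of_reg (O : Subring 𝓕) (S : Set (Place L₀ 𝓕))
    (𝔫 : Ideal (s34x_ring O S)) [h𝔫 : 𝔫.IsPrime] (x : 𝓕) (hxO : x ∈ O)
    (hfin : {Q : Place L₀ 𝓕 | Q ∈ S ∧ Q.ord x < 0}.Finite)
    (hreg : ∀ Q ∈ S, s34f_through O S 𝔫 Q → x ∈ Q.toValuationSubring) :
    ∃ s : s34x_ring O S, s ∉ 𝔫 ∧ (s : 𝓕) * x ∈ s34x_ring O S := by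
  classical
  by_cases hx0 : x = 0
  · refine ⟨1, fun h => h𝔫.ne_top ((Ideal.eq_top_iff_one _).mpr h), ?_⟩
    rw [hx0, mul_zero]
    exact (s34x_ring O S).zero_mem
  obtain ⟨s, hs𝔫, hs0, hs⟩ := s34x_exists_kill_places O S 𝔫 (fun Q => -Q.ord x) hfin.toFinset (by
    intro Q hQ
    rw [Set.Finite.mem_toFinset] at hQ
    refine ⟨hQ.1, ?_⟩
    by_contra hcon
    push Not at hcon
    have hmem := hreg Q hQ.1 (fun b hb0 hbpos => hcon b hb0 hbpos)
    rw [ff_mem_iff_ord_nonneg Q hx0] at hmem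
    exact absurd hQ.2 (not_lt.mpr hmem))
  refine ⟨s, hs𝔫, O.mul_mem s.2.1 hxO, fun Q hQ => ?_⟩
  rw [ff_mem_iff_ord_nonneg Q (mul_ne_zero hs0 hx0), Q.ord_mul hs0 hx0]
  by_cases hneg : Q.ord x < 0
  · have := hs Q (by rw [Set.Finite.mem_toFinset]; exact ⟨hQ, hneg⟩)
    omega
  · have h1 : 0 ≤ Q.ord (s : 𝓕) := s34x_ord_nonneg_of_mem_ring O S s Q hQ
    omega

/-- Conversely a fraction with denominator outside `𝔫` is regular at the places through `𝔫`. -/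
theorem s33s_reg_of_frac (O : Subring 𝓕) (S : Set (Place L₀ 𝓕))
    (𝔫 : Ideal (s34x_ring O S)) (x : 𝓕) (s : s34x_ring O S) (hs : s ∉ 𝔫)
    (hsx : (s : 𝓕) * x ∈ s34x_ring O S) (Q : Place L₀ 𝓕) (hQ : Q ∈ S)
    (hth : s34f_through O S 𝔫 Q) : x ∈ Q.toValuationSubring := by
  by_cases hx0 : x = 0
  · rw [hx0]; exact Q.toValuationSubring.zero_mem
  have hs0 : (s : 𝓕) ≠ 0 := by
    intro h0
    apply hs
    have : s = 0 := Subtype.ext h0
    rw [this]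
    exact 𝔫.zero_mem
  have h0 := s33s_ord_eq_zero_of_not_mem O S 𝔫 s hs Q hQ hth
  have h1 := hsx.2 Q hQ
  rw [ff_mem_iff_ord_nonneg Q (mul_ne_zero hs0 hx0), Q.ord_mul hs0 hx0, h0, zero_add] at h1
  exact (ff_mem_iff_ord_nonneg Q hx0).mpr h1

/-- **`unit`**: for `y ∈ B_𝔫` and `π ∈ 𝔫` the function `1 + π y` has no zero or pole through
`𝔫`. -/
theorem s33s_unit (O : Subring 𝓕) (S : Set (Place L₀ 𝓕))
    (𝔫 : Ideal (s34x_ring O S)) [h𝔫 : 𝔫.IsPrime] (π : s34x_ring O S) (hπ : π ∈ 𝔫) (y : 𝓕)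
    (s : s34x_ring O S) (hs : s ∉ 𝔫) (hsy : (s : 𝓕) * y ∈ s34x_ring O S)
    (Q : Place L₀ 𝓕) (hQ : Q ∈ S) (hth : s34f_through O S 𝔫 Q) :
    Q.ord (1 + (π : 𝓕) * y) = 0 := by
  set b : s34x_ring O S := ⟨(s : 𝓕) * y, hsy⟩ with hb
  have hsb : s + π * b ∉ 𝔫 := by
    intro h
    apply hs
    have := 𝔫.sub_mem h (𝔫.mul_mem_right b hπ)
    rwa [add_sub_cancel_right] at this
  have hs0 : (s : 𝓕) ≠ 0 := by
    intro h0
    apply hs
    have : s = 0 := Subtype.ext h0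
    rw [this]
    exact 𝔫.zero_mem
  have h1 := s33s_ord_eq_zero_of_not_mem O S 𝔫 (s + π * b) hsb Q hQ hth
  have h2 := s33s_ord_eq_zero_of_not_mem O S 𝔫 s hs Q hQ hth
  have e : ((s + π * b : s34x_ring O S) : 𝓕) = (s : 𝓕) * (1 + (π : 𝓕) * y) := by
    push_cast
    rw [hb]
    ring
  have hne : (1 + (π : 𝓕) * y) ≠ 0 := by
    intro h0
    apply hsb
    have : s + π * b = 0 := Subtype.ext (by rw [e, h0, mul_zero]; rfl)
    rw [this]
    exact 𝔫.zero_mem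
  rw [e, Q.ord_mul hs0 hne, h2, zero_add] at h1
  exact h1

/-- **The places of the chart `S` through a node.** -/
def s33s_nodePlaces (O : Bool → ValuationSubring 𝓕) (π : 𝓕) (S : Set (Place L₀ 𝓕)) :
    Set (Place L₀ 𝓕) :=
  {Q | Q ∈ S ∧ ∃ 𝔫 : Ideal (s34x_ring (s34x_infRing O) S), s33s_IsNode O π S 𝔫 ∧
    s34f_through (s34x_infRing O) S 𝔫 Q}

theorem s33s_nodePlaces_subset (O : Bool → ValuationSubring 𝓕) (π : 𝓕) (S : Set (Place L₀ 𝓕)) :
    s33s_nodePlaces O π S ⊆ S := fun _ h => h.1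

end Place

end Fermat.Agent.Lib.S33
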