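/-
P-AT-P programme (S33), Stage 2, brick (NI) (owner: helper6), part 3: THE CHART-2 → CHART-1
COMPARISON.

Abstract part (`O : Bool → ValuationSubring 𝓕`, charts `S₁ = chart1 t`, `S₂ = chart2 t`,
`B_i = s34x_ring (s34x_infRing O) S_i`, `v = t⁻¹ ∈ B₂`, every non-zero function has finitely many
poles):

* `s33n_exists_pow_mul_mem` : `B₁ ⊆ B₂[1/v]` in element form;
* `s33n_contract` : the ideal `{b ∈ B₁ | ∃ k, v ^ k b ∈ 𝔫₂}` of `B₁`;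
* **`s33n_node_chart2_to_chart1_abs`** : a node `𝔫₂` of `B₂` with `v ∉ 𝔫₂` lies over a node `𝔫₁` of
  `B₁`, and every place of chart 2 through `𝔫₂` lies on chart 1 and passes through `𝔫₁`.

Modular instance (level `M q`, `t = j`): **`s33n_node_chart2_to_chart1`** and
**`s33n_nodePlaces_chart2_subset`** (`s33s_nodePlaces … chart2 ⊆ s33s_nodePlaces … chart1`), using
(NI) `s33n_no_node_at_infty`.
-/
import Fermat.Agent.Lib.S33.SSNoInf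
import Fermat.Agent.Lib.S33.SSPlace

set_option autoImplicit false
set_option linter.style.haveILetI false
set_option linter.unusedSectionVars false

noncomputable section

namespace Fermat.Agent.Lib.S33

open ModularCurve AlgebraicCurve HahnSeries Polynomial Fermat.Agent.Lib.FF Fermat.Agent.Lib.S18
  Fermat.Agent.Lib.S28 Fermat.Agent.Lib.S34 Fermat.Agent.Lib.S37

local notation "Kb" => AlgebraicClosure ℚ

section Abs

variable {L₀ 𝓕 : Type*} [Field L₀] [Field 𝓕] [Algebra L₀ 𝓕]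

/-- `B₁ ⊆ B₂[1/v]`, `v = t⁻¹`: an element of the chart ring of `{t regular}` with finitely many poles
becomes regular on `{t⁻¹ regular}` after multiplication by a power of `t⁻¹`. -/
theorem s33n_exists_pow_mul_mem (O : Subring 𝓕) (t : 𝓕) (ht0 : t ≠ 0) (hvO : t⁻¹ ∈ O) (b : 𝓕)
    (hb : b ∈ s34x_ring O (s18_chart1 (L₀ := L₀) t))
    (hfin : {Q : Place L₀ 𝓕 | Q.ord b < 0}.Finite) :
    ∃ k : ℕ, (t⁻¹) ^ k * b ∈ s34x_ring O (s18_chart2 (L₀ := L₀) t) := by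
  classical
  by_cases hb0 : b = 0
  · exact ⟨0, by rw [hb0, mul_zero]; exact (s34x_ring O _).zero_mem⟩
  set k : ℕ := hfin.toFinset.sup (fun Q => (-(Q.ord b)).toNat) with hk
  have hkQ : ∀ Q : Place L₀ 𝓕, Q.ord b < 0 → -(Q.ord b) ≤ (k : ℤ) := by
    intro Q hQ
    have hQT : Q ∈ hfin.toFinset := by rw [Set.Finite.mem_toFinset]; exact hQ
    have h1 : (-(Q.ord b)).toNat ≤ k := Finset.le_sup (f := fun Q => (-(Q.ord b)).toNat) hQT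
    have h2 : -(Q.ord b) ≤ ((-(Q.ord b)).toNat : ℤ) := Int.self_le_toNat _
    exact h2.trans (by exact_mod_cast h1)
  have hv0 : t⁻¹ ≠ 0 := inv_ne_zero ht0
  refine ⟨k, O.mul_mem (O.pow_mem hvO k) hb.1, fun Q hQ => ?_⟩
  by_cases hneg : Q.ord b < 0
  · -- a pole of `b`: not on chart 1, hence a pole of `t`
    have htQ : ¬ t ∈ Q.toValuationSubring := by
      intro h
      have := (ff_mem_iff_ord_nonneg Q hb0).mp (hb.2 Q h)
      omega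
    have hordt : Q.ord t < 0 := by
      by_contra hcon
      exact htQ ((ff_mem_iff_ord_nonneg Q ht0).mpr (not_lt.mp hcon))
    have hordv : 1 ≤ Q.ord t⁻¹ := by rw [Q.ord_inv]; omega
    rw [ff_mem_iff_ord_nonneg Q (mul_ne_zero (pow_ne_zero _ hv0) hb0),
      Q.ord_mul (pow_ne_zero _ hv0) hb0, s33n_ord_pow]
    have h1 := hkQ Q hneg
    have h2 : (k : ℤ) * 1 ≤ (k : ℤ) * Q.ord t⁻¹ :=
      mul_le_mul_of_nonneg_left hordv (Int.natCast_nonneg k)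
    linarith
  · have hbQ : b ∈ Q.toValuationSubring := (ff_mem_iff_ord_nonneg Q hb0).mpr (not_lt.mp hneg)
    exact Q.toValuationSubring.mul_mem _ _ (pow_mem hQ k) hbQ

variable (O : Bool → ValuationSubring 𝓕) (π : 𝓕) (t : 𝓕)

/-- The contraction to `B₁` of an ideal of `B₂` through `B₂[1/v]`, `v = t⁻¹`. -/
def s33n_contract (ht0 : t ≠ 0) (hvO : t⁻¹ ∈ s34x_infRing O)
    (hfin : ∀ b : 𝓕, b ≠ 0 → {Q : Place L₀ 𝓕 | Q.ord b < 0}.Finite)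
    (𝔫₂ : Ideal (s34x_ring (s34x_infRing O) (s18_chart2 (L₀ := L₀) t))) :
    Ideal (s34x_ring (s34x_infRing O) (s18_chart1 (L₀ := L₀) t)) where
  carrier := {b | ∃ (k : ℕ) (c : s34x_ring (s34x_infRing O) (s18_chart2 (L₀ := L₀) t)),
    c ∈ 𝔫₂ ∧ (c : 𝓕) = (t⁻¹) ^ k * (b : 𝓕)}
  zero_mem' := ⟨0, 0, 𝔫₂.zero_mem, by simp⟩
  add_mem' := by
    rintro a b ⟨k, c, hc, ec⟩ ⟨k', c', hc', ec'⟩
    have hv : t⁻¹ ∈ s34x_ring (s34x_infRing O) (s18_chart2 (L₀ := L₀) t) :=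
      ⟨hvO, fun _ hQ => hQ⟩
    refine ⟨k + k', (⟨t⁻¹, hv⟩ : s34x_ring _ _) ^ k' * c + (⟨t⁻¹, hv⟩ : s34x_ring _ _) ^ k * c',
      𝔫₂.add_mem (𝔫₂.mul_mem_left _ hc) (𝔫₂.mul_mem_left _ hc'), ?_⟩
    push_cast
    rw [ec, ec', _root_.pow_add]
    ring
  smul_mem' := by
    rintro d b ⟨k, c, hc, ec⟩
    by_cases hd0 : (d : 𝓕) = 0
    · refine ⟨0, 0, 𝔫₂.zero_mem, ?_⟩
      rw [smul_eq_mul]
      push_cast
      rw [hd0, zero_mul, mul_zero]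
    obtain ⟨kd, hkd⟩ := s33n_exists_pow_mul_mem (L₀ := L₀) (s34x_infRing O) t ht0 hvO (d : 𝓕) d.2
      (hfin _ hd0)
    refine ⟨kd + k, (⟨_, hkd⟩ : s34x_ring _ _) * c, 𝔫₂.mul_mem_left _ hc, ?_⟩
    rw [smul_eq_mul]
    push_cast
    rw [ec, _root_.pow_add]
    ring

theorem s33n_mem_contract (ht0 : t ≠ 0) (hvO : t⁻¹ ∈ s34x_infRing O)
    (hfin : ∀ b : 𝓕, b ≠ 0 → {Q : Place L₀ 𝓕 | Q.ord b < 0}.Finite)
    (𝔫₂ : Ideal (s34x_ring (s34x_infRing O) (s18_chart2 (L₀ := L₀) t)))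
    (b : s34x_ring (s34x_infRing O) (s18_chart1 (L₀ := L₀) t)) :
    b ∈ s33n_contract O t ht0 hvO hfin 𝔫₂ ↔
      ∃ (k : ℕ) (c : s34x_ring (s34x_infRing O) (s18_chart2 (L₀ := L₀) t)),
        c ∈ 𝔫₂ ∧ (c : 𝓕) = (t⁻¹) ^ k * (b : 𝓕) := Iff.rfl

/-- **COMPARISON (abstract)**: a node `𝔫₂` of chart 2 not containing `v = t⁻¹` lies over a node
`𝔫₁` of chart 1; the places of chart 2 through `𝔫₂` lie on chart 1 and pass through `𝔫₁`. -/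
theorem s33n_node_chart2_to_chart1_abs (ht0 : t ≠ 0) (hvO : t⁻¹ ∈ s34x_infRing O)
    (hfin : ∀ b : 𝓕, b ≠ 0 → {Q : Place L₀ 𝓕 | Q.ord b < 0}.Finite)
    (𝔫₂ : Ideal (s34x_ring (s34x_infRing O) (s18_chart2 (L₀ := L₀) t)))
    (h𝔫₂ : s33s_IsNode O π (s18_chart2 (L₀ := L₀) t) 𝔫₂)
    (hv : (⟨t⁻¹, ⟨hvO, fun _ hQ => hQ⟩⟩ :
      s34x_ring (s34x_infRing O) (s18_chart2 (L₀ := L₀) t)) ∉ 𝔫₂) :
    ∃ 𝔫₁ : Ideal (s34x_ring (s34x_infRing O) (s18_chart1 (L₀ := L₀) t)),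
      s33s_IsNode O π (s18_chart1 (L₀ := L₀) t) 𝔫₁ ∧
      ∀ Q ∈ s18_chart2 (L₀ := L₀) t, s34f_through (s34x_infRing O) (s18_chart2 (L₀ := L₀) t) 𝔫₂ Q →
        Q ∈ s18_chart1 (L₀ := L₀) t ∧
          s34f_through (s34x_infRing O) (s18_chart1 (L₀ := L₀) t) 𝔫₁ Q := by
  obtain ⟨hmax, hc1, hc2⟩ := h𝔫₂
  haveI hprime : 𝔫₂.IsPrime := hmax.isPrime
  have hv0 : t⁻¹ ≠ 0 := inv_ne_zero ht0
  set v : s34x_ring (s34x_infRing O) (s18_chart2 (L₀ := L₀) t) :=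
    ⟨t⁻¹, ⟨hvO, fun _ hQ => hQ⟩⟩ with hvdef
  set 𝔞 := s33n_contract O t ht0 hvO hfin 𝔫₂ with h𝔞
  -- `𝔞` is proper
  have hne : 𝔞 ≠ ⊤ := by
    intro htop
    have h1 : (1 : s34x_ring (s34x_infRing O) (s18_chart1 (L₀ := L₀) t)) ∈ 𝔞 := by
      rw [htop]; trivial
    obtain ⟨k, c, hc, ec⟩ := h1
    have : c = v ^ k := Subtype.ext (by rw [ec]; push_cast; rw [mul_one])
    rw [this] at hc
    exact hv (hprime.mem_of_pow_mem k hc)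
  -- `𝔞` contains the component primes
  have hcomp : ∀ i, (s33s_comp O π (s18_chart2 (L₀ := L₀) t) i ≤ 𝔫₂) →
      s33s_comp O π (s18_chart1 (L₀ := L₀) t) i ≤ 𝔞 := by
    intro i hi b hb
    obtain ⟨z, hz, ez⟩ := hb
    by_cases hb0 : (b : 𝓕) = 0
    · have : b = 0 := Subtype.ext hb0
      rw [this]; exact 𝔞.zero_mem
    obtain ⟨k, hk⟩ := s33n_exists_pow_mul_mem (L₀ := L₀) (s34x_infRing O) t ht0 hvO (b : 𝓕) b.2
      (hfin _ hb0)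
    refine ⟨k, ⟨_, hk⟩, hi ?_, rfl⟩
    refine ⟨(t⁻¹) ^ k * z, (O i).mul_mem _ _ (pow_mem ((s34x_mem_infRing O _).mp hvO i) k) hz, ?_⟩
    show (t⁻¹) ^ k * (b : 𝓕) = _
    rw [ez]; ring
  obtain ⟨𝔫₁, h𝔫₁, hle⟩ := Ideal.exists_le_maximal 𝔞 hne
  refine ⟨𝔫₁, ⟨h𝔫₁, (hcomp true hc1).trans hle, (hcomp false hc2).trans hle⟩, fun Q hQ hth => ?_⟩
  have hordv : Q.ord t⁻¹ = 0 :=
    s33s_ord_eq_zero_of_not_mem (s34x_infRing O) (s18_chart2 (L₀ := L₀) t) 𝔫₂ v hv Q hQ hth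
  have hordt : Q.ord t = 0 := by rw [Q.ord_inv] at hordv; omega
  refine ⟨(ff_mem_iff_ord_nonneg Q ht0).mpr hordt.ge, fun b hb0 hbpos => hle ?_⟩
  obtain ⟨k, hk⟩ := s33n_exists_pow_mul_mem (L₀ := L₀) (s34x_infRing O) t ht0 hvO (b : 𝓕) b.2
    (hfin _ hb0)
  refine ⟨k, ⟨_, hk⟩, hth _ (mul_ne_zero (pow_ne_zero _ hv0) hb0) ?_, rfl⟩
  show 0 < Q.ord ((t⁻¹) ^ k * (b : 𝓕))
  rw [Q.ord_mul (pow_ne_zero _ hv0) hb0, s33n_ord_pow, hordv, mul_zero, zero_add]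
  exact hbpos

end Abs

section Modular

variable {K₀ : Type*} [Field K₀] [Algebra ℚ K₀] {κ : Type*} [Field κ] (G : s18g_GaussData K₀ κ)
variable (φ : K₀ →+* Kb) (M q : ℕ) [NeZero M] [NeZero q]

include φ in
/-- a non-zero modular function has finitely many poles. -/
theorem s33n_finite_poles (N : ℕ) [NeZero N] (b : s34m_F K₀ N) (hb : b ≠ 0) :
    {Q : Place K₀ (s34m_F K₀ N) | Q.ord b < 0}.Finite :=
  (s34d2_finite_ord_ne_zero φ N b hb).subset (fun _ hQ => ne_of_lt hQ)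

/-- **COMPARISON**: every node of the chart `{j ≠ 0}` lies over a node of the chart `{j ≠ ∞}`, and
the places of chart 2 through it lie on chart 1 and pass through that node. -/
theorem s33n_node_chart2_to_chart1 [CharP κ q] (hq : q.Prime) (hqM : ¬ q ∣ M)
    (𝔫₂ : Ideal (s34x_ring (s34x_infRing (s34m_VV G φ M q hq hqM))
      (s18_chart2 (L₀ := K₀) (s18g_jF (K := K₀) (M * q)))))
    (h𝔫₂ : s33s_IsNode (s34m_VV G φ M q hq hqM) (s34m_unif G (M * q))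
      (s18_chart2 (L₀ := K₀) (s18g_jF (K := K₀) (M * q))) 𝔫₂) :
    ∃ 𝔫₁ : Ideal (s34x_ring (s34x_infRing (s34m_VV G φ M q hq hqM))
        (s18_chart1 (L₀ := K₀) (s18g_jF (K := K₀) (M * q)))),
      s33s_IsNode (s34m_VV G φ M q hq hqM) (s34m_unif G (M * q))
        (s18_chart1 (L₀ := K₀) (s18g_jF (K := K₀) (M * q))) 𝔫₁ ∧
      ∀ Q ∈ s18_chart2 (L₀ := K₀) (s18g_jF (K := K₀) (M * q)),
        s34f_through (s34x_infRing (s34m_VV G φ M q hq hqM))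
          (s18_chart2 (L₀ := K₀) (s18g_jF (K := K₀) (M * q))) 𝔫₂ Q →
        Q ∈ s18_chart1 (L₀ := K₀) (s18g_jF (K := K₀) (M * q)) ∧
          s34f_through (s34x_infRing (s34m_VV G φ M q hq hqM))
            (s18_chart1 (L₀ := K₀) (s18g_jF (K := K₀) (M * q))) 𝔫₁ Q := by
  haveI := h𝔫₂.1.isPrime
  exact s33n_node_chart2_to_chart1_abs (s34m_VV G φ M q hq hqM) (s34m_unif G (M * q))
    (s18g_jF (K := K₀) (M * q)) (s18g_jF_ne_zero (M * q)) (s34d2_j_inv_mem_O G φ M q hq hqM)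
    (fun b hb => s33n_finite_poles φ (M * q) b hb) 𝔫₂ h𝔫₂
    (s33n_no_node_at_infty G φ M q hq hqM 𝔫₂ h𝔫₂.2.1 h𝔫₂.2.2)

/-- **All node places lie on chart 1**: the places of chart 2 through a node are places of
chart 1 through a node. -/
theorem s33n_nodePlaces_chart2_subset [CharP κ q] (hq : q.Prime) (hqM : ¬ q ∣ M) :
    s33s_nodePlaces (s34m_VV G φ M q hq hqM) (s34m_unif G (M * q))
        (s18_chart2 (L₀ := K₀) (s18g_jF (K := K₀) (M * q))) ⊆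
      s33s_nodePlaces (s34m_VV G φ M q hq hqM) (s34m_unif G (M * q))
        (s18_chart1 (L₀ := K₀) (s18g_jF (K := K₀) (M * q))) := by
  rintro Q ⟨hQ2, 𝔫₂, h𝔫₂, hth⟩
  obtain ⟨𝔫₁, h𝔫₁, h⟩ := s33n_node_chart2_to_chart1 G φ M q hq hqM 𝔫₂ h𝔫₂
  obtain ⟨hQ1, hth1⟩ := h Q hQ2 hth
  exact ⟨hQ1, 𝔫₁, h𝔫₁, hth1⟩

end Modular

end Fermat.Agent.Lib.S33
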