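/-
P-AT-P programme (S33), Stage 2: **the component half of the instantiation of the Σ-datum `s33z_Datum`**
(`CritSs.lean`) for the modular curve `X_0(M p)`, `p ∤ M`, in the vocabulary of Lib/S34 (`q := p`)
(owner: helper4).

* `s33y_approx` : abstract two-valuation approximation: `V, V'` valuation rings of a field, `π` a common
  non-unit, `V'` "`π`-adically discrete" (every `U ≠ 0` is `π ^ n · unit`), `u` a unit of `V` lying in `π V'`
  ⇒ `V = (V ⊓ V') + π V`.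
* `s33y_approx_inf`, `s33y_approx_zero` : `V_∞ = O₂ + ϖ V_∞`, `V_0 = O₂ + ϖ V_0` for the two Gauss valuations
  of `X_0(M p)` (`u = α j - (β j) ^ p`, resp. `β j - (α j) ^ p`).
* `s33y_redInf_mem_fullC`, `s33y_redZero_mem_fullC` : BOTH reductions of the FULL valuation rings take values
  in `F̄_M = modularFunctionFieldFullC κ M`.
* `s33y_redI`, `s33y_redZ` : the corestricted reductions; `s33y_Ci`, `s33y_Cz : s33z_Comp (s33i_datum G M …) _`.
-/
import Fermat.Agent.Lib.S33.CritSs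
import Fermat.Agent.Lib.S33.FOInstD
import Fermat.Agent.Lib.S34.DFibreF

set_option autoImplicit false
set_option linter.style.haveILetI false
set_option linter.unusedSectionVars false

noncomputable section

namespace Fermat.Agent.Lib.S33

open ModularCurve AlgebraicCurve HahnSeries Fermat.Agent.Lib.FF Fermat.Agent.Lib.S18
  Fermat.Agent.Lib.S34 Fermat.Agent.Lib.S37

/-! ### The abstract approximation lemma -/

/-- **Two-valuation approximation.** -/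
theorem s33y_approx {𝓕 : Type*} [Field 𝓕] (V V' : ValuationSubring 𝓕) (π : 𝓕)
    (hπV : π ∈ V) (hπV' : π ∈ V')
    (hnuV : ¬ ∃ y ∈ V, (1 : 𝓕) = π * y) (hnuV' : ¬ ∃ y ∈ V', (1 : 𝓕) = π * y)
    (hzpow : ∀ U : 𝓕, U ≠ 0 → ∃ (n : ℤ) (u : 𝓕), u ∈ V' ∧ u⁻¹ ∈ V' ∧ U = π ^ n * u)
    (u : 𝓕) (hu0 : u ≠ 0) (huV : u⁻¹ ∈ V) (hu' : ∃ u' ∈ V', u = π * u')
    (y : 𝓕) (hy : y ∈ V) : ∃ y' : 𝓕, y' ∈ V ∧ y' ∈ V' ∧ ∃ z ∈ V, y - y' = π * z := by
  have hπ0 : π ≠ 0 := by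
    rintro rfl
    obtain ⟨u', -, e⟩ := hu'
    rw [zero_mul] at e
    exact hu0 e
  rcases eq_or_ne y 0 with rfl | hy0
  · exact ⟨0, V.zero_mem, V'.zero_mem, 0, V.zero_mem, by ring⟩
  obtain ⟨n, y₀, hy₀, -, e⟩ := hzpow y hy0
  rcases le_or_gt 0 n with hn | hn
  · -- `y ∈ V'` already
    refine ⟨y, hy, ?_, 0, V.zero_mem, by ring⟩
    rw [e]
    lift n to ℕ using hn
    rw [zpow_natCast]
    exact V'.mul_mem _ _ (V'.pow_mem hπV' n) hy₀
  · obtain ⟨k, rfl⟩ : ∃ k : ℕ, n = -((k : ℤ) + 1) := ⟨(-n - 1).toNat, by omega⟩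
    obtain ⟨u', hu'V', rfl⟩ := hu'
    have hu'0 : u' ≠ 0 := right_ne_zero_of_mul hu0
    set m := k + 1 with hm
    -- in `V`
    set a : 𝓕 := π ^ k * ((π * u')⁻¹) ^ (2 * m) with ha
    have haV : a ∈ V := V.mul_mem _ _ (V.pow_mem hπV k) (V.pow_mem huV _)
    have hgV : (1 + π * a)⁻¹ ∈ V := s34x_val_one_add_inv_mem V π hπV hnuV haV
    have h1a : 1 + π * a ≠ 0 := by
      intro h0
      apply hnuV
      exact ⟨-a, V.neg_mem _ haV, by linear_combination h0⟩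
    -- in `V'`
    set b : 𝓕 := π ^ k * u' ^ (2 * m) with hb
    have hbV' : b ∈ V' := V'.mul_mem _ _ (V'.pow_mem hπV' k) (V'.pow_mem hu'V' _)
    have hgV' : (1 + π * b)⁻¹ ∈ V' := s34x_val_one_add_inv_mem V' π hπV' hnuV' hbV'
    have h1b : 1 + π * b ≠ 0 := by
      intro h0
      apply hnuV'
      exact ⟨-b, V'.neg_mem _ hbV', by linear_combination h0⟩
    refine ⟨y * (1 + π * a)⁻¹, V.mul_mem _ _ hy hgV, ?_, y * a * (1 + π * a)⁻¹,
      V.mul_mem _ _ (V.mul_mem _ _ hy haV) hgV, ?_⟩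
    · have key : y * (1 + π * a)⁻¹ = y₀ * u' ^ (2 * m) * (1 + π * b)⁻¹ := by
        have hπb : π * b ≠ 0 :=
          mul_ne_zero hπ0 (mul_ne_zero (pow_ne_zero _ hπ0) (pow_ne_zero _ hu'0))
        have hprod : π * a * (π * b) = 1 := by
          rw [ha, hb, inv_pow]
          have hne : (π * u') ^ (2 * m) ≠ 0 := pow_ne_zero _ hu0
          have e1 : π * (π ^ k * ((π * u') ^ (2 * m))⁻¹) * (π * (π ^ k * u' ^ (2 * m))) =
              (π * u') ^ (2 * m) * ((π * u') ^ (2 * m))⁻¹ := by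
            rw [hm]; ring
          rw [e1]
          exact mul_inv_cancel₀ hne
        have hπa : π * a = (π * b)⁻¹ := eq_inv_of_mul_eq_one_left hprod
        have hPb : π * b = π ^ m * u' ^ (2 * m) := by
          rw [hb, hm, pow_succ]; ring
        have hπm : π ^ m ≠ 0 := pow_ne_zero _ hπ0
        have hy' : y = (π ^ m)⁻¹ * y₀ := by
          rw [e, hm]
          have : -((k : ℤ) + 1) = -((k + 1 : ℕ) : ℤ) := by push_cast; ring
          rw [this, zpow_neg, zpow_natCast]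
        rw [hπa]
        generalize π * b = P at hπb h1b hPb
        have h2 : (1 + P⁻¹)⁻¹ = P * (1 + P)⁻¹ := by
          have h3 : (1 + P⁻¹) * (P * (1 + P)⁻¹) = 1 := by
            have : (1 + P⁻¹) * P = 1 + P := by
              rw [add_mul, one_mul, inv_mul_cancel₀ hπb]; ring
            rw [← mul_assoc, this, mul_inv_cancel₀ h1b]
          exact inv_eq_of_mul_eq_one_right h3
        rw [h2, hy', hPb]
        have : (π ^ m)⁻¹ * y₀ * (π ^ m * u' ^ (2 * m) * (1 + π ^ m * u' ^ (2 * m))⁻¹) =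
            (π ^ m)⁻¹ * π ^ m * (y₀ * u' ^ (2 * m) * (1 + π ^ m * u' ^ (2 * m))⁻¹) := by ring
        rw [this, inv_mul_cancel₀ hπm, one_mul]
      rw [key]
      exact V'.mul_mem _ _ (V'.mul_mem _ _ hy₀ (V'.pow_mem hu'V' _)) hgV'
    · field_simp
      ring

/-! ### The two Gauss valuations of `X_0(M p)` -/

section Concrete

local notation "Kb" => AlgebraicClosure ℚ

variable {K₀ : Type} [Field K₀] [CharZero K₀] [Algebra ℚ K₀] {κ : Type} [Field κ]
  (G : s18g_GaussData K₀ κ)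
variable (φ : K₀ →+* Kb) (M p : ℕ) [NeZero M] [hp : Fact p.Prime] (hpM : ¬ p ∣ M)

/-- `ϖ` is not a unit of `V_∞`. -/
theorem s33y_unif_nonunit_inf (N : ℕ) [NeZero N] :
    ¬ ∃ y ∈ s34m_Vinf G N, (1 : s34m_F K₀ N) = s34m_unif G N * y :=
  s18f_unif_not_unit G _ (s34m_hF G N)

/-- `ϖ` is not a unit of `V_0`. -/
theorem s33y_unif_nonunit_zero :
    ¬ ∃ y ∈ s34m_Vzero G φ M p hp.out hpM, (1 : s34m_F K₀ (M * p)) = s34m_unif G (M * p) * y := by
  rintro ⟨y, hy, e⟩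
  apply s33y_unif_nonunit_inf G (M * p)
  refine ⟨s34m_al φ M p hp.out hpM y, (s34m_mem_Vzero G φ M p hp.out hpM y).mp hy, ?_⟩
  have := congrArg (s34m_al φ M p hp.out hpM) e
  rw [map_one, map_mul, s34m_al_unif] at this
  exact this

/-- an element of `V_∞` with non-zero reduction is a unit. -/
theorem s33y_inv_mem_inf (N : ℕ) [NeZero N] (y : s34m_Vinf G N) (h : s34m_redInf G N y ≠ 0) :
    ((y : s34m_F K₀ N))⁻¹ ∈ s34m_Vinf G N := by
  have h1 : y ∉ IsLocalRing.maximalIdeal (s34m_Vinf G N) := by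
    intro hm
    apply h
    have : y ∈ RingHom.ker (s34m_redInf G N) := by
      rw [show RingHom.ker (s34m_redInf G N) = IsLocalRing.maximalIdeal (s34m_Vinf G N) from
        s18g_ker_redV G _ (s34m_hF G N)]
      exact hm
    exact this
  have h2 : IsUnit y := by
    by_contra hnu
    exact h1 ((IsLocalRing.mem_maximalIdeal y).mpr hnu)
  obtain ⟨u, rfl⟩ := h2
  have h3 : ((u : s34m_Vinf G N) : s34m_F K₀ N) * ((u⁻¹ : (s34m_Vinf G N)ˣ) : s34m_Vinf G N) = 1 := by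
    have := congrArg Subtype.val (Units.mul_inv u)
    exact this
  rw [← eq_inv_of_mul_eq_one_right h3]
  exact ((u⁻¹ : (s34m_Vinf G N)ˣ) : s34m_Vinf G N).2

variable [CharP κ p]

/-- `j̄ - j̄ ^ (p ^ 2) ≠ 0`. -/
theorem s33y_jbar_ne : jqModC κ - (jqModC κ ^ p) ^ p ≠ 0 := by
  intro h
  have hp2 : 2 ≤ p := hp.out.two_le
  have h1 := congrArg (fun x : LaurentSeries κ => x.coeff (-((p * p : ℕ) : ℤ))) h
  simp only [HahnSeries.coeff_sub, HahnSeries.coeff_zero] at h1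
  rw [← pow_mul, ModularCurve.coeff_jqModC_pow_self κ (p * p)] at h1
  have h2 : (jqModC κ).coeff (-((p * p : ℕ) : ℤ)) = 0 := by
    have := ModularCurve.coeff_jqModC_pow_of_lt κ (b := 1) (m := -((p * p : ℕ) : ℤ)) (by
      have : 4 ≤ p * p := by nlinarith
      push_cast
      omega)
    rwa [pow_one] at this
  rw [h2, zero_sub] at h1
  exact one_ne_zero (neg_eq_zero.mp h1)

/-- the element `u_∞ = α j - (β j) ^ p`: a unit of `V_∞` lying in `ϖ V_0`. -/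
def s33y_uInf : s34m_F K₀ (M * p) :=
  heckeAlphaBar K₀ M p (s18g_jF (K := K₀) M) - s34m_betaJ (K₀ := K₀) M p ^ p

/-- the element `u_0 = β j - (α j) ^ p`: a unit of `V_0` lying in `ϖ V_∞`. -/
def s33y_uZero : s34m_F K₀ (M * p) :=
  s34m_betaJ (K₀ := K₀) M p - heckeAlphaBar K₀ M p (s18g_jF (K := K₀) M) ^ p

theorem s33y_alphaJ_mem_Vinf :
    heckeAlphaBar K₀ M p (s18g_jF (K := K₀) M) ∈ s34m_Vinf G (M * p) :=
  s34m_alpha_mem_Vinf G M p (s34m_jF_mem_Vinf G M)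

theorem s33y_alphaJ_mem_Vzero :
    heckeAlphaBar K₀ M p (s18g_jF (K := K₀) M) ∈ s34m_Vzero G φ M p hp.out hpM :=
  s34m_alpha_mem_Vzero G φ M p hp.out hpM (s34m_jF_mem_Vinf G M)

theorem s33y_redInf_alphaJ :
    s34m_redInf G (M * p) ⟨_, s33y_alphaJ_mem_Vinf G M p⟩ = jqModC κ := by
  have := s34m_redInf_alpha G M p ⟨s18g_jF (K := K₀) M, s34m_jF_mem_Vinf G M⟩
  rw [s34m_redInf_jF] at this
  exact this

theorem s33y_redInf_betaJ :
    s34m_redInf G (M * p) ⟨_, s34m_betaJ_mem_Vinf G M p⟩ = jqModC κ ^ p := by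
  have := s34m_redInf_beta G M p ⟨s18g_jF (K := K₀) M, s34m_jF_mem_Vinf G M⟩
  rw [s34m_redInf_jF, s34df_qExpand_jqModC p hp.out] at this
  exact this

theorem s33y_redZero_alphaJ :
    s34m_redZero G φ M p hp.out hpM ⟨_, s33y_alphaJ_mem_Vzero G φ M p hpM⟩ = jqModC κ ^ p := by
  have := s34m_redZero_alpha G φ M p hp.out hpM ⟨s18g_jF (K := K₀) M, s34m_jF_mem_Vinf G M⟩
  rw [s34m_redInf_jF, s34df_qExpand_jqModC p hp.out] at this
  exact this

theorem s33y_redZero_betaJ :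
    s34m_redZero G φ M p hp.out hpM ⟨_, s34m_betaJ_mem_Vzero G φ M p hp.out hpM⟩ = jqModC κ := by
  have := s34m_redZero_beta G φ M p hp.out hpM ⟨s18g_jF (K := K₀) M, s34m_jF_mem_Vinf G M⟩
  rw [s34m_redInf_jF] at this
  exact this

theorem s33y_uInf_mem_Vinf : s33y_uInf (K₀ := K₀) M p ∈ s34m_Vinf G (M * p) :=
  (s34m_Vinf G (M * p)).toSubring.sub_mem (s33y_alphaJ_mem_Vinf G M p)
    ((s34m_Vinf G (M * p)).pow_mem (s34m_betaJ_mem_Vinf G M p) p)

theorem s33y_uInf_mem_Vzero : s33y_uInf (K₀ := K₀) M p ∈ s34m_Vzero G φ M p hp.out hpM :=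
  (s34m_Vzero G φ M p hp.out hpM).toSubring.sub_mem (s33y_alphaJ_mem_Vzero G φ M p hpM)
    ((s34m_Vzero G φ M p hp.out hpM).pow_mem (s34m_betaJ_mem_Vzero G φ M p hp.out hpM) p)

theorem s33y_uZero_mem_Vinf : s33y_uZero (K₀ := K₀) M p ∈ s34m_Vinf G (M * p) :=
  (s34m_Vinf G (M * p)).toSubring.sub_mem (s34m_betaJ_mem_Vinf G M p)
    ((s34m_Vinf G (M * p)).pow_mem (s33y_alphaJ_mem_Vinf G M p) p)

theorem s33y_uZero_mem_Vzero : s33y_uZero (K₀ := K₀) M p ∈ s34m_Vzero G φ M p hp.out hpM :=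
  (s34m_Vzero G φ M p hp.out hpM).toSubring.sub_mem (s34m_betaJ_mem_Vzero G φ M p hp.out hpM)
    ((s34m_Vzero G φ M p hp.out hpM).pow_mem (s33y_alphaJ_mem_Vzero G φ M p hpM) p)

theorem s33y_redInf_uInf :
    s34m_redInf G (M * p) ⟨_, s33y_uInf_mem_Vinf G M p⟩ = jqModC κ - (jqModC κ ^ p) ^ p := by
  have : (⟨_, s33y_uInf_mem_Vinf G M p⟩ : s34m_Vinf G (M * p)) =
      ⟨_, s33y_alphaJ_mem_Vinf G M p⟩ - ⟨_, s34m_betaJ_mem_Vinf G M p⟩ ^ p := rfl
  rw [this, map_sub, map_pow, s33y_redInf_alphaJ, s33y_redInf_betaJ]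

theorem s33y_redZero_uInf :
    s34m_redZero G φ M p hp.out hpM ⟨_, s33y_uInf_mem_Vzero G φ M p hpM⟩ = 0 := by
  have : (⟨_, s33y_uInf_mem_Vzero G φ M p hpM⟩ : s34m_Vzero G φ M p hp.out hpM) =
      ⟨_, s33y_alphaJ_mem_Vzero G φ M p hpM⟩ - ⟨_, s34m_betaJ_mem_Vzero G φ M p hp.out hpM⟩ ^ p := rfl
  rw [this, map_sub, map_pow, s33y_redZero_alphaJ, s33y_redZero_betaJ, sub_self]

theorem s33y_redInf_uZero :
    s34m_redInf G (M * p) ⟨_, s33y_uZero_mem_Vinf G M p⟩ = 0 := by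
  have : (⟨_, s33y_uZero_mem_Vinf G M p⟩ : s34m_Vinf G (M * p)) =
      ⟨_, s34m_betaJ_mem_Vinf G M p⟩ - ⟨_, s33y_alphaJ_mem_Vinf G M p⟩ ^ p := rfl
  rw [this, map_sub, map_pow, s33y_redInf_alphaJ, s33y_redInf_betaJ, sub_self]

theorem s33y_redZero_uZero :
    s34m_redZero G φ M p hp.out hpM ⟨_, s33y_uZero_mem_Vzero G φ M p hpM⟩ =
      jqModC κ - (jqModC κ ^ p) ^ p := by
  have : (⟨_, s33y_uZero_mem_Vzero G φ M p hpM⟩ : s34m_Vzero G φ M p hp.out hpM) =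
      ⟨_, s34m_betaJ_mem_Vzero G φ M p hp.out hpM⟩ - ⟨_, s33y_alphaJ_mem_Vzero G φ M p hpM⟩ ^ p := rfl
  rw [this, map_sub, map_pow, s33y_redZero_alphaJ, s33y_redZero_betaJ]

/-- an element of `V_0` with non-zero reduction is a unit. -/
theorem s33y_inv_mem_zero (y : s34m_Vzero G φ M p hp.out hpM)
    (h : s34m_redZero G φ M p hp.out hpM y ≠ 0) :
    ((y : s34m_F K₀ (M * p)))⁻¹ ∈ s34m_Vzero G φ M p hp.out hpM := by
  rw [s34m_mem_Vzero, map_inv₀]
  exact s33y_inv_mem_inf G (M * p) ⟨s34m_al φ M p hp.out hpM y, y.2⟩ h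

/-- **`V_∞ = O₂ + ϖ V_∞`.** -/
theorem s33y_approx_inf (y : s34m_F K₀ (M * p)) (hy : y ∈ s34m_Vinf G (M * p)) :
    ∃ y' : s34m_F K₀ (M * p), y' ∈ s34m_Vinf G (M * p) ∧ y' ∈ s34m_Vzero G φ M p hp.out hpM ∧
      ∃ z ∈ s34m_Vinf G (M * p), y - y' = s34m_unif G (M * p) * z := by
  have hred : s34m_redInf G (M * p) ⟨_, s33y_uInf_mem_Vinf G M p⟩ ≠ 0 := by
    rw [s33y_redInf_uInf]; exact s33y_jbar_ne p
  have hu0 : s33y_uInf (K₀ := K₀) M p ≠ 0 := by
    intro h0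
    apply hred
    have : (⟨_, s33y_uInf_mem_Vinf G M p⟩ : s34m_Vinf G (M * p)) = 0 := Subtype.ext h0
    rw [this, map_zero]
  refine s33y_approx (s34m_Vinf G (M * p)) (s34m_Vzero G φ M p hp.out hpM) (s34m_unif G (M * p))
    (s34m_unif_mem_Vinf G (M * p)) (s34m_unif_mem_Vzero G φ M p hp.out hpM)
    (s33y_unif_nonunit_inf G (M * p)) (s33y_unif_nonunit_zero G φ M p hpM)
    (fun U hU => s34m_exists_zpow_VV G φ M p hp.out hpM false U hU)
    (s33y_uInf (K₀ := K₀) M p) hu0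
    (s33y_inv_mem_inf G (M * p) ⟨_, s33y_uInf_mem_Vinf G M p⟩ hred) ?_ y hy
  obtain ⟨z, hz, e⟩ := (s34m_redZero_eq_zero_iff G φ M p hp.out hpM _).mp
    (s33y_redZero_uInf G φ M p hpM)
  exact ⟨z, hz, e⟩

/-- **`V_0 = O₂ + ϖ V_0`.** -/
theorem s33y_approx_zero (y : s34m_F K₀ (M * p)) (hy : y ∈ s34m_Vzero G φ M p hp.out hpM) :
    ∃ y' : s34m_F K₀ (M * p), y' ∈ s34m_Vinf G (M * p) ∧ y' ∈ s34m_Vzero G φ M p hp.out hpM ∧
      ∃ z ∈ s34m_Vzero G φ M p hp.out hpM, y - y' = s34m_unif G (M * p) * z := by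
  have hred : s34m_redZero G φ M p hp.out hpM ⟨_, s33y_uZero_mem_Vzero G φ M p hpM⟩ ≠ 0 := by
    rw [s33y_redZero_uZero]; exact s33y_jbar_ne p
  have hu0 : s33y_uZero (K₀ := K₀) M p ≠ 0 := by
    intro h0
    apply hred
    have : (⟨_, s33y_uZero_mem_Vzero G φ M p hpM⟩ : s34m_Vzero G φ M p hp.out hpM) = 0 :=
      Subtype.ext h0
    rw [this, map_zero]
  obtain ⟨y', h1, h2, z, hz, e⟩ :=
    s33y_approx (s34m_Vzero G φ M p hp.out hpM) (s34m_Vinf G (M * p)) (s34m_unif G (M * p))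
    (s34m_unif_mem_Vzero G φ M p hp.out hpM) (s34m_unif_mem_Vinf G (M * p))
    (s33y_unif_nonunit_zero G φ M p hpM) (s33y_unif_nonunit_inf G (M * p))
    (fun U hU => s34m_exists_zpow_VV G φ M p hp.out hpM true U hU)
    (s33y_uZero (K₀ := K₀) M p) hu0
    (s33y_inv_mem_zero G φ M p hpM ⟨_, s33y_uZero_mem_Vzero G φ M p hpM⟩ hred)
    (by
      obtain ⟨z, hz, e⟩ := (s34m_redInf_eq_zero_iff G (M * p) _).mp (s33y_redInf_uZero G M p)
      exact ⟨z, hz, e⟩) y hy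
  exact ⟨y', h2, h1, z, hz, e⟩

theorem s33y_redInf_unif_mul (z : s34m_F K₀ (M * p)) (hz : z ∈ s34m_Vinf G (M * p))
    (h : s34m_unif G (M * p) * z ∈ s34m_Vinf G (M * p)) :
    s34m_redInf G (M * p) ⟨_, h⟩ = 0 :=
  (s34m_redInf_eq_zero_iff G (M * p) _).mpr ⟨z, hz, rfl⟩

theorem s33y_redZero_unif_mul (z : s34m_F K₀ (M * p)) (hz : z ∈ s34m_Vzero G φ M p hp.out hpM)
    (h : s34m_unif G (M * p) * z ∈ s34m_Vzero G φ M p hp.out hpM) :
    s34m_redZero G φ M p hp.out hpM ⟨_, h⟩ = 0 :=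
  (s34m_redZero_eq_zero_iff G φ M p hp.out hpM _).mpr ⟨z, hz, rfl⟩

variable (hdeg : s34m_HDeg K₀ M p) (hT : s18g_HT κ M) (hdegM : s18g_HDeg K₀ M)

include φ hpM hdeg hT hdegM in
/-- **`red_∞ (V_∞) ⊆ F̄_M`** (the FULL valuation ring). -/
theorem s33y_redInf_mem_fullC (y : s34m_Vinf G (M * p)) :
    s34m_redInf G (M * p) y ∈ modularFunctionFieldFullC κ M := by
  obtain ⟨y', h1, h2, z, hz, e⟩ := s33y_approx_inf G φ M p hpM (y : s34m_F K₀ (M * p)) y.2
  have hπz : s34m_unif G (M * p) * z ∈ s34m_Vinf G (M * p) :=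
    (s34m_Vinf G (M * p)).mul_mem _ _ (s34m_unif_mem_Vinf G (M * p)) hz
  have : y = ⟨y', h1⟩ + ⟨_, hπz⟩ := Subtype.ext (by
    show (y : s34m_F K₀ (M * p)) = y' + s34m_unif G (M * p) * z
    rw [← e]; ring)
  rw [this, map_add, s33y_redInf_unif_mul G M p z hz hπz, add_zero]
  exact s34df_redInf_mem_fullC G φ M p hp.out hpM hdeg hT hdegM y'
    ((s34m_mem_O2 G φ M p hp.out hpM y').mpr ⟨h1, h2⟩) h1

include hdeg hT hdegM in
/-- **`red_0 (V_0) ⊆ F̄_M`** (the FULL valuation ring). -/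
theorem s33y_redZero_mem_fullC [PerfectRing κ p] (y : s34m_Vzero G φ M p hp.out hpM) :
    s34m_redZero G φ M p hp.out hpM y ∈ modularFunctionFieldFullC κ M := by
  obtain ⟨y', h1, h2, z, hz, e⟩ := s33y_approx_zero G φ M p hpM (y : s34m_F K₀ (M * p)) y.2
  have hπz : s34m_unif G (M * p) * z ∈ s34m_Vzero G φ M p hp.out hpM :=
    (s34m_Vzero G φ M p hp.out hpM).mul_mem _ _ (s34m_unif_mem_Vzero G φ M p hp.out hpM) hz
  have : y = ⟨y', h2⟩ + ⟨_, hπz⟩ := Subtype.ext (by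
    show (y : s34m_F K₀ (M * p)) = y' + s34m_unif G (M * p) * z
    rw [← e]; ring)
  rw [this, map_add, s33y_redZero_unif_mul G φ M p hpM z hz hπz, add_zero]
  exact s34df_redZero_mem_fullC G φ M p hp.out hpM hdeg hT hdegM y'
    ((s34m_mem_O2 G φ M p hp.out hpM y').mpr ⟨h1, h2⟩) h2

/-! ### The corestricted reductions and the two components -/

variable [PerfectRing κ p]

/-- **`red_∞ : V_∞ →+* F̄_M`.** -/
def s33y_redI : s34m_Vinf G (M * p) →+* ↥(modularFunctionFieldFullC κ M) :=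
  (s34m_redInf G (M * p)).codRestrict (modularFunctionFieldFullC κ M)
    (s33y_redInf_mem_fullC G φ M p hpM hdeg hT hdegM)

/-- **`red_0 : V_0 →+* F̄_M`.** -/
def s33y_redZ : s34m_Vzero G φ M p hp.out hpM →+* ↥(modularFunctionFieldFullC κ M) :=
  (s34m_redZero G φ M p hp.out hpM).codRestrict (modularFunctionFieldFullC κ M)
    (s33y_redZero_mem_fullC G φ M p hpM hdeg hT hdegM)

@[simp] theorem s33y_coe_redI (y : s34m_Vinf G (M * p)) :
    ((s33y_redI G φ M p hpM hdeg hT hdegM y : ↥(modularFunctionFieldFullC κ M)) : LaurentSeries κ) =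
      s34m_redInf G (M * p) y := rfl

@[simp] theorem s33y_coe_redZ (y : s34m_Vzero G φ M p hp.out hpM) :
    ((s33y_redZ G φ M p hpM hdeg hT hdegM y : ↥(modularFunctionFieldFullC κ M)) : LaurentSeries κ) =
      s34m_redZero G φ M p hp.out hpM y := rfl

theorem s33y_redI_eq_zero_iff (y : s34m_Vinf G (M * p)) :
    s33y_redI G φ M p hpM hdeg hT hdegM y = 0 ↔ s34m_redInf G (M * p) y = 0 := by
  rw [← s33y_coe_redI G φ M p hpM hdeg hT hdegM y]
  exact ⟨fun h => by rw [h]; rfl, fun h => Subtype.ext h⟩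

theorem s33y_redZ_eq_zero_iff (y : s34m_Vzero G φ M p hp.out hpM) :
    s33y_redZ G φ M p hpM hdeg hT hdegM y = 0 ↔ s34m_redZero G φ M p hp.out hpM y = 0 := by
  rw [← s33y_coe_redZ G φ M p hpM hdeg hT hdegM y]
  exact ⟨fun h => by rw [h]; rfl, fun h => Subtype.ext h⟩

/-- the coercion of the level-`M` reduction `s18g_redF` is `s34m_redInf G M`. -/
theorem s33y_coe_redF (r : s34m_Vinf G M) :
    ((s18g_redF G M (s34m_hF G M) hT hdegM r : ↥(modularFunctionFieldFullC κ M)) :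
      LaurentSeries κ) = s34m_redInf G M r := rfl

variable (hπ : Function.Surjective G.π)

include hπ in
theorem s33y_redI_surjective : Function.Surjective (s33y_redI G φ M p hpM hdeg hT hdegM) := by
  intro z
  obtain ⟨r, hr⟩ := s18g_redF_surjective G M (s34m_hF G M) hT hdegM hπ z
  refine ⟨⟨heckeAlphaBar K₀ M p r, s34m_alpha_mem_Vinf G M p r.2⟩, Subtype.ext ?_⟩
  rw [s33y_coe_redI, s34m_redInf_alpha G M p r, ← hr]
  rfl

include hπ in
theorem s33y_redZ_surjective : Function.Surjective (s33y_redZ G φ M p hpM hdeg hT hdegM) := by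
  intro z
  obtain ⟨r, hr⟩ := s18g_redF_surjective G M (s34m_hF G M) hT hdegM hπ z
  refine ⟨⟨heckeBetaBar K₀ M p r, s34m_beta_mem_Vzero G φ M p hp.out hpM r.2⟩, Subtype.ext ?_⟩
  rw [s33y_coe_redZ, s34m_redZero_beta G φ M p hp.out hpM r, ← hr]
  rfl

variable (e : ℕ) (ε : K₀) (he : 0 < e) (hε : ε ∈ G.A) (hεinv : ε⁻¹ ∈ G.A) (hε0 : ε ≠ 0)
variable (hpe : (p : K₀) = ε * ((G.ϖ : G.A) : K₀) ^ e) (hperf : ∀ c : κ, ∃ d : κ, d ^ p = c)

local notation "D'M" => s33i_datum G M hT hdegM hπ p e ε hp.out he hε hεinv hε0 hpe hperf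

theorem s33y_const_mem_Vzero_iff (a : K₀) :
    algebraMap K₀ (s34m_F K₀ (M * p)) a ∈ s34m_Vzero G φ M p hp.out hpM ↔ a ∈ G.A := by
  rw [s34m_mem_Vzero, (s34m_al φ M p hp.out hpM).commutes a]
  exact s18g_algebraMap_mem_V_iff G _ (s34m_hF G (M * p)) a

theorem s33y_unif_Vzero (u : s34m_F K₀ (M * p)) (hu : u ∈ s34m_Vzero G φ M p hp.out hpM)
    (hu0 : u ≠ 0) : ∃ (j : ℕ) (v : s34m_F K₀ (M * p)), v ∈ s34m_Vzero G φ M p hp.out hpM ∧
      v⁻¹ ∈ s34m_Vzero G φ M p hp.out hpM ∧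
      u = algebraMap K₀ (s34m_F K₀ (M * p)) ((G.ϖ : G.A) : K₀) ^ j * v := by
  set w := s34m_al φ M p hp.out hpM with hw
  have hwu0 : w u ≠ 0 := (map_ne_zero w).mpr hu0
  obtain ⟨j, v, hv, hvinv, e1⟩ := s18f_U_gauss G _ (s34m_hF G (M * p)) (w u)
    ((s34m_mem_Vzero G φ M p hp.out hpM u).mp hu) hwu0
  refine ⟨j, w v, ?_, ?_, ?_⟩
  · rw [hw, s34m_al_mem_Vinf_iff]; exact hv
  · rw [← map_inv₀, hw, s34m_al_mem_Vinf_iff]; exact hvinv
  · have := congrArg w e1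
    rw [hw, s34m_al_al, map_mul, map_pow, (s34m_al φ M p hp.out hpM).commutes] at this
    exact this

/-- **The `∞`-component** of `X_0(M p)` over the level-`M` datum. -/
def s33y_Ci : s33z_Comp D'M (s34m_F K₀ (M * p)) where
  O := s34m_Vinf G (M * p)
  red := s33y_redI G φ M p hpM hdeg hT hdegM
  const_mem_iff := fun a => s18g_algebraMap_mem_V_iff G _ (s34m_hF G (M * p)) a
  unif := s18f_U_gauss G _ (s34m_hF G (M * p))
  ϖ_not_unit := by
    intro hinv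
    apply s33y_unif_nonunit_inf G (M * p)
    refine ⟨_, hinv, ?_⟩
    have h0 : s34m_unif G (M * p) ≠ 0 := s34m_unif_ne_zero G (M * p)
    exact (mul_inv_cancel₀ h0).symm
  red_surjective := s33y_redI_surjective G φ M p hpM hdeg hT hdegM hπ
  red_eq_zero_iff := fun x =>
    (s33y_redI_eq_zero_iff G φ M p hpM hdeg hT hdegM x).trans
      (s34m_redInf_eq_zero_iff G (M * p) x)
  red_const := fun a => Subtype.ext (by
    rw [s33y_coe_redI]
    refine (s18g_redV_constV G _ (s34m_hF G (M * p)) a).trans ?_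
    show HahnSeries.C (G.π a) = algebraMap κ (LaurentSeries κ) (G.π a)
    rw [algebraMap_laurentSeries_eq_single, HahnSeries.C_apply])

/-- **The `0`-component** of `X_0(M p)` over the level-`M` datum. -/
def s33y_Cz : s33z_Comp D'M (s34m_F K₀ (M * p)) where
  O := s34m_Vzero G φ M p hp.out hpM
  red := s33y_redZ G φ M p hpM hdeg hT hdegM
  const_mem_iff := s33y_const_mem_Vzero_iff G φ M p hpM
  unif := s33y_unif_Vzero G φ M p hpM
  ϖ_not_unit := by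
    intro hinv
    apply s33y_unif_nonunit_zero G φ M p hpM
    refine ⟨_, hinv, ?_⟩
    have h0 : s34m_unif G (M * p) ≠ 0 := s34m_unif_ne_zero G (M * p)
    exact (mul_inv_cancel₀ h0).symm
  red_surjective := s33y_redZ_surjective G φ M p hpM hdeg hT hdegM hπ
  red_eq_zero_iff := fun x =>
    (s33y_redZ_eq_zero_iff G φ M p hpM hdeg hT hdegM x).trans
      (s34m_redZero_eq_zero_iff G φ M p hp.out hpM x)
  red_const := fun a => Subtype.ext (by
    rw [s33y_coe_redZ, s34m_redZero_apply]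
    have h1 : (⟨s34m_al φ M p hp.out hpM (algebraMap K₀ (s34m_F K₀ (M * p)) ((a : G.A) : K₀)),
        (s34m_mem_Vzero G φ M p hp.out hpM _).mp
          ((s33y_const_mem_Vzero_iff G φ M p hpM (a : K₀)).mpr a.2)⟩ : s34m_Vinf G (M * p)) =
        s18g_constV G _ (s34m_hF G (M * p)) a :=
      Subtype.ext ((s34m_al φ M p hp.out hpM).commutes _)
    refine ((congrArg (s34m_redInf G (M * p)) h1).trans
      (s18g_redV_constV G _ (s34m_hF G (M * p)) a)).trans ?_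
    show HahnSeries.C (G.π a) = algebraMap κ (LaurentSeries κ) (G.π a)
    rw [algebraMap_laurentSeries_eq_single, HahnSeries.C_apply])

end Concrete

end Fermat.Agent.Lib.S33
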