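/-
P-AT-P programme (S33), Stage 2, brick **[SEP-ss]** (owner: helper9), final part: THE BRIDGE to
helper4's contract `s33z_SuperCritical` (`CritSs.lean`).

* `s33k_ss_fullConst`       : `K₀` is the full constant field of `s34m_F K₀ N` (from helper6's
                              `s33i_fullConst_of_ffGen` and `FFGen K₀ j_N`);
* `s33k_ss_superCritical_five'` : `s33k_ss_superCritical_five` with `hfull` discharged and with the
                              node hypothesis in helper8's vocabulary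
                              (`s33s_nodePlaces … (chart1 j) ⊆ N`; chart 2 by helper6's comparison
                              `s33n_nodePlaces_chart2_subset`);
* **`s33k_ss_superCritical_Z`** : `s33z_SuperCritical Z` for EVERY Σ-datum `Z` over the level-`M`
                              datum `s33i_datum G M …` on `s34m_F K₀ (M p)`, `p ≥ 5`, whose two
                              components carry the two Gauss valuation rings
                              (`Z.Ci.O = V_∞`, `Z.Cz.O = V_0`; true by `rfl` for helper4's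
                              `s33y_Ci`, `s33y_Cz`) and whose `N` contains the places of the chart
                              `{j ≠ ∞}` through the nodes.
-/
import Fermat.Agent.Lib.S33.KumPSsFive
import Fermat.Agent.Lib.S33.SsComp
import Fermat.Agent.Lib.S33.FOInstG
import Fermat.Agent.Lib.S33.SSCompare

set_option autoImplicit false
set_option linter.style.haveILetI false
set_option linter.unusedSectionVars false

noncomputable section

namespace Fermat.Agent.Lib.S33

open ModularCurve AlgebraicCurve HahnSeries Polynomial Fermat.Agent.Lib.FF Fermat.Agent.Lib.S18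
  Fermat.Agent.Lib.S28 Fermat.Agent.Lib.S34 Fermat.Agent.Lib.S37

local notation "Kb" => AlgebraicClosure ℚ

/-- **`K₀` is the full constant field of the modular function field of level `N` over `K₀`.** -/
theorem s33k_ss_fullConst {K₀ : Type} [Field K₀] [CharZero K₀] [Algebra ℚ K₀] (φ : K₀ →+* Kb)
    (N : ℕ) [NeZero N] : s33f_FullConst K₀ (s34m_F K₀ N) := by
  have hdegN : s18g_HDeg K₀ N := fun n b hb hn => s18g_exists_relation N φ hn b hb
  haveI hgen : FFGen K₀ (s18g_jF (K := K₀) N) := s18b_ffGen_jF N hdegN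
  exact s33i_fullConst_of_ffGen (laurentBaseChange K₀ (modularFunctionFieldFull N))
    (s18g_jF (K := K₀) N)

/-- `s33k_ss_superCritical_five` with `hfull` discharged and the node hypothesis in the vocabulary of
`SSPlace.lean`. -/
theorem s33k_ss_superCritical_five' (M p : ℕ) [NeZero M] [NeZero p] (hp : p.Prime)
    (hpM : ¬ p ∣ M) (h5 : 5 ≤ p) (K₀ : Type) [Field K₀] [NumberField K₀] (φ : K₀ →+* Kb)
    (κ : Type) [Field κ] [CharP κ p] [PerfectField κ]
    (G : s18g_GaussData K₀ κ) [IsDiscreteValuationRing G.A] (hπ : Function.Surjective G.π)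
    (ε εinv : G.A) (hε : ε * εinv = 1) (e : ℕ)
    (hpϖ : (p : K₀) = ((G.ϖ : G.A) : K₀) ^ e * (ε : K₀))
    (N : Set (Place K₀ (s34m_F K₀ (M * p))))
    (hN : s33s_nodePlaces (s34m_VV G φ M p hp hpM) (s34m_unif G (M * p))
      (s18_chart1 (L₀ := K₀) (s18g_jF (K := K₀) (M * p))) ⊆ N)
    (f : s34m_F K₀ (M * p)) (a : ℕ) (ha : p * e < (p - 1) * a)
    (hdiv : ∀ Q : Place K₀ (s34m_F K₀ (M * p)), (p : ℤ) ∣ Q.ord f)
    (hNf : ∀ Q ∈ N, Q.ord f = 0)
    (hf1 : ∃ y ∈ s34x_infRing (s34m_VV G φ M p hp hpM),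
      f - 1 = algebraMap K₀ (s34m_F K₀ (M * p)) ((G.ϖ : G.A) : K₀) ^ a * y) :
    ∃ (c : K₀) (x : s34m_F K₀ (M * p)), c ≠ 0 ∧ x ≠ 0 ∧
      f = algebraMap K₀ (s34m_F K₀ (M * p)) c * x ^ p := by
  refine s33k_ss_superCritical_five M p hp hpM h5 K₀ φ κ G hπ ε εinv hε e hpϖ
    (s33k_ss_fullConst φ (M * p)) N ?_ ?_ f a ha hdiv hNf hf1
  · intro 𝔫 h𝔫 h1 h2 Q hQ hth
    exact hN ⟨hQ, 𝔫, ⟨h𝔫, h1, h2⟩, hth⟩
  · intro 𝔫 h𝔫 h1 h2 Q hQ hth
    haveI : CharP κ p := inferInstance
    exact hN (s33n_nodePlaces_chart2_subset G φ M p hp hpM ⟨hQ, 𝔫, ⟨h𝔫, h1, h2⟩, hth⟩)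

section Bridge

variable (M p : ℕ) [NeZero M] [hp : Fact p.Prime] (hpM : ¬ p ∣ M) (h5 : 5 ≤ p)
variable {K₀ : Type} [Field K₀] [NumberField K₀] (φ : K₀ →+* Kb)
variable {κ : Type} [Field κ] [CharP κ p] [PerfectField κ]
variable (G : s18g_GaussData K₀ κ) [IsDiscreteValuationRing G.A]
variable (hT : s18g_HT κ M) (hdegM : s18g_HDeg K₀ M) (hπ : Function.Surjective G.π)
variable (e : ℕ) (ε : K₀) (he : 0 < e) (hε : ε ∈ G.A) (hεinv : ε⁻¹ ∈ G.A) (hε0 : ε ≠ 0)
variable (hpe : (p : K₀) = ε * ((G.ϖ : G.A) : K₀) ^ e) (hperf : ∀ c : κ, ∃ d : κ, d ^ p = c)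
variable {ι : Type*} {k : ι → Type*} [∀ s, Field (k s)] [∀ s, Algebra κ (k s)]

include h5 in
/-- **[SEP-ss], contract form**: `s33z_SuperCritical Z` for every Σ-datum over the level-`M` Gauss
datum on the function field of level `M p` (`p ≥ 5`, `p ∤ M`) whose components carry the two Gauss
valuation rings `V_∞`, `V_0` and whose `N` contains the places of the chart `{j ≠ ∞}` through the
crossing points of the two components. -/
theorem s33k_ss_superCritical_Z
    (Z : s33z_Datum (s33i_datum G M hT hdegM hπ p e ε hp.out he hε hεinv hε0 hpe hperf)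
      (s34m_F K₀ (M * p)) ι k)
    (hOi : Z.Ci.O = s34m_Vinf G (M * p)) (hOz : Z.Cz.O = s34m_Vzero G φ M p hp.out hpM)
    (hN : s33s_nodePlaces (s34m_VV G φ M p hp.out hpM) (s34m_unif G (M * p))
      (s18_chart1 (L₀ := K₀) (s18g_jF (K := K₀) (M * p))) ⊆ Z.N) :
    s33z_SuperCritical Z := by
  intro a ha f hf hcong
  haveI : NeZero p := ⟨hp.out.ne_zero⟩
  obtain ⟨y, hyi, hyz, ey⟩ := hcong.exists_eq
  have hε1 : (⟨ε, hε⟩ : G.A) * ⟨ε⁻¹, hεinv⟩ = 1 := Subtype.ext (mul_inv_cancel₀ hε0)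
  have hpϖ : (p : K₀) = ((G.ϖ : G.A) : K₀) ^ e * ((⟨ε, hε⟩ : G.A) : K₀) := by
    rw [hpe, mul_comm]
  obtain ⟨c, x, hc, hx, efx⟩ := s33k_ss_superCritical_five' M p hp.out hpM h5 K₀ φ κ G hπ
    ⟨ε, hε⟩ ⟨ε⁻¹, hεinv⟩ hε1 e hpϖ Z.N hN f a ha hf.1.2 hf.2.2
    ⟨y, (s34df_mem_O_iff G φ M p hp.out hpM y).mpr ⟨hOi ▸ hyi, hOz ▸ hyz⟩, ey⟩
  exact ⟨c, x, hc, hx, efx⟩

end Bridge

end Fermat.Agent.Lib.S33
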