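/-
P-AT-P programme (S33), Stage 2, brick [SS-MODEL] (helper8), part 1: THE GLUING ALGEBRA OF A
TWO-COMPONENT FIBRE (pure algebra: Mathlib + helper1's `Lib/S34/DNode`).

Setting: `B` a commutative ring (a chart ring of the normal model of `X₀(pM')`), `D` a Dedekind
domain with fraction field `Fb` (the coordinate ring of the chart of the special fibre `X̃₀(M')`),
`ρ₁ ρ₂ : B →+* D` the two reductions (`red_∞`, `red_0`), with the KRONECKER LIFTS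
`hα : ∀ d, ∃ g b, ρ₁ g = d ∧ ρ₂ g = ρ₂ b ^ q`, `hβ : ∀ d, ∃ g b, ρ₂ g = d ∧ ρ₁ g = ρ₁ b ^ q`
(`α(g) ↦ (ḡ, Φḡ)`, `β(g) ↦ (Φḡ, ḡ)`, `Φ` a `q`-Frobenius, `q ≥ 2`); in particular `ρ₁`, `ρ₂` are
surjective.  A NODE is a prime `𝔫 ⊇ ker ρ₁, ker ρ₂`.  `r_i := algebraMap D Fb ∘ ρ_i`.

* `s33s_node_gens`  : TRANSVERSALITY at a node: `U ∈ ker ρ₂` a local generator of `𝔫` modulo
  `ker ρ₁`, `W ∈ ker ρ₁` a local generator modulo `ker ρ₂` (extracted from `s34d_dichotomy`);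
* `s33s_GluedAt`    : the pair `(φ₁, φ₂) ∈ Fb × Fb` is GLUED at `𝔫` (element form:
  `r₁ c₁ φ₁ = r₁ b₁`, `r₂ c₂ φ₂ = r₂ b₂`, `c_i ∉ 𝔫`, `b₁ c₂ - b₂ c₁ ∈ 𝔫`);
* `s33s_local_lift` : glued at the node `𝔫` ⇒ `∃ s ∉ 𝔫, β : r(s) (φ₁, φ₂) = r(β)`;
* `s33s_semilocal_lift` : glued at ALL nodes ⇒ one denominator `s = 1 - a₁ - a₂`,
  `a_i ∈ ker ρ_i` (so `s` lies in no node) — this is [LIFT];
* `s33s_chart_lift` : for `φ_i ∈ D`: glued at all nodes ⇒ `(φ₁, φ₂) = r(β)` — the description of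
  `B / ϖ` as the ring of glued pairs, which gives [S-Σ].
-/
import Mathlib
import Fermat.Agent.Lib.S34.DNode

set_option autoImplicit false

noncomputable section

namespace Fermat.Agent.Lib.S33

open Fermat.Agent.Lib.S34

section Glue

variable {B D Fb : Type*} [CommRing B] [CommRing D] [IsDedekindDomain D] [Field Fb]
  [Algebra D Fb] [IsFractionRing D Fb]

/-- `r_i = algebraMap D Fb ∘ ρ_i`. -/
def s33s_r (ρ : B →+* D) : B →+* Fb := (algebraMap D Fb).comp ρ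

theorem s33s_r_apply (ρ : B →+* D) (b : B) :
    s33s_r (Fb := Fb) ρ b = algebraMap D Fb (ρ b) := rfl

theorem s33s_r_eq_zero_iff (ρ : B →+* D) (b : B) : s33s_r (Fb := Fb) ρ b = 0 ↔ ρ b = 0 := by
  rw [s33s_r_apply]
  exact map_eq_zero_iff _ (IsFractionRing.injective D Fb)

theorem s33s_ker_r (ρ : B →+* D) : RingHom.ker (s33s_r (Fb := Fb) ρ) = RingHom.ker ρ := by
  ext b
  rw [RingHom.mem_ker, RingHom.mem_ker, s33s_r_eq_zero_iff]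

/-- **Transversality at a node** (extracted from helper1's `s34d_dichotomy`). -/
theorem s33s_node_gens (ρ₁ ρ₂ : B →+* D) (q : ℕ) (hq : 2 ≤ q)
    (hα : ∀ d : D, ∃ g b : B, ρ₁ g = d ∧ ρ₂ g = ρ₂ b ^ q)
    (hβ : ∀ d : D, ∃ g b : B, ρ₂ g = d ∧ ρ₁ g = ρ₁ b ^ q)
    (𝔫 : Ideal B) [h𝔫 : 𝔫.IsPrime] (h1 : RingHom.ker ρ₁ ≤ 𝔫) (h2 : RingHom.ker ρ₂ ≤ 𝔫) :
    (∃ U : B, s34d_LocGenAt (s33s_r (Fb := Fb) ρ₁) 𝔫 U ∧ ρ₂ U = 0) ∧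
      ∃ W : B, s34d_LocGenAt (s33s_r (Fb := Fb) ρ₂) 𝔫 W ∧ ρ₁ W = 0 := by
  have hl₁ : ∀ d : D, ∃ g : B, s33s_r (Fb := Fb) ρ₁ g = algebraMap D Fb d := by
    intro d
    obtain ⟨g, _, hg, _⟩ := hα d
    exact ⟨g, by rw [s33s_r_apply, hg]⟩
  have hl₂ : ∀ d : D, ∃ g : B, s33s_r (Fb := Fb) ρ₂ g = algebraMap D Fb d := by
    intro d
    obtain ⟨g, _, hg, _⟩ := hβ d
    exact ⟨g, by rw [s33s_r_apply, hg]⟩
  have h1' : RingHom.ker (s33s_r (Fb := Fb) ρ₁) ≤ 𝔫 := by rw [s33s_ker_r]; exact h1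
  have h2' : RingHom.ker (s33s_r (Fb := Fb) ρ₂) ≤ 𝔫 := by rw [s33s_ker_r]; exact h2
  obtain ⟨d₁, hd₁⟩ := s34d_exists_locGenAt (s33s_r (Fb := Fb) ρ₁) hl₁ 𝔫 h1'
  obtain ⟨d₂, hd₂⟩ := s34d_exists_locGenAt (s33s_r (Fb := Fb) ρ₂) hl₂ 𝔫 h2'
  obtain ⟨g₁, b₁, hg₁, hb₁⟩ := hα d₁
  obtain ⟨g₂, b₂, hg₂, hb₂⟩ := hβ d₂
  have hG₁ := hd₁ g₁ (by rw [s33s_r_apply, hg₁])
  have hG₂ := hd₂ g₂ (by rw [s33s_r_apply, hg₂])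
  have hu₂ : ρ₂ (g₁ - b₁ ^ q) = 0 := by rw [map_sub, map_pow, hb₁, sub_self]
  have hw₁ : ρ₁ (g₂ - b₂ ^ q) = 0 := by rw [map_sub, map_pow, hb₂, sub_self]
  have hb₁𝔫 : b₁ ∈ 𝔫 := by
    have h : g₁ - b₁ ^ q ∈ 𝔫 := h2 hu₂
    have h' : b₁ ^ q ∈ 𝔫 := by
      have := 𝔫.sub_mem hG₁.1 h
      rwa [sub_sub_cancel] at this
    exact h𝔫.mem_of_pow_mem _ h'
  have hb₂𝔫 : b₂ ∈ 𝔫 := by
    have h : g₂ - b₂ ^ q ∈ 𝔫 := h1 hw₁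
    have h' : b₂ ^ q ∈ 𝔫 := by
      have := 𝔫.sub_mem hG₂.1 h
      rwa [sub_sub_cancel] at this
    exact h𝔫.mem_of_pow_mem _ h'
  exact ⟨⟨_, s34d_locGenAt_sub_pow hG₁ hb₁𝔫 hq, hu₂⟩, ⟨_, s34d_locGenAt_sub_pow hG₂ hb₂𝔫 hq, hw₁⟩⟩

/-- The pair `(φ₁, φ₂)` is **glued at `𝔫`** (element form). -/
def s33s_GluedAt (ρ₁ ρ₂ : B →+* D) (𝔫 : Ideal B) (φ₁ φ₂ : Fb) : Prop :=
  ∃ c₁ b₁ c₂ b₂ : B, c₁ ∉ 𝔫 ∧ c₂ ∉ 𝔫 ∧ s33s_r ρ₁ c₁ * φ₁ = s33s_r ρ₁ b₁ ∧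
    s33s_r ρ₂ c₂ * φ₂ = s33s_r ρ₂ b₂ ∧ b₁ * c₂ - b₂ * c₁ ∈ 𝔫

/-- Reductions of elements of `B` are glued everywhere. -/
theorem s33s_gluedAt_of_mem (ρ₁ ρ₂ : B →+* D) (𝔫 : Ideal B) (h𝔫 : 𝔫 ≠ ⊤) (b : B) :
    s33s_GluedAt (Fb := Fb) ρ₁ ρ₂ 𝔫 (s33s_r ρ₁ b) (s33s_r ρ₂ b) := by
  have h1 : (1 : B) ∉ 𝔫 := fun h => h𝔫 ((Ideal.eq_top_iff_one _).mpr h)
  exact ⟨1, b, 1, b, h1, h1, by rw [map_one, one_mul], by rw [map_one, one_mul],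
    by rw [sub_self]; exact 𝔫.zero_mem⟩

/-- A pair with a common denominator outside `𝔫` is glued at `𝔫`. -/
theorem s33s_gluedAt_of_frac (ρ₁ ρ₂ : B →+* D) (𝔫 : Ideal B) {φ₁ φ₂ : Fb} {s β : B}
    (hs : s ∉ 𝔫) (e₁ : s33s_r ρ₁ s * φ₁ = s33s_r ρ₁ β) (e₂ : s33s_r ρ₂ s * φ₂ = s33s_r ρ₂ β) :
    s33s_GluedAt ρ₁ ρ₂ 𝔫 φ₁ φ₂ :=
  ⟨s, β, s, β, hs, hs, e₁, e₂, by rw [sub_self]; exact 𝔫.zero_mem⟩

/-- Independence of the representation: for a glued pair EVERY pair of representations satisfies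
the gluing relation (`𝔫` a prime containing both kernels). -/
theorem s33s_gluedAt_rel (ρ₁ ρ₂ : B →+* D) (𝔫 : Ideal B) [h𝔫 : 𝔫.IsPrime]
    (h1 : RingHom.ker ρ₁ ≤ 𝔫) (h2 : RingHom.ker ρ₂ ≤ 𝔫) {φ₁ φ₂ : Fb}
    (h : s33s_GluedAt ρ₁ ρ₂ 𝔫 φ₁ φ₂) {c₁ b₁ c₂ b₂ : B} (hc₁ : c₁ ∉ 𝔫) (hc₂ : c₂ ∉ 𝔫)
    (e₁ : s33s_r ρ₁ c₁ * φ₁ = s33s_r ρ₁ b₁) (e₂ : s33s_r ρ₂ c₂ * φ₂ = s33s_r ρ₂ b₂) :
    b₁ * c₂ - b₂ * c₁ ∈ 𝔫 := by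
  obtain ⟨c₁', b₁', c₂', b₂', hc₁', hc₂', e₁', e₂', hrel⟩ := h
  -- `c₁ b₁' - c₁' b₁ ∈ ker ρ₁`, `c₂ b₂' - c₂' b₂ ∈ ker ρ₂`
  have k1 : c₁ * b₁' - c₁' * b₁ ∈ 𝔫 := by
    apply h1
    rw [RingHom.mem_ker, ← s33s_r_eq_zero_iff (Fb := Fb), map_sub, map_mul, map_mul, ← e₁', ← e₁]
    ring
  have k2 : c₂ * b₂' - c₂' * b₂ ∈ 𝔫 := by
    apply h2
    rw [RingHom.mem_ker, ← s33s_r_eq_zero_iff (Fb := Fb), map_sub, map_mul, map_mul, ← e₂', ← e₂]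
    ring
  -- `c₁' c₂' (b₁ c₂ - b₂ c₁) ∈ 𝔫`
  have key : c₁' * c₂' * (b₁ * c₂ - b₂ * c₁) ∈ 𝔫 := by
    have : c₁' * c₂' * (b₁ * c₂ - b₂ * c₁) =
        c₁ * c₂ * (b₁' * c₂' - b₂' * c₁') - c₂ * c₂' * (c₁ * b₁' - c₁' * b₁) +
          c₁ * c₁' * (c₂ * b₂' - c₂' * b₂) := by ring
    rw [this]
    exact 𝔫.add_mem (𝔫.sub_mem (𝔫.mul_mem_left _ hrel) (𝔫.mul_mem_left _ k1))
      (𝔫.mul_mem_left _ k2)
  rcases h𝔫.mem_or_mem key with h | h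
  · rcases h𝔫.mem_or_mem h with h | h
    · exact absurd h hc₁'
    · exact absurd h hc₂'
  · exact h

/-- **Local lift at a node.** -/
theorem s33s_local_lift (ρ₁ ρ₂ : B →+* D) (q : ℕ) (hq : 2 ≤ q)
    (hα : ∀ d : D, ∃ g b : B, ρ₁ g = d ∧ ρ₂ g = ρ₂ b ^ q)
    (hβ : ∀ d : D, ∃ g b : B, ρ₂ g = d ∧ ρ₁ g = ρ₁ b ^ q)
    (𝔫 : Ideal B) [h𝔫 : 𝔫.IsPrime] (h1 : RingHom.ker ρ₁ ≤ 𝔫) (h2 : RingHom.ker ρ₂ ≤ 𝔫)
    {φ₁ φ₂ : Fb} (h : s33s_GluedAt ρ₁ ρ₂ 𝔫 φ₁ φ₂) :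
    ∃ s β : B, s ∉ 𝔫 ∧ s33s_r ρ₁ s * φ₁ = s33s_r ρ₁ β ∧ s33s_r ρ₂ s * φ₂ = s33s_r ρ₂ β := by
  obtain ⟨-, W, hW, hW₁⟩ := s33s_node_gens (Fb := Fb) ρ₁ ρ₂ q hq hα hβ 𝔫 h1 h2
  obtain ⟨c₁, b₁, c₂, b₂, hc₁, hc₂, e₁, e₂, hrel⟩ := h
  obtain ⟨c', hc', z, hz⟩ := hW.2 _ hrel
  have hW₁' : s33s_r (Fb := Fb) ρ₁ W = 0 := (s33s_r_eq_zero_iff ρ₁ W).mpr hW₁
  refine ⟨c' * (c₁ * c₂), c' * (b₁ * c₂) - z * W, ?_, ?_, ?_⟩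
  · intro hmem
    rcases h𝔫.mem_or_mem hmem with h | h
    · exact hc' h
    · rcases h𝔫.mem_or_mem h with h | h
      · exact hc₁ h
      · exact hc₂ h
  · rw [map_sub, map_mul, map_mul, map_mul, map_mul, map_mul, hW₁', mul_zero, sub_zero, ← e₁]
    ring
  · have hz' : s33s_r (Fb := Fb) ρ₂ (z * W) = s33s_r ρ₂ c' * (s33s_r ρ₂ b₁ * s33s_r ρ₂ c₂ -
        s33s_r ρ₂ b₂ * s33s_r ρ₂ c₁) := by
      rw [← hz, map_mul, map_sub, map_mul, map_mul]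
    rw [map_sub, hz', map_mul, map_mul, map_mul, map_mul, ← e₂]
    ring

/-- **[LIFT], semi-local form**: a pair glued at all nodes has a denominator `s = 1 - a₁ - a₂`,
`a_i ∈ ker ρ_i`, which therefore lies in no node. -/
theorem s33s_semilocal_lift (ρ₁ ρ₂ : B →+* D) (q : ℕ) (hq : 2 ≤ q)
    (hα : ∀ d : D, ∃ g b : B, ρ₁ g = d ∧ ρ₂ g = ρ₂ b ^ q)
    (hβ : ∀ d : D, ∃ g b : B, ρ₂ g = d ∧ ρ₁ g = ρ₁ b ^ q)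
    (φ₁ φ₂ : Fb)
    (h : ∀ 𝔫 : Ideal B, 𝔫.IsMaximal → RingHom.ker ρ₁ ≤ 𝔫 → RingHom.ker ρ₂ ≤ 𝔫 →
      s33s_GluedAt ρ₁ ρ₂ 𝔫 φ₁ φ₂) :
    ∃ s β a₁ a₂ : B, ρ₁ a₁ = 0 ∧ ρ₂ a₂ = 0 ∧ s = 1 - a₁ - a₂ ∧
      s33s_r ρ₁ s * φ₁ = s33s_r ρ₁ β ∧ s33s_r ρ₂ s * φ₂ = s33s_r ρ₂ β := by
  -- the ideal of denominators
  let 𝔡 : Ideal B :=
    { carrier := {s | ∃ β : B, s33s_r ρ₁ s * φ₁ = s33s_r ρ₁ β ∧ s33s_r ρ₂ s * φ₂ = s33s_r ρ₂ β}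
      zero_mem' := ⟨0, by rw [map_zero, zero_mul], by rw [map_zero, zero_mul]⟩
      add_mem' := by
        rintro s s' ⟨β, e₁, e₂⟩ ⟨β', e₁', e₂'⟩
        exact ⟨β + β', by rw [map_add, map_add, add_mul, e₁, e₁'],
          by rw [map_add, map_add, add_mul, e₂, e₂']⟩
      smul_mem' := by
        rintro c s ⟨β, e₁, e₂⟩
        exact ⟨c * β, by rw [smul_eq_mul, map_mul, map_mul, mul_assoc, e₁],
          by rw [smul_eq_mul, map_mul, map_mul, mul_assoc, e₂]⟩ }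
  have htop : 𝔡 ⊔ RingHom.ker ρ₁ ⊔ RingHom.ker ρ₂ = ⊤ := by
    by_contra hne
    obtain ⟨𝔮, h𝔮, hle⟩ := Ideal.exists_le_maximal _ hne
    haveI := h𝔮.isPrime
    have hk1 : RingHom.ker ρ₁ ≤ 𝔮 := le_trans (le_trans le_sup_right le_sup_left) hle
    have hk2 : RingHom.ker ρ₂ ≤ 𝔮 := le_trans le_sup_right hle
    obtain ⟨s, β, hs, e₁, e₂⟩ := s33s_local_lift ρ₁ ρ₂ q hq hα hβ 𝔮 hk1 hk2 (h 𝔮 h𝔮 hk1 hk2)
    exact hs (hle (Ideal.mem_sup_left (Ideal.mem_sup_left ⟨β, e₁, e₂⟩)))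
  have h1 : (1 : B) ∈ 𝔡 ⊔ RingHom.ker ρ₁ ⊔ RingHom.ker ρ₂ := by rw [htop]; trivial
  obtain ⟨x, hx, a₂, ha₂, hxa⟩ := Submodule.mem_sup.mp h1
  obtain ⟨s, ⟨β, e₁, e₂⟩, a₁, ha₁, hsa⟩ := Submodule.mem_sup.mp hx
  refine ⟨s, β, a₁, a₂, ha₁, ha₂, ?_, e₁, e₂⟩
  rw [← hxa, ← hsa]
  ring

/-- **The chart ring modulo `ϖ` is the ring of glued pairs**: a pair of elements of `D` glued at all
nodes is the pair of reductions of an element of `B`. -/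
theorem s33s_chart_lift (ρ₁ ρ₂ : B →+* D) (q : ℕ) (hq : 2 ≤ q)
    (hα : ∀ d : D, ∃ g b : B, ρ₁ g = d ∧ ρ₂ g = ρ₂ b ^ q)
    (hβ : ∀ d : D, ∃ g b : B, ρ₂ g = d ∧ ρ₁ g = ρ₁ b ^ q)
    (d₁ d₂ : D)
    (h : ∀ 𝔫 : Ideal B, 𝔫.IsMaximal → RingHom.ker ρ₁ ≤ 𝔫 → RingHom.ker ρ₂ ≤ 𝔫 →
      s33s_GluedAt (Fb := Fb) ρ₁ ρ₂ 𝔫 (algebraMap D Fb d₁) (algebraMap D Fb d₂)) :
    ∃ β : B, ρ₁ β = d₁ ∧ ρ₂ β = d₂ := by
  let 𝔡 : Ideal B :=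
    { carrier := {s | ∃ β : B, ρ₁ s * d₁ = ρ₁ β ∧ ρ₂ s * d₂ = ρ₂ β}
      zero_mem' := ⟨0, by rw [map_zero, zero_mul], by rw [map_zero, zero_mul]⟩
      add_mem' := by
        rintro s s' ⟨β, e₁, e₂⟩ ⟨β', e₁', e₂'⟩
        exact ⟨β + β', by rw [map_add, map_add, add_mul, e₁, e₁'],
          by rw [map_add, map_add, add_mul, e₂, e₂']⟩
      smul_mem' := by
        rintro c s ⟨β, e₁, e₂⟩
        exact ⟨c * β, by rw [smul_eq_mul, map_mul, map_mul, mul_assoc, e₁],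
          by rw [smul_eq_mul, map_mul, map_mul, mul_assoc, e₂]⟩ }
  have htop : 𝔡 = ⊤ := by
    by_contra hne
    obtain ⟨𝔮, h𝔮, hle⟩ := Ideal.exists_le_maximal _ hne
    haveI := h𝔮.isPrime
    by_cases hk2 : RingHom.ker ρ₂ ≤ 𝔮
    · by_cases hk1 : RingHom.ker ρ₁ ≤ 𝔮
      · obtain ⟨s, β, hs, e₁, e₂⟩ := s33s_local_lift (Fb := Fb) ρ₁ ρ₂ q hq hα hβ 𝔮 hk1 hk2
          (h 𝔮 h𝔮 hk1 hk2)
        apply hs
        apply hle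
        refine ⟨β, ?_, ?_⟩
        · apply IsFractionRing.injective D Fb
          rw [map_mul]
          exact e₁
        · apply IsFractionRing.injective D Fb
          rw [map_mul]
          exact e₂
      · obtain ⟨a, ha, ha𝔮⟩ := SetLike.not_le_iff_exists.mp hk1
        obtain ⟨g, _, hg, _⟩ := hβ d₂
        exact ha𝔮 (hle ⟨a * g, by rw [map_mul, (RingHom.mem_ker).mp ha, zero_mul, zero_mul],
          by rw [map_mul, hg]⟩)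
    · obtain ⟨a, ha, ha𝔮⟩ := SetLike.not_le_iff_exists.mp hk2
      obtain ⟨g, _, hg, _⟩ := hα d₁
      exact ha𝔮 (hle ⟨a * g, by rw [map_mul, hg],
        by rw [map_mul, (RingHom.mem_ker).mp ha, zero_mul, zero_mul]⟩)
  have h1 : (1 : B) ∈ 𝔡 := by rw [htop]; trivial
  obtain ⟨β, e₁, e₂⟩ := h1
  exact ⟨β, by rw [← e₁, map_one, one_mul], by rw [← e₂, map_one, one_mul]⟩

end Glue

/-! ### Evaluation by fractions -/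

section Eval

variable {B Fb K : Type*} [CommRing B] [Field Fb] [Field K]

open Classical in
/-- Evaluation by fractions: if `r c * φ = r b` with `χ c ≠ 0` the value is `χ b / χ c`. -/
def s33s_evFun (r : B →+* Fb) (χ : B →+* K) (φ : Fb) : K :=
  if h : ∃ c b : B, χ c ≠ 0 ∧ r c * φ = r b then χ h.choose_spec.choose * (χ h.choose)⁻¹ else 0

/-- The defining property of `s33s_evFun` (`χ` kills `ker r`). -/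
theorem s33s_evFun_spec (r : B →+* Fb) (χ : B →+* K) (hker : ∀ b, r b = 0 → χ b = 0) {φ : Fb}
    {c b : B} (hc : χ c ≠ 0) (e : r c * φ = r b) : s33s_evFun r χ φ * χ c = χ b := by
  have h : ∃ c b : B, χ c ≠ 0 ∧ r c * φ = r b := ⟨c, b, hc, e⟩
  rw [s33s_evFun, dif_pos h]
  obtain ⟨hc₀, e₀⟩ := h.choose_spec.choose_spec
  have hz : χ (c * h.choose_spec.choose - h.choose * b) = 0 := by
    apply hker
    rw [map_sub, map_mul, map_mul, ← e₀, ← e]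
    ring
  rw [map_sub, map_mul, map_mul, sub_eq_zero] at hz
  calc χ h.choose_spec.choose * (χ h.choose)⁻¹ * χ c
      = (χ c * χ h.choose_spec.choose) * (χ h.choose)⁻¹ := by ring
    _ = χ b * (χ h.choose * (χ h.choose)⁻¹) := by rw [hz]; ring
    _ = χ b := by rw [mul_inv_cancel₀ hc₀, mul_one]

/-- **The evaluation homomorphism** on a subring `W` all of whose elements are fractions with
denominator outside `ker χ`. -/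
def s33s_ev {S : Type*} [SetLike S Fb] [SubringClass S Fb] (r : B →+* Fb) (χ : B →+* K)
    (hker : ∀ b, r b = 0 → χ b = 0) (W : S)
    (hW : ∀ φ ∈ W, ∃ c b : B, χ c ≠ 0 ∧ r c * φ = r b) : W →+* K where
  toFun φ := s33s_evFun r χ (φ : Fb)
  map_one' := by
    have h1 : χ (1 : B) ≠ 0 := by rw [map_one]; exact one_ne_zero
    have := s33s_evFun_spec r χ hker (φ := (1 : Fb)) h1 (by rw [map_one, one_mul])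
    rw [map_one, mul_one] at this
    exact this
  map_zero' := by
    have h1 : χ (1 : B) ≠ 0 := by rw [map_one]; exact one_ne_zero
    have := s33s_evFun_spec r χ hker (φ := (0 : Fb)) (b := 0) h1 (by rw [map_zero, mul_zero])
    rw [map_one, mul_one, map_zero] at this
    exact this
  map_mul' := by
    intro φ ψ
    obtain ⟨c, b, hc, e⟩ := hW φ φ.2
    obtain ⟨c', b', hc', e'⟩ := hW ψ ψ.2
    have hcc : χ (c * c') ≠ 0 := by rw [map_mul]; exact mul_ne_zero hc hc'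
    have h1 := s33s_evFun_spec r χ hker hc e
    have h2 := s33s_evFun_spec r χ hker hc' e'
    have h3 := s33s_evFun_spec r χ hker (φ := (φ : Fb) * ψ) (b := b * b') hcc
      (by rw [map_mul, map_mul, ← e, ← e']; ring)
    have h4 : s33s_evFun r χ ((φ : Fb) * ψ) * χ (c * c') =
        s33s_evFun r χ φ * s33s_evFun r χ ψ * χ (c * c') := by
      rw [h3, map_mul, map_mul, ← h1, ← h2]; ring
    exact mul_right_cancel₀ hcc h4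
  map_add' := by
    intro φ ψ
    obtain ⟨c, b, hc, e⟩ := hW φ φ.2
    obtain ⟨c', b', hc', e'⟩ := hW ψ ψ.2
    have hcc : χ (c * c') ≠ 0 := by rw [map_mul]; exact mul_ne_zero hc hc'
    have h1 := s33s_evFun_spec r χ hker hc e
    have h2 := s33s_evFun_spec r χ hker hc' e'
    have h3 := s33s_evFun_spec r χ hker (φ := (φ : Fb) + ψ) (b := b * c' + b' * c) hcc
      (by rw [map_mul, map_add, map_mul, map_mul, ← e, ← e']; ring)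
    have h4 : s33s_evFun r χ ((φ : Fb) + ψ) * χ (c * c') =
        (s33s_evFun r χ φ + s33s_evFun r χ ψ) * χ (c * c') := by
      rw [h3, map_add, map_mul, map_mul, map_mul, ← h1, ← h2]; ring
    exact mul_right_cancel₀ hcc h4

theorem s33s_ev_spec {S : Type*} [SetLike S Fb] [SubringClass S Fb] (r : B →+* Fb) (χ : B →+* K)
    (hker : ∀ b, r b = 0 → χ b = 0) (W : S)
    (hW : ∀ φ ∈ W, ∃ c b : B, χ c ≠ 0 ∧ r c * φ = r b) (φ : W) {c b : B} (hc : χ c ≠ 0)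
    (e : r c * (φ : Fb) = r b) : s33s_ev r χ hker W hW φ * χ c = χ b :=
  s33s_evFun_spec r χ hker hc e

end Eval

/-! ### The branches of a node as valuation rings of `Fb` -/

section Branch

open IsDedekindDomain

variable {B D Fb : Type*} [CommRing B] [CommRing D] [IsDedekindDomain D] [Field Fb]
  [Algebra D Fb] [IsFractionRing D Fb]

/-- The image of a maximal ideal `𝔫 ⊇ ker ρ` under a surjection is maximal, with preimage `𝔫`. -/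
theorem s33s_map_isMaximal (ρ : B →+* D) (hρ : Function.Surjective ρ) (𝔫 : Ideal B)
    [h𝔫 : 𝔫.IsMaximal] (hk : RingHom.ker ρ ≤ 𝔫) :
    (Ideal.map ρ 𝔫).IsMaximal ∧ ∀ b : B, ρ b ∈ Ideal.map ρ 𝔫 ↔ b ∈ 𝔫 := by
  have hcomap : Ideal.comap ρ (Ideal.map ρ 𝔫) = 𝔫 := by
    rw [Ideal.comap_map_of_surjective ρ hρ]
    exact sup_eq_left.mpr hk
  refine ⟨?_, fun b => ?_⟩
  · rcases Ideal.map_eq_top_or_isMaximal_of_surjective ρ hρ h𝔫 with h | h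
    · exfalso
      rw [h, Ideal.comap_top] at hcomap
      exact h𝔫.ne_top hcomap.symm
    · exact h
  · rw [← Ideal.mem_comap, hcomap]

/-- The point of `Spec D` under a maximal ideal `𝔫 ⊇ ker ρ` of `B`. -/
def s33s_vNode (ρ : B →+* D) (hρ : Function.Surjective ρ) (hD : ¬ IsField D) (𝔫 : Ideal B)
    [𝔫.IsMaximal] (hk : RingHom.ker ρ ≤ 𝔫) : HeightOneSpectrum D where
  asIdeal := Ideal.map ρ 𝔫
  isPrime := (s33s_map_isMaximal ρ hρ 𝔫 hk).1.isPrime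
  ne_bot := Ring.ne_bot_of_isMaximal_of_not_isField (s33s_map_isMaximal ρ hρ 𝔫 hk).1 hD

/-- **The branch** of `𝔫` on the component `ρ`: the valuation ring of `Fb` at `ρ(𝔫)`. -/
def s33s_W (ρ : B →+* D) (hρ : Function.Surjective ρ) (hD : ¬ IsField D) (𝔫 : Ideal B)
    [𝔫.IsMaximal] (hk : RingHom.ker ρ ≤ 𝔫) : ValuationSubring Fb :=
  ((s33s_vNode ρ hρ hD 𝔫 hk).valuation Fb).valuationSubring

/-- Membership in the branch, in element form. -/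
theorem s33s_mem_W_iff (ρ : B →+* D) (hρ : Function.Surjective ρ) (hD : ¬ IsField D)
    (𝔫 : Ideal B) [𝔫.IsMaximal] (hk : RingHom.ker ρ ≤ 𝔫) (φ : Fb) :
    φ ∈ s33s_W (Fb := Fb) ρ hρ hD 𝔫 hk ↔
      ∃ c b : B, c ∉ 𝔫 ∧ s33s_r ρ c * φ = s33s_r ρ b := by
  have hmem := (s33s_map_isMaximal ρ hρ 𝔫 hk).2
  rw [s33s_W, Valuation.mem_valuationSubring_iff]
  constructor
  · intro h
    obtain ⟨n, ⟨d, hd⟩, e⟩ := (s33s_vNode ρ hρ hD 𝔫 hk).exists_primeCompl_mul_eq_of_integer φ h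
    obtain ⟨c, rfl⟩ := hρ d
    obtain ⟨b, rfl⟩ := hρ n
    refine ⟨c, b, fun hc => hd ((hmem c).mpr hc), ?_⟩
    rw [s33s_r_apply, s33s_r_apply, mul_comm]
    exact e
  · rintro ⟨c, b, hc, e⟩
    have h1 : (s33s_vNode ρ hρ hD 𝔫 hk).valuation Fb (algebraMap D Fb (ρ c)) = 1 := by
      rw [HeightOneSpectrum.valuation_eq_one_iff_notMem]
      exact fun h => hc ((hmem c).mp h)
    have h2 : (s33s_vNode ρ hρ hD 𝔫 hk).valuation Fb (algebraMap D Fb (ρ b)) ≤ 1 :=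
      HeightOneSpectrum.valuation_le_one _ _
    have h3 := congrArg ((s33s_vNode ρ hρ hD 𝔫 hk).valuation Fb) e
    rw [map_mul, s33s_r_apply, s33s_r_apply, h1, one_mul] at h3
    rw [h3]
    exact h2

/-- **Evaluation at the node `𝔫` along the branch `ρ`**, with values in a field `K` through
`χ : B →+* K` with kernel `𝔫` (e.g. `K = B ⧸ 𝔫`). -/
def s33s_evN (ρ : B →+* D) (hρ : Function.Surjective ρ) (hD : ¬ IsField D) (𝔫 : Ideal B)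
    [𝔫.IsMaximal] (hk : RingHom.ker ρ ≤ 𝔫) {K : Type*} [Field K] (χ : B →+* K)
    (hχ : ∀ c, χ c = 0 ↔ c ∈ 𝔫) : s33s_W (Fb := Fb) ρ hρ hD 𝔫 hk →+* K :=
  s33s_ev (s33s_r ρ) χ
    (fun b hb => (hχ b).mpr (hk ((RingHom.mem_ker).mpr ((s33s_r_eq_zero_iff ρ b).mp hb))))
    (s33s_W (Fb := Fb) ρ hρ hD 𝔫 hk)
    (fun φ hφ => by
      obtain ⟨c, b, hc, e⟩ := (s33s_mem_W_iff ρ hρ hD 𝔫 hk φ).mp hφ
      exact ⟨c, b, fun h => hc ((hχ c).mp h), e⟩)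

theorem s33s_evN_spec (ρ : B →+* D) (hρ : Function.Surjective ρ) (hD : ¬ IsField D) (𝔫 : Ideal B)
    [𝔫.IsMaximal] (hk : RingHom.ker ρ ≤ 𝔫) {K : Type*} [Field K] (χ : B →+* K)
    (hχ : ∀ c, χ c = 0 ↔ c ∈ 𝔫) (φ : s33s_W (Fb := Fb) ρ hρ hD 𝔫 hk) {c b : B} (hc : c ∉ 𝔫)
    (e : s33s_r ρ c * (φ : Fb) = s33s_r ρ b) :
    s33s_evN ρ hρ hD 𝔫 hk χ hχ φ * χ c = χ b :=
  s33s_ev_spec _ _ _ _ _ φ (fun h => hc ((hχ c).mp h)) e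

/-- **Glued pairs = pairs in the two branches with equal values at the node.** -/
theorem s33s_gluedAt_iff (ρ₁ ρ₂ : B →+* D) (hρ₁ : Function.Surjective ρ₁)
    (hρ₂ : Function.Surjective ρ₂) (hD : ¬ IsField D) (𝔫 : Ideal B) [h𝔫 : 𝔫.IsMaximal]
    (hk₁ : RingHom.ker ρ₁ ≤ 𝔫) (hk₂ : RingHom.ker ρ₂ ≤ 𝔫) {K : Type*} [Field K] (χ : B →+* K)
    (hχ : ∀ c, χ c = 0 ↔ c ∈ 𝔫) (φ₁ φ₂ : Fb) :
    s33s_GluedAt ρ₁ ρ₂ 𝔫 φ₁ φ₂ ↔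
      ∃ (h1 : φ₁ ∈ s33s_W (Fb := Fb) ρ₁ hρ₁ hD 𝔫 hk₁) (h2 : φ₂ ∈ s33s_W (Fb := Fb) ρ₂ hρ₂ hD 𝔫 hk₂),
        s33s_evN ρ₁ hρ₁ hD 𝔫 hk₁ χ hχ ⟨φ₁, h1⟩ = s33s_evN ρ₂ hρ₂ hD 𝔫 hk₂ χ hχ ⟨φ₂, h2⟩ := by
  constructor
  · rintro ⟨c₁, b₁, c₂, b₂, hc₁, hc₂, e₁, e₂, hrel⟩
    have h1 : φ₁ ∈ s33s_W (Fb := Fb) ρ₁ hρ₁ hD 𝔫 hk₁ :=
      (s33s_mem_W_iff ρ₁ hρ₁ hD 𝔫 hk₁ φ₁).mpr ⟨c₁, b₁, hc₁, e₁⟩
    have h2 : φ₂ ∈ s33s_W (Fb := Fb) ρ₂ hρ₂ hD 𝔫 hk₂ :=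
      (s33s_mem_W_iff ρ₂ hρ₂ hD 𝔫 hk₂ φ₂).mpr ⟨c₂, b₂, hc₂, e₂⟩
    refine ⟨h1, h2, ?_⟩
    have s1 := s33s_evN_spec ρ₁ hρ₁ hD 𝔫 hk₁ χ hχ ⟨φ₁, h1⟩ hc₁ e₁
    have s2 := s33s_evN_spec ρ₂ hρ₂ hD 𝔫 hk₂ χ hχ ⟨φ₂, h2⟩ hc₂ e₂
    have hχ₁ : χ c₁ ≠ 0 := fun h => hc₁ ((hχ c₁).mp h)
    have hχ₂ : χ c₂ ≠ 0 := fun h => hc₂ ((hχ c₂).mp h)
    have hz : χ b₁ * χ c₂ = χ b₂ * χ c₁ := by
      have := (hχ _).mpr hrel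
      rwa [map_sub, map_mul, map_mul, sub_eq_zero] at this
    apply mul_right_cancel₀ (mul_ne_zero hχ₁ hχ₂)
    calc s33s_evN ρ₁ hρ₁ hD 𝔫 hk₁ χ hχ ⟨φ₁, h1⟩ * (χ c₁ * χ c₂)
        = χ b₁ * χ c₂ := by rw [← s1]; ring
      _ = χ b₂ * χ c₁ := hz
      _ = s33s_evN ρ₂ hρ₂ hD 𝔫 hk₂ χ hχ ⟨φ₂, h2⟩ * (χ c₁ * χ c₂) := by rw [← s2]; ring
  · rintro ⟨h1, h2, hev⟩
    obtain ⟨c₁, b₁, hc₁, e₁⟩ := (s33s_mem_W_iff ρ₁ hρ₁ hD 𝔫 hk₁ φ₁).mp h1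
    obtain ⟨c₂, b₂, hc₂, e₂⟩ := (s33s_mem_W_iff ρ₂ hρ₂ hD 𝔫 hk₂ φ₂).mp h2
    refine ⟨c₁, b₁, c₂, b₂, hc₁, hc₂, e₁, e₂, ?_⟩
    have s1 := s33s_evN_spec ρ₁ hρ₁ hD 𝔫 hk₁ χ hχ ⟨φ₁, h1⟩ hc₁ e₁
    have s2 := s33s_evN_spec ρ₂ hρ₂ hD 𝔫 hk₂ χ hχ ⟨φ₂, h2⟩ hc₂ e₂
    rw [← hχ, map_sub, map_mul, map_mul, ← s1, ← s2, hev]
    ring

end Branch

end Fermat.Agent.Lib.S33
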