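/-
P-AT-P programme (S33), Stage 2, brick [SS-MODEL] (helper8), part 3: [GLUE], [LIFT], `unit` FOR A
TWO-COMPONENT CHART, semi-abstract (S34 X″ vocabulary + the gluing algebra `SSGlue`).

Setting: `O : Bool → ValuationSubring 𝓕` (`true ↦ V_∞`, `false ↦ V_0`), both discrete with
uniformiser `π` (`hUi`), reductions `red i : V_∞ ⊓ V_0 →+* Fb` with kernel `π O i`; a chart `S` with chart
ring `B = s34x_ring (s34x_infRing O) S`; a Dedekind domain `D` with fraction field `Fb` and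
`ρ i : B →+* D` with `algebraMap D Fb ∘ ρ i = red i` on `B`, with the Kronecker lifts `hα`, `hβ`.

* `s33s_rho_eq_zero_iff` : `ker ρ i = s33s_comp O π S i` (the component prime);
* `s33s_isNode_iff`      : nodes = maximal ideals containing both kernels;
* `s33s_glue`            : **[GLUE]** `y ∈ V_∞ ⊓ V_0` regular at the places through the nodes ⇒
  `(red_∞ y, red_0 y)` is glued at every node;
* `s33s_lift`            : **[LIFT]** a pair glued at all nodes is `(red_∞ x, red_0 x)` for some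
  `x ∈ V_∞ ⊓ V_0` regular at the places through the nodes;
* `s33s_unit_nodePlaces` : `1 + π y` has no zero or pole through a node.
-/
import Fermat.Agent.Lib.S33.SSGlue
import Fermat.Agent.Lib.S33.SSPlace

set_option autoImplicit false

noncomputable section

namespace Fermat.Agent.Lib.S33

open AlgebraicCurve Fermat.Agent.Lib.FF Fermat.Agent.Lib.S18 Fermat.Agent.Lib.S34

section Model

variable {L₀ 𝓕 : Type*} [Field L₀] [Field 𝓕] [Algebra L₀ 𝓕]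
  {D Fb : Type*} [CommRing D] [IsDedekindDomain D] [Field Fb] [Algebra D Fb] [IsFractionRing D Fb]

/-- An element of `V` outside `π V` is a unit of `V` (`V` discrete with uniformiser `π`). -/
theorem s33s_inv_mem_of_not_dvd (V : ValuationSubring 𝓕) (π : 𝓕) (hπ0 : π ≠ 0) (hπV : π ∈ V)
    (hU : ∀ U : 𝓕, U ≠ 0 → ∃ (n : ℤ) (u : 𝓕), u ∈ V ∧ u⁻¹ ∈ V ∧ U = π ^ n * u)
    (y : 𝓕) (hy0 : y ≠ 0) (hy : ¬ ∃ z ∈ V, y = π * z) : y⁻¹ ∈ V := by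
  obtain ⟨n, u, hu, hui, e⟩ := hU y hy0
  rcases le_or_gt n 0 with hn | hn
  · have : y⁻¹ = π ^ (-n) * u⁻¹ := by
      rw [e, mul_inv, zpow_neg]
    rw [this]
    obtain ⟨k, hk⟩ : ∃ k : ℕ, -n = (k : ℤ) := ⟨(-n).toNat, by omega⟩
    rw [hk, zpow_natCast]
    exact V.mul_mem _ _ (pow_mem hπV k) hui
  · exfalso
    apply hy
    obtain ⟨k, hk⟩ : ∃ k : ℕ, n = (k : ℤ) + 1 := ⟨(n - 1).toNat, by omega⟩
    refine ⟨π ^ k * u, V.mul_mem _ _ (pow_mem hπV k) hu, ?_⟩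
    rw [e, hk, zpow_add₀ hπ0, zpow_natCast, zpow_one]
    ring

variable (O : Bool → ValuationSubring 𝓕) (π : 𝓕) (S : Set (Place L₀ 𝓕))
  (red : Bool → (s34x_infRing O →+* Fb))
  (ρ : Bool → (s34x_ring (s34x_infRing O) S →+* D))

/-- the chart ring lies in each `O i`. -/
theorem s33s_ring_mem (i : Bool) (b : s34x_ring (s34x_infRing O) S) : (b : 𝓕) ∈ O i :=
  (s34x_mem_infRing O _).1 b.2.1 i

/-- `ker ρ i` is the component prime `B ∩ π O i`. -/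
theorem s33s_rho_eq_zero_iff
    (hred0 : ∀ i (y : s34x_infRing O), red i y = 0 ↔ ∃ z ∈ O i, (y : 𝓕) = π * z)
    (hρ : ∀ i b, algebraMap D Fb (ρ i b) = red i ⟨(b : 𝓕), b.2.1⟩)
    (i : Bool) (b : s34x_ring (s34x_infRing O) S) : ρ i b = 0 ↔ b ∈ s33s_comp O π S i := by
  rw [s33s_mem_comp, ← hred0 i ⟨(b : 𝓕), b.2.1⟩, ← hρ i b]
  exact (map_eq_zero_iff _ (IsFractionRing.injective D Fb)).symm

/-- Nodes are the maximal ideals containing both kernels. -/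
theorem s33s_isNode_iff
    (hred0 : ∀ i (y : s34x_infRing O), red i y = 0 ↔ ∃ z ∈ O i, (y : 𝓕) = π * z)
    (hρ : ∀ i b, algebraMap D Fb (ρ i b) = red i ⟨(b : 𝓕), b.2.1⟩)
    (𝔫 : Ideal (s34x_ring (s34x_infRing O) S)) :
    s33s_IsNode O π S 𝔫 ↔
      𝔫.IsMaximal ∧ RingHom.ker (ρ true) ≤ 𝔫 ∧ RingHom.ker (ρ false) ≤ 𝔫 := by
  have hk : ∀ i, RingHom.ker (ρ i) = s33s_comp O π S i := by
    intro i
    ext b
    rw [RingHom.mem_ker, s33s_rho_eq_zero_iff O π S red ρ hred0 hρ]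
  rw [s33s_IsNode, hk, hk]

/-- `r_i` of `SSGlue` is `red i` on the chart ring. -/
theorem s33s_r_eq_red
    (hρ : ∀ i b, algebraMap D Fb (ρ i b) = red i ⟨(b : 𝓕), b.2.1⟩)
    (i : Bool) (b : s34x_ring (s34x_infRing O) S) :
    s33s_r (Fb := Fb) (ρ i) b = red i ⟨(b : 𝓕), b.2.1⟩ := by
  rw [s33s_r_apply, hρ]

/-- **[GLUE]**. -/
theorem s33s_glue
    (hfin : ∀ y : 𝓕, y ≠ 0 → {Q : Place L₀ 𝓕 | Q ∈ S ∧ Q.ord y ≠ 0}.Finite)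
    (hρ : ∀ i b, algebraMap D Fb (ρ i b) = red i ⟨(b : 𝓕), b.2.1⟩)
    (y : 𝓕) (hyO : y ∈ s34x_infRing O)
    (hreg : ∀ Q ∈ s33s_nodePlaces O π S, y ∈ Q.toValuationSubring)
    (𝔫 : Ideal (s34x_ring (s34x_infRing O) S)) (h𝔫 : s33s_IsNode O π S 𝔫) :
    s33s_GluedAt (ρ true) (ρ false) 𝔫 (red true ⟨y, hyO⟩) (red false ⟨y, hyO⟩) := by
  haveI := h𝔫.1
  haveI : 𝔫.IsPrime := h𝔫.1.isPrime
  have hfin' : {Q : Place L₀ 𝓕 | Q ∈ S ∧ Q.ord y < 0}.Finite := by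
    by_cases hy0 : y = 0
    · have : {Q : Place L₀ 𝓕 | Q ∈ S ∧ Q.ord y < 0} = ∅ := by
        ext Q
        simp [hy0]
      rw [this]
      exact Set.finite_empty
    · exact (hfin y hy0).subset (fun Q hQ => ⟨hQ.1, ne_of_lt hQ.2⟩)
  obtain ⟨s, hs, hsy⟩ := s33s_frac_of_reg (s34x_infRing O) S 𝔫 y hyO hfin'
    (fun Q hQ hth => hreg Q ⟨hQ, 𝔫, h𝔫, hth⟩)
  refine s33s_gluedAt_of_frac (ρ true) (ρ false) 𝔫 (s := s) (β := ⟨(s : 𝓕) * y, hsy⟩) hs ?_ ?_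
  · rw [s33s_r_eq_red O S red ρ hρ, s33s_r_eq_red O S red ρ hρ, ← map_mul]
    rfl
  · rw [s33s_r_eq_red O S red ρ hρ, s33s_r_eq_red O S red ρ hρ, ← map_mul]
    rfl

/-- **[LIFT]**. -/
theorem s33s_lift (hπ0 : π ≠ 0) (hπO : ∀ i, π ∈ O i)
    (hUi : ∀ i, ∀ U : 𝓕, U ≠ 0 → ∃ (n : ℤ) (u : 𝓕), u ∈ O i ∧ u⁻¹ ∈ O i ∧ U = π ^ n * u)
    (hred0 : ∀ i (y : s34x_infRing O), red i y = 0 ↔ ∃ z ∈ O i, (y : 𝓕) = π * z)
    (hρ : ∀ i b, algebraMap D Fb (ρ i b) = red i ⟨(b : 𝓕), b.2.1⟩)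
    (q : ℕ) (hq : 2 ≤ q)
    (hα : ∀ d : D, ∃ g b, ρ true g = d ∧ ρ false g = ρ false b ^ q)
    (hβ : ∀ d : D, ∃ g b, ρ false g = d ∧ ρ true g = ρ true b ^ q)
    (hnode : ∃ 𝔫, s33s_IsNode O π S 𝔫)
    (φ₁ φ₂ : Fb)
    (h : ∀ 𝔫, s33s_IsNode O π S 𝔫 → s33s_GluedAt (ρ true) (ρ false) 𝔫 φ₁ φ₂) :
    ∃ (x : 𝓕) (hx : x ∈ s34x_infRing O),
      (∀ Q ∈ s33s_nodePlaces O π S, x ∈ Q.toValuationSubring) ∧
      red true ⟨x, hx⟩ = φ₁ ∧ red false ⟨x, hx⟩ = φ₂ := by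
  have hnode_iff := s33s_isNode_iff O π S red ρ hred0 hρ
  obtain ⟨s, β, a₁, a₂, ha₁, ha₂, hs, e₁, e₂⟩ := s33s_semilocal_lift (ρ true) (ρ false) q hq hα hβ
    φ₁ φ₂ (fun 𝔫 hmax hk1 hk2 => h 𝔫 ((hnode_iff 𝔫).2 ⟨hmax, hk1, hk2⟩))
  -- `s` lies in no node
  have hs𝔫 : ∀ 𝔫, s33s_IsNode O π S 𝔫 → s ∉ 𝔫 := by
    intro 𝔫 h𝔫 hmem
    obtain ⟨hmax, hk1, hk2⟩ := (hnode_iff 𝔫).1 h𝔫
    have h1 : (1 : s34x_ring (s34x_infRing O) S) ∈ 𝔫 := by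
      have : (1 : s34x_ring (s34x_infRing O) S) = s + a₁ + a₂ := by rw [hs]; ring
      rw [this]
      exact 𝔫.add_mem (𝔫.add_mem hmem (hk1 ((RingHom.mem_ker).2 ha₁)))
        (hk2 ((RingHom.mem_ker).2 ha₂))
    exact hmax.ne_top ((Ideal.eq_top_iff_one _).2 h1)
  obtain ⟨𝔫₀, h𝔫₀⟩ := hnode
  obtain ⟨hmax₀, hk1₀, hk2₀⟩ := (hnode_iff 𝔫₀).1 h𝔫₀
  have hρs : ∀ i, ρ i s ≠ 0 := by
    intro i h0
    apply hs𝔫 𝔫₀ h𝔫₀
    cases i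
    · exact hk2₀ ((RingHom.mem_ker).2 h0)
    · exact hk1₀ ((RingHom.mem_ker).2 h0)
  have hreds : ∀ i, red i ⟨(s : 𝓕), s.2.1⟩ ≠ 0 := by
    intro i h0
    apply hρs i
    apply IsFractionRing.injective D Fb
    rw [hρ, h0, map_zero]
  have hs0 : (s : 𝓕) ≠ 0 := by
    intro h0
    apply hreds true
    have : (⟨(s : 𝓕), s.2.1⟩ : s34x_infRing O) = 0 := Subtype.ext h0
    rw [this, map_zero]
  have hsinv : ∀ i, (s : 𝓕)⁻¹ ∈ O i := by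
    intro i
    apply s33s_inv_mem_of_not_dvd (O i) π hπ0 (hπO i) (hUi i) (s : 𝓕) hs0
    intro hdiv
    exact hreds i ((hred0 i _).2 hdiv)
  have hx : (β : 𝓕) * (s : 𝓕)⁻¹ ∈ s34x_infRing O := (s34x_mem_infRing O _).2 fun i =>
    (O i).mul_mem _ _ (s33s_ring_mem O S i β) (hsinv i)
  have hxs : (s : 𝓕) * ((β : 𝓕) * (s : 𝓕)⁻¹) = (β : 𝓕) := by
    rw [mul_comm, mul_assoc, inv_mul_cancel₀ hs0, mul_one]
  have e : ∀ i, red i ⟨(s : 𝓕), s.2.1⟩ * red i ⟨(β : 𝓕) * (s : 𝓕)⁻¹, hx⟩ =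
      red i ⟨(β : 𝓕), β.2.1⟩ := by
    intro i
    rw [← map_mul]
    exact congrArg (red i) (Subtype.ext hxs)
  refine ⟨(β : 𝓕) * (s : 𝓕)⁻¹, hx, ?_, ?_, ?_⟩
  · rintro Q ⟨hQS, 𝔫, h𝔫, hth⟩
    refine s33s_reg_of_frac (s34x_infRing O) S 𝔫 _ s (hs𝔫 𝔫 h𝔫) ?_ Q hQS hth
    rw [hxs]
    exact β.2
  · rw [s33s_r_eq_red O S red ρ hρ, s33s_r_eq_red O S red ρ hρ, ← e true] at e₁
    exact (mul_left_cancel₀ (hreds true) e₁).symm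
  · rw [s33s_r_eq_red O S red ρ hρ, s33s_r_eq_red O S red ρ hρ, ← e false] at e₂
    exact (mul_left_cancel₀ (hreds false) e₂).symm

/-- **`unit`**: `1 + π y` has no zero or pole through a node. -/
theorem s33s_unit_nodePlaces
    (hfin : ∀ y : 𝓕, y ≠ 0 → {Q : Place L₀ 𝓕 | Q ∈ S ∧ Q.ord y ≠ 0}.Finite)
    (hπO : ∀ i, π ∈ O i) (hπS : ∀ Q ∈ S, π ∈ Q.toValuationSubring)
    (y : 𝓕) (hyO : y ∈ s34x_infRing O)
    (hreg : ∀ Q ∈ s33s_nodePlaces O π S, y ∈ Q.toValuationSubring)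
    (Q : Place L₀ 𝓕) (hQ : Q ∈ s33s_nodePlaces O π S) : Q.ord (1 + π * y) = 0 := by
  obtain ⟨hQS, 𝔫, h𝔫, hth⟩ := hQ
  haveI : 𝔫.IsPrime := h𝔫.1.isPrime
  have hfin' : {Q : Place L₀ 𝓕 | Q ∈ S ∧ Q.ord y < 0}.Finite := by
    by_cases hy0 : y = 0
    · have : {Q : Place L₀ 𝓕 | Q ∈ S ∧ Q.ord y < 0} = ∅ := by
        ext Q
        simp [hy0]
      rw [this]
      exact Set.finite_empty
    · exact (hfin y hy0).subset (fun Q hQ => ⟨hQ.1, ne_of_lt hQ.2⟩)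
  obtain ⟨s, hs, hsy⟩ := s33s_frac_of_reg (s34x_infRing O) S 𝔫 y hyO hfin'
    (fun Q' hQ' hth' => hreg Q' ⟨hQ', 𝔫, h𝔫, hth'⟩)
  have hπB : π ∈ s34x_ring (s34x_infRing O) S := ⟨(s34x_mem_infRing O π).2 hπO, hπS⟩
  have hπ𝔫 : (⟨π, hπB⟩ : s34x_ring (s34x_infRing O) S) ∈ 𝔫 := by
    apply h𝔫.2.1
    rw [s33s_mem_comp]
    exact ⟨1, (O true).one_mem, by rw [mul_one]⟩
  exact s33s_unit (s34x_infRing O) S 𝔫 ⟨π, hπB⟩ hπ𝔫 y s hs hsy Q hQS hth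

end Model

end Fermat.Agent.Lib.S33
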