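/-
P-AT-P programme (S33), Stage 2, brick [SS-MODEL] (helper8), part 4: THE MODULAR INSTANCE of
`SSModel` (S34 vocabulary: `G` a Gauss datum, level `M q`, `O₂ = V_∞ ⊓ V_0`, any chart `S`).

Inputs = those of `s34df_dichotomy` (`Lib/S34/DFibre.lean`) with `D₁ = D₂ = D`, plus
`hint i : r_i(B) ⊆ D` (the chart ring is integral over `A₀[w]`).

* `s33s_redO i`  : the two reductions `O₂ →+* Fb` (`Fb ⊂ κ((T))` a subfield containing them);
* `s33s_rhoD i`  : `ρ_i : B →+* D`, with `algebraMap D Fb ∘ ρ_i = red_i` on `B` (`s33s_rhoD_spec`);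
* `s33s_inst_halpha`, `s33s_inst_hbeta` : the Kronecker lifts;
* `s33s_inst_glue`, `s33s_inst_lift`, `s33s_inst_unit` : [GLUE], [LIFT], `unit` for the modular
  datum, in the element form `s33s_GluedAt`.
-/
import Fermat.Agent.Lib.S33.SSModel
import Fermat.Agent.Lib.S34.DFibre
import Fermat.Agent.Lib.S34.DStarInst

set_option autoImplicit false
set_option linter.unusedSectionVars false

noncomputable section

namespace Fermat.Agent.Lib.S33

open ModularCurve AlgebraicCurve HahnSeries Fermat.Agent.Lib.FF Fermat.Agent.Lib.S18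
  Fermat.Agent.Lib.S34 Fermat.Agent.Lib.S37

local notation "Kb" => AlgebraicClosure ℚ

section Factor

variable {B D Fb : Type*} [CommRing B] [CommRing D] [CommRing Fb]

/-- Factor a ring homomorphism through an injective one containing its image. -/
def s33s_factor (f : B →+* Fb) (g : D →+* Fb) (hg : Function.Injective g)
    (h : ∀ b, f b ∈ g.range) : B →+* D :=
  ((RingEquiv.ofBijective g.rangeRestrict
    ⟨fun x y e => hg (congrArg Subtype.val e), g.rangeRestrict_surjective⟩).symm :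
      g.range →+* D).comp (f.codRestrict g.range h)

theorem s33s_factor_spec (f : B →+* Fb) (g : D →+* Fb) (hg : Function.Injective g)
    (h : ∀ b, f b ∈ g.range) (b : B) : g (s33s_factor f g hg h b) = f b := by
  have h1 : g.rangeRestrict (s33s_factor f g hg h b) = f.codRestrict g.range h b := by
    rw [s33s_factor, RingHom.comp_apply]
    exact (RingEquiv.ofBijective g.rangeRestrict _).apply_symm_apply _
  exact congrArg Subtype.val h1

end Factor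

variable {K₀ : Type*} [Field K₀] [Algebra ℚ K₀] {κ : Type*} [Field κ] (G : s18g_GaussData K₀ κ)
variable (φ : K₀ →+* Kb) (M q : ℕ) [NeZero M] [NeZero q] (hq : q.Prime) (hqM : ¬ q ∣ M)

/-- `O₂ → V_∞`. -/
def s33s_toVinf : s34x_infRing (s34m_VV G φ M q hq hqM) →+* s34m_Vinf G (M * q) where
  toFun y := ⟨(y : s34m_F K₀ (M * q)), ((s34df_mem_O_iff G φ M q hq hqM _).mp y.2).1⟩
  map_one' := rfl
  map_mul' _ _ := rfl
  map_zero' := rfl
  map_add' _ _ := rfl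

/-- `O₂ → V_0`. -/
def s33s_toVzero : s34x_infRing (s34m_VV G φ M q hq hqM) →+* s34m_Vzero G φ M q hq hqM where
  toFun y := ⟨(y : s34m_F K₀ (M * q)), ((s34df_mem_O_iff G φ M q hq hqM _).mp y.2).2⟩
  map_one' := rfl
  map_mul' _ _ := rfl
  map_zero' := rfl
  map_add' _ _ := rfl

/-- The two reductions of `O₂` with values in `κ((T))`. -/
def s33s_redL : Bool → (s34x_infRing (s34m_VV G φ M q hq hqM) →+* LaurentSeries κ)
  | true => (s34m_redInf G (M * q)).comp (s33s_toVinf G φ M q hq hqM)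
  | false => (s34m_redZero G φ M q hq hqM).comp (s33s_toVzero G φ M q hq hqM)

theorem s33s_redL_true (y : s34x_infRing (s34m_VV G φ M q hq hqM)) :
    s33s_redL G φ M q hq hqM true y = s34m_redInf G (M * q)
      ⟨(y : s34m_F K₀ (M * q)), ((s34df_mem_O_iff G φ M q hq hqM _).mp y.2).1⟩ := rfl

theorem s33s_redL_false (y : s34x_infRing (s34m_VV G φ M q hq hqM)) :
    s33s_redL G φ M q hq hqM false y = s34m_redZero G φ M q hq hqM
      ⟨(y : s34m_F K₀ (M * q)), ((s34df_mem_O_iff G φ M q hq hqM _).mp y.2).2⟩ := rfl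

/-- `red_i y = 0 ↔ y ∈ ϖ O_i`. -/
theorem s33s_redL_eq_zero_iff (i : Bool) (y : s34x_infRing (s34m_VV G φ M q hq hqM)) :
    s33s_redL G φ M q hq hqM i y = 0 ↔
      ∃ z ∈ s34m_VV G φ M q hq hqM i, (y : s34m_F K₀ (M * q)) = s34m_unif G (M * q) * z := by
  cases i
  · rw [s33s_redL_false, s34m_redZero_eq_zero_iff]
    rfl
  · rw [s33s_redL_true, s34m_redInf_eq_zero_iff]
    rfl

variable (Fb : IntermediateField κ (LaurentSeries κ))

/-- The two reductions of `O₂` with values in the subfield `Fb`. -/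
def s33s_redO (hF : ∀ i y, s33s_redL G φ M q hq hqM i y ∈ Fb) (i : Bool) :
    s34x_infRing (s34m_VV G φ M q hq hqM) →+* Fb :=
  (s33s_redL G φ M q hq hqM i).codRestrict Fb (hF i)

theorem s33s_coe_redO (hF : ∀ i y, s33s_redL G φ M q hq hqM i y ∈ Fb) (i : Bool)
    (y : s34x_infRing (s34m_VV G φ M q hq hqM)) :
    ((s33s_redO G φ M q hq hqM Fb hF i y : Fb) : LaurentSeries κ) =
      s33s_redL G φ M q hq hqM i y := rfl

theorem s33s_redO_eq_zero_iff (hF : ∀ i y, s33s_redL G φ M q hq hqM i y ∈ Fb) (i : Bool)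
    (y : s34x_infRing (s34m_VV G φ M q hq hqM)) :
    s33s_redO G φ M q hq hqM Fb hF i y = 0 ↔
      ∃ z ∈ s34m_VV G φ M q hq hqM i, (y : s34m_F K₀ (M * q)) = s34m_unif G (M * q) * z := by
  rw [← s33s_redL_eq_zero_iff G φ M q hq hqM i y, ← s33s_coe_redO G φ M q hq hqM Fb hF i y]
  constructor
  · intro h
    rw [h]
    rfl
  · intro h
    exact Subtype.ext h

variable (S : Set (Place K₀ (s34m_F K₀ (M * q))))

/-- On the chart ring `red_true = r₁`, `red_false = r₂` of `DFibre.lean`. -/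
theorem s33s_redL_ring (b : s34x_ring (s34x_infRing (s34m_VV G φ M q hq hqM)) S) :
    s33s_redL G φ M q hq hqM true ⟨(b : s34m_F K₀ (M * q)), b.2.1⟩ = s34df_r1 G φ M q hq hqM S b ∧
    s33s_redL G φ M q hq hqM false ⟨(b : s34m_F K₀ (M * q)), b.2.1⟩ =
      s34df_r2 G φ M q hq hqM S b :=
  ⟨rfl, rfl⟩

variable {D : Type*} [CommRing D] [IsDedekindDomain D] [Algebra D Fb] [IsFractionRing D Fb]

/-- **`ρ_i : B →+* D`**. -/
def s33s_rhoD (hF : ∀ i y, s33s_redL G φ M q hq hqM i y ∈ Fb)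
    (hint : ∀ (i : Bool) (b : s34x_ring (s34x_infRing (s34m_VV G φ M q hq hqM)) S),
      ∃ d : D, algebraMap D Fb d = s33s_redO G φ M q hq hqM Fb hF i ⟨(b : s34m_F K₀ (M * q)), b.2.1⟩)
    (i : Bool) : s34x_ring (s34x_infRing (s34m_VV G φ M q hq hqM)) S →+* D :=
  s33s_factor ((s33s_redO G φ M q hq hqM Fb hF i).comp
    (Subring.inclusion (s34x_ring_le (s34x_infRing (s34m_VV G φ M q hq hqM)) S)))
    (algebraMap D Fb) (IsFractionRing.injective D Fb) (fun b => by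
      obtain ⟨d, hd⟩ := hint i b
      exact ⟨d, hd⟩)

theorem s33s_rhoD_spec (hF : ∀ i y, s33s_redL G φ M q hq hqM i y ∈ Fb)
    (hint : ∀ (i : Bool) (b : s34x_ring (s34x_infRing (s34m_VV G φ M q hq hqM)) S),
      ∃ d : D, algebraMap D Fb d = s33s_redO G φ M q hq hqM Fb hF i ⟨(b : s34m_F K₀ (M * q)), b.2.1⟩)
    (i : Bool) (b : s34x_ring (s34x_infRing (s34m_VV G φ M q hq hqM)) S) :
    algebraMap D Fb (s33s_rhoD G φ M q hq hqM Fb S hF hint i b) =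
      s33s_redO G φ M q hq hqM Fb hF i ⟨(b : s34m_F K₀ (M * q)), b.2.1⟩ :=
  s33s_factor_spec _ _ _ _ b

/-- The Laurent series of `ρ_i b`. -/
theorem s33s_coe_rhoD (hF : ∀ i y, s33s_redL G φ M q hq hqM i y ∈ Fb)
    (hint : ∀ (i : Bool) (b : s34x_ring (s34x_infRing (s34m_VV G φ M q hq hqM)) S),
      ∃ d : D, algebraMap D Fb d = s33s_redO G φ M q hq hqM Fb hF i ⟨(b : s34m_F K₀ (M * q)), b.2.1⟩)
    (b : s34x_ring (s34x_infRing (s34m_VV G φ M q hq hqM)) S) :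
    ((algebraMap D Fb (s33s_rhoD G φ M q hq hqM Fb S hF hint true b) : Fb) : LaurentSeries κ) =
      s34df_r1 G φ M q hq hqM S b ∧
    ((algebraMap D Fb (s33s_rhoD G φ M q hq hqM Fb S hF hint false b) : Fb) : LaurentSeries κ) =
      s34df_r2 G φ M q hq hqM S b := by
  rw [s33s_rhoD_spec, s33s_rhoD_spec]
  exact ⟨rfl, rfl⟩

section Kronecker

variable (hF : ∀ i y, s33s_redL G φ M q hq hqM i y ∈ Fb)
  (hint : ∀ (i : Bool) (b : s34x_ring (s34x_infRing (s34m_VV G φ M q hq hqM)) S),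
    ∃ d : D, algebraMap D Fb d = s33s_redO G φ M q hq hqM Fb hF i ⟨(b : s34m_F K₀ (M * q)), b.2.1⟩)
  (BM : Set (s34m_F K₀ M)) (hBMV : ∀ g ∈ BM, g ∈ s34m_Vinf G M)
  (hαB : ∀ g ∈ BM, heckeAlphaBar K₀ M q g ∈
    s34x_ring (s34x_infRing (s34m_VV G φ M q hq hqM)) S)
  (hβB : ∀ g ∈ BM, ∃ b' ∈ s34x_ring (s34x_infRing (s34m_VV G φ M q hq hqM)) S,
    ∃ z, z ∈ s34m_Vinf G (M * q) ∧ z ∈ s34m_Vzero G φ M q hq hqM ∧
      b' - heckeBetaBar K₀ M q g = s34m_unif G (M * q) * z)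
  (hlift : ∀ d : D, ∃ g, ∃ hg : g ∈ BM,
    s34m_redInf G M ⟨g, hBMV g hg⟩ = ((algebraMap D Fb d : Fb) : LaurentSeries κ))
  (htw : ∀ d : D, ∃ d' : D, qExpand κ q ((algebraMap D Fb d : Fb) : LaurentSeries κ) =
    ((algebraMap D Fb d' : Fb) : LaurentSeries κ) ^ q)

include hαB hβB hlift htw in
/-- The Kronecker lifts `(d, Φ d)` and `(Φ d, d)` for `ρ`. -/
theorem s33s_inst_kronecker :
    (∀ d : D, ∃ g b, s33s_rhoD G φ M q hq hqM Fb S hF hint true g = d ∧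
      s33s_rhoD G φ M q hq hqM Fb S hF hint false g =
        s33s_rhoD G φ M q hq hqM Fb S hF hint false b ^ q) ∧
    ∀ d : D, ∃ g b, s33s_rhoD G φ M q hq hqM Fb S hF hint false g = d ∧
      s33s_rhoD G φ M q hq hqM Fb S hF hint true g =
        s33s_rhoD G φ M q hq hqM Fb S hF hint true b ^ q := by
  have hinj : ∀ d d' : D, ((algebraMap D Fb d : Fb) : LaurentSeries κ) =
      ((algebraMap D Fb d' : Fb) : LaurentSeries κ) → d = d' := fun d d' h =>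
    IsFractionRing.injective D Fb (Subtype.ext h)
  have hc := s33s_coe_rhoD G φ M q hq hqM Fb S hF hint
  have hα₁ : ∀ g (hg : g ∈ BM), s34df_r1 G φ M q hq hqM S ⟨_, hαB g hg⟩ =
      s34m_redInf G M ⟨g, hBMV g hg⟩ := fun g hg =>
    (s34df_r1_eq G φ M q hq hqM S _ _ (s34m_alpha_mem_Vinf G M q (hBMV g hg)) rfl).trans
      (s34m_redInf_alpha G M q ⟨g, hBMV g hg⟩)
  have hα₂ : ∀ g (hg : g ∈ BM), s34df_r2 G φ M q hq hqM S ⟨_, hαB g hg⟩ =
      qExpand κ q (s34m_redInf G M ⟨g, hBMV g hg⟩) := fun g hg =>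
    (s34df_r2_eq G φ M q hq hqM S _ _ (s34m_alpha_mem_Vzero G φ M q hq hqM (hBMV g hg)) rfl).trans
      (s34m_redZero_alpha G φ M q hq hqM ⟨g, hBMV g hg⟩)
  have hβ₁ : ∀ g (hg : g ∈ BM) (b' : s34m_F K₀ (M * q))
      (hb' : b' ∈ s34x_ring (s34x_infRing (s34m_VV G φ M q hq hqM)) S)
      (z : s34m_F K₀ (M * q)), z ∈ s34m_Vinf G (M * q) →
      b' - heckeBetaBar K₀ M q g = s34m_unif G (M * q) * z →
      s34df_r1 G φ M q hq hqM S ⟨b', hb'⟩ = qExpand κ q (s34m_redInf G M ⟨g, hBMV g hg⟩) := by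
    intro g hg b' hb' z hz e
    rw [s34df_r1_apply, ← s34m_redInf_beta G M q ⟨g, hBMV g hg⟩]
    exact s34df_redInf_congr G M q _ _ hz e
  have hβ₂ : ∀ g (hg : g ∈ BM) (b' : s34m_F K₀ (M * q))
      (hb' : b' ∈ s34x_ring (s34x_infRing (s34m_VV G φ M q hq hqM)) S)
      (z : s34m_F K₀ (M * q)), z ∈ s34m_Vzero G φ M q hq hqM →
      b' - heckeBetaBar K₀ M q g = s34m_unif G (M * q) * z →
      s34df_r2 G φ M q hq hqM S ⟨b', hb'⟩ = s34m_redInf G M ⟨g, hBMV g hg⟩ := by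
    intro g hg b' hb' z hz e
    rw [s34df_r2_apply, ← s34m_redZero_beta G φ M q hq hqM ⟨g, hBMV g hg⟩]
    exact s34df_redZero_congr G φ M q hq hqM _ _ hz e
  constructor
  · intro d
    obtain ⟨g₀, hg₀, e₀⟩ := hlift d
    obtain ⟨d', hd'⟩ := htw d
    obtain ⟨g₁, hg₁, e₁⟩ := hlift d'
    obtain ⟨b', hb', z, hzI, hz0, ez⟩ := hβB g₁ hg₁
    refine ⟨⟨_, hαB g₀ hg₀⟩, ⟨b', hb'⟩, hinj _ _ ?_, hinj _ _ ?_⟩
    · rw [(hc _).1, hα₁ g₀ hg₀, e₀]
    · rw [(hc _).2, hα₂ g₀ hg₀, e₀, hd', map_pow, SubmonoidClass.coe_pow, (hc _).2,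
        hβ₂ g₁ hg₁ b' hb' z hz0 ez, e₁]
  · intro d
    obtain ⟨g₀, hg₀, e₀⟩ := hlift d
    obtain ⟨d', hd'⟩ := htw d
    obtain ⟨g₁, hg₁, e₁⟩ := hlift d'
    obtain ⟨b', hb', z, hzI, hz0, ez⟩ := hβB g₀ hg₀
    refine ⟨⟨b', hb'⟩, ⟨_, hαB g₁ hg₁⟩, hinj _ _ ?_, hinj _ _ ?_⟩
    · rw [(hc _).2, hβ₂ g₀ hg₀ b' hb' z hz0 ez, e₀]
    · rw [(hc _).1, hβ₁ g₀ hg₀ b' hb' z hzI ez, e₀, hd', map_pow, SubmonoidClass.coe_pow,
        (hc _).1, hα₁ g₁ hg₁, e₁]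

end Kronecker

section Main

variable (hF : ∀ i y, s33s_redL G φ M q hq hqM i y ∈ Fb)
  (hint : ∀ (i : Bool) (b : s34x_ring (s34x_infRing (s34m_VV G φ M q hq hqM)) S),
    ∃ d : D, algebraMap D Fb d = s33s_redO G φ M q hq hqM Fb hF i ⟨(b : s34m_F K₀ (M * q)), b.2.1⟩)

include φ in
/-- finiteness of zeros and poles on the chart. -/
theorem s33s_inst_hfin (y : s34m_F K₀ (M * q)) (hy : y ≠ 0) :
    {Q : Place K₀ (s34m_F K₀ (M * q)) | Q ∈ S ∧ Q.ord y ≠ 0}.Finite :=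
  (s34d2_finite_ord_ne_zero φ (M * q) y hy).subset (fun _ hQ => hQ.2)

/-- **Nodes of the chart = maximal ideals containing both kernels.** -/
theorem s33s_inst_isNode_iff (𝔫 : Ideal (s34x_ring (s34x_infRing (s34m_VV G φ M q hq hqM)) S)) :
    s33s_IsNode (s34m_VV G φ M q hq hqM) (s34m_unif G (M * q)) S 𝔫 ↔
      𝔫.IsMaximal ∧ RingHom.ker (s33s_rhoD G φ M q hq hqM Fb S hF hint true) ≤ 𝔫 ∧
        RingHom.ker (s33s_rhoD G φ M q hq hqM Fb S hF hint false) ≤ 𝔫 :=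
  s33s_isNode_iff (s34m_VV G φ M q hq hqM) (s34m_unif G (M * q)) S
    (s33s_redO G φ M q hq hqM Fb hF) (s33s_rhoD G φ M q hq hqM Fb S hF hint)
    (s33s_redO_eq_zero_iff G φ M q hq hqM Fb hF)
    (s33s_rhoD_spec G φ M q hq hqM Fb S hF hint) 𝔫

/-- **[GLUE]** for the modular datum. -/
theorem s33s_inst_glue (y : s34m_F K₀ (M * q))
    (hyO : y ∈ s34x_infRing (s34m_VV G φ M q hq hqM))
    (hreg : ∀ Q ∈ s33s_nodePlaces (s34m_VV G φ M q hq hqM) (s34m_unif G (M * q)) S,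
      y ∈ Q.toValuationSubring)
    (𝔫 : Ideal (s34x_ring (s34x_infRing (s34m_VV G φ M q hq hqM)) S))
    (h𝔫 : s33s_IsNode (s34m_VV G φ M q hq hqM) (s34m_unif G (M * q)) S 𝔫) :
    s33s_GluedAt (s33s_rhoD G φ M q hq hqM Fb S hF hint true)
      (s33s_rhoD G φ M q hq hqM Fb S hF hint false) 𝔫
      (s33s_redO G φ M q hq hqM Fb hF true ⟨y, hyO⟩)
      (s33s_redO G φ M q hq hqM Fb hF false ⟨y, hyO⟩) :=
  s33s_glue (s34m_VV G φ M q hq hqM) (s34m_unif G (M * q)) S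
    (s33s_redO G φ M q hq hqM Fb hF) (s33s_rhoD G φ M q hq hqM Fb S hF hint)
    (s33s_inst_hfin φ M q S) (s33s_rhoD_spec G φ M q hq hqM Fb S hF hint) y hyO hreg 𝔫 h𝔫

variable (BM : Set (s34m_F K₀ M)) (hBMV : ∀ g ∈ BM, g ∈ s34m_Vinf G M)
  (hαB : ∀ g ∈ BM, heckeAlphaBar K₀ M q g ∈
    s34x_ring (s34x_infRing (s34m_VV G φ M q hq hqM)) S)
  (hβB : ∀ g ∈ BM, ∃ b' ∈ s34x_ring (s34x_infRing (s34m_VV G φ M q hq hqM)) S,
    ∃ z, z ∈ s34m_Vinf G (M * q) ∧ z ∈ s34m_Vzero G φ M q hq hqM ∧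
      b' - heckeBetaBar K₀ M q g = s34m_unif G (M * q) * z)
  (hlift : ∀ d : D, ∃ g, ∃ hg : g ∈ BM,
    s34m_redInf G M ⟨g, hBMV g hg⟩ = ((algebraMap D Fb d : Fb) : LaurentSeries κ))
  (htw : ∀ d : D, ∃ d' : D, qExpand κ q ((algebraMap D Fb d : Fb) : LaurentSeries κ) =
    ((algebraMap D Fb d' : Fb) : LaurentSeries κ) ^ q)

include hαB hβB hlift htw in
/-- **[LIFT]** for the modular datum. -/
theorem s33s_inst_lift
    (hnode : ∃ 𝔫, s33s_IsNode (s34m_VV G φ M q hq hqM) (s34m_unif G (M * q)) S 𝔫)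
    (φ₁ φ₂ : Fb)
    (h : ∀ 𝔫, s33s_IsNode (s34m_VV G φ M q hq hqM) (s34m_unif G (M * q)) S 𝔫 →
      s33s_GluedAt (s33s_rhoD G φ M q hq hqM Fb S hF hint true)
        (s33s_rhoD G φ M q hq hqM Fb S hF hint false) 𝔫 φ₁ φ₂) :
    ∃ (x : s34m_F K₀ (M * q)) (hx : x ∈ s34x_infRing (s34m_VV G φ M q hq hqM)),
      (∀ Q ∈ s33s_nodePlaces (s34m_VV G φ M q hq hqM) (s34m_unif G (M * q)) S,
        x ∈ Q.toValuationSubring) ∧
      s33s_redO G φ M q hq hqM Fb hF true ⟨x, hx⟩ = φ₁ ∧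
      s33s_redO G φ M q hq hqM Fb hF false ⟨x, hx⟩ = φ₂ := by
  obtain ⟨hα, hβ⟩ := s33s_inst_kronecker G φ M q hq hqM Fb S hF hint BM hBMV hαB hβB hlift htw
  exact s33s_lift (s34m_VV G φ M q hq hqM) (s34m_unif G (M * q)) S
    (s33s_redO G φ M q hq hqM Fb hF) (s33s_rhoD G φ M q hq hqM Fb S hF hint)
    (s34m_unif_ne_zero G (M * q)) (s34m_unif_mem_VV G φ M q hq hqM)
    (fun i U hU => s34m_exists_zpow_VV G φ M q hq hqM i U hU)
    (s33s_redO_eq_zero_iff G φ M q hq hqM Fb hF)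
    (s33s_rhoD_spec G φ M q hq hqM Fb S hF hint) q hq.two_le hα hβ hnode φ₁ φ₂ h

/-- **`unit`** for the modular datum. -/
theorem s33s_inst_unit (y : s34m_F K₀ (M * q))
    (hyO : y ∈ s34x_infRing (s34m_VV G φ M q hq hqM))
    (hreg : ∀ Q ∈ s33s_nodePlaces (s34m_VV G φ M q hq hqM) (s34m_unif G (M * q)) S,
      y ∈ Q.toValuationSubring)
    (Q : Place K₀ (s34m_F K₀ (M * q)))
    (hQ : Q ∈ s33s_nodePlaces (s34m_VV G φ M q hq hqM) (s34m_unif G (M * q)) S) :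
    Q.ord (1 + s34m_unif G (M * q) * y) = 0 :=
  s33s_unit_nodePlaces (s34m_VV G φ M q hq hqM) (s34m_unif G (M * q)) S
    (s33s_inst_hfin φ M q S) (s34m_unif_mem_VV G φ M q hq hqM)
    (fun Q _ => Q.algebraMap_mem' _) y hyO hreg Q hQ

end Main

end Fermat.Agent.Lib.S33
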