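/-
P-AT-P programme (S33), Stage 2, brick [SS-MODEL] (owner: helper8), part 7: **THE Σ-DATUM**
`s33z_Datum` (helper4, `CritSs.lean`) of the semistable model of `X_0(M p)`.

* `s33s_Node O π S`   : the type of nodes of the chart `S` (maximal ideals of the chart ring
                        containing both component ideals);
* `s33s_kNode … s`    : the residue field `B ⧸ 𝔫` of the node `s`; `s33s_kMk` the quotient map;
* `s33s_kHom … s`     : `κ →+* B ⧸ 𝔫` (reduction of the constants), `s33s_kHom_res`;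
* `s33s_datumD`       : the datum, from the hypotheses of `SSInst.lean` (one Dedekind domain `D`
                        with fraction field `F̄_M`, integrality of the reductions, Kronecker lifts,
                        existence of a node) for ANY chart `S`; components = helper4's
                        `s33y_Ci`, `s33y_Cz`, `N = s33s_nodePlaces`;
* `s33s_datumD_Ci/_Cz/_N` : the three fields, by `rfl`.
-/
import Fermat.Agent.Lib.S33.SSInst
import Fermat.Agent.Lib.S33.SsComp
import Fermat.Agent.Lib.S34.FSection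
import Fermat.Agent.Lib.S34.CChart

set_option autoImplicit false
set_option linter.unusedSectionVars false
set_option linter.style.haveILetI false

noncomputable section

namespace Fermat.Agent.Lib.S33

open ModularCurve AlgebraicCurve HahnSeries Fermat.Agent.Lib.FF Fermat.Agent.Lib.S18
  Fermat.Agent.Lib.S34 Fermat.Agent.Lib.S37

local notation "Kb" => AlgebraicClosure ℚ

/-! ### Nodes and their residue fields -/

section Nodes

variable {L₀ 𝓕 : Type*} [Field L₀] [Field 𝓕] [Algebra L₀ 𝓕]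
  (O : Bool → ValuationSubring 𝓕) (π : 𝓕) (S : Set (Place L₀ 𝓕))

/-- **The nodes of the chart `S`.** -/
abbrev s33s_Node : Type _ :=
  {𝔫 : Ideal (s34x_ring (s34x_infRing O) S) // s33s_IsNode O π S 𝔫}

instance s33s_Node.isMaximal (s : s33s_Node O π S) : (s.1).IsMaximal := s.2.1

/-- **The residue field of a node.** -/
def s33s_kNode (s : s33s_Node O π S) : Type _ := s34x_ring (s34x_infRing O) S ⧸ s.1

instance s33s_kNode.field (s : s33s_Node O π S) : Field (s33s_kNode O π S s) :=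
  Ideal.Quotient.field s.1

/-- The quotient map `B → B ⧸ 𝔫`. -/
def s33s_kMk (s : s33s_Node O π S) : s34x_ring (s34x_infRing O) S →+* s33s_kNode O π S s :=
  Ideal.Quotient.mk s.1

theorem s33s_kMk_eq_zero_iff (s : s33s_Node O π S) (c : s34x_ring (s34x_infRing O) S) :
    s33s_kMk O π S s c = 0 ↔ c ∈ s.1 :=
  Ideal.Quotient.eq_zero_iff_mem

variable {κ : Type*} [Field κ] (A₀ : ValuationSubring L₀)
  (hAO : ∀ i, ∀ a : A₀, algebraMap L₀ 𝓕 (a : L₀) ∈ O i)
  (resA : A₀ →+* κ) (hres : Function.Surjective resA)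
  (hker : ∀ a : A₀, resA a = 0 → ∃ z ∈ O true, algebraMap L₀ 𝓕 (a : L₀) = π * z)

/-- **`κ → B ⧸ 𝔫`**: the reduction of the constants. -/
def s33s_kHom (s : s33s_Node O π S) : κ →+* s33s_kNode O π S s :=
  RingHom.liftOfSurjective resA hres
    ⟨(s33s_kMk O π S s).comp
      (s34f_constHom A₀ (s34x_infRing O) (s34x_inf_const_mem O A₀ hAO) S), fun a ha => by
      rw [RingHom.mem_ker] at ha ⊢
      rw [RingHom.comp_apply, s33s_kMk_eq_zero_iff]
      refine s.2.2.1 ?_
      rw [s33s_mem_comp]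
      exact hker a ha⟩

theorem s33s_kHom_res (s : s33s_Node O π S) (a : A₀) :
    s33s_kHom O π S A₀ hAO resA hres hker s (resA a) =
      s33s_kMk O π S s (s34f_constHom A₀ (s34x_infRing O) (s34x_inf_const_mem O A₀ hAO) S a) :=
  RingHom.liftOfSurjective_comp_apply resA hres _ a

end Nodes

/-! ### The datum -/

section Datum

variable {K₀ : Type} [Field K₀] [CharZero K₀] [Algebra ℚ K₀] {κ : Type} [Field κ]
  (G : s18g_GaussData K₀ κ) (φ : K₀ →+* Kb) (M p : ℕ) [NeZero M] [hp : Fact p.Prime]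
  (hpM : ¬ p ∣ M) [CharP κ p] [PerfectRing κ p]
  (hdeg : s34m_HDeg K₀ M p) (hT : s18g_HT κ M) (hdegM : s18g_HDeg K₀ M)
  (hπ : Function.Surjective G.π)
  (e : ℕ) (ε : K₀) (he : 0 < e) (hε : ε ∈ G.A) (hεinv : ε⁻¹ ∈ G.A) (hε0 : ε ≠ 0)
  (hpe : (p : K₀) = ε * ((G.ϖ : G.A) : K₀) ^ e) (hperf : ∀ c : κ, ∃ d : κ, d ^ p = c)
  (S : Set (Place K₀ (s34m_F K₀ (M * p))))

local notation "D'M" => s33i_datum G M hT hdegM hπ p e ε hp.out he hε hεinv hε0 hpe hperf
local notation "FbM" => modularFunctionFieldFullC κ M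

/-- the reduction of the constants vanishes only on `ϖ A`. -/
theorem s33s_inst_hker (a : G.A) (ha : G.π a = 0) :
    ∃ z ∈ s34m_VV G φ M p hp.out hpM true,
      algebraMap K₀ (s34m_F K₀ (M * p)) (a : K₀) = s34m_unif G (M * p) * z := by
  obtain ⟨b, rfl⟩ := (G.π_eq_zero_iff a).mp ha
  refine ⟨algebraMap K₀ (s34m_F K₀ (M * p)) (b : K₀), s34c_const_mem_VV G φ M p hp.out hpM true b, ?_⟩
  rw [s34m_unif, ← map_mul]
  rfl

/-- **The residue field of a node**, for the modular datum (the arguments `G`, `hπ` make the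
`κ`-algebra structure visible to instance search). -/
def s33s_kG (_hπ : Function.Surjective G.π)
    (s : s33s_Node (s34m_VV G φ M p hp.out hpM) (s34m_unif G (M * p)) S) : Type :=
  s33s_kNode (s34m_VV G φ M p hp.out hpM) (s34m_unif G (M * p)) S s

instance s33s_kG.field (s : s33s_Node (s34m_VV G φ M p hp.out hpM) (s34m_unif G (M * p)) S) :
    Field (s33s_kG G φ M p hpM S hπ s) :=
  s33s_kNode.field (s34m_VV G φ M p hp.out hpM) (s34m_unif G (M * p)) S s

/-- the quotient map `B → B ⧸ 𝔫`. -/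
def s33s_kGmk (s : s33s_Node (s34m_VV G φ M p hp.out hpM) (s34m_unif G (M * p)) S) :
    s34x_ring (s34x_infRing (s34m_VV G φ M p hp.out hpM)) S →+* s33s_kG G φ M p hpM S hπ s :=
  s33s_kMk (s34m_VV G φ M p hp.out hpM) (s34m_unif G (M * p)) S s

theorem s33s_kGmk_eq_zero_iff
    (s : s33s_Node (s34m_VV G φ M p hp.out hpM) (s34m_unif G (M * p)) S)
    (c : s34x_ring (s34x_infRing (s34m_VV G φ M p hp.out hpM)) S) :
    s33s_kGmk G φ M p hpM hπ S s c = 0 ↔ c ∈ s.1 :=
  s33s_kMk_eq_zero_iff (s34m_VV G φ M p hp.out hpM) (s34m_unif G (M * p)) S s c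

/-- the reduction of the constants `κ → B ⧸ 𝔫`. -/
def s33s_kGhom (s : s33s_Node (s34m_VV G φ M p hp.out hpM) (s34m_unif G (M * p)) S) :
    κ →+* s33s_kG G φ M p hpM S hπ s :=
  s33s_kHom (s34m_VV G φ M p hp.out hpM) (s34m_unif G (M * p)) S G.A
    (s34c_const_mem_VV G φ M p hp.out hpM) G.π hπ (s33s_inst_hker G φ M p hpM) s

instance s33s_kG.algebra
    (s : s33s_Node (s34m_VV G φ M p hp.out hpM) (s34m_unif G (M * p)) S) :
    Algebra κ (s33s_kG G φ M p hpM S hπ s) :=
  (s33s_kGhom G φ M p hpM hπ S s).toAlgebra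

theorem s33s_kG_algebraMap
    (s : s33s_Node (s34m_VV G φ M p hp.out hpM) (s34m_unif G (M * p)) S) (a : G.A) :
    algebraMap κ (s33s_kG G φ M p hpM S hπ s) (G.π a) =
      s33s_kGmk G φ M p hpM hπ S s
        (s34f_constHom G.A (s34x_infRing (s34m_VV G φ M p hp.out hpM))
          (s34x_inf_const_mem (s34m_VV G φ M p hp.out hpM) G.A
            (s34c_const_mem_VV G φ M p hp.out hpM)) S a) :=
  s33s_kHom_res (s34m_VV G φ M p hp.out hpM) (s34m_unif G (M * p)) S G.A
    (s34c_const_mem_VV G φ M p hp.out hpM) G.π hπ (s33s_inst_hker G φ M p hpM) s a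

section Build

variable {D : Type*} [CommRing D] [IsDedekindDomain D] [Algebra D ↥(modularFunctionFieldFullC κ M)]
  [IsFractionRing D ↥(modularFunctionFieldFullC κ M)] (hD : ¬ IsField D)
  (hF : ∀ i y, s33s_redL G φ M p hp.out hpM i y ∈ modularFunctionFieldFullC κ M)
  (hint : ∀ (i : Bool) (b : s34x_ring (s34x_infRing (s34m_VV G φ M p hp.out hpM)) S),
    ∃ d : D, algebraMap D ↥(modularFunctionFieldFullC κ M) d =
      s33s_redO G φ M p hp.out hpM (modularFunctionFieldFullC κ M) hF i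
        ⟨(b : s34m_F K₀ (M * p)), b.2.1⟩)
  (BM : Set (s34m_F K₀ M)) (hBMV : ∀ g ∈ BM, g ∈ s34m_Vinf G M)
  (hαB : ∀ g ∈ BM, heckeAlphaBar K₀ M p g ∈
    s34x_ring (s34x_infRing (s34m_VV G φ M p hp.out hpM)) S)
  (hβB : ∀ g ∈ BM, ∃ b' ∈ s34x_ring (s34x_infRing (s34m_VV G φ M p hp.out hpM)) S,
    ∃ z, z ∈ s34m_Vinf G (M * p) ∧ z ∈ s34m_Vzero G φ M p hp.out hpM ∧
      b' - heckeBetaBar K₀ M p g = s34m_unif G (M * p) * z)
  (hlift : ∀ d : D, ∃ g, ∃ hg : g ∈ BM,
    s34m_redInf G M ⟨g, hBMV g hg⟩ =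
      ((algebraMap D ↥(modularFunctionFieldFullC κ M) d : ↥(modularFunctionFieldFullC κ M)) :
        LaurentSeries κ))
  (htw : ∀ d : D, ∃ d' : D, qExpand κ p
    ((algebraMap D ↥(modularFunctionFieldFullC κ M) d : ↥(modularFunctionFieldFullC κ M)) :
      LaurentSeries κ) =
    ((algebraMap D ↥(modularFunctionFieldFullC κ M) d' : ↥(modularFunctionFieldFullC κ M)) :
      LaurentSeries κ) ^ p)
  (hnode : ∃ 𝔫, s33s_IsNode (s34m_VV G φ M p hp.out hpM) (s34m_unif G (M * p)) S 𝔫)

include hαB hβB hlift htw in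
/-- both `ρ_i : B → D` are surjective. -/
theorem s33s_inst_rho_surjective (i : Bool) :
    Function.Surjective (s33s_rhoD G φ M p hp.out hpM (modularFunctionFieldFullC κ M) S hF hint i) := by
  obtain ⟨h1, h2⟩ := s33s_inst_kronecker G φ M p hp.out hpM (modularFunctionFieldFullC κ M) S hF hint
    BM hBMV hαB hβB hlift htw
  intro d
  cases i
  · obtain ⟨g, -, hg, -⟩ := h2 d
    exact ⟨g, hg⟩
  · obtain ⟨g, -, hg, -⟩ := h1 d
    exact ⟨g, hg⟩

/-- the kernels of `ρ_i` lie in every node. -/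
theorem s33s_inst_ker_le (s : s33s_Node (s34m_VV G φ M p hp.out hpM) (s34m_unif G (M * p)) S)
    (i : Bool) :
    RingHom.ker (s33s_rhoD G φ M p hp.out hpM (modularFunctionFieldFullC κ M) S hF hint i) ≤ s.1 := by
  have h := (s33s_inst_isNode_iff G φ M p hp.out hpM (modularFunctionFieldFullC κ M) S hF hint s.1).mp s.2
  cases i
  · exact h.2.2
  · exact h.2.1

/-- **The branch of the node `s` on the component `i`.** -/
def s33s_Wn (i : Bool)
    (s : s33s_Node (s34m_VV G φ M p hp.out hpM) (s34m_unif G (M * p)) S) :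
    ValuationSubring ↥(modularFunctionFieldFullC κ M) :=
  s33s_W (Fb := ↥(modularFunctionFieldFullC κ M))
    (s33s_rhoD G φ M p hp.out hpM (modularFunctionFieldFullC κ M) S hF hint i)
    (s33s_inst_rho_surjective G φ M p hpM S hF hint BM hBMV hαB hβB hlift htw i) hD s.1
    (s33s_inst_ker_le G φ M p hpM S hF hint s i)

/-- **Evaluation at the node `s` along the branch `i`**, with values in `B ⧸ 𝔫`. -/
def s33s_evn (i : Bool)
    (s : s33s_Node (s34m_VV G φ M p hp.out hpM) (s34m_unif G (M * p)) S) :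
    s33s_Wn G φ M p hpM S hD hF hint BM hBMV hαB hβB hlift htw i s →+*
      s33s_kG G φ M p hpM S hπ s :=
  s33s_evN (Fb := ↥(modularFunctionFieldFullC κ M))
    (s33s_rhoD G φ M p hp.out hpM (modularFunctionFieldFullC κ M) S hF hint i)
    (s33s_inst_rho_surjective G φ M p hpM S hF hint BM hBMV hαB hβB hlift htw i) hD s.1
    (s33s_inst_ker_le G φ M p hpM S hF hint s i)
    (s33s_kGmk G φ M p hpM hπ S s)
    (s33s_kGmk_eq_zero_iff G φ M p hpM hπ S s)

/-- glued at the node `s` ⟺ in both branches with equal values. -/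
theorem s33s_gluedAt_iff_evn
    (s : s33s_Node (s34m_VV G φ M p hp.out hpM) (s34m_unif G (M * p)) S)
    (φ₁ φ₂ : ↥(modularFunctionFieldFullC κ M)) :
    s33s_GluedAt (s33s_rhoD G φ M p hp.out hpM (modularFunctionFieldFullC κ M) S hF hint true)
        (s33s_rhoD G φ M p hp.out hpM (modularFunctionFieldFullC κ M) S hF hint false) s.1 φ₁ φ₂ ↔
      ∃ (h1 : φ₁ ∈ s33s_Wn G φ M p hpM S hD hF hint BM hBMV hαB hβB hlift htw true s)
        (h2 : φ₂ ∈ s33s_Wn G φ M p hpM S hD hF hint BM hBMV hαB hβB hlift htw false s),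
        s33s_evn G φ M p hpM hπ S hD hF hint BM hBMV hαB hβB hlift htw true s ⟨φ₁, h1⟩ =
          s33s_evn G φ M p hpM hπ S hD hF hint BM hBMV hαB hβB hlift htw false s ⟨φ₂, h2⟩ :=
  s33s_gluedAt_iff _ _ _ _ hD s.1 _ _ _ _ φ₁ φ₂

/-- the two reductions of a constant. -/
theorem s33s_redL_const (i : Bool) (a : G.A)
    (h : algebraMap K₀ (s34m_F K₀ (M * p)) (a : K₀) ∈ s34x_infRing (s34m_VV G φ M p hp.out hpM)) :
    s33s_redL G φ M p hp.out hpM i ⟨_, h⟩ = algebraMap κ (LaurentSeries κ) (G.π a) := by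
  have hC : HahnSeries.C (G.π a) = algebraMap κ (LaurentSeries κ) (G.π a) := by
    rw [algebraMap_laurentSeries_eq_single, HahnSeries.C_apply]
  cases i
  · rw [s33s_redL_false, s34m_redZero_apply]
    have h1 : (⟨s34m_al φ M p hp.out hpM (algebraMap K₀ (s34m_F K₀ (M * p)) ((a : G.A) : K₀)),
        (s34m_mem_Vzero G φ M p hp.out hpM _).mp
          ((s34df_mem_O_iff G φ M p hp.out hpM _).mp h).2⟩ : s34m_Vinf G (M * p)) =
        s18g_constV G _ (s34m_hF G (M * p)) a :=
      Subtype.ext ((s34m_al φ M p hp.out hpM).commutes _)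
    exact ((congrArg (s34m_redInf G (M * p)) h1).trans
      (s18g_redV_constV G _ (s34m_hF G (M * p)) a)).trans hC
  · rw [s33s_redL_true]
    exact (s18g_redV_constV G _ (s34m_hF G (M * p)) a).trans hC

/-- the reduction of a constant along `ρ_i`. -/
theorem s33s_inst_r_const (i : Bool) (a : G.A) :
    s33s_r (Fb := ↥(modularFunctionFieldFullC κ M))
        (s33s_rhoD G φ M p hp.out hpM (modularFunctionFieldFullC κ M) S hF hint i)
        (s34f_constHom G.A (s34x_infRing (s34m_VV G φ M p hp.out hpM))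
          (s34x_inf_const_mem (s34m_VV G φ M p hp.out hpM) G.A
            (s34c_const_mem_VV G φ M p hp.out hpM)) S a) =
      algebraMap κ ↥(modularFunctionFieldFullC κ M) (G.π a) := by
  rw [s33s_r_apply, s33s_rhoD_spec]
  apply Subtype.ext
  rw [s33s_coe_redO]
  exact s33s_redL_const G φ M p hpM i a _

include hπ in
/-- the constants lie in every branch. -/
theorem s33s_Wn_const (i : Bool)
    (s : s33s_Node (s34m_VV G φ M p hp.out hpM) (s34m_unif G (M * p)) S) (c : κ) :
    algebraMap κ ↥(modularFunctionFieldFullC κ M) c ∈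
      s33s_Wn G φ M p hpM S hD hF hint BM hBMV hαB hβB hlift htw i s := by
  obtain ⟨a, rfl⟩ := hπ c
  rw [s33s_Wn, s33s_mem_W_iff]
  refine ⟨1, s34f_constHom G.A (s34x_infRing (s34m_VV G φ M p hp.out hpM))
    (s34x_inf_const_mem (s34m_VV G φ M p hp.out hpM) G.A
      (s34c_const_mem_VV G φ M p hp.out hpM)) S a,
    fun h => s.2.1.ne_top ((Ideal.eq_top_iff_one _).mpr h), ?_⟩
  rw [map_one, one_mul, s33s_inst_r_const]

/-- the value of a constant at a node. -/
theorem s33s_evn_const (i : Bool)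
    (s : s33s_Node (s34m_VV G φ M p hp.out hpM) (s34m_unif G (M * p)) S) (c : κ)
    (h : algebraMap κ ↥(modularFunctionFieldFullC κ M) c ∈
      s33s_Wn G φ M p hpM S hD hF hint BM hBMV hαB hβB hlift htw i s) :
    s33s_evn G φ M p hpM hπ S hD hF hint BM hBMV hαB hβB hlift htw i s ⟨_, h⟩ =
      algebraMap κ (s33s_kG G φ M p hpM S hπ s) c := by
  obtain ⟨a, rfl⟩ := hπ c
  have h1 : (1 : s34x_ring (s34x_infRing (s34m_VV G φ M p hp.out hpM)) S) ∉ s.1 :=
    fun h => s.2.1.ne_top ((Ideal.eq_top_iff_one _).mpr h)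
  have key := s33s_evN_spec (Fb := ↥(modularFunctionFieldFullC κ M))
    (s33s_rhoD G φ M p hp.out hpM (modularFunctionFieldFullC κ M) S hF hint i)
    (s33s_inst_rho_surjective G φ M p hpM S hF hint BM hBMV hαB hβB hlift htw i) hD s.1
    (s33s_inst_ker_le G φ M p hpM S hF hint s i)
    (s33s_kGmk G φ M p hpM hπ S s)
    (s33s_kGmk_eq_zero_iff G φ M p hpM hπ S s)
    ⟨_, h⟩ (c := 1)
    (b := s34f_constHom G.A (s34x_infRing (s34m_VV G φ M p hp.out hpM))
      (s34x_inf_const_mem (s34m_VV G φ M p hp.out hpM) G.A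
        (s34c_const_mem_VV G φ M p hp.out hpM)) S a) h1
    (by rw [map_one, one_mul, s33s_inst_r_const])
  rw [map_one, mul_one] at key
  rw [s33s_kG_algebraMap]
  exact key

/-- **THE Σ-DATUM** of the semistable model of `X_0(M p)` on the chart `S`. -/
def s33s_datumD :
    s33z_Datum D'M (s34m_F K₀ (M * p))
      (s33s_Node (s34m_VV G φ M p hp.out hpM) (s34m_unif G (M * p)) S)
      (s33s_kG G φ M p hpM S hπ) :=
  { Ci := s33y_Ci G φ M p hpM hdeg hT hdegM hπ e ε he hε hεinv hε0 hpe hperf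
    Cz := s33y_Cz G φ M p hpM hdeg hT hdegM hπ e ε he hε hεinv hε0 hpe hperf
    N := s33s_nodePlaces (s34m_VV G φ M p hp.out hpM) (s34m_unif G (M * p)) S
    Wi := s33s_Wn G φ M p hpM S hD hF hint BM hBMV hαB hβB hlift htw true
    Wz := s33s_Wn G φ M p hpM S hD hF hint BM hBMV hαB hβB hlift htw false
    evi := s33s_evn G φ M p hpM hπ S hD hF hint BM hBMV hαB hβB hlift htw true
    evz := s33s_evn G φ M p hpM hπ S hD hF hint BM hBMV hαB hβB hlift htw false
    Wi_const := fun s c =>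
      s33s_Wn_const G φ M p hpM hπ S hD hF hint BM hBMV hαB hβB hlift htw true s c
    Wz_const := fun s c =>
      s33s_Wn_const G φ M p hpM hπ S hD hF hint BM hBMV hαB hβB hlift htw false s c
    evi_const := fun s c =>
      s33s_evn_const G φ M p hpM hπ S hD hF hint BM hBMV hαB hβB hlift htw true s c _
    evz_const := fun s c =>
      s33s_evn_const G φ M p hpM hπ S hD hF hint BM hBMV hαB hβB hlift htw false s c _
    nonempty := by
      obtain ⟨𝔫, h𝔫⟩ := hnode
      exact ⟨⟨𝔫, h𝔫⟩⟩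
    glue := fun y hi hz hreg s => by
      have hyO : y ∈ s34x_infRing (s34m_VV G φ M p hp.out hpM) :=
        (s34df_mem_O_iff G φ M p hp.out hpM y).mpr ⟨hi, hz⟩
      exact (s33s_gluedAt_iff_evn G φ M p hpM hπ S hD hF hint BM hBMV hαB hβB hlift htw s _ _).mp
        (s33s_inst_glue G φ M p hp.out hpM (modularFunctionFieldFullC κ M) S hF hint y hyO hreg
          s.1 s.2)
    lift := fun φi φz h => by
      obtain ⟨x, hx, hreg, e1, e2⟩ := s33s_inst_lift G φ M p hp.out hpM
        (modularFunctionFieldFullC κ M) S hF hint BM hBMV hαB hβB hlift htw hnode φi φz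
        (fun 𝔫 h𝔫 => (s33s_gluedAt_iff_evn G φ M p hpM hπ S hD hF hint BM hBMV hαB hβB hlift htw
          ⟨𝔫, h𝔫⟩ φi φz).mpr (h ⟨𝔫, h𝔫⟩))
      have hx' := (s34df_mem_O_iff G φ M p hp.out hpM x).mp hx
      exact ⟨x, hx'.1, hx'.2, hreg, e1, e2⟩
    unit := fun y hi hz hreg Q hQ =>
      s33s_inst_unit G φ M p hp.out hpM S y
        ((s34df_mem_O_iff G φ M p hp.out hpM y).mpr ⟨hi, hz⟩) hreg Q hQ }

theorem s33s_datumD_Ci :
    (s33s_datumD G φ M p hpM hdeg hT hdegM hπ e ε he hε hεinv hε0 hpe hperf S hD hF hint BM hBMV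
      hαB hβB hlift htw hnode).Ci =
      s33y_Ci G φ M p hpM hdeg hT hdegM hπ e ε he hε hεinv hε0 hpe hperf := rfl

theorem s33s_datumD_Cz :
    (s33s_datumD G φ M p hpM hdeg hT hdegM hπ e ε he hε hεinv hε0 hpe hperf S hD hF hint BM hBMV
      hαB hβB hlift htw hnode).Cz =
      s33y_Cz G φ M p hpM hdeg hT hdegM hπ e ε he hε hεinv hε0 hpe hperf := rfl

theorem s33s_datumD_N :
    (s33s_datumD G φ M p hpM hdeg hT hdegM hπ e ε he hε hεinv hε0 hpe hperf S hD hF hint BM hBMV
      hαB hβB hlift htw hnode).N =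
      s33s_nodePlaces (s34m_VV G φ M p hp.out hpM) (s34m_unif G (M * p)) S := rfl

end Build

end Datum

end Fermat.Agent.Lib.S33
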