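/-
P-AT-P programme (S33), Stage 2, brick [SS-MODEL] (owner: helper8), part 6: **[CONN]** for the
modular datum: the chart `{j regular}` of `X_0(M q)` over `A₀` contains a NODE (a maximal ideal of
the chart ring containing both component ideals).

* `s33s_inst_hconst`     : an element of both chart rings is a constant of `A₀`;
* `s33s_inst_exists_node`: `∃ 𝔫, s33s_IsNode (V_∞, V_0) ϖ (chart1 j) 𝔫`
  (`s33s_exists_node` + the Cech input `s34c_hH` + (α) for `j` + helper6's comparison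
  `s33n_node_chart2_to_chart1`).
-/
import Fermat.Agent.Lib.S33.SSCompare
import Fermat.Agent.Lib.S33.FOInstG
import Fermat.Agent.Lib.S34.FFive
import Fermat.Agent.Lib.S34.CChart

set_option autoImplicit false
set_option linter.unusedSectionVars false
set_option linter.style.haveILetI false

noncomputable section

namespace Fermat.Agent.Lib.S33

open ModularCurve AlgebraicCurve HahnSeries Fermat.Agent.Lib.FF Fermat.Agent.Lib.S18
  Fermat.Agent.Lib.S34 Fermat.Agent.Lib.S37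

local notation "Kb" => AlgebraicClosure ℚ

section Node

variable {K₀ : Type} [Field K₀] [CharZero K₀] [Algebra ℚ K₀] {κ : Type} [Field κ]
  (G : s18g_GaussData K₀ κ) (φ : K₀ →+* Kb) (M q : ℕ) [NeZero M] [NeZero q]
  (hq : q.Prime) (hqM : ¬ q ∣ M)

/-- An element of both chart rings of `j` is a constant of `A₀`. -/
theorem s33s_inst_hconst [FFGen K₀ (s18g_jF (K := K₀) (M * q))] (x : s34m_F K₀ (M * q))
    (h1 : x ∈ s34x_ring (s34x_infRing (s34m_VV G φ M q hq hqM))
      (s18_chart1 (L₀ := K₀) (s18g_jF (K := K₀) (M * q))))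
    (h2 : x ∈ s34x_ring (s34x_infRing (s34m_VV G φ M q hq hqM))
      (s18_chart2 (L₀ := K₀) (s18g_jF (K := K₀) (M * q)))) :
    ∃ a : G.A, x = algebraMap K₀ (s34m_F K₀ (M * q)) (a : K₀) := by
  have hfull : s33f_FullConst K₀ (s34m_F K₀ (M * q)) :=
    s33i_fullConst_of_ffGen _ (s18g_jF (K := K₀) (M * q))
  have hreg : ∀ Q : Place K₀ (s34m_F K₀ (M * q)), x ∈ Q.toValuationSubring := by
    intro Q
    by_cases hQ : Q ∈ s18_chart1 (L₀ := K₀) (s18g_jF (K := K₀) (M * q))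
    · exact h1.2 Q hQ
    · refine h2.2 Q ?_
      have hj : ¬ s18g_jF (K := K₀) (M * q) ∈ Q.toValuationSubring := hQ
      exact (Q.toValuationSubring.mem_or_inv_mem _).resolve_left hj
  obtain ⟨c, hc⟩ := hfull x hreg
  have hcV : algebraMap K₀ (s34m_F K₀ (M * q)) c ∈ s34m_Vinf G (M * q) := by
    rw [← hc]
    exact (s34x_mem_infRing _ _).mp h1.1 true
  have hcA : c ∈ G.A := (s18g_algebraMap_mem_V_iff G _ (s34m_hF G (M * q)) c).mp hcV
  exact ⟨⟨c, hcA⟩, hc⟩

/-- **[CONN]**: the chart `{j regular}` contains a node. -/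
theorem s33s_inst_exists_node [IsDiscreteValuationRing G.A] [CharP κ q] :
    ∃ 𝔫, s33s_IsNode (s34m_VV G φ M q hq hqM) (s34m_unif G (M * q))
      (s18_chart1 (L₀ := K₀) (s18g_jF (K := K₀) (M * q))) 𝔫 := by
  have hdegN : s18g_HDeg K₀ (M * q) := fun n b hb hn => s18g_exists_relation (M * q) φ hn b hb
  haveI : FFGen K₀ (s18g_jF (K := K₀) (M * q)) := s18b_ffGen_jF (M * q) hdegN
  haveI : IsNoetherianRing G.A := inferInstance
  have hα := s34f_alpha_j G φ M q hq hqM
  obtain ⟨H, hHfg, hH⟩ := s34c_hH G φ M q hq hqM hα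
    (f := (1 : s34m_F K₀ (M * q))) one_ne_zero 1
  have hE : s18_E (L₀ := K₀) (1 : s34m_F K₀ (M * q)) 1 = fun _ => 0 := by
    funext Q
    simp [s18_E, Place.ord_one]
  rw [hE] at hH
  rcases s33s_exists_node G.A (s34m_VV G φ M q hq hqM) (s34c_const_mem_VV G φ M q hq hqM) G.ϖ
    (s18g_unifK_ne_zero G) (s34f_unif_not_unit_VV G φ M q hq hqM) (s18g_jF (K := K₀) (M * q))
    ⟨H, hHfg, hH⟩ (s33s_inst_hconst G φ M q hq hqM) with h | ⟨𝔫₂, h𝔫₂⟩
  · exact h
  · obtain ⟨𝔫₁, h𝔫₁, -⟩ := s33n_node_chart2_to_chart1 G φ M q hq hqM 𝔫₂ h𝔫₂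
    exact ⟨𝔫₁, h𝔫₁⟩

end Node

end Fermat.Agent.Lib.S33
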