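/-
P-AT-P programme (S33), Stage 2, brick [SS-MODEL] (owner: helper8), part 8: **the Σ-datum of
`X_0(M p)` for a coordinate `w` of level `M`, and for `w = j`, `p ≥ 5`.**

The hypotheses of `s33s_datumD` (`SSDatum.lean`) are discharged for the Dedekind domain
`D = integralClosure κ[w̄] F̄_M` and the chart `S = chart1 (α w)`:

* `s33s_w_hF`     : both reductions of `O₂` land in `F̄_M`;
* `s33s_w_hint`   : the reductions of the chart ring are integral over `κ[w̄]` (helper9's (R1));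
* `s33s_w_hlift`, `s33s_w_htw`, `s33s_w_hD` : S18's `hmain`, the Frobenius twist, `D` is not a field;
* `s33s_datumW`   : the datum for a coordinate `w` (hypotheses as in `s34df_elem_of_hmain`);
* **`s33s_datum_five`** : the datum for `w = j`, `p ≥ 5`, NO hypothesis left;
  `s33s_datum_five_Ci/_Cz/_N` (`rfl`).
-/
import Fermat.Agent.Lib.S33.SSDatum
import Fermat.Agent.Lib.S33.SSNode
import Fermat.Agent.Lib.S33.KumPSsInt
import Fermat.Agent.Lib.S34.DFibreFive

set_option autoImplicit false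
set_option linter.unusedSectionVars false
set_option linter.style.haveILetI false

noncomputable section

namespace Fermat.Agent.Lib.S33

open ModularCurve AlgebraicCurve HahnSeries Polynomial Fermat.Agent.Lib.FF Fermat.Agent.Lib.S18
  Fermat.Agent.Lib.S34 Fermat.Agent.Lib.S37

local notation "Kb" => AlgebraicClosure ℚ

section Wrap

variable {K₀ : Type} [Field K₀] [CharZero K₀] [Algebra ℚ K₀] {κ : Type} [Field κ]
  (G : s18g_GaussData K₀ κ) (φ : K₀ →+* Kb) (M p : ℕ) [NeZero M] [hp : Fact p.Prime]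
  (hpM : ¬ p ∣ M) [CharP κ p] [PerfectField κ]

local notation "𝓕M" => laurentBaseChange K₀ (modularFunctionFieldFull M)
local notation "𝓕N" => laurentBaseChange K₀ (modularFunctionFieldFull (M * p))
local notation "hFM" => (fun (f : LaurentSeries K₀)
  (hf : f ∈ laurentBaseChange K₀ (modularFunctionFieldFull M)) => s18g_baseChange_mem_Frac G M hf)
local notation "FbM" => modularFunctionFieldFullC κ M

variable (hdeg : s34m_HDeg K₀ M p) (hT : s18g_HT κ M) (hdegM : s18g_HDeg K₀ M)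

include hdeg hT hdegM in
/-- both reductions of `O₂` land in `F̄_M`. -/
theorem s33s_w_hF (i : Bool) (y : s34x_infRing (s34m_VV G φ M p hp.out hpM)) :
    s33s_redL G φ M p hp.out hpM i y ∈ modularFunctionFieldFullC κ M := by
  cases i
  · exact s34df_redZero_mem_fullC G φ M p hp.out hpM hdeg hT hdegM _ y.2 _
  · exact s34df_redInf_mem_fullC G φ M p hp.out hpM hdeg hT hdegM _ y.2 _


/-- **`hlift`**: every element of `D` is the reduction of an element of the chart ring of `w`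
(S18's `hmain`). -/
theorem s33s_w_hlift (w : ↥𝓕M) (hwV : w ∈ s18g_V G 𝓕M hFM)
    (hmain : letI := s18f_algF G M hT hdegM w hwV
      ∀ z : ↥(modularFunctionFieldFullC κ M), IsIntegral κ[X] z →
        ∃ (b : ↥𝓕M) (hb : b ∈ s18_ring (L₀ := K₀) (s18g_V G 𝓕M hFM) (s18_chart1 w)),
          s18g_redF G M hFM hT hdegM ⟨b, hb.1⟩ = z) :
    letI := s18f_algF G M hT hdegM w hwV
    ∀ d : ↥(integralClosure κ[X] ↥(modularFunctionFieldFullC κ M)), ∃ g,
      ∃ hg : g ∈ (s18_ring (L₀ := K₀) (s34m_Vinf G M) (s18_chart1 w) : Set (s34m_F K₀ M)),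
      s34m_redInf G M ⟨g, hg.1⟩ =
        ((algebraMap ↥(integralClosure κ[X] ↥(modularFunctionFieldFullC κ M))
          ↥(modularFunctionFieldFullC κ M) d : ↥(modularFunctionFieldFullC κ M)) :
          LaurentSeries κ) := by
  letI algF := s18f_algF G M hT hdegM w hwV
  intro d
  obtain ⟨b, hb, e⟩ := hmain (d : ↥(modularFunctionFieldFullC κ M)) d.2
  refine ⟨b, hb, ?_⟩
  have h1 := congrArg (fun z : ↥(modularFunctionFieldFullC κ M) => (z : LaurentSeries κ)) e
  exact h1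

/-- **`htw`**: the Frobenius twist. -/
theorem s33s_w_htw (w : ↥𝓕M) (hwV : w ∈ s18g_V G 𝓕M hFM)
    (hwtw : ∀ τ : κ ≃+* κ, ModularCurve.coeffMap (τ : κ →+* κ)
      ((s18g_redF G M hFM hT hdegM ⟨w, hwV⟩ : ↥(modularFunctionFieldFullC κ M)) : LaurentSeries κ) =
      ((s18g_redF G M hFM hT hdegM ⟨w, hwV⟩ : ↥(modularFunctionFieldFullC κ M)) : LaurentSeries κ)) :
    letI := s18f_algF G M hT hdegM w hwV
    ∀ d : ↥(integralClosure κ[X] ↥(modularFunctionFieldFullC κ M)),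
      ∃ d' : ↥(integralClosure κ[X] ↥(modularFunctionFieldFullC κ M)),
      qExpand κ p ((algebraMap ↥(integralClosure κ[X] ↥(modularFunctionFieldFullC κ M))
          ↥(modularFunctionFieldFullC κ M) d : ↥(modularFunctionFieldFullC κ M)) :
          LaurentSeries κ) =
        ((algebraMap ↥(integralClosure κ[X] ↥(modularFunctionFieldFullC κ M))
          ↥(modularFunctionFieldFullC κ M) d' : ↥(modularFunctionFieldFullC κ M)) :
          LaurentSeries κ) ^ p := by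
  letI algF := s18f_algF G M hT hdegM w hwV
  exact fun d => s34df_htw M p (s18g_redF G M hFM hT hdegM ⟨w, hwV⟩) (hwtw _)
    (s18f_algF_apply G M hT hdegM w hwV) d

/-- **`D` is not a field.** -/
theorem s33s_w_hD (w : ↥𝓕M) (hwV : w ∈ s18g_V G 𝓕M hFM)
    (hcoord : s37b_Coord κ p
      ((s18g_redF G M hFM hT hdegM ⟨w, hwV⟩ : ↥(modularFunctionFieldFullC κ M)) : LaurentSeries κ)) :
    letI := s18f_algF G M hT hdegM w hwV
    ¬ IsField ↥(integralClosure κ[X] ↥(modularFunctionFieldFullC κ M)) := by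
  letI algF := s18f_algF G M hT hdegM w hwV
  have hA : ∀ P : κ[X], algebraMap κ[X] ↥(modularFunctionFieldFullC κ M) P =
      Polynomial.aeval (s18g_redF G M hFM hT hdegM ⟨w, hwV⟩) P :=
    s18f_algF_apply G M hT hdegM w hwV
  intro hfield
  have htr : Transcendental κ (s18g_redF G M hFM hT hdegM ⟨w, hwV⟩) := by
    intro halg
    apply hcoord.1
    exact (isAlgebraic_algebraMap_iff
      (algebraMap ↥(modularFunctionFieldFullC κ M) (LaurentSeries κ)).injective).mpr halg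
  have hinj : Function.Injective
      (algebraMap κ[X] ↥(integralClosure κ[X] ↥(modularFunctionFieldFullC κ M))) := by
    intro P Q hPQ
    have h1 := congrArg (algebraMap ↥(integralClosure κ[X] ↥(modularFunctionFieldFullC κ M))
      ↥(modularFunctionFieldFullC κ M)) hPQ
    rw [← IsScalarTower.algebraMap_apply, ← IsScalarTower.algebraMap_apply, hA, hA] at h1
    exact (transcendental_iff_injective.mp htr) h1
  exact Polynomial.not_isField κ (isField_of_isIntegral_of_isField hinj hfield)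

/-- **`hint`**: the reductions of the chart ring of `α w` lie in `D` (helper9's (R1)). -/
theorem s33s_w_hint [IsDiscreteValuationRing G.A] (w : ↥𝓕M) (hwV : w ∈ s18g_V G 𝓕M hFM)
    (hwtw : ∀ τ : κ ≃+* κ, ModularCurve.coeffMap (τ : κ →+* κ)
      ((s18g_redF G M hFM hT hdegM ⟨w, hwV⟩ : ↥(modularFunctionFieldFullC κ M)) : LaurentSeries κ) =
      ((s18g_redF G M hFM hT hdegM ⟨w, hwV⟩ : ↥(modularFunctionFieldFullC κ M)) : LaurentSeries κ))
    (wN : ↥𝓕N) (hwN : heckeAlphaBar K₀ M p w = wN) [FFGen K₀ wN]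
    (hαN : ∀ y ∈ s34x_infRing (s34m_VV G φ M p hp.out hpM), ∃ s : G.A[X], s.map G.π ≠ 0 ∧
      (s18b_ev G 𝓕N wN).IsIntegralElem (s18b_ev G 𝓕N wN s * y)) :
    letI := s18f_algF G M hT hdegM w hwV
    ∀ (i : Bool) (b : s34x_ring (s34x_infRing (s34m_VV G φ M p hp.out hpM))
        (s18_chart1 (L₀ := K₀) wN)),
      ∃ d : ↥(integralClosure κ[X] ↥(modularFunctionFieldFullC κ M)),
        algebraMap ↥(integralClosure κ[X] ↥(modularFunctionFieldFullC κ M))
          ↥(modularFunctionFieldFullC κ M) d =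
        s33s_redO G φ M p hp.out hpM (modularFunctionFieldFullC κ M)
          (s33s_w_hF G φ M p hpM hdeg hT hdegM) i ⟨(b : s34m_F K₀ (M * p)), b.2.1⟩ := by
  subst hwN
  letI algF := s18f_algF G M hT hdegM w hwV
  obtain ⟨h1, h2⟩ := s33k_ss_model_R1 G φ M p hp.out hpM hdeg hT hdegM w hwV hwtw hαN
  intro i b
  cases i
  · exact ⟨⟨_, h2 b⟩, Subtype.ext rfl⟩
  · exact ⟨⟨_, h1 b⟩, Subtype.ext rfl⟩

variable (hπ : Function.Surjective G.π)
  (e : ℕ) (ε : K₀) (he : 0 < e) (hε : ε ∈ G.A) (hεinv : ε⁻¹ ∈ G.A) (hε0 : ε ≠ 0)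
  (hpe : (p : K₀) = ε * ((G.ϖ : G.A) : K₀) ^ e) (hperf : ∀ c : κ, ∃ d : κ, d ^ p = c)

/-- **The Σ-datum of `X_0(M p)` for a coordinate `w` of level `M`** (chart `{α w regular}`);
hypotheses as in `s34df_elem_of_hmain` + (α) at level `M p` + existence of a node. -/
def s33s_datumW [IsDiscreteValuationRing G.A] (w : ↥𝓕M) (hwV : w ∈ s18g_V G 𝓕M hFM)
    (hcoord : s37b_Coord κ p
      ((s18g_redF G M hFM hT hdegM ⟨w, hwV⟩ : ↥(modularFunctionFieldFullC κ M)) : LaurentSeries κ))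
    (hwtw : ∀ τ : κ ≃+* κ, ModularCurve.coeffMap (τ : κ →+* κ)
      ((s18g_redF G M hFM hT hdegM ⟨w, hwV⟩ : ↥(modularFunctionFieldFullC κ M)) : LaurentSeries κ) =
      ((s18g_redF G M hFM hT hdegM ⟨w, hwV⟩ : ↥(modularFunctionFieldFullC κ M)) : LaurentSeries κ))
    (hmain : letI := s18f_algF G M hT hdegM w hwV
      ∀ z : ↥(modularFunctionFieldFullC κ M), IsIntegral κ[X] z →
        ∃ (b : ↥𝓕M) (hb : b ∈ s18_ring (L₀ := K₀) (s18g_V G 𝓕M hFM) (s18_chart1 w)),
          s18g_redF G M hFM hT hdegM ⟨b, hb.1⟩ = z)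
    (wN : ↥𝓕N) (hwN : heckeAlphaBar K₀ M p w = wN) [FFGen K₀ wN]
    (hαN : ∀ y ∈ s34x_infRing (s34m_VV G φ M p hp.out hpM), ∃ s : G.A[X], s.map G.π ≠ 0 ∧
      (s18b_ev G 𝓕N wN).IsIntegralElem (s18b_ev G 𝓕N wN s * y))
    (hαB : ∀ g ∈ (s18_ring (L₀ := K₀) (s34m_Vinf G M) (s18_chart1 w) : Set (s34m_F K₀ M)),
      heckeAlphaBar K₀ M p g ∈ s34x_ring (s34x_infRing (s34m_VV G φ M p hp.out hpM))
        (s18_chart1 (L₀ := K₀) wN))
    (hβB : ∀ g ∈ (s18_ring (L₀ := K₀) (s34m_Vinf G M) (s18_chart1 w) : Set (s34m_F K₀ M)),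
      ∃ b' ∈ s34x_ring (s34x_infRing (s34m_VV G φ M p hp.out hpM)) (s18_chart1 (L₀ := K₀) wN),
      ∃ z, z ∈ s34m_Vinf G (M * p) ∧ z ∈ s34m_Vzero G φ M p hp.out hpM ∧
        b' - heckeBetaBar K₀ M p g = s34m_unif G (M * p) * z)
    (hnode : ∃ 𝔫, s33s_IsNode (s34m_VV G φ M p hp.out hpM) (s34m_unif G (M * p))
      (s18_chart1 (L₀ := K₀) wN) 𝔫) :
    s33z_Datum (s33i_datum G M hT hdegM hπ p e ε hp.out he hε hεinv hε0 hpe hperf)
      (s34m_F K₀ (M * p))
      (s33s_Node (s34m_VV G φ M p hp.out hpM) (s34m_unif G (M * p)) (s18_chart1 (L₀ := K₀) wN))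
      (s33s_kG G φ M p hpM (s18_chart1 (L₀ := K₀) wN) hπ) :=
  letI := s18f_algF G M hT hdegM w hwV
  haveI := (s37b_dedekind_of_coord κ p M (s18g_redF G M hFM hT hdegM ⟨w, hwV⟩) hcoord
    (s18f_algF_apply G M hT hdegM w hwV)).1
  haveI := (s37b_dedekind_of_coord κ p M (s18g_redF G M hFM hT hdegM ⟨w, hwV⟩) hcoord
    (s18f_algF_apply G M hT hdegM w hwV)).2
  s33s_datumD G φ M p hpM hdeg hT hdegM hπ e ε he hε hεinv hε0 hpe hperf
    (s18_chart1 (L₀ := K₀) wN)
    (D := ↥(integralClosure κ[X] ↥(modularFunctionFieldFullC κ M)))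
    (s33s_w_hD G M p hT hdegM w hwV hcoord)
    (s33s_w_hF G φ M p hpM hdeg hT hdegM)
    (s33s_w_hint G φ M p hpM hdeg hT hdegM w hwV hwtw wN hwN hαN)
    (s18_ring (L₀ := K₀) (s34m_Vinf G M) (s18_chart1 w) : Set (s34m_F K₀ M))
    (fun _ hg => hg.1) hαB hβB
    (s33s_w_hlift G M hT hdegM w hwV hmain)
    (s33s_w_htw G M p hT hdegM w hwV hwtw)
    hnode

end Wrap

section Five

/-- **THE Σ-DATUM OF `X_0(M p)`, `p ≥ 5`** (chart `{j regular}`): no hypothesis left. -/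
def s33s_datum_five (M p : ℕ) [NeZero M] [hp : Fact p.Prime] (hpM : ¬ p ∣ M) (h5 : 5 ≤ p)
    (K₀ : Type) [Field K₀] [NumberField K₀] (φ : K₀ →+* Kb)
    (κ : Type) [Field κ] [CharP κ p] [PerfectField κ]
    (G : s18g_GaussData K₀ κ) [IsDiscreteValuationRing G.A]
    (hdeg : s34m_HDeg K₀ M p) (hT : s18g_HT κ M) (hdegM : s18g_HDeg K₀ M)
    (hπ : Function.Surjective G.π)
    (e : ℕ) (ε : K₀) (he : 0 < e) (hε : ε ∈ G.A) (hεinv : ε⁻¹ ∈ G.A) (hε0 : ε ≠ 0)
    (hpe : (p : K₀) = ε * ((G.ϖ : G.A) : K₀) ^ e) (hperf : ∀ c : κ, ∃ d : κ, d ^ p = c) :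
    s33z_Datum (s33i_datum G M hT hdegM hπ p e ε hp.out he hε hεinv hε0 hpe hperf)
      (s34m_F K₀ (M * p))
      (s33s_Node (s34m_VV G φ M p hp.out hpM) (s34m_unif G (M * p))
        (s18_chart1 (L₀ := K₀) (s18g_jF (K := K₀) (M * p))))
      (s33s_kG G φ M p hpM (s18_chart1 (L₀ := K₀) (s18g_jF (K := K₀) (M * p))) hπ) :=
  haveI : FFGen K₀ (s18g_jF (K := K₀) (M * p)) :=
    s18b_ffGen_jF (M * p) (fun n b hb hn => s18g_exists_relation (M * p) φ hn b hb)
  s33s_datumW G φ M p hpM hdeg hT hdegM hπ e ε he hε hεinv hε0 hpe hperf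
    (s18g_jF (K := K₀) M)
    (s18g_jF_mem_V G M (fun _ hf => s18g_baseChange_mem_Frac G M hf))
    (by
      have hred1 : ((s18g_redF G M (fun _ hf => s18g_baseChange_mem_Frac G M hf) hT hdegM
          ⟨s18g_jF (K := K₀) M,
            s18g_jF_mem_V G M (fun _ hf => s18g_baseChange_mem_Frac G M hf)⟩ :
          ↥(modularFunctionFieldFullC κ M)) : LaurentSeries κ) = jqModC κ := by
        rw [s18g_coe_redF]
        exact s18g_red_jq G
      rw [hred1]
      exact s37b_coord_jq κ p)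
    (by
      have hred1 : ((s18g_redF G M (fun _ hf => s18g_baseChange_mem_Frac G M hf) hT hdegM
          ⟨s18g_jF (K := K₀) M,
            s18g_jF_mem_V G M (fun _ hf => s18g_baseChange_mem_Frac G M hf)⟩ :
          ↥(modularFunctionFieldFullC κ M)) : LaurentSeries κ) = jqModC κ := by
        rw [s18g_coe_redF]
        exact s18g_red_jq G
      intro τ
      rw [hred1]
      exact coeffMap_jqModC _)
    (s34df_hmain_five M p h5 K₀ φ κ G hπ hT hdegM).1
    (s18g_jF (K := K₀) (M * p)) (s34m_alpha_jF M p)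
    (s34f_alpha_j G φ M p hp.out hpM)
    (fun g hg => s34d_alpha_liftJ₁ G φ M p hp.out hpM g hg)
    (fun g hg => s34d_beta_liftJ₁ G φ M p hp.out hpM g hg)
    (s33s_inst_exists_node G φ M p hp.out hpM)

end Five

section FiveAPI

variable (M p : ℕ) [NeZero M] [hp : Fact p.Prime] (hpM : ¬ p ∣ M) (h5 : 5 ≤ p)
  (K₀ : Type) [Field K₀] [NumberField K₀] (φ : K₀ →+* Kb)
  (κ : Type) [Field κ] [CharP κ p] [PerfectField κ]
  (G : s18g_GaussData K₀ κ) [IsDiscreteValuationRing G.A]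
  (hdeg : s34m_HDeg K₀ M p) (hT : s18g_HT κ M) (hdegM : s18g_HDeg K₀ M)
  (hπ : Function.Surjective G.π)
  (e : ℕ) (ε : K₀) (he : 0 < e) (hε : ε ∈ G.A) (hεinv : ε⁻¹ ∈ G.A) (hε0 : ε ≠ 0)
  (hpe : (p : K₀) = ε * ((G.ϖ : G.A) : K₀) ^ e) (hperf : ∀ c : κ, ∃ d : κ, d ^ p = c)

theorem s33s_datum_five_Ci :
    (s33s_datum_five M p hpM h5 K₀ φ κ G hdeg hT hdegM hπ e ε he hε hεinv hε0 hpe hperf).Ci =
      s33y_Ci G φ M p hpM hdeg hT hdegM hπ e ε he hε hεinv hε0 hpe hperf := rfl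

theorem s33s_datum_five_Cz :
    (s33s_datum_five M p hpM h5 K₀ φ κ G hdeg hT hdegM hπ e ε he hε hεinv hε0 hpe hperf).Cz =
      s33y_Cz G φ M p hpM hdeg hT hdegM hπ e ε he hε hεinv hε0 hpe hperf := rfl

theorem s33s_datum_five_N :
    (s33s_datum_five M p hpM h5 K₀ φ κ G hdeg hT hdegM hπ e ε he hε hεinv hε0 hpe hperf).N =
      s33s_nodePlaces (s34m_VV G φ M p hp.out hpM) (s34m_unif G (M * p))
        (s18_chart1 (L₀ := K₀) (s18g_jF (K := K₀) (M * p))) := rfl

/-- `N` contains the node places of BOTH `j`-charts (helper6's comparison). -/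
theorem s33s_datum_five_N_chart2 :
    s33s_nodePlaces (s34m_VV G φ M p hp.out hpM) (s34m_unif G (M * p))
        (s18_chart2 (L₀ := K₀) (s18g_jF (K := K₀) (M * p))) ⊆
      (s33s_datum_five M p hpM h5 K₀ φ κ G hdeg hT hdegM hπ e ε he hε hεinv hε0 hpe hperf).N :=
  s33n_nodePlaces_chart2_subset G φ M p hp.out hpM

end FiveAPI

end Fermat.Agent.Lib.S33
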