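/-
P-AT-P (S33 programme, private branch), Stage 2, branch `p = 3`, `2 ∣ M` (helper9): **the Σ-datum of
`X_0(M p)` on the chart of `t` (`q`-expansion `t₂`)** — the `t₂`-twin of helper8's `s33s_datum_five`
(`SSFive.lean`), from helper8's coordinate-generic `s33s_datumW`.

* `s33k_sd_hconst_w`       : an element of both chart rings of `w` is a constant of `A₀` (any `w`);
* `s33k_sd_exists_node_t2` : **[CONN]** for the chart `{t regular}` (`s33s_exists_node` + `s34f_hH_w` +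
                             helper6's comparison `s33n_node_chart2_to_chart1_t2`);
* **`s33k_sd_exists_datum_three`** : existence of the Σ-datum with `Ci = s33y_Ci …`, `Cz = s33y_Cz …`,
                             `N = s33s_nodePlaces … (chart1 t)` for EVERY `t` with `q`-expansion `t₂`.
-/
import Fermat.Agent.Lib.S33.SSFive
import Fermat.Agent.Lib.S33.SSNoInfT
import Fermat.Agent.Lib.S34.FBase
import Fermat.Agent.Lib.S34.DTwoThree

set_option autoImplicit false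
set_option linter.unusedSectionVars false
set_option linter.style.haveILetI false

noncomputable section

namespace Fermat.Agent.Lib.S33

open ModularCurve AlgebraicCurve HahnSeries Polynomial Fermat.Agent.Lib.FF Fermat.Agent.Lib.S18
  Fermat.Agent.Lib.S34 Fermat.Agent.Lib.S37

local notation "Kb" => AlgebraicClosure ℚ

section Node

variable {K₀ : Type} [Field K₀] [CharZero K₀] [Algebra ℚ K₀] {κ : Type} [Field κ]
  (G : s18g_GaussData K₀ κ) (φ : K₀ →+* Kb) (M q : ℕ) [NeZero M] [NeZero q]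
  (hq : q.Prime) (hqM : ¬ q ∣ M)

/-- An element of both chart rings of `w` is a constant of `A₀`. -/
theorem s33k_sd_hconst_w (w : s34m_F K₀ (M * q)) [FFGen K₀ w] (x : s34m_F K₀ (M * q))
    (h1 : x ∈ s34x_ring (s34x_infRing (s34m_VV G φ M q hq hqM)) (s18_chart1 (L₀ := K₀) w))
    (h2 : x ∈ s34x_ring (s34x_infRing (s34m_VV G φ M q hq hqM)) (s18_chart2 (L₀ := K₀) w)) :
    ∃ a : G.A, x = algebraMap K₀ (s34m_F K₀ (M * q)) (a : K₀) := by
  have hfull : s33f_FullConst K₀ (s34m_F K₀ (M * q)) := s33i_fullConst_of_ffGen _ w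
  have hreg : ∀ Q : Place K₀ (s34m_F K₀ (M * q)), x ∈ Q.toValuationSubring := by
    intro Q
    by_cases hQ : Q ∈ s18_chart1 (L₀ := K₀) w
    · exact h1.2 Q hQ
    · refine h2.2 Q ?_
      have hj : ¬ w ∈ Q.toValuationSubring := hQ
      exact (Q.toValuationSubring.mem_or_inv_mem _).resolve_left hj
  obtain ⟨c, hc⟩ := hfull x hreg
  have hcV : algebraMap K₀ (s34m_F K₀ (M * q)) c ∈ s34m_Vinf G (M * q) := by
    rw [← hc]
    exact (s34x_mem_infRing _ _).mp h1.1 true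
  have hcA : c ∈ G.A := (s18g_algebraMap_mem_V_iff G _ (s34m_hF G (M * q)) c).mp hcV
  exact ⟨⟨c, hcA⟩, hc⟩

/-- **[CONN] for the `t₂`-chart**: the chart `{t regular}` contains a node. -/
theorem s33k_sd_exists_node_t2 [IsDiscreteValuationRing G.A] [CharP κ q] (h2M : 2 ∣ M)
    (hq2 : q ≠ 2) (t : s34m_F K₀ (M * q)) (ht : (t : LaurentSeries K₀) = s18u_t2 K₀) :
    ∃ 𝔫, s33s_IsNode (s34m_VV G φ M q hq hqM) (s34m_unif G (M * q))
      (s18_chart1 (L₀ := K₀) t) 𝔫 := by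
  obtain ⟨tM, -, -, -, -, -, hwt, hw0, hgenN, hwO, hwO', -, hα, -⟩ :=
    s34m_base_t2 G φ M q hq hqM h2M hq2
  have hwN : heckeAlphaBar K₀ M q tM = t := Subtype.ext (by rw [hwt, ht])
  rw [hwN] at hw0 hgenN hwO hwO' hα
  haveI := hgenN
  haveI : IsNoetherianRing G.A := inferInstance
  obtain ⟨H, hHfg, hH⟩ := s34f_hH_w G φ M q hq hqM t hw0 hwO hwO' hα
    (f := (1 : s34m_F K₀ (M * q))) one_ne_zero 1
  have hE : s18_E (L₀ := K₀) (1 : s34m_F K₀ (M * q)) 1 = fun _ => 0 := by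
    funext Q
    simp [s18_E, Place.ord_one]
  rw [hE] at hH
  rcases s33s_exists_node G.A (s34m_VV G φ M q hq hqM) (s34c_const_mem_VV G φ M q hq hqM) G.ϖ
    (s18g_unifK_ne_zero G) (s34f_unif_not_unit_VV G φ M q hq hqM) t
    ⟨H, hHfg, hH⟩ (s33k_sd_hconst_w G φ M q hq hqM t) with h | ⟨𝔫₂, h𝔫₂⟩
  · exact h
  · obtain ⟨𝔫₁, h𝔫₁, -⟩ := s33n_node_chart2_to_chart1_t2 G φ M q hq hqM t ht
      ((s34x_mem_infRing _ _).mpr hwO') 𝔫₂ h𝔫₂
    exact ⟨𝔫₁, h𝔫₁⟩

end Node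

section Three

/-- **THE Σ-DATUM OF `X_0(M p)`, `p = 3`, `2 ∣ M`** (chart `{t regular}`, `t` of `q`-expansion `t₂`):
existence with the concrete components and node places. -/
theorem s33k_sd_exists_datum_three (M p : ℕ) [NeZero M] [hp : Fact p.Prime] (hpM : ¬ p ∣ M)
    (hp3 : p = 3) (h2M : 2 ∣ M)
    (K₀ : Type) [Field K₀] [NumberField K₀] (φ : K₀ →+* Kb)
    (κ : Type) [Field κ] [CharP κ p] [PerfectField κ]
    (G : s18g_GaussData K₀ κ) [IsDiscreteValuationRing G.A]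
    (hdeg : s34m_HDeg K₀ M p) (hT : s18g_HT κ M) (hdegM : s18g_HDeg K₀ M)
    (hπ : Function.Surjective G.π)
    (e : ℕ) (ε : K₀) (he : 0 < e) (hε : ε ∈ G.A) (hεinv : ε⁻¹ ∈ G.A) (hε0 : ε ≠ 0)
    (hpe : (p : K₀) = ε * ((G.ϖ : G.A) : K₀) ^ e) (hperf : ∀ c : κ, ∃ d : κ, d ^ p = c)
    (t : s34m_F K₀ (M * p)) (ht : (t : LaurentSeries K₀) = s18u_t2 K₀) :
    ∃ (ι : Type) (k : ι → Type) (_ : ∀ s, Field (k s)) (_ : ∀ s, Algebra κ (k s))
      (Z : s33z_Datum (s33i_datum G M hT hdegM hπ p e ε hp.out he hε hεinv hε0 hpe hperf)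
        (s34m_F K₀ (M * p)) ι k),
      Z.Ci = s33y_Ci G φ M p hpM hdeg hT hdegM hπ e ε he hε hεinv hε0 hpe hperf ∧
      Z.Cz = s33y_Cz G φ M p hpM hdeg hT hdegM hπ e ε he hε hεinv hε0 hpe hperf ∧
      Z.N = s33s_nodePlaces (s34m_VV G φ M p hp.out hpM) (s34m_unif G (M * p))
        (s18_chart1 (L₀ := K₀) t) := by
  haveI : NeZero p := ⟨hp.out.ne_zero⟩
  have hp2 : p ≠ 2 := by omega
  haveI : FFGen K₀ (s18g_jF (K := K₀) (M * p)) :=
    s18b_ffGen_jF (M * p) (fun _ b hb hn => s18g_exists_relation (M * p) φ hn b hb)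
  obtain ⟨tM, htM, ⟨hwV, hred⟩, hwinvV, hgen, hgeninv, hwt, -, hgenN, -, -, -, hα, -⟩ :=
    s34m_base_t2 G φ M p hp.out hpM h2M hp2
  haveI := hgen
  have hwN : heckeAlphaBar K₀ M p tM = t := Subtype.ext (by rw [hwt, ht])
  haveI : FFGen K₀ t := hwN ▸ hgenN
  have htM0 : tM ≠ 0 := by
    intro h0
    apply s18b_t2_ne_zero K₀
    rw [← htM, h0]; rfl
  have hFM : ∀ f ∈ laurentBaseChange K₀ (modularFunctionFieldFull M), f ∈ s18g_Frac G :=
    fun _ hf => s18g_baseChange_mem_Frac G M hf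
  have hred' : ((s18g_redF G M hFM hT hdegM ⟨tM, hwV⟩ : ↥(modularFunctionFieldFullC κ M)) :
      LaurentSeries κ) = s18u_t2 κ := hred
  have hclaim : ∀ P : Place K₀ (s34m_F K₀ (M * p)),
      (0 ≤ P.ord t → 0 ≤ P.ord (heckeBetaBar K₀ M p tM)) ∧
      (P.ord t ≤ 0 → P.ord (heckeBetaBar K₀ M p tM) ≤ 0) := by
    intro P
    rw [← hwN]
    exact s34e_cusp_hclaim_t2 G φ M p hp.out hpM hp2 tM htM P
  exact ⟨_, _, inferInstance, inferInstance,
    s33s_datumW G φ M p hpM hdeg hT hdegM hπ e ε he hε hεinv hε0 hpe hperf tM hwV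
      (by rw [hred']; exact s37b_coord_t2 κ p)
      (by intro τ; rw [hred']; exact s18u_coeffMap_t2 _)
      (s34dt_hmain_t2 M p hpM K₀ φ κ G hπ hT hdegM hp3 h2M tM htM)
      t hwN (hwN ▸ hα)
      (s34e_ch_alpha₁' G φ M p hp.out hpM tM t hwN)
      (s34e_ch_beta₁' G φ M p hp.out hpM htM0 t hwN hclaim)
      (s33k_sd_exists_node_t2 G φ M p hp.out hpM h2M hp2 t ht),
    rfl, rfl, rfl⟩

end Three

end Fermat.Agent.Lib.S33
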