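/-
P-AT-P (S33 programme, private branch), brick **[SEP-ss]** part 8 (helper9): the abstract two-component
algebra behind the model inputs of [I-Σ] and [S-Σ], in the setting of helper1's `DNode.lean`
(`Lib/S34`): `r₁ : B →+* κ₁`, `r₂ : B →+* κ₂` the two reductions of a chart ring, `κ_i = Frac D_i` with
`D_i` Dedekind, every element of `D_i` lifts to `B`.

* `s33k_ss_smooth_of_not_both` : a prime `𝔫 ∋ ϖ` which does NOT contain both kernels is a SMOOTH point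
  (`𝔫 B_𝔫 = (t, ϖ)`): the refinement of `s34d_dichotomy` which records WHERE the nodes are;
* `s33k_ss_exists_mem_not_ker` : (SM2) — if `r(B) ⊆ D` (R1), `D` is not a field and `𝔫 ⊇ ker r` is
  maximal, then `𝔫 ≠ ker r`;
* `s33k_ss_lift_of_integral`   : [LIFT-1] — under (R1), a root `x̄ ∈ κ` of a monic polynomial
  `X ^ p + r(c) X - r(b)` is the reduction of an element of `B`.
-/
import Fermat.Agent.Lib.S34.DNode

set_option autoImplicit false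

namespace Fermat.Agent.Lib.S33

open Fermat.Agent.Lib.S34 Polynomial

section Smooth

variable {B κ₁ κ₂ D₁ D₂ : Type*} [CommRing B] [Field κ₁] [Field κ₂]
  [CommRing D₁] [IsDedekindDomain D₁] [Algebra D₁ κ₁] [IsFractionRing D₁ κ₁]
  [CommRing D₂] [IsDedekindDomain D₂] [Algebra D₂ κ₂] [IsFractionRing D₂ κ₂]

/-- **Refined dichotomy**: a prime `𝔫 ∋ ϖ` not containing both kernels is a smooth point. -/
theorem s33k_ss_smooth_of_not_both (ϖ : B) (r₁ : B →+* κ₁) (r₂ : B →+* κ₂)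
    (hker : ∀ b, r₁ b = 0 → r₂ b = 0 → ϖ ∣ b)
    (hl₁ : ∀ d : D₁, ∃ g : B, r₁ g = algebraMap D₁ κ₁ d)
    (hl₂ : ∀ d : D₂, ∃ g : B, r₂ g = algebraMap D₂ κ₂ d)
    (𝔫 : Ideal B) [h𝔫 : 𝔫.IsPrime] (hϖ𝔫 : ϖ ∈ 𝔫)
    (hnot : ¬ (RingHom.ker r₁ ≤ 𝔫 ∧ RingHom.ker r₂ ≤ 𝔫)) :
    ∃ t ∈ 𝔫, ∀ y ∈ 𝔫, ∃ c, c ∉ 𝔫 ∧ ∃ z b, c * y = z * t + b * ϖ := by
  have hker' : ∀ b, r₂ b = 0 → r₁ b = 0 → ϖ ∣ b := fun b h2 h1 => hker b h1 h2
  have hboth : ∀ b, r₁ b = 0 → r₂ b = 0 → b ∈ 𝔫 := by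
    intro b h1 h2
    obtain ⟨c, rfl⟩ := hker b h1 h2
    exact 𝔫.mul_mem_right _ hϖ𝔫
  by_cases h2 : RingHom.ker r₂ ≤ 𝔫
  · have h1 : ¬ RingHom.ker r₁ ≤ 𝔫 := fun h1 => hnot ⟨h1, h2⟩
    obtain ⟨s, hs, hs𝔫⟩ := SetLike.not_le_iff_exists.mp h1
    obtain ⟨d₂, hd₂⟩ := s34d_exists_locGenAt r₂ hl₂ 𝔫 h2
    obtain ⟨g₂, hg₂⟩ := hl₂ d₂
    have hG₂ := hd₂ g₂ hg₂
    exact ⟨g₂, hG₂.1, s34d_smooth ϖ r₂ r₁ hker' 𝔫 hs hs𝔫 hG₂⟩
  · obtain ⟨s, hs, hs𝔫⟩ := SetLike.not_le_iff_exists.mp h2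
    have h1 : RingHom.ker r₁ ≤ 𝔫 := by
      intro a ha
      have : a * s ∈ 𝔫 := hboth _ (by rw [map_mul, ha, zero_mul]) (by rw [map_mul, hs, mul_zero])
      exact (h𝔫.mem_or_mem this).resolve_right hs𝔫
    obtain ⟨d₁, hd₁⟩ := s34d_exists_locGenAt r₁ hl₁ 𝔫 h1
    obtain ⟨g₁, hg₁⟩ := hl₁ d₁
    have hG₁ := hd₁ g₁ hg₁
    exact ⟨g₁, hG₁.1, s34d_smooth ϖ r₁ r₂ hker 𝔫 hs hs𝔫 hG₁⟩

end Smooth

section One

variable {B κ D : Type*} [CommRing B] [Field κ] [CommRing D] [IsDomain D] [Algebra D κ]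
  [IsFractionRing D κ]

/-- **(SM2)**: if `r(B) = D` is not a field, a maximal ideal `𝔫 ⊇ ker r` is strictly bigger than
`ker r`. -/
theorem s33k_ss_exists_mem_not_ker (r : B →+* κ)
    (hR1 : ∀ b : B, ∃ d : D, r b = algebraMap D κ d)
    (hl : ∀ d : D, ∃ g : B, r g = algebraMap D κ d)
    (hD : ¬ IsField D) (𝔫 : Ideal B) [h𝔫 : 𝔫.IsMaximal] :
    ∃ b ∈ 𝔫, r b ≠ 0 := by
  by_contra hcon
  push Not at hcon
  -- a non-zero non-unit of `D`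
  obtain ⟨d, hd0, hdu⟩ : ∃ d : D, d ≠ 0 ∧ ¬ IsUnit d := by
    by_contra h
    push Not at h
    exact hD ⟨⟨0, 1, zero_ne_one⟩, mul_comm, fun {a} ha => (h a ha).exists_right_inv⟩
  obtain ⟨g, hg⟩ := hl d
  have hinj := IsFractionRing.injective D κ
  have hg𝔫 : g ∉ 𝔫 := by
    intro hmem
    have := hcon g hmem
    rw [hg] at this
    exact hd0 (hinj (by rw [this, map_zero]))
  obtain ⟨h, m, hm, e⟩ := h𝔫.exists_inv hg𝔫
  obtain ⟨d', hd'⟩ := hR1 h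
  apply hdu
  refine IsUnit.of_mul_eq_one d' ?_
  apply hinj
  have := congrArg r e
  rw [map_add, map_mul, hcon m hm, add_zero, map_one, hg, hd'] at this
  rw [map_mul, map_one, mul_comm]
  exact this

omit [IsDomain D] in
/-- **[LIFT-1]**: under (R1), a root in `κ` of `X ^ p + r(c) X - r(b)` (`2 ≤ p`) lifts to `B`. -/
theorem s33k_ss_lift_of_integral [IsIntegrallyClosed D] (r : B →+* κ)
    (hR1 : ∀ b : B, ∃ d : D, r b = algebraMap D κ d)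
    (hl : ∀ d : D, ∃ g : B, r g = algebraMap D κ d)
    (p : ℕ) (hp : 2 ≤ p) (c b : B) (x : κ) (hx : x ^ p + r c * x - r b = 0) :
    ∃ g : B, r g = x := by
  obtain ⟨dc, hdc⟩ := hR1 c
  obtain ⟨db, hdb⟩ := hR1 b
  have hint : IsIntegral D x := by
    refine ⟨X ^ p + C dc * X - C db, ?_, ?_⟩
    · have h1 : (X ^ p + C dc * X - C db : D[X]) = X ^ p + (C dc * X - C db) := by ring
      rw [h1]
      apply Polynomial.monic_X_pow_add
      have h2 : (C dc * X - C db : D[X]).degree ≤ 1 := by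
        refine (Polynomial.degree_sub_le _ _).trans (max_le ?_ ?_)
        · exact (Polynomial.degree_C_mul_X_le dc)
        · exact (Polynomial.degree_C_le).trans (by norm_num)
      exact lt_of_le_of_lt h2 (by exact_mod_cast (by omega : 1 < p))
    · simp only [eval₂_sub, eval₂_add, eval₂_mul, eval₂_pow, eval₂_X, eval₂_C]
      rw [← hdc, ← hdb]
      exact hx
  obtain ⟨d, hd⟩ := IsIntegrallyClosed.isIntegral_iff.mp hint
  obtain ⟨g, hg⟩ := hl d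
  exact ⟨g, by rw [hg, hd]⟩

end One

end Fermat.Agent.Lib.S33
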