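/-
P-AT-P (S33 programme, private branch), brick **[SEP-ss]** part 9 (helper9): the MODEL inputs of [I-Σ] and
[S-Σ] for the concrete two-component fibre of `Lib/S34` (`O₂ = V_∞ ⊓ V_0 = s34x_infRing (s34m_VV …)`,
`B = s34x_ring O₂ S`, reductions `s34df_r1`, `s34df_r2`), under the hypotheses of helper8's
`s34df_elem_of_hmain` plus

  (R1)  the two reductions of the chart ring are integral over `κ[w̄]`.

* `s33k_ss_compThrough_true_iff`, `_false_iff` : "the component passes through `𝔫`" = `ker r_i ≤ 𝔫`;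
* `s33k_ss_model_smooth`  : a maximal ideal `𝔫 ∋ ϖ` through which NOT both components pass is a smooth
  point (`𝔫 B_𝔫 = (t, ϖ)`) and satisfies (SM2): the first alternative of `hpt` in `s33k_ss_hinv`;
* `s33k_ss_model_lift_inf`, `s33k_ss_model_lift_zero` : [LIFT-1] for the two components: the
  hypothesis `hlift1` of `s33k_ss_hclosed`.
-/
import Fermat.Agent.Lib.S33.KumPSsNode
import Fermat.Agent.Lib.S33.KumPSsInv
import Fermat.Agent.Lib.S34.DFibreJ

set_option autoImplicit false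
set_option linter.unusedSectionVars false
set_option linter.style.haveILetI false

noncomputable section

namespace Fermat.Agent.Lib.S33

open ModularCurve AlgebraicCurve Polynomial IntermediateField Fermat.Agent.Lib.FF
  Fermat.Agent.Lib.S18 Fermat.Agent.Lib.S37 Fermat.Agent.Lib.S34

local notation "Kb" => AlgebraicClosure ℚ

section Through

variable {K₀ : Type*} [Field K₀] [Algebra ℚ K₀] {κ : Type*} [Field κ] (G : s18g_GaussData K₀ κ)
variable (φ : K₀ →+* Kb) (M q : ℕ) [NeZero M] [NeZero q] (hq : q.Prime) (hqM : ¬ q ∣ M)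
variable (S : Set (Place K₀ (s34m_F K₀ (M * q))))

/-- the `∞`-component passes through `𝔫` iff `ker r₁ ≤ 𝔫`. -/
theorem s33k_ss_compThrough_true_iff
    (𝔫 : Ideal (s34x_ring (s34x_infRing (s34m_VV G φ M q hq hqM)) S)) :
    s33k_ss_compThrough (s34m_VV G φ M q hq hqM) S (s34m_unif G (M * q)) 𝔫 true ↔
      ∀ b, s34df_r1 G φ M q hq hqM S b = 0 → b ∈ 𝔫 := by
  constructor
  · intro h b hb
    rw [s34df_r1_apply, s34m_redInf_eq_zero_iff] at hb
    obtain ⟨z, hz, e⟩ := hb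
    exact h b ⟨z, hz, e⟩
  · intro h b hb
    obtain ⟨z, hz, e⟩ := hb
    refine h b ?_
    rw [s34df_r1_apply, s34m_redInf_eq_zero_iff]
    exact ⟨z, hz, e⟩

/-- the `0`-component passes through `𝔫` iff `ker r₂ ≤ 𝔫`. -/
theorem s33k_ss_compThrough_false_iff
    (𝔫 : Ideal (s34x_ring (s34x_infRing (s34m_VV G φ M q hq hqM)) S)) :
    s33k_ss_compThrough (s34m_VV G φ M q hq hqM) S (s34m_unif G (M * q)) 𝔫 false ↔
      ∀ b, s34df_r2 G φ M q hq hqM S b = 0 → b ∈ 𝔫 := by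
  constructor
  · intro h b hb
    rw [s34df_r2_apply, s34m_redZero_eq_zero_iff] at hb
    obtain ⟨z, hz, e⟩ := hb
    exact h b ⟨z, hz, e⟩
  · intro h b hb
    obtain ⟨z, hz, e⟩ := hb
    refine h b ?_
    rw [s34df_r2_apply, s34m_redZero_eq_zero_iff]
    exact ⟨z, hz, e⟩

end Through

section Core

variable {K₀ : Type} [Field K₀] [CharZero K₀] [Algebra ℚ K₀] {κ : Type} [Field κ]
  (G : s18g_GaussData K₀ κ) (φ : K₀ →+* Kb) (M q : ℕ) [NeZero M] [NeZero q]
  (hq : q.Prime) (hqM : ¬ q ∣ M) [CharP κ q] [PerfectField κ] [PerfectRing κ q]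

local notation "𝓕M" => laurentBaseChange K₀ (modularFunctionFieldFull M)
local notation "hFM" => (fun (f : LaurentSeries K₀)
  (hf : f ∈ laurentBaseChange K₀ (modularFunctionFieldFull M)) => s18g_baseChange_mem_Frac G M hf)

include hq hqM in
/-- **The lifts of the Dedekind chart of the special fibre to the chart ring**, for both components
(the `hl₁`, `hl₂` of `s33k_ss_smooth_of_not_both`, extracted from the proof of `s34df_dichotomy`). -/
theorem s33k_ss_model_lifts (hT : s18g_HT κ M)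
    (hdegM : s18g_HDeg K₀ M) (w : ↥𝓕M) (hwV : w ∈ s18g_V G 𝓕M hFM)
    (hmain : letI := s18f_algF G M hT hdegM w hwV
      ∀ z : ↥(modularFunctionFieldFullC κ M), IsIntegral κ[X] z →
        ∃ (b : ↥𝓕M) (hb : b ∈ s18_ring (L₀ := K₀) (s18g_V G 𝓕M hFM) (s18_chart1 w)),
          s18g_redF G M hFM hT hdegM ⟨b, hb.1⟩ = z)
    (S : Set (Place K₀ (s34m_F K₀ (M * q))))
    (hαB : ∀ g ∈ (s18_ring (L₀ := K₀) (s34m_Vinf G M) (s18_chart1 w) : Set (s34m_F K₀ M)),
      heckeAlphaBar K₀ M q g ∈ s34x_ring (s34x_infRing (s34m_VV G φ M q hq hqM)) S)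
    (hβB : ∀ g ∈ (s18_ring (L₀ := K₀) (s34m_Vinf G M) (s18_chart1 w) : Set (s34m_F K₀ M)),
      ∃ b' ∈ s34x_ring (s34x_infRing (s34m_VV G φ M q hq hqM)) S,
      ∃ z, z ∈ s34m_Vinf G (M * q) ∧ z ∈ s34m_Vzero G φ M q hq hqM ∧
        b' - heckeBetaBar K₀ M q g = s34m_unif G (M * q) * z) :
    letI := s18f_algF G M hT hdegM w hwV
    (∀ z : ↥(modularFunctionFieldFullC κ M), IsIntegral κ[X] z →
      ∃ g : s34x_ring (s34x_infRing (s34m_VV G φ M q hq hqM)) S,
        s34df_r1 G φ M q hq hqM S g = (z : LaurentSeries κ)) ∧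
    (∀ z : ↥(modularFunctionFieldFullC κ M), IsIntegral κ[X] z →
      ∃ g : s34x_ring (s34x_infRing (s34m_VV G φ M q hq hqM)) S,
        s34df_r2 G φ M q hq hqM S g = (z : LaurentSeries κ)) := by
  letI algF := s18f_algF G M hT hdegM w hwV
  have hred : ∀ (b : ↥𝓕M) (hb : b ∈ s18g_V G 𝓕M hFM),
      s34m_redInf G M ⟨b, hb⟩ =
        ((s18g_redF G M hFM hT hdegM ⟨b, hb⟩ : ↥(modularFunctionFieldFullC κ M)) :
          LaurentSeries κ) := fun b hb => rfl
  constructor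
  · intro z hz
    obtain ⟨b, hb, e⟩ := hmain z hz
    refine ⟨⟨_, hαB b hb⟩, ?_⟩
    rw [s34df_r1_eq G φ M q hq hqM S _ _ (s34m_alpha_mem_Vinf G M q hb.1) rfl,
      s34m_redInf_alpha G M q ⟨b, hb.1⟩, hred b hb.1, e]
  · intro z hz
    obtain ⟨b, hb, e⟩ := hmain z hz
    obtain ⟨b', hb', y, hyI, hy0, ey⟩ := hβB b hb
    refine ⟨⟨b', hb'⟩, ?_⟩
    rw [s34df_r2_apply, ← e, ← hred b hb.1, ← s34m_redZero_beta G φ M q hq hqM ⟨b, hb.1⟩]
    exact s34df_redZero_congr G φ M q hq hqM _ _ hy0 ey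

include hq hqM in
/-- **Smooth points of the model**: a maximal ideal `𝔫 ∋ ϖ` of the chart ring through which not both
components pass is a smooth point, and no component is all of `𝔫` (SM2). -/
theorem s33k_ss_model_smooth (hdeg : s34m_HDeg K₀ M q) (hT : s18g_HT κ M)
    (hdegM : s18g_HDeg K₀ M) (w : ↥𝓕M) (hwV : w ∈ s18g_V G 𝓕M hFM)
    (hcoord : s37b_Coord κ q
      ((s18g_redF G M hFM hT hdegM ⟨w, hwV⟩ : ↥(modularFunctionFieldFullC κ M)) : LaurentSeries κ))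
    (hmain : letI := s18f_algF G M hT hdegM w hwV
      ∀ z : ↥(modularFunctionFieldFullC κ M), IsIntegral κ[X] z →
        ∃ (b : ↥𝓕M) (hb : b ∈ s18_ring (L₀ := K₀) (s18g_V G 𝓕M hFM) (s18_chart1 w)),
          s18g_redF G M hFM hT hdegM ⟨b, hb.1⟩ = z)
    (S : Set (Place K₀ (s34m_F K₀ (M * q))))
    (hαB : ∀ g ∈ (s18_ring (L₀ := K₀) (s34m_Vinf G M) (s18_chart1 w) : Set (s34m_F K₀ M)),
      heckeAlphaBar K₀ M q g ∈ s34x_ring (s34x_infRing (s34m_VV G φ M q hq hqM)) S)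
    (hβB : ∀ g ∈ (s18_ring (L₀ := K₀) (s34m_Vinf G M) (s18_chart1 w) : Set (s34m_F K₀ M)),
      ∃ b' ∈ s34x_ring (s34x_infRing (s34m_VV G φ M q hq hqM)) S,
      ∃ z, z ∈ s34m_Vinf G (M * q) ∧ z ∈ s34m_Vzero G φ M q hq hqM ∧
        b' - heckeBetaBar K₀ M q g = s34m_unif G (M * q) * z)
    (hR1₁ : letI := s18f_algF G M hT hdegM w hwV
      ∀ b : s34x_ring (s34x_infRing (s34m_VV G φ M q hq hqM)) S,
        IsIntegral κ[X] (⟨s34df_r1 G φ M q hq hqM S b,
          s34df_hF₁ G φ M q hq hqM S hdeg hT hdegM b⟩ : ↥(modularFunctionFieldFullC κ M)))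
    (hR1₂ : letI := s18f_algF G M hT hdegM w hwV
      ∀ b : s34x_ring (s34x_infRing (s34m_VV G φ M q hq hqM)) S,
        IsIntegral κ[X] (⟨s34df_r2 G φ M q hq hqM S b,
          s34df_hF₂ G φ M q hq hqM S hdeg hT hdegM b⟩ : ↥(modularFunctionFieldFullC κ M)))
    (ϖB : s34x_ring (s34x_infRing (s34m_VV G φ M q hq hqM)) S)
    (hϖB : (ϖB : s34m_F K₀ (M * q)) = s34m_unif G (M * q))
    (𝔫 : Ideal (s34x_ring (s34x_infRing (s34m_VV G φ M q hq hqM)) S)) [h𝔫 : 𝔫.IsMaximal]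
    (hϖ𝔫 : ϖB ∈ 𝔫)
    (hnot : ¬ (s33k_ss_compThrough (s34m_VV G φ M q hq hqM) S (s34m_unif G (M * q)) 𝔫 true ∧
      s33k_ss_compThrough (s34m_VV G φ M q hq hqM) S (s34m_unif G (M * q)) 𝔫 false)) :
    (∃ t : s34x_ring (s34x_infRing (s34m_VV G φ M q hq hqM)) S,
      IsLocalRing.maximalIdeal (Localization.AtPrime 𝔫) =
        Ideal.span {algebraMap _ (Localization.AtPrime 𝔫) t,
          algebraMap _ (Localization.AtPrime 𝔫) ϖB}) ∧
    ∀ i, ∃ b ∈ 𝔫, ¬ ∃ y ∈ s34m_VV G φ M q hq hqM i,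
      ((b : s34x_ring (s34x_infRing (s34m_VV G φ M q hq hqM)) S) : s34m_F K₀ (M * q)) =
        s34m_unif G (M * q) * y := by
  haveI : Fact q.Prime := ⟨hq⟩
  letI algF := s18f_algF G M hT hdegM w hwV
  have hA : ∀ p : κ[X], algebraMap κ[X] ↥(modularFunctionFieldFullC κ M) p =
      Polynomial.aeval (s18g_redF G M hFM hT hdegM ⟨w, hwV⟩) p :=
    s18f_algF_apply G M hT hdegM w hwV
  obtain ⟨hDed, hFrac⟩ := s37b_dedekind_of_coord κ q M (s18g_redF G M hFM hT hdegM ⟨w, hwV⟩)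
    hcoord hA
  haveI := hDed
  haveI := hFrac
  obtain ⟨hlift₁, hlift₂⟩ := s33k_ss_model_lifts G φ M q hq hqM hT hdegM w hwV hmain S hαB hβB
  -- the two reductions with values in the field `F̄_M`
  set r₁ : s34x_ring (s34x_infRing (s34m_VV G φ M q hq hqM)) S →+*
      ↥(modularFunctionFieldFullC κ M) :=
    (s34df_r1 G φ M q hq hqM S).codRestrict (modularFunctionFieldFullC κ M)
      (fun b => s34df_hF₁ G φ M q hq hqM S hdeg hT hdegM b) with hr₁
  set r₂ : s34x_ring (s34x_infRing (s34m_VV G φ M q hq hqM)) S →+*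
      ↥(modularFunctionFieldFullC κ M) :=
    (s34df_r2 G φ M q hq hqM S).codRestrict (modularFunctionFieldFullC κ M)
      (fun b => s34df_hF₂ G φ M q hq hqM S hdeg hT hdegM b) with hr₂
  have hr₁c : ∀ b, ((r₁ b : ↥(modularFunctionFieldFullC κ M)) : LaurentSeries κ) =
      s34df_r1 G φ M q hq hqM S b := fun _ => rfl
  have hr₂c : ∀ b, ((r₂ b : ↥(modularFunctionFieldFullC κ M)) : LaurentSeries κ) =
      s34df_r2 G φ M q hq hqM S b := fun _ => rfl
  have hr₁0 : ∀ b, r₁ b = 0 ↔ s34df_r1 G φ M q hq hqM S b = 0 := by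
    intro b
    rw [← hr₁c]
    constructor
    · intro h; rw [h]; rfl
    · intro h; exact Subtype.ext h
  have hr₂0 : ∀ b, r₂ b = 0 ↔ s34df_r2 G φ M q hq hqM S b = 0 := by
    intro b
    rw [← hr₂c]
    constructor
    · intro h; rw [h]; rfl
    · intro h; exact Subtype.ext h
  have hl₁ : ∀ d : ↥(integralClosure κ[X] ↥(modularFunctionFieldFullC κ M)), ∃ g,
      r₁ g = algebraMap ↥(integralClosure κ[X] ↥(modularFunctionFieldFullC κ M))
        ↥(modularFunctionFieldFullC κ M) d := by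
    intro d
    obtain ⟨g, hg⟩ := hlift₁ (d : ↥(modularFunctionFieldFullC κ M)) d.2
    exact ⟨g, Subtype.ext hg⟩
  have hl₂ : ∀ d : ↥(integralClosure κ[X] ↥(modularFunctionFieldFullC κ M)), ∃ g,
      r₂ g = algebraMap ↥(integralClosure κ[X] ↥(modularFunctionFieldFullC κ M))
        ↥(modularFunctionFieldFullC κ M) d := by
    intro d
    obtain ⟨g, hg⟩ := hlift₂ (d : ↥(modularFunctionFieldFullC κ M)) d.2
    exact ⟨g, Subtype.ext hg⟩
  have hker : ∀ b, r₁ b = 0 → r₂ b = 0 → ϖB ∣ b := fun b h1 h2 =>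
    s34df_purity G φ M q hq hqM S ϖB hϖB b ((hr₁0 b).mp h1) ((hr₂0 b).mp h2)
  have h𝔫p : 𝔫.IsPrime := h𝔫.isPrime
  constructor
  · have hnot' : ¬ (RingHom.ker r₁ ≤ 𝔫 ∧ RingHom.ker r₂ ≤ 𝔫) := by
      rintro ⟨h1, h2⟩
      apply hnot
      constructor
      · rw [s33k_ss_compThrough_true_iff]
        exact fun b hb => h1 ((RingHom.mem_ker).mpr ((hr₁0 b).mpr hb))
      · rw [s33k_ss_compThrough_false_iff]
        exact fun b hb => h2 ((RingHom.mem_ker).mpr ((hr₂0 b).mpr hb))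
    obtain ⟨t, ht, h⟩ := s33k_ss_smooth_of_not_both ϖB r₁ r₂ hker hl₁ hl₂ 𝔫 hϖ𝔫 hnot'
    exact ⟨t, s34d_maximalIdeal_eq_span_pair 𝔫 ht hϖ𝔫 h⟩
  · -- (SM2)
    have hD : ¬ IsField ↥(integralClosure κ[X] ↥(modularFunctionFieldFullC κ M)) := by
      intro hfield
      have hinj : Function.Injective (algebraMap κ[X]
          ↥(integralClosure κ[X] ↥(modularFunctionFieldFullC κ M))) := by
        intro a b hab
        have h1 : algebraMap κ[X] ↥(modularFunctionFieldFullC κ M) a =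
            algebraMap κ[X] ↥(modularFunctionFieldFullC κ M) b := by
          have := congrArg (algebraMap ↥(integralClosure κ[X] ↥(modularFunctionFieldFullC κ M))
            ↥(modularFunctionFieldFullC κ M)) hab
          rwa [← IsScalarTower.algebraMap_apply, ← IsScalarTower.algebraMap_apply] at this
        rw [hA, hA] at h1
        have htr : Transcendental κ (s18g_redF G M hFM hT hdegM ⟨w, hwV⟩) := by
          intro halg
          apply hcoord.1
          exact (isAlgebraic_algebraMap_iff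
            (algebraMap ↥(modularFunctionFieldFullC κ M) (LaurentSeries κ)).injective).mpr halg
        exact (transcendental_iff_injective.mp htr) h1
      exact Polynomial.not_isField κ (isField_of_isIntegral_of_isField hinj hfield)
    intro i
    cases i
    · have hR1' : ∀ b, ∃ d : ↥(integralClosure κ[X] ↥(modularFunctionFieldFullC κ M)),
          r₂ b = algebraMap ↥(integralClosure κ[X] ↥(modularFunctionFieldFullC κ M))
            ↥(modularFunctionFieldFullC κ M) d := fun b => ⟨⟨r₂ b, hR1₂ b⟩, rfl⟩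
      obtain ⟨b, hb𝔫, hb⟩ := s33k_ss_exists_mem_not_ker
        (D := ↥(integralClosure κ[X] ↥(modularFunctionFieldFullC κ M))) r₂ hR1' hl₂ hD 𝔫
      refine ⟨b, hb𝔫, ?_⟩
      rintro ⟨y, hy, e⟩
      apply hb
      rw [hr₂0, s34df_r2_apply, s34m_redZero_eq_zero_iff]
      exact ⟨y, hy, e⟩
    · have hR1' : ∀ b, ∃ d : ↥(integralClosure κ[X] ↥(modularFunctionFieldFullC κ M)),
          r₁ b = algebraMap ↥(integralClosure κ[X] ↥(modularFunctionFieldFullC κ M))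
            ↥(modularFunctionFieldFullC κ M) d := fun b => ⟨⟨r₁ b, hR1₁ b⟩, rfl⟩
      obtain ⟨b, hb𝔫, hb⟩ := s33k_ss_exists_mem_not_ker
        (D := ↥(integralClosure κ[X] ↥(modularFunctionFieldFullC κ M))) r₁ hR1' hl₁ hD 𝔫
      refine ⟨b, hb𝔫, ?_⟩
      rintro ⟨y, hy, e⟩
      apply hb
      rw [hr₁0, s34df_r1_apply, s34m_redInf_eq_zero_iff]
      exact ⟨y, hy, e⟩

include hq hqM in
/-- **[LIFT-1] for both components of the model**: the hypothesis `hlift1` of `s33k_ss_hclosed`. -/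
theorem s33k_ss_model_lift (hdeg : s34m_HDeg K₀ M q) (hT : s18g_HT κ M)
    (hdegM : s18g_HDeg K₀ M) (w : ↥𝓕M) (hwV : w ∈ s18g_V G 𝓕M hFM)
    (hcoord : s37b_Coord κ q
      ((s18g_redF G M hFM hT hdegM ⟨w, hwV⟩ : ↥(modularFunctionFieldFullC κ M)) : LaurentSeries κ))
    (hmain : letI := s18f_algF G M hT hdegM w hwV
      ∀ z : ↥(modularFunctionFieldFullC κ M), IsIntegral κ[X] z →
        ∃ (b : ↥𝓕M) (hb : b ∈ s18_ring (L₀ := K₀) (s18g_V G 𝓕M hFM) (s18_chart1 w)),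
          s18g_redF G M hFM hT hdegM ⟨b, hb.1⟩ = z)
    (S : Set (Place K₀ (s34m_F K₀ (M * q))))
    (hαB : ∀ g ∈ (s18_ring (L₀ := K₀) (s34m_Vinf G M) (s18_chart1 w) : Set (s34m_F K₀ M)),
      heckeAlphaBar K₀ M q g ∈ s34x_ring (s34x_infRing (s34m_VV G φ M q hq hqM)) S)
    (hβB : ∀ g ∈ (s18_ring (L₀ := K₀) (s34m_Vinf G M) (s18_chart1 w) : Set (s34m_F K₀ M)),
      ∃ b' ∈ s34x_ring (s34x_infRing (s34m_VV G φ M q hq hqM)) S,
      ∃ z, z ∈ s34m_Vinf G (M * q) ∧ z ∈ s34m_Vzero G φ M q hq hqM ∧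
        b' - heckeBetaBar K₀ M q g = s34m_unif G (M * q) * z)
    (hR1₁ : letI := s18f_algF G M hT hdegM w hwV
      ∀ b : s34x_ring (s34x_infRing (s34m_VV G φ M q hq hqM)) S,
        IsIntegral κ[X] (⟨s34df_r1 G φ M q hq hqM S b,
          s34df_hF₁ G φ M q hq hqM S hdeg hT hdegM b⟩ : ↥(modularFunctionFieldFullC κ M)))
    (hR1₂ : letI := s18f_algF G M hT hdegM w hwV
      ∀ b : s34x_ring (s34x_infRing (s34m_VV G φ M q hq hqM)) S,
        IsIntegral κ[X] (⟨s34df_r2 G φ M q hq hqM S b,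
          s34df_hF₂ G φ M q hq hqM S hdeg hT hdegM b⟩ : ↥(modularFunctionFieldFullC κ M)))
    (p : ℕ) (hp : 2 ≤ p) :
    ∀ i, ∀ c ∈ s34x_ring (s34x_infRing (s34m_VV G φ M q hq hqM)) S,
      ∀ x ∈ s34x_infRing (s34m_VV G φ M q hq hqM),
      ∀ b ∈ s34x_ring (s34x_infRing (s34m_VV G φ M q hq hqM)) S,
      (∃ y ∈ s34m_VV G φ M q hq hqM i, x ^ p + c * x - b = s34m_unif G (M * q) * y) →
        ∃ g ∈ s34x_ring (s34x_infRing (s34m_VV G φ M q hq hqM)) S,
          ∃ y ∈ s34m_VV G φ M q hq hqM i, x - g = s34m_unif G (M * q) * y := by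
  haveI : Fact q.Prime := ⟨hq⟩
  letI algF := s18f_algF G M hT hdegM w hwV
  have hA : ∀ p : κ[X], algebraMap κ[X] ↥(modularFunctionFieldFullC κ M) p =
      Polynomial.aeval (s18g_redF G M hFM hT hdegM ⟨w, hwV⟩) p :=
    s18f_algF_apply G M hT hdegM w hwV
  obtain ⟨hDed, hFrac⟩ := s37b_dedekind_of_coord κ q M (s18g_redF G M hFM hT hdegM ⟨w, hwV⟩)
    hcoord hA
  haveI := hDed
  haveI := hFrac
  obtain ⟨hlift₁, hlift₂⟩ := s33k_ss_model_lifts G φ M q hq hqM hT hdegM w hwV hmain S hαB hβB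
  set r₁ : s34x_ring (s34x_infRing (s34m_VV G φ M q hq hqM)) S →+*
      ↥(modularFunctionFieldFullC κ M) :=
    (s34df_r1 G φ M q hq hqM S).codRestrict (modularFunctionFieldFullC κ M)
      (fun b => s34df_hF₁ G φ M q hq hqM S hdeg hT hdegM b) with hr₁
  set r₂ : s34x_ring (s34x_infRing (s34m_VV G φ M q hq hqM)) S →+*
      ↥(modularFunctionFieldFullC κ M) :=
    (s34df_r2 G φ M q hq hqM S).codRestrict (modularFunctionFieldFullC κ M)
      (fun b => s34df_hF₂ G φ M q hq hqM S hdeg hT hdegM b) with hr₂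
  have hl₁ : ∀ d : ↥(integralClosure κ[X] ↥(modularFunctionFieldFullC κ M)), ∃ g,
      r₁ g = algebraMap ↥(integralClosure κ[X] ↥(modularFunctionFieldFullC κ M))
        ↥(modularFunctionFieldFullC κ M) d := by
    intro d
    obtain ⟨g, hg⟩ := hlift₁ (d : ↥(modularFunctionFieldFullC κ M)) d.2
    exact ⟨g, Subtype.ext hg⟩
  have hl₂ : ∀ d : ↥(integralClosure κ[X] ↥(modularFunctionFieldFullC κ M)), ∃ g,
      r₂ g = algebraMap ↥(integralClosure κ[X] ↥(modularFunctionFieldFullC κ M))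
        ↥(modularFunctionFieldFullC κ M) d := by
    intro d
    obtain ⟨g, hg⟩ := hlift₂ (d : ↥(modularFunctionFieldFullC κ M)) d.2
    exact ⟨g, Subtype.ext hg⟩
  have hR1₁' : ∀ b, ∃ d : ↥(integralClosure κ[X] ↥(modularFunctionFieldFullC κ M)),
      r₁ b = algebraMap ↥(integralClosure κ[X] ↥(modularFunctionFieldFullC κ M))
        ↥(modularFunctionFieldFullC κ M) d := fun b => ⟨⟨r₁ b, hR1₁ b⟩, rfl⟩
  have hR1₂' : ∀ b, ∃ d : ↥(integralClosure κ[X] ↥(modularFunctionFieldFullC κ M)),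
      r₂ b = algebraMap ↥(integralClosure κ[X] ↥(modularFunctionFieldFullC κ M))
        ↥(modularFunctionFieldFullC κ M) d := fun b => ⟨⟨r₂ b, hR1₂ b⟩, rfl⟩
  intro i c hc x hx b hb hxcb
  obtain ⟨hxI, hx0⟩ := (s34df_mem_O_iff G φ M q hq hqM x).mp hx
  cases i
  · -- the `0`-component
    obtain ⟨y, hy, e⟩ := hxcb
    have hy : y ∈ s34m_Vzero G φ M q hq hqM := hy
    set X0 : s34m_Vzero G φ M q hq hqM := ⟨x, hx0⟩ with hX0
    set C0 : s34m_Vzero G φ M q hq hqM := s34df_toVzero G φ M q hq hqM S ⟨c, hc⟩ with hC0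
    set B0 : s34m_Vzero G φ M q hq hqM := s34df_toVzero G φ M q hq hqM S ⟨b, hb⟩ with hB0
    have hzero : s34m_redZero G φ M q hq hqM (X0 ^ p + C0 * X0 - B0) = 0 := by
      rw [s34m_redZero_eq_zero_iff]
      exact ⟨y, hy, e⟩
    rw [map_sub, map_add, map_mul, map_pow] at hzero
    have hxF : s34m_redZero G φ M q hq hqM X0 ∈ modularFunctionFieldFullC κ M :=
      s34df_redZero_mem_fullC G φ M q hq hqM hdeg hT hdegM x hx hx0
    have hroot : (⟨s34m_redZero G φ M q hq hqM X0, hxF⟩ : ↥(modularFunctionFieldFullC κ M)) ^ p +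
        r₂ ⟨c, hc⟩ * ⟨s34m_redZero G φ M q hq hqM X0, hxF⟩ - r₂ ⟨b, hb⟩ = 0 :=
      Subtype.ext hzero
    obtain ⟨g, hg⟩ := s33k_ss_lift_of_integral
      (D := ↥(integralClosure κ[X] ↥(modularFunctionFieldFullC κ M))) r₂ hR1₂' hl₂ p hp
      ⟨c, hc⟩ ⟨b, hb⟩ _ hroot
    have hg' : s34m_redZero G φ M q hq hqM (s34df_toVzero G φ M q hq hqM S g) =
        s34m_redZero G φ M q hq hqM X0 := congrArg Subtype.val hg
    have h0 : s34m_redZero G φ M q hq hqM (X0 - s34df_toVzero G φ M q hq hqM S g) = 0 := by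
      rw [map_sub, hg', sub_self]
    rw [s34m_redZero_eq_zero_iff] at h0
    obtain ⟨z, hz, ez⟩ := h0
    exact ⟨(g : s34m_F K₀ (M * q)), g.2, z, hz, ez⟩
  · -- the `∞`-component
    obtain ⟨y, hy, e⟩ := hxcb
    have hy : y ∈ s34m_Vinf G (M * q) := hy
    set X0 : s34m_Vinf G (M * q) := ⟨x, hxI⟩ with hX0
    set C0 : s34m_Vinf G (M * q) := s34df_toVinf G φ M q hq hqM S ⟨c, hc⟩ with hC0
    set B0 : s34m_Vinf G (M * q) := s34df_toVinf G φ M q hq hqM S ⟨b, hb⟩ with hB0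
    have hzero : s34m_redInf G (M * q) (X0 ^ p + C0 * X0 - B0) = 0 := by
      rw [s34m_redInf_eq_zero_iff]
      exact ⟨y, hy, e⟩
    rw [map_sub, map_add, map_mul, map_pow] at hzero
    have hxF : s34m_redInf G (M * q) X0 ∈ modularFunctionFieldFullC κ M :=
      s34df_redInf_mem_fullC G φ M q hq hqM hdeg hT hdegM x hx hxI
    have hroot : (⟨s34m_redInf G (M * q) X0, hxF⟩ : ↥(modularFunctionFieldFullC κ M)) ^ p +
        r₁ ⟨c, hc⟩ * ⟨s34m_redInf G (M * q) X0, hxF⟩ - r₁ ⟨b, hb⟩ = 0 :=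
      Subtype.ext hzero
    obtain ⟨g, hg⟩ := s33k_ss_lift_of_integral
      (D := ↥(integralClosure κ[X] ↥(modularFunctionFieldFullC κ M))) r₁ hR1₁' hl₁ p hp
      ⟨c, hc⟩ ⟨b, hb⟩ _ hroot
    have hg' : s34m_redInf G (M * q) (s34df_toVinf G φ M q hq hqM S g) =
        s34m_redInf G (M * q) X0 := congrArg Subtype.val hg
    have h0 : s34m_redInf G (M * q) (X0 - s34df_toVinf G φ M q hq hqM S g) = 0 := by
      rw [map_sub, hg', sub_self]
    rw [s34m_redInf_eq_zero_iff] at h0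
    obtain ⟨z, hz, ez⟩ := h0
    exact ⟨(g : s34m_F K₀ (M * q)), g.2, z, hz, ez⟩

end Core

end Fermat.Agent.Lib.S33
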