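/-
P-AT-P programme (S33), Stage 2, branch `p = 3`, `2 ∣ M` (owner: helper6): **a canonical name for
the function with `q`-expansion `t₂`** over an arbitrary field of constants, so that the chart of
`t₂` can be given as a family `L₀ ↦ s18_chart1 (s33n_t2F ↥L₀ N)` (the shape of the chart-generic
contracts).

`s33n_t2F K N` is the element of `𝓕_K(N)` with `q`-expansion `s18u_t2 K` if there is one, `0`
otherwise; `s33n_t2F_eq_of_coe` : every `t` with `q`-expansion `t₂` equals it.
-/
import Fermat.Agent.Lib.S34.MValAL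
import Fermat.Agent.Lib.S18.UFormalDef

set_option autoImplicit false

noncomputable section

namespace Fermat.Agent.Lib.S33

open ModularCurve HahnSeries Fermat.Agent.Lib.S18 Fermat.Agent.Lib.S34

open Classical in
/-- The function of level `N` over `K` with `q`-expansion `t₂` (`0` if `t₂ ∉ 𝓕_K(N)`). -/
def s33n_t2F (K : Type*) [Field K] [Algebra ℚ K] (N : ℕ) [NeZero N] : s34m_F K N :=
  if h : s18u_t2 K ∈ laurentBaseChange K (modularFunctionFieldFull N) then ⟨s18u_t2 K, h⟩ else 0

theorem s33n_t2F_eq_of_coe {K : Type*} [Field K] [Algebra ℚ K] {N : ℕ} [NeZero N]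
    (t : s34m_F K N) (ht : (t : HahnSeries ℤ K) = s18u_t2 K) : s33n_t2F K N = t := by
  have h : s18u_t2 K ∈ laurentBaseChange K (modularFunctionFieldFull N) := ht ▸ t.2
  rw [s33n_t2F, dif_pos h]
  exact Subtype.ext ht.symm

theorem s33n_coe_t2F {K : Type*} [Field K] [Algebra ℚ K] {N : ℕ} [NeZero N]
    (h : s18u_t2 K ∈ laurentBaseChange K (modularFunctionFieldFull N)) :
    ((s33n_t2F K N : s34m_F K N) : HahnSeries ℤ K) = s18u_t2 K := by
  rw [s33n_t2F, dif_pos h]

end Fermat.Agent.Lib.S33
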