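/-
P-AT-P programme (S33), Stage 2 (helper4): **the automorphisms of inertia type of the concrete components**
`s33y_Ci`, `s33y_Cz` of `X_0(M p)` (`SsComp.lean`): for `s₀ : K₀ ≃ₐ[ℚ] K₀` of inertia type for the Gauss datum
`G` (`s33i_InertiaAut G s₀`, `FOMuInst.lean`) the coefficientwise action `arithmeticRingAut s₀` on
`𝓕 = s34m_F K₀ (M p)` preserves `V_∞` and `V_0` and commutes with BOTH reductions.

* `s33y_gal_mem_inf/zero`, `s33y_gal_redI/redZ`;
* `s33y_galAut` : `s33z_GalAut Z` for EVERY Σ-datum `Z` whose two components are `s33y_Ci`, `s33y_Cz`, given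
  that the action preserves node-avoidance (`hN`; = Galois-stability of the set of node places).
-/
import Fermat.Agent.Lib.S33.SsComp
import Fermat.Agent.Lib.S33.FOMuInst

set_option autoImplicit false
set_option linter.style.haveILetI false
set_option linter.unusedSectionVars false

noncomputable section

namespace Fermat.Agent.Lib.S33

open ModularCurve AlgebraicCurve HahnSeries Fermat.Agent.Lib.FF Fermat.Agent.Lib.S18
  Fermat.Agent.Lib.S34 Fermat.Agent.Lib.S37

local notation "Kb" => AlgebraicClosure ℚ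

variable {K₀ : Type} [Field K₀] [CharZero K₀] [Algebra ℚ K₀] {κ : Type} [Field κ]
  (G : s18g_GaussData K₀ κ)
variable (φ : K₀ →+* Kb) (M p : ℕ) [NeZero M] [hp : Fact p.Prime] (hpM : ¬ p ∣ M)
variable {s₀ : K₀ ≃ₐ[ℚ] K₀} (hs : s33i_InertiaAut G s₀)

include hs in
theorem s33y_gal_mem_inf (N : ℕ) [NeZero N] {x : s34m_F K₀ N} (hx : x ∈ s34m_Vinf G N) :
    arithmeticRingAut (modularFunctionFieldFull N) s₀ x ∈ s34m_Vinf G N := by
  rw [s34m_mem_Vinf, coe_arithmeticRingAut_apply]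
  exact s33i_coeffMap_mem_O hs hx

include hs in
theorem s33y_gal_mem_zero {x : s34m_F K₀ (M * p)} (hx : x ∈ s34m_Vzero G φ M p hp.out hpM) :
    arithmeticRingAut (modularFunctionFieldFull (M * p)) s₀ x ∈ s34m_Vzero G φ M p hp.out hpM := by
  rw [s34m_mem_Vzero, s34m_al_galois]
  exact s33y_gal_mem_inf G hs (M * p) hx

theorem s33y_gal_redInf (N : ℕ) [NeZero N] (x : s34m_F K₀ N) (hx : x ∈ s34m_Vinf G N) :
    s34m_redInf G N ⟨arithmeticRingAut (modularFunctionFieldFull N) s₀ x,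
      s33y_gal_mem_inf G hs N hx⟩ = s34m_redInf G N ⟨x, hx⟩ :=
  s33i_redV_coeffMap (M := N) hs x hx (s33y_gal_mem_inf G hs N hx)

theorem s33y_gal_redZero (x : s34m_F K₀ (M * p)) (hx : x ∈ s34m_Vzero G φ M p hp.out hpM) :
    s34m_redZero G φ M p hp.out hpM ⟨arithmeticRingAut (modularFunctionFieldFull (M * p)) s₀ x,
      s33y_gal_mem_zero G φ M p hpM hs hx⟩ = s34m_redZero G φ M p hp.out hpM ⟨x, hx⟩ := by
  rw [s34m_redZero_apply, s34m_redZero_apply]
  have h1 : (⟨s34m_al φ M p hp.out hpM (arithmeticRingAut (modularFunctionFieldFull (M * p)) s₀ x),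
      (s34m_mem_Vzero G φ M p hp.out hpM _).mp (s33y_gal_mem_zero G φ M p hpM hs hx)⟩ :
        s34m_Vinf G (M * p)) =
      ⟨arithmeticRingAut (modularFunctionFieldFull (M * p)) s₀ (s34m_al φ M p hp.out hpM x),
        s33y_gal_mem_inf G hs (M * p) ((s34m_mem_Vzero G φ M p hp.out hpM x).mp hx)⟩ :=
    Subtype.ext (s34m_al_galois φ M p hp.out hpM s₀ x)
  exact (congrArg (s34m_redInf G (M * p)) h1).trans
    (s33y_gal_redInf G hs (M * p) _ ((s34m_mem_Vzero G φ M p hp.out hpM x).mp hx))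

variable [CharP κ p] [PerfectRing κ p]
variable (hdeg : s34m_HDeg K₀ M p) (hT : s18g_HT κ M) (hdegM : s18g_HDeg K₀ M)
variable (hπ : Function.Surjective G.π)
variable (e : ℕ) (ε : K₀) (he : 0 < e) (hε : ε ∈ G.A) (hεinv : ε⁻¹ ∈ G.A) (hε0 : ε ≠ 0)
variable (hpe : (p : K₀) = ε * ((G.ϖ : G.A) : K₀) ^ e) (hperf : ∀ c : κ, ∃ d : κ, d ^ p = c)

local notation "D'M" => s33i_datum G M hT hdegM hπ p e ε hp.out he hε hεinv hε0 hpe hperf

variable {ι : Type*} {k : ι → Type*} [∀ s, Field (k s)] [∀ s, Algebra κ (k s)]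

/-- **The `s33z_GalAut` instance** for every Σ-datum with the concrete components. -/
def s33y_galAut (Z : s33z_Datum D'M (s34m_F K₀ (M * p)) ι k)
    (hCi : Z.Ci = s33y_Ci G φ M p hpM hdeg hT hdegM hπ e ε he hε hεinv hε0 hpe hperf)
    (hCz : Z.Cz = s33y_Cz G φ M p hpM hdeg hT hdegM hπ e ε he hε hεinv hε0 hpe hperf)
    (hN : ∀ f : s34m_F K₀ (M * p), s33z_NF Z f →
      s33z_NF Z (arithmeticRingAut (modularFunctionFieldFull (M * p)) s₀ f)) :
    s33z_GalAut Z where
  s := arithmeticRingAut (modularFunctionFieldFull (M * p)) s₀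
  s₀ := s₀.toRingEquiv
  s_const := fun c => arithmeticRingAut_algebraMap (modularFunctionFieldFull (M * p)) s₀ c
  s_memi := by
    have key : ∀ (C : s33z_Comp D'M (s34m_F K₀ (M * p)))
        (_ : C = s33y_Ci G φ M p hpM hdeg hT hdegM hπ e ε he hε hεinv hε0 hpe hperf)
        (x : s34m_F K₀ (M * p)), x ∈ C.O →
          arithmeticRingAut (modularFunctionFieldFull (M * p)) s₀ x ∈ C.O := by
      rintro C rfl x hx
      exact s33y_gal_mem_inf G hs (M * p) hx
    exact key Z.Ci hCi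
  s_memz := by
    have key : ∀ (C : s33z_Comp D'M (s34m_F K₀ (M * p)))
        (_ : C = s33y_Cz G φ M p hpM hdeg hT hdegM hπ e ε he hε hεinv hε0 hpe hperf)
        (x : s34m_F K₀ (M * p)), x ∈ C.O →
          arithmeticRingAut (modularFunctionFieldFull (M * p)) s₀ x ∈ C.O := by
      rintro C rfl x hx
      exact s33y_gal_mem_zero G φ M p hpM hs hx
    exact key Z.Cz hCz
  s_redi := by
    have key : ∀ (C : s33z_Comp D'M (s34m_F K₀ (M * p)))
        (_ : C = s33y_Ci G φ M p hpM hdeg hT hdegM hπ e ε he hε hεinv hε0 hpe hperf)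
        (x : s34m_F K₀ (M * p)) (hx : x ∈ C.O)
        (hsx : arithmeticRingAut (modularFunctionFieldFull (M * p)) s₀ x ∈ C.O),
          C.red ⟨arithmeticRingAut (modularFunctionFieldFull (M * p)) s₀ x, hsx⟩ = C.red ⟨x, hx⟩ := by
      rintro C rfl x hx hsx
      exact Subtype.ext (s33y_gal_redInf G hs (M * p) x hx)
    intro x hx
    exact key Z.Ci hCi x hx _
  s_redz := by
    have key : ∀ (C : s33z_Comp D'M (s34m_F K₀ (M * p)))
        (_ : C = s33y_Cz G φ M p hpM hdeg hT hdegM hπ e ε he hε hεinv hε0 hpe hperf)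
        (x : s34m_F K₀ (M * p)) (hx : x ∈ C.O)
        (hsx : arithmeticRingAut (modularFunctionFieldFull (M * p)) s₀ x ∈ C.O),
          C.red ⟨arithmeticRingAut (modularFunctionFieldFull (M * p)) s₀ x, hsx⟩ = C.red ⟨x, hx⟩ := by
      rintro C rfl x hx hsx
      exact Subtype.ext (s33y_gal_redZero G φ M p hpM hs x hx)
    intro x hx
    exact key Z.Cz hCz x hx _
  w := (s33i_galAut G M hT hdegM hπ p e ε hp.out he hε hεinv hε0 hpe hperf s₀ hs).w
  w_mem := (s33i_galAut G M hT hdegM hπ p e ε hp.out he hε hεinv hε0 hpe hperf s₀ hs).w_mem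
  s_unif := (s33i_galAut G M hT hdegM hπ p e ε hp.out he hε hεinv hε0 hpe hperf s₀ hs).s_unif
  s_nf := hN

end Fermat.Agent.Lib.S33
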