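/-
P-AT-P programme (S33), Stage 2 (helper4): **the places through the nodes are stable under automorphisms of
inertia type** — the hypothesis `hN` of `s33y_galAut` (`SsGal.lean`) for helper8's `s33s_nodePlaces`
(`SSPlace.lean`).

* `s33y_nodePlaces_stable` (abstract): `g : SemilinearAut L₀ 𝓕` preserving every `O i`, acting trivially on
  `O i / π O i`, and preserving the chart `S` ⇒ `Q ∈ s33s_nodePlaces O π S → g⁻¹ • Q ∈ s33s_nodePlaces O π S`
  (through the SAME node `𝔫`: `g b - b ∈ B ∩ π O_i ⊆ 𝔫`);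
* `s33y_ord_smul_nodePlaces` : hence `ord_Q (g • f) = 0` on the node places if `ord_Q f = 0` there;
* `s33y_nodePlaces_t_stable`, `s33y_nodePlaces_j_stable`, `s33y_hN` : the concrete case: `O = {V_∞, V_0}` of
  `X_0(M p)`, `S` = chart 1 of a coordinate `t` fixed by the action (`j`, `α t₂`, …),
  `g = arithmeticGalois s₀` with `s₀` of inertia type.
-/
import Fermat.Agent.Lib.S33.SSPlace
import Fermat.Agent.Lib.S33.SsGal
import Fermat.Agent.Lib.S34.SChart

set_option autoImplicit false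
set_option linter.style.haveILetI false
set_option linter.unusedSectionVars false

noncomputable section

namespace Fermat.Agent.Lib.S33

open ModularCurve AlgebraicCurve HahnSeries Fermat.Agent.Lib.FF Fermat.Agent.Lib.S18
  Fermat.Agent.Lib.S34 Fermat.Agent.Lib.S37

section Abstract

variable {L₀ 𝓕 : Type*} [Field L₀] [Field 𝓕] [Algebra L₀ 𝓕]

/-- **The node places are stable under an automorphism of inertia type.** -/
theorem s33y_nodePlaces_stable (O : Bool → ValuationSubring 𝓕) (π : 𝓕) (S : Set (Place L₀ 𝓕))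
    (g : SemilinearAut L₀ 𝓕) (hgO : ∀ i, ∀ x ∈ O i, g • x ∈ O i)
    (hgπ : ∀ i, ∀ x ∈ O i, ∃ z ∈ O i, g • x - x = π * z)
    (hS : ∀ Q : Place L₀ 𝓕, Q ∈ S → g⁻¹ • Q ∈ S) {Q : Place L₀ 𝓕}
    (hQ : Q ∈ s33s_nodePlaces O π S) : g⁻¹ • Q ∈ s33s_nodePlaces O π S := by
  obtain ⟨hQS, 𝔫, h𝔫, hthr⟩ := hQ
  refine ⟨hS Q hQS, 𝔫, h𝔫, ?_⟩
  intro b hb0 hpos
  -- `g • b ∈ B`
  have hbO : ∀ i, (b : 𝓕) ∈ O i := fun i => (s34x_mem_infRing O _).mp b.2.1 i
  have hgbO : g • (b : 𝓕) ∈ s34x_infRing O := (s34x_mem_infRing O _).mpr fun i => hgO i _ (hbO i)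
  have hgbS : ∀ Q' ∈ S, g • (b : 𝓕) ∈ Q'.toValuationSubring := by
    intro Q' hQ'
    have h1 : (b : 𝓕) ∈ (g⁻¹ • Q').toValuationSubring := b.2.2 _ (hS Q' hQ')
    have h2 := (s34s_smul_mem_smul_iff g (g⁻¹ • Q') (b : 𝓕)).mpr h1
    rwa [smul_inv_smul] at h2
  set gb : s34x_ring (s34x_infRing O) S := ⟨g • (b : 𝓕), hgbO, hgbS⟩ with hgb
  have hgb0 : (gb : 𝓕) ≠ 0 := by
    show g • (b : 𝓕) ≠ 0
    rw [SemilinearAut.smul_def]
    exact (map_ne_zero_iff _ (SemilinearAut.toRingAut g).injective).mpr hb0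
  have hord : Q.ord (gb : 𝓕) = (g⁻¹ • Q).ord (b : 𝓕) := by
    have h := SemilinearAut.ord_smul g (g⁻¹ • Q) (b : 𝓕)
    rwa [smul_inv_smul] at h
  have hgb𝔫 : gb ∈ 𝔫 := hthr gb hgb0 (by rw [hord]; exact hpos)
  -- `g • b - b ∈ B ∩ π O_true ⊆ 𝔫`
  have hdiff : gb - b ∈ s33s_comp O π S true := by
    obtain ⟨z, hz, e⟩ := hgπ true _ (hbO true)
    exact ⟨z, hz, by push_cast; exact e⟩
  have : b = gb - (gb - b) := by ring
  rw [this]
  exact 𝔫.sub_mem hgb𝔫 (h𝔫.2.1 hdiff)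

/-- the action of an automorphism of inertia type preserves "`ord = 0` on the node places". -/
theorem s33y_ord_smul_nodePlaces (O : Bool → ValuationSubring 𝓕) (π : 𝓕) (S : Set (Place L₀ 𝓕))
    (g : SemilinearAut L₀ 𝓕) (hgO : ∀ i, ∀ x ∈ O i, g • x ∈ O i)
    (hgπ : ∀ i, ∀ x ∈ O i, ∃ z ∈ O i, g • x - x = π * z)
    (hS : ∀ Q : Place L₀ 𝓕, Q ∈ S → g⁻¹ • Q ∈ S) {f : 𝓕}
    (hf : ∀ Q ∈ s33s_nodePlaces O π S, Q.ord f = 0) :
    ∀ Q ∈ s33s_nodePlaces O π S, Q.ord (g • f) = 0 := by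
  intro Q hQ
  have h := SemilinearAut.ord_smul g (g⁻¹ • Q) f
  rw [smul_inv_smul] at h
  rw [h]
  exact hf _ (s33y_nodePlaces_stable O π S g hgO hgπ hS hQ)

end Abstract

/-! ### The concrete case -/

section Concrete

local notation "Kb" => AlgebraicClosure ℚ

variable {K₀ : Type} [Field K₀] [CharZero K₀] [Algebra ℚ K₀] {κ : Type} [Field κ]
  (G : s18g_GaussData K₀ κ)
variable (φ : K₀ →+* Kb) (M p : ℕ) [NeZero M] [hp : Fact p.Prime] (hpM : ¬ p ∣ M)
variable {s₀ : K₀ ≃ₐ[ℚ] K₀} (hs : s33i_InertiaAut G s₀)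

include hs in
/-- `s f - f ∈ ϖ V_∞` for `f ∈ V_∞`. -/
theorem s33y_gal_sub_mem_inf (N : ℕ) [NeZero N] {x : s34m_F K₀ N} (hx : x ∈ s34m_Vinf G N) :
    ∃ z ∈ s34m_Vinf G N,
      arithmeticRingAut (modularFunctionFieldFull N) s₀ x - x = s34m_unif G N * z := by
  have hmem := s33y_gal_mem_inf G hs N hx
  have h0 : s34m_redInf G N (⟨_, hmem⟩ - ⟨x, hx⟩) = 0 := by
    rw [map_sub, s33y_gal_redInf G hs N x hx, sub_self]
  obtain ⟨z, hz, e⟩ := (s34m_redInf_eq_zero_iff G N _).mp h0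
  exact ⟨z, hz, e⟩

include hs in
/-- `s f - f ∈ ϖ V_0` for `f ∈ V_0`. -/
theorem s33y_gal_sub_mem_zero {x : s34m_F K₀ (M * p)} (hx : x ∈ s34m_Vzero G φ M p hp.out hpM) :
    ∃ z ∈ s34m_Vzero G φ M p hp.out hpM,
      arithmeticRingAut (modularFunctionFieldFull (M * p)) s₀ x - x = s34m_unif G (M * p) * z := by
  have hmem := s33y_gal_mem_zero G φ M p hpM hs hx
  have h0 : s34m_redZero G φ M p hp.out hpM (⟨_, hmem⟩ - ⟨x, hx⟩) = 0 := by
    rw [map_sub, s33y_gal_redZero G φ M p hpM hs x hx, sub_self]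
  obtain ⟨z, hz, e⟩ := (s34m_redZero_eq_zero_iff G φ M p hp.out hpM _).mp h0
  exact ⟨z, hz, e⟩

include hs in
/-- **node-avoidance is preserved** by the coefficientwise action of an automorphism of inertia type, for
the node places of chart 1 of ANY coordinate `t` fixed by the action (`t = j`, `α t₂`, …). -/
theorem s33y_nodePlaces_t_stable (t : s34m_F K₀ (M * p))
    (ht : arithmeticGalois (modularFunctionFieldFull (M * p)) s₀ • t = t)
    {f : s34m_F K₀ (M * p)}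
    (hf : ∀ Q ∈ s33s_nodePlaces (L₀ := K₀) (s34m_VV G φ M p hp.out hpM) (s34m_unif G (M * p))
      (s18_chart1 t), Q.ord f = 0) :
    ∀ Q ∈ s33s_nodePlaces (L₀ := K₀) (s34m_VV G φ M p hp.out hpM) (s34m_unif G (M * p))
      (s18_chart1 t),
      Q.ord (arithmeticRingAut (modularFunctionFieldFull (M * p)) s₀ f) = 0 := by
  have key := s33y_ord_smul_nodePlaces (L₀ := K₀) (s34m_VV G φ M p hp.out hpM)
    (s34m_unif G (M * p)) (s18_chart1 t)
    (arithmeticGalois (modularFunctionFieldFull (M * p)) s₀)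
    (fun i x hx => by
      cases i
      · exact s33y_gal_mem_zero G φ M p hpM hs hx
      · exact s33y_gal_mem_inf G hs (M * p) hx)
    (fun i x hx => by
      cases i
      · exact s33y_gal_sub_mem_zero G φ M p hpM hs hx
      · exact s33y_gal_sub_mem_inf G hs (M * p) hx)
    (fun (Q : Place K₀ (s34m_F K₀ (M * p))) hQ => by
      have h := (s34s_chart1_stable (arithmeticGalois (modularFunctionFieldFull (M * p)) s₀) t ht
        ((arithmeticGalois (modularFunctionFieldFull (M * p)) s₀)⁻¹ • Q)).mpr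
      rw [smul_inv_smul] at h
      exact h hQ)
    hf
  exact key

include hs in
/-- the case `t = j`. -/
theorem s33y_nodePlaces_j_stable {f : s34m_F K₀ (M * p)}
    (hf : ∀ Q ∈ s33s_nodePlaces (L₀ := K₀) (s34m_VV G φ M p hp.out hpM) (s34m_unif G (M * p))
      (s18_chart1 (s18g_jF (K := K₀) (M * p))), Q.ord f = 0) :
    ∀ Q ∈ s33s_nodePlaces (L₀ := K₀) (s34m_VV G φ M p hp.out hpM) (s34m_unif G (M * p))
      (s18_chart1 (s18g_jF (K := K₀) (M * p))),
      Q.ord (arithmeticRingAut (modularFunctionFieldFull (M * p)) s₀ f) = 0 :=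
  s33y_nodePlaces_t_stable G φ M p hpM hs _ (s34s_galois_jF (M * p) s₀) hf

include hs in
/-- **`hN` of `s33y_galAut`** for `Z.N := s33s_nodePlaces (s34m_VV …) (s34m_unif …) (s18_chart1 t)`, in the
unfolded `s33z_NF` shape. -/
theorem s33y_hN (t : s34m_F K₀ (M * p))
    (ht : arithmeticGalois (modularFunctionFieldFull (M * p)) s₀ • t = t)
    (f : s34m_F K₀ (M * p))
    (hf : f ≠ 0 ∧ ∀ Q ∈ s33s_nodePlaces (L₀ := K₀) (s34m_VV G φ M p hp.out hpM)
      (s34m_unif G (M * p)) (s18_chart1 t), Q.ord f = 0) :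
    arithmeticRingAut (modularFunctionFieldFull (M * p)) s₀ f ≠ 0 ∧
      ∀ Q ∈ s33s_nodePlaces (L₀ := K₀) (s34m_VV G φ M p hp.out hpM) (s34m_unif G (M * p))
        (s18_chart1 t),
        Q.ord (arithmeticRingAut (modularFunctionFieldFull (M * p)) s₀ f) = 0 :=
  ⟨(map_ne_zero _).mpr hf.1, s33y_nodePlaces_t_stable G φ M p hpM hs t ht hf.2⟩

end Concrete

end Fermat.Agent.Lib.S33
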