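/-
S33 programme (P-AT-P), brick [TRACE] (helper3): the NORM (trace) maps `ν_α, ν_β : 𝓕(M p)ˣ → 𝓕(M)ˣ`
of the two degeneracy maps `α, β : X₀(M p) → X₀(M)` on function fields over an arbitrary field `K₀`
of characteristic zero embedded in `ℚ̄` and containing the `p`-th roots of unity, in the S34
two-valuation vocabulary (`s34m_F`, `s34m_Vinf`, `s34m_Vzero`, `s34m_redInf`, `s34m_redZero`, `q := p`).

* `s33t_nuAlpha φ M p hpM ζ₀ hζ₀ : 𝓕(M p) →* 𝓕(M)` with `ι (ν_α f) = Nm_α (ι f)` (`s33t_iota_nuAlpha`) and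
  `(ν_α f)(q^p) = f(q^p) ∏_{b<p} (w f)(ζ^b q)` (`s33t_qExpand_nuAlpha`);
  `s33t_nuBeta := ν_α ∘ w` with `ι (ν_β f) = Nm_β (ι f)`;
* **`s33t_nuAlpha_lead`**: `f - 1 = ϖ^a y`, `y ∈ V_∞ ∩ V_0`, `a ≥ 1`  ⇒  `ν_α f - 1 = ϖ^a t`, `t ∈ V_M`,
  `red_M t = red_∞ y`;
* **`s33t_nuBeta_lead`**: same with `red_M t = red_0 y`;
* `s33t_nuAlpha_alpha` (`ν_α (α r) = r^(p+1)`), `s33t_nuAlpha_beta` (`ν_α (β r) = τ r`, q-expansion form),
  `s33t_nuAlpha_algebraMap`, `s33t_nuAlpha_ne_zero`;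
* `s33t_dvd_ord_normAlpha` / `s33t_nuAlpha_dvd_ord`: `ν_α`, `ν_β` preserve `m ∣ ord_Q` for all places.
-/
import Fermat.Agent.Lib.S33.TPKum
import Fermat.Agent.Lib.S33.TPLead
import Fermat.Agent.Lib.S34.MValRed
import Fermat.Agent.Lib.S35.NormRed

set_option autoImplicit false
set_option linter.style.haveILetI false
set_option linter.unusedSectionVars false

namespace Fermat.Agent.Lib.S33

open ModularCurve HahnSeries AlgebraicCurve Fermat.Agent.Lib.S18 Fermat.Agent.Lib.S28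
  Fermat.Agent.Lib.S29 Fermat.Agent.Lib.S37 Fermat.Agent.Lib.FF Fermat.Agent.Lib.S34
  Fermat.Agent.Lib.S35

noncomputable section

local notation "Kb" => AlgebraicClosure ℚ

/-! ### The two-variable product `P₂(Y, Z) = Y(q^p) ∏_b Z(ζ^b q)` -/

section Prod2

variable {R : Type*} [CommRing R] (p : ℕ) [NeZero p] (ζ : Rˣ)

/-- `P₂(Y, Z) = Y(q^p) ∏_{b<p} Z(ζ^b q)`; `Nm_α(f)(q^p) = P₂(f, w f)`. -/
def s33t_P2 (Y Z : LaurentSeries R) : LaurentSeries R :=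
  qExpand R p Y * s37e_prodTw p ζ Z

/-- the first-order part of `P₂(Y + e W, Z + e W')`. -/
def s33t_P21 (Y Z W W' : LaurentSeries R) : LaurentSeries R :=
  qExpand R p W * s37e_prodTw p ζ Z +
    qExpand R p Y * ∑ b ∈ Finset.range p,
      s28m_tw (ζ ^ b) W' * ∏ j ∈ (Finset.range p).erase b, s28m_tw (ζ ^ j) Z

theorem s33t_P2_mul (Y Y' Z Z' : LaurentSeries R) :
    s33t_P2 p ζ (Y * Y') (Z * Z') = s33t_P2 p ζ Y Z * s33t_P2 p ζ Y' Z' := by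
  unfold s33t_P2 s37e_prodTw
  simp_rw [map_mul]
  rw [Finset.prod_mul_distrib]
  ring

theorem s33t_P2_one : s33t_P2 p ζ (1 : LaurentSeries R) 1 = 1 := by
  unfold s33t_P2 s37e_prodTw
  simp

theorem s33t_P2_add (e : R) (Y Z W W' : LaurentSeries R) :
    ∃ S : LaurentSeries R,
      s33t_P2 p ζ (Y + HahnSeries.C e * W) (Z + HahnSeries.C e * W') =
        s33t_P2 p ζ Y Z + HahnSeries.C e * s33t_P21 p ζ Y Z W W' + HahnSeries.C (e ^ 2) * S := by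
  obtain ⟨S₁, hS₁⟩ := s33t_prod_add_first_order (Finset.range p)
    (HahnSeries.C e : LaurentSeries R) (fun b => s28m_tw (ζ ^ b) Z) (fun b => s28m_tw (ζ ^ b) W')
  have hprod : s37e_prodTw p ζ (Z + HahnSeries.C e * W') =
      s37e_prodTw p ζ Z + HahnSeries.C e * (∑ b ∈ Finset.range p,
        s28m_tw (ζ ^ b) W' * ∏ j ∈ (Finset.range p).erase b, s28m_tw (ζ ^ j) Z) +
        HahnSeries.C e ^ 2 * S₁ := by
    unfold s37e_prodTw
    have : ∀ b ∈ Finset.range p, s28m_tw (ζ ^ b) (Z + HahnSeries.C e * W') =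
        s28m_tw (ζ ^ b) Z + HahnSeries.C e * s28m_tw (ζ ^ b) W' := by
      intro b _
      rw [map_add, map_mul, s28m_tw_C]
    rw [Finset.prod_congr rfl this, hS₁]
  refine ⟨qExpand R p Y * S₁ + qExpand R p W * (∑ b ∈ Finset.range p,
      s28m_tw (ζ ^ b) W' * ∏ j ∈ (Finset.range p).erase b, s28m_tw (ζ ^ j) Z) +
      HahnSeries.C e * qExpand R p W * S₁, ?_⟩
  unfold s33t_P2 s33t_P21
  rw [hprod, map_add, map_mul, qExpand_C, map_pow]
  unfold s37e_prodTw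
  ring

theorem s33t_coeffMap_P2' {S : Type*} [CommRing S] (g : R →+* S) (Y Z : LaurentSeries R) :
    coeffMap g (s33t_P2 p ζ Y Z) =
      s33t_P2 p (Units.map (g : R →* S) ζ) (coeffMap g Y) (coeffMap g Z) := by
  unfold s33t_P2
  rw [map_mul, coeffMap_qExpand, s37e_coeffMap_prodTw']

theorem s33t_P2_C (c : R) (Y Z : LaurentSeries R) :
    s33t_P2 p ζ (HahnSeries.C c * Y) (HahnSeries.C c * Z) =
      HahnSeries.C (c ^ (p + 1)) * s33t_P2 p ζ Y Z := by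
  have h1 : s33t_P2 p ζ (HahnSeries.C c : LaurentSeries R) (HahnSeries.C c) =
      HahnSeries.C (c ^ (p + 1)) := by
    unfold s33t_P2 s37e_prodTw
    simp_rw [s28m_tw_C]
    rw [qExpand_C, Finset.prod_const, Finset.card_range, ← map_pow, ← map_mul, ← pow_succ']
  rw [s33t_P2_mul, h1]

variable {k : Type*} [Field k] (f : R →+* k)

theorem s33t_coeffMap_P2 (hζ : f (ζ : R) = 1) (Y Z : LaurentSeries R) :
    coeffMap f (s33t_P2 p ζ Y Z) = qExpand k p (coeffMap f Y) * (coeffMap f Z) ^ p := by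
  unfold s33t_P2
  rw [map_mul, coeffMap_qExpand, s37e_coeffMap_prodTw p ζ f hζ]

theorem s33t_coeffMap_P21 [CharP k p] (hζ : f (ζ : R) = 1) (Y Z W W' : LaurentSeries R) :
    coeffMap f (s33t_P21 p ζ Y Z W W') = qExpand k p (coeffMap f W) * (coeffMap f Z) ^ p := by
  unfold s33t_P21
  rw [map_add, map_mul, map_mul, coeffMap_qExpand, coeffMap_qExpand,
    s37e_coeffMap_prodTw p ζ f hζ, map_sum]
  have hterm : ∀ b ∈ Finset.range p,
      coeffMap f (s28m_tw (ζ ^ b) W' * ∏ j ∈ (Finset.range p).erase b, s28m_tw (ζ ^ j) Z) =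
        coeffMap f W' * (coeffMap f Z) ^ (p - 1) := by
    intro b hb
    rw [map_mul, map_prod, s33t_coeffMap_tw_of_map_eq_one ζ f hζ]
    congr 1
    rw [Finset.prod_congr rfl fun j _ => s33t_coeffMap_tw_of_map_eq_one ζ f hζ j Z,
      Finset.prod_const, Finset.card_erase_of_mem hb, Finset.card_range]
  rw [Finset.sum_congr rfl hterm, Finset.sum_const, Finset.card_range]
  have hchar : CharP (LaurentSeries k) p := by
    have : Function.Injective (HahnSeries.C : k →+* LaurentSeries k) := HahnSeries.C_injective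
    exact charP_of_injective_ringHom this p
  rw [nsmul_eq_mul, CharP.cast_eq_zero (LaurentSeries k) p, zero_mul, mul_zero, add_zero]

end Prod2

/-! ### The pair formula over a Gauss datum -/

section GaussSeries2

variable {K : Type*} [Field K] [Algebra ℚ K] {κ : Type*} [Field κ] (G : s18g_GaussData K κ)
variable (p : ℕ) [hp : Fact p.Prime] [CharP κ p]
variable (ζ₀ : Kˣ) (hζ₀ : ζ₀ ^ p = 1)

theorem s33t_iota_P2 (Y Z : LaurentSeries G.A) :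
    s18g_iota G (s33t_P2 p (s33t_zetaA G p ζ₀ hζ₀) Y Z) =
      s33t_P2 p ζ₀ (s18g_iota G Y) (s18g_iota G Z) := by
  unfold s18g_iota
  rw [s33t_coeffMap_P2', s33t_map_zetaA]

theorem s33t_rho_P2 (Y Z : LaurentSeries G.A) :
    s18g_rho G (s33t_P2 p (s33t_zetaA G p ζ₀ hζ₀) Y Z) =
      qExpand κ p (s18g_rho G Y) * (s18g_rho G Z) ^ p := by
  unfold s18g_rho
  exact s33t_coeffMap_P2 p _ G.π (s33t_pi_zetaA G p ζ₀ hζ₀) Y Z

include hζ₀ in
/-- **The two-variable pair formula over a Gauss datum.** -/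
theorem s33t_gauss_pair2 (a : ℕ) (ha : 1 ≤ a) (Y Z W W' : LaurentSeries G.A) :
    ∃ B1 : LaurentSeries G.A,
      s33t_P2 p ζ₀ (s18g_iota G (Y + HahnSeries.C (G.ϖ ^ a) * W))
          (s18g_iota G (Z + HahnSeries.C (G.ϖ ^ a) * W')) =
        s33t_P2 p ζ₀ (s18g_iota G Y) (s18g_iota G Z) +
          HahnSeries.C (((G.ϖ : G.A) : K) ^ a) * s18g_iota G B1 ∧
      s18g_rho G B1 = qExpand κ p (s18g_rho G W) * (s18g_rho G Z) ^ p := by
  obtain ⟨S, hS⟩ := s33t_P2_add p (s33t_zetaA G p ζ₀ hζ₀) (G.ϖ ^ a) Y Z W W'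
  refine ⟨s33t_P21 p (s33t_zetaA G p ζ₀ hζ₀) Y Z W W' + HahnSeries.C (G.ϖ ^ a) * S, ?_, ?_⟩
  · rw [← s33t_iota_P2 G p ζ₀ hζ₀, hS, ← s33t_iota_P2 G p ζ₀ hζ₀, map_add, map_add, map_mul,
      map_mul, map_add, map_mul, s18g_iota_C, s18g_iota_C]
    have h1 : (((G.ϖ ^ a : ↥G.A) : ↥G.A) : K) = ((G.ϖ : G.A) : K) ^ a :=
      SubmonoidClass.coe_pow _ _
    have h2 : ((((G.ϖ ^ a) ^ 2 : ↥G.A) : ↥G.A) : K) = (((G.ϖ : G.A) : K) ^ a) ^ 2 := by
      rw [SubmonoidClass.coe_pow, SubmonoidClass.coe_pow]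
    rw [h1, h2]
    simp only [map_pow]
    ring
  · have hπ : G.π (G.ϖ ^ a) = 0 := (G.π_eq_zero_iff _).mpr (dvd_pow_self _ (by omega))
    rw [map_add, map_mul, s18g_rho_C, hπ, map_zero, zero_mul, add_zero]
    unfold s18g_rho
    exact s33t_coeffMap_P21 p _ G.π (s33t_pi_zetaA G p ζ₀ hζ₀) Y Z W W'

omit hp [CharP κ p] in
/-- `f(q^n) ∈ O ⇒ f ∈ O` for `f` in the Gauss fraction field. -/
theorem s33t_mem_O_of_qExpand (n : ℕ) [NeZero n] {f : LaurentSeries K} (hf : f ∈ s18g_Frac G)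
    (h : qExpand K n f ∈ s18g_O G) : f ∈ s18g_O G := by
  by_cases hf0 : f = 0
  · rw [hf0]; exact (s18g_O G).zero_mem
  rcases s18g_mem_or_inv_mem G hf hf0 with h1 | ⟨h1, h2⟩
  · exact h1
  · exfalso
    have h3 : qExpand K n f⁻¹ ∈ s18g_O G := s34m_qExpand_mem_O G n h1
    have h4 : s18g_red G ⟨qExpand K n f⁻¹, h3⟩ = 0 := by
      rw [s34m_red_qExpand G n ⟨f⁻¹, h1⟩, h2, map_zero]
    have h5 : (⟨qExpand K n f, h⟩ : s18g_O G) * ⟨qExpand K n f⁻¹, h3⟩ = 1 := by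
      apply Subtype.ext
      show qExpand K n f * qExpand K n f⁻¹ = 1
      rw [← map_mul, mul_inv_cancel₀ hf0, map_one]
    have h6 := congrArg (s18g_red G) h5
    rw [map_mul, h4, mul_zero, map_one] at h6
    exact zero_ne_one h6

end GaussSeries2

/-! ### The norm maps `ν_α`, `ν_β` over `K₀` -/

/-- the `q`-expansion of `Nm_α f` in terms of those of `f` and `w f`. -/
def s33t_NA {R : Type*} [CommRing R] (p : ℕ) [NeZero p] (ζ : Rˣ) (Y Z : LaurentSeries R) :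
    LaurentSeries R :=
  s33t_U p (s33t_P2 p ζ Y Z)

section Nu

variable {K₀ : Type*} [Field K₀] [Algebra ℚ K₀] (φ : K₀ →+* Kb)
variable (M : ℕ) [NeZero M] (p : ℕ) [hp : Fact p.Prime] (hpM : ¬ p ∣ M)
variable (ζ₀ : K₀ˣ) (hζ₀ : IsPrimitiveRoot (ζ₀ : K₀) p)

include hζ₀ in
/-- `Nm_α (ι f)(q^p) = ι (f(q^p) ∏_b (w f)(ζ^b q))`. -/
theorem s33t_qExpand_normAlpha_iota (f : s34m_F K₀ (M * p)) :
    qExpand Kb p ((s37e_normAlpha M p (s34m_iota φ (M * p) f) : ffi_F M) : LaurentSeries Kb) =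
      coeffMap φ (s33t_P2 p ζ₀ (f : LaurentSeries K₀)
        ((s34m_al φ M p hp.out hpM f : s34m_F K₀ (M * p)) : LaurentSeries K₀)) := by
  set ζ : Kbˣ := Units.map ((φ : K₀ →+* Kb) : K₀ →* Kb) ζ₀ with hζdef
  have hζ : IsPrimitiveRoot (ζ : Kb) p := by
    have : (ζ : Kb) = φ (ζ₀ : K₀) := rfl
    rw [this]
    exact hζ₀.map_of_injective φ.injective
  have h := s37w_norm M p hp.out hpM ζ hζ (s34m_iota φ (M * p) f)
  rw [← s34m_iota_al, s18q_map_coe, s18q_map_coe] at h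
  rw [s33t_coeffMap_P2']
  exact h

include hζ₀ in
theorem s33t_coe_normAlpha_iota (f : s34m_F K₀ (M * p)) :
    ((s37e_normAlpha M p (s34m_iota φ (M * p) f) : ffi_F M) : LaurentSeries Kb) =
      coeffMap φ (s33t_NA p ζ₀ (f : LaurentSeries K₀)
        ((s34m_al φ M p hp.out hpM f : s34m_F K₀ (M * p)) : LaurentSeries K₀)) := by
  unfold s33t_NA
  rw [← s33t_U_coeffMap, ← s33t_qExpand_normAlpha_iota φ M p hpM ζ₀ hζ₀ f, s33t_U_qExpand]

include hζ₀ in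
theorem s33t_NA_mem (f : s34m_F K₀ (M * p)) :
    s33t_NA p ζ₀ (f : LaurentSeries K₀)
      ((s34m_al φ M p hp.out hpM f : s34m_F K₀ (M * p)) : LaurentSeries K₀) ∈
        laurentBaseChange K₀ (modularFunctionFieldFull M) := by
  apply s29cf_mem_of_coeffMap_mem' φ (modularFunctionFieldFull M)
  rw [← s33t_coe_normAlpha_iota φ M p hpM ζ₀ hζ₀ f]
  exact Subtype.mem _

/-- **The norm map `ν_α = Nm_α : 𝓕(M p) →* 𝓕(M)` over `K₀`.** -/
def s33t_nuAlpha : s34m_F K₀ (M * p) →* s34m_F K₀ M where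
  toFun f := ⟨s33t_NA p ζ₀ (f : LaurentSeries K₀)
    ((s34m_al φ M p hp.out hpM f : s34m_F K₀ (M * p)) : LaurentSeries K₀),
    s33t_NA_mem φ M p hpM ζ₀ hζ₀ f⟩
  map_one' := by
    apply s34m_iota_injective φ M
    apply Subtype.ext
    rw [s18q_map_coe]
    show coeffMap φ (s33t_NA p ζ₀ ((1 : s34m_F K₀ (M * p)) : LaurentSeries K₀)
      ((s34m_al φ M p hp.out hpM 1 : s34m_F K₀ (M * p)) : LaurentSeries K₀)) = _
    rw [← s33t_coe_normAlpha_iota φ M p hpM ζ₀ hζ₀ 1, map_one, map_one]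
    unfold s37e_normAlpha
    rw [map_one]
  map_mul' x y := by
    apply s34m_iota_injective φ M
    rw [map_mul (s34m_iota φ M)]
    apply Subtype.ext
    show coeffMap φ (s33t_NA p ζ₀ ((x * y : s34m_F K₀ (M * p)) : LaurentSeries K₀)
        ((s34m_al φ M p hp.out hpM (x * y) : s34m_F K₀ (M * p)) : LaurentSeries K₀)) =
      coeffMap φ (s33t_NA p ζ₀ (x : LaurentSeries K₀)
        ((s34m_al φ M p hp.out hpM x : s34m_F K₀ (M * p)) : LaurentSeries K₀)) *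
      coeffMap φ (s33t_NA p ζ₀ (y : LaurentSeries K₀)
        ((s34m_al φ M p hp.out hpM y : s34m_F K₀ (M * p)) : LaurentSeries K₀))
    rw [← s33t_coe_normAlpha_iota φ M p hpM ζ₀ hζ₀, ← s33t_coe_normAlpha_iota φ M p hpM ζ₀ hζ₀,
      ← s33t_coe_normAlpha_iota φ M p hpM ζ₀ hζ₀, map_mul]
    unfold s37e_normAlpha
    rw [map_mul, MulMemClass.coe_mul]

theorem s33t_coe_nuAlpha (f : s34m_F K₀ (M * p)) :
    ((s33t_nuAlpha φ M p hpM ζ₀ hζ₀ f : s34m_F K₀ M) : LaurentSeries K₀) =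
      s33t_NA p ζ₀ (f : LaurentSeries K₀)
        ((s34m_al φ M p hp.out hpM f : s34m_F K₀ (M * p)) : LaurentSeries K₀) := rfl

/-- **`ι (ν_α f) = Nm_α (ι f)`.** -/
theorem s33t_iota_nuAlpha (f : s34m_F K₀ (M * p)) :
    s34m_iota φ M (s33t_nuAlpha φ M p hpM ζ₀ hζ₀ f) =
      s37e_normAlpha M p (s34m_iota φ (M * p) f) := by
  apply Subtype.ext
  rw [s18q_map_coe, s33t_coe_nuAlpha, s33t_coe_normAlpha_iota φ M p hpM ζ₀ hζ₀ f]

/-- **`(ν_α f)(q^p) = f(q^p) ∏_{b<p} (w f)(ζ^b q)`.** -/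
theorem s33t_qExpand_nuAlpha (f : s34m_F K₀ (M * p)) :
    qExpand K₀ p ((s33t_nuAlpha φ M p hpM ζ₀ hζ₀ f : s34m_F K₀ M) : LaurentSeries K₀) =
      s33t_P2 p ζ₀ (f : LaurentSeries K₀)
        ((s34m_al φ M p hp.out hpM f : s34m_F K₀ (M * p)) : LaurentSeries K₀) := by
  apply s28d_coeffMap_injective φ φ.injective
  rw [← s33t_qExpand_normAlpha_iota φ M p hpM ζ₀ hζ₀ f, ← s33t_iota_nuAlpha φ M p hpM ζ₀ hζ₀ f,
    s18q_map_coe, coeffMap_qExpand]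

end Nu

/-! ### The leading-term theorem for `ν_α`, `ν_β` -/

section Lead2

variable {K₀ : Type*} [Field K₀] [Algebra ℚ K₀] (φ : K₀ →+* Kb)
variable (M : ℕ) [NeZero M] (p : ℕ) [hp : Fact p.Prime] (hpM : ¬ p ∣ M)
variable (ζ₀ : K₀ˣ) (hζ₀ : IsPrimitiveRoot (ζ₀ : K₀) p)
variable {κ : Type*} [Field κ] [CharP κ p] (G : s18g_GaussData K₀ κ)

/-- **[TRACE], α-side.**  If `f - 1 = ϖ^a y` with `y ∈ V_∞ ∩ V_0` and `a ≥ 1`, then
`ν_α f - 1 = ϖ^a t` with `t ∈ V_M` and `red_M t = red_∞ y`. -/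
theorem s33t_nuAlpha_lead (a : ℕ) (ha : 1 ≤ a) (f y : s34m_F K₀ (M * p))
    (hyI : y ∈ s34m_Vinf G (M * p)) (hy0 : y ∈ s34m_Vzero G φ M p hp.out hpM)
    (hf : f - 1 = s34m_unif G (M * p) ^ a * y) :
    ∃ (t : s34m_F K₀ M) (ht : t ∈ s34m_Vinf G M),
      s33t_nuAlpha φ M p hpM ζ₀ hζ₀ f - 1 = s34m_unif G M ^ a * t ∧
      s34m_redInf G M ⟨t, ht⟩ = s34m_redInf G (M * p) ⟨y, hyI⟩ := by
  classical
  have hϖ0 : ((G.ϖ : G.A) : K₀) ≠ 0 := s18g_unifK_ne_zero G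
  have hCϖ0 : (HahnSeries.C (((G.ϖ : G.A) : K₀) ^ a) : LaurentSeries K₀) ≠ 0 := by
    intro h
    exact pow_ne_zero a hϖ0 (HahnSeries.C_injective (by rw [h, map_zero]))
  have hζp : ζ₀ ^ p = 1 :=
    Units.ext (by rw [Units.val_pow_eq_pow_val, hζ₀.pow_eq_one, Units.val_one])
  have hcoeϖ : ∀ N : ℕ, ∀ _ : NeZero N, ((s34m_unif G N ^ a : s34m_F K₀ N) : LaurentSeries K₀) =
      HahnSeries.C (((G.ϖ : G.A) : K₀) ^ a) := by
    intro N _
    rw [SubmonoidClass.coe_pow, s34m_coe_unif, map_pow]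
  have hϖA : (((G.ϖ ^ a : ↥G.A) : ↥G.A) : K₀) = ((G.ϖ : G.A) : K₀) ^ a :=
    SubmonoidClass.coe_pow _ _
  -- the presentations of `y` and `w y`
  obtain ⟨P, Q, hQ, hPQ⟩ := (s34m_mem_Vinf G (M * p) y).mp hyI
  obtain ⟨P', Q', hQ', hPQ'⟩ :=
    (s34m_mem_Vinf G (M * p) _).mp ((s34m_mem_Vzero G φ M p hp.out hpM y).mp hy0)
  -- `f` and `w f`
  have hcoef : (f : LaurentSeries K₀) =
      1 + HahnSeries.C (((G.ϖ : G.A) : K₀) ^ a) * (y : LaurentSeries K₀) := by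
    have h := congrArg (fun x : s34m_F K₀ (M * p) => (x : LaurentSeries K₀)) hf
    simp only [AddSubgroupClass.coe_sub, OneMemClass.coe_one, MulMemClass.coe_mul] at h
    rw [hcoeϖ (M * p) inferInstance] at h
    rw [← h]
    ring
  have hwf : s34m_al φ M p hp.out hpM f - 1 =
      s34m_unif G (M * p) ^ a * s34m_al φ M p hp.out hpM y := by
    have h := congrArg (s34m_al φ M p hp.out hpM) hf
    rw [map_sub, map_one, map_mul, map_pow, s34m_al_unif] at h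
    exact h
  have hcoewf : ((s34m_al φ M p hp.out hpM f : s34m_F K₀ (M * p)) : LaurentSeries K₀) =
      1 + HahnSeries.C (((G.ϖ : G.A) : K₀) ^ a) *
        ((s34m_al φ M p hp.out hpM y : s34m_F K₀ (M * p)) : LaurentSeries K₀) := by
    have h := congrArg (fun x : s34m_F K₀ (M * p) => (x : LaurentSeries K₀)) hwf
    simp only [AddSubgroupClass.coe_sub, OneMemClass.coe_one, MulMemClass.coe_mul] at h
    rw [hcoeϖ (M * p) inferInstance] at h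
    rw [← h]
    ring
  have hY : s18g_iota G (Q + HahnSeries.C (G.ϖ ^ a) * P) =
      s18g_iota G Q * (f : LaurentSeries K₀) := by
    rw [map_add, map_mul, s18g_iota_C, ← hPQ, hcoef, hϖA]
    ring
  have hZ : s18g_iota G (Q' + HahnSeries.C (G.ϖ ^ a) * P') =
      s18g_iota G Q' *
        ((s34m_al φ M p hp.out hpM f : s34m_F K₀ (M * p)) : LaurentSeries K₀) := by
    rw [map_add, map_mul, s18g_iota_C, ← hPQ', hcoewf, hϖA]
    ring
  obtain ⟨B1, hB1, hρB1⟩ := s33t_gauss_pair2 G p ζ₀ hζp a ha Q Q' P P'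
  obtain ⟨B0, hB0def⟩ : ∃ B0 : LaurentSeries ↥G.A,
      B0 = s33t_P2 p (s33t_zetaA G p ζ₀ hζp) Q Q' := ⟨_, rfl⟩
  have hιB0 : s18g_iota G B0 = s33t_P2 p ζ₀ (s18g_iota G Q) (s18g_iota G Q') := by
    rw [hB0def]; exact s33t_iota_P2 G p ζ₀ hζp Q Q'
  have hρB0 : s18g_rho G B0 = qExpand κ p (s18g_rho G Q) * (s18g_rho G Q') ^ p := by
    rw [hB0def]; exact s33t_rho_P2 G p ζ₀ hζp Q Q'
  have hqQ : qExpand κ p (s18g_rho G Q) ≠ 0 := fun h =>
    hQ (qExpand_injective (R := κ) p (by rw [h, map_zero]))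
  have hQ'p : (s18g_rho G Q') ^ p ≠ 0 := pow_ne_zero p hQ'
  have hρB0ne : s18g_rho G B0 ≠ 0 := by
    rw [hρB0]
    exact mul_ne_zero hqQ hQ'p
  -- the key identity
  have hmul : s18g_iota G B0 *
      qExpand K₀ p ((s33t_nuAlpha φ M p hpM ζ₀ hζ₀ f : s34m_F K₀ M) : LaurentSeries K₀) =
      s18g_iota G B0 + HahnSeries.C (((G.ϖ : G.A) : K₀) ^ a) * s18g_iota G B1 := by
    rw [s33t_qExpand_nuAlpha, hιB0, ← s33t_P2_mul, ← hY, ← hZ, hB1]
  -- the new leading coefficient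
  have hϖM0 : s34m_unif G M ^ a ≠ 0 := pow_ne_zero a (s34m_unif_ne_zero G M)
  obtain ⟨t, htdef⟩ : ∃ t : s34m_F K₀ M,
      t = (s33t_nuAlpha φ M p hpM ζ₀ hζ₀ f - 1) / s34m_unif G M ^ a := ⟨_, rfl⟩
  have ht1 : s33t_nuAlpha φ M p hpM ζ₀ hζ₀ f - 1 = s34m_unif G M ^ a * t := by
    rw [htdef, mul_div_cancel₀ _ hϖM0]
  have hcoet : ((s33t_nuAlpha φ M p hpM ζ₀ hζ₀ f : s34m_F K₀ M) : LaurentSeries K₀) - 1 =
      HahnSeries.C (((G.ϖ : G.A) : K₀) ^ a) * (t : LaurentSeries K₀) := by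
    have h := congrArg (fun x : s34m_F K₀ M => (x : LaurentSeries K₀)) ht1
    simp only [AddSubgroupClass.coe_sub, OneMemClass.coe_one, MulMemClass.coe_mul] at h
    rw [hcoeϖ M inferInstance] at h
    exact h
  have hpres : s18g_iota G B0 * qExpand K₀ p (t : LaurentSeries K₀) = s18g_iota G B1 := by
    apply mul_left_cancel₀ hCϖ0
    have h := congrArg (qExpand K₀ p) hcoet
    rw [map_sub, map_one, map_mul, qExpand_C] at h
    calc HahnSeries.C (((G.ϖ : G.A) : K₀) ^ a) *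
          (s18g_iota G B0 * qExpand K₀ p (t : LaurentSeries K₀))
        = s18g_iota G B0 * (HahnSeries.C (((G.ϖ : G.A) : K₀) ^ a) *
            qExpand K₀ p (t : LaurentSeries K₀)) := by ring
      _ = s18g_iota G B0 * (qExpand K₀ p
            ((s33t_nuAlpha φ M p hpM ζ₀ hζ₀ f : s34m_F K₀ M) : LaurentSeries K₀) - 1) := by
          rw [← h]
      _ = HahnSeries.C (((G.ϖ : G.A) : K₀) ^ a) * s18g_iota G B1 := by
          rw [mul_sub, mul_one, hmul]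
          ring
  have hqt : qExpand K₀ p (t : LaurentSeries K₀) ∈ s18g_O G := ⟨B1, B0, hρB0ne, hpres⟩
  have htO : (t : LaurentSeries K₀) ∈ s18g_O G :=
    s33t_mem_O_of_qExpand G p (s34m_hF G M _ t.2) hqt
  refine ⟨t, htO, ht1, ?_⟩
  have h1 : s34m_redInf G (M * p) ⟨y, hyI⟩ = s18g_rho G P / s18g_rho G Q :=
    s18g_red_eq G ⟨(y : LaurentSeries K₀), hyI⟩ P Q hQ hPQ
  have h2 : s18g_red G ⟨qExpand K₀ p (t : LaurentSeries K₀), hqt⟩ =
      s18g_rho G B1 / s18g_rho G B0 :=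
    s18g_red_eq G ⟨qExpand K₀ p (t : LaurentSeries K₀), hqt⟩ B1 B0 hρB0ne hpres
  have h3 : s18g_red G ⟨qExpand K₀ p (t : LaurentSeries K₀), hqt⟩ =
      qExpand κ p (s18g_red G ⟨(t : LaurentSeries K₀), htO⟩) :=
    s34m_red_qExpand G p ⟨(t : LaurentSeries K₀), htO⟩
  have h4 : s34m_redInf G M ⟨t, htO⟩ = s18g_red G ⟨(t : LaurentSeries K₀), htO⟩ := rfl
  apply qExpand_injective (R := κ) p
  rw [h4, ← h3, h2, h1, hρB1, hρB0, mul_div_mul_right _ _ hQ'p, map_div₀]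

/-- `ν_β := ν_α ∘ w` (`= Nm_β`). -/
def s33t_nuBeta : s34m_F K₀ (M * p) →* s34m_F K₀ M :=
  (s33t_nuAlpha φ M p hpM ζ₀ hζ₀).comp
    ((s34m_al φ M p hp.out hpM).toRingEquiv.toRingHom : s34m_F K₀ (M * p) →* s34m_F K₀ (M * p))

theorem s33t_nuBeta_apply (f : s34m_F K₀ (M * p)) :
    s33t_nuBeta φ M p hpM ζ₀ hζ₀ f =
      s33t_nuAlpha φ M p hpM ζ₀ hζ₀ (s34m_al φ M p hp.out hpM f) := rfl

/-- **[TRACE], β-side.**  If `f - 1 = ϖ^a y` with `y ∈ V_∞ ∩ V_0` and `a ≥ 1`, then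
`ν_β f - 1 = ϖ^a t` with `t ∈ V_M` and `red_M t = red_0 y`. -/
theorem s33t_nuBeta_lead (a : ℕ) (ha : 1 ≤ a) (f y : s34m_F K₀ (M * p))
    (hyI : y ∈ s34m_Vinf G (M * p)) (hy0 : y ∈ s34m_Vzero G φ M p hp.out hpM)
    (hf : f - 1 = s34m_unif G (M * p) ^ a * y) :
    ∃ (t : s34m_F K₀ M) (ht : t ∈ s34m_Vinf G M),
      s33t_nuBeta φ M p hpM ζ₀ hζ₀ f - 1 = s34m_unif G M ^ a * t ∧
      s34m_redInf G M ⟨t, ht⟩ = s34m_redZero G φ M p hp.out hpM ⟨y, hy0⟩ := by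
  have hwf : s34m_al φ M p hp.out hpM f - 1 =
      s34m_unif G (M * p) ^ a * s34m_al φ M p hp.out hpM y := by
    have h := congrArg (s34m_al φ M p hp.out hpM) hf
    rw [map_sub, map_one, map_mul, map_pow, s34m_al_unif] at h
    exact h
  have hwI : s34m_al φ M p hp.out hpM y ∈ s34m_Vinf G (M * p) :=
    (s34m_mem_Vzero G φ M p hp.out hpM y).mp hy0
  have hw0 : s34m_al φ M p hp.out hpM y ∈ s34m_Vzero G φ M p hp.out hpM :=
    (s34m_al_mem_Vinf_iff G φ M p hp.out hpM y).mpr hyI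
  obtain ⟨t, ht, h1, h2⟩ := s33t_nuAlpha_lead φ M p hpM ζ₀ hζ₀ G a ha _ _ hwI hw0 hwf
  exact ⟨t, ht, h1, h2.trans (s34m_redZero_apply G φ M p hp.out hpM ⟨y, hy0⟩).symm⟩

end Lead2

/-! ### Comparison with the norms `s35nm_normAlpha`, `s35nm_normBeta` of Lib/S35 [NORM] -/

section Compare

variable {K₀ : Type*} [Field K₀] [Algebra ℚ K₀] (φ : K₀ →+* Kb)
variable (M : ℕ) [NeZero M] (p : ℕ) [hp : Fact p.Prime] (hpM : ¬ p ∣ M)
variable (ζ₀ : K₀ˣ) (hζ₀ : IsPrimitiveRoot (ζ₀ : K₀) p)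
variable {κ : Type*} [Field κ] [CharP κ p] (G : s18g_GaussData K₀ κ)

/-- `ν_α` is the field norm along `α` over `K₀`. -/
theorem s33t_nuAlpha_eq (f : s34m_F K₀ (M * p)) :
    s33t_nuAlpha φ M p hpM ζ₀ hζ₀ f = s35nm_normAlpha M p f := by
  apply s34m_iota_injective φ M
  rw [s33t_iota_nuAlpha, s35nm_iota_normAlpha φ M p hp.out hpM ζ₀ hζ₀ f]
  rfl

/-- `ν_β` is the field norm along `β` over `K₀`. -/
theorem s33t_nuBeta_eq (f : s34m_F K₀ (M * p)) :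
    s33t_nuBeta φ M p hpM ζ₀ hζ₀ f = s35nm_normBeta M p f := by
  rw [s33t_nuBeta_apply, s33t_nuAlpha_eq, s35nm_normBeta_eq φ M p hp.out hpM f]

include hζ₀ in
/-- **[TRACE], α-side, for the field norm `Nm_α`.** -/
theorem s33t_normAlpha_lead (a : ℕ) (ha : 1 ≤ a) (f y : s34m_F K₀ (M * p))
    (hyI : y ∈ s34m_Vinf G (M * p)) (hy0 : y ∈ s34m_Vzero G φ M p hp.out hpM)
    (hf : f - 1 = s34m_unif G (M * p) ^ a * y) :
    ∃ (t : s34m_F K₀ M) (ht : t ∈ s34m_Vinf G M),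
      s35nm_normAlpha M p f - 1 = s34m_unif G M ^ a * t ∧
      s34m_redInf G M ⟨t, ht⟩ = s34m_redInf G (M * p) ⟨y, hyI⟩ := by
  obtain ⟨t, ht, h1, h2⟩ := s33t_nuAlpha_lead φ M p hpM ζ₀ hζ₀ G a ha f y hyI hy0 hf
  rw [s33t_nuAlpha_eq] at h1
  exact ⟨t, ht, h1, h2⟩

include hζ₀ in
/-- **[TRACE], β-side, for the field norm `Nm_β`.** -/
theorem s33t_normBeta_lead (a : ℕ) (ha : 1 ≤ a) (f y : s34m_F K₀ (M * p))
    (hyI : y ∈ s34m_Vinf G (M * p)) (hy0 : y ∈ s34m_Vzero G φ M p hp.out hpM)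
    (hf : f - 1 = s34m_unif G (M * p) ^ a * y) :
    ∃ (t : s34m_F K₀ M) (ht : t ∈ s34m_Vinf G M),
      s35nm_normBeta M p f - 1 = s34m_unif G M ^ a * t ∧
      s34m_redInf G M ⟨t, ht⟩ = s34m_redZero G φ M p hp.out hpM ⟨y, hy0⟩ := by
  obtain ⟨t, ht, h1, h2⟩ := s33t_nuBeta_lead φ M p hpM ζ₀ hζ₀ G a ha f y hyI hy0 hf
  rw [s33t_nuBeta_eq] at h1
  exact ⟨t, ht, h1, h2⟩

end Compare

/-! ### Further properties of `ν_α` -/

section Extras

variable {K₀ : Type*} [Field K₀] [Algebra ℚ K₀] (φ : K₀ →+* Kb)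
variable (M : ℕ) [NeZero M] (p : ℕ) [hp : Fact p.Prime] (hpM : ¬ p ∣ M)
variable (ζ₀ : K₀ˣ) (hζ₀ : IsPrimitiveRoot (ζ₀ : K₀) p)

theorem s33t_nuAlpha_ne_zero (f : s34m_F K₀ (M * p)) (hf : f ≠ 0) :
    s33t_nuAlpha φ M p hpM ζ₀ hζ₀ f ≠ 0 := by
  intro h
  have h1 : s33t_nuAlpha φ M p hpM ζ₀ hζ₀ f * s33t_nuAlpha φ M p hpM ζ₀ hζ₀ f⁻¹ = 1 := by
    rw [← map_mul, mul_inv_cancel₀ hf, map_one]
  rw [h, zero_mul] at h1
  exact zero_ne_one h1

/-- `ν_α (α r) = r ^ (p + 1)`. -/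
theorem s33t_nuAlpha_alpha (r : s34m_F K₀ M) :
    s33t_nuAlpha φ M p hpM ζ₀ hζ₀ (heckeAlphaBar K₀ M p r) = r ^ (p + 1) := by
  have hζp : ζ₀ ^ p = 1 :=
    Units.ext (by rw [Units.val_pow_eq_pow_val, hζ₀.pow_eq_one, Units.val_one])
  apply Subtype.ext
  apply qExpand_injective (R := K₀) p
  rw [s33t_qExpand_nuAlpha, s34m_al_alpha, coe_heckeAlphaBar, coe_heckeBetaBar,
    SubmonoidClass.coe_pow, map_pow]
  unfold s33t_P2 s37e_prodTw
  have h : ∀ b ∈ Finset.range p, s28m_tw (ζ₀ ^ b) (qExpand K₀ p (r : LaurentSeries K₀)) =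
      qExpand K₀ p (r : LaurentSeries K₀) := by
    intro b _
    exact s28m_tw_qExpand (ζ₀ ^ b) p (by rw [← pow_mul, mul_comm, pow_mul, hζp, one_pow]) _
  rw [Finset.prod_congr rfl h, Finset.prod_const, Finset.card_range, ← pow_succ']

/-- `ν_α (β r)` has `q`-expansion `N(r)`, i.e. `ν_α ∘ β = τ` (`s33t_tau`). -/
theorem s33t_coe_nuAlpha_beta (r : s34m_F K₀ M) :
    ((s33t_nuAlpha φ M p hpM ζ₀ hζ₀ (heckeBetaBar K₀ M p r) : s34m_F K₀ M) : LaurentSeries K₀) =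
      s33t_N p ζ₀ (r : LaurentSeries K₀) := by
  unfold s33t_N
  have h : qExpand K₀ p ((s33t_nuAlpha φ M p hpM ζ₀ hζ₀ (heckeBetaBar K₀ M p r) : s34m_F K₀ M) :
      LaurentSeries K₀) = s33t_P p ζ₀ (r : LaurentSeries K₀) := by
    rw [s33t_qExpand_nuAlpha, s34m_al_beta, coe_heckeAlphaBar, coe_heckeBetaBar]
    unfold s33t_P2 s33t_P
    rw [qExpand_qExpand]
  rw [← h, s33t_U_qExpand]

/-- `ν_α c = c ^ (p + 1)` on constants. -/
theorem s33t_nuAlpha_algebraMap (c : K₀) :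
    s33t_nuAlpha φ M p hpM ζ₀ hζ₀ (algebraMap K₀ (s34m_F K₀ (M * p)) c) =
      algebraMap K₀ (s34m_F K₀ M) (c ^ (p + 1)) := by
  have h : algebraMap K₀ (s34m_F K₀ (M * p)) c =
      heckeAlphaBar K₀ M p (algebraMap K₀ (s34m_F K₀ M) c) :=
    ((heckeAlphaBar K₀ M p).commutes c).symm
  rw [h, s33t_nuAlpha_alpha, map_pow]

end Extras

/-! ### `ν_α`, `ν_β` preserve divisibility of the orders -/

section Ord

variable (M : ℕ) [NeZero M] (p : ℕ) [hp : Fact p.Prime] (hpM : ¬ p ∣ M)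

include hpM in
/-- over `ℚ̄`: `m ∣ ord_w g ∀ w ⇒ m ∣ ord_P (Nm_α g) ∀ P` (`div (Nm_α g) = α_* (div g)`). -/
theorem s33t_dvd_ord_normAlpha (m : ℤ) (g : ↥(modularFunctionFieldBar (M * p))) (hg : g ≠ 0)
    (h : ∀ w : Place Kb ↥(modularFunctionFieldBar (M * p)), m ∣ w.ord g)
    (P : Place Kb ↥(modularFunctionFieldBar M)) :
    m ∣ P.ord (s37e_normAlpha M p g) := by
  classical
  obtain ⟨hα, hβ, hPD, hfin, -, hN⟩ := s37h_heckeInputsAlong M p hp.out hpM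
  haveI := hPD
  obtain ⟨D, hD, -⟩ := HasPrincipalDivisors.exists_divisor (K := Kb) g hg
  set E : Divisor Kb ↥(modularFunctionFieldBar (M * p)) :=
    Finsupp.mapRange (fun n : ℤ => n / m) (by simp) D with hE
  have hDE : D = m • E := by
    ext Q
    rw [Finsupp.smul_apply, hE, Finsupp.mapRange_apply, smul_eq_mul, hD Q,
      Int.mul_ediv_cancel' (h Q)]
  unfold s37e_normAlpha
  letI := algebraAlong (heckeAlphaBar Kb M p)
  haveI := isScalarTower_along (heckeAlphaBar Kb M p)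
  haveI := isIntegral_along (heckeAlphaBar Kb M p) hα
  haveI : Module.Finite ↥(laurentBaseChange Kb (modularFunctionFieldFull M))
    ↥(laurentBaseChange Kb (modularFunctionFieldFull (M * p))) := hfin
  have key := hN g hg D hD P
  rw [← key, hDE, map_zsmul, Finsupp.smul_apply, smul_eq_mul]
  exact dvd_mul_right _ _

variable (L₀ : IntermediateField ℚ Kb) (ζ₀ : (↥L₀)ˣ) (hζ₀ : IsPrimitiveRoot (ζ₀ : ↥L₀) p)

/-- **`ν_α` preserves divisibility of the orders** (over `L₀ ⊆ ℚ̄`). -/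
theorem s33t_nuAlpha_dvd_ord (m : ℤ) (f : s34m_F ↥L₀ (M * p)) (hf : f ≠ 0)
    (h : ∀ Q : Place ↥L₀ (s34m_F ↥L₀ (M * p)), m ∣ Q.ord f)
    (Q : Place ↥L₀ (s34m_F ↥L₀ M)) :
    m ∣ Q.ord (s33t_nuAlpha (algebraMap ↥L₀ Kb) M p hpM ζ₀ hζ₀ f) := by
  apply s18q_dvd_ord_descend M L₀ m
  intro P
  have e : s18q_incl M L₀ (s33t_nuAlpha (algebraMap ↥L₀ Kb) M p hpM ζ₀ hζ₀ f) =
      s37e_normAlpha M p (s18q_incl (M * p) L₀ f) :=
    s33t_iota_nuAlpha (algebraMap ↥L₀ Kb) M p hpM ζ₀ hζ₀ f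
  rw [e]
  apply s33t_dvd_ord_normAlpha M p hpM m
  · intro h0
    exact hf (s18q_incl_injective (M * p) L₀ (by rw [h0, map_zero]))
  · intro P'
    rw [s18q_ord_restrict]
    exact h _

/-- **`ν_β` preserves divisibility of the orders** (over `L₀ ⊆ ℚ̄`). -/
theorem s33t_nuBeta_dvd_ord (m : ℤ) (f : s34m_F ↥L₀ (M * p)) (hf : f ≠ 0)
    (h : ∀ Q : Place ↥L₀ (s34m_F ↥L₀ (M * p)), m ∣ Q.ord f)
    (Q : Place ↥L₀ (s34m_F ↥L₀ M)) :
    m ∣ Q.ord (s33t_nuBeta (algebraMap ↥L₀ Kb) M p hpM ζ₀ hζ₀ f) := by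
  rw [s33t_nuBeta_apply]
  apply s33t_nuAlpha_dvd_ord M p hpM L₀ ζ₀ hζ₀ m _ ((map_ne_zero _).mpr hf)
  intro Q'
  -- transport the place along the `L₀`-automorphism `w`
  have h1 := Place.ord_smul (s34m_al (algebraMap ↥L₀ Kb) M p hp.out hpM)
    ((s34m_al (algebraMap ↥L₀ Kb) M p hp.out hpM)⁻¹ • Q') f
  rw [smul_inv_smul] at h1
  rw [h1]
  exact h _

end Ord

end

end Fermat.Agent.Lib.S33
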