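/-
P-AT-P programme (S33), Stage 2 (helper4): **the contract [TRACE] `s33z_Trace` for the concrete components**
`s33y_Ci`, `s33y_Cz` of `X_0(M p)` (`SsComp.lean`), from helper3's `TPTrace.lean`
(`s33t_nuAlpha_lead`, `s33t_nuBeta_lead`).

* `s33y_Nm` : the norm data `(ν_α, ν_β) : s33z_NormData (s33i_datum G M …) (s34m_F K₀ (M p))`;
* `s33y_trace` : `s33z_Trace Z (s33y_Nm …)` for EVERY Σ-datum `Z` whose two components are `s33y_Ci`, `s33y_Cz`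
  (whatever its node half is).
-/
import Fermat.Agent.Lib.S33.SsComp
import Fermat.Agent.Lib.S33.TPTrace

set_option autoImplicit false
set_option linter.style.haveILetI false
set_option linter.unusedSectionVars false

noncomputable section

namespace Fermat.Agent.Lib.S33

open ModularCurve AlgebraicCurve HahnSeries Fermat.Agent.Lib.FF Fermat.Agent.Lib.S18
  Fermat.Agent.Lib.S34 Fermat.Agent.Lib.S37

local notation "Kb" => AlgebraicClosure ℚ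

variable {K₀ : Type} [Field K₀] [CharZero K₀] [Algebra ℚ K₀] {κ : Type} [Field κ]
  (G : s18g_GaussData K₀ κ)
variable (φ : K₀ →+* Kb) (M p : ℕ) [NeZero M] [hp : Fact p.Prime] (hpM : ¬ p ∣ M)
variable [CharP κ p] [PerfectRing κ p]
variable (hdeg : s34m_HDeg K₀ M p) (hT : s18g_HT κ M) (hdegM : s18g_HDeg K₀ M)
variable (hπ : Function.Surjective G.π)
variable (e : ℕ) (ε : K₀) (he : 0 < e) (hε : ε ∈ G.A) (hεinv : ε⁻¹ ∈ G.A) (hε0 : ε ≠ 0)
variable (hpe : (p : K₀) = ε * ((G.ϖ : G.A) : K₀) ^ e) (hperf : ∀ c : κ, ∃ d : κ, d ^ p = c)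
variable (ζ₀ : K₀ˣ) (hζ₀ : IsPrimitiveRoot (ζ₀ : K₀) p)

local notation "D'M" => s33i_datum G M hT hdegM hπ p e ε hp.out he hε hεinv hε0 hpe hperf

/-- **The norm data** `(ν_α, ν_β)` from level `M p` to level `M`. -/
def s33y_Nm : s33z_NormData D'M (s34m_F K₀ (M * p)) where
  Na := s33t_nuAlpha φ M p hpM ζ₀ hζ₀
  Nb := s33t_nuBeta φ M p hpM ζ₀ hζ₀
  Na_const := fun c => s33t_nuAlpha_algebraMap φ M p hpM ζ₀ hζ₀ c
  Nb_const := fun c => by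
    rw [s33t_nuBeta_apply, (s34m_al φ M p hp.out hpM).commutes c]
    exact s33t_nuAlpha_algebraMap φ M p hpM ζ₀ hζ₀ c
  Na_ne_zero := fun f hf => s33t_nuAlpha_ne_zero φ M p hpM ζ₀ hζ₀ f hf
  Nb_ne_zero := fun f hf => by
    rw [s33t_nuBeta_apply]
    exact s33t_nuAlpha_ne_zero φ M p hpM ζ₀ hζ₀ _ ((map_ne_zero _).mpr hf)

variable {ι : Type*} {k : ι → Type*} [∀ s, Field (k s)] [∀ s, Algebra κ (k s)]

/-- **[TRACE]** for every Σ-datum with the concrete components. -/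
theorem s33y_trace (Z : s33z_Datum D'M (s34m_F K₀ (M * p)) ι k)
    (hCi : Z.Ci = s33y_Ci G φ M p hpM hdeg hT hdegM hπ e ε he hε hεinv hε0 hpe hperf)
    (hCz : Z.Cz = s33y_Cz G φ M p hpM hdeg hT hdegM hπ e ε he hε hεinv hε0 hpe hperf) :
    s33z_Trace Z (s33y_Nm G φ M p hpM hT hdegM hπ e ε he hε hεinv hε0 hpe hperf ζ₀ hζ₀) := by
  intro a ha f hf
  obtain ⟨y, hyi, hyz, ef⟩ := hf.exists_eq
  have hyI : y ∈ s34m_Vinf G (M * p) := by
    have : y ∈ (s33y_Ci G φ M p hpM hdeg hT hdegM hπ e ε he hε hεinv hε0 hpe hperf).O := hCi ▸ hyi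
    exact this
  have hy0 : y ∈ s34m_Vzero G φ M p hp.out hpM := by
    have : y ∈ (s33y_Cz G φ M p hpM hdeg hT hdegM hπ e ε he hε hεinv hε0 hpe hperf).O := hCz ▸ hyz
    exact this
  have ef' : f - 1 = s34m_unif G (M * p) ^ a * y := ef
  -- the two leading terms at level `M p`
  have hli : s33f_lead Z.Di a f = s33y_redI G φ M p hpM hdeg hT hdegM ⟨y, hyI⟩ := by
    rw [s33f_lead_eq (D := Z.Di) (by rw [s33z_pi_i]; exact ef), s33f_redX_of_mem Z.Di hyi]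
    show Z.Ci.red ⟨y, hyi⟩ = _
    have key : ∀ (C : s33z_Comp D'M (s34m_F K₀ (M * p)))
        (_ : C = s33y_Ci G φ M p hpM hdeg hT hdegM hπ e ε he hε hεinv hε0 hpe hperf)
        (hy : y ∈ C.O), C.red ⟨y, hy⟩ = s33y_redI G φ M p hpM hdeg hT hdegM ⟨y, hyI⟩ := by
      rintro C rfl hy
      rfl
    exact key Z.Ci hCi hyi
  have hlz : s33f_lead Z.Dz a f = s33y_redZ G φ M p hpM hdeg hT hdegM ⟨y, hy0⟩ := by
    rw [s33f_lead_eq (D := Z.Dz) (by rw [s33z_pi_z]; exact ef), s33f_redX_of_mem Z.Dz hyz]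
    show Z.Cz.red ⟨y, hyz⟩ = _
    have key : ∀ (C : s33z_Comp D'M (s34m_F K₀ (M * p)))
        (_ : C = s33y_Cz G φ M p hpM hdeg hT hdegM hπ e ε he hε hεinv hε0 hpe hperf)
        (hy : y ∈ C.O), C.red ⟨y, hy⟩ = s33y_redZ G φ M p hpM hdeg hT hdegM ⟨y, hy0⟩ := by
      rintro C rfl hy
      rfl
    exact key Z.Cz hCz hyz
  refine ⟨?_, ?_⟩
  · obtain ⟨t, ht, e1, e2⟩ := s33t_nuAlpha_lead φ M p hpM ζ₀ hζ₀ G a ha f y hyI hy0 ef'
    have hc : s33f_Cong D'M a (s33t_nuAlpha φ M p hpM ζ₀ hζ₀ f) 1 := ⟨t, ht, e1⟩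
    refine ⟨hc, ?_⟩
    show s33f_lead D'M a (s33t_nuAlpha φ M p hpM ζ₀ hζ₀ f) = _
    rw [s33f_lead_eq (D := D'M) e1, s33f_redX_of_mem D'M ht, hli]
    exact Subtype.ext e2
  · obtain ⟨t, ht, e1, e2⟩ := s33t_nuBeta_lead φ M p hpM ζ₀ hζ₀ G a ha f y hyI hy0 ef'
    have hc : s33f_Cong D'M a (s33t_nuBeta φ M p hpM ζ₀ hζ₀ f) 1 := ⟨t, ht, e1⟩
    refine ⟨hc, ?_⟩
    show s33f_lead D'M a (s33t_nuBeta φ M p hpM ζ₀ hζ₀ f) = _
    rw [s33f_lead_eq (D := D'M) e1, s33f_redX_of_mem D'M ht, hlz]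
    exact Subtype.ext e2

end Fermat.Agent.Lib.S33
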