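/-
S33 programme (P-AT-P), brick [J-dict-N] (helper3), part 1: the J-side ⇄ Kummer-side dictionary for the
PUSH-FORWARDS `α_*, β_* : J₀(M p) → J₀(M)` (`s35c_alphaPush`, `s35c_betaPush`, Lib/S35/B3Push).

With `s33t_IsKumGen N p z g` (`z = [D]`, `p · D = div g`, over `ℚ̄`; Lib/S33/TPDesc):
* `s33t_kumGen_push`       : generic — `m · D = div f ⇒ m · φ_* D = div (Nm_φ f)` along a finite embedding with
                             the norm formula;
* `s33t_isKumGen_alphaPush`: `Nm_α g` is a Kummer generator of `α_* x`;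
* `s33t_isKumGen_betaPush` : `Nm_α (w g)` (`= Nm_β g`) is a Kummer generator of `β_* x`;
* `s33t_isKumGen_nuAlpha`, `s33t_isKumGen_nuBeta` : the same over `K₀` for `g = ι h`, with `ν_α h`, `ν_β h`
  (`s33t_nuAlpha`, `s33t_nuBeta`, Lib/S33/TPTrace);
* `s33t_isKumGen_mul`, `s33t_isKumGen_inv`, `s33t_isKumGen_pow`, `s33t_isKumGen_one`, `s33t_isKumGen_const_mul`:
  the group structure (`x + y ↔ g g'`, `-x ↔ g⁻¹`, `n • x ↔ g ^ n`, `0 ↔ 1`, constants).
-/
import Fermat.Agent.Lib.S33.TPTrace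
import Fermat.Agent.Lib.S33.TPDesc
import Fermat.Agent.Lib.S35.B3Push

set_option autoImplicit false
set_option linter.style.haveILetI false
set_option linter.unusedSectionVars false
set_option synthInstance.maxHeartbeats 400000

namespace Fermat.Agent.Lib.S33

open ModularCurve HahnSeries AlgebraicCurve Fermat.Agent.Lib.S18 Fermat.Agent.Lib.S28
  Fermat.Agent.Lib.S29 Fermat.Agent.Lib.S37 Fermat.Agent.Lib.FF Fermat.Agent.Lib.S34
  Fermat.Agent.Lib.S35

noncomputable section

local notation "Kb" => AlgebraicClosure ℚ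

/-! ### Generic: push-forward of a Kummer relation -/

theorem s33t_kumGen_push {K F F' : Type*} [Field K] [Field F] [Field F'] [Algebra K F]
    [Algebra K F'] (φ : F →ₐ[K] F') (hφ : φ.toRingHom.IsIntegral) (hfin : FiniteAlong K φ)
    (hN : NormFormulaAlong K φ hfin) (m : ℤ) (D : Divisor K F') (f : F') (hf : f ≠ 0)
    (hD : ∀ w : Place K F', m * D w = w.ord f) (v : Place K F) :
    m * (Divisor.pushforwardAlong φ hφ D) v =
      v.ord (@Algebra.norm F F' _ _ (algebraAlong φ) f) := by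
  letI := algebraAlong φ
  haveI := isScalarTower_along φ
  haveI := isIntegral_along φ hφ
  haveI : Module.Finite F F' := hfin
  have key := hN f hf (m • D) (fun w => by rw [Finsupp.smul_apply, smul_eq_mul, hD w]) v
  rw [← key]
  show m * (Divisor.pushforward F D) v = (Divisor.pushforward F (m • D)) v
  rw [map_zsmul, Finsupp.smul_apply, smul_eq_mul]

/-! ### The group structure on Kummer generators -/

section Group

variable (N : ℕ) [NeZero N] (p : ℕ)

theorem s33t_isKumGen_one : s33t_IsKumGen N p (0 : JZero N) (1 : ffi_F N) := by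
  refine ⟨one_ne_zero, 0, rfl, fun P => ?_⟩
  rw [P.ord_one]
  simp

theorem s33t_isKumGen_mul {x y : JZero N} {g g' : ffi_F N} (h : s33t_IsKumGen N p x g)
    (h' : s33t_IsKumGen N p y g') : s33t_IsKumGen N p (x + y) (g * g') := by
  obtain ⟨hg, D, rfl, hD⟩ := h
  obtain ⟨hg', D', rfl, hD'⟩ := h'
  refine ⟨mul_ne_zero hg hg', D + D', Pic0.mk_add D D', fun P => ?_⟩
  rw [P.ord_mul hg hg', ← hD P, ← hD' P, AddSubgroup.coe_add, Finsupp.add_apply, mul_add]

theorem s33t_isKumGen_inv {x : JZero N} {g : ffi_F N} (h : s33t_IsKumGen N p x g) :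
    s33t_IsKumGen N p (-x) g⁻¹ := by
  obtain ⟨hg, D, rfl, hD⟩ := h
  refine ⟨inv_ne_zero hg, -D, rfl, fun P => ?_⟩
  rw [P.ord_inv, ← hD P, AddSubgroup.coe_neg, Finsupp.neg_apply, mul_neg]

theorem s33t_isKumGen_pow {x : JZero N} {g : ffi_F N} (h : s33t_IsKumGen N p x g) (n : ℕ) :
    s33t_IsKumGen N p (n • x) (g ^ n) := by
  induction n with
  | zero =>
    rw [zero_nsmul, pow_zero]
    exact s33t_isKumGen_one N p
  | succ n ih =>
    rw [succ_nsmul, pow_succ]
    exact s33t_isKumGen_mul N p ih h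

theorem s33t_isKumGen_const_mul {x : JZero N} {g : ffi_F N} (h : s33t_IsKumGen N p x g)
    {c : Kb} (hc : c ≠ 0) : s33t_IsKumGen N p x (algebraMap Kb (ffi_F N) c * g) := by
  obtain ⟨hg, D, rfl, hD⟩ := h
  have hc' : algebraMap Kb (ffi_F N) c ≠ 0 := by rwa [Ne, map_eq_zero]
  refine ⟨mul_ne_zero hc' hg, D, rfl, fun P => ?_⟩
  rw [P.ord_mul hc' hg, ff_ord_algebraMap, zero_add, hD P]

end Group

/-! ### The push-forwards `α_*`, `β_*` -/

section Push

variable (M : ℕ) [NeZero M] (p : ℕ) [hp : Fact p.Prime] (hpM : ¬ p ∣ M)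

/-- **`Nm_α g` is a Kummer generator of `α_* x`.** -/
theorem s33t_isKumGen_alphaPush (x : JZero (M * p)) (g : ffi_F (M * p))
    (h : s33t_IsKumGen (M * p) p x g) :
    s33t_IsKumGen M p (s35c_alphaPush M p hp.out hpM x) (s37e_normAlpha M p g) := by
  obtain ⟨hg, D, rfl, hD⟩ := h
  refine ⟨?_, s35c_degZeroPush (heckeAlphaBar Kb M p) (s35c_alphaIntegral M p hp.out hpM) D,
    (s35c_alphaPush_mk M p hp.out hpM D).symm, fun P => ?_⟩
  · unfold s37e_normAlpha
    letI := algebraAlong (heckeAlphaBar Kb M p)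
    haveI : Module.Finite ↥(laurentBaseChange Kb (modularFunctionFieldFull M))
        ↥(laurentBaseChange Kb (modularFunctionFieldFull (M * p))) :=
      s37w_finite_alpha M p hp.out hpM
    exact Algebra.norm_ne_zero_iff.mpr hg
  · rw [s35c_coe_degZeroPush]
    exact s33t_kumGen_push _ _ (s37w_finite_alpha M p hp.out hpM)
      (s37h_normFormulaAlong _ (s37w_finite_alpha M p hp.out hpM)) p _ g hg hD P

/-- **`Nm_β g = Nm_α (w g)` is a Kummer generator of `β_* x`.** -/
theorem s33t_isKumGen_betaPush (x : JZero (M * p)) (g : ffi_F (M * p))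
    (h : s33t_IsKumGen (M * p) p x g) :
    s33t_IsKumGen M p (s35c_betaPush M p hp.out hpM x)
      (s37e_normAlpha M p (s37w_al M p hp.out hpM g)) := by
  obtain ⟨hg, D, rfl, hD⟩ := h
  have e : s37e_normAlpha M p (s37w_al M p hp.out hpM g) =
      @Algebra.norm (ffi_F M) (ffi_F (M * p)) _ _ (algebraAlong (heckeBetaBar Kb M p)) g :=
    (s37w_norm_beta_side M p hp.out hpM g).symm
  rw [e]
  refine ⟨?_, s35c_degZeroPush (heckeBetaBar Kb M p) (s35c_betaIntegral M p hp.out hpM) D,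
    (s35c_betaPush_mk M p hp.out hpM D).symm, fun P => ?_⟩
  · letI := algebraAlong (heckeBetaBar Kb M p)
    haveI : Module.Finite ↥(laurentBaseChange Kb (modularFunctionFieldFull M))
        ↥(laurentBaseChange Kb (modularFunctionFieldFull (M * p))) :=
      s37w_finite_beta M p hp.out hpM
    exact Algebra.norm_ne_zero_iff.mpr hg
  · rw [s35c_coe_degZeroPush]
    exact s33t_kumGen_push _ _ (s37w_finite_beta M p hp.out hpM)
      (s37h_normFormulaAlong _ (s37w_finite_beta M p hp.out hpM)) p _ g hg hD P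

variable {K₀ : Type*} [Field K₀] [Algebra ℚ K₀] (φ : K₀ →+* Kb)
variable (ζ₀ : K₀ˣ) (hζ₀ : IsPrimitiveRoot (ζ₀ : K₀) p)

/-- over `K₀`: `ν_α h` is a Kummer generator of `α_* x`. -/
theorem s33t_isKumGen_nuAlpha (x : JZero (M * p)) (h : s34m_F K₀ (M * p))
    (hx : s33t_IsKumGen (M * p) p x (s34m_iota φ (M * p) h)) :
    s33t_IsKumGen M p (s35c_alphaPush M p hp.out hpM x)
      (s34m_iota φ M (s33t_nuAlpha φ M p hpM ζ₀ hζ₀ h)) := by
  rw [s33t_iota_nuAlpha]
  exact s33t_isKumGen_alphaPush M p hpM x _ hx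

/-- over `K₀`: `ν_β h` is a Kummer generator of `β_* x`. -/
theorem s33t_isKumGen_nuBeta (x : JZero (M * p)) (h : s34m_F K₀ (M * p))
    (hx : s33t_IsKumGen (M * p) p x (s34m_iota φ (M * p) h)) :
    s33t_IsKumGen M p (s35c_betaPush M p hp.out hpM x)
      (s34m_iota φ M (s33t_nuBeta φ M p hpM ζ₀ hζ₀ h)) := by
  rw [s33t_nuBeta_apply, s33t_iota_nuAlpha, s34m_iota_al]
  exact s33t_isKumGen_betaPush M p hpM x _ hx

end Push

end

end Fermat.Agent.Lib.S33
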