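/-
S33 programme (P-AT-P), brick [J-dict-N] (helper3), part 2: the Galois entries of the J-side ⇄ Kummer-side
dictionary and the FINAL STEP of (M).

* `s33t_isKumGen_iff_desc` : my `s33t_IsKumGen N p z g` is helper1's generic `s33d_IsKumGen p z g`;
* `s33t_isKumGen_galois`   : `σ • g` (coefficientwise action) is a Kummer generator of `σ • z`;
* **`s33t_galois_eq_nsmul`** : `L₀ ≤ ℚ̄` normal, `h ∈ 𝓕_{L₀}(N)` with `ι h` a Kummer generator of `x`, and
  `σ|_{L₀} h · (h ^ n)⁻¹ = c · y ^ p` over `L₀` (the Kummer-side output `s33f_IsKum0 (G.s h * (h ^ n)⁻¹)`)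
  ⇒ `σ • x = n • x` in `J₀(N)`;
* `s33t_red_alphaPush_closure`, `s33t_red_betaPush_closure` : elements of the subgroup generated by the
  `σ • y - y`, `σ` in the inertia group at `P ∣ p`, are killed by `red_{M} ∘ α_*` and `red_{M} ∘ β_*`
  (`M` a good level for `p`).
-/
import Fermat.Agent.Lib.S33.TPPush
import Fermat.Agent.Lib.S33.DescKummer
import Fermat.Agent.Lib.S33.DescGen
import Fermat.Agent.Lib.S33.RedZero

set_option autoImplicit false
set_option linter.style.haveILetI false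
set_option linter.unusedSectionVars false
set_option synthInstance.maxHeartbeats 400000

namespace Fermat.Agent.Lib.S33

open ModularCurve HahnSeries AlgebraicCurve Fermat.Agent.Lib.S18 Fermat.Agent.Lib.S28
  Fermat.Agent.Lib.S29 Fermat.Agent.Lib.S37 Fermat.Agent.Lib.FF Fermat.Agent.Lib.S34
  Fermat.Agent.Lib.S35

noncomputable section

local notation "Kb" => AlgebraicClosure ℚ

section Galois

variable (N : ℕ) [NeZero N] (p : ℕ)

theorem s33t_isKumGen_iff_desc (z : JZero N) (g : ffi_F N) :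
    s33t_IsKumGen N p z g ↔ s33d_IsKumGen p z g := by
  constructor
  · rintro ⟨hg, D, hD, h⟩
    exact ⟨hg, D, hD, fun v => (h v).symm⟩
  · rintro ⟨hg, D, hD, h⟩
    exact ⟨hg, D, hD, fun v => (h v).symm⟩

/-- `σ • g` is a Kummer generator of `σ • z`. -/
theorem s33t_isKumGen_galois (σ : s29k_G) {z : JZero N} {g : ffi_F N}
    (h : s33t_IsKumGen N p z g) :
    s33t_IsKumGen N p (σ • z) (arithmeticGalois (modularFunctionFieldFull N) σ • g) := by
  rw [s33t_isKumGen_iff_desc] at h ⊢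
  rw [galois_smul_pic0_def]
  exact s33d_kumGen_smul _ h

variable [hp : Fact p.Prime]

/-- **The final step of (M).**  If `ι h` is a Kummer generator of `x` and `σ|_{L₀} h · (h ^ n)⁻¹` is a
constant times a `p`-th power over `L₀`, then `σ • x = n • x`. -/
theorem s33t_galois_eq_nsmul (L₀ : IntermediateField ℚ Kb) [Normal ℚ ↥L₀] (σ : s29k_G) (n : ℕ)
    (x : JZero N) (h : s34m_F ↥L₀ N) (hx : s33t_IsKumGen N p x (s18q_incl N L₀ h))
    (hk : ∃ (c : ↥L₀) (y : s34m_F ↥L₀ N), c ≠ 0 ∧ y ≠ 0 ∧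
      arithmeticRingAut (modularFunctionFieldFull N) (σ.restrictNormal ↥L₀) h * (h ^ n)⁻¹ =
        algebraMap ↥L₀ (s34m_F ↥L₀ N) c * y ^ p) :
    σ • x = n • x := by
  obtain ⟨c, y, hc, hy, e⟩ := hk
  -- the generator of `σ • x - n • x`
  have h1 := s33t_isKumGen_galois N p σ hx
  have h2 := s33t_isKumGen_inv N p (s33t_isKumGen_pow N p hx n)
  have h3 := s33t_isKumGen_mul N p h1 h2
  -- it is `ι (σ h * (h ^ n)⁻¹)`
  have e1 : arithmeticGalois (modularFunctionFieldFull N) σ • s18q_incl N L₀ h =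
      s18q_incl N L₀ (arithmeticRingAut (modularFunctionFieldFull N) (σ.restrictNormal ↥L₀) h) :=
    s33d_smul_incl_normal (modularFunctionFieldFull N) L₀ σ h
  have e2 : arithmeticGalois (modularFunctionFieldFull N) σ • s18q_incl N L₀ h *
      (s18q_incl N L₀ h ^ n)⁻¹ =
      algebraMap Kb (ffi_F N) (algebraMap ↥L₀ Kb c) * (s18q_incl N L₀ y) ^ p := by
    rw [e1, ← map_pow, ← map_inv₀, ← map_mul, e, map_mul, map_pow, s18q_incl_algebraMap]
    rfl
  rw [e2] at h3
  have hc' : algebraMap ↥L₀ Kb c ≠ 0 := by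
    rw [Ne, map_eq_zero]; exact hc
  have hy' : s18q_incl N L₀ y ≠ 0 := by
    rw [Ne, map_eq_zero]; exact hy
  have h4 := (s33t_isKumGen_zero_iff N p _ _ h3).mpr ⟨_, _, hc', hy', rfl⟩
  rw [← sub_eq_add_neg, sub_eq_zero] at h4
  exact h4

end Galois

/-! ### Reduction of the push-forwards of inertia differences -/

section Red

variable (M : ℕ) [NeZero M] (p : ℕ) [hp : Fact p.Prime]

theorem s33t_red_alphaPush_closure (hM : s18_GoodLevel p M) (P : ValuationSubring Kb)
    (hP : P.LiesOverPrime p) (x : JZero (M * p))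
    (hx : x ∈ AddSubgroup.closure {z : JZero (M * p) |
      ∃ σ ∈ P.inertiaSubgroupIn ℚ, ∃ y : JZero (M * p), z = σ • y - y}) :
    reductionModL P M (s35c_alphaPush M p hp.out hM.1 x) = 0 := by
  induction hx using AddSubgroup.closure_induction with
  | mem z hz =>
    obtain ⟨σ, hσ, y, rfl⟩ := hz
    rw [map_sub, s35c_alphaPush_smul, map_sub,
      s37u_reductionModL_inertia M P hp.out hP hM.1 (s33r_inputs M p hp.out hM P hP) σ hσ,
      sub_self]
  | zero => rw [map_zero, map_zero]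
  | add a b _ _ iha ihb => rw [map_add, map_add, iha, ihb, add_zero]
  | neg a _ iha => rw [map_neg, map_neg, iha, neg_zero]

theorem s33t_red_betaPush_closure (hM : s18_GoodLevel p M) (P : ValuationSubring Kb)
    (hP : P.LiesOverPrime p) (x : JZero (M * p))
    (hx : x ∈ AddSubgroup.closure {z : JZero (M * p) |
      ∃ σ ∈ P.inertiaSubgroupIn ℚ, ∃ y : JZero (M * p), z = σ • y - y}) :
    reductionModL P M (s35c_betaPush M p hp.out hM.1 x) = 0 := by
  induction hx using AddSubgroup.closure_induction with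
  | mem z hz =>
    obtain ⟨σ, hσ, y, rfl⟩ := hz
    rw [map_sub, s35c_betaPush_smul, map_sub,
      s37u_reductionModL_inertia M P hp.out hP hM.1 (s33r_inputs M p hp.out hM P hP) σ hσ,
      sub_self]
  | zero => rw [map_zero, map_zero]
  | add a b _ _ iha ihb => rw [map_add, map_add, iha, ihb, add_zero]
  | neg a _ iha => rw [map_neg, map_neg, iha, neg_zero]

end Red

/-! ### Kummer generators over `L₀` lie in the Kummer group; big normal fields -/

section Misc

variable (N : ℕ) [NeZero N] (p : ℕ)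

/-- a function over `L₀` whose base change is a Kummer generator lies in the Kummer group
`𝒢 = {f ≠ 0 | p ∣ ord_Q f ∀ Q}` over `L₀`. -/
theorem s33t_isKum_of_isKumGen (L₀ : IntermediateField ℚ Kb) (x : JZero N) (h : s34m_F ↥L₀ N)
    (hx : s33t_IsKumGen N p x (s18q_incl N L₀ h)) :
    h ≠ 0 ∧ ∀ Q : Place ↥L₀ (s34m_F ↥L₀ N), (p : ℤ) ∣ Q.ord h := by
  obtain ⟨hg, D, -, hD⟩ := hx
  refine ⟨fun h0 => hg (by rw [h0, map_zero]), fun Q => ?_⟩
  apply s18q_dvd_ord_descend N L₀ (p : ℤ) h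
  intro P
  rw [← hD P]
  exact dvd_mul_right _ _

/-- `ℚ̄/ℚ` is normal (for the `ℚ`-algebra structure found by instance resolution). -/
theorem s33t_normal_QBar : Normal ℚ Kb := by
  have h0 : (DivisionRing.toRatAlgebra : Algebra ℚ Kb) = AlgebraicClosure.instAlgebra ℚ :=
    Subsingleton.elim _ _
  have h1 : Algebra.IsAlgebraic ℚ Kb := by
    have h := AlgebraicClosure.isAlgebraic ℚ
    rw [← h0] at h
    exact h
  have h2 : IsAlgClosure ℚ Kb := ⟨inferInstance, inferInstance⟩
  exact IsAlgClosure.normal ℚ Kb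

/-- every finite subextension of `ℚ̄ / ℚ` lies in a finite NORMAL one. -/
theorem s33t_exists_normal_ge (K : IntermediateField ℚ Kb) [FiniteDimensional ℚ ↥K] :
    ∃ L₀ : IntermediateField ℚ Kb, K ≤ L₀ ∧ FiniteDimensional ℚ ↥L₀ ∧ Normal ℚ ↥L₀ := by
  haveI : Normal ℚ Kb := s33t_normal_QBar
  exact ⟨IntermediateField.normalClosure ℚ ↥K Kb, K.le_normalClosure,
    normalClosure.is_finiteDimensional ℚ ↥K Kb, normalClosure.normal ℚ ↥K Kb⟩

/-- finitely many (here: two) finite subextensions lie in a common finite normal one. -/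
theorem s33t_exists_normal_ge₂ (K K' : IntermediateField ℚ Kb) [FiniteDimensional ℚ ↥K]
    [FiniteDimensional ℚ ↥K'] :
    ∃ L₀ : IntermediateField ℚ Kb, K ≤ L₀ ∧ K' ≤ L₀ ∧ FiniteDimensional ℚ ↥L₀ ∧ Normal ℚ ↥L₀ := by
  obtain ⟨L₀, h1, h2, h3⟩ := s33t_exists_normal_ge (K ⊔ K')
  exact ⟨L₀, le_sup_left.trans h1, le_sup_right.trans h1, h2, h3⟩

end Misc

end

end Fermat.Agent.Lib.S33
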