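/-
S33 programme (P-AT-P), Stage 2 (helper3): ASSEMBLY OF (M°), core step over ONE number field.

`s33t_M_core`: `L₀ ≤ ℚ̄` finite normal with Gauss datum `G` (residue characteristic `p`), `Z` a Σ-datum over the
level-`M` datum `s33i_datum G M …` whose two components are helper4's concrete `s33y_Ci`, `s33y_Cz`
(`V_∞`, `V_0` of `X₀(M p)`), `[SEP-ss]` for `Z`; `σ ∈ G_ℚ` whose restriction to `L₀` is of inertia type for `G`,
preserves node-avoidance and acts on `ζ_p` by `ζ ↦ ζ ^ n`; `x ∈ J₀(M p)` with a Kummer generator `ι h`,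
`h ∈ 𝓕_{L₀}(M p)` node-avoiding, `h ≡ 1 mod ϖ (V_∞ ⊓ V_0)`, such that `ν_α h`, `ν_β h` (Kummer generators of
`α_* x`, `β_* x`) are critical-or-zero at level `M`.  Then `σ • x = n • x`.

= helper4's `s33z_muSs` (with `s33y_trace`, `s33y_galAut`) + the dictionary `s33t_galois_eq_nsmul`.
-/
import Fermat.Agent.Lib.S33.TPDict
import Fermat.Agent.Lib.S33.SsTrace
import Fermat.Agent.Lib.S33.SsGal

set_option autoImplicit false
set_option linter.style.haveILetI false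
set_option linter.unusedSectionVars false
set_option synthInstance.maxHeartbeats 400000

namespace Fermat.Agent.Lib.S33

open ModularCurve HahnSeries AlgebraicCurve Fermat.Agent.Lib.S18 Fermat.Agent.Lib.S28
  Fermat.Agent.Lib.S29 Fermat.Agent.Lib.S37 Fermat.Agent.Lib.FF Fermat.Agent.Lib.S34
  Fermat.Agent.Lib.S35

noncomputable section

local notation "Kb" => AlgebraicClosure ℚ

section Core

variable (L₀ : IntermediateField ℚ Kb) [Normal ℚ ↥L₀] {κ : Type} [Field κ]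
  (G : s18g_GaussData ↥L₀ κ)
variable (M p : ℕ) [NeZero M] [hp : Fact p.Prime] (hpM : ¬ p ∣ M)
variable [CharP κ p] [PerfectRing κ p]
variable (hdeg : s34m_HDeg ↥L₀ M p) (hT : s18g_HT κ M) (hdegM : s18g_HDeg ↥L₀ M)
variable (hπ : Function.Surjective G.π)
variable (e : ℕ) (ε : ↥L₀) (he : 0 < e) (hε : ε ∈ G.A) (hεinv : ε⁻¹ ∈ G.A) (hε0 : ε ≠ 0)
variable (hpe : (p : ↥L₀) = ε * ((G.ϖ : G.A) : ↥L₀) ^ e) (hperf : ∀ c : κ, ∃ d : κ, d ^ p = c)
variable (ζ₀ : (↥L₀)ˣ) (hζ₀ : IsPrimitiveRoot (ζ₀ : ↥L₀) p)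

local notation "D'M" => s33i_datum G M hT hdegM hπ p e ε hp.out he hε hεinv hε0 hpe hperf

variable {ι : Type*} {k : ι → Type*} [∀ s, Field (k s)] [∀ s, Algebra κ (k s)]

/-- **(M°), core step.** -/
theorem s33t_M_core (Z : s33z_Datum D'M (s34m_F ↥L₀ (M * p)) ι k)
    (hCi : Z.Ci = s33y_Ci G (algebraMap ↥L₀ Kb) M p hpM hdeg hT hdegM hπ e ε he hε hεinv hε0 hpe
      hperf)
    (hCz : Z.Cz = s33y_Cz G (algebraMap ↥L₀ Kb) M p hpM hdeg hT hdegM hπ e ε he hε hεinv hε0 hpe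
      hperf)
    (hSC : s33z_SuperCritical Z) (σ : s29k_G)
    (hσ : s33i_InertiaAut G (σ.restrictNormal ↥L₀))
    (hN : ∀ f : s34m_F ↥L₀ (M * p), s33z_NF Z f →
      s33z_NF Z (arithmeticRingAut (modularFunctionFieldFull (M * p)) (σ.restrictNormal ↥L₀) f))
    (n : ℕ) (hσζ : (σ.restrictNormal ↥L₀) (ζ₀ : ↥L₀) = (ζ₀ : ↥L₀) ^ n)
    (x : JZero (M * p)) (h : s34m_F ↥L₀ (M * p))
    (hx : s33t_IsKumGen (M * p) p x (s18q_incl (M * p) L₀ h))
    (hc : s33z_Cong Z 1 h) (hnf : s33z_NF Z h)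
    (hα : ∀ ac, s33f_Crit D'M ac →
      s33f_DepthGE D'M ac (s33t_nuAlpha (algebraMap ↥L₀ Kb) M p hpM ζ₀ hζ₀ h))
    (hβ : ∀ ac, s33f_Crit D'M ac →
      s33f_DepthGE D'M ac (s33t_nuBeta (algebraMap ↥L₀ Kb) M p hpM ζ₀ hζ₀ h)) :
    σ • x = n • x := by
  have hTr := s33y_trace G (algebraMap ↥L₀ Kb) M p hpM hdeg hT hdegM hπ e ε he hε hεinv hε0 hpe
    hperf ζ₀ hζ₀ Z hCi hCz
  set GA : s33z_GalAut Z := s33y_galAut G (algebraMap ↥L₀ Kb) M p hpM hσ hdeg hT hdegM hπ e ε he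
    hε hεinv hε0 hpe hperf Z hCi hCz hN with hGA
  have hkum : s33z_IsKum Z h :=
    ⟨s33t_isKum_of_isKumGen (M * p) p L₀ x h hx, hnf⟩
  have hmu := s33z_muSs
    (s33y_Nm G (algebraMap ↥L₀ Kb) M p hpM hT hdegM hπ e ε he hε hεinv hε0 hpe hperf ζ₀ hζ₀)
    hTr hSC GA (ζ := (ζ₀ : ↥L₀)) hζ₀ n hσζ hkum (s33z_depthGE_of_cong hc) hα hβ
  obtain ⟨c, y, hc0, hy0, e1⟩ := hmu
  exact s33t_galois_eq_nsmul (M * p) p L₀ σ n x h hx ⟨c, y, hc0, hy0, e1⟩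

end Core

end

end Fermat.Agent.Lib.S33
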