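/-
S33 programme (P-AT-P), Stage 2 (helper3): SET-UP LEMMAS for the assembly of (M°) over a finite normal
`L₀ ≤ ℚ̄` with `A₀ = P ∩ L₀` a DVR, `ϖ` a uniformiser, `G = s37r_G P L₀ ϖ hϖ`.

* `s33t_inertiaAut_restrict` : `σ ∈ I_P` ⇒ `σ|_{L₀}` is of inertia type for `G` (`s33i_InertiaAut`).
* `s33t_exists_e` : `p = ε ϖ ^ e` with `e ≥ 1`, `ε` a unit of `A₀` (`P ∣ p`).
* `s33t_restrict_zeta` : `σ ζ = ζ ^ a` on `μ_p(ℚ̄)` ⇒ `σ|_{L₀} ζ₀ = ζ₀ ^ a` for `ζ₀ ∈ L₀`.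
* `s33t_exists_zeta` : a primitive `p`-th root of unity in `L₀` as soon as `L₀ ∋ ζ`.
-/
import Fermat.Agent.Lib.S33.TPDict
import Fermat.Agent.Lib.S33.FOMuInst
import Fermat.Agent.Lib.S33.TopIface
import Fermat.Agent.Lib.Frey.OrdInertia

set_option autoImplicit false
set_option linter.style.haveILetI false
set_option linter.unusedSectionVars false
set_option synthInstance.maxHeartbeats 400000

namespace Fermat.Agent.Lib.S33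

open ModularCurve HahnSeries AlgebraicCurve Fermat.Agent.Lib.S18 Fermat.Agent.Lib.S28
  Fermat.Agent.Lib.S29 Fermat.Agent.Lib.S37 Fermat.Agent.Lib.FF Fermat.Agent.Lib.S34
  Fermat.Agent.Lib.S35

noncomputable section

local notation "Kb" => AlgebraicClosure ℚ

section Setup

variable (P : ValuationSubring Kb) (L₀ : IntermediateField ℚ Kb)

/-- `σ ∈ I_P` ⇒ `σ|_{L₀}` is of inertia type for the Gauss datum of `P ∩ L₀`. -/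
theorem s33t_inertiaAut_restrict [Normal ℚ ↥L₀] [IsDiscreteValuationRing ↥(s18q_A0 P L₀)]
    (ϖ : ↥(s18q_A0 P L₀)) (hϖ : Irreducible ϖ) (σ : s29k_G)
    (hσ : σ ∈ P.inertiaSubgroupIn ℚ) :
    s33i_InertiaAut (s37r_G P L₀ ϖ hϖ) (σ.restrictNormal ↥L₀) := by
  obtain ⟨hD, hI⟩ := Fermat.Agent.Lib.Frey.ford_inertia_spec P σ hσ
  have hmemP := Fermat.Agent.Lib.Frey.ford_decomposition_mem P σ hD
  have hcomm : ∀ a : ↥L₀, ((σ.restrictNormal ↥L₀ a : ↥L₀) : Kb) = σ (a : Kb) :=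
    fun a => AlgEquiv.restrictNormal_commutes σ ↥L₀ a
  have hmem : ∀ a : ↥L₀, a ∈ (s37r_G P L₀ ϖ hϖ).A → σ.restrictNormal ↥L₀ a ∈ (s37r_G P L₀ ϖ hϖ).A := by
    intro a ha
    show ((σ.restrictNormal ↥L₀ a : ↥L₀) : Kb) ∈ P
    rw [hcomm]
    exact hmemP _ ha
  refine ⟨hmem, fun a ha => ?_⟩
  show IsLocalRing.residue ↥(s18q_A0 P L₀) ⟨σ.restrictNormal ↥L₀ a, hmem a ha⟩ =
    IsLocalRing.residue ↥(s18q_A0 P L₀) ⟨a, ha⟩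
  rw [← sub_eq_zero, ← map_sub, IsLocalRing.residue_eq_zero_iff,
    ← s18q_A0_hom_mem_maximalIdeal]
  have h2 := hI (a : Kb) ha
  have h3 : ((s18q_A0_hom P L₀ (⟨σ.restrictNormal ↥L₀ a, hmem a ha⟩ - ⟨a, ha⟩) : P) : Kb) =
      σ (a : Kb) - (a : Kb) := by
    rw [s18q_A0_hom_coe]
    show ((σ.restrictNormal ↥L₀ a - a : ↥L₀) : Kb) = _
    rw [← hcomm]
    rfl
  have h4 := (ValuationSubring.coe_mem_nonunits_iff (A := P)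
    (a := s18q_A0_hom P L₀ (⟨σ.restrictNormal ↥L₀ a, hmem a ha⟩ - ⟨a, ha⟩))).mp (by rw [h3]; exact h2)
  exact h4

/-- `p = ε ϖ ^ e` with `e ≥ 1` and `ε` a unit of `A₀`. -/
theorem s33t_exists_e {p : ℕ} (hp : p.Prime) (hP : P.LiesOverPrime p)
    [IsDiscreteValuationRing ↥(s18q_A0 P L₀)] (ϖ : ↥(s18q_A0 P L₀)) (hϖ : Irreducible ϖ) :
    ∃ (e : ℕ) (ε : ↥L₀), 0 < e ∧ ε ∈ s18q_A0 P L₀ ∧ ε⁻¹ ∈ s18q_A0 P L₀ ∧ ε ≠ 0 ∧
      (p : ↥L₀) = ε * ((ϖ : ↥(s18q_A0 P L₀)) : ↥L₀) ^ e := by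
  have hp0 : ((p : ℕ) : ↥(s18q_A0 P L₀)) ≠ 0 := by
    intro h
    have := congrArg (fun z : ↥(s18q_A0 P L₀) => ((z : ↥L₀) : Kb)) h
    simp only [SubringClass.coe_natCast, ZeroMemClass.coe_zero] at this
    exact absurd this (by exact_mod_cast hp.ne_zero)
  obtain ⟨e, u, hu⟩ := IsDiscreteValuationRing.eq_unit_mul_pow_irreducible hp0 hϖ
  have hcoe : (p : ↥L₀) = ((u : ↥(s18q_A0 P L₀)) : ↥L₀) * ((ϖ : ↥(s18q_A0 P L₀)) : ↥L₀) ^ e := by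
    have := congrArg (fun z : ↥(s18q_A0 P L₀) => (z : ↥L₀)) hu
    simpa using this
  have hu0 : ((u : ↥(s18q_A0 P L₀)) : ↥L₀) ≠ 0 := by
    intro h
    exact u.ne_zero (Subtype.ext h)
  have huinv : (((u : ↥(s18q_A0 P L₀)) : ↥L₀))⁻¹ ∈ s18q_A0 P L₀ := by
    have h1 : ((u : ↥(s18q_A0 P L₀)) : ↥L₀) * (((u⁻¹ : (↥(s18q_A0 P L₀))ˣ) : ↥(s18q_A0 P L₀)) : ↥L₀) = 1 := by
      have := congrArg (fun z : ↥(s18q_A0 P L₀) => (z : ↥L₀)) (Units.mul_inv u)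
      exact this
    have h2 : (((u : ↥(s18q_A0 P L₀)) : ↥L₀))⁻¹ =
        (((u⁻¹ : (↥(s18q_A0 P L₀))ˣ) : ↥(s18q_A0 P L₀)) : ↥L₀) :=
      inv_eq_of_mul_eq_one_right h1
    rw [h2]
    exact SetLike.coe_mem _
  refine ⟨e, ((u : ↥(s18q_A0 P L₀)) : ↥L₀), ?_, SetLike.coe_mem _, huinv, hu0, hcoe⟩
  -- `e ≥ 1`
  by_contra he
  have he0 : e = 0 := by omega
  rw [he0, pow_zero, mul_one] at hcoe
  -- then `p` is a unit of `P`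
  have hpP : (p : Kb) ∈ P.nonunits := hP
  rw [ValuationSubring.mem_nonunits_iff] at hpP
  have h1 : P.valuation (p : Kb) = 1 := by
    have e1 : (p : Kb) = (((u : ↥(s18q_A0 P L₀)) : ↥L₀) : Kb) := by
      rw [← hcoe]; simp
    have hmem : (((u : ↥(s18q_A0 P L₀)) : ↥L₀) : Kb) ∈ P := (u : ↥(s18q_A0 P L₀)).2
    have hmem' : ((((u : ↥(s18q_A0 P L₀)) : ↥L₀))⁻¹ : ↥L₀) ∈ s18q_A0 P L₀ := huinv
    have hmem'' : ((((u : ↥(s18q_A0 P L₀)) : ↥L₀) : Kb))⁻¹ ∈ P := by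
      have : (((((u : ↥(s18q_A0 P L₀)) : ↥L₀))⁻¹ : ↥L₀) : Kb) ∈ P := hmem'
      rwa [IntermediateField.coe_inv] at this
    rw [e1]
    have h3 := (P.valuation_le_one_iff _).mpr hmem
    have h4 := (P.valuation_le_one_iff _).mpr hmem''
    rw [map_inv₀] at h4
    have hne : P.valuation ((((u : ↥(s18q_A0 P L₀)) : ↥L₀) : Kb)) ≠ 0 := by
      rw [Ne, map_eq_zero]
      intro h
      exact hu0 (Subtype.ext h)
    have h5 : 1 ≤ P.valuation ((((u : ↥(s18q_A0 P L₀)) : ↥L₀) : Kb)) := by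
      rwa [inv_le_one₀ (zero_lt_iff.mpr hne)] at h4
    exact le_antisymm h3 h5
  exact absurd h1 (ne_of_lt hpP)

/-- `σ` acting on `μ_p(ℚ̄)` by `ζ ↦ ζ ^ a` does so on `μ_p(L₀)`. -/
theorem s33t_restrict_zeta [Normal ℚ ↥L₀] {p : ℕ} (σ : s29k_G) (a : ℕ)
    (ha : s33_ActsOnMuBy p σ a) (ζ₀ : ↥L₀) (hζ₀ : ζ₀ ^ p = 1) :
    σ.restrictNormal ↥L₀ ζ₀ = ζ₀ ^ a := by
  apply Subtype.ext
  have h1 : ((σ.restrictNormal ↥L₀ ζ₀ : ↥L₀) : Kb) = σ (ζ₀ : Kb) :=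
    AlgEquiv.restrictNormal_commutes σ ↥L₀ ζ₀
  rw [h1, ha (ζ₀ : Kb) (by rw [← IntermediateField.coe_pow, hζ₀]; rfl)]
  rfl

/-- a primitive `p`-th root of unity of `ℚ̄` lying in `L₀`, as a unit of `L₀`. -/
theorem s33t_exists_zeta {p : ℕ} (hp : p.Prime) (ζ : Kb) (hζ : IsPrimitiveRoot ζ p) (hζL : ζ ∈ L₀) :
    ∃ ζ₀ : (↥L₀)ˣ, IsPrimitiveRoot (ζ₀ : ↥L₀) p ∧ ((ζ₀ : ↥L₀) : Kb) = ζ := by
  have hne : (⟨ζ, hζL⟩ : ↥L₀) ≠ 0 := by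
    intro h0
    exact hζ.ne_zero hp.ne_zero (congrArg Subtype.val h0)
  refine ⟨Units.mk0 ⟨ζ, hζL⟩ hne, ?_, rfl⟩
  exact IsPrimitiveRoot.of_map_of_injective (f := algebraMap ↥L₀ Kb) (by exact hζ)
    (algebraMap ↥L₀ Kb).injective

end Setup

end

end Fermat.Agent.Lib.S33
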