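/-
S33 programme (P-AT-P), Stage 2 (helper3): **ASSEMBLY OF (M°) AND OF `s33_UMJ`** from the two remaining
contracts.

* `s33t_UnipJ M p hpM P N` — **[UNIP-J]** (helper7 [UNIP-K] + helper1 dévissage): every `x ∈ s33_J1 (M p) p P`
  with `p • x = 0` has, over every sufficiently large finite normal `L₀ ≤ ℚ̄` (every uniformiser `ϖ` of
  `P ∩ L₀`), a Kummer generator `ι h`, `h ∈ 𝓕_{L₀}(M p)`, with `h ≡ 1 mod ϖ (V_∞ ⊓ V_0)` and without zero or pole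
  at the places `N L₀ ϖ hϖ` (through the nodes of the special fibre).
* `s33t_SSPack M p hpM P N` — **[SS-pack]** (helper8 SSDatum + helper9 [SEP-ss] bridge + helper4 `hN`): over every
  sufficiently large finite normal `L₀` the Σ-datum `Z` over `s33i_datum (s37r_G P L₀ ϖ hϖ) M …` with the concrete
  components `s33y_Ci`, `s33y_Cz`, node places `Z.N = N L₀ ϖ hϖ`, `s33z_SuperCritical Z`, and stability of
  node-avoidance under automorphisms of inertia type.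
* **`s33t_propM_of`** : the two contracts ⇒ `s33_PropM M p hM.1 P (s33_J1 (M p) p P)` ((M°) for the model-free
  `J1`), for `p` odd and `(p, M)` S18-good.
* **`s33t_UMJ_of`** : the two contracts at all good levels ⇒ `s33_UMJ`.

The family `N` of node places is a PARAMETER (`p ≥ 5`: `s33t_nodeN`, chart 1 of `j`; `p = 3`, `2 ∣ M`: the
`t₂`-chart).
-/
import Fermat.Agent.Lib.S33.TPAssembly
import Fermat.Agent.Lib.S33.TPSetup
import Fermat.Agent.Lib.S33.UMJIface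
import Fermat.Agent.Lib.S33.DescBig
import Fermat.Agent.Lib.S33.SSPlace
import Fermat.Agent.Lib.S34.RDegH

set_option autoImplicit false
set_option linter.style.haveILetI false
set_option linter.unusedSectionVars false
set_option synthInstance.maxHeartbeats 400000

namespace Fermat.Agent.Lib.S33

open ModularCurve HahnSeries AlgebraicCurve Fermat.Agent.Lib.S18 Fermat.Agent.Lib.S28
  Fermat.Agent.Lib.S29 Fermat.Agent.Lib.S37 Fermat.Agent.Lib.FF Fermat.Agent.Lib.S34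
  Fermat.Agent.Lib.S35

noncomputable section

local notation "Kb" => AlgebraicClosure ℚ

section Contracts

variable (M p : ℕ) [NeZero M] [hp : Fact p.Prime] (hpM : ¬ p ∣ M) (P : ValuationSubring Kb)

/-- the type of a family of "node places", one set of places of `𝓕_{L₀}(M p)` for every finite level
`(L₀, ϖ)`. -/
abbrev s33t_NodeFam : Type :=
  ∀ (L₀ : IntermediateField ℚ Kb) [IsDiscreteValuationRing ↥(s18q_A0 P L₀)]
    (ϖ : ↥(s18q_A0 P L₀)) (_ : Irreducible ϖ), Set (Place ↥L₀ (s34m_F ↥L₀ (M * p)))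

/-- **the node places for `p ≥ 5`**: the places of chart 1 of `j` through a node (helper8's
`s33s_nodePlaces`). -/
def s33t_nodeN : s33t_NodeFam M p P := fun L₀ _ ϖ hϖ =>
  s33s_nodePlaces (s34m_VV (s37r_G P L₀ ϖ hϖ) (algebraMap ↥L₀ Kb) M p hp.out hpM)
    (s34m_unif (s37r_G P L₀ ϖ hϖ) (M * p)) (s18_chart1 (L₀ := ↥L₀) (s18g_jF (K := ↥L₀) (M * p)))

/-- **[UNIP-J]** (contract). -/
def s33t_UnipJ (N : s33t_NodeFam M p P) : Prop :=
  ∀ x ∈ s33_J1 (M * p) p P, p • x = 0 →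
    ∃ Lx : IntermediateField ℚ Kb, FiniteDimensional ℚ ↥Lx ∧
      ∀ (L₀ : IntermediateField ℚ Kb) [FiniteDimensional ℚ ↥L₀] [Normal ℚ ↥L₀]
        [IsDiscreteValuationRing ↥(s18q_A0 P L₀)] (ϖ : ↥(s18q_A0 P L₀)) (hϖ : Irreducible ϖ),
        Lx ≤ L₀ →
        ∃ h : s34m_F ↥L₀ (M * p),
          s33d_IsKumGen p x (s18q_incl (M * p) L₀ h) ∧
          (∃ y : s34m_F ↥L₀ (M * p), y ∈ s34m_Vinf (s37r_G P L₀ ϖ hϖ) (M * p) ∧
            y ∈ s34m_Vzero (s37r_G P L₀ ϖ hϖ) (algebraMap ↥L₀ Kb) M p hp.out hpM ∧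
            h - 1 = s34m_unif (s37r_G P L₀ ϖ hϖ) (M * p) * y) ∧
          ∀ Q ∈ N L₀ ϖ hϖ, Q.ord h = 0

/-- **[SS-pack]** (contract). -/
def s33t_SSPack (N : s33t_NodeFam M p P) : Prop :=
  ∃ Lss : IntermediateField ℚ Kb, FiniteDimensional ℚ ↥Lss ∧
    ∀ (L₀ : IntermediateField ℚ Kb) [FiniteDimensional ℚ ↥L₀] [Normal ℚ ↥L₀]
      [IsDiscreteValuationRing ↥(s18q_A0 P L₀)] (ϖ : ↥(s18q_A0 P L₀)) (hϖ : Irreducible ϖ)
      [CharP (IsLocalRing.ResidueField ↥(s18q_A0 P L₀)) p]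
      [PerfectRing (IsLocalRing.ResidueField ↥(s18q_A0 P L₀)) p]
      (hdeg : s34m_HDeg ↥L₀ M p) (hT : s18g_HT (IsLocalRing.ResidueField ↥(s18q_A0 P L₀)) M)
      (hdegM : s18g_HDeg ↥L₀ M) (hπ : Function.Surjective (s37r_G P L₀ ϖ hϖ).π)
      (e : ℕ) (ε : ↥L₀) (he : 0 < e) (hε : ε ∈ (s37r_G P L₀ ϖ hϖ).A)
      (hεinv : ε⁻¹ ∈ (s37r_G P L₀ ϖ hϖ).A) (hε0 : ε ≠ 0)
      (hpe : (p : ↥L₀) = ε * (((s37r_G P L₀ ϖ hϖ).ϖ : (s37r_G P L₀ ϖ hϖ).A) : ↥L₀) ^ e)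
      (hperf : ∀ c : IsLocalRing.ResidueField ↥(s18q_A0 P L₀), ∃ d, d ^ p = c),
      Lss ≤ L₀ →
      ∃ (ι : Type) (k : ι → Type) (_ : ∀ s, Field (k s))
        (_ : ∀ s, Algebra (IsLocalRing.ResidueField ↥(s18q_A0 P L₀)) (k s))
        (Z : s33z_Datum (s33i_datum (s37r_G P L₀ ϖ hϖ) M hT hdegM hπ p e ε hp.out he hε hεinv hε0
          hpe hperf) (s34m_F ↥L₀ (M * p)) ι k),
        Z.Ci = s33y_Ci (s37r_G P L₀ ϖ hϖ) (algebraMap ↥L₀ Kb) M p hpM hdeg hT hdegM hπ e ε he hε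
          hεinv hε0 hpe hperf ∧
        Z.Cz = s33y_Cz (s37r_G P L₀ ϖ hϖ) (algebraMap ↥L₀ Kb) M p hpM hdeg hT hdegM hπ e ε he hε
          hεinv hε0 hpe hperf ∧
        Z.N = N L₀ ϖ hϖ ∧ s33z_SuperCritical Z ∧
        ∀ s₀ : ↥L₀ ≃ₐ[ℚ] ↥L₀, s33i_InertiaAut (s37r_G P L₀ ϖ hϖ) s₀ →
          ∀ f : s34m_F ↥L₀ (M * p), s33z_NF Z f →
            s33z_NF Z (arithmeticRingAut (modularFunctionFieldFull (M * p)) s₀ f)

end Contracts

section Assembly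

variable (M p : ℕ) [NeZero M] [hp : Fact p.Prime]

/-- **(M°) for the model-free `J1`, from the two contracts.** -/
theorem s33t_propM_of (hp2 : p ≠ 2) (hM : s18_GoodLevel p M) (P : ValuationSubring Kb)
    (hP : P.LiesOverPrime p) (N : s33t_NodeFam M p P)
    (hU : s33t_UnipJ M p hM.1 P N) (hS : s33t_SSPack M p hM.1 P N) :
    s33_PropM M p hM.1 P (s33_J1 (M * p) p P) := by
  intro σ hσ a ha x hxJ hpx hαo hβo
  have hpM : ¬ p ∣ M := hM.1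
  haveI : NeZero p := ⟨hp.out.ne_zero⟩
  -- the push-forwards are in the kernel of reduction
  have hxcl := s33_J1_le (M * p) p P hxJ
  have hαK : s35c_alphaPush M p hp.out hpM x ∈ s33_ordKer M p hp.out 1 P :=
    ⟨hαo, s33t_red_alphaPush_closure M p hM P hP x hxcl⟩
  have hβK : s35c_betaPush M p hp.out hpM x ∈ s33_ordKer M p hp.out 1 P :=
    ⟨hβo, s33t_red_betaPush_closure M p hM P hP x hxcl⟩
  -- the field
  obtain ⟨Lx, hLxfd, hLx⟩ := hU x hxJ hpx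
  obtain ⟨Lss, hLssfd, hLss⟩ := hS
  obtain ⟨Lbig, hLbigfd, hLbig⟩ := s33d_exists_bigField M p
  obtain ⟨ζ, hζ⟩ := HasEnoughRootsOfUnity.exists_primitiveRoot Kb p
  haveI := hLxfd
  haveI := hLssfd
  haveI := hLbigfd
  haveI : FiniteDimensional ℚ ↥(IntermediateField.adjoin ℚ {ζ}) :=
    IntermediateField.adjoin.finiteDimensional ((hζ.isIntegral hp.out.pos).tower_top (A := ℚ))
  haveI : FiniteDimensional ℚ ↥(Lx ⊔ Lss) := IntermediateField.finiteDimensional_sup _ _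
  haveI : FiniteDimensional ℚ ↥(Lx ⊔ Lss ⊔ Lbig) := IntermediateField.finiteDimensional_sup _ _
  haveI : FiniteDimensional ℚ ↥(Lx ⊔ Lss ⊔ Lbig ⊔ IntermediateField.adjoin ℚ {ζ}) :=
    IntermediateField.finiteDimensional_sup _ _
  obtain ⟨L₀, hle, hfd, hnorm⟩ :=
    s33t_exists_normal_ge (Lx ⊔ Lss ⊔ Lbig ⊔ IntermediateField.adjoin ℚ {ζ})
  haveI := hfd
  haveI := hnorm
  have hLxle : Lx ≤ L₀ := (le_sup_left.trans (le_sup_left.trans le_sup_left)).trans hle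
  have hLssle : Lss ≤ L₀ := (le_sup_right.trans (le_sup_left.trans le_sup_left)).trans hle
  have hLbigle : Lbig ≤ L₀ := (le_sup_right.trans le_sup_left).trans hle
  have hζL : ζ ∈ L₀ :=
    hle (le_sup_right (a := Lx ⊔ Lss ⊔ Lbig)
      (IntermediateField.subset_adjoin ℚ {ζ} (Set.mem_singleton ζ)))
  have hbig : s33d_BigField M p L₀ := s33d_bigField_mono M p hLbigle hLbig
  -- the datum over `L₀`
  haveI : NumberField ↥L₀ := ⟨⟩
  haveI hdvr : IsDiscreteValuationRing ↥(s18q_A0 P L₀) := s18q_A0_dvr P L₀ hP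
  obtain ⟨ϖ, hϖ⟩ := IsDiscreteValuationRing.exists_irreducible ↥(s18q_A0 P L₀)
  haveI hchar₀ : CharP (IsLocalRing.ResidueField ↥(s18q_A0 P L₀)) p := s37rl_charP P hP L₀
  haveI hperf₀ : PerfectField (IsLocalRing.ResidueField ↥(s18q_A0 P L₀)) :=
    s37rl_perfectField P hP L₀
  haveI : PerfectRing (IsLocalRing.ResidueField ↥(s18q_A0 P L₀)) p := PerfectField.toPerfectRing p
  have hT : s18g_HT (IsLocalRing.ResidueField ↥(s18q_A0 P L₀)) M := s18t_indep_j p M hpM _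
  have hdegM : s18g_HDeg ↥L₀ M := fun n b hb hn =>
    s18g_exists_relation M (algebraMap ↥L₀ Kb) hn b hb
  have hdeg : s34m_HDeg ↥L₀ M p := s34r_deg_HDeg (algebraMap ↥L₀ Kb) M p hp.out hpM
  have hπ : Function.Surjective (s37r_G P L₀ ϖ hϖ).π := IsLocalRing.residue_surjective
  obtain ⟨e, ε, he, hε, hεinv, hε0, hpe⟩ := s33t_exists_e P L₀ hp.out hP ϖ hϖ
  have hperf : ∀ c : IsLocalRing.ResidueField ↥(s18q_A0 P L₀), ∃ d, d ^ p = c :=
    fun c => surjective_frobenius _ p c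
  obtain ⟨ζ₀, hζ₀, -⟩ := s33t_exists_zeta L₀ hp.out ζ hζ hζL
  -- [UNIP-J]
  obtain ⟨h, hgen, ⟨y, hyi, hyz, ey⟩, hnf⟩ := hLx L₀ ϖ hϖ hLxle
  -- [SS-pack]
  obtain ⟨ι, k, i1, i2, Z, hCi, hCz, hZN, hSC, hNs⟩ :=
    hLss L₀ ϖ hϖ hdeg hT hdegM hπ e ε he hε hεinv hε0 hpe hperf hLssle
  have hgen' : s33t_IsKumGen (M * p) p x (s18q_incl (M * p) L₀ h) :=
    (s33t_isKumGen_iff_desc (M * p) p x _).mpr hgen
  have hh0 : h ≠ 0 := (s33t_isKum_of_isKumGen (M * p) p L₀ x h hgen').1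
  -- the hypotheses of the core
  have hσI := s33t_inertiaAut_restrict P L₀ ϖ hϖ σ hσ
  have hζa : σ.restrictNormal ↥L₀ (ζ₀ : ↥L₀) = (ζ₀ : ↥L₀) ^ a :=
    s33t_restrict_zeta L₀ σ a ha (ζ₀ : ↥L₀) hζ₀.pow_eq_one
  have hnfZ : s33z_NF Z h := ⟨hh0, fun Q hQ => hnf Q (hZN ▸ hQ)⟩
  have hcong : s33z_Cong Z 1 h := by
    constructor
    · refine ⟨y, ?_, ?_⟩
      · show y ∈ Z.Ci.O
        rw [hCi]; exact hyi
      · rw [pow_one]; exact ey
    · refine ⟨y, ?_, ?_⟩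
      · show y ∈ Z.Cz.O
        rw [hCz]; exact hyz
      · rw [pow_one]; exact ey
  -- the level-`M` inputs
  have hgα : s33d_IsKumGen p (s35c_alphaPush M p hp.out hpM x)
      (s18q_incl M L₀ (s33t_nuAlpha (algebraMap ↥L₀ Kb) M p hpM ζ₀ hζ₀ h)) :=
    (s33t_isKumGen_iff_desc M p _ _).mp
      (s33t_isKumGen_nuAlpha M p hpM (algebraMap ↥L₀ Kb) ζ₀ hζ₀ x h hgen')
  have hgβ : s33d_IsKumGen p (s35c_betaPush M p hp.out hpM x)
      (s18q_incl M L₀ (s33t_nuBeta (algebraMap ↥L₀ Kb) M p hpM ζ₀ hζ₀ h)) :=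
    (s33t_isKumGen_iff_desc M p _ _).mp
      (s33t_isKumGen_nuBeta M p hpM (algebraMap ↥L₀ Kb) ζ₀ hζ₀ x h hgen')
  have hα := s33d_ord_crit P M hP L₀ ϖ hϖ hM hp2 hbig ζ₀ hζ₀ hT hdegM hπ e ε he hε hεinv hε0 hpe
    hperf _ hαK _ hgα
  have hβ := s33d_ord_crit P M hP L₀ ϖ hϖ hM hp2 hbig ζ₀ hζ₀ hT hdegM hπ e ε he hε hεinv hε0 hpe
    hperf _ hβK _ hgβ
  exact s33t_M_core L₀ (s37r_G P L₀ ϖ hϖ) M p hpM hdeg hT hdegM hπ e ε he hε hεinv hε0 hpe hperf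
    ζ₀ hζ₀ Z hCi hCz hSC σ hσI (hNs _ hσI) a hζa x h hgen' hcong hnfZ hα hβ

/-- **`s33_UMJ` from the two contracts at all good levels.** -/
theorem s33t_UMJ_of
    (h : ∀ (M : ℕ) [NeZero M] (p : ℕ) [Fact p.Prime], p ≠ 2 → ∀ hM : s18_GoodLevel p M,
      ∀ P : ValuationSubring Kb, P.LiesOverPrime p →
        ∃ N : s33t_NodeFam M p P, s33t_UnipJ M p hM.1 P N ∧ s33t_SSPack M p hM.1 P N) :
    s33_UMJ :=
  s33_UMJ_of_M fun M _ p _ hp2 hM P hP => by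
    obtain ⟨N, hU, hS⟩ := h M p hp2 hM P hP
    exact s33t_propM_of M p hp2 hM P hP N hU hS

end Assembly

end

end Fermat.Agent.Lib.S33
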