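/-
S33 programme (P-AT-P), Stage 2 (helper3): **DISCHARGE OF THE CONTRACT `s33t_SSPack`** (`TPFinal.lean`) for
`p ≥ 5` from the EXISTENCE of the Σ-datum alone.

* `s33t_SSDatumC M p hpM P N` — **[SS-datum]** (helper8 `SSDatum.lean`): over every sufficiently large finite
  normal `L₀` there is a Σ-datum `Z` over `s33i_datum (s37r_G P L₀ ϖ hϖ) M …` with components `s33y_Ci`, `s33y_Cz`
  and `Z.N = N L₀ ϖ hϖ`.
* `s33t_ssPack_five` : `5 ≤ p`, [SS-datum] for `N = s33t_nodeN` (node places of chart 1 of `j`) ⇒ `s33t_SSPack`: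
  `s33z_SuperCritical Z` is helper9's `s33k_ss_superCritical_Z`, stability of node-avoidance under automorphisms of
  inertia type is helper4's `s33y_hN` (`t = j`, `s34s_galois_jF`).
* `s33t_propM_five`, `s33t_UMJ_five_of` : the final statements for `p ≥ 5` from [UNIP-J] + [SS-datum].
-/
import Fermat.Agent.Lib.S33.TPFinal
import Fermat.Agent.Lib.S33.KumPSsBridge
import Fermat.Agent.Lib.S33.SsNodeGal

set_option autoImplicit false
set_option linter.style.haveILetI false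
set_option linter.unusedSectionVars false
set_option synthInstance.maxHeartbeats 400000

namespace Fermat.Agent.Lib.S33

open ModularCurve HahnSeries AlgebraicCurve Fermat.Agent.Lib.S18 Fermat.Agent.Lib.S28
  Fermat.Agent.Lib.S29 Fermat.Agent.Lib.S37 Fermat.Agent.Lib.FF Fermat.Agent.Lib.S34
  Fermat.Agent.Lib.S35

noncomputable section

local notation "Kb" => AlgebraicClosure ℚ

section Pack

variable (M p : ℕ) [NeZero M] [hp : Fact p.Prime] (hpM : ¬ p ∣ M) (P : ValuationSubring Kb)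

/-- **[SS-datum]** (contract): existence of the Σ-datum with the concrete components and node places `N`. -/
def s33t_SSDatumC (N : s33t_NodeFam M p P) : Prop :=
  ∃ Lss : IntermediateField ℚ Kb, FiniteDimensional ℚ ↥Lss ∧
    ∀ (L₀ : IntermediateField ℚ Kb) [FiniteDimensional ℚ ↥L₀] [Normal ℚ ↥L₀]
      [IsDiscreteValuationRing ↥(s18q_A0 P L₀)] (ϖ : ↥(s18q_A0 P L₀)) (hϖ : Irreducible ϖ)
      [CharP (IsLocalRing.ResidueField ↥(s18q_A0 P L₀)) p]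
      [PerfectRing (IsLocalRing.ResidueField ↥(s18q_A0 P L₀)) p]
      (hdeg : s34m_HDeg ↥L₀ M p) (hT : s18g_HT (IsLocalRing.ResidueField ↥(s18q_A0 P L₀)) M)
      (hdegM : s18g_HDeg ↥L₀ M) (hπ : Function.Surjective (s37r_G P L₀ ϖ hϖ).π)
      (e : ℕ) (ε : ↥L₀) (he : 0 < e) (hε : ε ∈ (s37r_G P L₀ ϖ hϖ).A)
      (hεinv : ε⁻¹ ∈ (s37r_G P L₀ ϖ hϖ).A) (hε0 : ε ≠ 0)
      (hpe : (p : ↥L₀) = ε * (((s37r_G P L₀ ϖ hϖ).ϖ : (s37r_G P L₀ ϖ hϖ).A) : ↥L₀) ^ e)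
      (hperf : ∀ c : IsLocalRing.ResidueField ↥(s18q_A0 P L₀), ∃ d, d ^ p = c),
      Lss ≤ L₀ →
      ∃ (ι : Type) (k : ι → Type) (_ : ∀ s, Field (k s))
        (_ : ∀ s, Algebra (IsLocalRing.ResidueField ↥(s18q_A0 P L₀)) (k s))
        (Z : s33z_Datum (s33i_datum (s37r_G P L₀ ϖ hϖ) M hT hdegM hπ p e ε hp.out he hε hεinv hε0
          hpe hperf) (s34m_F ↥L₀ (M * p)) ι k),
        Z.Ci = s33y_Ci (s37r_G P L₀ ϖ hϖ) (algebraMap ↥L₀ Kb) M p hpM hdeg hT hdegM hπ e ε he hε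
          hεinv hε0 hpe hperf ∧
        Z.Cz = s33y_Cz (s37r_G P L₀ ϖ hϖ) (algebraMap ↥L₀ Kb) M p hpM hdeg hT hdegM hπ e ε he hε
          hεinv hε0 hpe hperf ∧
        Z.N = N L₀ ϖ hϖ

/-- **[SS-pack] for `p ≥ 5`** from [SS-datum]. -/
theorem s33t_ssPack_five (h5 : 5 ≤ p)
    (hD : s33t_SSDatumC M p hpM P (s33t_nodeN M p hpM P)) :
    s33t_SSPack M p hpM P (s33t_nodeN M p hpM P) := by
  obtain ⟨Lss, hfd, hD⟩ := hD
  refine ⟨Lss, hfd, ?_⟩
  intro L₀ _ _ _ ϖ hϖ _ _ hdeg hT hdegM hπ e ε he hε hεinv hε0 hpe hperf hle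
  obtain ⟨ι, k, i1, i2, Z, hCi, hCz, hZN⟩ :=
    hD L₀ ϖ hϖ hdeg hT hdegM hπ e ε he hε hεinv hε0 hpe hperf hle
  refine ⟨ι, k, i1, i2, Z, hCi, hCz, hZN, ?_, ?_⟩
  · haveI : NumberField ↥L₀ := ⟨⟩
    haveI : PerfectField (IsLocalRing.ResidueField ↥(s18q_A0 P L₀)) :=
      PerfectRing.toPerfectField _ p
    haveI : IsDiscreteValuationRing ↥(s37r_G P L₀ ϖ hϖ).A :=
      (inferInstance : IsDiscreteValuationRing ↥(s18q_A0 P L₀))
    have hOi : Z.Ci.O = s34m_Vinf (s37r_G P L₀ ϖ hϖ) (M * p) := by rw [hCi]; rfl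
    have hOz : Z.Cz.O = s34m_Vzero (s37r_G P L₀ ϖ hϖ) (algebraMap ↥L₀ Kb) M p hp.out hpM := by
      rw [hCz]; rfl
    exact s33k_ss_superCritical_Z M p hpM h5 (algebraMap ↥L₀ Kb) (s37r_G P L₀ ϖ hϖ) hT hdegM hπ e ε
      he hε hεinv hε0 hpe hperf Z hOi hOz (by rw [hZN]; exact subset_rfl)
  · intro s₀ hs f hf
    have h := s33y_hN (s37r_G P L₀ ϖ hϖ) (algebraMap ↥L₀ Kb) M p hpM hs
      (s18g_jF (K := ↥L₀) (M * p)) (s34s_galois_jF (M * p) s₀) f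
      ⟨hf.1, fun Q hQ => hf.2 Q (by rw [hZN]; exact hQ)⟩
    exact ⟨h.1, fun Q hQ => h.2 Q (by rw [hZN] at hQ; exact hQ)⟩

end Pack

section Final

variable (M p : ℕ) [NeZero M] [hp : Fact p.Prime]

/-- **(M°) for `p ≥ 5`** from [UNIP-J] + [SS-datum]. -/
theorem s33t_propM_five (h5 : 5 ≤ p) (hM : s18_GoodLevel p M) (P : ValuationSubring Kb)
    (hP : P.LiesOverPrime p)
    (hU : s33t_UnipJ M p hM.1 P (s33t_nodeN M p hM.1 P))
    (hD : s33t_SSDatumC M p hM.1 P (s33t_nodeN M p hM.1 P)) :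
    s33_PropM M p hM.1 P (s33_J1 (M * p) p P) :=
  s33t_propM_of M p (by omega) hM P hP _ hU (s33t_ssPack_five M p hM.1 P h5 hD)

end Final

end

end Fermat.Agent.Lib.S33
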