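/-
S33 programme (P-AT-P), Stage 2 (helper3): **the `p = 3`, `2 ∣ M` twin of `TPPack.lean`** and the final
reduction of `s33_UMJ` to the two existence contracts on both good branches.

* `s33t_nodeN_t2 M p hpM P` : the node places of chart 1 of the level-`M p` function with `q`-expansion `t₂`
  (a closed term: `{Q | ∃ t, (t : K₀((q))) = t₂ ∧ Q ∈ s33s_nodePlaces … (s18_chart1 t)}`; such a `t` is unique).
* `s33t_ssPack_three` : `p = 3`, `2 ∣ M`, [SS-datum] for `N = s33t_nodeN_t2` ⇒ `s33t_SSPack` (helper9's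
  `s33k_ss_superCritical_Z3`, helper4's `t`-generic `s33y_hN`, `s34s_galois_fixed_t2`).
* `s33t_propM_three`; **`s33t_UMJ_of_contracts`** : [UNIP-J] + [SS-datum] on the two good branches ⇒ `s33_UMJ`.
-/
import Fermat.Agent.Lib.S33.TPPack
import Fermat.Agent.Lib.S33.KumPSsBridgeT
import Fermat.Agent.Lib.S34.SChartQ

set_option autoImplicit false
set_option linter.style.haveILetI false
set_option linter.unusedSectionVars false
set_option synthInstance.maxHeartbeats 400000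

namespace Fermat.Agent.Lib.S33

open ModularCurve HahnSeries AlgebraicCurve Fermat.Agent.Lib.S18 Fermat.Agent.Lib.S28
  Fermat.Agent.Lib.S29 Fermat.Agent.Lib.S37 Fermat.Agent.Lib.FF Fermat.Agent.Lib.S34
  Fermat.Agent.Lib.S35

noncomputable section

local notation "Kb" => AlgebraicClosure ℚ

section PackT

variable (M p : ℕ) [NeZero M] [hp : Fact p.Prime] (hpM : ¬ p ∣ M) (P : ValuationSubring Kb)

/-- **the node places for the `t₂`-chart** (`p = 3`, `2 ∣ M`). -/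
def s33t_nodeN_t2 : s33t_NodeFam M p P := fun L₀ _ ϖ hϖ =>
  {Q | ∃ t : s34m_F ↥L₀ (M * p), (t : LaurentSeries ↥L₀) = s18u_t2 ↥L₀ ∧
    Q ∈ s33s_nodePlaces (s34m_VV (s37r_G P L₀ ϖ hϖ) (algebraMap ↥L₀ Kb) M p hp.out hpM)
      (s34m_unif (s37r_G P L₀ ϖ hϖ) (M * p)) (s18_chart1 (L₀ := ↥L₀) t)}

/-- for any `t` with `q`-expansion `t₂` the family is the set of node places of chart 1 of `t`. -/
theorem s33t_nodeN_t2_eq (L₀ : IntermediateField ℚ Kb) [IsDiscreteValuationRing ↥(s18q_A0 P L₀)]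
    (ϖ : ↥(s18q_A0 P L₀)) (hϖ : Irreducible ϖ) (t : s34m_F ↥L₀ (M * p))
    (ht : (t : LaurentSeries ↥L₀) = s18u_t2 ↥L₀) :
    s33t_nodeN_t2 M p hpM P L₀ ϖ hϖ =
      s33s_nodePlaces (s34m_VV (s37r_G P L₀ ϖ hϖ) (algebraMap ↥L₀ Kb) M p hp.out hpM)
        (s34m_unif (s37r_G P L₀ ϖ hϖ) (M * p)) (s18_chart1 (L₀ := ↥L₀) t) := by
  ext Q
  constructor
  · rintro ⟨t', ht', hQ⟩
    have : t' = t := Subtype.ext (ht'.trans ht.symm)
    rw [← this]
    exact hQ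
  · intro hQ
    exact ⟨t, ht, hQ⟩

/-- **[SS-pack] for `p = 3`, `2 ∣ M`** from [SS-datum]. -/
theorem s33t_ssPack_three (hp3 : p = 3) (h2M : 2 ∣ M)
    (hD : s33t_SSDatumC M p hpM P (s33t_nodeN_t2 M p hpM P)) :
    s33t_SSPack M p hpM P (s33t_nodeN_t2 M p hpM P) := by
  obtain ⟨Lss, hfd, hD⟩ := hD
  refine ⟨Lss, hfd, ?_⟩
  intro L₀ _ _ _ ϖ hϖ _ _ hdeg hT hdegM hπ e ε he hε hεinv hε0 hpe hperf hle
  obtain ⟨ι, k, i1, i2, Z, hCi, hCz, hZN⟩ :=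
    hD L₀ ϖ hϖ hdeg hT hdegM hπ e ε he hε hεinv hε0 hpe hperf hle
  haveI : NumberField ↥L₀ := ⟨⟩
  haveI : PerfectField (IsLocalRing.ResidueField ↥(s18q_A0 P L₀)) :=
    PerfectRing.toPerfectField _ p
  haveI : IsDiscreteValuationRing ↥(s37r_G P L₀ ϖ hϖ).A :=
    (inferInstance : IsDiscreteValuationRing ↥(s18q_A0 P L₀))
  haveI : NeZero p := ⟨hp.out.ne_zero⟩
  have hp2 : p ≠ 2 := by omega
  -- the function `t`
  obtain ⟨tM, -, -, -, -, -, hwt, -, -, -, -, -, -, -⟩ :=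
    s34m_base_t2 (s37r_G P L₀ ϖ hϖ) (algebraMap ↥L₀ Kb) M p hp.out hpM h2M hp2
  set t : s34m_F ↥L₀ (M * p) := heckeAlphaBar ↥L₀ M p tM with ht_def
  have hNeq := s33t_nodeN_t2_eq M p hpM P L₀ ϖ hϖ t hwt
  refine ⟨ι, k, i1, i2, Z, hCi, hCz, hZN, ?_, ?_⟩
  · have hOi : Z.Ci.O = s34m_Vinf (s37r_G P L₀ ϖ hϖ) (M * p) := by rw [hCi]; rfl
    have hOz : Z.Cz.O = s34m_Vzero (s37r_G P L₀ ϖ hϖ) (algebraMap ↥L₀ Kb) M p hp.out hpM := by
      rw [hCz]; rfl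
    exact s33k_ss_superCritical_Z3 M p hpM hp3 h2M (algebraMap ↥L₀ Kb) (s37r_G P L₀ ϖ hϖ) hT hdegM
      hπ e ε he hε hεinv hε0 hpe hperf Z hOi hOz t hwt (by rw [hZN, hNeq])
  · intro s₀ hs f hf
    have h := s33y_hN (s37r_G P L₀ ϖ hϖ) (algebraMap ↥L₀ Kb) M p hpM hs t
      (s34s_galois_fixed_t2 (M * p) s₀ t hwt) f
      ⟨hf.1, fun Q hQ => hf.2 Q (by rw [hZN, hNeq]; exact hQ)⟩
    exact ⟨h.1, fun Q hQ => h.2 Q (by rw [hZN, hNeq] at hQ; exact hQ)⟩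

end PackT

section FinalT

variable (M p : ℕ) [NeZero M] [hp : Fact p.Prime]

/-- **(M°) for `p = 3`, `2 ∣ M`** from [UNIP-J] + [SS-datum] (for the `t₂`-chart). -/
theorem s33t_propM_three (hp3 : p = 3) (h2M : 2 ∣ M) (hM : s18_GoodLevel p M)
    (P : ValuationSubring Kb) (hP : P.LiesOverPrime p)
    (hU : s33t_UnipJ M p hM.1 P (s33t_nodeN_t2 M p hM.1 P))
    (hD : s33t_SSDatumC M p hM.1 P (s33t_nodeN_t2 M p hM.1 P)) :
    s33_PropM M p hM.1 P (s33_J1 (M * p) p P) :=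
  s33t_propM_of M p (by omega) hM P hP _ hU (s33t_ssPack_three M p hM.1 P hp3 h2M hD)

/-- **`s33_UMJ` from the two existence contracts on the two good odd branches.** -/
theorem s33t_UMJ_of_contracts
    (h5 : ∀ (M : ℕ) [NeZero M] (p : ℕ) [Fact p.Prime], 5 ≤ p → ∀ hM : s18_GoodLevel p M,
      ∀ P : ValuationSubring Kb, P.LiesOverPrime p →
        s33t_UnipJ M p hM.1 P (s33t_nodeN M p hM.1 P) ∧
        s33t_SSDatumC M p hM.1 P (s33t_nodeN M p hM.1 P))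
    (h3 : ∀ (M : ℕ) [NeZero M] (p : ℕ) [Fact p.Prime], p = 3 → 2 ∣ M → ∀ hM : s18_GoodLevel p M,
      ∀ P : ValuationSubring Kb, P.LiesOverPrime p →
        s33t_UnipJ M p hM.1 P (s33t_nodeN_t2 M p hM.1 P) ∧
        s33t_SSDatumC M p hM.1 P (s33t_nodeN_t2 M p hM.1 P)) :
    s33_UMJ :=
  s33_UMJ_of_M fun M _ p _ hp2 hM P hP => by
    rcases hM.2 with h | h | h
    · obtain ⟨hU, hD⟩ := h5 M p h hM P hP
      exact s33t_propM_five M p h hM P hP hU hD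
    · obtain ⟨hU, hD⟩ := h3 M p h.1 h.2 hM P hP
      exact s33t_propM_three M p h.1 h.2 hM P hP hU hD
    · exact absurd h.1 hp2

end FinalT

end

end Fermat.Agent.Lib.S33
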