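/-
S33 programme (P-AT-P), Stage 2, branch `p = 3`, `2 ∣ M` (helper4): **bridge between the two descriptions of the
node places of the `t₂`-chart** — helper3's `s33t_nodeN_t2` (`TPPackT.lean`, the set-builder over all `t` with
`q`-expansion `t₂`; it is the family of his `s33t_ssPack_three` / `s33t_UMJ_of_contracts`) and the family
`L₀ ↦ s33s_nodePlaces … (s18_chart1 (s33n_t2F ↥L₀ (M p)))` attached to helper6's canonical name `s33n_t2F`
(`SST2F.lean`; it is the family of the chart-generic [UNIP] contracts, chart family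
`fun L₀ => s18_chart1 (s33n_t2F ↥L₀ (M p))`).

* `s33y_nodeNT M p hpM P : s33t_NodeFam M p P` — the second family.
* `s33y_t2F_spec` : for `p ≠ 2`, `2 ∣ M` the function `s33n_t2F ↥L₀ (M p)` has `q`-expansion `t₂` and is fixed by the
  coefficientwise Galois action (from `s34m_base_t2`).
* **`s33y_nodeNT_eq`** : `p ≠ 2`, `2 ∣ M` ⇒ `s33y_nodeNT M p hpM P = s33t_nodeN_t2 M p hpM P` (as families), so every
  contract stated for one family transports to the other by rewriting.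
* `s33y_unipJ_t2`, `s33y_ssDatumC_t2` : the two contracts of `s33t_UMJ_of_contracts` (`p = 3` branch) from their
  `s33n_t2F`-forms.
-/
import Fermat.Agent.Lib.S33.TPPackT
import Fermat.Agent.Lib.S33.SST2F

set_option autoImplicit false
set_option linter.style.haveILetI false
set_option linter.unusedSectionVars false
set_option synthInstance.maxHeartbeats 400000

namespace Fermat.Agent.Lib.S33

open ModularCurve HahnSeries AlgebraicCurve Fermat.Agent.Lib.S18 Fermat.Agent.Lib.S28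
  Fermat.Agent.Lib.S29 Fermat.Agent.Lib.S37 Fermat.Agent.Lib.FF Fermat.Agent.Lib.S34
  Fermat.Agent.Lib.S35

noncomputable section

local notation "Kb" => AlgebraicClosure ℚ

section PackT

variable (M p : ℕ) [NeZero M] [hp : Fact p.Prime] (hpM : ¬ p ∣ M) (P : ValuationSubring Kb)

/-- **the node places for `p = 3`, `2 ∣ M`, via the canonical name `s33n_t2F`**: the places of chart 1 of
`t₂` through a node. -/
def s33y_nodeNT : s33t_NodeFam M p P := fun L₀ _ ϖ hϖ =>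
  s33s_nodePlaces (s34m_VV (s37r_G P L₀ ϖ hϖ) (algebraMap ↥L₀ Kb) M p hp.out hpM)
    (s34m_unif (s37r_G P L₀ ϖ hϖ) (M * p)) (s18_chart1 (L₀ := ↥L₀) (s33n_t2F ↥L₀ (M * p)))

include hpM in
/-- `s33n_t2F ↥L₀ (M p)` has `q`-expansion `t₂` and is Galois-fixed (`p ≠ 2`, `2 ∣ M`). -/
theorem s33y_t2F_spec (hp2 : p ≠ 2) (h2M : 2 ∣ M) (L₀ : IntermediateField ℚ Kb)
    {κ : Type} [Field κ] [CharP κ p] (G : s18g_GaussData ↥L₀ κ) [IsDiscreteValuationRing ↥G.A] :
    ((s33n_t2F ↥L₀ (M * p) : s34m_F ↥L₀ (M * p)) : LaurentSeries ↥L₀) = s18u_t2 ↥L₀ ∧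
      ∀ s₀ : ↥L₀ ≃ₐ[ℚ] ↥L₀, arithmeticGalois (modularFunctionFieldFull (M * p)) s₀ •
        s33n_t2F ↥L₀ (M * p) = s33n_t2F ↥L₀ (M * p) := by
  haveI : NeZero p := ⟨hp.out.ne_zero⟩
  obtain ⟨tM, -, -, -, -, -, hwt, -, -, -, -, hfix, -, -⟩ :=
    s34m_base_t2 G (algebraMap ↥L₀ Kb) M p hp.out hpM h2M hp2
  have e := s33n_t2F_eq_of_coe (heckeAlphaBar ↥L₀ M p tM) hwt
  rw [e]
  exact ⟨hwt, hfix⟩

/-- **the two families of node places of the `t₂`-chart coincide** (`p ≠ 2`, `2 ∣ M`, residue characteristic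
`p` at `P`). -/
theorem s33y_nodeNT_eq (hp2 : p ≠ 2) (h2M : 2 ∣ M) (hP : P.LiesOverPrime p) :
    s33y_nodeNT M p hpM P = s33t_nodeN_t2 M p hpM P := by
  funext L₀ inst ϖ hϖ
  haveI : CharP (IsLocalRing.ResidueField ↥(s18q_A0 P L₀)) p := s37rl_charP P hP L₀
  haveI : IsDiscreteValuationRing ↥(s37r_G P L₀ ϖ hϖ).A :=
    (inferInstance : IsDiscreteValuationRing ↥(s18q_A0 P L₀))
  obtain ⟨ht, -⟩ := s33y_t2F_spec M p hpM hp2 h2M L₀ (s37r_G P L₀ ϖ hϖ)
  exact (s33t_nodeN_t2_eq M p hpM P L₀ ϖ hϖ (s33n_t2F ↥L₀ (M * p)) ht).symm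

/-- [UNIP-J] on the `t₂`-chart: from the `s33n_t2F`-form to helper3's form. -/
theorem s33y_unipJ_t2 (hp2 : p ≠ 2) (h2M : 2 ∣ M) (hP : P.LiesOverPrime p)
    (hU : s33t_UnipJ M p hpM P (s33y_nodeNT M p hpM P)) :
    s33t_UnipJ M p hpM P (s33t_nodeN_t2 M p hpM P) :=
  s33y_nodeNT_eq M p hpM P hp2 h2M hP ▸ hU

/-- [SS-datum] on the `t₂`-chart: from the `s33n_t2F`-form to helper3's form. -/
theorem s33y_ssDatumC_t2 (hp2 : p ≠ 2) (h2M : 2 ∣ M) (hP : P.LiesOverPrime p)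
    (hD : s33t_SSDatumC M p hpM P (s33y_nodeNT M p hpM P)) :
    s33t_SSDatumC M p hpM P (s33t_nodeN_t2 M p hpM P) :=
  s33y_nodeNT_eq M p hpM P hp2 h2M hP ▸ hD

end PackT

end

end Fermat.Agent.Lib.S33
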