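/-
P-AT-P (S33 programme, private branch), Stage 2 (helper9): **discharge of helper3's contract
`s33t_SSDatumC`** ([SS-datum]: existence of the Σ-datum with the concrete components and node places).

* `s33k_sd_SSDatumC_three` : `p = 3`, `2 ∣ M`, node places of the `t₂`-chart (helper4's `s33y_nodeNT`) —
  from `s33k_sd_exists_datum_three` (`KumPSsDatumT.lean`);
* `s33k_sd_SSDatumC_five`  : `p ≥ 5`, node places of the `j`-chart (helper3's `s33t_nodeN`) — from
  helper8's `s33s_datum_five` (`SSFive.lean`).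
-/
import Fermat.Agent.Lib.S33.KumPSsDatumT
import Fermat.Agent.Lib.S33.SsPackT

set_option autoImplicit false
set_option linter.style.haveILetI false
set_option linter.unusedSectionVars false
set_option synthInstance.maxHeartbeats 400000

namespace Fermat.Agent.Lib.S33

open ModularCurve HahnSeries AlgebraicCurve Fermat.Agent.Lib.S18 Fermat.Agent.Lib.S28
  Fermat.Agent.Lib.S29 Fermat.Agent.Lib.S37 Fermat.Agent.Lib.FF Fermat.Agent.Lib.S34
  Fermat.Agent.Lib.S35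

noncomputable section

local notation "Kb" => AlgebraicClosure ℚ

section Pack

variable (M p : ℕ) [NeZero M] [hp : Fact p.Prime] (hpM : ¬ p ∣ M) (P : ValuationSubring Kb)

/-- **[SS-datum] for `p = 3`, `2 ∣ M`** on the `t₂`-chart. -/
theorem s33k_sd_SSDatumC_three (hp3 : p = 3) (h2M : 2 ∣ M) :
    s33t_SSDatumC M p hpM P (s33y_nodeNT M p hpM P) := by
  have hp2 : p ≠ 2 := by omega
  refine ⟨⊥, inferInstance, ?_⟩
  intro L₀ _ _ _ ϖ hϖ _ _ hdeg hT hdegM hπ e ε he hε hεinv hε0 hpe hperf _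
  haveI : NumberField ↥L₀ := ⟨⟩
  haveI : PerfectField (IsLocalRing.ResidueField ↥(s18q_A0 P L₀)) :=
    PerfectRing.toPerfectField _ p
  haveI : IsDiscreteValuationRing ↥(s37r_G P L₀ ϖ hϖ).A :=
    (inferInstance : IsDiscreteValuationRing ↥(s18q_A0 P L₀))
  obtain ⟨ht, -⟩ := s33y_t2F_spec M p hpM hp2 h2M L₀ (s37r_G P L₀ ϖ hϖ)
  exact s33k_sd_exists_datum_three M p hpM hp3 h2M ↥L₀ (algebraMap ↥L₀ Kb)
    (IsLocalRing.ResidueField ↥(s18q_A0 P L₀)) (s37r_G P L₀ ϖ hϖ) hdeg hT hdegM hπ e ε he hε hεinv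
    hε0 hpe hperf (s33n_t2F ↥L₀ (M * p)) ht

/-- **[SS-datum] for `p ≥ 5`** on the `j`-chart (helper8's `s33s_datum_five`). -/
theorem s33k_sd_SSDatumC_five (h5 : 5 ≤ p) :
    s33t_SSDatumC M p hpM P (s33t_nodeN M p hpM P) := by
  refine ⟨⊥, inferInstance, ?_⟩
  intro L₀ _ _ _ ϖ hϖ _ _ hdeg hT hdegM hπ e ε he hε hεinv hε0 hpe hperf _
  haveI : NumberField ↥L₀ := ⟨⟩
  haveI : PerfectField (IsLocalRing.ResidueField ↥(s18q_A0 P L₀)) :=
    PerfectRing.toPerfectField _ p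
  haveI : IsDiscreteValuationRing ↥(s37r_G P L₀ ϖ hϖ).A :=
    (inferInstance : IsDiscreteValuationRing ↥(s18q_A0 P L₀))
  exact ⟨_, _, inferInstance, inferInstance,
    s33s_datum_five M p hpM h5 ↥L₀ (algebraMap ↥L₀ Kb)
      (IsLocalRing.ResidueField ↥(s18q_A0 P L₀)) (s37r_G P L₀ ϖ hϖ) hdeg hT hdegM hπ e ε he hε
      hεinv hε0 hpe hperf, rfl, rfl, rfl⟩

end Pack

end

end Fermat.Agent.Lib.S33
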