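/-
P-AT-P programme (S33), risk (R1) (helper2): **THE [REAL′-inst] CONTRACT AT AN ARBITRARY GOOD LEVEL.**
DEFINITIONS AND ONE CONTRACT ONLY (the contract is a `def … : Prop`); nothing is proved here.

* `s33l_pairs N S M₁ p S₁` : the ring of MIXED-LEVEL Hecke pairs, the subring of
  `𝕋_N × End_{ℤ_p}(T_p J₀(M₁))` generated by the pairs `(T_ℓ ∈ 𝕋_N, T_ℓ on T_p J₀(M₁))`, `ℓ` prime,
  `ℓ ∉ S₁` (`M₁` need NOT divide `N`).
* `s33l_RealInst` : **the contract**: under EXACTLY the hypotheses of S33 (level `N`, `p ∥ N`, datum `H`,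
  residually ordinary), for EVERY level `M₁` which is S18-good for `p` and every finite set
  `S₁ ⊇ S ∪ {primes of M₁}`: the `p`-torsion component `w 1` of every `w` in the `θ`-primary part of
  `T_p J₀(M₁)` with respect to `s33l_pairs N S M₁ p S₁` lies in the `T_p`-ordinary part
  `s33_ordPart M₁ p hp 1` of `J₀(M₁)[p]`.

Use: for `M₁ = N / p`, `S₁ = S` this is helper1's [REAL′-inst] (`α_*`, `β_*` carry `Λ_θ(N)` into this primary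
part — generic lemma `s33l_map_primaryPart`, file `LHecke.lean`); for `p = 3`, `N / 3` odd it is used with
`M₁ = 2 N / 3`, `S₁ = S ∪ {2}` and the maps `α'_* ∘ α^*`, `β'_* ∘ α^*`.
-/
import Fermat.Agent.Lib.S33.LambdaIface
import Fermat.Agent.Lib.S33.TopIface

set_option autoImplicit false
set_option linter.unusedSectionVars false

namespace Fermat.Agent.Lib.S33

open CuspForm ModularCurve Fermat.Agent.Lib.S18 Fermat.Agent.Lib.S29 Fermat.Agent.Lib.S30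
  Fermat.Agent.Lib.S31

noncomputable section

local notation "Kb" => AlgebraicClosure ℚ

/-- The generating mixed-level Hecke pairs `(T_ℓ ∈ 𝕋_N, T_ℓ on T_p J₀(M₁))`, `ℓ` prime, `ℓ ∉ S₁`. -/
def s33l_pairGens (N : ℕ) [NeZero N] (S : Finset ℕ) (M₁ : ℕ) [NeZero M₁] (p : ℕ) [Fact p.Prime]
    (S₁ : Finset ℕ) :
    Set (heckeAlgebra N 2 (↑S : Set ℕ) × Module.End ℤ_[p] (s30a_TJ M₁ p)) :=
  {z | ∃ ℓ : ℕ, ℓ.Prime ∧ ℓ ∉ S₁ ∧ z = (s31e_tau N S ℓ, s31e_TL M₁ p ℓ)}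

/-- **The ring of mixed-level Hecke pairs.** -/
def s33l_pairs (N : ℕ) [NeZero N] (S : Finset ℕ) (M₁ : ℕ) [NeZero M₁] (p : ℕ) [Fact p.Prime]
    (S₁ : Finset ℕ) :
    Subring (heckeAlgebra N 2 (↑S : Set ℕ) × Module.End ℤ_[p] (s30a_TJ M₁ p)) :=
  Subring.closure (s33l_pairGens N S M₁ p S₁)

theorem s33l_gen_mem_pairs (N : ℕ) [NeZero N] (S : Finset ℕ) (M₁ : ℕ) [NeZero M₁] (p : ℕ)
    [Fact p.Prime] (S₁ : Finset ℕ) {ℓ : ℕ} (hℓ : ℓ.Prime) (hℓS : ℓ ∉ S₁) :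
    (s31e_tau N S ℓ, s31e_TL M₁ p ℓ) ∈ s33l_pairs N S M₁ p S₁ :=
  Subring.subset_closure ⟨ℓ, hℓ, hℓS, rfl⟩

/-- **The [REAL′-inst] contract at an arbitrary good level `M₁`.** -/
def s33l_RealInst : Prop :=
  ∀ {p : ℕ} {N : ℕ} [NeZero N] {S : Finset ℕ}
    {𝒪 : Type} [CommRing 𝒪] [IsDomain 𝒪] [IsDiscreteValuationRing 𝒪]
    [IsAdicComplete (IsLocalRing.maximalIdeal 𝒪) 𝒪]
    {θ : CuspForm.heckeAlgebra N 2 (↑S : Set ℕ) →+* IsLocalRing.ResidueField 𝒪}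
    {T : Type} [CommRing T] [IsLocalRing T] [IsNoetherianRing T]
    [IsAdicComplete (IsLocalRing.maximalIdeal T) T] [Algebra 𝒪 T] [IsLocalHom (algebraMap 𝒪 T)]
    [Module.Finite 𝒪 T] [Module.Free 𝒪 T]
    [Finite (IsLocalRing.ResidueField 𝒪)] [CharZero 𝒪]
    (hp : p.Prime), p ≠ 2 → (p : 𝒪) ∈ IsLocalRing.maximalIdeal 𝒪 → (p ∣ N ∧ ¬ p ^ 2 ∣ N) →
    (∀ q : ℕ, q.Prime → q ∣ N → q ∈ S) →
    ∀ H : CuspForm.HeckeGaloisRepDatum N (↑S : Set ℕ) 𝒪 θ T,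
      (GaloisRepAdic.ofResidualGaloisRep H.ρ.residual).IsOrdinaryAt p →
      ∀ (M₁ : ℕ) [NeZero M₁], s18_GoodLevel p M₁ →
        ∀ S₁ : Finset ℕ, S ⊆ S₁ → (∀ q : ℕ, q.Prime → q ∣ M₁ → q ∈ S₁) →
          (haveI : Fact p.Prime := ⟨hp⟩;
            ∀ w ∈ s33g_primaryPart (s33l_pairs N S M₁ p S₁) θ,
              (w : ℕ → JZero M₁) 1 ∈ s33_ordPart M₁ p hp 1)

end

end Fermat.Agent.Lib.S33
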