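/-
P-AT-P programme (S33), risk (R1) (helper2): **GALOIS-EQUIVARIANT MAPS BETWEEN JACOBIANS OF TWO LEVELS ARE
HECKE EQUIVARIANT ON TATE MODULES AND RESPECT `θ`-PRIMARY PARTS.**

* `s33l_TpMap_hecke` : `f : J₀(A) →+ J₀(B)` additive and `G_ℚ`-equivariant, `ℓ ∤ A·lam`, `ℓ ∤ B·lam`:
  `f_* ∘ T_ℓ = T_ℓ ∘ f_*` on `T_lam` (Eichler–Shimura at both levels + Frobenius subtraction);
* `s33l_primaryPart_stable` : operators commuting with a ring of Hecke pairs preserve its primary parts;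
* `s33l_map_primaryPart` : **`f_*(Λ_θ(N)) ⊆` the `θ`-primary part of `T_p J₀(M₁)` for the mixed-level
  pairs `s33l_pairs N S M₁ p S₁`** (`S₁ ⊇ S ∪ {p} ∪ {primes of N M₁}`).
-/
import Fermat.Agent.Lib.S33.LIface
import Fermat.Agent.Lib.S33.GConc
import Fermat.Agent.Lib.S35.B3Eigen

set_option autoImplicit false
set_option linter.unusedSectionVars false
set_option linter.style.haveILetI false

noncomputable section

namespace Fermat.Agent.Lib.S33

open CuspForm ModularCurve AlgebraicCurve Fermat.Agent.Lib.S18 Fermat.Agent.Lib.S29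
  Fermat.Agent.Lib.S30 Fermat.Agent.Lib.S31 Fermat.Agent.Lib.S35

local notation "Kb" => AlgebraicClosure ℚ

section Hecke

variable {A B : ℕ} [NeZero A] [NeZero B] (lam : ℕ) [Fact lam.Prime]

/-- **Galois-equivariant maps are Hecke equivariant on Tate modules** (two arbitrary levels). -/
theorem s33l_TpMap_hecke (f : JZero A →+ JZero B)
    (hf : ∀ (σ : s29k_G) (x : JZero A), f (σ • x) = σ • f x)
    (ℓ : Nat.Primes) (hℓA : ¬ (ℓ : ℕ) ∣ A * lam) (hℓB : ¬ (ℓ : ℕ) ∣ B * lam)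
    (x : s30a_TJ A lam) :
    s35c_TpMap (p := lam) f (s30a_T A lam ℓ x) = s30a_T B lam ℓ (s35c_TpMap (p := lam) f x) := by
  obtain ⟨P, σ, hP, hσ⟩ := Fermat.Agent.Lib.Frobenius.exists_isFrobeniusAt (ℓ : ℕ) ℓ.2
  refine s35c_hecke_of_frobQuad (s35c_TpMap (p := lam) f) (s30a_rho A lam σ)
    (s30a_rho A lam σ⁻¹) (s30a_T A lam ℓ) (s30a_rho B lam σ) (s30a_T B lam ℓ)
    (((ℓ : ℕ) : ℤ_[lam])) ?_ ?_
    (s30a_frobQuad A lam ℓ hℓA P hP σ hσ)
    (s30a_frobQuad B lam ℓ hℓB P hP σ hσ) x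
  · rw [← map_mul, mul_inv_cancel, map_one]
  · intro y
    refine s30a_ext fun n => ?_
    show f (σ • (y : ℕ → JZero A) n) = σ • f ((y : ℕ → JZero A) n)
    exact hf σ _

end Hecke

section Stable

variable {p : ℕ} [Fact p.Prime] {𝕋 : Type*} [Ring 𝕋] {Λ : Type*} [AddCommGroup Λ] [Module ℤ_[p] Λ]
  {k : Type*} [Ring k]

/-- operators commuting with all Hecke pairs preserve the primary parts. -/
theorem s33l_primaryPart_stable (𝔾 : Subring (𝕋 × Module.End ℤ_[p] Λ)) (θ : 𝕋 →+* k)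
    (X : Module.End ℤ_[p] Λ) (hX : ∀ z ∈ 𝔾, Commute X z.2) {w : Λ}
    (hw : w ∈ s33g_primaryPart 𝔾 θ) : X w ∈ s33g_primaryPart 𝔾 θ := by
  intro z hz hθ m
  obtain ⟨j, w', hw'⟩ := hw z hz hθ m
  refine ⟨j, X w', ?_⟩
  have hc : Commute X (z.2 ^ j) := (hX z hz).pow_right j
  have h1 : (z.2 ^ j) (X w) = X ((z.2 ^ j) w) := by
    have := congrArg (fun g : Module.End ℤ_[p] Λ => g w) hc.eq
    simpa only [Module.End.mul_apply] using this.symm
  rw [h1, hw', map_smul]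

end Stable

section Map

variable {N : ℕ} [NeZero N] {S : Finset ℕ} {M₁ : ℕ} [NeZero M₁] {p : ℕ} [Fact p.Prime]
  {S₁ : Finset ℕ}

/-- the generating triples `(T_ℓ, T_ℓ^{Λ(N)}, T_ℓ^{Λ(M₁)})`, `ℓ ∉ S₁`. -/
def s33l_tripleGens (N : ℕ) [NeZero N] (S : Finset ℕ) (M₁ : ℕ) [NeZero M₁] (p : ℕ) [Fact p.Prime]
    (S₁ : Finset ℕ) :
    Set (heckeAlgebra N 2 (↑S : Set ℕ) ×
      (Module.End ℤ_[p] (s30a_TJ N p) × Module.End ℤ_[p] (s30a_TJ M₁ p))) :=
  {t | ∃ ℓ : ℕ, ℓ.Prime ∧ ℓ ∉ S₁ ∧ t = (s31e_tau N S ℓ, (s31e_TL N p ℓ, s31e_TL M₁ p ℓ))}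

/-- the ring of Hecke triples. -/
def s33l_triples (N : ℕ) [NeZero N] (S : Finset ℕ) (M₁ : ℕ) [NeZero M₁] (p : ℕ) [Fact p.Prime]
    (S₁ : Finset ℕ) :
    Subring (heckeAlgebra N 2 (↑S : Set ℕ) ×
      (Module.End ℤ_[p] (s30a_TJ N p) × Module.End ℤ_[p] (s30a_TJ M₁ p))) :=
  Subring.closure (s33l_tripleGens N S M₁ p S₁)

/-- the first two components of a triple form a Hecke pair of level `N`. -/
theorem s33l_triples_fst (hS : S ⊆ S₁) (hN : ∀ q : ℕ, q.Prime → q ∣ N → q ∈ S₁)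
    {t : heckeAlgebra N 2 (↑S : Set ℕ) ×
      (Module.End ℤ_[p] (s30a_TJ N p) × Module.End ℤ_[p] (s30a_TJ M₁ p))}
    (ht : t ∈ s33l_triples N S M₁ p S₁) : (t.1, t.2.1) ∈ s33g_pairs N p S := by
  unfold s33l_triples at ht
  induction ht using Subring.closure_induction with
  | mem x hx =>
    obtain ⟨ℓ, hℓ, hℓS, rfl⟩ := hx
    exact s33g_gen_mem_pairs N p S hℓ (fun h => hℓS (hN ℓ hℓ h)) (fun h => hℓS (hS h))
  | zero => exact (s33g_pairs N p S).zero_mem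
  | one => exact (s33g_pairs N p S).one_mem
  | add x y _ _ hx hy => exact (s33g_pairs N p S).add_mem hx hy
  | neg x _ hx => exact (s33g_pairs N p S).neg_mem hx
  | mul x y _ _ hx hy => exact (s33g_pairs N p S).mul_mem hx hy

/-- every mixed-level pair is the projection of a triple. -/
theorem s33l_exists_triple
    {z : heckeAlgebra N 2 (↑S : Set ℕ) × Module.End ℤ_[p] (s30a_TJ M₁ p)}
    (hz : z ∈ s33l_pairs N S M₁ p S₁) :
    ∃ t ∈ s33l_triples N S M₁ p S₁, t.1 = z.1 ∧ t.2.2 = z.2 := by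
  unfold s33l_pairs at hz
  induction hz using Subring.closure_induction with
  | mem x hx =>
    obtain ⟨ℓ, hℓ, hℓS, rfl⟩ := hx
    exact ⟨_, Subring.subset_closure ⟨ℓ, hℓ, hℓS, rfl⟩, rfl, rfl⟩
  | zero => exact ⟨0, Subring.zero_mem _, rfl, rfl⟩
  | one => exact ⟨1, Subring.one_mem _, rfl, rfl⟩
  | add x y _ _ hx hy =>
    obtain ⟨t, ht, h1, h2⟩ := hx
    obtain ⟨t', ht', h1', h2'⟩ := hy
    exact ⟨t + t', Subring.add_mem _ ht ht', by rw [Prod.fst_add, Prod.fst_add, h1, h1'],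
      by rw [Prod.snd_add, Prod.snd_add, Prod.snd_add, h2, h2']⟩
  | neg x _ hx =>
    obtain ⟨t, ht, h1, h2⟩ := hx
    exact ⟨-t, Subring.neg_mem _ ht, by rw [Prod.fst_neg, Prod.fst_neg, h1],
      by rw [Prod.snd_neg, Prod.snd_neg, Prod.snd_neg, h2]⟩
  | mul x y _ _ hx hy =>
    obtain ⟨t, ht, h1, h2⟩ := hx
    obtain ⟨t', ht', h1', h2'⟩ := hy
    exact ⟨t * t', Subring.mul_mem _ ht ht', by rw [Prod.fst_mul, Prod.fst_mul, h1, h1'],
      by rw [Prod.snd_mul, Prod.snd_mul, Prod.snd_mul, h2, h2']⟩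

/-- a Galois-equivariant map intertwines the two operator components of every triple. -/
theorem s33l_triples_intertwine (hpS : p ∈ S₁) (hN : ∀ q : ℕ, q.Prime → q ∣ N → q ∈ S₁)
    (hM₁ : ∀ q : ℕ, q.Prime → q ∣ M₁ → q ∈ S₁)
    (f : JZero N →+ JZero M₁) (hf : ∀ (σ : s29k_G) (x : JZero N), f (σ • x) = σ • f x)
    {t : heckeAlgebra N 2 (↑S : Set ℕ) ×
      (Module.End ℤ_[p] (s30a_TJ N p) × Module.End ℤ_[p] (s30a_TJ M₁ p))}
    (ht : t ∈ s33l_triples N S M₁ p S₁) (x : s30a_TJ N p) :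
    s35c_TpMap (p := p) f (t.2.1 x) = t.2.2 (s35c_TpMap (p := p) f x) := by
  have hpp : p.Prime := Fact.out
  unfold s33l_triples at ht
  induction ht using Subring.closure_induction generalizing x with
  | mem y hy =>
    obtain ⟨ℓ, hℓ, hℓS, rfl⟩ := hy
    show s35c_TpMap (p := p) f (s31e_TL N p ℓ x) = s31e_TL M₁ p ℓ (s35c_TpMap (p := p) f x)
    rw [s31e_TL_of N p hℓ, s31e_TL_of M₁ p hℓ]
    have hℓp : ¬ ℓ ∣ p := fun h => hℓS (by rwa [(Nat.prime_dvd_prime_iff_eq hℓ hpp).mp h])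
    refine s33l_TpMap_hecke p f hf ⟨ℓ, hℓ⟩ ?_ ?_ x
    · intro h
      rcases (Nat.Prime.dvd_mul hℓ).mp h with h | h
      · exact hℓS (hN ℓ hℓ h)
      · exact hℓp h
    · intro h
      rcases (Nat.Prime.dvd_mul hℓ).mp h with h | h
      · exact hℓS (hM₁ ℓ hℓ h)
      · exact hℓp h
  | zero =>
    show s35c_TpMap (p := p) f ((0 : Module.End ℤ_[p] (s30a_TJ N p)) x) =
      (0 : Module.End ℤ_[p] (s30a_TJ M₁ p)) (s35c_TpMap (p := p) f x)
    rw [LinearMap.zero_apply, LinearMap.zero_apply, map_zero]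
  | one =>
    show s35c_TpMap (p := p) f ((1 : Module.End ℤ_[p] (s30a_TJ N p)) x) =
      (1 : Module.End ℤ_[p] (s30a_TJ M₁ p)) (s35c_TpMap (p := p) f x)
    rw [Module.End.one_apply, Module.End.one_apply]
  | add a b _ _ ha hb =>
    show s35c_TpMap (p := p) f ((a.2.1 + b.2.1) x) = (a.2.2 + b.2.2) (s35c_TpMap (p := p) f x)
    rw [LinearMap.add_apply, LinearMap.add_apply, map_add, ha, hb]
  | neg a _ ha =>
    show s35c_TpMap (p := p) f ((-a.2.1) x) = (-a.2.2) (s35c_TpMap (p := p) f x)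
    rw [LinearMap.neg_apply, LinearMap.neg_apply, map_neg, ha]
  | mul a b _ _ ha hb =>
    show s35c_TpMap (p := p) f ((a.2.1 * b.2.1) x) = (a.2.2 * b.2.2) (s35c_TpMap (p := p) f x)
    rw [Module.End.mul_apply, Module.End.mul_apply, ha, hb]

variable {k : Type*} [Ring k] (θ : heckeAlgebra N 2 (↑S : Set ℕ) →+* k)

/-- **Galois-equivariant maps carry `Λ_θ(N)` into the mixed-level `θ`-primary part of `T_p J₀(M₁)`.** -/
theorem s33l_map_primaryPart (hS : S ⊆ S₁) (hpS : p ∈ S₁)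
    (hN : ∀ q : ℕ, q.Prime → q ∣ N → q ∈ S₁) (hM₁ : ∀ q : ℕ, q.Prime → q ∣ M₁ → q ∈ S₁)
    (f : JZero N →+ JZero M₁) (hf : ∀ (σ : s29k_G) (x : JZero N), f (σ • x) = σ • f x)
    {w : s30a_TJ N p} (hw : w ∈ s33g_thetaPart N p S θ) :
    s35c_TpMap (p := p) f w ∈ s33g_primaryPart (s33l_pairs N S M₁ p S₁) θ := by
  intro z hz hθ m
  obtain ⟨t, ht, h1, h2⟩ := s33l_exists_triple hz
  have hpair := s33l_triples_fst hS hN ht
  obtain ⟨j, w', hw'⟩ := hw (t.1, t.2.1) hpair (by rw [h1]; exact hθ) m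
  refine ⟨j, s35c_TpMap (p := p) f w', ?_⟩
  have hpow : ∀ (i : ℕ) (x : s30a_TJ N p),
      s35c_TpMap (p := p) f ((t.2.1 ^ i) x) = (z.2 ^ i) (s35c_TpMap (p := p) f x) := by
    intro i
    induction i with
    | zero => intro x; rw [pow_zero, pow_zero, Module.End.one_apply, Module.End.one_apply]
    | succ i ih =>
      intro x
      rw [pow_succ, pow_succ, Module.End.mul_apply, Module.End.mul_apply, ih,
        s33l_triples_intertwine hpS hN hM₁ f hf ht, h2]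
  rw [← hpow, hw', map_smul]

end Map

end Fermat.Agent.Lib.S33
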