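/-
P-AT-P programme (S33), package [REAL'] (helper5), part 3 (Mathlib-level): Lucas sequences in subrings
and products, the action of a group on a stable subgroup, and the abstract Eichler–Shimura/Lucas
identity on a stable subgroup of `A[p]`.
-/
import Fermat.Agent.Lib.S31.Lucas
import Fermat.Agent.Lib.S30.TateMod

set_option autoImplicit false
set_option linter.style.haveILetI false
set_option linter.unusedSectionVars false

namespace Fermat.Agent.Lib.S33

open Fermat.Agent.Lib.S30 Fermat.Agent.Lib.S31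

/-- membership of Lucas values in a subring. -/
theorem s33r_lucas_mem {R : Type*} [Ring R] (B : Subring R) {s d : R} (hs : s ∈ B) (hd : d ∈ B)
    (j : ℕ) : s31c_lucas s d j ∈ B := by
  induction j using s31c_two_step with
  | h0 =>
    rw [s31c_lucas_zero]
    exact ofNat_mem B 2
  | h1 => rw [s31c_lucas_one]; exact hs
  | h j ih0 ih1 =>
    rw [s31c_lucas_succ_succ]
    exact B.sub_mem (B.mul_mem hs ih1) (B.mul_mem hd ih0)

theorem s33r_lucas_fst {A B : Type*} [Ring A] [Ring B] (a : A) (b : B) (n j : ℕ) :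
    (s31c_lucas ((a, b) : A × B) ((n : ℕ) : A × B) j).1 = s31c_lucas a ((n : ℕ) : A) j := by
  have := s31c_lucas_map ((a, b) : A × B) ((n : ℕ) : A × B) (RingHom.fst A B) j
  rw [RingHom.coe_fst] at this
  rw [this, Prod.fst_natCast]

theorem s33r_lucas_snd {A B : Type*} [Ring A] [Ring B] (a : A) (b : B) (n j : ℕ) :
    (s31c_lucas ((a, b) : A × B) ((n : ℕ) : A × B) j).2 = s31c_lucas b ((n : ℕ) : B) j := by
  have := s31c_lucas_map ((a, b) : A × B) ((n : ℕ) : A × B) (RingHom.snd A B) j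
  rw [RingHom.coe_snd] at this
  rw [this, Prod.snd_natCast]

section AbsY

variable {A : Type*} [AddCommGroup A] {G : Type*} [Group G] [DistribMulAction G A]
  {Y : Submodule ℤ A}

/-- The action of `G` on a stable subgroup `Y`, by `ℤ`-linear maps. -/
def s33r_rhoY (hgal : ∀ σ : G, ∀ y ∈ Y, σ • y ∈ Y) : G →* Module.End ℤ ↥Y where
  toFun σ :=
    ((DistribMulAction.toAddMonoidEnd G A σ).toIntLinearMap).restrict
      (p := Y) (q := Y) (fun y hy => hgal σ y hy)
  map_one' := by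
    ext y
    simp [LinearMap.restrict_apply]
  map_mul' σ τ := by
    ext y
    simp [LinearMap.restrict_apply, Module.End.mul_apply, mul_smul]

theorem s33r_rhoY_apply (hgal : ∀ σ : G, ∀ y ∈ Y, σ • y ∈ Y) (σ : G) (y : ↥Y) :
    ((s33r_rhoY hgal σ y : ↥Y) : A) = σ • (y : A) := rfl

/-- The Hecke side of the density statement, abstract form: if `σ` satisfies the Eichler–Shimura
relation `σ² - T σ + ℓ = 0` on `A[p]` and `h` acts trivially on `A[p]`, then on a stable subgroup
`Y ≤ A[p]`:  `L_j(T, ℓ) = ρ_Y(σ^j h) + n ρ_Y(σ^j h)⁻¹` for `n ≡ ℓ^j mod p`. -/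
theorem s33r_lucas_abs (hgal : ∀ σ : G, ∀ y ∈ Y, σ • y ∈ Y) (p : ℕ)
    (htors : ∀ y ∈ Y, p • y = 0) (T : Module.End ℤ A) (hT : ∀ y ∈ Y, T y ∈ Y)
    (ℓ : ℕ) (σ h : G) (j n : ℕ)
    (hhJ : ∀ x : A, p • x = 0 → h • x = x)
    (hES : ∀ x : A, p • x = 0 → σ • σ • x - T (σ • x) + ℓ • x = 0)
    (hn : (n : ZMod p) = ((ℓ ^ j : ℕ) : ZMod p)) :
    s31c_lucas (T.restrict (p := Y) (q := Y) hT) ((ℓ : ℕ) : Module.End ℤ ↥Y) j =
      s33r_rhoY hgal (σ ^ j * h) + n • s33r_rhoY hgal (σ ^ j * h)⁻¹ := by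
  set U : Module.End ℤ ↥Y := s33r_rhoY hgal σ with hU
  set V : Module.End ℤ ↥Y := s33r_rhoY hgal σ⁻¹ with hV
  set D : Module.End ℤ ↥Y := ((ℓ : ℕ) : Module.End ℤ ↥Y) with hD
  have hUV : U * V = 1 := by rw [hU, hV, ← map_mul, mul_inv_cancel, map_one]
  have hVU : V * U = 1 := by rw [hU, hV, ← map_mul, inv_mul_cancel, map_one]
  have hDU : Commute D U := Nat.cast_commute ℓ U
  have hDV : Commute D V := Nat.cast_commute ℓ V
  -- Eichler–Shimura on `Y`
  have hTY : T.restrict (p := Y) (q := Y) hT = U + D * V := by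
    ext y
    rw [LinearMap.restrict_apply, LinearMap.add_apply, Module.End.mul_apply, Submodule.coe_add]
    have hx : p • (σ⁻¹ • (y : A)) = 0 := by
      rw [smul_comm, htors y y.2, smul_zero]
    have h1 := hES _ hx
    rw [smul_inv_smul] at h1
    have h2 : ((D (V y) : ↥Y) : A) = ℓ • (σ⁻¹ • (y : A)) := by
      rw [hD, Module.End.natCast_apply, Submodule.coe_smul_of_tower, hV, s33r_rhoY_apply]
    rw [h2, hU, s33r_rhoY_apply]
    have h3 : T (y : A) = σ • (y : A) + ℓ • σ⁻¹ • (y : A) := by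
      rw [← sub_eq_zero, ← neg_eq_zero, ← h1]
      abel
    exact h3
  rw [hTY, ← s31c_unit_pow U V D hUV hVU hDU hDV j]
  -- `h` acts trivially on `Y`
  have hh1 : s33r_rhoY hgal h = 1 := by
    ext y
    rw [s33r_rhoY_apply, Module.End.one_apply]
    exact hhJ _ (htors y y.2)
  have hh2 : s33r_rhoY hgal h⁻¹ = 1 := by
    have := map_mul (s33r_rhoY hgal) h h⁻¹
    rw [mul_inv_cancel, map_one, hh1, one_mul] at this
    exact this.symm
  have eg : s33r_rhoY hgal (σ ^ j * h) = U ^ j := by rw [map_mul, hh1, mul_one, map_pow]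
  have eg' : s33r_rhoY hgal (σ ^ j * h)⁻¹ = V ^ j := by
    rw [mul_inv_rev, map_mul, hh2, one_mul, ← inv_pow, map_pow]
  rw [eg, eg']
  congr 1
  -- the scalars agree modulo `p`
  ext y
  rw [Module.End.mul_apply, hD, ← Nat.cast_pow, Module.End.natCast_apply, LinearMap.smul_apply,
    Submodule.coe_smul_of_tower, Submodule.coe_smul_of_tower]
  exact s30a_nsmul_congr (m := p) hn.symm (htors _ (Subtype.mem _))

end AbsY

end Fermat.Agent.Lib.S33
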