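/-
P-AT-P programme (S33), package [REAL'] (helper5), part 4 (abstract): the `θ`-primary part of `A[p]`
with respect to a ring of Hecke pairs, its stability under equivariant endomorphisms, and nilpotency of
the pairs with `θ x = 0` on finite subgroups of the primary part.
-/
import Fermat.Agent.Lib.S33.RealLucas

set_option autoImplicit false
set_option linter.style.haveILetI false
set_option linter.unusedSectionVars false

namespace Fermat.Agent.Lib.S33

section Prim

variable {𝕋 : Type*} [CommRing 𝕋] {A : Type*} [AddCommGroup A] {G : Type*} [Group G]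
  [DistribMulAction G A] {k : Type*} [Field k] (θ : 𝕋 →+* k) (p : ℕ)
  (gens : Set (𝕋 × Module.End ℤ A))

/-- The `θ`-primary part of `A[p]` with respect to the ring of Hecke pairs generated by `gens`:
the `p`-torsion points on which every pair `(x, X)` with `θ x = 0` acts nilpotently. -/
def s33r_primTors : Submodule ℤ A where
  carrier := {y | p • y = 0 ∧
    ∀ z ∈ Subring.closure gens, θ z.1 = 0 → ∃ j : ℕ, (z.2 ^ j) y = 0}
  add_mem' := by
    rintro a b ⟨ha, ha'⟩ ⟨hb, hb'⟩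
    refine ⟨by rw [smul_add, ha, hb, add_zero], fun z hz hθ => ?_⟩
    obtain ⟨j₁, h₁⟩ := ha' z hz hθ
    obtain ⟨j₂, h₂⟩ := hb' z hz hθ
    refine ⟨j₁ + j₂, ?_⟩
    have e1 : (z.2 ^ (j₁ + j₂)) a = 0 := by
      rw [add_comm j₁ j₂, pow_add, Module.End.mul_apply, h₁, map_zero]
    have e2 : (z.2 ^ (j₁ + j₂)) b = 0 := by
      rw [pow_add, Module.End.mul_apply, h₂, map_zero]
    rw [map_add, e1, e2, add_zero]
  zero_mem' := ⟨smul_zero _, fun z _ _ => ⟨0, map_zero _⟩⟩
  smul_mem' := by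
    rintro c a ⟨ha, ha'⟩
    refine ⟨by rw [smul_comm, ha, smul_zero], fun z hz hθ => ?_⟩
    obtain ⟨j, hj⟩ := ha' z hz hθ
    exact ⟨j, by rw [map_smul, hj, smul_zero]⟩

theorem s33r_mem_primTors {y : A} :
    y ∈ s33r_primTors θ p gens ↔ p • y = 0 ∧
      ∀ z ∈ Subring.closure gens, θ z.1 = 0 → ∃ j : ℕ, (z.2 ^ j) y = 0 := Iff.rfl

variable {θ p gens}

/-- Galois-equivariance passes to the ring generated by equivariant pairs. -/
theorem s33r_closure_equivariant
    (hgenG : ∀ z ∈ gens, ∀ (σ : G) (x : A), z.2 (σ • x) = σ • z.2 x)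
    {z : 𝕋 × Module.End ℤ A} (hz : z ∈ Subring.closure gens) (σ : G) (x : A) :
    z.2 (σ • x) = σ • z.2 x := by
  induction hz using Subring.closure_induction generalizing x with
  | mem z hz => exact hgenG z hz σ x
  | zero => rw [Prod.snd_zero, LinearMap.zero_apply, LinearMap.zero_apply, smul_zero]
  | one => rw [Prod.snd_one, Module.End.one_apply, Module.End.one_apply]
  | add a b _ _ ha hb =>
    rw [Prod.snd_add, LinearMap.add_apply, LinearMap.add_apply, ha, hb, smul_add]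
  | neg a _ ha => rw [Prod.snd_neg, LinearMap.neg_apply, LinearMap.neg_apply, ha, smul_neg]
  | mul a b _ _ ha hb =>
    rw [Prod.snd_mul, Module.End.mul_apply, Module.End.mul_apply, hb, ha]

/-- An equivariant endomorphism commutes on `A[p]` with an operator satisfying an Eichler–Shimura
relation. -/
theorem s33r_comm_of_ES (F X : Module.End ℤ A)
    (hF : ∀ (σ : G) (x : A), F (σ • x) = σ • F x)
    (hES : ∃ (σ : G) (n : ℕ), ∀ x : A, p • x = 0 → σ • σ • x - X (σ • x) + n • x = 0)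
    (x : A) (hx : p • x = 0) : F (X x) = X (F x) := by
  obtain ⟨σ, n, h⟩ := hES
  have key : ∀ y : A, p • y = 0 → X y = σ • y + n • σ⁻¹ • y := by
    intro y hy
    have hy' : p • (σ⁻¹ • y) = 0 := by rw [smul_comm, hy, smul_zero]
    have h1 := h _ hy'
    rw [smul_inv_smul] at h1
    rw [← sub_eq_zero, ← neg_eq_zero, ← h1]
    abel
  have hFx : p • F x = 0 := by rw [← map_nsmul, hx, map_zero]
  rw [key x hx, key (F x) hFx, map_add, map_nsmul, hF, hF]

/-- An equivariant endomorphism commutes on `A[p]` with the whole ring of Hecke pairs. -/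
theorem s33r_comm_closure (F : Module.End ℤ A)
    (hF : ∀ (σ : G) (x : A), F (σ • x) = σ • F x)
    (hES : ∀ z ∈ gens, ∃ (σ : G) (n : ℕ), ∀ x : A, p • x = 0 →
      σ • σ • x - z.2 (σ • x) + n • x = 0)
    {z : 𝕋 × Module.End ℤ A} (hz : z ∈ Subring.closure gens) (x : A) (hx : p • x = 0) :
    F (z.2 x) = z.2 (F x) := by
  induction hz using Subring.closure_induction generalizing x with
  | mem z hz => exact s33r_comm_of_ES F z.2 hF (hES z hz) x hx
  | zero => rw [Prod.snd_zero, LinearMap.zero_apply, LinearMap.zero_apply, map_zero]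
  | one => rw [Prod.snd_one, Module.End.one_apply, Module.End.one_apply]
  | add a b _ _ ha hb =>
    rw [Prod.snd_add, LinearMap.add_apply, LinearMap.add_apply, map_add, ha x hx, hb x hx]
  | neg a _ ha => rw [Prod.snd_neg, LinearMap.neg_apply, LinearMap.neg_apply, map_neg, ha x hx]
  | mul a b _ _ ha hb =>
    have hbx : p • b.2 x = 0 := by rw [← map_nsmul, hx, map_zero]
    rw [Prod.snd_mul, Module.End.mul_apply, Module.End.mul_apply, ha _ hbx, hb x hx]

/-- The primary part is stable under every equivariant endomorphism. -/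
theorem s33r_primTors_stable (F : Module.End ℤ A)
    (hF : ∀ (σ : G) (x : A), F (σ • x) = σ • F x)
    (hES : ∀ z ∈ gens, ∃ (σ : G) (n : ℕ), ∀ x : A, p • x = 0 →
      σ • σ • x - z.2 (σ • x) + n • x = 0)
    {y : A} (hy : y ∈ s33r_primTors θ p gens) : F y ∈ s33r_primTors θ p gens := by
  obtain ⟨hy1, hy2⟩ := hy
  refine ⟨by rw [← map_nsmul, hy1, map_zero], fun z hz hθ => ?_⟩
  obtain ⟨j, hj⟩ := hy2 z hz hθ
  refine ⟨j, ?_⟩
  have key : ∀ (i : ℕ) (x : A), p • x = 0 → (z.2 ^ i) (F x) = F ((z.2 ^ i) x) := by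
    intro i
    induction i with
    | zero => intro x _; rw [pow_zero, Module.End.one_apply, Module.End.one_apply]
    | succ i ih =>
      intro x hx
      have hzx : p • z.2 x = 0 := by rw [← map_nsmul, hx, map_zero]
      rw [pow_succ, Module.End.mul_apply, Module.End.mul_apply,
        ← s33r_comm_closure F hF hES hz x hx, ih _ hzx]
  rw [key j y hy1, hj, map_zero]

/-- The primary part is stable under `G`. -/
theorem s33r_primTors_gal
    (hgenG : ∀ z ∈ gens, ∀ (σ : G) (x : A), z.2 (σ • x) = σ • z.2 x)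
    (σ : G) {y : A} (hy : y ∈ s33r_primTors θ p gens) : σ • y ∈ s33r_primTors θ p gens := by
  obtain ⟨hy1, hy2⟩ := hy
  refine ⟨by rw [smul_comm, hy1, smul_zero], fun z hz hθ => ?_⟩
  obtain ⟨j, hj⟩ := hy2 z hz hθ
  refine ⟨j, ?_⟩
  have key : ∀ (i : ℕ) (x : A), (z.2 ^ i) (σ • x) = σ • (z.2 ^ i) x := by
    intro i
    induction i with
    | zero => intro x; rw [pow_zero, Module.End.one_apply, Module.End.one_apply]
    | succ i ih =>
      intro x
      rw [pow_succ, Module.End.mul_apply, Module.End.mul_apply,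
        s33r_closure_equivariant hgenG hz, ih]
  rw [key j y, hj, smul_zero]

end Prim

end Fermat.Agent.Lib.S33

namespace Fermat.Agent.Lib.S33

section Rel

variable {𝕋 : Type*} [CommRing 𝕋] {A : Type*} [AddCommGroup A] {G : Type*} [Group G]
  [DistribMulAction G A] {k : Type*} [Field k] {θ : 𝕋 →+* k} {p : ℕ}
  {gens : Set (𝕋 × Module.End ℤ A)} {Y : Submodule ℤ A}
  {gensY : Set (𝕋 × Module.End ℤ ↥Y)}

/-- Every Hecke pair on `Y` is induced by a Hecke pair on `A`. -/
theorem s33r_exists_lift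
    (hrel : ∀ e ∈ gensY, ∃ z ∈ gens, z.1 = e.1 ∧ ∀ y : ↥Y, ((e.2 y : ↥Y) : A) = z.2 (y : A))
    {e : 𝕋 × Module.End ℤ ↥Y} (he : e ∈ Subring.closure gensY) :
    ∃ z ∈ Subring.closure gens, z.1 = e.1 ∧ ∀ y : ↥Y, ((e.2 y : ↥Y) : A) = z.2 (y : A) := by
  induction he using Subring.closure_induction with
  | mem e he =>
    obtain ⟨z, hz, h1, h2⟩ := hrel e he
    exact ⟨z, Subring.subset_closure hz, h1, h2⟩
  | zero => exact ⟨0, Subring.zero_mem _, rfl, fun y => rfl⟩
  | one => exact ⟨1, Subring.one_mem _, rfl, fun y => rfl⟩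
  | add a b _ _ ha hb =>
    obtain ⟨z, hz, h1, h2⟩ := ha
    obtain ⟨z', hz', h1', h2'⟩ := hb
    refine ⟨z + z', Subring.add_mem _ hz hz', by rw [Prod.fst_add, Prod.fst_add, h1, h1'],
      fun y => ?_⟩
    rw [Prod.snd_add, Prod.snd_add, LinearMap.add_apply, LinearMap.add_apply, Submodule.coe_add,
      h2, h2']
  | neg a _ ha =>
    obtain ⟨z, hz, h1, h2⟩ := ha
    refine ⟨-z, Subring.neg_mem _ hz, by rw [Prod.fst_neg, Prod.fst_neg, h1], fun y => ?_⟩
    rw [Prod.snd_neg, Prod.snd_neg, LinearMap.neg_apply, LinearMap.neg_apply, Submodule.coe_neg, h2]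
  | mul a b _ _ ha hb =>
    obtain ⟨z, hz, h1, h2⟩ := ha
    obtain ⟨z', hz', h1', h2'⟩ := hb
    refine ⟨z * z', Subring.mul_mem _ hz hz', by rw [Prod.fst_mul, Prod.fst_mul, h1, h1'],
      fun y => ?_⟩
    rw [Prod.snd_mul, Prod.snd_mul, Module.End.mul_apply, Module.End.mul_apply, h2, h2']

/-- powers of a lifted pair. -/
theorem s33r_lift_pow {e : 𝕋 × Module.End ℤ ↥Y} {z : 𝕋 × Module.End ℤ A}
    (h2 : ∀ y : ↥Y, ((e.2 y : ↥Y) : A) = z.2 (y : A)) (j : ℕ) (y : ↥Y) :
    (((e.2 ^ j) y : ↥Y) : A) = (z.2 ^ j) (y : A) := by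
  induction j generalizing y with
  | zero => rw [pow_zero, pow_zero, Module.End.one_apply, Module.End.one_apply]
  | succ j ih =>
    rw [pow_succ, pow_succ, Module.End.mul_apply, Module.End.mul_apply, ih, h2]

/-- **Nilpotency on the primary part**: a Hecke pair `(x, X)` on a finite `Y` inside the
`θ`-primary part with `θ x = 0` has `X` nilpotent. -/
theorem s33r_isNilpotent_of_primary [Finite ↥Y]
    (hrel : ∀ e ∈ gensY, ∃ z ∈ gens, z.1 = e.1 ∧ ∀ y : ↥Y, ((e.2 y : ↥Y) : A) = z.2 (y : A))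
    (hYprim : Y ≤ s33r_primTors θ p gens)
    {e : 𝕋 × Module.End ℤ ↥Y} (he : e ∈ Subring.closure gensY) (hθ : θ e.1 = 0) :
    IsNilpotent e.2 := by
  classical
  obtain ⟨z, hz, h1, h2⟩ := s33r_exists_lift hrel he
  have hθz : θ z.1 = 0 := by rw [h1, hθ]
  have hpt : ∀ y : ↥Y, ∃ j : ℕ, (e.2 ^ j) y = 0 := by
    intro y
    obtain ⟨j, hj⟩ := (hYprim y.2).2 z hz hθz
    refine ⟨j, Subtype.ext ?_⟩
    rw [s33r_lift_pow h2, hj, Submodule.coe_zero]
  choose J hJ using hpt
  haveI : Fintype ↥Y := Fintype.ofFinite _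
  refine ⟨Finset.univ.sup J, ?_⟩
  ext y
  have hle : J y ≤ Finset.univ.sup J := Finset.le_sup (Finset.mem_univ y)
  obtain ⟨m, hm⟩ := Nat.exists_eq_add_of_le hle
  rw [hm, add_comm, pow_add, Module.End.mul_apply, hJ, map_zero, LinearMap.zero_apply]

/-- Hecke pairs on `Y` commute with the `G`-action. -/
theorem s33r_comm_rhoY
    (hrel : ∀ e ∈ gensY, ∃ z ∈ gens, z.1 = e.1 ∧ ∀ y : ↥Y, ((e.2 y : ↥Y) : A) = z.2 (y : A))
    (hgenG : ∀ z ∈ gens, ∀ (σ : G) (x : A), z.2 (σ • x) = σ • z.2 x)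
    (hgal : ∀ σ : G, ∀ y ∈ Y, σ • y ∈ Y)
    {e : 𝕋 × Module.End ℤ ↥Y} (he : e ∈ Subring.closure gensY) (g : G) :
    e.2 * s33r_rhoY hgal g = s33r_rhoY hgal g * e.2 := by
  obtain ⟨z, hz, -, h2⟩ := s33r_exists_lift hrel he
  ext y
  rw [Module.End.mul_apply, Module.End.mul_apply, h2, s33r_rhoY_apply, s33r_rhoY_apply, h2,
    s33r_closure_equivariant hgenG hz]

/-- Hecke pairs on `Y` commute with (the restriction of) every equivariant endomorphism. -/
theorem s33r_comm_restrict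
    (hrel : ∀ e ∈ gensY, ∃ z ∈ gens, z.1 = e.1 ∧ ∀ y : ↥Y, ((e.2 y : ↥Y) : A) = z.2 (y : A))
    (hES : ∀ z ∈ gens, ∃ (σ : G) (n : ℕ), ∀ x : A, p • x = 0 →
      σ • σ • x - z.2 (σ • x) + n • x = 0)
    (htors : ∀ y ∈ Y, p • y = 0)
    (F : Module.End ℤ A) (hF : ∀ (σ : G) (x : A), F (σ • x) = σ • F x)
    (hFY : ∀ y ∈ Y, F y ∈ Y)
    {e : 𝕋 × Module.End ℤ ↥Y} (he : e ∈ Subring.closure gensY) :
    e.2 * F.restrict (p := Y) (q := Y) hFY = F.restrict (p := Y) (q := Y) hFY * e.2 := by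
  obtain ⟨z, hz, -, h2⟩ := s33r_exists_lift hrel he
  ext y
  rw [Module.End.mul_apply, Module.End.mul_apply, h2, LinearMap.coe_restrict_apply,
    LinearMap.coe_restrict_apply, h2, s33r_comm_closure F hF hES hz _ (htors y y.2)]

end Rel

end Fermat.Agent.Lib.S33
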