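/-
P-AT-P programme (S33), package [REAL'] (helper5), part 2: the residual representation of a
Hecke–Galois datum: trace/determinant functions, Cayley–Hamilton in dimension two, irreducibility over
the residue field, trace and determinant at Frobenius elements, and the ordinary line.
-/
import Fermat.Agent.Lib.S31.TraceOne
import Fermat.Agent.Lib.S31.Lucas
import Fermat.Agent.Lib.S53.MatrixRep
import Fermat.Prelude.Def_CuspForm_HeckeGaloisRepDatum
import Fermat.Prelude.Def_GaloisRep_LocalConditions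

set_option autoImplicit false
set_option linter.style.haveILetI false
set_option linter.unusedSectionVars false

namespace Fermat.Agent.Lib.S33

open Module Fermat.Agent.Lib.S31 Fermat.Agent.Lib.S53

local notation "Γℚ" => (AlgebraicClosure ℚ ≃ₐ[ℚ] AlgebraicClosure ℚ)

section TwoDim

variable {k : Type*} [Field k] {V : Type*} [AddCommGroup V] [Module k V]

/-- Cayley–Hamilton in dimension two: `f² = tr(f) f - det(f)`. -/
theorem s33r_sq_eq (hV : finrank k V = 2) (f : Module.End k V) :
    f * f = LinearMap.trace k V f • f - LinearMap.det f • (1 : Module.End k V) := by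
  have : Module.Finite k V := Module.finite_of_finrank_eq_succ hV
  set b : Basis (Fin 2) k V := Module.finBasisOfFinrankEq k V hV with hb
  apply (LinearMap.toMatrixAlgEquiv b).injective
  rw [map_mul, map_sub, map_smul, map_smul, map_one]
  have h := s31c_sq_eq (LinearMap.toMatrixAlgEquiv b f)
  rw [h]
  congr 2
  · rw [LinearMap.trace_eq_matrix_trace k b f]; rfl
  · rw [← LinearMap.det_toMatrix b f]; rfl

/-- `f + det(f) f⁻¹ = tr(f)` for an invertible endomorphism of a plane. -/
theorem s33r_add_det_inv (hV : finrank k V = 2) (f g : Module.End k V) (hfg : f * g = 1) :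
    f + LinearMap.det f • g = LinearMap.trace k V f • (1 : Module.End k V) := by
  have h := s33r_sq_eq hV f
  have h1 := congrArg (fun x => x * g) h
  simp only [sub_mul, smul_mul_assoc, one_mul, mul_assoc, hfg, mul_one] at h1
  have h2 : f + LinearMap.det f • g =
      (LinearMap.trace k V f • (1 : Module.End k V) - LinearMap.det f • g) + LinearMap.det f • g := by
    rw [← h1]
  rw [h2]
  abel

end TwoDim

end Fermat.Agent.Lib.S33

namespace Fermat.Agent.Lib.S33

open Module Polynomial IsLocalRing CuspForm Fermat.Agent.Lib.S31 Fermat.Agent.Lib.S53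

local notation "Γℚ" => (AlgebraicClosure ℚ ≃ₐ[ℚ] AlgebraicClosure ℚ)

section Irr

variable {k : Type*} [Field k] {V : Type*} [AddCommGroup V] [Module k V] {ι : Type*}

/-- A family of endomorphisms spanning `End_k V` has no proper invariant subspace. -/
theorem s33r_irr_of_span (r : ι → Module.End k V) (hspan : Submodule.span k (Set.range r) = ⊤)
    (W : Submodule k V) (hW : ∀ i, ∀ x ∈ W, r i x ∈ W) : W = ⊥ ∨ W = ⊤ := by
  by_cases hbot : W = ⊥
  · exact Or.inl hbot
  right
  obtain ⟨w, hwW, hw0⟩ := (Submodule.ne_bot_iff W).mp hbot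
  have hall : ∀ f : Module.End k V, ∀ x ∈ W, f x ∈ W := by
    intro f
    have hf : f ∈ Submodule.span k (Set.range r) := by rw [hspan]; trivial
    induction hf using Submodule.span_induction with
    | mem x hx =>
      obtain ⟨i, rfl⟩ := hx
      exact hW i
    | zero => intro x _; rw [LinearMap.zero_apply]; exact W.zero_mem
    | add f g _ _ hf hg => intro x hx; rw [LinearMap.add_apply]; exact W.add_mem (hf x hx) (hg x hx)
    | smul c f _ hf => intro x hx; rw [LinearMap.smul_apply]; exact W.smul_mem c (hf x hx)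
  have hinj : LinearMap.ker (LinearMap.toSpanSingleton k V w) = ⊥ := by
    rw [LinearMap.ker_eq_bot]
    intro a b hab
    simp only [LinearMap.toSpanSingleton_apply] at hab
    exact smul_left_injective k hw0 hab
  obtain ⟨φ, hφ⟩ := LinearMap.exists_leftInverse_of_injective _ hinj
  have hφw : φ w = 1 := by
    have := congrArg (fun f : k →ₗ[k] k => f 1) hφ
    simpa using this
  rw [eq_top_iff]
  intro v _
  have h1 := hall (φ.smulRight v) w hwW
  rwa [LinearMap.smulRight_apply, hφw, one_smul] at h1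

end Irr

section ResDefs

variable {k : Type} [Field k]

/-- The trace function of a residual representation. -/
noncomputable def s33r_resTr (ρb : ResidualGaloisRep k) (g : Γℚ) : k :=
  LinearMap.trace k ρb.V (ρb.ρ g)

/-- The determinant of a residual representation. -/
noncomputable def s33r_resDet (ρb : ResidualGaloisRep k) (g : Γℚ) : k :=
  LinearMap.det (ρb.ρ g)

/-- Cayley–Hamilton for a residual representation. -/
theorem s33r_res_CH (ρb : ResidualGaloisRep k) (g : Γℚ) :
    ρb.ρ g + s33r_resDet ρb g • ρb.ρ g⁻¹ = s33r_resTr ρb g • (1 : Module.End k ρb.V) :=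
  s33r_add_det_inv ρb.finrank_eq _ _ (by rw [← map_mul, mul_inv_cancel, map_one])

theorem s33r_resDet_mul (ρb : ResidualGaloisRep k) (g h : Γℚ) :
    s33r_resDet ρb (g * h) = s33r_resDet ρb g * s33r_resDet ρb h := by
  unfold s33r_resDet
  rw [map_mul, map_mul]

theorem s33r_resDet_pow (ρb : ResidualGaloisRep k) (g : Γℚ) (j : ℕ) :
    s33r_resDet ρb (g ^ j) = s33r_resDet ρb g ^ j := by
  unfold s33r_resDet
  rw [map_pow, map_pow]

theorem s33r_resDet_of_eq_one (ρb : ResidualGaloisRep k) (h : Γℚ) (hh : ρb.ρ h = 1) :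
    s33r_resDet ρb h = 1 := by
  unfold s33r_resDet
  rw [hh, map_one]

end ResDefs

section Res

variable {p : ℕ} {N : ℕ} [NeZero N] {S : Finset ℕ}
  {𝒪 : Type} [CommRing 𝒪] [IsDomain 𝒪] [IsDiscreteValuationRing 𝒪]
  [IsAdicComplete (IsLocalRing.maximalIdeal 𝒪) 𝒪]
  {θ : CuspForm.heckeAlgebra N 2 (↑S : Set ℕ) →+* IsLocalRing.ResidueField 𝒪}
  {T : Type} [CommRing T] [IsLocalRing T] [IsNoetherianRing T]
  [IsAdicComplete (IsLocalRing.maximalIdeal T) T] [Algebra 𝒪 T] [IsLocalHom (algebraMap 𝒪 T)]
  [Module.Finite 𝒪 T] [Module.Free 𝒪 T]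
  (H : CuspForm.HeckeGaloisRepDatum N (↑S : Set ℕ) 𝒪 θ T)

/-- The residual eigensystem with values in the residue field of `T`. -/
noncomputable def s33r_thetaT : CuspForm.heckeAlgebra N 2 (↑S : Set ℕ) →+* ResidueField T :=
  (IsLocalRing.residue T).comp H.π

theorem s33r_thetaT_apply (x : CuspForm.heckeAlgebra N 2 (↑S : Set ℕ)) :
    s33r_thetaT H x = IsLocalRing.residue T (H.π x) := rfl

theorem s33r_thetaT_eq_zero_iff (x : CuspForm.heckeAlgebra N 2 (↑S : Set ℕ)) :
    s33r_thetaT H x = 0 ↔ θ x = 0 := by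
  rw [s33r_thetaT_apply, H.residue_π]
  exact map_eq_zero _

/-- The residual representation is irreducible over the residue field. -/
theorem s33r_res_irr (W : Submodule (ResidueField T) H.ρ.residual.V)
    (hW : ∀ g : Γℚ, ∀ x ∈ W, H.ρ.residual.ρ g x ∈ W) : W = ⊥ ∨ W = ⊤ := by
  haveI : Nontrivial H.ρ.residual.V := by
    apply Module.nontrivial_of_finrank_pos (R := IsLocalRing.ResidueField T)
    rw [H.ρ.residual.finrank_eq]
    norm_num
  have hspan : Submodule.span (ResidueField T) (Set.range fun g : Γℚ => H.ρ.residual.ρ g) = ⊤ := by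
    apply s31a_span_eq_top_of_trace (V := H.ρ.residual.V) (fun g : Γℚ => H.ρ.residual.ρ g)
    intro y hy
    exact s31a_eq_zero_of_trace_absIrr (AlgebraicClosure (IsLocalRing.ResidueField T))
      H.ρ.residual.ρ H.residual_absIrr y hy
  exact s33r_irr_of_span _ hspan W hW

/-- The characteristic polynomial of a Frobenius element on the residual representation. -/
theorem s33r_res_charpoly (ℓ : ℕ) (hℓ : ℓ.Prime) (hℓN : ¬ ℓ ∣ N) (hℓS : ℓ ∉ (↑S : Set ℕ))
    (A : ValuationSubring (AlgebraicClosure ℚ)) (hA : A.LiesOverPrime ℓ)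
    (σ : Γℚ) (hσ : A.IsFrobeniusAt σ ℓ) :
    LinearMap.charpoly (H.ρ.residual.ρ σ) =
      X ^ 2 - C (s33r_thetaT H (heckeAlgebra.T hℓ hℓN hℓS)) * X + C ((ℓ : ResidueField T)) := by
  have h := H.charpoly_frob ℓ hℓ hℓN hℓS A hA σ hσ
  have h1 : LinearMap.charpoly (H.ρ.residual.ρ σ) =
      (LinearMap.charpoly (H.ρ.ρ σ)).map (algebraMap T (ResidueField T)) :=
    LinearMap.charpoly_baseChange (H.ρ.ρ σ) (ResidueField T)
  rw [h1, h, Polynomial.map_add, Polynomial.map_sub, Polynomial.map_mul, Polynomial.map_pow,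
    Polynomial.map_X, Polynomial.map_C, Polynomial.map_C, map_natCast, s33r_thetaT_apply]
  rfl

/-- Trace and determinant of a Frobenius element on the residual representation. -/
theorem s33r_res_trace_det (ℓ : ℕ) (hℓ : ℓ.Prime) (hℓN : ¬ ℓ ∣ N) (hℓS : ℓ ∉ (↑S : Set ℕ))
    (A : ValuationSubring (AlgebraicClosure ℚ)) (hA : A.LiesOverPrime ℓ)
    (σ : Γℚ) (hσ : A.IsFrobeniusAt σ ℓ) :
    s33r_resTr H.ρ.residual σ = s33r_thetaT H (heckeAlgebra.T hℓ hℓN hℓS) ∧
      s33r_resDet H.ρ.residual σ = (ℓ : ResidueField T) := by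
  unfold s33r_resTr s33r_resDet
  have h := s33r_res_charpoly H ℓ hℓ hℓN hℓS A hA σ hσ
  set b := H.ρ.residual.someBasis with hb
  rw [← LinearMap.charpoly_toMatrix (H.ρ.residual.ρ σ) b, Matrix.charpoly_fin_two] at h
  have h1 := congrArg (fun P : (ResidueField T)[X] => P.coeff 1) h
  have h0 := congrArg (fun P : (ResidueField T)[X] => P.coeff 0) h
  simp only [coeff_add, coeff_sub, coeff_X_pow, coeff_C_mul, coeff_X_one, coeff_C_succ,
    coeff_X_zero, coeff_C_zero, mul_one, mul_zero] at h1 h0
  norm_num at h1 h0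
  refine ⟨?_, ?_⟩
  · rw [LinearMap.trace_eq_matrix_trace (ResidueField T) b]
    exact h1
  · exact h0

end Res

end Fermat.Agent.Lib.S33

namespace Fermat.Agent.Lib.S33

open Module Polynomial IsLocalRing CuspForm Fermat.Agent.Lib.S31 Fermat.Agent.Lib.S53

local notation "Γℚ" => (AlgebraicClosure ℚ ≃ₐ[ℚ] AlgebraicClosure ℚ)

section Line

variable {k : Type*} [Field k] {V : Type*} [AddCommGroup V] [Module k V]

theorem s33r_span_ne_bot (b : Basis (Fin 2) k V) : Submodule.span k {b 0} ≠ ⊥ := by
  intro h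
  have h1 : b 0 ∈ Submodule.span k {b 0} := Submodule.mem_span_singleton_self _
  rw [h, Submodule.mem_bot] at h1
  exact b.ne_zero 0 h1

theorem s33r_span_ne_top (b : Basis (Fin 2) k V) : Submodule.span k {b 0} ≠ ⊤ := by
  intro h
  have h1 : b 1 ∈ Submodule.span k {b 0} := by rw [h]; trivial
  rw [Submodule.mem_span_singleton] at h1
  obtain ⟨c, hc⟩ := h1
  have h2 := congrArg (fun v => b.repr v 1) hc
  simp only [map_smul, Basis.repr_self, Finsupp.smul_apply, Finsupp.single_apply] at h2
  simp at h2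

/-- An endomorphism of a plane acting trivially modulo the line `k b₀` acts on that line through
its determinant. -/
theorem s33r_line_char (b : Basis (Fin 2) k V) (f : Module.End k V)
    (hf : ∀ v : V, f v - v ∈ Submodule.span k {b 0}) :
    ∀ v ∈ Submodule.span k {b 0}, f v = LinearMap.det f • v := by
  intro v hv
  have h0 := hf (b 0)
  have h1 := hf (b 1)
  rw [Submodule.mem_span_singleton] at h0 h1
  obtain ⟨c0, hc0⟩ := h0
  obtain ⟨c1, hc1⟩ := h1
  have e0 : f (b 0) = (c0 + 1) • b 0 := by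
    rw [add_smul, one_smul, hc0]; abel
  have e1 : f (b 1) = b 1 + c1 • b 0 := by
    rw [hc1]; abel
  have hdet : LinearMap.det f = c0 + 1 := by
    rw [← LinearMap.det_toMatrix b, Matrix.det_fin_two, LinearMap.toMatrix_apply,
      LinearMap.toMatrix_apply, LinearMap.toMatrix_apply, LinearMap.toMatrix_apply, e0, e1]
    simp
  rw [Submodule.mem_span_singleton] at hv
  obtain ⟨c, rfl⟩ := hv
  rw [map_smul, e0, hdet, smul_comm]

end Line

section ResLine

variable {k : Type} [Field k]

/-- **The ordinary line of a residually ordinary representation**: inertia at `P` acts trivially on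
`V / L` and through the determinant on `L`. -/
theorem s33r_res_line (ρb : ResidualGaloisRep k) (p : ℕ)
    (hres : (GaloisRepAdic.ofResidualGaloisRep ρb).IsOrdinaryAt p)
    (P : ValuationSubring (AlgebraicClosure ℚ)) (hP : P.LiesOverPrime p) :
    ∃ L : Submodule k ρb.V, L ≠ ⊥ ∧ L ≠ ⊤ ∧
      (∀ σ ∈ P.inertiaSubgroupIn ℚ, ∀ v : ρb.V, ρb.ρ σ v - v ∈ L) ∧
      (∀ σ ∈ P.inertiaSubgroupIn ℚ, ∀ v ∈ L, ρb.ρ σ v = s33r_resDet ρb σ • v) := by
  obtain ⟨L, ⟨b, hLb⟩, -, hI⟩ := hres P hP
  subst hLb
  exact ⟨_, s33r_span_ne_bot b, s33r_span_ne_top b, hI,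
    fun σ hσ v hv => s33r_line_char b _ (hI σ hσ) v hv⟩

end ResLine

end Fermat.Agent.Lib.S33
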