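/-
P-AT-P programme (S33), package [REAL'] (helper5), part 5: the mod-`p` cyclotomic character `s33r_chi`,
Frobenius density at finite level for the triple (`J₀(M)[p]`, `μ_p`, residual representation) with an
ARBITRARY finite set `S₁ ⊇ S` of excluded primes and an ARBITRARY level `M` whose primes lie in `S₁`,
`det ρ̄ = χ`, and the density statement `s33r_dens_Y` on a Galois- and Hecke-stable subgroup
`Y ≤ J₀(M)[p]`:  every pair `(tr ρ̄(g), ρ_Y(g) + χ(g) ρ_Y(g)⁻¹)` lies in the ring of Hecke pairs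
generated by the `(T_ℓ, T_ℓ|Y)`, `ℓ ∉ S₁`.
-/
import Fermat.Agent.Lib.S33.RealRes
import Fermat.Agent.Lib.S33.RealLucas
import Fermat.Agent.Lib.S31.Compare
import Fermat.Agent.Lib.S31.WireDefs
import Fermat.Agent.Lib.S31.FrobWire
import Fermat.Agent.Lib.S30.TateLevel
import Fermat.Agent.Lib.S30.CycB

set_option autoImplicit false
set_option linter.style.haveILetI false
set_option linter.unusedSectionVars false

namespace Fermat.Agent.Lib.S33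

open Module Polynomial IsLocalRing CuspForm ModularCurve
open Fermat.Agent.Lib.S29 Fermat.Agent.Lib.S30 Fermat.Agent.Lib.S31 Fermat.Agent.Lib.S53

local notation "Γℚ" => (AlgebraicClosure ℚ ≃ₐ[ℚ] AlgebraicClosure ℚ)
local notation "Kb" => AlgebraicClosure ℚ

noncomputable section

section Chi

variable (p : ℕ) [Fact p.Prime]

/-- The mod-`p` cyclotomic character of `G_ℚ`. -/
def s33r_chi : Γℚ →* (ZMod p)ˣ :=
  (Units.map (PadicInt.toZMod (p := p)).toMonoidHom).comp (s30y_eps p)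

theorem s33r_chi_val (σ : Γℚ) :
    ((s33r_chi p σ : (ZMod p)ˣ) : ZMod p) =
      PadicInt.toZMod ((s30y_eps p σ : ℤ_[p]ˣ) : ℤ_[p]) := rfl

/-- `σ` acts on `μ_p` through `χ σ`. -/
theorem s33r_chi_eq_of_acts (σ : Γℚ) (a : ℕ) (h : ∀ ζ : Kb, ζ ^ p = 1 → σ ζ = ζ ^ a) :
    (a : ZMod p) = ((s33r_chi p σ : (ZMod p)ˣ) : ZMod p) := by
  obtain ⟨ζ, hζ⟩ := s30y_exists_primitiveRoot p 1
  have h1 := s30y_toZModPow_eq p σ 1 hζ a (h ζ (by have := hζ.pow_eq_one; rwa [pow_one] at this))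
  -- `ε σ - a ∈ ker (toZModPow 1) = (p)`
  have h2 : ((s30y_eps p σ : ℤ_[p]ˣ) : ℤ_[p]) - (a : ℤ_[p]) ∈
      RingHom.ker (PadicInt.toZModPow (p := p) 1) := by
    rw [RingHom.mem_ker, map_sub, h1, map_natCast, sub_self]
  rw [PadicInt.ker_toZModPow, pow_one, ← PadicInt.maximalIdeal_eq_span_p,
    ← PadicInt.ker_toZMod, RingHom.mem_ker, map_sub, map_natCast, sub_eq_zero] at h2
  rw [s33r_chi_val, h2]

/-- the value of `χ` at a Frobenius element. -/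
theorem s33r_chi_frob (ℓ : ℕ) (hℓ : ℓ.Prime) (hℓp : ℓ ≠ p)
    (A : ValuationSubring Kb) (hA : A.LiesOverPrime ℓ) (σ : Γℚ) (hσ : A.IsFrobeniusAt σ ℓ) :
    ((s33r_chi p σ : (ZMod p)ˣ) : ZMod p) = (ℓ : ZMod p) := by
  have h := (s30y_cycDatum p).frob ℓ hℓ hℓp A hA σ hσ
  have h' : ((s30y_eps p σ : ℤ_[p]ˣ) : ℤ_[p]) = (ℓ : ℤ_[p]) := h
  rw [s33r_chi_val, h', map_natCast]

end Chi

section Level

variable {p : ℕ} [Fact p.Prime] {N : ℕ} [NeZero N] {S : Finset ℕ}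
  {𝒪 : Type} [CommRing 𝒪] [IsDomain 𝒪] [IsDiscreteValuationRing 𝒪]
  [IsAdicComplete (IsLocalRing.maximalIdeal 𝒪) 𝒪]
  {θ : CuspForm.heckeAlgebra N 2 (↑S : Set ℕ) →+* IsLocalRing.ResidueField 𝒪}
  {T : Type} [CommRing T] [IsLocalRing T] [IsNoetherianRing T]
  [IsAdicComplete (IsLocalRing.maximalIdeal T) T] [Algebra 𝒪 T] [IsLocalHom (algebraMap 𝒪 T)]
  [Module.Finite 𝒪 T] [Module.Free 𝒪 T]
  (H : CuspForm.HeckeGaloisRepDatum N (↑S : Set ℕ) 𝒪 θ T)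

/-- A finite Galois-stable level trivialising `J₀(M)[p]`, `μ_p` and the residual representation. -/
theorem s33r_exists_level (M : ℕ) [NeZero M] :
    ∃ L : IntermediateField ℚ Kb, FiniteDimensional ℚ L ∧
      (∀ σ : Γℚ, ∀ x ∈ L, σ x ∈ L) ∧
      ∀ σ : Γℚ, (∀ x ∈ L, σ x = x) →
        (∀ x : JZero M, p • x = 0 → σ • x = x) ∧ s33r_chi p σ = 1 ∧ H.ρ.residual.ρ σ = 1 := by
  have hp : p.Prime := Fact.out
  haveI : NeZero p := ⟨hp.ne_zero⟩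
  obtain ⟨L₁, hL₁, -, h₁⟩ := s30a_exists_level M p
  obtain ⟨L₂, hL₂, -, h₂⟩ := (s30y_cycDatum p).cont 1
  obtain ⟨L₃, hL₃, h₃⟩ := H.ρ.residual.factorsThroughFiniteLevel
  have hcl : IsAlgClosure ℚ Kb := ⟨inferInstance, AlgebraicClosure.isAlgebraic ℚ⟩
  have hnQ : Normal ℚ Kb := IsAlgClosure.normal ℚ Kb
  set L₀ : IntermediateField ℚ Kb := L₁ ⊔ L₂ ⊔ L₃ with hL₀
  have hfd12 : FiniteDimensional ℚ (L₁ ⊔ L₂ : IntermediateField ℚ Kb) :=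
    IntermediateField.finiteDimensional_sup L₁ L₂
  have hfd : FiniteDimensional ℚ L₀ := IntermediateField.finiteDimensional_sup (L₁ ⊔ L₂) L₃
  set L : IntermediateField ℚ Kb := IntermediateField.normalClosure ℚ L₀ Kb with hL
  have hle : L₀ ≤ L := IntermediateField.le_normalClosure L₀
  have hnorm : Normal ℚ L := normalClosure.normal ℚ L₀ Kb
  have hle1 : L₁ ≤ L := le_trans (le_trans le_sup_left le_sup_left) hle
  have hle2 : L₂ ≤ L := le_trans (le_trans le_sup_right le_sup_left) hle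
  have hle3 : L₃ ≤ L := le_trans le_sup_right hle
  refine ⟨L, normalClosure.is_finiteDimensional ℚ L₀ Kb, fun σ y hy => ?_,
    fun σ hσ => ⟨fun x hx => ?_, ?_, ?_⟩⟩
  · have h1 := IntermediateField.normal_iff_forall_map_le'.mp hnorm σ
    exact h1 ((IntermediateField.mem_map _).mpr ⟨y, hy, rfl⟩)
  · refine h₁ σ (fun y hy => hσ y (hle1 hy)) x ?_
    rw [natCast_zsmul]
    exact hx
  · obtain ⟨w, hw⟩ := h₂ σ (fun y hy => hσ y (hle2 hy))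
    apply Units.ext
    rw [s33r_chi_val, Units.val_one]
    have hw' : ((s30y_eps p σ : ℤ_[p]ˣ) : ℤ_[p]) = 1 + (p : ℤ_[p]) ^ 1 * w := by
      have : ((s30y_eps p σ : ℤ_[p]ˣ) : ℤ_[p]) - 1 = (p : ℤ_[p]) ^ 1 * w := hw
      rw [← this]; ring
    rw [hw', map_add, map_one, map_mul, pow_one, map_natCast, ZMod.natCast_self, zero_mul,
      add_zero]
  · exact h₃ σ (fun y hy => hσ y (hle3 hy))

/-- **Frobenius density at finite level** (raw form): every `g` is `σ ^ j * h` with `σ` a Frobenius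
element at a prime `ℓ ∉ S` and `h` acting trivially on `J₀(M)[p]`, `μ_p` and the residual
representation. -/
theorem s33r_dens_raw (hpS : p ∈ S) (hNS : ∀ q : ℕ, q.Prime → q ∣ N → q ∈ S)
    (S₁ : Finset ℕ) (hSS₁ : S ⊆ S₁)
    (M : ℕ) [NeZero M] (hMS : ∀ q : ℕ, q.Prime → q ∣ M → q ∈ S₁) (g : Γℚ) :
    ∃ (ℓ : ℕ) (hℓ : ℓ.Prime) (σ h : Γℚ) (j : ℕ), ℓ ∉ S₁ ∧ g = σ ^ j * h ∧
      (∀ x : JZero M, p • x = 0 → h • x = x) ∧ s33r_chi p h = 1 ∧ H.ρ.residual.ρ h = 1 ∧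
      (∀ x : JZero M, p • x = 0 →
        σ • σ • x - heckeOperatorBar M ⟨ℓ, hℓ⟩ (σ • x) + ℓ • x = 0) ∧
      ((s33r_chi p σ : (ZMod p)ˣ) : ZMod p) = (ℓ : ZMod p) ∧
      s33r_resTr H.ρ.residual σ = s33r_thetaT H (s31e_tau N S ℓ) ∧
      s33r_resDet H.ρ.residual σ = (ℓ : ResidueField T) := by
  obtain ⟨L, hfd, hstab, hL⟩ := s33r_exists_level (p := p) H M
  obtain ⟨ℓ, A, σ, j, hℓ, hℓS₁, hA, hFr, hj⟩ := s29d_frobDensity L hfd hstab S₁ g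
  have hℓS : ℓ ∉ S := fun h => hℓS₁ (hSS₁ h)
  obtain ⟨hℓN, hℓp, -⟩ := s31f_not_dvd N p hpS hNS hℓ hℓS
  obtain ⟨-, -, hℓMp⟩ := s31f_not_dvd M p (hSS₁ hpS) hMS hℓ hℓS₁
  have hℓS' : ℓ ∉ (↑S : Set ℕ) := fun h => hℓS (Finset.mem_coe.mp h)
  have hfix : ∀ x ∈ L, ((σ ^ j)⁻¹ * g) x = x := by
    intro x hx
    rw [AlgEquiv.mul_apply, ← hj x hx]
    exact (σ ^ j).symm_apply_apply x
  obtain ⟨h1, h2, h3⟩ := hL _ hfix
  obtain ⟨h4, h5⟩ := s33r_res_trace_det H ℓ hℓ hℓN hℓS' A hA σ hFr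
  refine ⟨ℓ, hℓ, σ, (σ ^ j)⁻¹ * g, j, hℓS₁, by rw [mul_inv_cancel_left], h1, h2, h3, ?_,
    s33r_chi_frob p ℓ hℓ hℓp A hA σ hFr, ?_, h5⟩
  · intro x hx
    exact s29g_frobenius_quadratic M p ℓ hℓ hℓMp A hA σ hFr x 1 (by rw [pow_one]; exact hx)
  · rw [h4, s31e_tau_of N S hℓ hℓN hℓS']

/-- traces of powers in dimension two. -/
theorem s33r_trace_pow {k : Type*} [Field k] {V : Type*} [AddCommGroup V] [Module k V]
    (hV : finrank k V = 2) (f : Module.End k V) (j : ℕ) :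
    LinearMap.trace k V (f ^ j) = s31c_lucas (LinearMap.trace k V f) (LinearMap.det f) j := by
  have : Module.Finite k V := Module.finite_of_finrank_eq_succ hV
  set b : Basis (Fin 2) k V := Module.finBasisOfFinrankEq k V hV with hb
  have h1 : ∀ u : Module.End k V, LinearMap.trace k V u = (LinearMap.toMatrixAlgEquiv b u).trace :=
    fun u => LinearMap.trace_eq_matrix_trace k b u
  have h2 : LinearMap.det f = (LinearMap.toMatrixAlgEquiv b f).det :=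
    (LinearMap.det_toMatrix b f).symm
  rw [h1, h1, h2, map_pow, s31c_trace_pow]

/-- traces of `σ ^ j * h` on a residual representation when `h` acts trivially. -/
theorem s33r_resTr_pow_mul {k : Type} [Field k] (ρb : ResidualGaloisRep k) (σ h : Γℚ) (j : ℕ)
    (hh : ρb.ρ h = 1) :
    s33r_resTr ρb (σ ^ j * h) = s31c_lucas (s33r_resTr ρb σ) (s33r_resDet ρb σ) j := by
  have e1 : ρb.ρ (σ ^ j * h) = ρb.ρ σ ^ j := by
    rw [map_mul, hh, mul_one, map_pow]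
  unfold s33r_resTr s33r_resDet
  rw [e1, s33r_trace_pow ρb.finrank_eq]

/-- **The determinant of the residual representation is the mod-`p` cyclotomic character.** -/
theorem s33r_resDet_eq_chi [CharP (ResidueField T) p]
    (hpS : p ∈ S) (hNS : ∀ q : ℕ, q.Prime → q ∣ N → q ∈ S) (g : Γℚ) :
    s33r_resDet H.ρ.residual g =
      (ZMod.cast ((s33r_chi p g : (ZMod p)ˣ) : ZMod p) : ResidueField T) := by
  obtain ⟨ℓ, hℓ, σ, h, j, -, rfl, -, hχh, hρh, -, hχσ, -, hdet⟩ :=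
    s33r_dens_raw (p := p) H hpS hNS S (Finset.Subset.refl S) N hNS g
  rw [s33r_resDet_mul, s33r_resDet_pow, s33r_resDet_of_eq_one _ h hρh, mul_one, hdet, map_mul,
    map_pow, hχh, mul_one, Units.val_pow_eq_pow_val, hχσ]
  have e : (ZMod.cast ((ℓ : ZMod p) ^ j) : ResidueField T) =
      ZMod.castHom (dvd_refl p) (ResidueField T) ((ℓ : ZMod p) ^ j) := (ZMod.castHom_apply _).symm
  rw [e, map_pow, map_natCast]

end Level

end

end Fermat.Agent.Lib.S33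

namespace Fermat.Agent.Lib.S33

open Module Polynomial IsLocalRing CuspForm ModularCurve
open Fermat.Agent.Lib.S29 Fermat.Agent.Lib.S30 Fermat.Agent.Lib.S31 Fermat.Agent.Lib.S53

local notation "Γℚ" => (AlgebraicClosure ℚ ≃ₐ[ℚ] AlgebraicClosure ℚ)
local notation "Kb" => AlgebraicClosure ℚ

noncomputable section

section Y

variable (M : ℕ) [NeZero M] (p : ℕ) (S₁ : Finset ℕ)

/-- A subgroup of `J₀(M)[p]` stable under Galois and the Hecke operators `T_ℓ`, `ℓ ∉ S₁`. -/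
structure s33r_Stable (Y : Submodule ℤ (JZero M)) : Prop where
  tors : ∀ y ∈ Y, p • y = 0
  gal : ∀ σ : Γℚ, ∀ y ∈ Y, σ • y ∈ Y
  hecke : ∀ ℓ : Nat.Primes, (ℓ : ℕ) ∉ S₁ → ∀ y ∈ Y, heckeOperatorBar M ℓ y ∈ Y

variable {M p S₁}
variable {Y : Submodule ℤ (JZero M)} (hY : s33r_Stable M p S₁ Y)

open Classical in
/-- The Hecke operators on `Y` (junk value `0` at `ℓ ∈ S₁` or non-prime `ℓ`). -/
def s33r_TY (ℓ : ℕ) : Module.End ℤ ↥Y :=
  if h : ℓ.Prime ∧ ℓ ∉ S₁ then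
    (heckeOperatorBar M ⟨ℓ, h.1⟩).restrict (p := Y) (q := Y) (hY.hecke ⟨ℓ, h.1⟩ h.2)
  else 0

theorem s33r_TY_of {ℓ : ℕ} (hℓ : ℓ.Prime) (hℓS : ℓ ∉ S₁) :
    s33r_TY hY ℓ =
      (heckeOperatorBar M ⟨ℓ, hℓ⟩).restrict (p := Y) (q := Y) (hY.hecke ⟨ℓ, hℓ⟩ hℓS) := by
  unfold s33r_TY
  rw [dif_pos ⟨hℓ, hℓS⟩]

theorem s33r_TY_apply {ℓ : ℕ} (hℓ : ℓ.Prime) (hℓS : ℓ ∉ S₁) (y : ↥Y) :
    ((s33r_TY hY ℓ y : ↥Y) : JZero M) = heckeOperatorBar M ⟨ℓ, hℓ⟩ (y : JZero M) := by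
  rw [s33r_TY_of hY hℓ hℓS]
  rfl

end Y

section Dens

variable {p : ℕ} [Fact p.Prime] {N : ℕ} [NeZero N] {S : Finset ℕ}
  {𝒪 : Type} [CommRing 𝒪] [IsDomain 𝒪] [IsDiscreteValuationRing 𝒪]
  [IsAdicComplete (IsLocalRing.maximalIdeal 𝒪) 𝒪]
  {θ : CuspForm.heckeAlgebra N 2 (↑S : Set ℕ) →+* IsLocalRing.ResidueField 𝒪}
  {T : Type} [CommRing T] [IsLocalRing T] [IsNoetherianRing T]
  [IsAdicComplete (IsLocalRing.maximalIdeal T) T] [Algebra 𝒪 T] [IsLocalHom (algebraMap 𝒪 T)]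
  [Module.Finite 𝒪 T] [Module.Free 𝒪 T]
  (H : CuspForm.HeckeGaloisRepDatum N (↑S : Set ℕ) 𝒪 θ T)
  {M : ℕ} [NeZero M] {S₁ : Finset ℕ} {Y : Submodule ℤ (JZero M)} (hY : s33r_Stable M p S₁ Y)

/-- The generating Hecke pairs on `Y`. -/
def s33r_gensY : Set (CuspForm.heckeAlgebra N 2 (↑S : Set ℕ) × Module.End ℤ ↥Y) :=
  {z | ∃ ℓ : ℕ, ℓ.Prime ∧ ℓ ∉ S₁ ∧ z = (s31e_tau N S ℓ, s33r_TY hY ℓ)}

theorem s33r_mem_gensY {z : CuspForm.heckeAlgebra N 2 (↑S : Set ℕ) × Module.End ℤ ↥Y} :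
    z ∈ s33r_gensY (N := N) hY ↔
      ∃ ℓ : ℕ, ℓ.Prime ∧ ℓ ∉ S₁ ∧ z = (s31e_tau N S ℓ, s33r_TY hY ℓ) := Iff.rfl

set_option maxHeartbeats 1000000 in
/-- **Frobenius density on `Y`**: for every `g` the pair `(tr ρ̄(g), ρ_Y(g) + χ(g) ρ_Y(g)⁻¹)` comes from
the ring of Hecke pairs. -/
theorem s33r_dens_Y (hpS : p ∈ S) (hNS : ∀ q : ℕ, q.Prime → q ∣ N → q ∈ S)
    (hSS₁ : S ⊆ S₁) (hMS : ∀ q : ℕ, q.Prime → q ∣ M → q ∈ S₁) (g : Γℚ) :
    ∃ e ∈ Subring.closure (s33r_gensY (N := N) hY),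
      s33r_thetaT H e.1 = s33r_resTr H.ρ.residual g ∧
      e.2 = s33r_rhoY hY.gal g +
        (((s33r_chi p g : (ZMod p)ˣ) : ZMod p).val) • s33r_rhoY hY.gal g⁻¹ := by
  obtain ⟨ℓ, hℓ, σ, h, j, hℓS, rfl, hhJ, hχh, hρh, hES, hχσ, htr, hdet⟩ :=
    s33r_dens_raw (p := p) H hpS hNS S₁ hSS₁ M hMS g
  have hsmem : (s31e_tau N S ℓ, s33r_TY hY ℓ) ∈ Subring.closure (s33r_gensY (N := N) hY) :=
    Subring.subset_closure ((s33r_mem_gensY hY).mpr ⟨ℓ, hℓ, hℓS, rfl⟩)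
  refine ⟨s31c_lucas (s31e_tau N S ℓ, s33r_TY hY ℓ) ((ℓ : ℕ) : _ × _) j,
    s33r_lucas_mem _ hsmem (natCast_mem _ ℓ) j, ?_, ?_⟩
  · -- the trace
    rw [s33r_resTr_pow_mul H.ρ.residual σ h j hρh, htr, hdet, s33r_lucas_fst, s31c_lucas_map,
      map_natCast]
  · -- the Hecke side
    rw [s33r_lucas_snd, s33r_TY_of hY hℓ hℓS]
    refine s33r_lucas_abs hY.gal p hY.tors _ _ ℓ σ h j _ hhJ hES ?_
    rw [ZMod.natCast_val, ZMod.cast_id', id, map_mul, map_pow, hχh, mul_one,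
      Units.val_pow_eq_pow_val, hχσ, Nat.cast_pow]

end Dens

end

end Fermat.Agent.Lib.S33
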