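/-
P-AT-P programme (S33), package [REAL'] (helper5): THE RESIDUAL INPUTS OF `s33r_main` / `s33r_main_sub`
as standalone lemmas (they depend neither on a level nor on a subgroup `Y`).

For a Hecke–Galois datum `H` (hypotheses of S33), `k := ResidueField T`, `V := H.ρ.residual.V`,
`ρV := H.ρ.residual.ρ`, `χ := s33r_chi p` (mod-`p` cyclotomic character), `trV := s33r_resTr H.ρ.residual`:

* `s33r_finite_res`, `s33r_charP_res` : `k` is finite of characteristic `p`;
* `s33r_hCHV`        : `ρV g + χ(g) • ρV g⁻¹ = trV g • 1`;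
* `s33r_line_chi`    : the ordinary line `L` (`L ≠ ⊥`, `L ≠ ⊤`, inertia at `P` trivial on `V / L`, acting
                       through `χ` on `L`);
* `s33r_exists_tau`  : `∃ τ ∈ I_P, (∀ ζ ∈ μ_p, τ ζ = ζ²) ∧ χ τ ≠ 1`  (`p` odd);
* `s33r_isMuType_of_chi` : a `p`-torsion point on which `I_P` acts through `χ` is of `μ_p`-type.
(`s33r_chi_val : χ σ = (ε σ mod p)`, `s33r_chi_eq_of_acts`, `s33r_resDet_eq_chi` are in `RealDens.lean`,
`s33r_res_irr` in `RealRes.lean`.)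
-/
import Fermat.Agent.Lib.S33.RealDens
import Fermat.Agent.Lib.S33.TopIface
import Fermat.Agent.Lib.S33.GTau0

set_option autoImplicit false
set_option linter.style.haveILetI false
set_option linter.unusedSectionVars false

namespace Fermat.Agent.Lib.S33

open Module Polynomial IsLocalRing CuspForm ModularCurve AlgebraicCurve
open Fermat.Agent.Lib.S29 Fermat.Agent.Lib.S30 Fermat.Agent.Lib.S31 Fermat.Agent.Lib.S53

local notation "Γℚ" => (AlgebraicClosure ℚ ≃ₐ[ℚ] AlgebraicClosure ℚ)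
local notation "Kb" => AlgebraicClosure ℚ

noncomputable section

section Resid

variable {p : ℕ} [Fact p.Prime] {N : ℕ} [NeZero N] {S : Finset ℕ}
  {𝒪 : Type} [CommRing 𝒪] [IsDomain 𝒪] [IsDiscreteValuationRing 𝒪]
  [IsAdicComplete (IsLocalRing.maximalIdeal 𝒪) 𝒪]
  {θ : CuspForm.heckeAlgebra N 2 (↑S : Set ℕ) →+* IsLocalRing.ResidueField 𝒪}
  {T : Type} [CommRing T] [IsLocalRing T] [IsNoetherianRing T]
  [IsAdicComplete (IsLocalRing.maximalIdeal T) T] [Algebra 𝒪 T] [IsLocalHom (algebraMap 𝒪 T)]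
  [Module.Finite 𝒪 T] [Module.Free 𝒪 T]
  (H : CuspForm.HeckeGaloisRepDatum N (↑S : Set ℕ) 𝒪 θ T)

/-- The residue field of `T` is finite. -/
theorem s33r_finite_res [Finite (IsLocalRing.ResidueField 𝒪)] : Finite (ResidueField T) :=
  IsLocalRing.ResidueField.finite_of_finite (R := 𝒪) inferInstance

/-- The residue field of `T` has characteristic `p`. -/
theorem s33r_charP_res (hp𝒪 : (p : 𝒪) ∈ IsLocalRing.maximalIdeal 𝒪) :
    CharP (ResidueField T) p := by
  have hp : p.Prime := Fact.out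
  have h1 : (p : T) ∈ IsLocalRing.maximalIdeal T := by
    rw [IsLocalRing.mem_maximalIdeal, mem_nonunits_iff]
    intro hu
    have h2 : IsUnit (algebraMap 𝒪 T (p : 𝒪)) := by rwa [map_natCast]
    have h3 : IsUnit (p : 𝒪) := IsUnit.of_map (algebraMap 𝒪 T) _ h2
    exact (IsLocalRing.mem_maximalIdeal _).mp hp𝒪 h3
  have h4 : ((p : ℕ) : ResidueField T) = 0 := by
    rw [← map_natCast (IsLocalRing.residue T)]
    exact (IsLocalRing.residue_eq_zero_iff _).mpr h1
  exact (CharP.charP_iff_prime_eq_zero hp).mpr h4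

/-- **Cayley–Hamilton with the cyclotomic character**: `ρ̄(g) + χ(g) ρ̄(g)⁻¹ = tr ρ̄(g)`. -/
theorem s33r_hCHV [CharP (ResidueField T) p]
    (hpS : p ∈ S) (hNS : ∀ q : ℕ, q.Prime → q ∣ N → q ∈ S) (g : Γℚ) :
    H.ρ.residual.ρ g +
        (ZMod.cast ((s33r_chi p g : (ZMod p)ˣ) : ZMod p) : ResidueField T) • H.ρ.residual.ρ g⁻¹ =
      s33r_resTr H.ρ.residual g • (1 : Module.End (ResidueField T) H.ρ.residual.V) := by
  rw [← s33r_resDet_eq_chi (p := p) H hpS hNS g]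
  exact s33r_res_CH H.ρ.residual g

/-- **The ordinary line**, with the action of inertia on it given by the cyclotomic character. -/
theorem s33r_line_chi [CharP (ResidueField T) p]
    (hpS : p ∈ S) (hNS : ∀ q : ℕ, q.Prime → q ∣ N → q ∈ S)
    (hres : (GaloisRepAdic.ofResidualGaloisRep H.ρ.residual).IsOrdinaryAt p)
    (P : ValuationSubring Kb) (hP : P.LiesOverPrime p) :
    ∃ L : Submodule (ResidueField T) H.ρ.residual.V, L ≠ ⊥ ∧ L ≠ ⊤ ∧
      (∀ σ ∈ P.inertiaSubgroupIn ℚ, ∀ v : H.ρ.residual.V, H.ρ.residual.ρ σ v - v ∈ L) ∧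
      (∀ σ ∈ P.inertiaSubgroupIn ℚ, ∀ v ∈ L, H.ρ.residual.ρ σ v =
        (ZMod.cast ((s33r_chi p σ : (ZMod p)ˣ) : ZMod p) : ResidueField T) • v) := by
  obtain ⟨L, hLbot, hLtop, hLquot, hLchar⟩ := s33r_res_line H.ρ.residual p hres P hP
  refine ⟨L, hLbot, hLtop, hLquot, fun σ hσ v hv => ?_⟩
  rw [← s33r_resDet_eq_chi (p := p) H hpS hNS σ]
  exact hLchar σ hσ v hv

end Resid

section Tau

variable {p : ℕ} [Fact p.Prime]

/-- **[TAU0] with the mod-`p` character**: for `p` odd the inertia group at `P ∣ p` contains `τ` with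
`τ ζ = ζ ^ 2` on `μ_p`, and `χ τ ≠ 1`. -/
theorem s33r_exists_tau (hp2 : p ≠ 2) (P : ValuationSubring Kb) (hP : P.LiesOverPrime p) :
    ∃ τ ∈ P.inertiaSubgroupIn ℚ, (∀ ζ : Kb, ζ ^ p = 1 → τ ζ = ζ ^ 2) ∧
      ((s33r_chi p τ : (ZMod p)ˣ) : ZMod p) ≠ 1 := by
  have hp : p.Prime := Fact.out
  have hcop : Nat.Coprime 2 p := (Nat.coprime_primes Nat.prime_two hp).mpr (Ne.symm hp2)
  obtain ⟨τ, hτI, hτ⟩ := s33g_exists_tau0 p hp P hP 2 hcop
  refine ⟨τ, hτI, hτ, ?_⟩
  rw [← s33r_chi_eq_of_acts p τ 2 hτ]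
  intro h2
  have h3 : ((1 : ℕ) : ZMod p) = 0 := by
    have : ((2 : ℕ) : ZMod p) = ((1 : ℕ) : ZMod p) + 1 := by push_cast; ring
    rw [this, Nat.cast_one] at h2
    rw [Nat.cast_one]
    have h4 : (1 : ZMod p) + 1 - 1 = 1 - 1 := by rw [h2]
    rwa [add_sub_cancel_right, sub_self] at h4
  rw [ZMod.natCast_eq_zero_iff] at h3
  exact hp.one_lt.ne' (Nat.dvd_one.mp h3)

/-- A `p`-torsion point on which the inertia group at `P` acts through the mod-`p` cyclotomic
character is of `μ_p`-type at `P`. -/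
theorem s33r_isMuType_of_chi {M : ℕ} [NeZero M] (P : ValuationSubring Kb) (z : JZero M)
    (hz : p • z = 0)
    (h : ∀ σ ∈ P.inertiaSubgroupIn ℚ,
      σ • z = ((s33r_chi p σ : (ZMod p)ˣ) : ZMod p).val • z) :
    s33_IsMuType M p P z := by
  intro σ hσ a ha
  rw [h σ hσ]
  refine s30a_nsmul_congr (m := p) ?_ hz
  rw [ZMod.natCast_zmod_val]
  exact (s33r_chi_eq_of_acts p σ a ha).symm

end Tau

end

end Fermat.Agent.Lib.S33
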