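/-
P-AT-P programme (S33), brick [REAL], abstract part (helper5): PURE ALGEBRA on top of helper8's
`Lib/S33/Swap.lean`.

Setting of `Swap.lean` (section `Mod`): `R` the commutative ring of Hecke scalars, local with residue
field inside `k` (`hunit`), `Y` an `R`-module with `ρ : G →* End_R Y` and the trace relation `hrel`,
`V` the residual representation over `k` (irreducible, trace relation `hrelV`), `τ : G` with two
eigenvalues `α ≠ β` both occurring on `V`.  In addition here:

* `Y` is FINITE (a piece of `J₀(M)[p]`);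
* `Tp : End_R Y` commutes with `ρ(G)`;
* `I ⊆ G` (inertia) stabilises the `α`-line of `V` and acts on it through `a : G → R`
  (residual ordinarity + `det = ω`);
* (III): a non-zero `z ∈ Y` on which every `σ ∈ I` acts through `a σ` is not killed by `Tp`.

Conclusion `s33r_injective`: `Tp` is injective on `Y`.

Proof: the `𝔪`-socle `W` of `ker Tp` is `G`-stable, killed by `𝔪 = ker (R → k)`, and non-zero as soon
as `ker Tp ≠ 0` (Nakayama on an atom of the lattice of submodules of the finite module `ker Tp`); by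
`s33w_exists_equiv` its two `τ`-eigen-parts are isomorphic, so the `α`-part of `W` is non-zero; by
`s33w_acts_by` its elements are of `μ`-type; contradiction with (III).
-/
import Fermat.Agent.Lib.S33.Swap

set_option autoImplicit false

namespace Fermat.Agent.Lib.S33

section Real

variable {R : Type*} [CommRing R] {G : Type*} [Group G]
  {Y : Type*} [AddCommGroup Y] [Module R Y]
  {k : Type*} [Field k] [Algebra R k]

/-- The `𝔪`-socle of `Y`, `𝔪 = ker (R → k)`. -/
def s33r_soc (R : Type*) [CommRing R] (Y : Type*) [AddCommGroup Y] [Module R Y]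
    (k : Type*) [Field k] [Algebra R k] : Submodule R Y where
  carrier := {y | ∀ s : R, algebraMap R k s = 0 → s • y = 0}
  add_mem' := by
    intro a b ha hb s hs
    rw [smul_add, ha s hs, hb s hs, add_zero]
  zero_mem' := fun s _ => smul_zero s
  smul_mem' := by
    intro c a ha s hs
    rw [smul_comm, ha s hs, smul_zero]

theorem s33r_mem_soc {y : Y} :
    y ∈ s33r_soc R Y k ↔ ∀ s : R, algebraMap R k s = 0 → s • y = 0 := Iff.rfl

/-- **Non-zero socle**: a non-zero submodule of a finite module over a local ring meets the socle. -/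
theorem s33r_exists_soc [Finite Y] (hunit : ∀ s : R, algebraMap R k s ≠ 0 → IsUnit s)
    (N : Submodule R Y) (hN : N ≠ ⊥) : ∃ y ∈ N, y ≠ 0 ∧ y ∈ s33r_soc R Y k := by
  classical
  have : IsArtinian R Y := isArtinian_of_finite
  have hat : IsAtomic (Submodule R Y) := isAtomic_of_orderBot_wellFounded_lt wellFounded_lt
  obtain ⟨A, hA, hAN⟩ := (eq_bot_or_exists_atom_le N).resolve_left hN
  set 𝔪 : Ideal R := RingHom.ker (algebraMap R k) with h𝔪
  -- `𝔪` is contained in the Jacobson radical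
  have hjac : 𝔪 ≤ Ideal.jacobson ⊥ := by
    intro s hs
    rw [Ideal.mem_jacobson_bot]
    intro r
    apply hunit
    rw [map_add, map_mul, (RingHom.mem_ker).mp hs, zero_mul, zero_add, map_one]
    exact one_ne_zero
  have hfg : A.FG := by
    have : Module.Finite R A := Module.Finite.of_finite
    exact Submodule.FG.of_finite
  have hsm : 𝔪 • A ≤ A := Submodule.smul_le_right
  have hne : 𝔪 • A ≠ A := by
    intro heq
    exact hA.1 (Submodule.eq_bot_of_le_smul_of_le_jacobson_bot 𝔪 A hfg heq.ge hjac)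
  have hbot : 𝔪 • A = ⊥ := by
    by_contra hnb
    exact hne ((hA.le_iff.mp hsm).resolve_left hnb)
  obtain ⟨y, hyA, hy0⟩ := (Submodule.ne_bot_iff A).mp hA.1
  refine ⟨y, hAN hyA, hy0, fun s hs => ?_⟩
  have h1 : s • y ∈ 𝔪 • A := Submodule.smul_mem_smul ((RingHom.mem_ker).mpr hs) hyA
  rw [hbot, Submodule.mem_bot] at h1
  exact h1

variable {V : Type*} [AddCommGroup V] [Module k V] [Module R V] [IsScalarTower R k V]
  {ρ : G →* Module.End R Y} {ρV : G →* Module.End k V} {d : G →* Rˣ} {t : G → R}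
  (hrel : ∀ g : G, ρ g + ((d g : Rˣ) : R) • ρ g⁻¹ = t g • (1 : Module.End R Y))
  (hrelV : ∀ g : G, ρV g + ((d g : Rˣ) : R) • ρV g⁻¹ = t g • (1 : Module.End k V))
  (hirr : ∀ W : Submodule k V, (∀ g : G, ∀ x ∈ W, ρV g x ∈ W) → W = ⊥ ∨ W = ⊤)
  (hunit : ∀ s : R, algebraMap R k s ≠ 0 → IsUnit s)
  (τ : G) {α β c : R} (hsum : α + β = t τ) (hprod : α * β = ((d τ : Rˣ) : R))
  (hc : c * (α - β) = 1)
  (hα : s33w_e ρV τ c β ≠ 0) (hβ : s33w_e ρV τ (-c) α ≠ 0)

/-- The restriction of `ρ` to a `G`-stable submodule. -/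
def s33r_restrict (ρ : G →* Module.End R Y) (W : Submodule R Y)
    (hW : ∀ g : G, ∀ w ∈ W, ρ g w ∈ W) : G →* Module.End R W where
  toFun g := (ρ g).restrict (hW g)
  map_one' := by
    ext w
    simp [LinearMap.restrict_apply]
  map_mul' g h := by
    ext w
    simp [LinearMap.restrict_apply, Module.End.mul_apply]

theorem s33r_restrict_apply (W : Submodule R Y) (hW : ∀ g : G, ∀ w ∈ W, ρ g w ∈ W) (g : G)
    (w : W) : ((s33r_restrict ρ W hW g w : W) : Y) = ρ g (w : Y) := rfl

include hrel in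
theorem s33r_hrel_restrict (W : Submodule R Y) (hW : ∀ g : G, ∀ w ∈ W, ρ g w ∈ W) (g : G) :
    s33r_restrict ρ W hW g + ((d g : Rˣ) : R) • s33r_restrict ρ W hW g⁻¹ =
      t g • (1 : Module.End R W) := by
  ext w
  have h := congrArg (fun f : Module.End R Y => f (w : Y)) (hrel g)
  simp only [LinearMap.add_apply, LinearMap.smul_apply, Module.End.one_apply] at h
  simp only [LinearMap.add_apply, LinearMap.smul_apply, Module.End.one_apply, Submodule.coe_add,
    Submodule.coe_smul, s33r_restrict_apply]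
  exact h

include hrel hrelV hirr hunit hsum hprod hc hα hβ in
/-- **[REAL], abstract form**: `Tp` is injective on the finite module `Y`. -/
theorem s33r_injective [Finite Y] (Tp : Module.End R Y) (hTp : ∀ g : G, ∀ y : Y, Tp (ρ g y) = ρ g (Tp y))
    (I : Set G) (a : G → R)
    (hI1 : ∀ σ ∈ I, s33w_e ρV τ (-c) α * ρV σ * s33w_e ρV τ c β = 0)
    (hI2 : ∀ σ ∈ I, s33w_e ρV τ c β * ρV σ * s33w_e ρV τ c β = a σ • s33w_e ρV τ c β)
    (hIII : ∀ z : Y, z ≠ 0 → (∀ σ ∈ I, ρ σ z = a σ • z) → Tp z ≠ 0) :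
    Function.Injective Tp := by
  rw [← LinearMap.ker_eq_bot]
  by_contra hker
  -- the socle of `ker Tp`
  set W : Submodule R Y := LinearMap.ker Tp ⊓ s33r_soc R Y k with hWdef
  have hW : ∀ g : G, ∀ w ∈ W, ρ g w ∈ W := by
    rintro g w ⟨hw1, hw2⟩
    refine ⟨?_, fun s hs => ?_⟩
    · show Tp (ρ g w) = 0
      have h0 : Tp w = 0 := hw1
      rw [hTp, h0, map_zero]
    · rw [← map_smul, hw2 s hs, map_zero]
  obtain ⟨y₀, hy₀ker, hy₀ne, hy₀soc⟩ := s33r_exists_soc (k := k) hunit (LinearMap.ker Tp) hker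
  have hy₀W : y₀ ∈ W := ⟨hy₀ker, hy₀soc⟩
  set ρW := s33r_restrict ρ W hW with hρW
  have hrelW := s33r_hrel_restrict hrel W hW
  have hkill : ∀ s : R, algebraMap R k s = 0 → ∀ w : W, s • w = 0 := by
    intro s hs w
    apply Subtype.ext
    rw [Submodule.coe_smul, Submodule.coe_zero]
    exact w.2.2 s hs
  -- the `α`-part of `W` is non-zero
  obtain ⟨e⟩ := s33w_exists_equiv hrelW hrelV hirr hunit τ hsum hprod hc hα hβ
  have hadd : s33w_e ρW τ c β + s33w_e ρW τ (-c) α = 1 := s33w_e_add τ hc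
  have hαne : ∃ z : W, z ∈ LinearMap.range (s33w_e ρW τ c β) ∧ z ≠ 0 := by
    by_contra hno
    have hzero : ∀ z : W, z ∈ LinearMap.range (s33w_e ρW τ c β) → z = 0 := by
      intro z hz
      by_contra hz0
      exact hno ⟨z, hz, hz0⟩
    have h1 : s33w_e ρW τ c β ⟨y₀, hy₀W⟩ = 0 := hzero _ ⟨_, rfl⟩
    have h2 : s33w_e ρW τ (-c) α ⟨y₀, hy₀W⟩ = 0 := by
      have h3 : e.symm ⟨s33w_e ρW τ (-c) α ⟨y₀, hy₀W⟩, ⟨_, rfl⟩⟩ = 0 :=
        Subtype.ext (hzero _ (e.symm _).2)
      have h4 := congrArg e h3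
      rw [LinearEquiv.apply_symm_apply, map_zero] at h4
      exact congrArg Subtype.val h4
    have h5 := congrArg (fun f : Module.End R W => f ⟨y₀, hy₀W⟩) hadd
    simp only [LinearMap.add_apply, Module.End.one_apply] at h5
    rw [h1, h2, add_zero] at h5
    exact hy₀ne (congrArg Subtype.val h5.symm)
  obtain ⟨z, hzα, hz0⟩ := hαne
  -- `z` is of `μ`-type
  have hmu : ∀ σ ∈ I, ρ σ (z : Y) = a σ • (z : Y) := by
    intro σ hσ
    have h := s33w_acts_by hrelW hrelV hirr hunit τ hsum hprod hc hα hβ hkill σ (hI1 σ hσ) (a σ)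
      (hI2 σ hσ) hzα
    exact congrArg Subtype.val h
  have hzY : (z : Y) ≠ 0 := fun h => hz0 (Subtype.ext h)
  exact hIII (z : Y) hzY hmu (LinearMap.mem_ker.mp z.2.1)

end Real

end Fermat.Agent.Lib.S33
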