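/-
P-AT-P programme (S33), brick [REAL′], abstract part (helper5): **THE MOD-`p` HECKE IMAGE RING**, pure
algebra on top of helper8's `Lib/S33/Swap.lean` and `Lib/S33/RealAbs.lean`.

Setting: `Y` a FINITE abelian group killed by `p` with an action `ρ` of a group `G`
(`Y` = a Hecke- and Galois-stable piece of `J₀(M)[p]`), `𝔼` a commutative ring ("Hecke pairs") with
`act : 𝔼 →+* End_ℤ Y` commuting with `ρ` and `θ' : 𝔼 →+* k` into a finite field of characteristic `p`,
such that
* (primary) every `e` with `θ' e = 0` acts nilpotently on `Y`;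
* (density) for every `g : G` there is `e : 𝔼` with `θ' e = trV g` and
  `act e = ρ g + χ(g) ρ g⁻¹`  (`χ : G →* (ZMod p)ˣ` the mod-`p` cyclotomic character; Frobenius density
  + Eichler–Shimura + Lucas sequences);
* `ρV : G →* End_k V` an irreducible representation with `ρV g + χ(g) ρV g⁻¹ = trV g` (Cayley–Hamilton
  for the residual representation, `det = χ`);
* (residual ordinarity) a subspace `0 ≠ L ≠ V` and a set `I ⊆ G` (inertia) acting trivially on `V / L`
  and through `χ` on `L`, and `τ ∈ I` with `χ τ ≠ 1`.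

Construction: `R := s33r_HR θ' act = 𝔼 / ker (θ' × act)`, the image of `𝔼` in `k × End_ℤ Y`: a finite
LOCAL ring (`s33r_HR_isUnit`, `s33r_HR_isNilpotent`) acting on `Y`, with residue field inside `k`,
trace function `t g = [e_g]`, and Hensel roots `α, β` of `X² - t(τ) X + χ(τ)` by Newton iteration
(`s33r_newton_quad`; no completeness needed, the maximal ideal is nil).  All hypotheses of the
`Mod` section of `Swap.lean` hold for `(R, Y, V)`.

Conclusions (`s33r_main`):
 (A) every endomorphism `Tp` of `Y` commuting with `𝔼` and `G` which does not kill any non-zero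
     vector of `μ`-type (`∀ σ ∈ I, σ z = χ(σ) z`) is INJECTIVE  ([REAL′](ii));
 (B) for a subgroup `K ≤ Y` with `τ = χ(τ)` on `K` and `τ = 1` on `Y / K`:  `#K² = #Y`  ([ACC] at
     finite level, [REAL′](iii));
 (C) `#Y` is a perfect square.
-/
import Fermat.Agent.Lib.S33.RealAbs

set_option autoImplicit false
set_option linter.style.haveILetI false
set_option linter.unusedSectionVars false

namespace Fermat.Agent.Lib.S33

section Newton

variable {R : Type*} [CommRing R]

/-- **Newton iteration for a monic quadratic**: if `x² - t x + d` is nilpotent and `2x - t` is a unit,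
there is an exact root `x' ≡ x` modulo `(x² - t x + d)`. -/
theorem s33r_newton_quad (t d : R) : ∀ (n : ℕ) (x : R), IsUnit (2 * x - t) →
    (x ^ 2 - t * x + d) ^ 2 ^ n = 0 →
    ∃ x' : R, x' ^ 2 - t * x' + d = 0 ∧ ∃ r : R, x' - x = r * (x ^ 2 - t * x + d) := by
  intro n
  induction n with
  | zero =>
    intro x _ h
    rw [pow_zero, pow_one] at h
    exact ⟨x, h, 0, by ring⟩
  | succ n ih =>
    intro x hu h
    obtain ⟨u, hu'⟩ := hu
    set δ := x ^ 2 - t * x + d with hδ
    set x₁ := x - δ * (↑u⁻¹ : R) with hx₁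
    have huu : (2 * x - t) * (↑u⁻¹ : R) = 1 := by rw [← hu', Units.mul_inv]
    have hf : x₁ ^ 2 - t * x₁ + d = δ ^ 2 * (↑u⁻¹ : R) ^ 2 := by
      rw [hx₁]
      linear_combination (-δ) * huu
    have hnil : IsNilpotent δ := ⟨2 ^ (n + 1), h⟩
    have hu1 : IsUnit (2 * x₁ - t) := by
      have e : 2 * x₁ - t = (2 * x - t) + (-(2 * (↑u⁻¹ : R))) * δ := by rw [hx₁]; ring
      rw [e]
      have hn2 : IsNilpotent ((-(2 * (↑u⁻¹ : R))) * δ) := (Commute.all _ _).isNilpotent_mul_left hnil
      exact hn2.isUnit_add_left_of_commute ⟨u, hu'⟩ (Commute.all _ _)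
    have h1 : (x₁ ^ 2 - t * x₁ + d) ^ 2 ^ n = 0 := by
      rw [hf, mul_pow, ← pow_mul, ← pow_succ', h, zero_mul]
    obtain ⟨x', hx', r, hr⟩ := ih x₁ hu1 h1
    refine ⟨x', hx', r * δ * (↑u⁻¹ : R) ^ 2 - (↑u⁻¹ : R), ?_⟩
    rw [hf] at hr
    have : x' - x = (x' - x₁) + (x₁ - x) := by ring
    rw [this, hr, hx₁]
    ring

end Newton

section HR

variable {𝔼 : Type*} [CommRing 𝔼] {Y : Type*} [AddCommGroup Y] {k : Type*} [Field k]

/-- The mod-`p` Hecke image ring: the image of `𝔼` in `k × End_ℤ Y`. -/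
def s33r_HR (θ' : 𝔼 →+* k) (act : 𝔼 →+* Module.End ℤ Y) : Type _ :=
  𝔼 ⧸ RingHom.ker (θ'.prod act)

variable (θ' : 𝔼 →+* k) (act : 𝔼 →+* Module.End ℤ Y)

instance s33r_HR_commRing : CommRing (s33r_HR θ' act) :=
  inferInstanceAs (CommRing (𝔼 ⧸ RingHom.ker (θ'.prod act)))

/-- the quotient map. -/
def s33r_HRmk : 𝔼 →+* s33r_HR θ' act := Ideal.Quotient.mk (RingHom.ker (θ'.prod act))

theorem s33r_HRmk_surjective : Function.Surjective (s33r_HRmk θ' act) :=
  Ideal.Quotient.mk_surjective

/-- the homomorphism to `k`. -/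
def s33r_HRk : s33r_HR θ' act →+* k :=
  Ideal.Quotient.lift (RingHom.ker (θ'.prod act)) θ' (fun a ha => by
    have h := RingHom.mem_ker.mp ha
    exact congrArg Prod.fst h)

/-- the action on `Y`. -/
def s33r_HRact : s33r_HR θ' act →+* Module.End ℤ Y :=
  Ideal.Quotient.lift (RingHom.ker (θ'.prod act)) act (fun a ha => by
    have h := RingHom.mem_ker.mp ha
    exact congrArg Prod.snd h)

@[simp] theorem s33r_HRk_mk (e : 𝔼) : s33r_HRk θ' act (s33r_HRmk θ' act e) = θ' e :=
  Ideal.Quotient.lift_mk _ _ _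

@[simp] theorem s33r_HRact_mk (e : 𝔼) : s33r_HRact θ' act (s33r_HRmk θ' act e) = act e :=
  Ideal.Quotient.lift_mk _ _ _

theorem s33r_HRmk_eq_zero {e : 𝔼} : s33r_HRmk θ' act e = 0 ↔ θ' e = 0 ∧ act e = 0 := by
  have h : s33r_HRmk θ' act e = 0 ↔ e ∈ RingHom.ker (θ'.prod act) :=
    Ideal.Quotient.eq_zero_iff_mem
  rw [h, RingHom.mem_ker, RingHom.prod_apply, Prod.mk_eq_zero]

instance s33r_HR_algebra : Algebra (s33r_HR θ' act) k := (s33r_HRk θ' act).toAlgebra

instance s33r_HR_module : Module (s33r_HR θ' act) Y := Module.compHom Y (s33r_HRact θ' act)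

theorem s33r_HR_algebraMap (r : s33r_HR θ' act) :
    algebraMap (s33r_HR θ' act) k r = s33r_HRk θ' act r := rfl

theorem s33r_HR_smul (r : s33r_HR θ' act) (y : Y) : r • y = s33r_HRact θ' act r y := rfl

theorem s33r_HR_mk_smul (e : 𝔼) (y : Y) : s33r_HRmk θ' act e • y = act e y := by
  rw [s33r_HR_smul, s33r_HRact_mk]

theorem s33r_HR_natCast_smul (n : ℕ) (y : Y) : ((n : s33r_HR θ' act)) • y = n • y :=
  Nat.cast_smul_eq_nsmul _ n y

/-- elements in the kernel of `R → k` are nilpotent as soon as they act nilpotently. -/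
theorem s33r_HR_isNilpotent (hnil : ∀ e : 𝔼, θ' e = 0 → IsNilpotent (act e))
    (s : s33r_HR θ' act) (hs : algebraMap (s33r_HR θ' act) k s = 0) : IsNilpotent s := by
  obtain ⟨e, rfl⟩ := s33r_HRmk_surjective θ' act s
  rw [s33r_HR_algebraMap, s33r_HRk_mk] at hs
  obtain ⟨n, hn⟩ := hnil e hs
  refine ⟨n + 1, ?_⟩
  rw [← map_pow, s33r_HRmk_eq_zero, map_pow, map_pow, hs, pow_succ (act e), hn, zero_mul]
  exact ⟨zero_pow (Nat.succ_ne_zero n), rfl⟩

/-- **locality**: an element with non-zero image in the finite field `k` is a unit. -/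
theorem s33r_HR_isUnit [Finite k] (hnil : ∀ e : 𝔼, θ' e = 0 → IsNilpotent (act e))
    (s : s33r_HR θ' act) (hs : algebraMap (s33r_HR θ' act) k s ≠ 0) : IsUnit s := by
  classical
  letI : Fintype k := Fintype.ofFinite k
  have h1 : (algebraMap (s33r_HR θ' act) k s) ^ (Fintype.card k - 1) = 1 :=
    FiniteField.pow_card_sub_one_eq_one _ hs
  have h2 : algebraMap (s33r_HR θ' act) k (s ^ (Fintype.card k - 1) - 1) = 0 := by
    rw [map_sub, map_pow, h1, map_one, sub_self]
  have h3 := s33r_HR_isNilpotent θ' act hnil _ h2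
  have h4 : IsUnit (s ^ (Fintype.card k - 1)) := by
    have := h3.isUnit_add_one
    rwa [sub_add_cancel] at this
  have hne : Fintype.card k - 1 ≠ 0 := by
    have := Fintype.one_lt_card (α := k)
    omega
  exact (isUnit_pow_iff hne).mp h4

end HR

section Main

variable {𝔼 : Type*} [CommRing 𝔼] {Y : Type*} [AddCommGroup Y] [Finite Y]
  {k : Type*} [Field k] [Finite k]
  {G : Type*} [Group G] {p : ℕ} [Fact p.Prime] [CharP k p]
  {V : Type*} [AddCommGroup V] [Module k V]

theorem s33r_main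
    (θ' : 𝔼 →+* k) (act : 𝔼 →+* Module.End ℤ Y)
    (hpY : ∀ y : Y, p • y = 0)
    (ρ : G →* Module.End ℤ Y)
    (hcomm : ∀ (e : 𝔼) (g : G), act e * ρ g = ρ g * act e)
    (hnil : ∀ e : 𝔼, θ' e = 0 → IsNilpotent (act e))
    (χ : G →* (ZMod p)ˣ) (trV : G → k)
    (hdens : ∀ g : G, ∃ e : 𝔼, θ' e = trV g ∧ act e = ρ g + ((χ g : ZMod p).val) • ρ g⁻¹)
    (ρV : G →* Module.End k V)
    (hCHV : ∀ g : G, ρV g + (ZMod.cast (χ g : ZMod p) : k) • ρV g⁻¹ = trV g • (1 : Module.End k V))
    (hirr : ∀ W : Submodule k V, (∀ g : G, ∀ x ∈ W, ρV g x ∈ W) → W = ⊥ ∨ W = ⊤)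
    (I : Set G) (τ : G) (hτI : τ ∈ I) (hχτ : (χ τ : ZMod p) ≠ 1)
    (L : Submodule k V) (hLbot : L ≠ ⊥) (hLtop : L ≠ ⊤)
    (hLquot : ∀ σ ∈ I, ∀ v : V, ρV σ v - v ∈ L)
    (hLchar : ∀ σ ∈ I, ∀ v ∈ L, ρV σ v = (ZMod.cast (χ σ : ZMod p) : k) • v) :
    (∀ Tp : Module.End ℤ Y, (∀ e : 𝔼, act e * Tp = Tp * act e) → (∀ g : G, ρ g * Tp = Tp * ρ g) →
      (∀ z : Y, z ≠ 0 → (∀ σ ∈ I, ρ σ z = (χ σ : ZMod p).val • z) → Tp z ≠ 0) →
      Function.Injective Tp) ∧
    (∀ K : AddSubgroup Y, (∀ x ∈ K, ρ τ x = (χ τ : ZMod p).val • x) → (∀ y : Y, ρ τ y - y ∈ K) →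
      Nat.card K ^ 2 = Nat.card Y) ∧
    (∃ n : ℕ, Nat.card Y = n ^ 2) := by
  classical
  have hpprime : p.Prime := Fact.out
  -- characteristic `p`
  have hp0R : (p : s33r_HR θ' act) = 0 := by
    rw [← map_natCast (s33r_HRmk θ' act), s33r_HRmk_eq_zero, map_natCast, map_natCast]
    refine ⟨CharP.cast_eq_zero k p, ?_⟩
    ext y
    rw [Module.End.natCast_apply, hpY, LinearMap.zero_apply]
  haveI hcharR : CharP (s33r_HR θ' act) p := by
    refine ⟨fun x => ⟨fun h => ?_, fun h => ?_⟩⟩
    · have h1 : algebraMap (s33r_HR θ' act) k (x : s33r_HR θ' act) = 0 := by rw [h, map_zero]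
      rw [map_natCast] at h1
      exact (CharP.cast_eq_zero_iff k p x).mp h1
    · obtain ⟨c, rfl⟩ := h
      rw [Nat.cast_mul, hp0R, zero_mul]
  -- the prime field inside `R`
  set ι : ZMod p →+* s33r_HR θ' act := ZMod.castHom (dvd_refl p) (s33r_HR θ' act) with hι
  have hιk : ∀ n : ZMod p, algebraMap (s33r_HR θ' act) k (ι n) = (ZMod.cast n : k) := by
    intro n
    have h1 : (algebraMap (s33r_HR θ' act) k).comp ι = ZMod.castHom (dvd_refl p) k :=
      RingHom.ext_zmod _ _
    have h2 := RingHom.congr_fun h1 n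
    rwa [RingHom.comp_apply, ZMod.castHom_apply] at h2
  have hιY : ∀ (n : ZMod p) (y : Y), ι n • y = n.val • y := by
    intro n y
    have h1 : ι n = ((n.val : ℕ) : s33r_HR θ' act) := by
      rw [hι, ZMod.castHom_apply, ZMod.natCast_val]
    rw [h1, s33r_HR_natCast_smul]
  set d : G →* (s33r_HR θ' act)ˣ := (Units.map ι.toMonoidHom).comp χ with hd
  have hdval : ∀ g : G, ((d g : (s33r_HR θ' act)ˣ) : s33r_HR θ' act) = ι (χ g : ZMod p) := by
    intro g; rfl
  -- the `R`-linear Galois action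
  have hcommR : ∀ (r : s33r_HR θ' act) (g : G) (y : Y), ρ g (r • y) = r • ρ g y := by
    intro r g y
    obtain ⟨e, rfl⟩ := s33r_HRmk_surjective θ' act r
    rw [s33r_HR_mk_smul, s33r_HR_mk_smul]
    have := congrArg (fun f : Module.End ℤ Y => f y) (hcomm e g)
    simp only [Module.End.mul_apply] at this
    exact this.symm
  set ρR : G →* Module.End (s33r_HR θ' act) Y :=
    { toFun := fun g =>
        { toFun := ρ g
          map_add' := fun a b => map_add _ a b
          map_smul' := fun r y => hcommR r g y }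
      map_one' := by
        ext y
        show ρ 1 y = y
        rw [map_one, Module.End.one_apply]
      map_mul' := fun g h => by
        ext y
        show ρ (g * h) y = ρ g (ρ h y)
        rw [map_mul, Module.End.mul_apply] } with hρR
  have hρR_apply : ∀ (g : G) (y : Y), ρR g y = ρ g y := fun g y => rfl
  -- the trace function
  choose tE htE1 htE2 using hdens
  set t : G → s33r_HR θ' act := fun g => s33r_HRmk θ' act (tE g) with ht
  have htk : ∀ g : G, algebraMap (s33r_HR θ' act) k (t g) = trV g := by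
    intro g
    rw [s33r_HR_algebraMap, ht, s33r_HRk_mk, htE1]
  have hrel : ∀ g : G, ρR g + ((d g : (s33r_HR θ' act)ˣ) : s33r_HR θ' act) • ρR g⁻¹ =
      t g • (1 : Module.End (s33r_HR θ' act) Y) := by
    intro g
    ext y
    rw [LinearMap.add_apply, LinearMap.smul_apply, LinearMap.smul_apply, Module.End.one_apply,
      hρR_apply, hρR_apply, hdval, hιY, ht, s33r_HR_mk_smul, htE2]
    rfl
  -- `V` as a module over `R`
  letI instRV : Module (s33r_HR θ' act) V := Module.compHom V (algebraMap (s33r_HR θ' act) k)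
  haveI instTower : IsScalarTower (s33r_HR θ' act) k V :=
    IsScalarTower.of_algebraMap_smul fun r v => rfl
  have hRV : ∀ (r : s33r_HR θ' act) (v : V), r • v = algebraMap (s33r_HR θ' act) k r • v :=
    fun r v => rfl
  have hrelV : ∀ g : G, ρV g + ((d g : (s33r_HR θ' act)ˣ) : s33r_HR θ' act) • ρV g⁻¹ =
      t g • (1 : Module.End k V) := by
    intro g
    ext v
    have h := congrArg (fun f : Module.End k V => f v) (hCHV g)
    simp only [LinearMap.add_apply, LinearMap.smul_apply, Module.End.one_apply] at h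
    rw [LinearMap.add_apply, LinearMap.smul_apply, LinearMap.smul_apply, Module.End.one_apply,
      hRV, hRV, hdval, hιk, htk]
    exact h
  have hunit := s33r_HR_isUnit θ' act hnil
  have hnilR := s33r_HR_isNilpotent θ' act hnil
  -- residual eigenvalues of `τ`
  set ab : k := (ZMod.cast (χ τ : ZMod p) : k) with hab
  have hab1 : ab ≠ 1 := by
    intro h
    apply hχτ
    have hinj : Function.Injective (ZMod.castHom (dvd_refl p) k) := RingHom.injective _
    apply hinj
    rw [ZMod.castHom_apply, map_one]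
    exact h
  obtain ⟨v₀, hv₀L, hv₀⟩ := (Submodule.ne_bot_iff L).mp hLbot
  have htrτ : trV τ = 1 + ab := by
    have h := congrArg (fun f : Module.End k V => f v₀) (hCHV τ)
    simp only [LinearMap.add_apply, LinearMap.smul_apply, Module.End.one_apply] at h
    have h2 : ρV τ⁻¹ (ρV τ v₀) = v₀ := by
      rw [← Module.End.mul_apply, ← map_mul, inv_mul_cancel, map_one, Module.End.one_apply]
    rw [hLchar τ hτI v₀ hv₀L, map_smul, ← hab] at h2
    rw [hLchar τ hτI v₀ hv₀L, ← hab, h2] at h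
    have h3 : (trV τ - (1 + ab)) • v₀ = 0 := by
      rw [sub_smul, ← h, add_smul, one_smul]
      abel
    rcases smul_eq_zero.mp h3 with h4 | h4
    · exact sub_eq_zero.mp h4
    · exact absurd h4 hv₀
  -- the roots `α, β` by Newton iteration
  set x₀ : s33r_HR θ' act := ((d τ : (s33r_HR θ' act)ˣ) : s33r_HR θ' act) with hx₀
  have hx₀k : algebraMap (s33r_HR θ' act) k x₀ = ab := by rw [hx₀, hdval, hιk]
  have hδk : algebraMap (s33r_HR θ' act) k (x₀ ^ 2 - t τ * x₀ + x₀) = 0 := by
    rw [map_add, map_sub, map_pow, map_mul, hx₀k, htk, htrτ]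
    ring
  have huk : algebraMap (s33r_HR θ' act) k (2 * x₀ - t τ) ≠ 0 := by
    rw [map_sub, map_mul, hx₀k, htk, htrτ, map_ofNat]
    intro h
    apply hab1
    linear_combination h
  obtain ⟨m, hm⟩ := hnilR _ hδk
  have hm2 : (x₀ ^ 2 - t τ * x₀ + x₀) ^ 2 ^ m = 0 :=
    pow_eq_zero_of_le (Nat.lt_two_pow_self).le hm
  obtain ⟨α, hαroot, r, hr⟩ := s33r_newton_quad (t τ) x₀ m x₀ (hunit _ huk) hm2
  set β : s33r_HR θ' act := t τ - α with hβdef
  have hsum : α + β = t τ := by rw [hβdef]; ring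
  have hprod : α * β = ((d τ : (s33r_HR θ' act)ˣ) : s33r_HR θ' act) := by
    rw [hβdef, ← hx₀]
    linear_combination (-1 : s33r_HR θ' act) * hαroot
  have hαk : algebraMap (s33r_HR θ' act) k α = ab := by
    have h1 : α = x₀ + r * (x₀ ^ 2 - t τ * x₀ + x₀) := by rw [← hr]; ring
    rw [h1, map_add, map_mul, hδk, mul_zero, add_zero, hx₀k]
  have hβk : algebraMap (s33r_HR θ' act) k β = 1 := by
    rw [hβdef, map_sub, htk, htrτ, hαk]
    ring
  have hαβu : IsUnit (α - β) := by
    apply hunit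
    rw [map_sub, hαk, hβk]
    exact sub_ne_zero.mpr hab1
  obtain ⟨uαβ, huαβ⟩ := hαβu
  set c : s33r_HR θ' act := (↑uαβ⁻¹ : s33r_HR θ' act) with hcdef
  have hc : c * (α - β) = 1 := by rw [hcdef, ← huαβ, Units.inv_mul]
  have hck : algebraMap (s33r_HR θ' act) k c * (ab - 1) = 1 := by
    have := congrArg (algebraMap (s33r_HR θ' act) k) hc
    rwa [map_mul, map_sub, hαk, hβk, map_one] at this
  have hα1 : IsUnit (α - 1) := by
    apply hunit
    rw [map_sub, hαk, map_one]
    exact sub_ne_zero.mpr hab1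
  -- both eigenvalues occur on `V`
  have hα : s33w_e ρV τ c β ≠ 0 := by
    intro h0
    have h1 := congrArg (fun f : Module.End k V => f v₀) h0
    simp only [s33w_e, LinearMap.smul_apply, LinearMap.sub_apply, Module.End.one_apply,
      LinearMap.zero_apply] at h1
    rw [hLchar τ hτI v₀ hv₀L, ← hab, hRV, hRV, hβk, one_smul] at h1
    have h2 : ab • v₀ - v₀ = (ab - 1) • v₀ := by rw [sub_smul, one_smul]
    rw [h2, smul_smul, hck, one_smul] at h1
    exact hv₀ h1
  have hβ : s33w_e ρV τ (-c) α ≠ 0 := by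
    intro h0
    apply hLtop
    rw [eq_top_iff]
    intro v _
    have h1 := congrArg (fun f : Module.End k V => f v) h0
    simp only [s33w_e, LinearMap.smul_apply, LinearMap.sub_apply, Module.End.one_apply,
      LinearMap.zero_apply] at h1
    rw [hRV, hRV, hαk, map_neg, neg_smul, neg_eq_zero] at h1
    have hc0 : algebraMap (s33r_HR θ' act) k c ≠ 0 := by
      intro h
      rw [h, zero_mul] at hck
      exact zero_ne_one hck
    have h2 : ρV τ v - ab • v = 0 := (smul_eq_zero.mp h1).resolve_left hc0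
    have h3 := hLquot τ hτI v
    have h4 : ρV τ v - v = (ab - 1) • v := by
      rw [sub_smul, one_smul, ← sub_eq_zero.mp h2]
    rw [h4] at h3
    have h5 := L.smul_mem (ab - 1)⁻¹ h3
    rwa [smul_smul, inv_mul_cancel₀ (sub_ne_zero.mpr hab1), one_smul] at h5
  -- the `α`-part of `V` is the line `L`
  have heαL : ∀ v : V, s33w_e ρV τ c β v ∈ L := by
    intro v
    simp only [s33w_e, LinearMap.smul_apply, LinearMap.sub_apply, Module.End.one_apply]
    rw [hRV, hRV, hβk, one_smul]
    exact L.smul_mem _ (hLquot τ hτI v)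
  have heβL : ∀ w ∈ L, s33w_e ρV τ (-c) α w = 0 := by
    intro w hw
    simp only [s33w_e, LinearMap.smul_apply, LinearMap.sub_apply, Module.End.one_apply]
    rw [hLchar τ hτI w hw, ← hab, hRV (r := α), hαk, sub_self, smul_zero]
  have hidα : s33w_e ρV τ c β * s33w_e ρV τ c β = s33w_e ρV τ c β :=
    s33w_e_idem hrelV τ hsum hprod hc
  have hI1 : ∀ σ ∈ I, s33w_e ρV τ (-c) α * ρV σ * s33w_e ρV τ c β = 0 := by
    intro σ hσ
    ext v
    rw [Module.End.mul_apply, Module.End.mul_apply, LinearMap.zero_apply,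
      hLchar σ hσ _ (heαL v), map_smul, heβL _ (heαL v), smul_zero]
  have hI2 : ∀ σ ∈ I, s33w_e ρV τ c β * ρV σ * s33w_e ρV τ c β =
      ((d σ : (s33r_HR θ' act)ˣ) : s33r_HR θ' act) • s33w_e ρV τ c β := by
    intro σ hσ
    ext v
    rw [Module.End.mul_apply, Module.End.mul_apply, LinearMap.smul_apply,
      hLchar σ hσ _ (heαL v), map_smul, ← Module.End.mul_apply, hidα, hRV, hdval, hιk]
  refine ⟨?_, ?_, ⟨_, s33w_card_sq hrel hrelV hirr hunit τ hsum hprod hc hα hβ⟩⟩
  · intro Tp hTpE hTpρ hIII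
    have hTpR : ∀ (r : s33r_HR θ' act) (y : Y), Tp (r • y) = r • Tp y := by
      intro r y
      obtain ⟨e, rfl⟩ := s33r_HRmk_surjective θ' act r
      rw [s33r_HR_mk_smul, s33r_HR_mk_smul]
      have := congrArg (fun f : Module.End ℤ Y => f y) (hTpE e)
      simp only [Module.End.mul_apply] at this
      exact this.symm
    set TpR : Module.End (s33r_HR θ' act) Y :=
      { toFun := Tp
        map_add' := fun a b => map_add _ a b
        map_smul' := fun r y => hTpR r y } with hTpRdef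
    have hinj : Function.Injective TpR := by
      refine s33r_injective hrel hrelV hirr hunit τ hsum hprod hc hα hβ TpR ?_ I
        (fun σ => ((d σ : (s33r_HR θ' act)ˣ) : s33r_HR θ' act)) hI1 hI2 ?_
      · intro g y
        show Tp (ρ g y) = ρ g (Tp y)
        have := congrArg (fun f : Module.End ℤ Y => f y) (hTpρ g)
        simp only [Module.End.mul_apply] at this
        exact this.symm
      · intro z hz hσz
        show Tp z ≠ 0
        refine hIII z hz fun σ hσ => ?_
        have := hσz σ hσ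
        rw [hρR_apply, hdval, hιY] at this
        exact this
    exact hinj
  · intro K hK1 hK2
    refine s33w_card_K_sq hrel hrelV hirr hunit τ hsum hprod hc hα hβ K x₀ ?_ ?_ hα1 ?_
    · intro x hx
      rw [hρR_apply, hK1 x hx, hx₀, hdval, hιY]
    · intro y
      rw [hρR_apply]
      exact hK2 y
    · have h1 : x₀ - α = (-r) * (x₀ ^ 2 - t τ * x₀ + x₀) := by
        rw [neg_mul, ← hr]; ring
      refine ⟨m, fun y => ?_⟩
      rw [h1, mul_pow, hm, mul_zero, zero_smul]

end Main

end Fermat.Agent.Lib.S33
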