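/-
P-AT-P programme (S33), package [REAL'] (helper5), part 6 (abstract): `s33r_main` for a ring of Hecke
pairs `Subring.closure gens ⊆ 𝕋 × End Y` given by COMMUTING generators (`s33r_main_sub`), and
"an injective endomorphism of a finite stable subgroup has every element as an `n`-th iterate".
-/
import Fermat.Agent.Lib.S33.RealRing

set_option autoImplicit false
set_option linter.style.haveILetI false
set_option linter.unusedSectionVars false

namespace Fermat.Agent.Lib.S33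

section Sub

variable {𝕋 : Type*} [CommRing 𝕋] {Y : Type*} [AddCommGroup Y] [Finite Y]
  {k : Type*} [Field k] [Finite k]
  {G : Type*} [Group G] {p : ℕ} [Fact p.Prime] [CharP k p]
  {V : Type*} [AddCommGroup V] [Module k V]

open scoped IsMulCommutative in
/-- `s33r_main` for a ring of Hecke pairs given by commuting generators. -/
theorem s33r_main_sub (gens : Set (𝕋 × Module.End ℤ Y))
    (hgc : ∀ x ∈ gens, ∀ y ∈ gens, x * y = y * x)
    (θ : 𝕋 →+* k)
    (hpY : ∀ y : Y, p • y = 0)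
    (ρ : G →* Module.End ℤ Y)
    (hcomm : ∀ e ∈ Subring.closure gens, ∀ g : G, e.2 * ρ g = ρ g * e.2)
    (hnil : ∀ e ∈ Subring.closure gens, θ e.1 = 0 → IsNilpotent e.2)
    (χ : G →* (ZMod p)ˣ) (trV : G → k)
    (hdens : ∀ g : G, ∃ e ∈ Subring.closure gens,
      θ e.1 = trV g ∧ e.2 = ρ g + ((χ g : ZMod p).val) • ρ g⁻¹)
    (ρV : G →* Module.End k V)
    (hCHV : ∀ g : G, ρV g + (ZMod.cast (χ g : ZMod p) : k) • ρV g⁻¹ = trV g • (1 : Module.End k V))
    (hirr : ∀ W : Submodule k V, (∀ g : G, ∀ x ∈ W, ρV g x ∈ W) → W = ⊥ ∨ W = ⊤)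
    (I : Set G) (τ : G) (hτI : τ ∈ I) (hχτ : (χ τ : ZMod p) ≠ 1)
    (L : Submodule k V) (hLbot : L ≠ ⊥) (hLtop : L ≠ ⊤)
    (hLquot : ∀ σ ∈ I, ∀ v : V, ρV σ v - v ∈ L)
    (hLchar : ∀ σ ∈ I, ∀ v ∈ L, ρV σ v = (ZMod.cast (χ σ : ZMod p) : k) • v) :
    (∀ Tp : Module.End ℤ Y, (∀ e ∈ Subring.closure gens, e.2 * Tp = Tp * e.2) →
      (∀ g : G, ρ g * Tp = Tp * ρ g) →
      (∀ z : Y, z ≠ 0 → (∀ σ ∈ I, ρ σ z = (χ σ : ZMod p).val • z) → Tp z ≠ 0) →
      Function.Injective Tp) ∧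
    (∀ K : AddSubgroup Y, (∀ x ∈ K, ρ τ x = (χ τ : ZMod p).val • x) → (∀ y : Y, ρ τ y - y ∈ K) →
      Nat.card K ^ 2 = Nat.card Y) ∧
    (∃ n : ℕ, Nat.card Y = n ^ 2) := by
  have hmc : IsMulCommutative ↥(Subring.closure gens) := Subring.isMulCommutative_closure hgc
  letI : CommRing ↥(Subring.closure gens) := inferInstance
  have key := s33r_main (𝔼 := ↥(Subring.closure gens)) (Y := Y) (k := k) (G := G) (p := p) (V := V)
    (θ.comp ((RingHom.fst 𝕋 (Module.End ℤ Y)).comp (Subring.closure gens).subtype))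
    ((RingHom.snd 𝕋 (Module.End ℤ Y)).comp (Subring.closure gens).subtype)
    hpY ρ (fun e g => hcomm e.1 e.2 g) (fun e he => hnil e.1 e.2 he) χ trV
    (fun g => by
      obtain ⟨e, he, h1, h2⟩ := hdens g
      exact ⟨⟨e, he⟩, h1, h2⟩)
    ρV hCHV hirr I τ hτI hχτ L hLbot hLtop hLquot hLchar
  refine ⟨fun Tp h1 h2 h3 => key.1 Tp (fun e => h1 e.1 e.2) h2 h3, key.2.1, key.2.2⟩

end Sub

section Ord

variable {A : Type*} [AddCommGroup A] {Y : Submodule ℤ A} [Finite ↥Y]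

theorem s33r_restrict_pow (F : Module.End ℤ A) (hFY : ∀ y ∈ Y, F y ∈ Y) (n : ℕ) (y : ↥Y) :
    ((((F.restrict (p := Y) (q := Y) hFY) ^ n) y : ↥Y) : A) = (F ^ n) (y : A) := by
  induction n generalizing y with
  | zero => rw [pow_zero, pow_zero, Module.End.one_apply, Module.End.one_apply]
  | succ n ih =>
    rw [pow_succ, pow_succ, Module.End.mul_apply, Module.End.mul_apply, ih,
      LinearMap.coe_restrict_apply]

/-- an injective endomorphism of a finite group: every element is an `n`-th iterate. -/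
theorem s33r_exists_iterate (F : Module.End ℤ A) (hFY : ∀ y ∈ Y, F y ∈ Y)
    (hinj : Function.Injective (F.restrict (p := Y) (q := Y) hFY)) (y : A) (hy : y ∈ Y) (n : ℕ) :
    ∃ y' ∈ Y, (F ^ n) y' = y := by
  have hsurj : Function.Surjective (F.restrict (p := Y) (q := Y) hFY) :=
    Finite.surjective_of_injective hinj
  have hsn : Function.Surjective ((F.restrict (p := Y) (q := Y) hFY) ^ n) := by
    rw [Module.End.coe_pow]
    exact hsurj.iterate n
  obtain ⟨y', hy'⟩ := hsn ⟨y, hy⟩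
  refine ⟨y', y'.2, ?_⟩
  rw [← s33r_restrict_pow F hFY n y', hy']

end Ord

end Fermat.Agent.Lib.S33
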