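/-
P-AT-P programme (S33), package [REAL'-inst] (helper5): THE LEVEL-`M` WIRING.

Setting: the hypotheses of S33 (Hecke–Galois datum `H` at level `N`, residually ordinary at `p`, `p`
odd, `p ∈ S ⊇ primes(N)`), an ARBITRARY level `M` which is good for `p` (`s18_GoodLevel p M`; no
relation between `M` and `N` is needed) and an ARBITRARY finite set `S₁ ⊇ S ∪ primes(M)`.

* `s33r_gensJ M S₁`        : the Hecke pairs `(T_ℓ ∈ 𝕋_N, T_ℓ ∈ End J₀(M)(ℚ̄))`, `ℓ` prime, `ℓ ∉ S₁`;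
* `s33r_thetaTors θ M p S₁` : the `θ`-primary part `Y` of `J₀(M)(ℚ̄)[p]` (finite, stable under `G_ℚ` and
                             under every Hecke operator, including `T_p`);
* `s33r_main_Y`            : `s33r_main` instantiated for ANY `G_ℚ`- and `T_ℓ`-stable `Y' ≤ Y` (any level `M`):
                             (A) injectivity criterion, (B) `#K² = #Y'`, (C) `#Y'` is a perfect square
                             (`s33r_card_sq_of_stable`);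
* `s33r_Tp_injective`      : (III-out) `s33_NoMuLine` ⟹ `T_p` is injective on `Y`
                             (Frobenius density on `Y` + Eichler–Shimura at level `M` + `s33r_main`);
* `s33r_thetaTors_le_ordPart` : hence `Y ⊆ s33_ordPart M p hp 1`;
* `s33r_realInst`          : Tate-module form: for ANY ring `𝔾` of Hecke pairs in `𝕋_N × End Λ(M)`
                             containing the `(s31e_tau N S ℓ, s31e_TL M p ℓ)`, `ℓ ∉ S₁`, and every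
                             `w ∈ s33g_primaryPart 𝔾 θ`:  `w 1 ∈ s33_ordPart M p hp 1`.
-/
import Fermat.Agent.Lib.S33.RealSub
import Fermat.Agent.Lib.S33.RealResid
import Fermat.Agent.Lib.S33.RealPrim
import Fermat.Agent.Lib.S33.LambdaIface
import Fermat.Agent.Lib.Frobenius.Exists

set_option autoImplicit false
set_option linter.style.haveILetI false
set_option linter.unusedSectionVars false

namespace Fermat.Agent.Lib.S33

open Module Polynomial IsLocalRing CuspForm ModularCurve AlgebraicCurve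
open Fermat.Agent.Lib.S29 Fermat.Agent.Lib.S30 Fermat.Agent.Lib.S31 Fermat.Agent.Lib.S53

local notation "Γℚ" => (AlgebraicClosure ℚ ≃ₐ[ℚ] AlgebraicClosure ℚ)
local notation "Kb" => AlgebraicClosure ℚ

noncomputable section

section Gens

variable {N : ℕ} [NeZero N] {S : Finset ℕ} (M : ℕ) [NeZero M] (S₁ : Finset ℕ)

/-- The generating Hecke pairs `(T_ℓ, T_ℓ)`, `ℓ ∉ S₁`, in `𝕋_N × End J₀(M)(ℚ̄)`. -/
def s33r_gensJ : Set (CuspForm.heckeAlgebra N 2 (↑S : Set ℕ) × Module.End ℤ (JZero M)) :=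
  {z | ∃ (ℓ : ℕ) (hℓ : ℓ.Prime), ℓ ∉ S₁ ∧ z = (s31e_tau N S ℓ, heckeOperatorBar M ⟨ℓ, hℓ⟩)}

variable {M S₁}

theorem s33r_gensJ_gal
    (z : CuspForm.heckeAlgebra N 2 (↑S : Set ℕ) × Module.End ℤ (JZero M))
    (hz : z ∈ s33r_gensJ (N := N) (S := S) M S₁) (σ : Γℚ) (x : JZero M) :
    z.2 (σ • x) = σ • z.2 x := by
  obtain ⟨ℓ, hℓ, -, rfl⟩ := hz
  exact (s30a_pt_comm M ⟨ℓ, hℓ⟩ σ x).symm

theorem s33r_gensJ_ES {p : ℕ} [Fact p.Prime] (hpS₁ : p ∈ S₁)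
    (hMS₁ : ∀ q : ℕ, q.Prime → q ∣ M → q ∈ S₁)
    (z : CuspForm.heckeAlgebra N 2 (↑S : Set ℕ) × Module.End ℤ (JZero M))
    (hz : z ∈ s33r_gensJ (N := N) (S := S) M S₁) :
    ∃ (σ : Γℚ) (n : ℕ), ∀ x : JZero M, p • x = 0 → σ • σ • x - z.2 (σ • x) + n • x = 0 := by
  obtain ⟨ℓ, hℓ, hℓS₁, rfl⟩ := hz
  obtain ⟨-, -, hℓMp⟩ := s31f_not_dvd M p hpS₁ hMS₁ hℓ hℓS₁
  obtain ⟨A, σ, hA, hσ⟩ := Fermat.Agent.Lib.Frobenius.exists_isFrobeniusAt ℓ hℓ
  refine ⟨σ, ℓ, fun x hx => ?_⟩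
  exact s29g_frobenius_quadratic M p ℓ hℓ hℓMp A hA σ hσ x 1 (by rw [pow_one]; exact hx)

end Gens

section Theta

variable {N : ℕ} [NeZero N] {S : Finset ℕ} {k : Type*} [Field k]
  (θ : CuspForm.heckeAlgebra N 2 (↑S : Set ℕ) →+* k) (M : ℕ) [NeZero M] (p : ℕ) (S₁ : Finset ℕ)

/-- The `θ`-primary part of `J₀(M)(ℚ̄)[p]` for the Hecke pairs `(T_ℓ, T_ℓ)`, `ℓ ∉ S₁`. -/
def s33r_thetaTors : Submodule ℤ (JZero M) :=
  s33r_primTors θ p (s33r_gensJ (N := N) (S := S) M S₁)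

variable {θ M p S₁}

theorem s33r_thetaTors_stable [Fact p.Prime] (hpS₁ : p ∈ S₁)
    (hMS₁ : ∀ q : ℕ, q.Prime → q ∣ M → q ∈ S₁) :
    s33r_Stable M p S₁ (s33r_thetaTors θ M p S₁) where
  tors := fun _ hy => hy.1
  gal := fun σ _ hy => s33r_primTors_gal s33r_gensJ_gal σ hy
  hecke := fun ℓ _ _ hy =>
    s33r_primTors_stable (G := Γℚ) (heckeOperatorBar M ℓ)
      (fun σ x => (s30a_pt_comm M ℓ σ x).symm) (s33r_gensJ_ES hpS₁ hMS₁) hy

/-- `T_p` itself preserves the primary part. -/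
theorem s33r_thetaTors_Tq [Fact p.Prime] (hpS₁ : p ∈ S₁)
    (hMS₁ : ∀ q : ℕ, q.Prime → q ∣ M → q ∈ S₁) (q : Nat.Primes) :
    ∀ y ∈ s33r_thetaTors θ M p S₁, heckeOperatorBar M q y ∈ s33r_thetaTors θ M p S₁ :=
  fun _ hy =>
    s33r_primTors_stable (G := Γℚ) (heckeOperatorBar M q)
      (fun σ x => (s30a_pt_comm M q σ x).symm) (s33r_gensJ_ES hpS₁ hMS₁) hy

instance s33r_thetaTors_finite [Fact p.Prime] : Finite ↥(s33r_thetaTors θ M p S₁) := by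
  haveI : NeZero p := ⟨(Fact.out : p.Prime).ne_zero⟩
  haveI := s30a_finite_torsion M p
  refine Finite.of_injective
    (fun y : ↥(s33r_thetaTors θ M p S₁) => (⟨(y : JZero M), by
      rw [Pic0.mem_torsion, natCast_zsmul]
      exact y.2.1⟩ : s29k_Jp M p)) ?_
  intro a b hab
  have h := congrArg (fun x : s29k_Jp M p => (x : JZero M)) hab
  exact Subtype.ext h

end Theta

end

end Fermat.Agent.Lib.S33

namespace Fermat.Agent.Lib.S33

open Module Polynomial IsLocalRing CuspForm ModularCurve AlgebraicCurve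
open Fermat.Agent.Lib.S29 Fermat.Agent.Lib.S30 Fermat.Agent.Lib.S31 Fermat.Agent.Lib.S53
open Fermat.Agent.Lib.S18

local notation "Γℚ" => (AlgebraicClosure ℚ ≃ₐ[ℚ] AlgebraicClosure ℚ)
local notation "Kb" => AlgebraicClosure ℚ

noncomputable section

section Rel

variable {p : ℕ} {N : ℕ} [NeZero N] {S : Finset ℕ}
  {M : ℕ} [NeZero M] {S₁ : Finset ℕ} {Y : Submodule ℤ (JZero M)} (hY : s33r_Stable M p S₁ Y)

/-- The Hecke pairs on a stable `Y` are induced by Hecke pairs on `J₀(M)(ℚ̄)`. -/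
theorem s33r_hrel (e : CuspForm.heckeAlgebra N 2 (↑S : Set ℕ) × Module.End ℤ ↥Y)
    (he : e ∈ s33r_gensY (N := N) (S := S) hY) :
    ∃ z ∈ s33r_gensJ (N := N) (S := S) M S₁, z.1 = e.1 ∧
      ∀ y : ↥Y, ((e.2 y : ↥Y) : JZero M) = z.2 (y : JZero M) := by
  obtain ⟨ℓ, hℓ, hℓS₁, rfl⟩ := he
  exact ⟨_, ⟨ℓ, hℓ, hℓS₁, rfl⟩, rfl, fun y => s33r_TY_apply hY hℓ hℓS₁ y⟩

/-- The generating Hecke pairs on `Y` commute. -/
theorem s33r_gensY_comm [Fact p.Prime] (hpS₁ : p ∈ S₁)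
    (hMS₁ : ∀ q : ℕ, q.Prime → q ∣ M → q ∈ S₁)
    (x : CuspForm.heckeAlgebra N 2 (↑S : Set ℕ) × Module.End ℤ ↥Y)
    (hx : x ∈ s33r_gensY (N := N) (S := S) hY)
    (y : CuspForm.heckeAlgebra N 2 (↑S : Set ℕ) × Module.End ℤ ↥Y)
    (hy : y ∈ s33r_gensY (N := N) (S := S) hY) : x * y = y * x := by
  have hxc := Subring.subset_closure hx
  obtain ⟨ℓ', hℓ', hℓ'S₁, rfl⟩ := hy
  refine Prod.ext (mul_comm _ _) ?_
  rw [Prod.snd_mul, Prod.snd_mul, s33r_TY_of hY hℓ' hℓ'S₁]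
  exact s33r_comm_restrict (G := Γℚ) (s33r_hrel hY) (s33r_gensJ_ES hpS₁ hMS₁) hY.tors
    (heckeOperatorBar M ⟨ℓ', hℓ'⟩) (fun σ x => (s30a_pt_comm M ⟨ℓ', hℓ'⟩ σ x).symm)
    (hY.hecke ⟨ℓ', hℓ'⟩ hℓ'S₁) hxc

end Rel

end

end Fermat.Agent.Lib.S33

namespace Fermat.Agent.Lib.S33

open Module Polynomial IsLocalRing CuspForm ModularCurve AlgebraicCurve
open Fermat.Agent.Lib.S29 Fermat.Agent.Lib.S30 Fermat.Agent.Lib.S31 Fermat.Agent.Lib.S53
open Fermat.Agent.Lib.S18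

local notation "Γℚ" => (AlgebraicClosure ℚ ≃ₐ[ℚ] AlgebraicClosure ℚ)
local notation "Kb" => AlgebraicClosure ℚ

noncomputable section

section Inst

variable {p : ℕ} [Fact p.Prime] {N : ℕ} [NeZero N] {S : Finset ℕ}
  {𝒪 : Type} [CommRing 𝒪] [IsDomain 𝒪] [IsDiscreteValuationRing 𝒪]
  [IsAdicComplete (IsLocalRing.maximalIdeal 𝒪) 𝒪]
  {θ : CuspForm.heckeAlgebra N 2 (↑S : Set ℕ) →+* IsLocalRing.ResidueField 𝒪}
  {T : Type} [CommRing T] [IsLocalRing T] [IsNoetherianRing T]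
  [IsAdicComplete (IsLocalRing.maximalIdeal T) T] [Algebra 𝒪 T] [IsLocalHom (algebraMap 𝒪 T)]
  [Module.Finite 𝒪 T] [Module.Free 𝒪 T]
  (H : CuspForm.HeckeGaloisRepDatum N (↑S : Set ℕ) 𝒪 θ T)

set_option maxHeartbeats 1000000 in
/-- **`s33r_main` for a stable subgroup of the `θ`-primary part of `J₀(M)[p]`**: `M` ANY level, `S₁` any
finite set `⊇ S ∪ primes(M)`, `Y ≤ s33r_thetaTors θ M p S₁` stable under `G_ℚ` and the `T_ℓ`, `ℓ ∉ S₁`,
`P ∣ p`, `τ ∈ I_P` with `χ τ ≠ 1`.  (A) an endomorphism of `Y` commuting with the Hecke pairs and with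
`G_ℚ` which kills no non-zero vector on which `I_P` acts through `χ` is injective; (B) `#K² = #Y` for
`K ≤ Y` with `τ = χ(τ)` on `K` and `τ = 1` on `Y / K`; (C) `#Y` is a perfect square. -/
theorem s33r_main_Y [Finite (IsLocalRing.ResidueField 𝒪)]
    (hp𝒪 : (p : 𝒪) ∈ IsLocalRing.maximalIdeal 𝒪)
    (hpS : p ∈ S) (hNS : ∀ q : ℕ, q.Prime → q ∣ N → q ∈ S)
    (hres : (GaloisRepAdic.ofResidualGaloisRep H.ρ.residual).IsOrdinaryAt p)
    {M : ℕ} [NeZero M] {S₁ : Finset ℕ} (hSS₁ : S ⊆ S₁)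
    (hMS₁ : ∀ q : ℕ, q.Prime → q ∣ M → q ∈ S₁)
    {Y : Submodule ℤ (JZero M)} (hY : s33r_Stable M p S₁ Y)
    (hYθ : Y ≤ s33r_thetaTors θ M p S₁)
    (P : ValuationSubring Kb) (hP : P.LiesOverPrime p)
    (τ : Γℚ) (hτI : τ ∈ P.inertiaSubgroupIn ℚ)
    (hχτ : ((s33r_chi p τ : (ZMod p)ˣ) : ZMod p) ≠ 1) :
    (∀ Tp : Module.End ℤ ↥Y,
      (∀ e ∈ Subring.closure (s33r_gensY (N := N) (S := S) hY), e.2 * Tp = Tp * e.2) →
      (∀ g : Γℚ, s33r_rhoY hY.gal g * Tp = Tp * s33r_rhoY hY.gal g) →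
      (∀ z : ↥Y, z ≠ 0 → (∀ σ ∈ P.inertiaSubgroupIn ℚ,
        s33r_rhoY hY.gal σ z = ((s33r_chi p σ : (ZMod p)ˣ) : ZMod p).val • z) → Tp z ≠ 0) →
      Function.Injective Tp) ∧
    (∀ K : AddSubgroup ↥Y,
      (∀ x ∈ K, s33r_rhoY hY.gal τ x = ((s33r_chi p τ : (ZMod p)ˣ) : ZMod p).val • x) →
      (∀ y : ↥Y, s33r_rhoY hY.gal τ y - y ∈ K) → Nat.card K ^ 2 = Nat.card ↥Y) ∧
    (∃ n : ℕ, Nat.card ↥Y = n ^ 2) := by
  have hpS₁ : p ∈ S₁ := hSS₁ hpS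
  haveI hfin : Finite (ResidueField T) := s33r_finite_res (𝒪 := 𝒪)
  haveI hchar : CharP (ResidueField T) p := s33r_charP_res (T := T) hp𝒪
  haveI hfinY : Finite ↥Y :=
    Finite.of_injective (fun y : ↥Y => (⟨(y : JZero M), hYθ y.2⟩ : ↥(s33r_thetaTors θ M p S₁)))
      (fun a b hab => Subtype.ext (congrArg
        (fun x : ↥(s33r_thetaTors θ M p S₁) => (x : JZero M)) hab))
  obtain ⟨L, hLbot, hLtop, hLquot, hLchar⟩ := s33r_line_chi H hpS hNS hres P hP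
  exact s33r_main_sub (p := p) (G := Γℚ) (k := ResidueField T)
    (s33r_gensY (N := N) (S := S) hY) (s33r_gensY_comm hY hpS₁ hMS₁)
    (s33r_thetaT H)
    (fun y => Subtype.ext (by
      rw [Submodule.coe_smul_of_tower, Submodule.coe_zero]; exact hY.tors y y.2))
    (s33r_rhoY hY.gal)
    (fun e he g => s33r_comm_rhoY (s33r_hrel hY) s33r_gensJ_gal hY.gal he g)
    (fun e he hθ => s33r_isNilpotent_of_primary (θ := θ) (p := p) (s33r_hrel hY) hYθ he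
      ((s33r_thetaT_eq_zero_iff H _).mp hθ))
    (s33r_chi p) (s33r_resTr H.ρ.residual)
    (fun g => s33r_dens_Y H hY hpS hNS hSS₁ hMS₁ g)
    H.ρ.residual.ρ (s33r_hCHV H hpS hNS) (s33r_res_irr H)
    (↑(P.inertiaSubgroupIn ℚ) : Set Γℚ) τ hτI hχτ L hLbot hLtop hLquot hLchar

/-- **Square count**: a subgroup of the `θ`-primary part of `J₀(M)[p]` which is stable under `G_ℚ`
and under the `T_ℓ`, `ℓ ∉ S₁`, has square order (`M` any level). -/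
theorem s33r_card_sq_of_stable [Finite (IsLocalRing.ResidueField 𝒪)]
    (hp2 : p ≠ 2) (hp𝒪 : (p : 𝒪) ∈ IsLocalRing.maximalIdeal 𝒪)
    (hpS : p ∈ S) (hNS : ∀ q : ℕ, q.Prime → q ∣ N → q ∈ S)
    (hres : (GaloisRepAdic.ofResidualGaloisRep H.ρ.residual).IsOrdinaryAt p)
    {M : ℕ} [NeZero M] {S₁ : Finset ℕ} (hSS₁ : S ⊆ S₁)
    (hMS₁ : ∀ q : ℕ, q.Prime → q ∣ M → q ∈ S₁)
    {Y : Submodule ℤ (JZero M)} (hY : s33r_Stable M p S₁ Y)
    (hYθ : Y ≤ s33r_thetaTors θ M p S₁) :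
    ∃ n : ℕ, Nat.card ↥Y = n ^ 2 := by
  obtain ⟨P, hP⟩ := Fermat.Agent.Lib.Frobenius.exists_liesOverPrime p Fact.out
  obtain ⟨τ, hτI, -, hχτ⟩ := s33r_exists_tau hp2 P hP
  exact (s33r_main_Y H hp𝒪 hpS hNS hres hSS₁ hMS₁ hY hYθ P hP τ hτI hχτ).2.2

/-- **`T_p` is injective on the `θ`-primary part of `J₀(M)[p]`** (`M` a good level, any finite
`S₁ ⊇ S ∪ primes(M)`), given (III-out). -/
theorem s33r_Tp_injective [Finite (IsLocalRing.ResidueField 𝒪)]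
    (hp2 : p ≠ 2) (hp𝒪 : (p : 𝒪) ∈ IsLocalRing.maximalIdeal 𝒪)
    (hpS : p ∈ S) (hNS : ∀ q : ℕ, q.Prime → q ∣ N → q ∈ S)
    (hres : (GaloisRepAdic.ofResidualGaloisRep H.ρ.residual).IsOrdinaryAt p)
    {M : ℕ} [NeZero M] (hgood : s18_GoodLevel p M) {S₁ : Finset ℕ} (hSS₁ : S ⊆ S₁)
    (hMS₁ : ∀ q : ℕ, q.Prime → q ∣ M → q ∈ S₁)
    (hNoMu : s33_NoMuLine) :
    Function.Injective
      ((heckeOperatorBar M ⟨p, Fact.out⟩).restrict
        (p := s33r_thetaTors θ M p S₁) (q := s33r_thetaTors θ M p S₁)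
        (s33r_thetaTors_Tq (hSS₁ hpS) hMS₁ ⟨p, Fact.out⟩)) := by
  have hp : p.Prime := Fact.out
  have hpS₁ : p ∈ S₁ := hSS₁ hpS
  obtain ⟨P, hP⟩ := Fermat.Agent.Lib.Frobenius.exists_liesOverPrime p hp
  obtain ⟨τ, hτI, -, hχτ⟩ := s33r_exists_tau hp2 P hP
  have hY := s33r_thetaTors_stable (θ := θ) (M := M) hpS₁ hMS₁
  have key := s33r_main_Y H hp𝒪 hpS hNS hres hSS₁ hMS₁ hY (le_refl _) P hP τ hτI hχτ
  refine key.1 _ (fun e he => ?_) (fun g => ?_) (fun z hz hmu => ?_)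
  · exact s33r_comm_restrict (G := Γℚ) (s33r_hrel hY) (s33r_gensJ_ES hpS₁ hMS₁) hY.tors
      (heckeOperatorBar M ⟨p, hp⟩) (fun σ x => (s30a_pt_comm M ⟨p, hp⟩ σ x).symm) _ he
  · ext y
    rw [Module.End.mul_apply, Module.End.mul_apply, s33r_rhoY_apply, LinearMap.coe_restrict_apply,
      LinearMap.coe_restrict_apply, s33r_rhoY_apply]
    exact s30a_pt_comm M ⟨p, hp⟩ g _
  · intro h0
    have hz0 : (z : JZero M) ≠ 0 := fun h => hz (Subtype.ext h)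
    have hmu' : s33_IsMuType M p P (z : JZero M) := by
      refine s33r_isMuType_of_chi P _ (hY.tors z z.2) (fun σ hσ => ?_)
      have := congrArg (fun y : ↥(s33r_thetaTors θ M p S₁) => (y : JZero M)) (hmu σ hσ)
      simpa [s33r_rhoY_apply] using this
    refine hNoMu M p hp hp2 hgood P hP (z : JZero M) (hY.tors z z.2) hz0 hmu' ?_
    have := congrArg (fun y : ↥(s33r_thetaTors θ M p S₁) => (y : JZero M)) h0
    simpa [LinearMap.coe_restrict_apply] using this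

end Inst

end

end Fermat.Agent.Lib.S33

namespace Fermat.Agent.Lib.S33

open Module Polynomial IsLocalRing CuspForm ModularCurve AlgebraicCurve
open Fermat.Agent.Lib.S29 Fermat.Agent.Lib.S30 Fermat.Agent.Lib.S31 Fermat.Agent.Lib.S53
open Fermat.Agent.Lib.S18

local notation "Γℚ" => (AlgebraicClosure ℚ ≃ₐ[ℚ] AlgebraicClosure ℚ)
local notation "Kb" => AlgebraicClosure ℚ

noncomputable section

section AbsEval

variable {𝕋 : Type*} [CommRing 𝕋] {A : Type*} [AddCommGroup A] {p : ℕ} [Fact p.Prime]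
  {k : Type*} [Field k] {θ : 𝕋 →+* k}
  {gens : Set (𝕋 × Module.End ℤ A)} {gensΛ : Set (𝕋 × Module.End ℤ_[p] (s30a_Tp A p))}

/-- Hecke pairs on points lift to coordinatewise Hecke pairs on the Tate module. -/
theorem s33r_exists_lift_tate
    (hrel : ∀ z' ∈ gens, ∃ z ∈ gensΛ, z.1 = z'.1 ∧
      ∀ (w : s30a_Tp A p) (n : ℕ), ((z.2 w : s30a_Tp A p) : ℕ → A) n = z'.2 ((w : ℕ → A) n))
    {z' : 𝕋 × Module.End ℤ A} (hz' : z' ∈ Subring.closure gens) :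
    ∃ z ∈ Subring.closure gensΛ, z.1 = z'.1 ∧
      ∀ (w : s30a_Tp A p) (n : ℕ), ((z.2 w : s30a_Tp A p) : ℕ → A) n = z'.2 ((w : ℕ → A) n) := by
  induction hz' using Subring.closure_induction with
  | mem e he =>
    obtain ⟨z, hz, h1, h2⟩ := hrel e he
    exact ⟨z, Subring.subset_closure hz, h1, h2⟩
  | zero => exact ⟨0, Subring.zero_mem _, rfl, fun w n => rfl⟩
  | one => exact ⟨1, Subring.one_mem _, rfl, fun w n => rfl⟩
  | add a b _ _ ha hb =>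
    obtain ⟨z, hz, h1, h2⟩ := ha
    obtain ⟨z', hz', h1', h2'⟩ := hb
    refine ⟨z + z', Subring.add_mem _ hz hz', by rw [Prod.fst_add, Prod.fst_add, h1, h1'],
      fun w n => ?_⟩
    rw [Prod.snd_add, Prod.snd_add, LinearMap.add_apply, LinearMap.add_apply, s30a_add_apply,
      h2, h2']
  | neg a _ ha =>
    obtain ⟨z, hz, h1, h2⟩ := ha
    refine ⟨-z, Subring.neg_mem _ hz, by rw [Prod.fst_neg, Prod.fst_neg, h1], fun w n => ?_⟩
    rw [Prod.snd_neg, Prod.snd_neg, LinearMap.neg_apply, LinearMap.neg_apply, s30a_neg_apply, h2]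
  | mul a b _ _ ha hb =>
    obtain ⟨z, hz, h1, h2⟩ := ha
    obtain ⟨z', hz', h1', h2'⟩ := hb
    refine ⟨z * z', Subring.mul_mem _ hz hz', by rw [Prod.fst_mul, Prod.fst_mul, h1, h1'],
      fun w n => ?_⟩
    rw [Prod.snd_mul, Prod.snd_mul, Module.End.mul_apply, Module.End.mul_apply, h2, h2']

theorem s33r_lift_tate_pow {z : 𝕋 × Module.End ℤ_[p] (s30a_Tp A p)} {z' : 𝕋 × Module.End ℤ A}
    (h2 : ∀ (w : s30a_Tp A p) (n : ℕ),
      ((z.2 w : s30a_Tp A p) : ℕ → A) n = z'.2 ((w : ℕ → A) n))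
    (j : ℕ) (w : s30a_Tp A p) (n : ℕ) :
    (((z.2 ^ j) w : s30a_Tp A p) : ℕ → A) n = (z'.2 ^ j) ((w : ℕ → A) n) := by
  induction j generalizing w with
  | zero => rw [pow_zero, pow_zero, Module.End.one_apply, Module.End.one_apply]
  | succ j ih =>
    rw [pow_succ, pow_succ, Module.End.mul_apply, Module.End.mul_apply, ih, h2]

/-- **From the Tate module to points**: the first coordinate of an element of the `θ`-primary part
of the Tate module lies in the `θ`-primary part of `A[p]`. -/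
theorem s33r_eval_mem_primTors
    (hrel : ∀ z' ∈ gens, ∃ z ∈ gensΛ, z.1 = z'.1 ∧
      ∀ (w : s30a_Tp A p) (n : ℕ), ((z.2 w : s30a_Tp A p) : ℕ → A) n = z'.2 ((w : ℕ → A) n))
    {w : s30a_Tp A p} (hw : w ∈ s33g_primaryPart (Subring.closure gensΛ) θ) :
    (w : ℕ → A) 1 ∈ s33r_primTors θ p gens := by
  refine ⟨?_, fun z' hz' hθ => ?_⟩
  · have := s30a_succ w 0
    rw [zero_add] at this
    rw [this, s30a_zero]
  · obtain ⟨z, hz, h1, h2⟩ := s33r_exists_lift_tate hrel hz'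
    have hθz : θ z.1 = 0 := by rw [h1, hθ]
    obtain ⟨j, w', hw'⟩ := hw z hz hθz 1
    refine ⟨j, ?_⟩
    rw [← s33r_lift_tate_pow h2 j w 1, hw', pow_one, s30a_natCast_smul_apply]
    have := s30a_succ w' 0
    rw [zero_add] at this
    rw [this, s30a_zero]

end AbsEval

section Final

variable {p : ℕ} [Fact p.Prime] {N : ℕ} [NeZero N] {S : Finset ℕ}
  {𝒪 : Type} [CommRing 𝒪] [IsDomain 𝒪] [IsDiscreteValuationRing 𝒪]
  [IsAdicComplete (IsLocalRing.maximalIdeal 𝒪) 𝒪]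
  {θ : CuspForm.heckeAlgebra N 2 (↑S : Set ℕ) →+* IsLocalRing.ResidueField 𝒪}
  {T : Type} [CommRing T] [IsLocalRing T] [IsNoetherianRing T]
  [IsAdicComplete (IsLocalRing.maximalIdeal T) T] [Algebra 𝒪 T] [IsLocalHom (algebraMap 𝒪 T)]
  [Module.Finite 𝒪 T] [Module.Free 𝒪 T]
  (H : CuspForm.HeckeGaloisRepDatum N (↑S : Set ℕ) 𝒪 θ T)

/-- **[REAL'-inst], point form**: under (III-out) the `θ`-primary part of `J₀(M)(ℚ̄)[p]` at a good
level `M` (Hecke pairs `(T_ℓ ∈ 𝕋_N, T_ℓ ∈ End J₀(M))`, `ℓ ∉ S₁`, for ANY finite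
`S₁ ⊇ S ∪ primes(M)`) lies in the ordinary part. -/
theorem s33r_thetaTors_le_ordPart [Finite (IsLocalRing.ResidueField 𝒪)]
    (hp : p.Prime) (hp2 : p ≠ 2) (hp𝒪 : (p : 𝒪) ∈ IsLocalRing.maximalIdeal 𝒪)
    (hpS : p ∈ S) (hNS : ∀ q : ℕ, q.Prime → q ∣ N → q ∈ S)
    (hres : (GaloisRepAdic.ofResidualGaloisRep H.ρ.residual).IsOrdinaryAt p)
    {M : ℕ} [NeZero M] (hgood : s18_GoodLevel p M) {S₁ : Finset ℕ} (hSS₁ : S ⊆ S₁)
    (hMS₁ : ∀ q : ℕ, q.Prime → q ∣ M → q ∈ S₁)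
    (hNoMu : s33_NoMuLine) (y : JZero M) (hy : y ∈ s33r_thetaTors θ M p S₁) :
    y ∈ s33_ordPart M p hp 1 := by
  have hinj := s33r_Tp_injective H hp2 hp𝒪 hpS hNS hres hgood hSS₁ hMS₁ hNoMu
  refine ⟨by rw [pow_one]; exact hy.1, fun n => ?_⟩
  obtain ⟨y', hy', h⟩ := s33r_exists_iterate (heckeOperatorBar M ⟨p, hp⟩) _ hinj y hy n
  exact ⟨y', by rw [pow_one]; exact hy'.1, h⟩

/-- The Hecke pairs on the Tate module at level `M` induce the Hecke pairs on points. -/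
theorem s33r_hrel_tate {M : ℕ} [NeZero M] {S₁ : Finset ℕ}
    (z' : CuspForm.heckeAlgebra N 2 (↑S : Set ℕ) × Module.End ℤ (JZero M))
    (hz' : z' ∈ s33r_gensJ (N := N) (S := S) M S₁) :
    ∃ z ∈ {z : CuspForm.heckeAlgebra N 2 (↑S : Set ℕ) × Module.End ℤ_[p] (s30a_TJ M p) |
        ∃ ℓ : ℕ, ℓ.Prime ∧ ℓ ∉ S₁ ∧ z = (s31e_tau N S ℓ, s31e_TL M p ℓ)},
      z.1 = z'.1 ∧ ∀ (w : s30a_TJ M p) (n : ℕ),
        ((z.2 w : s30a_TJ M p) : ℕ → JZero M) n = z'.2 ((w : ℕ → JZero M) n) := by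
  obtain ⟨ℓ, hℓ, hℓS₁, rfl⟩ := hz'
  refine ⟨_, ⟨ℓ, hℓ, hℓS₁, rfl⟩, rfl, fun w n => ?_⟩
  show ((s31e_TL M p ℓ w : s30a_TJ M p) : ℕ → JZero M) n = _
  rw [s31e_TL_of M p hℓ]
  rfl

/-- **[REAL'-inst], Tate-module form** (the shape asked for in the P-AT-P task board): `M` a good
level for `p`, `S₁ ⊇ S ∪ primes(M)` finite, `𝔾` ANY ring of Hecke pairs in `𝕋_N × End Λ(M)` containing
the pairs `(T_ℓ, T_ℓ^Λ)`, `ℓ ∉ S₁`.  Under (III-out) the first coordinate of every element of the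
`θ`-primary part of `Λ(M) = T_p J₀(M)` lies in the ordinary part of `J₀(M)[p]`. -/
theorem s33r_realInst [Finite (IsLocalRing.ResidueField 𝒪)]
    (hp : p.Prime) (hp2 : p ≠ 2) (hp𝒪 : (p : 𝒪) ∈ IsLocalRing.maximalIdeal 𝒪)
    (hpS : p ∈ S) (hNS : ∀ q : ℕ, q.Prime → q ∣ N → q ∈ S)
    (hres : (GaloisRepAdic.ofResidualGaloisRep H.ρ.residual).IsOrdinaryAt p)
    {M : ℕ} [NeZero M] (hgood : s18_GoodLevel p M) {S₁ : Finset ℕ} (hSS₁ : S ⊆ S₁)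
    (hMS₁ : ∀ q : ℕ, q.Prime → q ∣ M → q ∈ S₁)
    (hNoMu : s33_NoMuLine)
    (𝔾 : Subring (CuspForm.heckeAlgebra N 2 (↑S : Set ℕ) × Module.End ℤ_[p] (s30a_TJ M p)))
    (h𝔾 : ∀ ℓ : ℕ, ℓ.Prime → ℓ ∉ S₁ → (s31e_tau N S ℓ, s31e_TL M p ℓ) ∈ 𝔾)
    (w : s30a_TJ M p) (hw : w ∈ s33g_primaryPart 𝔾 θ) :
    (w : ℕ → JZero M) 1 ∈ s33_ordPart M p hp 1 := by
  refine s33r_thetaTors_le_ordPart H hp hp2 hp𝒪 hpS hNS hres hgood hSS₁ hMS₁ hNoMu _ ?_
  refine s33r_eval_mem_primTors (gens := s33r_gensJ (N := N) (S := S) M S₁) s33r_hrel_tate ?_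
  intro z hz hθ m
  refine hw z ?_ hθ m
  refine (Subring.closure_le (t := 𝔾)).mpr ?_ hz
  rintro _ ⟨ℓ, hℓ, hℓS₁, rfl⟩
  exact h𝔾 ℓ hℓ hℓS₁

end Final

end

end Fermat.Agent.Lib.S33
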