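/-
P-AT-P programme (S33), package [REAL'] (helper5): **small stable subgroups of the `θ`-primary part
vanish** (request of helper2 for risk (R1)(C)).

`s33r_small_eq_bot`: a `G_ℚ`- and `T_ℓ`-stable (`ℓ ∉ S₁`) subgroup `Y` of the `θ`-primary part of
`J₀(M)[p]` (ANY level `M`, no goodness, no (III)) which is "cyclic" in the sense
`∀ y₁ y₂ ∈ Y, y₁ = 0 ∨ y₂ ∈ ℕ y₁` is zero.  Proof: `s33r_main_Y` (A) with `Tp := 0` produces a non-zero
vector on which inertia acts through `χ`; by cyclicity `τ` acts on all of `Y` through `χ(τ)`; (B) with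
`K := ⊤` gives `#Y² = #Y`.
-/
import Fermat.Agent.Lib.S33.RealTop

set_option autoImplicit false
set_option linter.style.haveILetI false
set_option linter.unusedSectionVars false

namespace Fermat.Agent.Lib.S33

open Module Polynomial IsLocalRing CuspForm ModularCurve AlgebraicCurve
open Fermat.Agent.Lib.S29 Fermat.Agent.Lib.S30 Fermat.Agent.Lib.S31 Fermat.Agent.Lib.S53

local notation "Γℚ" => (AlgebraicClosure ℚ ≃ₐ[ℚ] AlgebraicClosure ℚ)
local notation "Kb" => AlgebraicClosure ℚ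

noncomputable section

section Small

variable {p : ℕ} [Fact p.Prime] {N : ℕ} [NeZero N] {S : Finset ℕ}
  {𝒪 : Type} [CommRing 𝒪] [IsDomain 𝒪] [IsDiscreteValuationRing 𝒪]
  [IsAdicComplete (IsLocalRing.maximalIdeal 𝒪) 𝒪]
  {θ : CuspForm.heckeAlgebra N 2 (↑S : Set ℕ) →+* IsLocalRing.ResidueField 𝒪}
  {T : Type} [CommRing T] [IsLocalRing T] [IsNoetherianRing T]
  [IsAdicComplete (IsLocalRing.maximalIdeal T) T] [Algebra 𝒪 T] [IsLocalHom (algebraMap 𝒪 T)]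
  [Module.Finite 𝒪 T] [Module.Free 𝒪 T]
  (H : CuspForm.HeckeGaloisRepDatum N (↑S : Set ℕ) 𝒪 θ T)

theorem s33r_small_eq_bot [Finite (IsLocalRing.ResidueField 𝒪)]
    (hp2 : p ≠ 2) (hp𝒪 : (p : 𝒪) ∈ IsLocalRing.maximalIdeal 𝒪)
    (hpS : p ∈ S) (hNS : ∀ q : ℕ, q.Prime → q ∣ N → q ∈ S)
    (hres : (GaloisRepAdic.ofResidualGaloisRep H.ρ.residual).IsOrdinaryAt p)
    {M : ℕ} [NeZero M] {S₁ : Finset ℕ} (hSS₁ : S ⊆ S₁)
    (hMS₁ : ∀ q : ℕ, q.Prime → q ∣ M → q ∈ S₁)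
    (Y : Submodule ℤ (JZero M)) (hY : s33r_Stable M p S₁ Y)
    (hYθ : Y ≤ s33r_thetaTors θ M p S₁)
    (hcyc : ∀ y₁ ∈ Y, ∀ y₂ ∈ Y, y₁ = 0 ∨ ∃ j : ℕ, y₂ = j • y₁) : Y = ⊥ := by
  by_contra hne
  obtain ⟨y₀, hy₀Y, hy₀⟩ := (Submodule.ne_bot_iff Y).mp hne
  obtain ⟨P, hP⟩ := Fermat.Agent.Lib.Frobenius.exists_liesOverPrime p Fact.out
  obtain ⟨τ, hτI, -, hχτ⟩ := s33r_exists_tau hp2 P hP
  obtain ⟨hA, hB, -⟩ := s33r_main_Y H hp𝒪 hpS hNS hres hSS₁ hMS₁ hY hYθ P hP τ hτI hχτ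
  haveI hfinY : Finite ↥Y :=
    Finite.of_injective (fun y : ↥Y => (⟨(y : JZero M), hYθ y.2⟩ : ↥(s33r_thetaTors θ M p S₁)))
      (fun a b hab => Subtype.ext (congrArg
        (fun x : ↥(s33r_thetaTors θ M p S₁) => (x : JZero M)) hab))
  -- a non-zero vector of `μ`-type
  have hex : ∃ z : ↥Y, z ≠ 0 ∧ ∀ σ ∈ P.inertiaSubgroupIn ℚ,
      s33r_rhoY hY.gal σ z = ((s33r_chi p σ : (ZMod p)ˣ) : ZMod p).val • z := by
    by_contra hno
    have hinj := hA 0 (fun e _ => by rw [mul_zero, zero_mul]) (fun g => by rw [mul_zero, zero_mul])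
      (fun z hz hmu _ => hno ⟨z, hz, hmu⟩)
    have h1 : (⟨y₀, hy₀Y⟩ : ↥Y) = 0 := hinj (by rw [LinearMap.zero_apply, LinearMap.zero_apply])
    exact hy₀ (congrArg (fun y : ↥Y => (y : JZero M)) h1)
  obtain ⟨z, hz, hmu⟩ := hex
  have hz' : (z : JZero M) ≠ 0 := fun h => hz (Subtype.ext h)
  -- `τ` acts through `χ(τ)` on all of `Y`
  have hall : ∀ y : ↥Y, s33r_rhoY hY.gal τ y =
      ((s33r_chi p τ : (ZMod p)ˣ) : ZMod p).val • y := by
    intro y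
    rcases hcyc (z : JZero M) z.2 (y : JZero M) y.2 with h | ⟨j, hj⟩
    · exact absurd h hz'
    · have hyz : y = j • z := Subtype.ext (by rw [hj, Submodule.coe_smul_of_tower])
      rw [hyz, map_nsmul, hmu τ hτI, smul_comm]
  have hcard := hB ⊤ (fun x _ => hall x) (fun y => AddSubgroup.mem_top _)
  have htop : Nat.card (⊤ : AddSubgroup ↥Y) = Nat.card ↥Y := AddSubgroup.card_top
  rw [htop] at hcard
  have hpos : 0 < Nat.card ↥Y := Nat.card_pos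
  have hone : Nat.card ↥Y = 1 := by
    have h2 : Nat.card ↥Y * Nat.card ↥Y = Nat.card ↥Y * 1 := by rw [← sq, hcard, mul_one]
    exact Nat.eq_of_mul_eq_mul_left hpos h2
  have huniq := (Nat.card_eq_one_iff_unique.mp hone).1
  exact hy₀ (congrArg (fun y : ↥Y => (y : JZero M)) (Subsingleton.elim (⟨y₀, hy₀Y⟩ : ↥Y) 0))

end Small

end

end Fermat.Agent.Lib.S33
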