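/-
P-AT-P programme (S33), risk (R1) (helper2): **`α^*` IS INJECTIVE ON THE `θ`-PRIMARY PART OF `J₀(N)[p]`**
when `[F̄(B) : F̄(N)] = p` (`N ∣ B`).

* `s33l_hecke_pt`      : a Galois-equivariant additive `f : J₀(A) → J₀(B)` commutes with `T_ℓ` on `p`-torsion
                         points, `ℓ ∤ A p`, `ℓ ∤ B p` (Eichler–Shimura at both levels);
* `s33l_kerTheta`      : `ker α^* ⊓ (θ-primary part of J₀(N)[p])`, a `s33r_Stable` submodule;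
* `s33l_kerTheta_cyc`  : it is cyclic of order `1` or `p` (Kummer bound `s33l_pull_dep`);
* `s33l_pull_inj`      : hence it is `⊥` (helper5's `s33r_small_eq_bot`);
* `s33l_eval_mem_thetaTors` : `w ∈ Λ_θ(N) ⇒ w 1 ∈` the `θ`-primary part of `J₀(N)[p]` for any `S₁ ⊇ S`.
-/
import Fermat.Agent.Lib.S33.LPull
import Fermat.Agent.Lib.S33.LHecke
import Fermat.Agent.Lib.S33.RealSmall

set_option autoImplicit false
set_option linter.unusedSectionVars false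
set_option linter.style.haveILetI false

noncomputable section

namespace Fermat.Agent.Lib.S33

open CuspForm ModularCurve AlgebraicCurve Fermat.Agent.Lib.S18 Fermat.Agent.Lib.S29
  Fermat.Agent.Lib.S30 Fermat.Agent.Lib.S31 Fermat.Agent.Lib.S35

local notation "Kb" => AlgebraicClosure ℚ
local notation "Γℚ" => (AlgebraicClosure ℚ ≃ₐ[ℚ] AlgebraicClosure ℚ)

section Points

variable {A B : ℕ} [NeZero A] [NeZero B]

/-- **Galois-equivariant maps commute with `T_ℓ` on `p`-torsion points** (two arbitrary levels). -/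
theorem s33l_hecke_pt (p : ℕ) (f : JZero A →+ JZero B)
    (hf : ∀ (σ : Γℚ) (x : JZero A), f (σ • x) = σ • f x)
    (ℓ : Nat.Primes) (hℓA : ¬ (ℓ : ℕ) ∣ A * p) (hℓB : ¬ (ℓ : ℕ) ∣ B * p)
    (y : JZero A) (hy : p • y = 0) :
    f (heckeOperatorBar A ℓ y) = heckeOperatorBar B ℓ (f y) := by
  obtain ⟨P, σ, hP, hσ⟩ := Fermat.Agent.Lib.Frobenius.exists_isFrobeniusAt (ℓ : ℕ) ℓ.2
  obtain ⟨x, rfl⟩ : ∃ x : JZero A, y = σ • x := ⟨σ⁻¹ • y, (smul_inv_smul σ y).symm⟩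
  have hpx : p ^ 1 • x = 0 := by
    have h0 : p ^ 1 • (σ • x) = 0 := by rw [pow_one]; exact hy
    have h1 := s29g_smul_torsion A p σ⁻¹ h0
    rwa [inv_smul_smul] at h1
  have hpfx : p ^ 1 • f x = 0 := by rw [← map_nsmul, hpx, map_zero]
  have h1 := s29g_frobenius_quadratic A p (ℓ : ℕ) ℓ.2 hℓA P hP σ hσ x 1 hpx
  have h2 := s29g_frobenius_quadratic B p (ℓ : ℕ) ℓ.2 hℓB P hP σ hσ (f x) 1 hpfx
  have hℓ' : (⟨(ℓ : ℕ), ℓ.2⟩ : Nat.Primes) = ℓ := Subtype.ext rfl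
  rw [hℓ'] at h1 h2
  have h3 : heckeOperatorBar A ℓ (σ • x) = σ • σ • x + (ℓ : ℕ) • x := by
    rw [← sub_eq_zero, ← neg_eq_zero, ← h1]; abel
  have h4 : heckeOperatorBar B ℓ (σ • f x) = σ • σ • f x + (ℓ : ℕ) • f x := by
    rw [← sub_eq_zero, ← neg_eq_zero, ← h2]; abel
  rw [h3, map_add, map_nsmul, hf, hf, h4]

end Points

section Ker

variable {N : ℕ} [NeZero N] {S : Finset ℕ} {B : ℕ} [NeZero B] (h : N ∣ B)
  {k : Type*} [Field k] (θ : heckeAlgebra N 2 (↑S : Set ℕ) →+* k) (p : ℕ) (S₁ : Finset ℕ)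

/-- `ker α^* ⊓` the `θ`-primary part of `J₀(N)[p]`. -/
def s33l_kerTheta : Submodule ℤ (JZero N) :=
  LinearMap.ker (s33l_pull h).toIntLinearMap ⊓ s33r_thetaTors θ N p S₁

variable {θ p S₁}

theorem s33l_mem_kerTheta {y : JZero N} :
    y ∈ s33l_kerTheta h θ p S₁ ↔ s33l_pull h y = 0 ∧ y ∈ s33r_thetaTors θ N p S₁ := by
  unfold s33l_kerTheta
  rw [Submodule.mem_inf, LinearMap.mem_ker]
  rfl

/-- `ker α^* ⊓ Y_θ` is stable under Galois and the Hecke operators away from `S₁`. -/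
theorem s33l_kerTheta_stable [Fact p.Prime] (hpS₁ : p ∈ S₁)
    (hNS₁ : ∀ q : ℕ, q.Prime → q ∣ N → q ∈ S₁) (hBS₁ : ∀ q : ℕ, q.Prime → q ∣ B → q ∈ S₁) :
    s33r_Stable N p S₁ (s33l_kerTheta h θ p S₁) := by
  have hY := s33r_thetaTors_stable (θ := θ) (M := N) hpS₁ hNS₁
  have hpp : p.Prime := Fact.out
  refine ⟨fun y hy => hY.tors y ((s33l_mem_kerTheta h).1 hy).2, fun σ y hy => ?_,
    fun ℓ hℓ y hy => ?_⟩
  · obtain ⟨h1, h2⟩ := (s33l_mem_kerTheta h).1 hy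
    refine (s33l_mem_kerTheta h).2 ⟨?_, hY.gal σ y h2⟩
    rw [s33l_pull_smul, h1]
    exact smul_zero (A := JZero B) σ
  · obtain ⟨h1, h2⟩ := (s33l_mem_kerTheta h).1 hy
    refine (s33l_mem_kerTheta h).2 ⟨?_, hY.hecke ℓ hℓ y h2⟩
    have hℓp : ¬ (ℓ : ℕ) ∣ p := fun hd =>
      hℓ (by rwa [(Nat.prime_dvd_prime_iff_eq ℓ.2 hpp).mp hd])
    rw [s33l_hecke_pt p (s33l_pull h) (s33l_pull_smul h) ℓ ?_ ?_ y (hY.tors y h2), h1, map_zero]
    · intro hd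
      rcases (Nat.Prime.dvd_mul ℓ.2).mp hd with hd | hd
      · exact hℓ (hNS₁ ℓ ℓ.2 hd)
      · exact hℓp hd
    · intro hd
      rcases (Nat.Prime.dvd_mul ℓ.2).mp hd with hd | hd
      · exact hℓ (hBS₁ ℓ ℓ.2 hd)
      · exact hℓp hd

/-- `ker α^* ⊓ Y_θ` is cyclic of order `1` or `p` when `[F̄(B) : F̄(N)] = p`. -/
theorem s33l_kerTheta_cyc (hp : p.Prime)
    (hdeg : IntermediateField.relfinrank (modularFunctionFieldBar N) (modularFunctionFieldBar B) = p)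
    (y₁ : JZero N) (hy₁ : y₁ ∈ s33l_kerTheta h θ p S₁)
    (y₂ : JZero N) (hy₂ : y₂ ∈ s33l_kerTheta h θ p S₁) :
    y₁ = 0 ∨ ∃ j : ℕ, y₂ = j • y₁ := by
  obtain ⟨h1, h2⟩ := (s33l_mem_kerTheta h).1 hy₁
  obtain ⟨h3, h4⟩ := (s33l_mem_kerTheta h).1 hy₂
  exact s33l_pull_dep h hp hdeg h2.1 h4.1 h1 h3

end Ker

section Eval

variable {N : ℕ} [NeZero N] {S : Finset ℕ} {p : ℕ} [Fact p.Prime]
  {k : Type*} [Field k] (θ : heckeAlgebra N 2 (↑S : Set ℕ) →+* k)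

/-- **From `Λ_θ(N)` to points**: `w ∈ Λ_θ(N) ⇒ w 1 ∈` the `θ`-primary part of `J₀(N)[p]` with respect
to the Hecke pairs away from any `S₁ ⊇ S ∪ {primes of N}`. -/
theorem s33l_eval_mem_thetaTors {S₁ : Finset ℕ} (hS : S ⊆ S₁)
    (hNS₁ : ∀ q : ℕ, q.Prime → q ∣ N → q ∈ S₁) {w : s30a_TJ N p}
    (hw : w ∈ s33g_thetaPart N p S θ) :
    (w : ℕ → JZero N) 1 ∈ s33r_thetaTors θ N p S₁ := by
  refine s33r_eval_mem_primTors (gens := s33r_gensJ (N := N) (S := S) N S₁) s33r_hrel_tate ?_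
  intro z hz hθ m
  refine hw z ?_ hθ m
  refine (Subring.closure_le (t := s33g_pairs N p S)).mpr ?_ hz
  rintro _ ⟨ℓ, hℓ, hℓS₁, rfl⟩
  exact s33g_gen_mem_pairs N p S hℓ (fun hd => hℓS₁ (hNS₁ ℓ hℓ hd)) (fun hd => hℓS₁ (hS hd))

end Eval

section Inj

variable {p : ℕ} [Fact p.Prime] {N : ℕ} [NeZero N] {S : Finset ℕ}
  {𝒪 : Type} [CommRing 𝒪] [IsDomain 𝒪] [IsDiscreteValuationRing 𝒪]
  [IsAdicComplete (IsLocalRing.maximalIdeal 𝒪) 𝒪]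
  {θ : CuspForm.heckeAlgebra N 2 (↑S : Set ℕ) →+* IsLocalRing.ResidueField 𝒪}
  {T : Type} [CommRing T] [IsLocalRing T] [IsNoetherianRing T]
  [IsAdicComplete (IsLocalRing.maximalIdeal T) T] [Algebra 𝒪 T] [IsLocalHom (algebraMap 𝒪 T)]
  [Module.Finite 𝒪 T] [Module.Free 𝒪 T]
  (H : CuspForm.HeckeGaloisRepDatum N (↑S : Set ℕ) 𝒪 θ T)

/-- **`α^*` is injective on the `θ`-primary part of `J₀(N)[p]`** when `[F̄(B) : F̄(N)] = p`. -/
theorem s33l_pull_inj [Finite (IsLocalRing.ResidueField 𝒪)]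
    (hp2 : p ≠ 2) (hp𝒪 : (p : 𝒪) ∈ IsLocalRing.maximalIdeal 𝒪)
    (hpS : p ∈ S) (hNS : ∀ q : ℕ, q.Prime → q ∣ N → q ∈ S)
    (hres : (GaloisRepAdic.ofResidualGaloisRep H.ρ.residual).IsOrdinaryAt p)
    {B : ℕ} [NeZero B] (h : N ∣ B)
    (hdeg : IntermediateField.relfinrank (modularFunctionFieldBar N) (modularFunctionFieldBar B) = p)
    {S₁ : Finset ℕ} (hSS₁ : S ⊆ S₁) (hBS₁ : ∀ q : ℕ, q.Prime → q ∣ B → q ∈ S₁)
    (y : JZero N) (hy : y ∈ s33r_thetaTors θ N p S₁) (hker : s33l_pull h y = 0) : y = 0 := by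
  have hNS₁ : ∀ q : ℕ, q.Prime → q ∣ N → q ∈ S₁ := fun q hq hd => hSS₁ (hNS q hq hd)
  have hbot := s33r_small_eq_bot H hp2 hp𝒪 hpS hNS hres hSS₁ hNS₁
    (s33l_kerTheta h θ p S₁) (s33l_kerTheta_stable h (hSS₁ hpS) hNS₁ hBS₁) inf_le_right
    (s33l_kerTheta_cyc h Fact.out hdeg)
  have hmem : y ∈ s33l_kerTheta h θ p S₁ := (s33l_mem_kerTheta h).2 ⟨hker, hy⟩
  rw [hbot] at hmem
  exact (Submodule.mem_bot ℤ).1 hmem

end Inj

end Fermat.Agent.Lib.S33
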