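/-
P-AT-P programme (S33), package [REAL'-inst] (helper5): the contract `s33l_RealInst` of
`Lib/S33/LIface.lean` (helper2) is a theorem, given (III-out) `s33_NoMuLine`.
-/
import Fermat.Agent.Lib.S33.RealTop
import Fermat.Agent.Lib.S33.LIface

set_option autoImplicit false
set_option linter.style.haveILetI false
set_option linter.unusedSectionVars false

namespace Fermat.Agent.Lib.S33

/-- **[REAL'-inst]**: (III-out) implies the contract `s33l_RealInst`. -/
theorem s33r_realInst_of_noMuLine (hNoMu : s33_NoMuLine) : s33l_RealInst := by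
  intro p N _ S 𝒪 _ _ _ _ θ T _ _ _ _ _ _ _ _ _ _ hp hp2 hp𝒪 hN hNS H hres M₁ _ hgood S₁ hSS₁ hMS₁
  haveI : Fact p.Prime := ⟨hp⟩
  intro w hw
  exact s33r_realInst H hp hp2 hp𝒪 (hNS p hp hN.1) hNS hres hgood hSS₁ hMS₁ hNoMu _
    (fun ℓ hℓ hℓS₁ => s33l_gen_mem_pairs N S M₁ p S₁ hℓ hℓS₁) w hw

end Fermat.Agent.Lib.S33
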