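/-
P-AT-P programme (S33), risk (R1) (helper2): **THE TOP OF THE J-SIDE: `s33_UMJ → s33l_RealInst → s33g_UM`
FOR ALL ODD `p`**, hence `s33_UMJ → s33_NoMuLine → S33`.

Write `N = M' p` (`p ∥ N`).
* good case (`(p, M')` S18-good): `J1` := the subgroup of `s33_UMJ` at `(M', p)`; the ordinarity hypotheses of
  (M°) for `x = w 1`, `w ∈ Λ_θ(N)`, come from `s33l_RealInst` at `M₁ = M'`, `S₁ = S` through
  `s33l_map_primaryPart` with `f = α_*, β_*`;
* bad case (`p = 3`, `M'` odd): pass to the good level `B = (2 M') · 3` by the pull-back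
  `α^* = s33l_pull : J₀(N) → J₀(B)`: `J1 := (α^*)⁻¹ J1(B)`; (U) is immediate; for (M) apply (M°) at level
  `B` to `α^* x` (ordinarity from `s33l_RealInst` at `M₁ = 2 M'`, `S₁ = S ∪ {2}`, `f = α'_* ∘ α^*`,
  `β'_* ∘ α^*`), so `α^*(σ x - 2 x) = 0`, and `α^*` is injective on the `θ`-primary part of `J₀(N)[3]`
  (`s33l_pull_inj`: Kummer bound, `[F̄(2N) : F̄(N)] = 3`, + helper5's square count).
-/
import Fermat.Agent.Lib.S33.LInj
import Fermat.Agent.Lib.S33.UMJIface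
import Fermat.Agent.Lib.S33.GHalfTop
import Fermat.Agent.Lib.S33.RealInst

set_option autoImplicit false
set_option linter.unusedSectionVars false
set_option linter.style.haveILetI false

noncomputable section

namespace Fermat.Agent.Lib.S33

open CuspForm ModularCurve AlgebraicCurve Fermat.Agent.Lib.S18 Fermat.Agent.Lib.S29
  Fermat.Agent.Lib.S30 Fermat.Agent.Lib.S31 Fermat.Agent.Lib.S35

local notation "Kb" => AlgebraicClosure ℚ
local notation "Γℚ" => (AlgebraicClosure ℚ ≃ₐ[ℚ] AlgebraicClosure ℚ)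

/-- a level which is not good for an odd prime `p ∤ M'`: `p = 3` and `M'` odd. -/
theorem s33l_bad_level {p M' : ℕ} (hp : p.Prime) (hp2 : p ≠ 2) (hpM' : ¬ p ∣ M')
    (hbad : ¬ s18_GoodLevel p M') : p = 3 ∧ ¬ 2 ∣ M' := by
  have h3 : p = 3 := by
    by_contra h3
    apply hbad
    refine ⟨hpM', Or.inl ?_⟩
    have h2 := hp.two_le
    rcases Nat.lt_or_ge p 5 with h5 | h5
    · exfalso
      have : p = 4 := by omega
      subst this
      exact absurd hp (by decide)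
    · exact h5
  refine ⟨h3, fun h2 => hbad ⟨hpM', Or.inr (Or.inl ⟨h3, h2⟩)⟩⟩

/-- **The J-side contract (U) + (M) from the intrinsic output `s33_UMJ` and [REAL′-inst].** -/
theorem s33l_UM (hUMJ : s33_UMJ) (hReal : s33l_RealInst) : s33g_UM := by
  intro p N _ S 𝒪 _ _ _ _ θ T _ _ _ _ _ _ _ _ _ _ hp hp2 hp𝒪 hN hNS H hres P hP
  haveI : Fact p.Prime := ⟨hp⟩
  haveI : NeZero p := ⟨hp.ne_zero⟩
  obtain ⟨M', hM'⟩ := hN.1
  rw [mul_comm] at hM'
  subst hM'
  haveI : NeZero M' := ⟨fun h0 => NeZero.ne (M' * p) (by rw [h0, zero_mul])⟩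
  have hpM' : ¬ p ∣ M' := by
    intro hd
    apply hN.2
    obtain ⟨c, rfl⟩ := hd
    exact ⟨c, by ring⟩
  have hpS : p ∈ S := hNS p hp hN.1
  have hM'S : ∀ q : ℕ, q.Prime → q ∣ M' → q ∈ S := fun q hq hd => hNS q hq (Dvd.dvd.mul_right hd p)
  by_cases hgood : s18_GoodLevel p M'
  · -- the good case
    obtain ⟨J1, hU, hM⟩ := hUMJ M' p hp2 hgood P hP
    refine ⟨J1, hU, ?_⟩
    rintro σ hσ hζ x hx hpx ⟨w, hw, rfl⟩
    refine hM σ hσ 2 hζ _ hx hpx ?_ ?_
    · exact hReal hp hp2 hp𝒪 hN hNS H hres M' hgood S (Finset.Subset.refl S) hM'S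
        (s35c_TpMap (p := p) (s35c_alphaPush M' p hp hpM') w)
        (s33l_map_primaryPart θ (Finset.Subset.refl S) hpS hNS hM'S _
          (s35c_alphaPush_smul M' p hp hpM') hw)
    · exact hReal hp hp2 hp𝒪 hN hNS H hres M' hgood S (Finset.Subset.refl S) hM'S
        (s35c_TpMap (p := p) (s35c_betaPush M' p hp hpM') w)
        (s33l_map_primaryPart θ (Finset.Subset.refl S) hpS hNS hM'S _
          (s35c_betaPush_smul M' p hp hpM') hw)
  · -- the bad case: `p = 3`, `M'` odd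
    obtain ⟨hp3, h2M'⟩ := s33l_bad_level hp hp2 hpM' hgood
    haveI : NeZero (M' * 2) := ⟨mul_ne_zero (NeZero.ne M') two_ne_zero⟩
    haveI : NeZero (M' * 2 * p) := ⟨mul_ne_zero (NeZero.ne (M' * 2)) hp.ne_zero⟩
    have hp2' : ¬ p ∣ 2 := by
      rw [hp3]; decide
    have hpM₁ : ¬ p ∣ M' * 2 := fun hd =>
      (hp.dvd_mul.mp hd).elim hpM' hp2'
    have hgood₁ : s18_GoodLevel p (M' * 2) :=
      ⟨hpM₁, Or.inr (Or.inl ⟨hp3, dvd_mul_left 2 M'⟩)⟩
    have hAB : M' * p ∣ M' * 2 * p := ⟨2, by ring⟩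
    obtain ⟨J1', hU', hMB⟩ := hUMJ (M' * 2) p hp2 hgood₁ P hP
    set S₁ : Finset ℕ := insert 2 S with hS₁
    have hSS₁ : S ⊆ S₁ := Finset.subset_insert 2 S
    have hpS₁ : p ∈ S₁ := hSS₁ hpS
    have hNS₁ : ∀ q : ℕ, q.Prime → q ∣ M' * p → q ∈ S₁ := fun q hq hd => hSS₁ (hNS q hq hd)
    have hM₁S₁ : ∀ q : ℕ, q.Prime → q ∣ M' * 2 → q ∈ S₁ := by
      intro q hq hd
      rcases hq.dvd_mul.mp hd with hd | hd
      · exact hSS₁ (hM'S q hq hd)
      · rw [(Nat.prime_dvd_prime_iff_eq hq Nat.prime_two).mp hd]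
        exact Finset.mem_insert_self 2 S
    have hBS₁ : ∀ q : ℕ, q.Prime → q ∣ M' * 2 * p → q ∈ S₁ := by
      intro q hq hd
      rcases hq.dvd_mul.mp hd with hd | hd
      · exact hM₁S₁ q hq hd
      · rw [(Nat.prime_dvd_prime_iff_eq hq hp).mp hd]
        exact hpS₁
    have h2N : ¬ 2 ∣ M' * p := by
      intro hd
      rcases Nat.prime_two.dvd_mul.mp hd with hd | hd
      · exact h2M' hd
      · rw [hp3] at hd
        exact absurd hd (by decide)
    have hdeg : IntermediateField.relfinrank (modularFunctionFieldBar (M' * p))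
        (modularFunctionFieldBar (M' * 2 * p)) = p := by
      have h0 := s18l_relfinrank_level (M' * p) 2 Nat.prime_two h2N
      have e : 2 * (M' * p) = M' * 2 * p := by ring
      rw [e] at h0
      rw [h0, hp3]
    refine ⟨J1'.comap (s33l_pull hAB), ?_, ?_⟩
    · intro j x hx σ hσ
      rw [AddSubgroup.mem_comap, map_sub, s33l_pull_smul]
      exact hU' j _ (by rw [← map_nsmul, hx, map_zero]) σ hσ
    · rintro σ hσ hζ x hx hpx ⟨w, hw, rfl⟩
      have hx' : s33l_pull hAB ((w : ℕ → JZero (M' * p)) 1) ∈ J1' := hx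
      have hpx' : p • s33l_pull hAB ((w : ℕ → JZero (M' * p)) 1) = 0 := by
        rw [← map_nsmul, hpx, map_zero]
      have hα : s35c_alphaPush (M' * 2) p hp hpM₁ (s33l_pull hAB ((w : ℕ → JZero (M' * p)) 1)) ∈
          s33_ordPart (M' * 2) p hp 1 :=
        hReal hp hp2 hp𝒪 hN hNS H hres (M' * 2) hgood₁ S₁ hSS₁ hM₁S₁
          (s35c_TpMap (p := p) ((s35c_alphaPush (M' * 2) p hp hpM₁).comp (s33l_pull hAB)) w)
          (s33l_map_primaryPart θ hSS₁ hpS₁ hNS₁ hM₁S₁ _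
            (fun τ y => by
              rw [AddMonoidHom.comp_apply, AddMonoidHom.comp_apply, s33l_pull_smul,
                s35c_alphaPush_smul]) hw)
      have hβ : s35c_betaPush (M' * 2) p hp hpM₁ (s33l_pull hAB ((w : ℕ → JZero (M' * p)) 1)) ∈
          s33_ordPart (M' * 2) p hp 1 :=
        hReal hp hp2 hp𝒪 hN hNS H hres (M' * 2) hgood₁ S₁ hSS₁ hM₁S₁
          (s35c_TpMap (p := p) ((s35c_betaPush (M' * 2) p hp hpM₁).comp (s33l_pull hAB)) w)
          (s33l_map_primaryPart θ hSS₁ hpS₁ hNS₁ hM₁S₁ _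
            (fun τ y => by
              rw [AddMonoidHom.comp_apply, AddMonoidHom.comp_apply, s33l_pull_smul,
                s35c_betaPush_smul]) hw)
      have key := hMB σ hσ 2 hζ _ hx' hpx' hα hβ
      -- the difference `σ x - 2 x` lies in `ker α^* ⊓ Y_θ`
      have hw' : s30a_rho (M' * p) p σ w - (w + w) ∈ s33g_thetaPart (M' * p) p S θ := by
        refine Submodule.sub_mem _ ?_ (Submodule.add_mem _ hw hw)
        exact s33l_primaryPart_stable _ θ (s30a_rho (M' * p) p σ)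
          (fun z hz => s33g_pairs_commute_rho (M' * p) p S hz σ) hw
      have hy := s33l_eval_mem_thetaTors θ hSS₁ hNS₁ hw'
      rw [s30a_sub_apply, s30a_add_apply, s30a_rho_apply] at hy
      have hker : s33l_pull hAB (σ • (w : ℕ → JZero (M' * p)) 1 -
          ((w : ℕ → JZero (M' * p)) 1 + (w : ℕ → JZero (M' * p)) 1)) = 0 := by
        rw [map_sub, s33l_pull_smul, key, map_add, two_nsmul, sub_self]
      have h0 := s33l_pull_inj H hp2 hp𝒪 hpS hNS hres hAB hdeg hSS₁ hBS₁ _ hy hker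
      rw [two_nsmul]
      exact sub_eq_zero.mp h0

/-- **S33 from the intrinsic J-side output and (III-out).** -/
theorem s33l_S33_of_UMJ (hUMJ : s33_UMJ) (hNoMu : s33_NoMuLine)
    {p : ℕ} {N : ℕ} [NeZero N] {S : Finset ℕ}
    {𝒪 : Type} [CommRing 𝒪] [IsDomain 𝒪] [IsDiscreteValuationRing 𝒪]
    [IsAdicComplete (IsLocalRing.maximalIdeal 𝒪) 𝒪]
    {θ : CuspForm.heckeAlgebra N 2 (↑S : Set ℕ) →+* IsLocalRing.ResidueField 𝒪}
    {T : Type} [CommRing T] [IsLocalRing T] [IsNoetherianRing T]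
    [IsAdicComplete (IsLocalRing.maximalIdeal T) T] [Algebra 𝒪 T] [IsLocalHom (algebraMap 𝒪 T)]
    [Module.Finite 𝒪 T] [Module.Free 𝒪 T]
    [Finite (IsLocalRing.ResidueField 𝒪)] [CharZero 𝒪]
    (hp : p.Prime) (hp2 : p ≠ 2) (hp𝒪 : (p : 𝒪) ∈ IsLocalRing.maximalIdeal 𝒪)
    (hN : p ∣ N ∧ ¬ p ^ 2 ∣ N)
    (hNS : ∀ q : ℕ, q.Prime → q ∣ N → q ∈ S)
    (H : CuspForm.HeckeGaloisRepDatum N (↑S : Set ℕ) 𝒪 θ T)
    (hres : (GaloisRepAdic.ofResidualGaloisRep H.ρ.residual).IsOrdinaryAt p) :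
    H.ρ.IsOrdinaryAt p :=
  s33g_S33_of_UM (s33l_UM hUMJ (s33r_realInst_of_noMuLine hNoMu)) hp hp2 hp𝒪 hN hNS H hres

end Fermat.Agent.Lib.S33
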