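/-
P-AT-P programme (S33), Stage 2, brick (NI) "no node at infinity" (owner: helper6), part 1: pure algebra.

* `s33n_exists_shape` : `x` transcendental over `K`, the kernel of `K[X][Y] → F, (X,Y) ↦ (x,y)` contains a
  nonzero element of `Y`-degree `≤ N`, is stable under `swap`, and `y` is integral over `K[x]`.  Then the
  primitive kernel element `Ψ` of minimal `Y`-degree `n` (`1 ≤ n ≤ N`) has constant leading
  `Y`-coefficient and `supp Ψ ⊆ {(0,n), (n,0)} ∪ [0,n-1]²`.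
* `s33n_newton` : the Newton-polygon consequence at a place `Q` with `ord_Q x < 0`:
  `m · ord_Q x ≤ ord_Q y` for every `m ≥ max (n - 1) 1`.
-/
import Fermat.Agent.Lib.S34.EBidegree
import Fermat.Agent.Lib.FF.FFBasicPlace

set_option autoImplicit false

noncomputable section

namespace Fermat.Agent.Lib.S33

open Polynomial AlgebraicCurve Fermat.Agent.Lib.FF Fermat.Agent.Lib.S34
open scoped Polynomial.Bivariate

/-! ### the shape of the minimal relation -/

/-- **the shape of the minimal relation.** -/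
theorem s33n_exists_shape {K F : Type*} [Field K] [Field F] [Algebra K F] (x y : F)
    (hx : Transcendental K x) (N : ℕ)
    (hrel : ∃ P : K[X][Y], P ≠ 0 ∧ P.natDegree ≤ N ∧ Polynomial.aevalAeval x y P = 0)
    (hsymm : ∀ P : K[X][Y], Polynomial.aevalAeval x y P = 0 → Polynomial.aevalAeval y x P = 0)
    (hint : ∃ m : K[X][Y], m.Monic ∧ Polynomial.aevalAeval x y m = 0) :
    ∃ (Ψ : K[X][Y]) (n : ℕ) (c : K), 1 ≤ n ∧ n ≤ N ∧ c ≠ 0 ∧
      Polynomial.aevalAeval x y Ψ = 0 ∧ Ψ.natDegree = n ∧ Ψ.coeff n = C c ∧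
      ∀ i k : ℕ, (Ψ.coeff k).coeff i ≠ 0 →
        (i = 0 ∧ k = n) ∨ (i = n ∧ k = 0) ∨ (i < n ∧ k < n) := by
  classical
  have hex : ∃ d : ℕ, ∃ P : K[X][Y], P ≠ 0 ∧ P.natDegree = d ∧
      Polynomial.aevalAeval x y P = 0 := by
    obtain ⟨P, hP0, -, hP⟩ := hrel
    exact ⟨P.natDegree, P, hP0, rfl, hP⟩
  obtain ⟨Ψ₀, hΨ₀ne, hΨ₀deg, hΨ₀ker⟩ := Nat.find_spec hex
  have hmin₀ : ∀ Θ : K[X][Y], Θ ≠ 0 → Polynomial.aevalAeval x y Θ = 0 →
      Nat.find hex ≤ Θ.natDegree := fun Θ hΘ hΘ0 =>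
    Nat.find_min' hex ⟨Θ, hΘ, rfl, hΘ0⟩
  have hdn : Nat.find hex ≤ N := by
    obtain ⟨P, hP0, hPn, hP⟩ := hrel
    exact (hmin₀ P hP0 hP).trans hPn
  have hconst : ∀ a : K[X], (Polynomial.aevalAeval x y : K[X][Y] →ₐ[K] F) (C a) = 0 → a = 0 := by
    intro a h
    rw [Polynomial.aevalAeval_C] at h
    exact (transcendental_iff.mp hx) a h
  set Ψ := Ψ₀.primPart with hΨ_def
  have hΨprim : Ψ.IsPrimitive := isPrimitive_primPart Ψ₀
  have hΨne : Ψ ≠ 0 := hΨprim.ne_zero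
  have hΨdeg : Ψ.natDegree = Nat.find hex := by rw [hΨ_def, natDegree_primPart, hΨ₀deg]
  have hΨker : Polynomial.aevalAeval x y Ψ = 0 := by
    have h1 : Ψ₀ = C Ψ₀.content * Ψ := eq_C_content_mul_primPart Ψ₀
    have h2 : Polynomial.aevalAeval x y (C Ψ₀.content * Ψ) = 0 := by rw [← h1]; exact hΨ₀ker
    rw [map_mul] at h2
    rcases mul_eq_zero.mp h2 with h3 | h3
    · exact absurd (hconst _ h3) (mt content_eq_zero_iff.mp hΨ₀ne)
    · exact h3
  have hdvd : ∀ Θ : K[X][Y], Polynomial.aevalAeval x y Θ = 0 → Ψ ∣ Θ :=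
    s34e_dvd_of_minimal ((Polynomial.aevalAeval x y : K[X][Y] →ₐ[K] F) : K[X][Y] →+* F)
      Ψ hΨprim
      (fun Θ hΘ hΘ0 => by rw [hΨdeg]; exact hmin₀ Θ hΘ hΘ0) hΨker
  obtain ⟨n, hn_def⟩ : ∃ n : ℕ, n = Ψ.natDegree := ⟨_, rfl⟩
  -- the leading coefficient is a constant
  obtain ⟨m, hm_monic, hm_ker⟩ := hint
  obtain ⟨Θ, hΘ⟩ := hdvd m hm_ker
  have hlc : IsUnit Ψ.leadingCoeff := by
    have h1 : m.leadingCoeff = Ψ.leadingCoeff * Θ.leadingCoeff := by rw [hΘ, leadingCoeff_mul]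
    rw [hm_monic.leadingCoeff] at h1
    exact IsUnit.of_mul_eq_one _ h1.symm
  obtain ⟨c, hcu, hc⟩ := Polynomial.isUnit_iff.mp hlc
  have hc0 : c ≠ 0 := hcu.ne_zero
  have hlead : Ψ.coeff n = C c := by rw [hn_def]; exact hc.symm
  -- the swap
  have hswapker : Polynomial.aevalAeval x y (Polynomial.Bivariate.swap Ψ) = 0 := by
    rw [Polynomial.Bivariate.aevalAeval_swap]
    exact hsymm Ψ hΨker
  obtain ⟨R, hR⟩ := hdvd _ hswapker
  have hRunit : IsUnit R := by
    have h1 := congrArg Polynomial.Bivariate.swap hR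
    rw [Polynomial.Bivariate.swap_swap_apply, map_mul, hR] at h1
    -- `Ψ = Ψ * R * swap R`
    have h2 : Ψ * 1 = Ψ * (R * Polynomial.Bivariate.swap R) := by
      rw [mul_one, ← mul_assoc]
      exact h1
    have h3 := mul_left_cancel₀ hΨne h2
    exact IsUnit.of_mul_eq_one _ h3.symm
  obtain ⟨r, hru, hr⟩ := Polynomial.isUnit_iff.mp hRunit
  obtain ⟨θ, hθu, hθ⟩ := Polynomial.isUnit_iff.mp hru
  -- coefficient symmetry
  have hcoeff : ∀ i k : ℕ, (Ψ.coeff k).coeff i = (Ψ.coeff i).coeff k * θ := by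
    intro i k
    rw [← s34e_coeff_swap Ψ i k, hR, ← hr, ← hθ, coeff_mul_C, coeff_mul_C]
  -- `n ≥ 1`
  have hn1 : 1 ≤ n := by
    by_contra h0
    have hn0 : Ψ.natDegree = 0 := by omega
    have hΨC : Ψ = C (Ψ.coeff 0) := eq_C_of_natDegree_eq_zero hn0
    have h1 : Polynomial.aevalAeval x y (C (Ψ.coeff 0)) = 0 := by rw [← hΨC]; exact hΨker
    have h2 := hconst _ h1
    rw [h2, map_zero] at hΨC
    exact hΨne hΨC
  refine ⟨Ψ, n, c, hn1, by rw [hn_def, hΨdeg]; exact hdn, hc0, hΨker, hn_def.symm, hlead, ?_⟩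
  intro i k hik
  have hk : k ≤ n := by
    by_contra hk
    have h0 : Ψ.coeff k = 0 := coeff_eq_zero_of_natDegree_lt (by omega)
    exact hik (by rw [h0, coeff_zero])
  have hi : i ≤ n := by
    by_contra hi
    apply hik
    have h0 : Ψ.coeff i = 0 := coeff_eq_zero_of_natDegree_lt (by omega)
    rw [hcoeff, h0, coeff_zero, zero_mul]
  rcases Nat.lt_or_ge k n with hkn | hkn
  · rcases Nat.lt_or_ge i n with hin | hin
    · exact Or.inr (Or.inr ⟨hin, hkn⟩)
    · have hin' : i = n := le_antisymm hi hin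
      refine Or.inr (Or.inl ⟨hin', ?_⟩)
      by_contra hk0
      apply hik
      rw [hcoeff, hin', hlead, coeff_C, if_neg hk0, zero_mul]
  · have hkn' : k = n := le_antisymm hk hkn
    refine Or.inl ⟨?_, hkn'⟩
    by_contra hi0
    apply hik
    rw [hkn', hlead, coeff_C, if_neg hi0]

/-! ### orders of sums -/

section Ord

variable {K F : Type*} [Field K] [Field F] [Algebra K F] (Q : Place K F)

theorem s33n_ord_neg (z : F) : Q.ord (-z) = Q.ord z := by
  rcases eq_or_ne z 0 with rfl | hz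
  · rw [neg_zero]
  have h1 : (-1 : F) = algebraMap K F (-1) := by rw [map_neg, map_one]
  have h2 : -z = (-1 : F) * z := by ring
  rw [h2, Q.ord_mul (by norm_num) hz, h1, ff_ord_algebraMap, zero_add]

theorem s33n_ord_pow (z : F) (n : ℕ) : Q.ord (z ^ n) = n * Q.ord z := by
  have := Q.ord_zpow z (n : ℤ)
  rwa [zpow_natCast] at this

/-- a finite sum of terms of order `> t` is `0` or has order `> t`. -/
theorem s33n_ord_sum_gt {ι : Type*} (s : Finset ι) (f : ι → F) (t : ℤ)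
    (h : ∀ i ∈ s, f i = 0 ∨ t < Q.ord (f i)) :
    (∑ i ∈ s, f i) = 0 ∨ t < Q.ord (∑ i ∈ s, f i) := by
  classical
  induction s using Finset.induction_on with
  | empty => left; rfl
  | insert a s ha ih =>
    rw [Finset.sum_insert ha]
    have h1 := h a (Finset.mem_insert_self a s)
    have h2 := ih fun i hi => h i (Finset.mem_insert_of_mem hi)
    by_cases hfa : f a = 0
    · rw [hfa, zero_add]; exact h2
    by_cases hs : (∑ i ∈ s, f i) = 0
    · rw [hs, add_zero]; exact Or.inr (h1.resolve_left hfa)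
    by_cases h0 : f a + ∑ i ∈ s, f i = 0
    · exact Or.inl h0
    right
    have h3 := ff_ord_add_ge Q hfa hs h0
    have h4 := h1.resolve_left hfa
    have h5 := h2.resolve_left hs
    exact lt_of_lt_of_le (lt_min h4 h5) h3

/-- if `z ≠ 0` has order `t` and `S` is `0` or of order `> t`, then `z + S ≠ 0`. -/
theorem s33n_add_ne_zero {z S : F} {t : ℤ} (hz : z ≠ 0) (hzt : Q.ord z = t)
    (hS : S = 0 ∨ t < Q.ord S) : z + S ≠ 0 := by
  intro h
  rcases hS with hS | hS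
  · rw [hS, add_zero] at h; exact hz h
  · have : S = -z := by rw [← sub_eq_zero, sub_neg_eq_add, add_comm]; exact h
    rw [this, s33n_ord_neg, hzt] at hS
    exact lt_irrefl _ hS

/-- bivariate evaluation as a double sum. -/
theorem s33n_aevalAeval_eq_sum (x y : F) (Ψ : K[X][Y]) (n : ℕ) (hdeg : Ψ.natDegree ≤ n)
    (hX : ∀ k, (Ψ.coeff k).natDegree ≤ n) :
    Polynomial.aevalAeval x y Ψ = ∑ k ∈ Finset.range (n + 1), ∑ i ∈ Finset.range (n + 1),
      algebraMap K F ((Ψ.coeff k).coeff i) * x ^ i * y ^ k := by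
  conv_lhs => rw [Ψ.as_sum_range' (n + 1) (by omega)]
  rw [map_sum]
  refine Finset.sum_congr rfl fun k _ => ?_
  rw [← C_mul_X_pow_eq_monomial, map_mul, map_pow, Polynomial.aevalAeval_C,
    Polynomial.aevalAeval_Y, aeval_eq_sum_range' (lt_of_le_of_lt (hX k) (Nat.lt_succ_self n)),
    Finset.sum_mul]
  refine Finset.sum_congr rfl fun i _ => ?_
  rw [Algebra.smul_def]

/-- **Newton**: the relation `Ψ (x, y) = 0` of the shape of `s33n_exists_shape` bounds the pole of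
`y` at a pole of `x`. -/
theorem s33n_newton (x y : F) (hy0 : y ≠ 0) (hx : Q.ord x < 0)
    (Ψ : K[X][Y]) (n : ℕ) (c : K) (hn : 1 ≤ n) (hc : c ≠ 0)
    (hker : Polynomial.aevalAeval x y Ψ = 0) (hdeg : Ψ.natDegree = n) (hlead : Ψ.coeff n = C c)
    (hsupp : ∀ i k : ℕ, (Ψ.coeff k).coeff i ≠ 0 →
      (i = 0 ∧ k = n) ∨ (i = n ∧ k = 0) ∨ (i < n ∧ k < n))
    (m : ℕ) (hm1 : 1 ≤ m) (hnm : n ≤ m + 1) : (m : ℤ) * Q.ord x ≤ Q.ord y := by
  classical
  by_contra hlt
  rw [not_le] at hlt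
  have hx0 : x ≠ 0 := by
    rintro rfl
    rw [Q.ord_zero] at hx
    exact lt_irrefl _ hx
  have hX : ∀ k, (Ψ.coeff k).natDegree ≤ n := by
    intro k
    rw [natDegree_le_iff_coeff_eq_zero]
    intro i hi
    by_contra h
    rcases hsupp i k h with ⟨h1, -⟩ | ⟨h1, -⟩ | ⟨h1, -⟩ <;> omega
  have hsum := s33n_aevalAeval_eq_sum x y Ψ n (le_of_eq hdeg) hX
  rw [hker, ← Finset.sum_product'] at hsum
  have hmem : ((n, 0) : ℕ × ℕ) ∈ Finset.range (n + 1) ×ˢ Finset.range (n + 1) := by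
    rw [Finset.mem_product]
    exact ⟨Finset.mem_range.mpr (by omega), Finset.mem_range.mpr (by omega)⟩
  rw [← Finset.add_sum_erase _ _ hmem] at hsum
  -- the corner term
  have hT0 : algebraMap K F ((Ψ.coeff n).coeff 0) * x ^ 0 * y ^ n = algebraMap K F c * y ^ n := by
    rw [hlead, coeff_C_zero, pow_zero, mul_one]
  have hcF : algebraMap K F c ≠ 0 := by simpa using hc
  have hT0ne : algebraMap K F c * y ^ n ≠ 0 := mul_ne_zero hcF (pow_ne_zero _ hy0)
  have hT0ord : Q.ord (algebraMap K F c * y ^ n) = n * Q.ord y := by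
    rw [Q.ord_mul hcF (pow_ne_zero _ hy0), ff_ord_algebraMap, zero_add, s33n_ord_pow]
  simp only [] at hsum
  rw [hT0] at hsum
  refine s33n_add_ne_zero Q hT0ne hT0ord ?_ hsum.symm
  apply s33n_ord_sum_gt
  rintro ⟨k, i⟩ hki
  rw [Finset.mem_erase, Finset.mem_product, Finset.mem_range, Finset.mem_range] at hki
  obtain ⟨hne, hk, hi⟩ := hki
  by_cases hcoef : (Ψ.coeff k).coeff i = 0
  · left
    rw [hcoef, map_zero, zero_mul, zero_mul]
  right
  have hcF' : algebraMap K F ((Ψ.coeff k).coeff i) ≠ 0 := by simpa using hcoef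
  have hord : Q.ord (algebraMap K F ((Ψ.coeff k).coeff i) * x ^ i * y ^ k) =
      i * Q.ord x + k * Q.ord y := by
    rw [Q.ord_mul (mul_ne_zero hcF' (pow_ne_zero _ hx0)) (pow_ne_zero _ hy0),
      Q.ord_mul hcF' (pow_ne_zero _ hx0), ff_ord_algebraMap, zero_add, s33n_ord_pow, s33n_ord_pow]
  rw [hord]
  have hm1' : (1 : ℤ) ≤ m := by exact_mod_cast hm1
  have hn1' : (1 : ℤ) ≤ n := by exact_mod_cast hn
  have hnm' : (n : ℤ) ≤ m + 1 := by exact_mod_cast hnm
  rcases hsupp i k hcoef with ⟨h1, h2⟩ | ⟨h1, h2⟩ | ⟨h1, h2⟩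
  · exact absurd (Prod.ext h2 h1) hne
  · subst h1 h2
    simp only [Nat.cast_zero, zero_mul, add_zero]
    -- `n * ord y < n * ord x`
    have h3 : Q.ord y < Q.ord x := by nlinarith
    nlinarith
  · have hi' : (i : ℤ) + 1 ≤ n := by exact_mod_cast h1
    have hk' : (k : ℤ) + 1 ≤ n := by exact_mod_cast h2
    have hi0 : (0 : ℤ) ≤ i := Nat.cast_nonneg i
    have hk0 : (0 : ℤ) ≤ k := Nat.cast_nonneg k
    -- `(n - k) * ord y ≤ ord y < m * ord x ≤ i * ord x`
    have hy_neg : Q.ord y < 0 := by nlinarith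
    have h3 : ((n : ℤ) - k) * Q.ord y ≤ Q.ord y := by nlinarith
    have h4 : (m : ℤ) * Q.ord x ≤ i * Q.ord x := by nlinarith
    nlinarith

end Ord

end Fermat.Agent.Lib.S33
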