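/-
P-AT-P programme (S33), Stage 2, brick (NI) "no node at infinity" (owner: helper6), part 2: the modular
instance.  Level `M q` (`q` prime, `q ∤ M`), `j = s18g_jF (M q)`, `u = βj = j(T^q) = s34d2_u M q`.

* `s33n_rel`, `s33n_monic`, `s33n_symm` : the hypotheses of `s33n_exists_shape` for `(j, u)`;
* **`s33n_pole_le`** : at every place `Q` with `ord_Q j < 0`:  `q · ord_Q j ≤ ord_Q u`;
* `s33n_y_mem_ring` : `y := u · j⁻ᑫ` lies in the chart ring `B₂ = s34x_ring O (chart2 j)`;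
* **`s33n_no_node_at_infty`** : no prime of `B₂` contains both component primes and `j⁻¹`.
-/
import Fermat.Agent.Lib.S33.SSNewton
import Fermat.Agent.Lib.S33.SSConn
import Fermat.Agent.Lib.S34.DStarInst
import Fermat.Agent.Lib.S34.ERel
import Fermat.Agent.Lib.S34.MValRed
import Fermat.Agent.Lib.S34.DChart
import Fermat.Agent.Lib.S34.DFibreF

set_option autoImplicit false
set_option linter.style.haveILetI false
set_option linter.unusedSectionVars false

noncomputable section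

namespace Fermat.Agent.Lib.S33

open ModularCurve AlgebraicCurve HahnSeries Polynomial Fermat.Agent.Lib.FF Fermat.Agent.Lib.S18
  Fermat.Agent.Lib.S28 Fermat.Agent.Lib.S34 Fermat.Agent.Lib.S37
open scoped Polynomial.Bivariate

local notation "Kb" => AlgebraicClosure ℚ

/-- `ψ(q) = q + 1` for a prime `q`. -/
theorem s33n_dedekindPsi_prime {q : ℕ} (hq : q.Prime) : dedekindPsi q = q + 1 := by
  rw [dedekindPsi, hq.divisors, Finset.filter_true_of_mem, Finset.sum_pair hq.one_lt.ne,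
    Nat.div_one, Nat.div_self hq.pos]
  intro d hd
  rw [Finset.mem_insert, Finset.mem_singleton] at hd
  rcases hd with rfl | rfl
  · exact squarefree_one
  · exact hq.squarefree

/-- explicit integrality over `ℤ[x]` gives a monic bivariate relation over any field of
coefficients. -/
theorem s33n_monic_of_intOver {K F : Type*} [Field K] [Field F] [Algebra K F] {x y : F}
    (h : s28d_IntOver x y) : ∃ m : K[X][Y], m.Monic ∧ Polynomial.aevalAeval x y m = 0 := by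
  obtain ⟨G, hG, h0⟩ := h
  have key : ∀ P : ℤ[X][Y], Polynomial.aevalAeval x y
      (P.map (Polynomial.mapRingHom (algebraMap ℤ K))) = eval y (P.map (aeval x).toRingHom) := by
    intro P
    induction P using Polynomial.induction_on' with
    | add p q hp hq => simp only [Polynomial.map_add, map_add, eval_add, hp, hq]
    | monomial n a =>
      rw [Polynomial.map_monomial, Polynomial.map_monomial, eval_monomial,
        ← C_mul_X_pow_eq_monomial, map_mul, map_pow, Polynomial.aevalAeval_C,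
        Polynomial.aevalAeval_Y, Polynomial.coe_mapRingHom, Polynomial.aeval_map_algebraMap]
      rfl
  exact ⟨G.map (Polynomial.mapRingHom (algebraMap ℤ K)), hG.map _, (key G).trans h0⟩

section Modular

variable {K₀ : Type*} [Field K₀] [Algebra ℚ K₀] {κ : Type*} [Field κ] (G : s18g_GaussData K₀ κ)
variable (φ : K₀ →+* Kb) (M q : ℕ) [NeZero M] [NeZero q]

theorem s33n_u_ne_zero : s34d2_u (K₀ := K₀) M q ≠ 0 := by
  intro h
  have h1 := congrArg (fun z : s34m_F K₀ (M * q) => (z : LaurentSeries K₀)) h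
  simp only [s34d2_coe_u] at h1
  have h2 : qExpand K₀ q (jqModC K₀) = qExpand K₀ q 0 := by rw [h1, map_zero]; rfl
  exact jqModC_ne_zero_of_nontrivial K₀ (qExpand_injective (R := K₀) q h2)

include φ in
/-- a non-trivial relation between `j` and `u = j(T^q)` of `Y`-degree `≤ q + 1`. -/
theorem s33n_rel (hq : q.Prime) : ∃ P : K₀[X][Y], P ≠ 0 ∧ P.natDegree ≤ q + 1 ∧
    Polynomial.aevalAeval (s18g_jF (K := K₀) (M * q)) (s34d2_u M q) P = 0 := by
  classical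
  obtain ⟨c, hc0, hsum⟩ := s18g_exists_relation q φ (n := q + 2)
    (by rw [s33n_dedekindPsi_prime hq]; omega)
    (fun i => qExpand K₀ q (jqModC K₀) ^ (i : ℕ))
    (fun i => pow_mem (s18g_jqN_mem_baseChange q dvd_rfl) _)
  obtain ⟨i₀, hi₀⟩ := Function.ne_iff.mp hc0
  refine ⟨∑ k : Fin (q + 2), monomial (k : ℕ) (c k), ?_, ?_, ?_⟩
  · intro h0
    have hc : (∑ k : Fin (q + 2), monomial (k : ℕ) (c k)).coeff (i₀ : ℕ) = c i₀ := by
      rw [finsetSum_coeff, Finset.sum_eq_single i₀]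
      · rw [coeff_monomial, if_pos rfl]
      · intro k _ hk
        rw [coeff_monomial, if_neg]
        exact fun h => hk (Fin.ext h)
      · intro h
        exact absurd (Finset.mem_univ i₀) h
    rw [h0, Polynomial.coeff_zero] at hc
    exact hi₀ hc.symm
  · refine natDegree_sum_le_of_forall_le _ _ fun k _ => ?_
    refine le_trans (natDegree_monomial_le _) ?_
    have := k.2
    omega
  · rw [s34e_rel_eq_zero_iff, map_sum]
    rw [← hsum]
    refine Finset.sum_congr rfl fun k _ => ?_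
    rw [s34e_rel_monomial, s18g_coe_jF, s34d2_coe_u]

include φ in
/-- the relations between `j` and `u` are symmetric (Atkin–Lehner). -/
theorem s33n_symm (hq : q.Prime) (hqM : ¬ q ∣ M) (P : K₀[X][Y])
    (h : Polynomial.aevalAeval (s18g_jF (K := K₀) (M * q)) (s34d2_u M q) P = 0) :
    Polynomial.aevalAeval (s34d2_u M q) (s18g_jF (K := K₀) (M * q)) P = 0 := by
  have := s34e_rel_symm φ M q hq hqM (s18g_jF (K := K₀) M) P
  rw [s34d2_alpha_j] at this
  exact this h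

include φ in
/-- **the pole inequality**: at a pole of `j`, `ord u ≥ q · ord j`. -/
theorem s33n_pole_le (hq : q.Prime) (hqM : ¬ q ∣ M) (Q : Place K₀ (s34m_F K₀ (M * q)))
    (hQ : Q.ord (s18g_jF (K := K₀) (M * q)) < 0) :
    (q : ℤ) * Q.ord (s18g_jF (K := K₀) (M * q)) ≤ Q.ord (s34d2_u M q) := by
  obtain ⟨Ψ, n, c, hn1, hnq, hc, hker, hdeg, hlead, hsupp⟩ :=
    s33n_exists_shape (s18g_jF (K := K₀) (M * q)) (s34d2_u M q) (s18b_transcendental_jF (M * q))
      (q + 1) (s33n_rel φ M q hq) (s33n_symm φ M q hq hqM)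
      (s33n_monic_of_intOver (s34d2_intOver_u M q))
  exact s33n_newton Q _ _ (s33n_u_ne_zero M q) hQ Ψ n c hn1 hc hker hdeg hlead hsupp q
    hq.one_le hnq

end Modular

section NoNode

variable {K₀ : Type*} [Field K₀] [Algebra ℚ K₀] {κ : Type*} [Field κ] (G : s18g_GaussData K₀ κ)
variable (φ : K₀ →+* Kb) (M q : ℕ) [NeZero M] [NeZero q]

/-- `v = j⁻¹` lies in the chart ring `B₂`. -/
theorem s33n_jinv_mem_ring (hq : q.Prime) (hqM : ¬ q ∣ M) :
    (s18g_jF (K := K₀) (M * q))⁻¹ ∈ s34x_ring (s34x_infRing (s34m_VV G φ M q hq hqM))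
      (s18_chart2 (L₀ := K₀) (s18g_jF (K := K₀) (M * q))) :=
  ⟨s34d2_j_inv_mem_O G φ M q hq hqM, fun _ hQ => hQ⟩

/-- **`y = u · j⁻ᑫ` lies in the chart ring `B₂`** (pole inequality at the poles of `j`,
integrality of `u` over `ℤ[j]` elsewhere). -/
theorem s33n_y_mem_ring (hq : q.Prime) (hqM : ¬ q ∣ M) :
    s34d2_u M q * ((s18g_jF (K := K₀) (M * q))⁻¹) ^ q ∈
      s34x_ring (s34x_infRing (s34m_VV G φ M q hq hqM))
        (s18_chart2 (L₀ := K₀) (s18g_jF (K := K₀) (M * q))) := by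
  refine ⟨Subring.mul_mem _ (s34d2_u_mem_O G φ M q hq hqM)
    (Subring.pow_mem _ (s34d2_j_inv_mem_O G φ M q hq hqM) q), fun Q hQ => ?_⟩
  have hj0 : s18g_jF (K := K₀) (M * q) ≠ 0 := s18g_jF_ne_zero (M * q)
  have hu0 : s34d2_u (K₀ := K₀) M q ≠ 0 := s33n_u_ne_zero M q
  by_cases hpole : Q.ord (s18g_jF (K := K₀) (M * q)) < 0
  · have h1 := s33n_pole_le φ M q hq hqM Q hpole
    have hv0 : ((s18g_jF (K := K₀) (M * q))⁻¹) ^ q ≠ 0 := pow_ne_zero _ (inv_ne_zero hj0)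
    rw [ff_mem_iff_ord_nonneg Q (mul_ne_zero hu0 hv0), Q.ord_mul hu0 hv0, s33n_ord_pow,
      Q.ord_inv]
    linarith
  · have hjQ : s18g_jF (K := K₀) (M * q) ∈ Q.toValuationSubring :=
      (ff_mem_iff_ord_nonneg Q hj0).mpr (not_lt.mp hpole)
    have huQ : s34d2_u (K₀ := K₀) M q ∈ Q.toValuationSubring :=
      s34d_mem_of_intOver Q.toValuationSubring (s34d2_intOver_u M q) hjQ
    exact Q.toValuationSubring.mul_mem _ _ huQ (pow_mem hQ q)

/-! ### The reductions of `j`, `j⁻¹`, `u` -/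

theorem s33n_jbar_ne_zero : jqModC κ ≠ 0 := jqModC_ne_zero_of_nontrivial κ

theorem s33n_redInf_jinv :
    s34m_redInf G (M * q) ⟨(s18g_jF (K := K₀) (M * q))⁻¹, s34d2_j_inv_mem_Vinf G M q⟩ =
      (jqModC κ)⁻¹ := by
  have h : s34m_redInf G (M * q) ⟨(s18g_jF (K := K₀) (M * q))⁻¹, s34d2_j_inv_mem_Vinf G M q⟩ *
      s34m_redInf G (M * q) ⟨s18g_jF (K := K₀) (M * q), s34m_jF_mem_Vinf G (M * q)⟩ = 1 := by
    rw [← map_mul]
    have : (⟨(s18g_jF (K := K₀) (M * q))⁻¹, s34d2_j_inv_mem_Vinf G M q⟩ *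
        ⟨s18g_jF (K := K₀) (M * q), s34m_jF_mem_Vinf G (M * q)⟩ : s34m_Vinf G (M * q)) = 1 :=
      Subtype.ext (inv_mul_cancel₀ (s18g_jF_ne_zero (M * q)))
    rw [this, map_one]
  rw [s34m_redInf_jF] at h
  exact eq_inv_of_mul_eq_one_left h

theorem s33n_redInf_u [CharP κ q] (hq : q.Prime) :
    s34m_redInf G (M * q) ⟨s34d2_u M q, s34d2_u_mem_Vinf G M q⟩ = jqModC κ ^ q := by
  have := s34m_redInf_beta G M q ⟨s18g_jF (K := K₀) M, s34m_jF_mem_Vinf G M⟩
  rw [s34m_redInf_jF, s34df_qExpand_jqModC q hq] at this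
  exact this

theorem s33n_redZero_u (hq : q.Prime) (hqM : ¬ q ∣ M) :
    s34m_redZero G φ M q hq hqM
      ⟨s34d2_u M q, s34m_beta_mem_Vzero G φ M q hq hqM (s34m_jF_mem_Vinf G M)⟩ = jqModC κ := by
  have := s34m_redZero_beta G φ M q hq hqM ⟨s18g_jF (K := K₀) M, s34m_jF_mem_Vinf G M⟩
  rw [s34m_redInf_jF] at this
  exact this

theorem s33n_redZero_j [CharP κ q] (hq : q.Prime) (hqM : ¬ q ∣ M) :
    s34m_redZero G φ M q hq hqM
      ⟨s18g_jF (K := K₀) (M * q), s34m_jF_mem_VV G φ M q hq hqM false⟩ = jqModC κ ^ q := by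
  have := s34m_redZero_alpha G φ M q hq hqM ⟨s18g_jF (K := K₀) M, s34m_jF_mem_Vinf G M⟩
  rw [s34m_redInf_jF, s34df_qExpand_jqModC q hq] at this
  rw [← this]
  exact congrArg _ (Subtype.ext (s34d2_alpha_j M q).symm)

theorem s33n_jinv_mem_Vzero (hq : q.Prime) (hqM : ¬ q ∣ M) :
    (s18g_jF (K := K₀) (M * q))⁻¹ ∈ s34m_Vzero G φ M q hq hqM :=
  (s34x_mem_infRing _ _).mp (s34d2_j_inv_mem_O G φ M q hq hqM) false

theorem s33n_redZero_jinv [CharP κ q] (hq : q.Prime) (hqM : ¬ q ∣ M) :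
    s34m_redZero G φ M q hq hqM
      ⟨(s18g_jF (K := K₀) (M * q))⁻¹, s33n_jinv_mem_Vzero G φ M q hq hqM⟩ =
      (jqModC κ ^ q)⁻¹ := by
  have h : s34m_redZero G φ M q hq hqM
        ⟨(s18g_jF (K := K₀) (M * q))⁻¹, s33n_jinv_mem_Vzero G φ M q hq hqM⟩ *
      s34m_redZero G φ M q hq hqM
        ⟨s18g_jF (K := K₀) (M * q), s34m_jF_mem_VV G φ M q hq hqM false⟩ = 1 := by
    rw [← map_mul]
    have : (⟨(s18g_jF (K := K₀) (M * q))⁻¹, s33n_jinv_mem_Vzero G φ M q hq hqM⟩ *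
        ⟨s18g_jF (K := K₀) (M * q), s34m_jF_mem_VV G φ M q hq hqM false⟩ :
        s34m_Vzero G φ M q hq hqM) = 1 :=
      Subtype.ext (inv_mul_cancel₀ (s18g_jF_ne_zero (M * q)))
    rw [this, map_one]
  rw [s33n_redZero_j G φ M q hq hqM] at h
  exact eq_inv_of_mul_eq_one_left h

/-! ### No node at infinity -/

/-- **(NI) NO NODE AT INFINITY**: a prime of the chart ring `B₂` (chart `{j ≠ 0}`) which contains
both component primes does not contain `j⁻¹`. -/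
theorem s33n_no_node_at_infty [CharP κ q] (hq : q.Prime) (hqM : ¬ q ∣ M)
    (𝔫 : Ideal (s34x_ring (s34x_infRing (s34m_VV G φ M q hq hqM))
      (s18_chart2 (L₀ := K₀) (s18g_jF (K := K₀) (M * q))))) [h𝔫 : 𝔫.IsPrime]
    (h1 : s33s_comp (s34m_VV G φ M q hq hqM) (s34m_unif G (M * q))
      (s18_chart2 (L₀ := K₀) (s18g_jF (K := K₀) (M * q))) true ≤ 𝔫)
    (h2 : s33s_comp (s34m_VV G φ M q hq hqM) (s34m_unif G (M * q))
      (s18_chart2 (L₀ := K₀) (s18g_jF (K := K₀) (M * q))) false ≤ 𝔫) :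
    (⟨(s18g_jF (K := K₀) (M * q))⁻¹, s33n_jinv_mem_ring G φ M q hq hqM⟩ :
      s34x_ring (s34x_infRing (s34m_VV G φ M q hq hqM))
        (s18_chart2 (L₀ := K₀) (s18g_jF (K := K₀) (M * q)))) ∉ 𝔫 := by
  intro hv
  have hjb : jqModC κ ≠ 0 := s33n_jbar_ne_zero
  obtain ⟨m, hm⟩ : ∃ m, q * q = m + 1 :=
    ⟨q * q - 1, (Nat.sub_add_cancel (Nat.mul_pos hq.pos hq.pos)).symm⟩
  have hm1 : 1 ≤ m := by
    have := hq.two_le
    nlinarith
  set v : s34x_ring (s34x_infRing (s34m_VV G φ M q hq hqM))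
      (s18_chart2 (L₀ := K₀) (s18g_jF (K := K₀) (M * q))) :=
    ⟨(s18g_jF (K := K₀) (M * q))⁻¹, s33n_jinv_mem_ring G φ M q hq hqM⟩ with hvdef
  set y : s34x_ring (s34x_infRing (s34m_VV G φ M q hq hqM))
      (s18_chart2 (L₀ := K₀) (s18g_jF (K := K₀) (M * q))) :=
    ⟨s34d2_u M q * ((s18g_jF (K := K₀) (M * q))⁻¹) ^ q,
      s33n_y_mem_ring G φ M q hq hqM⟩ with hydef
  -- `y - 1` lies in the component prime of `V_∞`
  have hy1 : y - 1 ∈ 𝔫 := by
    refine h1 ?_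
    rw [s33s_mem_comp]
    have hmem : s34d2_u M q * ((s18g_jF (K := K₀) (M * q))⁻¹) ^ q - 1 ∈ s34m_Vinf G (M * q) :=
      sub_mem (mul_mem (s34d2_u_mem_Vinf G M q) (pow_mem (s34d2_j_inv_mem_Vinf G M q) q))
        (one_mem _)
    have hred : s34m_redInf G (M * q)
        ⟨s34d2_u M q * ((s18g_jF (K := K₀) (M * q))⁻¹) ^ q - 1, hmem⟩ = 0 := by
      have e : (⟨s34d2_u M q * ((s18g_jF (K := K₀) (M * q))⁻¹) ^ q - 1, hmem⟩ :
          s34m_Vinf G (M * q)) =
          ⟨s34d2_u M q, s34d2_u_mem_Vinf G M q⟩ *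
            ⟨(s18g_jF (K := K₀) (M * q))⁻¹, s34d2_j_inv_mem_Vinf G M q⟩ ^ q - 1 :=
        Subtype.ext rfl
      rw [e, map_sub, map_mul, map_pow, map_one, s33n_redInf_u G M q hq, s33n_redInf_jinv,
        inv_pow, mul_inv_cancel₀ (pow_ne_zero _ hjb), sub_self]
    obtain ⟨z, hz, e⟩ := (s34m_redInf_eq_zero_iff G (M * q) _).mp hred
    exact ⟨z, hz, e⟩
  -- `y ^ q - v ^ (q² - 1)` lies in the component prime of `V_0`
  have hy2 : y ^ q - v ^ m ∈ 𝔫 := by
    refine h2 ?_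
    rw [s33s_mem_comp]
    have hu0 : s34d2_u M q ∈ s34m_Vzero G φ M q hq hqM :=
      s34m_beta_mem_Vzero G φ M q hq hqM (s34m_jF_mem_Vinf G M)
    have hv0 := s33n_jinv_mem_Vzero G φ M q hq hqM
    have hmem : (s34d2_u M q * ((s18g_jF (K := K₀) (M * q))⁻¹) ^ q) ^ q -
        ((s18g_jF (K := K₀) (M * q))⁻¹) ^ m ∈ s34m_Vzero G φ M q hq hqM :=
      sub_mem (pow_mem (mul_mem hu0 (pow_mem hv0 q)) q) (pow_mem hv0 m)
    have hred : s34m_redZero G φ M q hq hqM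
        ⟨(s34d2_u M q * ((s18g_jF (K := K₀) (M * q))⁻¹) ^ q) ^ q -
          ((s18g_jF (K := K₀) (M * q))⁻¹) ^ m, hmem⟩ = 0 := by
      have e : (⟨(s34d2_u M q * ((s18g_jF (K := K₀) (M * q))⁻¹) ^ q) ^ q -
          ((s18g_jF (K := K₀) (M * q))⁻¹) ^ m, hmem⟩ : s34m_Vzero G φ M q hq hqM) =
          (⟨s34d2_u M q, hu0⟩ * ⟨(s18g_jF (K := K₀) (M * q))⁻¹, hv0⟩ ^ q) ^ q -
            ⟨(s18g_jF (K := K₀) (M * q))⁻¹, hv0⟩ ^ m := Subtype.ext rfl
      rw [e, map_sub, map_pow, map_mul, map_pow, map_pow, s33n_redZero_u G φ M q hq hqM,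
        s33n_redZero_jinv G φ M q hq hqM, mul_pow, ← pow_mul, hm, pow_succ, ← mul_assoc,
        mul_comm (jqModC κ ^ q), mul_assoc, mul_inv_cancel₀ (pow_ne_zero _ hjb), mul_one, sub_self]
    obtain ⟨z, hz, e⟩ := (s34m_redZero_eq_zero_iff G φ M q hq hqM _).mp hred
    exact ⟨z, hz, e⟩
  -- conclusion
  have hvm : v ^ m ∈ 𝔫 := Ideal.pow_mem_of_mem 𝔫 hv m hm1
  have hyq : y ^ q ∈ 𝔫 := by
    have := 𝔫.add_mem hy2 hvm
    rwa [sub_add_cancel] at this
  have hy : y ∈ 𝔫 := h𝔫.mem_of_pow_mem q hyq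
  have h1mem : (1 : s34x_ring (s34x_infRing (s34m_VV G φ M q hq hqM))
      (s18_chart2 (L₀ := K₀) (s18g_jF (K := K₀) (M * q)))) ∈ 𝔫 := by
    have := 𝔫.sub_mem hy hy1
    rwa [sub_sub_cancel] at this
  exact h𝔫.ne_top ((Ideal.eq_top_iff_one 𝔫).mpr h1mem)

end NoNode

end Fermat.Agent.Lib.S33
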