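/-
P-AT-P programme (S33), Stage 2: THE INTRINSIC J-SIDE OUTPUT `s33_UMJ` at a level `N = M p` with `(p, M)`
good (helper3, shape requested by helper2).  STATEMENT ONLY (`def … : Prop`); nothing here is proved.

`s33_UMJ`: for every odd `p`, good level `M` and `P ∣ p` there is ONE subgroup `J1 ≤ J₀(M p)(ℚ̄)` with
* **(U)**  `σ • x - x ∈ J1` for every `p`-power torsion point `x` and every `σ` in the inertia group at `P`;
* **(M°)** for `σ` in the inertia group acting on `μ_p` by `ζ ↦ ζ ^ a`, every `x ∈ J1 ∩ J[p]` whose push-forwards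
  `α_* x`, `β_* x ∈ J₀(M)[p]` lie in the `T_p`-ordinary part satisfies `σ • x = a • x`.
No Hecke eigensystem `θ` and no deformation datum enter.  Also the explicit candidate
`s33_J1 M p P` (helper7's model-free definition): the subgroup generated by the inertia differences
`σ • y - y` of `p`-power torsion points, and `s33_UMJ_of_M` (it suffices to prove (M°) for it).
-/
import Fermat.Agent.Lib.S33.TopIface
import Fermat.Agent.Lib.S35.B3Push

set_option autoImplicit false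

namespace Fermat.Agent.Lib.S33

open ModularCurve Fermat.Agent.Lib.S37 Fermat.Agent.Lib.S18 Fermat.Agent.Lib.S35

noncomputable section

local notation "Kb" => AlgebraicClosure ℚ
local notation "Γℚ" => (AlgebraicClosure ℚ ≃ₐ[ℚ] AlgebraicClosure ℚ)

/-- property (U) of a subgroup `J1 ≤ J₀(N)(ℚ̄)`. -/
def s33_PropU (N : ℕ) [NeZero N] (p : ℕ) (P : ValuationSubring Kb) (J1 : AddSubgroup (JZero N)) :
    Prop :=
  ∀ (j : ℕ) (x : JZero N), p ^ j • x = 0 → ∀ σ ∈ P.inertiaSubgroupIn ℚ, σ • x - x ∈ J1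

/-- property (M°) of a subgroup `J1 ≤ J₀(M p)(ℚ̄)`. -/
def s33_PropM (M : ℕ) [NeZero M] (p : ℕ) [hp : Fact p.Prime] (hpM : ¬ p ∣ M)
    (P : ValuationSubring Kb) (J1 : AddSubgroup (JZero (M * p))) : Prop :=
  ∀ σ ∈ P.inertiaSubgroupIn ℚ, ∀ a : ℕ, s33_ActsOnMuBy p σ a → ∀ x ∈ J1, p • x = 0 →
    s35c_alphaPush M p hp.out hpM x ∈ s33_ordPart M p hp.out 1 →
    s35c_betaPush M p hp.out hpM x ∈ s33_ordPart M p hp.out 1 → σ • x = a • x

/-- **The intrinsic J-side output of Stage 2.** -/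
def s33_UMJ : Prop :=
  ∀ (M : ℕ) [NeZero M] (p : ℕ) [Fact p.Prime], p ≠ 2 → ∀ hM : s18_GoodLevel p M,
    ∀ P : ValuationSubring Kb, P.LiesOverPrime p →
      ∃ J1 : AddSubgroup (JZero (M * p)), s33_PropU (M * p) p P J1 ∧ s33_PropM M p hM.1 P J1

/-- **The model-free candidate**: the subgroup generated by the inertia differences of the
`p`-power torsion points. -/
def s33_J1 (N : ℕ) [NeZero N] (p : ℕ) (P : ValuationSubring Kb) : AddSubgroup (JZero N) :=
  AddSubgroup.closure {z : JZero N | ∃ σ ∈ P.inertiaSubgroupIn ℚ, ∃ y : JZero N,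
    (∃ k : ℕ, p ^ k • y = 0) ∧ z = σ • y - y}

theorem s33_J1_propU (N : ℕ) [NeZero N] (p : ℕ) (P : ValuationSubring Kb) :
    s33_PropU N p P (s33_J1 N p P) :=
  fun j x hx σ hσ => AddSubgroup.subset_closure ⟨σ, hσ, x, ⟨j, hx⟩, rfl⟩

/-- `s33_J1` is contained in the subgroup generated by ALL inertia differences. -/
theorem s33_J1_le (N : ℕ) [NeZero N] (p : ℕ) (P : ValuationSubring Kb) :
    s33_J1 N p P ≤ AddSubgroup.closure {z : JZero N |
      ∃ σ ∈ P.inertiaSubgroupIn ℚ, ∃ y : JZero N, z = σ • y - y} :=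
  AddSubgroup.closure_mono fun _ ⟨σ, hσ, y, _, e⟩ => ⟨σ, hσ, y, e⟩

/-- it suffices to prove (M°) for the model-free `J1`. -/
theorem s33_UMJ_of_M
    (h : ∀ (M : ℕ) [NeZero M] (p : ℕ) [Fact p.Prime], p ≠ 2 → ∀ hM : s18_GoodLevel p M,
      ∀ P : ValuationSubring Kb, P.LiesOverPrime p → s33_PropM M p hM.1 P (s33_J1 (M * p) p P)) :
    s33_UMJ :=
  fun M _ p _ hp2 hM P hP => ⟨s33_J1 (M * p) p P, s33_J1_propU (M * p) p P, h M p hp2 hM P hP⟩

end

end Fermat.Agent.Lib.S33
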