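/-
P-AT-P programme (S33), brick [UNIP-J] (helper1), part 1 = the DÉVISSAGE.

(B) J-side (`s33u_dev`): `F ∈ F_{L₀}(N)` a `p ^ k`-Kummer generator of `x` (`k ≥ 1`) with `p • x = 0`
    ⇒ `F = c₀ · b₀ ^ (p ^ (k - 1))` over `L₀` with `b₀` a `p`-Kummer generator of `x`.
(A) valuation side (`s33u_dev_one`, `s33u_dev_two`): if moreover `F ≡ 1 mod ϖ` for one (two) Gauss-type data
    with the same constants, then a constant multiple `h = c₁ b₀` is `≡ 1 mod ϖ` (for both).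
-/
import Fermat.Agent.Lib.S33.DescDict
import Fermat.Agent.Lib.S33.FOMuArith
import Fermat.Agent.Lib.S33.CritSs

set_option autoImplicit false
set_option linter.style.haveILetI false
set_option linter.unusedSectionVars false
set_option synthInstance.maxHeartbeats 400000

noncomputable section

namespace Fermat.Agent.Lib.S33

open ModularCurve HahnSeries AlgebraicCurve Fermat.Agent.Lib.S18 Fermat.Agent.Lib.S37
  Fermat.Agent.Lib.FF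

local notation "Qbar" => AlgebraicClosure ℚ

section JSide

variable (N : ℕ) [NeZero N] (p : ℕ) [hp : Fact p.Prime] (L₀ : IntermediateField ℚ Qbar)

/-- **dévissage, J-side.** -/
theorem s33u_dev (k : ℕ) (hk : 1 ≤ k) {x : JZero N} (hx : p • x = 0)
    {F : ↥(laurentBaseChange ↥L₀ (modularFunctionFieldFull N))}
    (hF : s33d_IsKumGen (p ^ k) x (s18q_incl N L₀ F)) :
    ∃ (c₀ : ↥L₀) (b₀ : ↥(laurentBaseChange ↥L₀ (modularFunctionFieldFull N))), c₀ ≠ 0 ∧ b₀ ≠ 0 ∧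
      F = algebraMap ↥L₀ _ c₀ * b₀ ^ (p ^ (k - 1)) ∧ s33d_IsKumGen p x (s18q_incl N L₀ b₀) := by
  obtain ⟨hF0, D, rfl, hD⟩ := hF
  set m : ℕ := p ^ (k - 1) with hm
  have hm0 : m ≠ 0 := pow_ne_zero _ hp.out.ne_zero
  haveI : NeZero m := ⟨hm0⟩
  have hpk : p ^ k = m * p := by
    rw [hm, ← pow_succ]
    congr 1
    omega
  -- `p • D` is principal
  have h1 : ((p • D : Divisor.degZero (K := Qbar) (F := ffi_F N)) : Divisor Qbar (ffi_F N)) ∈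
      Divisor.principal (K := Qbar) (F := ffi_F N) := by
    have h2 : Pic0.mk (p • D) = 0 := by
      rw [← hx]
      exact map_nsmul (QuotientAddGroup.mk' _) p D
    exact (QuotientAddGroup.eq_zero_iff (p • D)).mp h2
  obtain ⟨b, hb, hbD⟩ := h1
  have hbD' : ∀ v : Place Qbar (ffi_F N), v.ord b = (p : ℤ) * (D : Divisor Qbar (ffi_F N)) v := by
    intro v
    rw [← hbD v, AddSubgroupClass.coe_nsmul, Finsupp.smul_apply, nsmul_eq_mul]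
  -- `incl F / b ^ m` is a constant
  have hbm : b ^ m ≠ 0 := pow_ne_zero m hb
  have hg0 : s18q_incl N L₀ F / b ^ m ≠ 0 := div_ne_zero hF0 hbm
  obtain ⟨c, hc⟩ := s33d_constOfOrdZero_bar N (s18q_incl N L₀ F / b ^ m) hg0 (fun v => by
    rw [div_eq_mul_inv, v.ord_mul hF0 (inv_ne_zero hbm), v.ord_inv, s33d_ord_pow, hD v, hbD' v, hpk]
    push_cast
    ring)
  have hx' : s33d_incl (modularFunctionFieldFull N) L₀ F =
      algebraMap Qbar ↥(laurentBaseChange Qbar (modularFunctionFieldFull N)) c * b ^ m := by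
    show s18q_incl N L₀ F = _
    rw [← hc, div_mul_cancel₀ _ hbm]
  have hF0' : F ≠ 0 := fun h0 => hF0 (by rw [h0, map_zero])
  obtain ⟨ζ, hζ⟩ := HasEnoughRootsOfUnity.exists_primitiveRoot Qbar m
  obtain ⟨c₀, b₀, hc₀, hb₀, e⟩ := s33d_kum0_descent (modularFunctionFieldFull N) m ζ hζ L₀ F hF0' c b
    hx'
  refine ⟨c₀, b₀, hc₀, hb₀, e, ?_, D, rfl, fun v => ?_⟩
  · rwa [Ne, map_eq_zero]
  · -- `m * ord (incl b₀) = ord (incl F) = p ^ k * D`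
    have h3 := hD v
    have hc₀' : algebraMap Qbar (ffi_F N) (c₀ : Qbar) ≠ 0 := by
      rw [Ne, map_eq_zero]
      exact fun h0 => hc₀ (Subtype.ext h0)
    have hb₀' : s18q_incl N L₀ b₀ ≠ 0 := by rwa [Ne, map_eq_zero]
    rw [e, map_mul, map_pow, s18q_incl_algebraMap,
      v.ord_mul hc₀' (pow_ne_zero m hb₀'), s33d_ord_algebraMap v
        (fun h0 => hc₀ (Subtype.ext h0) : (c₀ : Qbar) ≠ 0), s33d_ord_pow, zero_add, hpk] at h3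
    have hm' : (m : ℤ) ≠ 0 := by exact_mod_cast hm0
    push_cast at h3
    rw [mul_assoc] at h3
    exact mul_left_cancel₀ hm' h3

end JSide

section ValSide

variable {L₀ 𝓕 κ Fb : Type*} [Field L₀] [Field 𝓕] [Algebra L₀ 𝓕] [Field κ] [Field Fb] [Algebra κ Fb]
variable (D : s33f_Datum L₀ 𝓕 κ Fb)

/-- every non-zero function is `π ^ n * (unit of O)`. -/
theorem s33u_exists_zpow_unit {b : 𝓕} (hb : b ≠ 0) :
    ∃ (n : ℤ) (w : 𝓕), w ∈ D.O ∧ w⁻¹ ∈ D.O ∧ b = s33f_pi D ^ n * w := by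
  rcases D.O.mem_or_inv_mem b with hO | hO
  · obtain ⟨k, v, hv, hvinv, e⟩ := D.unif b hO hb
    exact ⟨k, v, hv, hvinv, by rw [zpow_natCast]; exact e⟩
  · obtain ⟨k, v, hv, hvinv, e⟩ := D.unif b⁻¹ hO (inv_ne_zero hb)
    refine ⟨-(k : ℤ), v⁻¹, hvinv, by rwa [inv_inv], ?_⟩
    rw [zpow_neg, zpow_natCast, ← mul_inv]
    have : b = (b⁻¹)⁻¹ := (inv_inv b).symm
    rw [this, e]
    rfl

/-- a positive power of `ϖ` is not a unit of `A₀`. -/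
theorem s33u_unif_pow_inv_not_mem {k : ℕ} (hk : 1 ≤ k) : (D.ϖ ^ k)⁻¹ ∉ D.A₀ := by
  intro h
  apply s33f_unif_inv_not_mem D
  have : D.ϖ⁻¹ = D.ϖ ^ (k - 1) * (D.ϖ ^ k)⁻¹ := by
    obtain ⟨k', rfl⟩ : ∃ k', k = k' + 1 := ⟨k - 1, by omega⟩
    have hϖ := D.ϖ_ne_zero
    rw [Nat.add_sub_cancel, pow_succ]
    field_simp
  rw [this]
  exact D.A₀.mul_mem _ _ (D.A₀.pow_mem D.ϖ_mem _) h

/-- `ϖ ^ n` (`n : ℤ`) is a unit of `A₀` only for `n = 0`. -/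
theorem s33u_unif_zpow_unit {n : ℤ} (h : D.ϖ ^ n ∈ D.A₀) (hinv : (D.ϖ ^ n)⁻¹ ∈ D.A₀) : n = 0 := by
  by_contra hn
  rcases lt_or_gt_of_ne hn with hlt | hgt
  · obtain ⟨k, hk⟩ : ∃ k : ℕ, n = -(k : ℤ) := ⟨n.natAbs, by omega⟩
    have hk1 : 1 ≤ k := by omega
    rw [hk, zpow_neg, zpow_natCast] at h
    exact s33u_unif_pow_inv_not_mem D hk1 h
  · obtain ⟨k, hk⟩ : ∃ k : ℕ, n = (k : ℤ) := ⟨n.natAbs, by omega⟩
    have hk1 : 1 ≤ k := by omega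
    rw [hk, zpow_natCast] at hinv
    exact s33u_unif_pow_inv_not_mem D hk1 hinv

/-- iterated perfectness of the residue field. -/
theorem s33u_perfect_iter (j : ℕ) (c : κ) : ∃ d : κ, d ^ (D.p ^ j) = c := by
  induction j generalizing c with
  | zero => exact ⟨c, by rw [pow_zero, pow_one]⟩
  | succ j ih =>
    obtain ⟨d₁, hd₁⟩ := D.κ_perfect c
    obtain ⟨d, hd⟩ := ih d₁
    exact ⟨d, by rw [pow_succ, pow_mul, hd, hd₁]⟩

/-- `p ^ j`-th roots of constants of `Fb` are the expected constants. -/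
theorem s33u_root_const_pow {r : Fb} {d : κ} (j : ℕ)
    (h : r ^ (D.p ^ j) = algebraMap κ Fb d ^ (D.p ^ j)) : r = algebraMap κ Fb d := by
  haveI : Fact D.p.Prime := ⟨D.p_prime⟩
  haveI : CharP Fb D.p := s33f_charP_Fb D
  have h1 : (r - algebraMap κ Fb d) ^ (D.p ^ j) = 0 := by
    rw [sub_pow_char_pow, h, sub_self]
  exact sub_eq_zero.mp (pow_eq_zero_iff (pow_ne_zero j D.p_prime.ne_zero) |>.mp h1)

/-- **dévissage, valuation side, one Gauss valuation.**  If `F = c₀ b₀ ^ (p ^ j) ≡ 1 mod ϖ` then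
`b₀ = π ^ n w` with `w` a unit, `γ = c₀ ϖ ^ (n p ^ j)` is a unit of `A₀`, and for EVERY `δ ∈ A₀` with
`δ̄ ^ (p ^ j) γ̄ = 1` the function `δ⁻¹ ϖ ^ (-n) b₀` is `≡ 1 mod ϖ`. -/
theorem s33u_dev_one {F b₀ : 𝓕} {c₀ : L₀} (j : ℕ) (hb₀ : b₀ ≠ 0)
    (hF : F = algebraMap L₀ 𝓕 c₀ * b₀ ^ (D.p ^ j)) (h1 : s33f_Cong D 1 F 1) :
    ∃ n : ℤ, c₀ * D.ϖ ^ (n * ((D.p ^ j : ℕ) : ℤ)) ∈ D.A₀ ∧
      (c₀ * D.ϖ ^ (n * ((D.p ^ j : ℕ) : ℤ)))⁻¹ ∈ D.A₀ ∧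
      ∀ δ γ : D.A₀, (γ : L₀) = c₀ * D.ϖ ^ (n * ((D.p ^ j : ℕ) : ℤ)) →
        D.resA δ ^ (D.p ^ j) * D.resA γ = 1 →
        s33f_Cong D 1 (algebraMap L₀ 𝓕 ((δ : L₀)⁻¹ * D.ϖ ^ (-n)) * b₀) 1 := by
  obtain ⟨n, w, hw, hwinv, hb⟩ := s33u_exists_zpow_unit D hb₀
  have hπ0 : s33f_pi D ≠ 0 := s33f_pi_ne_zero D
  have hw0 : w ≠ 0 := by
    rintro rfl
    rw [mul_zero] at hb
    exact hb₀ hb
  set m : ℕ := D.p ^ j with hm
  set c' : L₀ := c₀ * D.ϖ ^ (n * (m : ℤ)) with hc'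
  have hFw : F = algebraMap L₀ 𝓕 c' * w ^ m := by
    rw [hF, hb, mul_pow, hc', map_mul, map_zpow₀, zpow_mul, zpow_natCast]
    unfold s33f_pi
    ring
  have hF0 : F ≠ 0 := s33f_ne_zero_of_cong_one le_rfl h1
  have hFinv : F⁻¹ ∈ D.O := s33f_inv_mem_of_cong_one le_rfl h1
  have hwm0 : w ^ m ≠ 0 := pow_ne_zero _ hw0
  have hc'O : algebraMap L₀ 𝓕 c' ∈ D.O := by
    have : algebraMap L₀ 𝓕 c' = F * (w⁻¹) ^ m := by
      rw [hFw, inv_pow, mul_assoc, mul_inv_cancel₀ hwm0, mul_one]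
    rw [this]
    exact D.O.mul_mem _ _ h1.mem_one (D.O.pow_mem hwinv _)
  have hc'0 : c' ≠ 0 := by
    intro h0
    rw [h0, map_zero, zero_mul] at hFw
    exact hF0 hFw
  have hc'invO : algebraMap L₀ 𝓕 c'⁻¹ ∈ D.O := by
    have : algebraMap L₀ 𝓕 c'⁻¹ = F⁻¹ * w ^ m := by
      rw [hFw, map_inv₀, mul_inv, mul_assoc, inv_mul_cancel₀ hwm0, mul_one]
    rw [this]
    exact D.O.mul_mem _ _ hFinv (D.O.pow_mem hw _)
  have hc'A : c' ∈ D.A₀ := (D.const_mem_iff _).mp hc'O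
  have hc'invA : c'⁻¹ ∈ D.A₀ := (D.const_mem_iff _).mp hc'invO
  refine ⟨n, hc'A, hc'invA, fun δ γ hγ hδ => ?_⟩
  -- reduce `F = c' w ^ m`
  have hred : algebraMap κ Fb (D.resA γ) * s33f_redX D w ^ m = 1 := by
    have := s33f_redX_cong_one le_rfl h1
    rw [hFw, s33f_redX_mul hc'O (D.O.pow_mem hw _), s33f_redX_pow hw] at this
    rw [← this]
    congr 1
    rw [← s33f_redX_const (D := D) γ, hγ]
  have hδ0 : D.resA δ ≠ 0 := by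
    intro h0
    rw [h0, zero_pow (pow_ne_zero j D.p_prime.ne_zero), zero_mul] at hδ
    exact zero_ne_one hδ
  have hγ0 : algebraMap κ Fb (D.resA γ) ≠ 0 := by
    intro h0
    rw [h0, zero_mul] at hred
    exact zero_ne_one hred
  have hr : s33f_redX D w ^ m = algebraMap κ Fb (D.resA δ) ^ m := by
    have h2 : algebraMap κ Fb (D.resA γ) * algebraMap κ Fb (D.resA δ) ^ m = 1 := by
      rw [← map_pow, ← map_mul, mul_comm, hδ, map_one]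
    exact mul_left_cancel₀ hγ0 (hred.trans h2.symm)
  have hw_red : s33f_redX D w = algebraMap κ Fb (D.resA δ) := s33u_root_const_pow D j hr
  have hδinv : (δ : L₀)⁻¹ ∈ D.A₀ := s33f_inv_mem_of_resA_ne_zero D δ hδ0
  have hδ0' : (δ : L₀) ≠ 0 := by
    intro h0
    apply hδ0
    have : δ = 0 := Subtype.ext h0
    rw [this, map_zero]
  have hδF0 : algebraMap L₀ 𝓕 (δ : L₀) ≠ 0 := by simpa using hδ0'
  have hδO : algebraMap L₀ 𝓕 (δ : L₀) ∈ D.O := s33f_const_mem D δ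
  have hδinvO : (algebraMap L₀ 𝓕 (δ : L₀))⁻¹ ∈ D.O := by
    rw [← map_inv₀]
    exact (D.const_mem_iff _).mpr hδinv
  have hh : algebraMap L₀ 𝓕 ((δ : L₀)⁻¹ * D.ϖ ^ (-n)) * b₀ = (algebraMap L₀ 𝓕 (δ : L₀))⁻¹ * w := by
    rw [hb, map_mul, map_inv₀, map_zpow₀]
    unfold s33f_pi
    rw [zpow_neg]
    have hπ0' : algebraMap L₀ 𝓕 D.ϖ ^ n ≠ 0 := zpow_ne_zero _ hπ0
    field_simp
  rw [hh]
  have hmemO : (algebraMap L₀ 𝓕 (δ : L₀))⁻¹ * w ∈ D.O := D.O.mul_mem _ _ hδinvO hw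
  rw [← s33f_redX_eq_iff hmemO D.O.one_mem, s33f_redX_one]
  have h3 : s33f_redX D ((algebraMap L₀ 𝓕 (δ : L₀))⁻¹ * w) * s33f_redX D (algebraMap L₀ 𝓕 (δ : L₀)) =
      s33f_redX D w := by
    rw [← s33f_redX_mul hmemO hδO]
    congr 1
    field_simp
  rw [s33f_redX_const, hw_red] at h3
  have h4 : algebraMap κ Fb (D.resA δ) ≠ 0 := by
    rw [Ne, map_eq_zero_iff _ (algebraMap κ Fb).injective]
    exact hδ0
  exact mul_right_cancel₀ h4 (by rw [h3, one_mul])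

end ValSide

section TwoVal

variable {L₀ 𝓕' κ Fb : Type*} [Field L₀] [Field 𝓕'] [Algebra L₀ 𝓕'] [Field κ] [Field Fb] [Algebra κ Fb]
variable {D' : s33f_Datum L₀ 𝓕' κ Fb} {𝓕 : Type*} [Field 𝓕] [Algebra L₀ 𝓕]

/-- **dévissage, valuation side, two Gauss valuations with the same constants**: the SAME constant
multiple of `b₀` is `≡ 1 mod ϖ` for both. -/
theorem s33u_dev_two (C₁ C₂ : s33z_Comp D' 𝓕) {F b₀ : 𝓕} {c₀ : L₀} (j : ℕ) (hb₀ : b₀ ≠ 0)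
    (hF : F = algebraMap L₀ 𝓕 c₀ * b₀ ^ (D'.p ^ j))
    (h1 : s33f_Cong C₁.datum 1 F 1) (h2 : s33f_Cong C₂.datum 1 F 1) :
    ∃ c₁ : L₀, c₁ ≠ 0 ∧ s33f_Cong C₁.datum 1 (algebraMap L₀ 𝓕 c₁ * b₀) 1 ∧
      s33f_Cong C₂.datum 1 (algebraMap L₀ 𝓕 c₁ * b₀) 1 := by
  obtain ⟨n₁, hA₁, hA₁inv, H₁⟩ := s33u_dev_one C₁.datum j hb₀ hF h1
  obtain ⟨n₂, hA₂, hA₂inv, H₂⟩ := s33u_dev_one C₂.datum j hb₀ hF h2
  have hF0 : F ≠ 0 := s33f_ne_zero_of_cong_one le_rfl h1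
  have hc₀ : c₀ ≠ 0 := by
    rintro rfl
    rw [map_zero, zero_mul] at hF
    exact hF0 hF
  have hϖ : D'.ϖ ≠ 0 := D'.ϖ_ne_zero
  set m : ℕ := D'.p ^ j with hm
  have hm0 : (m : ℤ) ≠ 0 := by
    rw [hm]
    exact_mod_cast pow_ne_zero j D'.p_prime.ne_zero
  -- `n₁ = n₂`
  have hn : n₁ = n₂ := by
    have h3 : D'.ϖ ^ ((n₁ - n₂) * (m : ℤ)) ∈ D'.A₀ := by
      have : D'.ϖ ^ ((n₁ - n₂) * (m : ℤ)) =
          (c₀ * D'.ϖ ^ (n₁ * (m : ℤ))) * (c₀ * D'.ϖ ^ (n₂ * (m : ℤ)))⁻¹ := by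
        rw [sub_mul, zpow_sub₀ hϖ]
        have := zpow_ne_zero (n₂ * (m : ℤ)) hϖ
        field_simp
      rw [this]
      exact D'.A₀.mul_mem _ _ hA₁ hA₂inv
    have h4 : (D'.ϖ ^ ((n₁ - n₂) * (m : ℤ)))⁻¹ ∈ D'.A₀ := by
      have : (D'.ϖ ^ ((n₁ - n₂) * (m : ℤ)))⁻¹ =
          (c₀ * D'.ϖ ^ (n₂ * (m : ℤ))) * (c₀ * D'.ϖ ^ (n₁ * (m : ℤ)))⁻¹ := by
        rw [sub_mul, zpow_sub₀ hϖ]
        have := zpow_ne_zero (n₂ * (m : ℤ)) hϖ
        have := zpow_ne_zero (n₁ * (m : ℤ)) hϖ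
        field_simp
      rw [this]
      exact D'.A₀.mul_mem _ _ hA₂ hA₁inv
    have h5 := s33u_unif_zpow_unit D' h3 h4
    rcases mul_eq_zero.mp h5 with h6 | h6
    · exact sub_eq_zero.mp h6
    · exact absurd h6 hm0
  subst hn
  set γ : D'.A₀ := ⟨c₀ * D'.ϖ ^ (n₁ * (m : ℤ)), hA₁⟩ with hγ
  have hγ0 : D'.resA γ ≠ 0 := by
    intro h0
    have h6 : D'.resA (γ * ⟨_, hA₁inv⟩) = 1 := by
      have : (γ * ⟨_, hA₁inv⟩ : D'.A₀) = 1 := by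
        apply Subtype.ext
        push_cast
        exact mul_inv_cancel₀ (mul_ne_zero hc₀ (zpow_ne_zero _ hϖ))
      rw [this, map_one]
    rw [map_mul, h0, zero_mul] at h6
    exact zero_ne_one h6
  obtain ⟨d, hd⟩ := s33u_perfect_iter D' j (D'.resA γ)⁻¹
  obtain ⟨δ, rfl⟩ := D'.resA_surjective d
  have hδγ : D'.resA δ ^ (D'.p ^ j) * D'.resA γ = 1 := by
    rw [hd, inv_mul_cancel₀ hγ0]
  have hδ0 : (δ : L₀) ≠ 0 := by
    intro h0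
    have : δ = 0 := Subtype.ext h0
    rw [this, map_zero, zero_pow (pow_ne_zero j D'.p_prime.ne_zero), zero_mul] at hδγ
    exact zero_ne_one hδγ
  exact ⟨(δ : L₀)⁻¹ * D'.ϖ ^ (-n₁), mul_ne_zero (inv_ne_zero hδ0) (zpow_ne_zero _ hϖ),
    H₁ δ γ rfl hδγ, H₂ δ γ rfl hδγ⟩

end TwoVal

end Fermat.Agent.Lib.S33
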