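/-
P-AT-P programme (S33), Stage 2, brick [UNIP-K] (helper7), part 1: GENERIC FORM.

Port of S34's local generator (`Lib/S34/FGen.lean`, second differences `σ²φ·φ/(σφ)²`) to FIRST
differences `σf / f`, for functions `f` with `m ∣ div f` where `m` need NOT be invertible in `A₀`
(in the application `m = p ^ k`, `p` the residue characteristic).  Generic in the function field
`𝓕 / L₀`; no modular objects.

Setting (as in `FAssembly.lean`): `A₀ ⊂ L₀` a discrete valuation ring with uniformiser `ϖ`,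
`O = ⨅ i, O i` a finite intersection of valuation subrings of `𝓕` ("components"), `π = ϖ`,
`B = s34x_ring O S` the ring of a chart `S`, `g` a semilinear automorphism preserving everything and
trivial modulo `π`.

* `s33u_fd g y = g • y / y`, multiplicativity, orders;
* `s33u_One V π u` : `u ≡ 1 mod πV` (a group under the hypotheses in force);
* `s33u_loc_of_gen` : the explicit form of `s34x_loc_of_gen` (the lattice element is `s * g`, `s ∈ B ∖ 𝔫`);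
* `s33u_ord_eq_zero` : a function regular at the places through `𝔫` and `≡ 1` on the components
  through `𝔫` is a unit at `𝔫` (order zero at all places through `𝔫`);
* `s33u_glue_const` : GLUING — a function of order zero at the places through `𝔫` which is congruent
  to constants `d i ∈ A₀` modulo `π (O i)`: the constants of two components through `𝔫` agree modulo
  the maximal ideal of `A₀` (pure algebra from the definition of "component through `𝔫`");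
* `s33u_locgen` : the local generator `gx = σΦ/Φ / const` of the first difference of a NORMALISED `f`
  (`σf/f ≡ c₀` with one constant for all components);  hypothesis `hfd`: every first difference is
  congruent to a unit constant modulo `π (O i)` (in the application `(σϖ/ϖ) ^ (V_i U)`), hypothesis
  `hroot`: `c ^ m ≡ c' ^ m ⇒ c ≡ c'` for unit constants (Frobenius is injective on the residue field);
* `s33u_unip_chart`, `s33u_unip_chart_F` : **on one chart, `(σf/f) = c₀ · a ^ m · F` with `a ≡ 1`,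
  `F ≡ 1 mod π O` and `F` without zeros or poles through the closed points of the special fibre.**
-/
import Fermat.Agent.Lib.S34.FAssembly
import Fermat.Agent.Lib.S18.IInvLocal

set_option autoImplicit false

noncomputable section

namespace Fermat.Agent.Lib.S33

open AlgebraicCurve Fermat.Agent.Lib.FF Fermat.Agent.Lib.S18 Fermat.Agent.Lib.S34 IsLocalRing

variable {L₀ 𝓕 : Type*} [Field L₀] [Field 𝓕] [Algebra L₀ 𝓕]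

/-! ### First differences -/

/-- The first difference `σf / f`. -/
def s33u_fd (g : SemilinearAut L₀ 𝓕) (y : 𝓕) : 𝓕 := g • y / y

theorem s33u_fd_ne_zero (g : SemilinearAut L₀ 𝓕) {y : 𝓕} (hy : y ≠ 0) : s33u_fd g y ≠ 0 :=
  div_ne_zero (s34r_smul_ne_zero g hy) hy

theorem s33u_fd_mul (g : SemilinearAut L₀ 𝓕) (y y' : 𝓕) :
    s33u_fd g (y * y') = s33u_fd g y * s33u_fd g y' := by
  rw [s33u_fd, s33u_fd, s33u_fd, smul_mul', mul_div_mul_comm]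

theorem s33u_fd_inv (g : SemilinearAut L₀ 𝓕) (y : 𝓕) :
    s33u_fd g y⁻¹ = (s33u_fd g y)⁻¹ := by
  rw [s33u_fd, s33u_fd, smul_inv'', inv_div_inv, inv_div]

theorem s33u_fd_div (g : SemilinearAut L₀ 𝓕) (y y' : 𝓕) :
    s33u_fd g (y / y') = s33u_fd g y / s33u_fd g y' := by
  rw [div_eq_mul_inv, s33u_fd_mul, s33u_fd_inv, div_eq_mul_inv]

theorem s33u_fd_pow (g : SemilinearAut L₀ 𝓕) (y : 𝓕) (n : ℕ) :
    s33u_fd g (y ^ n) = s33u_fd g y ^ n := by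
  induction n with
  | zero => rw [pow_zero, pow_zero, s33u_fd, smul_one, div_one]
  | succ n ih => rw [pow_succ, pow_succ, s33u_fd_mul, ih]

theorem s33u_fd_zpow (g : SemilinearAut L₀ 𝓕) (y : 𝓕) (n : ℤ) :
    s33u_fd g (y ^ n) = s33u_fd g y ^ n := by
  cases n with
  | ofNat n => rw [Int.ofNat_eq_natCast, zpow_natCast, zpow_natCast, s33u_fd_pow]
  | negSucc n => rw [zpow_negSucc, zpow_negSucc, s33u_fd_inv, s33u_fd_pow]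

theorem s33u_fd_prod {α : Type*} (g : SemilinearAut L₀ 𝓕) (T : Finset α) (y : α → 𝓕) :
    s33u_fd g (∏ P ∈ T, y P) = ∏ P ∈ T, s33u_fd g (y P) := by
  classical
  induction T using Finset.induction_on with
  | empty => rw [Finset.prod_empty, Finset.prod_empty, s33u_fd, smul_one, div_one]
  | insert a T ha ih => rw [Finset.prod_insert ha, Finset.prod_insert ha, s33u_fd_mul, ih]

theorem s33u_fd_const (g : SemilinearAut L₀ 𝓕) (c : L₀) :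
    s33u_fd g (algebraMap L₀ 𝓕 c) = algebraMap L₀ 𝓕 (SemilinearAut.baseAut g c / c) := by
  rw [s33u_fd, SemilinearAut.smul_algebraMap, map_div₀]

/-- The order of a first difference. -/
theorem s33u_ord_fd (g : SemilinearAut L₀ 𝓕) (Q : Place L₀ 𝓕) {y : 𝓕} (hy : y ≠ 0) :
    Q.ord (s33u_fd g y) = (g⁻¹ • Q).ord y - Q.ord y := by
  have h1 := s34r_smul_ne_zero g hy
  rw [s33u_fd, div_eq_mul_inv, Q.ord_mul h1 (inv_ne_zero hy), Q.ord_inv, s34r_ord_smul]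
  ring

/-! ### One-units of a valuation subring relative to `π` -/

/-- `u ≡ 1 mod πV`. -/
def s33u_One (V : ValuationSubring 𝓕) (π u : 𝓕) : Prop := ∃ z ∈ V, u - 1 = π * z

section One

variable {V : ValuationSubring 𝓕} {π : 𝓕}

theorem s33u_One.one : s33u_One V π 1 := ⟨0, V.zero_mem, by ring⟩

theorem s33u_One.mem (hπV : π ∈ V) {u : 𝓕} (h : s33u_One V π u) : u ∈ V := by
  obtain ⟨z, hz, e⟩ := h
  have : u = 1 + π * z := by rw [← e]; ring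
  rw [this]
  exact V.add_mem _ _ V.one_mem (V.mul_mem _ _ hπV hz)

theorem s33u_One.mul (hπV : π ∈ V) {u u' : 𝓕} (h : s33u_One V π u) (h' : s33u_One V π u') :
    s33u_One V π (u * u') := by
  obtain ⟨z, hz, e⟩ := h
  obtain ⟨z', hz', e'⟩ := h'
  refine ⟨z + z' + π * z * z', V.add_mem _ _ (V.add_mem _ _ hz hz')
    (V.mul_mem _ _ (V.mul_mem _ _ hπV hz) hz'), ?_⟩
  have h1 : u = 1 + π * z := by rw [← e]; ring
  have h2 : u' = 1 + π * z' := by rw [← e']; ring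
  rw [h1, h2]
  ring

theorem s33u_One.ne_zero (hπ : ¬ ∃ y ∈ V, (1 : 𝓕) = π * y) {u : 𝓕} (h : s33u_One V π u) :
    u ≠ 0 := by
  rintro rfl
  obtain ⟨z, hz, e⟩ := h
  exact hπ ⟨-z, V.neg_mem _ hz, by rw [mul_neg, ← e]; ring⟩

theorem s33u_One.inv (hπV : π ∈ V) (hπ : ¬ ∃ y ∈ V, (1 : 𝓕) = π * y) {u : 𝓕}
    (h : s33u_One V π u) : s33u_One V π u⁻¹ := by
  have hu0 := h.ne_zero hπ
  obtain ⟨z, hz, e⟩ := h
  have h1 : u = 1 + π * z := by rw [← e]; ring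
  have hinv : u⁻¹ ∈ V := by
    rw [h1]
    exact s34x_val_one_add_inv_mem V π hπV hπ hz
  refine ⟨-(z * u⁻¹), V.neg_mem _ (V.mul_mem _ _ hz hinv), ?_⟩
  have h2 : u⁻¹ - 1 = -(u - 1) * u⁻¹ := by
    field_simp
    ring
  rw [h2, e]
  ring

theorem s33u_One.div (hπV : π ∈ V) (hπ : ¬ ∃ y ∈ V, (1 : 𝓕) = π * y) {u u' : 𝓕}
    (h : s33u_One V π u) (h' : s33u_One V π u') : s33u_One V π (u / u') := by
  rw [div_eq_mul_inv]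
  exact h.mul hπV (h'.inv hπV hπ)

theorem s33u_One.pow (hπV : π ∈ V) {u : 𝓕} (h : s33u_One V π u) (n : ℕ) :
    s33u_One V π (u ^ n) := by
  induction n with
  | zero => rw [pow_zero]; exact s33u_One.one
  | succ n ih => rw [pow_succ]; exact ih.mul hπV h

theorem s33u_One.zpow (hπV : π ∈ V) (hπ : ¬ ∃ y ∈ V, (1 : 𝓕) = π * y) {u : 𝓕}
    (h : s33u_One V π u) (n : ℤ) : s33u_One V π (u ^ n) := by
  cases n with
  | ofNat n => rw [Int.ofNat_eq_natCast, zpow_natCast]; exact h.pow hπV n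
  | negSucc n => rw [zpow_negSucc]; exact (h.pow hπV _).inv hπV hπ

theorem s33u_One.prod {α : Type*} (hπV : π ∈ V) (T : Finset α) (u : α → 𝓕)
    (h : ∀ a ∈ T, s33u_One V π (u a)) : s33u_One V π (∏ a ∈ T, u a) := by
  classical
  induction T using Finset.induction_on with
  | empty => rw [Finset.prod_empty]; exact s33u_One.one
  | insert a T ha ih =>
    rw [Finset.prod_insert ha]
    exact (h a (Finset.mem_insert_self _ _)).mul hπV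
      (ih fun b hb => h b (Finset.mem_insert_of_mem hb))

end One

/-! ### (LOC) from a local generator, explicit form -/

/-- The proof of `s34x_loc_of_gen` gives more: the element of the lattice is `s * g` with `s` in the
chart ring outside `𝔫`. -/
theorem s33u_loc_of_gen {ι : Type*} [Fintype ι] (O : ι → ValuationSubring 𝓕)
    (S : Set (Place L₀ 𝓕)) (E : Place L₀ 𝓕 → ℤ) (π : 𝓕) (hπ0 : π ≠ 0) (hπO : ∀ i, π ∈ O i)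
    (hU : ∀ i, ∀ y : 𝓕, ∃ k : ℕ, π ^ k * y ∈ O i)
    (𝔫 : Ideal (s34x_ring (s34x_infRing O) S)) [h𝔫 : 𝔫.IsPrime]
    (g : 𝓕) (hg0 : g ≠ 0)
    (hgQ : ∀ Q ∈ S, s34f_through (s34x_infRing O) S 𝔫 Q → E Q ≤ Q.ord g)
    (hgC : ∀ i, (∀ b : s34x_ring (s34x_infRing O) S, (∃ y ∈ O i, (b : 𝓕) = π * y) → b ∈ 𝔫) →
      ∃ y ∈ O i, g - 1 = π * y)
    (hfin : {Q : Place L₀ 𝓕 | Q ∈ S ∧ Q.ord g < E Q}.Finite) :
    ∃ s : s34x_ring (s34x_infRing O) S, s ∉ 𝔫 ∧ (s : 𝓕) ≠ 0 ∧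
      (s : 𝓕) * g ∈ s34x_latSet (s34x_infRing O) S E ∧
      ∃ y ∈ s34x_infRing O, (s : 𝓕) * g - (s : 𝓕) = π * y := by
  classical
  have hBO : ∀ (b : s34x_ring (s34x_infRing O) S) (i : ι), (b : 𝓕) ∈ O i := fun b i =>
    (s34x_mem_infRing O _).mp b.2.1 i
  -- the bad places are not through `𝔫`
  obtain ⟨s₁, hs₁𝔫, hs₁0, hs₁⟩ := s34x_exists_kill_places (s34x_infRing O) S 𝔫
    (fun Q => E Q - Q.ord g) hfin.toFinset (by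
      intro Q hQ
      rw [Set.Finite.mem_toFinset] at hQ
      refine ⟨hQ.1, ?_⟩
      by_contra hcon
      push Not at hcon
      have := hgQ Q hQ.1 (fun b hb0 hbpos => hcon b hb0 hbpos)
      exact absurd hQ.2 (not_lt.mpr this))
  -- the components not through `𝔫`
  let I : Finset ι := Finset.univ.filter fun i =>
    ∃ b : s34x_ring (s34x_infRing O) S, (∃ y ∈ O i, (b : 𝓕) = π * y) ∧ b ∉ 𝔫
  obtain ⟨s₂, hs₂𝔫, hs₂⟩ := s34x_exists_kill_comps O S π hU 𝔫 g I (by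
    intro i hi
    exact (Finset.mem_filter.mp hi).2)
  have hs𝔫 : s₁ * s₂ ∉ 𝔫 := fun hmem => (h𝔫.mem_or_mem hmem).elim hs₁𝔫 hs₂𝔫
  have hs₂0 : (s₂ : 𝓕) ≠ 0 := by
    intro h0
    apply hs₂𝔫
    have : s₂ = 0 := Subtype.ext h0
    rw [this]; exact 𝔫.zero_mem
  -- componentwise statements for `s = s₁ s₂`
  have hcomp : ∀ i, (s₁ : 𝓕) * s₂ * g ∈ O i ∧ ∃ y' ∈ O i,
      (s₁ : 𝓕) * s₂ * g - (s₁ : 𝓕) * s₂ = π * y' := by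
    intro i
    by_cases hi : i ∈ I
    · obtain ⟨⟨y₁, hy₁, e₁⟩, ⟨y₂, hy₂, e₂⟩⟩ := hs₂ i hi
      refine ⟨?_, (s₁ : 𝓕) * y₂ - (s₁ : 𝓕) * y₁, (O i).sub_mem
        ((O i).mul_mem _ _ (hBO s₁ i) hy₂) ((O i).mul_mem _ _ (hBO s₁ i) hy₁), ?_⟩
      · rw [mul_assoc, e₂]
        exact (O i).mul_mem _ _ (hBO s₁ i) ((O i).mul_mem _ _ (hπO i) hy₂)
      · rw [mul_assoc, e₂, e₁]; ring
    · -- through `𝔫`
      have hthrough : ∀ b : s34x_ring (s34x_infRing O) S,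
          (∃ y ∈ O i, (b : 𝓕) = π * y) → b ∈ 𝔫 := by
        intro b hb
        by_contra hb𝔫
        exact hi (Finset.mem_filter.mpr ⟨Finset.mem_univ _, b, hb, hb𝔫⟩)
      obtain ⟨y, hy, e⟩ := hgC i hthrough
      have hg : g = 1 + π * y := by rw [← e]; ring
      have hgO : g ∈ O i := by
        rw [hg]; exact (O i).add_mem _ _ (O i).one_mem ((O i).mul_mem _ _ (hπO i) hy)
      refine ⟨(O i).mul_mem _ _ ((O i).mul_mem _ _ (hBO s₁ i) (hBO s₂ i)) hgO,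
        (s₁ : 𝓕) * s₂ * y, (O i).mul_mem _ _ ((O i).mul_mem _ _ (hBO s₁ i) (hBO s₂ i)) hy, ?_⟩
      rw [hg]; ring
  have hcoe : ((s₁ * s₂ : s34x_ring (s34x_infRing O) S) : 𝓕) = (s₁ : 𝓕) * s₂ := by
    push_cast; rfl
  refine ⟨s₁ * s₂, hs𝔫, ?_, ⟨?_, ?_⟩, ?_⟩
  · rw [hcoe]; exact mul_ne_zero hs₁0 hs₂0
  · rw [hcoe, s34x_mem_infRing]
    exact fun i => (hcomp i).1
  · intro Q hQ
    right
    rw [hcoe, Q.ord_mul (mul_ne_zero hs₁0 hs₂0) hg0, Q.ord_mul hs₁0 hs₂0]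
    have h1 : 0 ≤ Q.ord (s₁ : 𝓕) := s34x_ord_nonneg_of_mem_ring _ S s₁ Q hQ
    have h2 : 0 ≤ Q.ord (s₂ : 𝓕) := s34x_ord_nonneg_of_mem_ring _ S s₂ Q hQ
    by_cases hbad : Q.ord g < E Q
    · have := hs₁ Q ((Set.Finite.mem_toFinset hfin).mpr ⟨hQ, hbad⟩)
      omega
    · omega
  · rw [hcoe]
    exact (s34x_inf_cong O π hπ0 _).mpr fun i => (hcomp i).2

/-- An element which is regular at the places through `𝔫` and `≡ 1 mod π (O i)` on the components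
through `𝔫` has order zero at all places through `𝔫` (it is a unit of the local ring at `𝔫`). -/
theorem s33u_ord_eq_zero {ι : Type*} [Fintype ι] (O : ι → ValuationSubring 𝓕)
    (S : Set (Place L₀ 𝓕)) (π : 𝓕) (hπ0 : π ≠ 0) (hπO : ∀ i, π ∈ O i)
    (hU : ∀ i, ∀ y : 𝓕, ∃ k : ℕ, π ^ k * y ∈ O i)
    (hπL : ∀ Q : Place L₀ 𝓕, Q.ord π = 0)
    (𝔫 : Ideal (s34x_ring (s34x_infRing O) S)) [h𝔫 : 𝔫.IsPrime]
    (hπ𝔫 : ∀ z b : s34x_ring (s34x_infRing O) S, (b : 𝓕) = π * z → b ∈ 𝔫)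
    (x : 𝓕) (hx0 : x ≠ 0)
    (hxQ : ∀ Q ∈ S, s34f_through (s34x_infRing O) S 𝔫 Q → 0 ≤ Q.ord x)
    (hxC : ∀ i, (∀ b : s34x_ring (s34x_infRing O) S, (∃ y ∈ O i, (b : 𝓕) = π * y) → b ∈ 𝔫) →
      ∃ y ∈ O i, x - 1 = π * y)
    (hfin : {Q : Place L₀ 𝓕 | Q ∈ S ∧ Q.ord x < 0}.Finite) :
    ∀ Q ∈ S, s34f_through (s34x_infRing O) S 𝔫 Q → Q.ord x = 0 := by
  obtain ⟨s, hs𝔫, hs0, hlat, y, hy, e⟩ := s33u_loc_of_gen O S (fun _ => 0) π hπ0 hπO hU 𝔫 x hx0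
    hxQ hxC hfin
  -- `b = s x` lies in the chart ring
  have hbB : (s : 𝓕) * x ∈ s34x_ring (s34x_infRing O) S := by
    show (s : 𝓕) * x ∈ s34x_ringSet (s34x_infRing O) S
    rw [s34x_ringSet_eq_latSet_zero]
    exact hlat
  set b : s34x_ring (s34x_infRing O) S := ⟨(s : 𝓕) * x, hbB⟩ with hb
  have hbcoe : (b : 𝓕) = (s : 𝓕) * x := rfl
  have hb0 : (b : 𝓕) ≠ 0 := by rw [hbcoe]; exact mul_ne_zero hs0 hx0
  -- `y` lies in the chart ring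
  have hyB : y ∈ s34x_ring (s34x_infRing O) S := by
    refine ⟨hy, fun Q hQ => ?_⟩
    by_cases hy0 : y = 0
    · rw [hy0]; exact Q.toValuationSubring.zero_mem
    rw [ff_mem_iff_ord_nonneg Q hy0]
    have hd : (s : 𝓕) * x - (s : 𝓕) ∈ s34x_ring (s34x_infRing O) S :=
      (s34x_ring (s34x_infRing O) S).sub_mem hbB s.2
    have hd0 : (s : 𝓕) * x - (s : 𝓕) ≠ 0 := by rw [e]; exact mul_ne_zero hπ0 hy0
    have h1 := (ff_mem_iff_ord_nonneg Q hd0).mp (hd.2 Q hQ)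
    rwa [e, Q.ord_mul hπ0 hy0, hπL, zero_add] at h1
  have hbs : b - s ∈ 𝔫 := by
    refine hπ𝔫 ⟨y, hyB⟩ (b - s) ?_
    push_cast
    rw [hbcoe, e]
  have hb𝔫 : b ∉ 𝔫 := by
    intro hmem
    apply hs𝔫
    have : s = b - (b - s) := by ring
    rw [this]
    exact 𝔫.sub_mem hmem hbs
  intro Q hQ hth
  have h1 : Q.ord (b : 𝓕) = 0 := by
    have hle : ¬ 0 < Q.ord (b : 𝓕) := fun hpos => hb𝔫 (hth b hb0 hpos)
    have hge := s34x_ord_nonneg_of_mem_ring (s34x_infRing O) S b Q hQ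
    omega
  have h2 : Q.ord (s : 𝓕) = 0 := by
    have hle : ¬ 0 < Q.ord (s : 𝓕) := fun hpos => hs𝔫 (hth s hs0 hpos)
    have hge := s34x_ord_nonneg_of_mem_ring (s34x_infRing O) S s Q hQ
    omega
  rw [hbcoe, Q.ord_mul hs0 hx0, h2, zero_add] at h1
  exact h1

/-! ### Gluing of residue constants at a point through which several components pass -/

/-- **Gluing of constants.**  If `h` has order zero at all places through `𝔫` and is congruent to the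
constant `d i ∈ A₀` modulo `π (O i)` for every `i`, then the constants `d i`, `d i'` of two components
through `𝔫` are congruent modulo the maximal ideal of `A₀` (both are the value of `h` at `𝔫`). -/
theorem s33u_glue_const {ι : Type*} [Fintype ι] (A₀ : ValuationSubring L₀)
    (O : ι → ValuationSubring 𝓕) (hAO : ∀ i, ∀ a : A₀, algebraMap L₀ 𝓕 (a : L₀) ∈ O i)
    (S : Set (Place L₀ 𝓕)) (π : 𝓕) (hπO : ∀ i, π ∈ O i)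
    (F3 : ∀ y : 𝓕, y ≠ 0 → {Q : Place L₀ 𝓕 | Q ∈ S ∧ Q.ord y ≠ 0}.Finite)
    (𝔫 : Ideal (s34x_ring (s34x_infRing O) S)) [h𝔫 : 𝔫.IsPrime]
    (h : 𝓕) (hh0 : h ≠ 0)
    (hQ : ∀ Q ∈ S, s34f_through (s34x_infRing O) S 𝔫 Q → Q.ord h = 0)
    (d : ι → A₀) (hd : ∀ i, ∃ z ∈ O i, h - algebraMap L₀ 𝓕 ((d i : A₀) : L₀) = π * z)
    (i i' : ι)
    (hi : ∀ b : s34x_ring (s34x_infRing O) S, (∃ y ∈ O i, (b : 𝓕) = π * y) → b ∈ 𝔫)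
    (hi' : ∀ b : s34x_ring (s34x_infRing O) S, (∃ y ∈ O i', (b : 𝓕) = π * y) → b ∈ 𝔫) :
    ¬ IsUnit (d i - d i') := by
  classical
  have hBO : ∀ (b : s34x_ring (s34x_infRing O) S) (j : ι), (b : 𝓕) ∈ O j := fun b j =>
    (s34x_mem_infRing O _).mp b.2.1 j
  -- `h` lies in every `O j`
  have hhO : ∀ j, h ∈ O j := by
    intro j
    obtain ⟨z, hz, e⟩ := hd j
    have : h = algebraMap L₀ 𝓕 ((d j : A₀) : L₀) + π * z := by rw [← e]; ring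
    rw [this]
    exact (O j).add_mem _ _ (hAO j (d j)) ((O j).mul_mem _ _ (hπO j) hz)
  -- kill the poles of `h` on the chart
  have hfin : {Q : Place L₀ 𝓕 | Q ∈ S ∧ Q.ord h < 0}.Finite :=
    (F3 h hh0).subset fun Q hQ' => ⟨hQ'.1, fun h0 => by
      have h1 : Q.ord h < 0 := hQ'.2
      rw [h0] at h1
      exact lt_irrefl _ h1⟩
  obtain ⟨s₁, hs₁𝔫, hs₁0, hs₁⟩ := s34x_exists_kill_places (s34x_infRing O) S 𝔫
    (fun Q => - Q.ord h) hfin.toFinset (by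
      intro Q hQ'
      rw [Set.Finite.mem_toFinset] at hQ'
      refine ⟨hQ'.1, ?_⟩
      by_contra hcon
      push Not at hcon
      have h0 := hQ Q hQ'.1 (fun b hb0 hbpos => hcon b hb0 hbpos)
      have h1 : Q.ord h < 0 := hQ'.2
      rw [h0] at h1
      exact lt_irrefl _ h1)
  have hbB : (s₁ : 𝓕) * h ∈ s34x_ring (s34x_infRing O) S := by
    refine ⟨(s34x_mem_infRing O _).mpr fun j => (O j).mul_mem _ _ (hBO s₁ j) (hhO j),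
      fun Q hQ' => ?_⟩
    rw [ff_mem_iff_ord_nonneg Q (mul_ne_zero hs₁0 hh0), Q.ord_mul hs₁0 hh0]
    have h1 : 0 ≤ Q.ord (s₁ : 𝓕) := s34x_ord_nonneg_of_mem_ring _ S s₁ Q hQ'
    by_cases hneg : Q.ord h < 0
    · have := hs₁ Q ((Set.Finite.mem_toFinset hfin).mpr ⟨hQ', hneg⟩)
      omega
    · omega
  set b : s34x_ring (s34x_infRing O) S := ⟨(s₁ : 𝓕) * h, hbB⟩ with hb
  set cst := s34f_constHom A₀ (s34x_infRing O) (s34x_inf_const_mem O A₀ hAO) S with hcst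
  have hmem : ∀ j, (∀ b : s34x_ring (s34x_infRing O) S, (∃ y ∈ O j, (b : 𝓕) = π * y) → b ∈ 𝔫) →
      b - cst (d j) * s₁ ∈ 𝔫 := by
    intro j hj
    obtain ⟨z, hz, e⟩ := hd j
    refine hj _ ⟨(s₁ : 𝓕) * z, (O j).mul_mem _ _ (hBO s₁ j) hz, ?_⟩
    have hc : ((cst (d j) : s34x_ring (s34x_infRing O) S) : 𝓕) =
        algebraMap L₀ 𝓕 ((d j : A₀) : L₀) := rfl
    push_cast
    rw [hc]
    show (s₁ : 𝓕) * h - algebraMap L₀ 𝓕 ((d j : A₀) : L₀) * (s₁ : 𝓕) = π * ((s₁ : 𝓕) * z)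
    have : (s₁ : 𝓕) * h - algebraMap L₀ 𝓕 ((d j : A₀) : L₀) * (s₁ : 𝓕) =
        (s₁ : 𝓕) * (h - algebraMap L₀ 𝓕 ((d j : A₀) : L₀)) := by ring
    rw [this, e]
    ring
  have h1 := hmem i hi
  have h2 := hmem i' hi'
  have h3 : cst (d i - d i') * s₁ ∈ 𝔫 := by
    have : cst (d i - d i') * s₁ = (b - cst (d i') * s₁) - (b - cst (d i) * s₁) := by
      rw [map_sub]; ring
    rw [this]
    exact 𝔫.sub_mem h2 h1
  intro hu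
  have h4 : cst (d i - d i') ∈ 𝔫 := (h𝔫.mem_or_mem h3).resolve_right hs₁𝔫
  exact h𝔫.ne_top (𝔫.eq_top_of_isUnit_mem h4 (hu.map cst))

/-! ### The product of local equations (copied from `s34f_loc_of_almostAll`) -/

/-- The product `Φ` of the local equations of the places through `𝔫` in the support of `f`, with
exponents `e = ord f / m`: the defect `e - ord Φ` is `g⁻¹`-invariant at the places through `𝔫` (the
exceptional place is `g`-fixed). -/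
theorem s33u_exists_Phi {ι : Type*} (O : ι → ValuationSubring 𝓕)
    (S : Set (Place L₀ 𝓕)) (π : 𝓕)
    (F3 : ∀ y : 𝓕, y ≠ 0 → {Q : Place L₀ 𝓕 | Q ∈ S ∧ Q.ord y ≠ 0}.Finite)
    (𝔫 : Ideal (s34x_ring (s34x_infRing O) S))
    (g : SemilinearAut L₀ 𝓕) (hst : s34f_Stable (s34x_infRing O) S π 𝔫 g)
    (hAA : s34f_AlmostAll (s34x_infRing O) S 𝔫)
    (f : 𝓕) (hf0 : f ≠ 0) (m : ℕ)
    (hdeg : ∀ Q ∈ S, Q.ord f ≠ 0 → Q.deg = 1) :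
    ∃ Φ : 𝓕, Φ ≠ 0 ∧ ∀ Q ∈ S, s34f_through (s34x_infRing O) S 𝔫 Q →
      (g⁻¹ • Q).ord f / (m : ℤ) - (g⁻¹ • Q).ord Φ = Q.ord f / (m : ℤ) - Q.ord Φ := by
  classical
  set e : Place L₀ 𝓕 → ℤ := fun P => P.ord f / (m : ℤ) with he
  have he0 : ∀ P : Place L₀ 𝓕, e P ≠ 0 → P.ord f ≠ 0 := by
    intro P hP h0
    apply hP
    rw [he]
    show P.ord f / (m : ℤ) = 0
    rw [h0, Int.zero_ediv]
  have hfinf := F3 f hf0
  set T : Finset (Place L₀ 𝓕) := hfinf.toFinset.filter fun P =>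
    s34f_through (s34x_infRing O) S 𝔫 P ∧ s34f_LocEq (s34x_infRing O) S 𝔫 P with hT
  have hTmem : ∀ P, P ∈ T ↔ (P ∈ S ∧ P.ord f ≠ 0) ∧
      s34f_through (s34x_infRing O) S 𝔫 P ∧ s34f_LocEq (s34x_infRing O) S 𝔫 P := by
    intro P
    rw [hT, Finset.mem_filter, Set.Finite.mem_toFinset]
    rfl
  have hchoose : ∀ P : Place L₀ 𝓕, ∃ φ : 𝓕, P ∈ T → (φ ≠ 0 ∧ P.ord φ = 1 ∧
      ∀ Q' ∈ S, Q' ≠ P → s34f_through (s34x_infRing O) S 𝔫 Q' → Q'.ord φ = 0) := by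
    intro P
    by_cases hP : P ∈ T
    · obtain ⟨φ, h1, h2, h3⟩ := ((hTmem P).mp hP).2.2
      exact ⟨φ, fun _ => ⟨h1, h2, h3⟩⟩
    · exact ⟨0, fun h => absurd h hP⟩
  choose φ hφ using hchoose
  have hφ0 : ∀ P ∈ T, φ P ≠ 0 := fun P hP => (hφ P hP).1
  set Φ : 𝓕 := ∏ P ∈ T, φ P ^ e P with hΦ
  have hΦ0 : Φ ≠ 0 := Finset.prod_ne_zero_iff.mpr fun P hP => zpow_ne_zero _ (hφ0 P hP)
  have hordΦ : ∀ Q ∈ S, s34f_through (s34x_infRing O) S 𝔫 Q →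
      Q.ord Φ = if Q ∈ T then e Q else 0 := by
    intro Q hQS hth
    rw [hΦ, s18i_ord_prod_zpow Q T φ e hφ0]
    by_cases hQT : Q ∈ T
    · rw [if_pos hQT, Finset.sum_eq_single_of_mem Q hQT, (hφ Q hQT).2.1, mul_one]
      intro P hP hne
      rw [(hφ P hP).2.2 Q hQS (Ne.symm hne) hth, mul_zero]
    · rw [if_neg hQT]
      refine Finset.sum_eq_zero fun P hP => ?_
      have hne : Q ≠ P := fun h => hQT (h ▸ hP)
      rw [(hφ P hP).2.2 Q hQS hne hth, mul_zero]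
  have hΔ : ∀ Q ∈ S, s34f_through (s34x_infRing O) S 𝔫 Q →
      e Q - Q.ord Φ = if s34f_LocEq (s34x_infRing O) S 𝔫 Q then 0 else e Q := by
    intro Q hQS hth
    rw [hordΦ Q hQS hth]
    by_cases hQT : Q ∈ T
    · rw [if_pos hQT, if_pos ((hTmem Q).mp hQT).2.2, sub_self]
    · rw [if_neg hQT, sub_zero]
      by_cases hloc : s34f_LocEq (s34x_infRing O) S 𝔫 Q
      · rw [if_pos hloc]
        by_contra hne
        exact hQT ((hTmem Q).mpr ⟨⟨hQS, he0 Q hne⟩, hth, hloc⟩)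
      · rw [if_neg hloc]
  refine ⟨Φ, hΦ0, ?_⟩
  intro Q hQS hth
  show e (g⁻¹ • Q) - (g⁻¹ • Q).ord Φ = e Q - Q.ord Φ
  have hQ1S : g⁻¹ • Q ∈ S := (hst.inv.chart Q).mp hQS
  have hth1 : s34f_through (s34x_infRing O) S 𝔫 (g⁻¹ • Q) := hst.inv.through_smul hth
  rw [hΔ Q hQS hth, hΔ _ hQ1S hth1]
  by_cases hloc : s34f_LocEq (s34x_infRing O) S 𝔫 Q
  · rw [if_pos hloc, if_pos (hst.inv.locEq_smul hloc)]
  · have hloc1 : ¬ s34f_LocEq (s34x_infRing O) S 𝔫 (g⁻¹ • Q) := by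
      intro h1
      apply hloc
      have := hst.locEq_smul h1
      rwa [smul_inv_smul] at this
    rw [if_neg hloc, if_neg hloc1]
    by_cases hz : e Q = 0 ∧ e (g⁻¹ • Q) = 0
    · rw [hz.1, hz.2]
    · have hdeg1 : Q.deg = 1 := by
        by_cases h1 : e Q = 0
        · have h2 : e (g⁻¹ • Q) ≠ 0 := fun h2 => hz ⟨h1, h2⟩
          have := hdeg _ hQ1S (he0 _ h2)
          rwa [SemilinearAut.deg_smul] at this
        · exact hdeg Q hQS (he0 Q h1)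
      have hdeg2 : (g⁻¹ • Q).deg = 1 := by rw [SemilinearAut.deg_smul]; exact hdeg1
      have := hAA Q hQS _ hQ1S hth hth1 hdeg1 hdeg2 hloc hloc1
      rw [← this]

/-- `s33u_exists_Phi` for `f = f₀ t ^ m`: only `f₀` needs rational support (`t` is its own
equation). -/
theorem s33u_exists_Phi_mul {ι : Type*} (O : ι → ValuationSubring 𝓕)
    (S : Set (Place L₀ 𝓕)) (π : 𝓕)
    (F3 : ∀ y : 𝓕, y ≠ 0 → {Q : Place L₀ 𝓕 | Q ∈ S ∧ Q.ord y ≠ 0}.Finite)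
    (𝔫 : Ideal (s34x_ring (s34x_infRing O) S))
    (g : SemilinearAut L₀ 𝓕) (hst : s34f_Stable (s34x_infRing O) S π 𝔫 g)
    (hAA : s34f_AlmostAll (s34x_infRing O) S 𝔫)
    (f₀ : 𝓕) (hf₀ : f₀ ≠ 0) (m : ℕ) (hm0 : m ≠ 0)
    (hdiv : ∀ Q : Place L₀ 𝓕, (m : ℤ) ∣ Q.ord f₀)
    (hdeg : ∀ Q ∈ S, Q.ord f₀ ≠ 0 → Q.deg = 1) (t : 𝓕) (ht : t ≠ 0) :
    ∃ Φ : 𝓕, Φ ≠ 0 ∧ ∀ Q ∈ S, s34f_through (s34x_infRing O) S 𝔫 Q →
      (g⁻¹ • Q).ord (f₀ * t ^ m) / (m : ℤ) - (g⁻¹ • Q).ord Φ =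
        Q.ord (f₀ * t ^ m) / (m : ℤ) - Q.ord Φ := by
  obtain ⟨Φ₀, hΦ₀0, hΦ₀⟩ := s33u_exists_Phi O S π F3 𝔫 g hst hAA f₀ hf₀ m hdeg
  have hmZ : (m : ℤ) ≠ 0 := by exact_mod_cast hm0
  have key : ∀ P : Place L₀ 𝓕, P.ord (f₀ * t ^ m) / (m : ℤ) - P.ord (Φ₀ * t) =
      P.ord f₀ / (m : ℤ) - P.ord Φ₀ := by
    intro P
    obtain ⟨a, ha⟩ := hdiv P
    rw [P.ord_mul hf₀ (pow_ne_zero m ht), ← zpow_natCast, P.ord_zpow, P.ord_mul hΦ₀0 ht, ha,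
      ← mul_add, Int.mul_ediv_cancel_left _ hmZ, Int.mul_ediv_cancel_left _ hmZ]
    ring
  refine ⟨Φ₀ * t, mul_ne_zero hΦ₀0 ht, ?_⟩
  intro Q hQS hth
  rw [key, key]
  exact hΦ₀ Q hQS hth

/-! ### Residue constants -/

section Cst

variable (A₀ : ValuationSubring L₀)

/-- The constant function attached to `a ∈ A₀`. -/
def s33u_cst (a : A₀) : 𝓕 := algebraMap L₀ 𝓕 ((a : A₀) : L₀)

theorem s33u_cst_mul (a b : A₀) : (s33u_cst A₀ (a * b) : 𝓕) = s33u_cst A₀ a * s33u_cst A₀ b := by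
  rw [s33u_cst, s33u_cst, s33u_cst, ← map_mul]; rfl

theorem s33u_cst_one : (s33u_cst A₀ 1 : 𝓕) = 1 := by
  rw [s33u_cst]; simp

theorem s33u_cst_sub (a b : A₀) : (s33u_cst A₀ (a - b) : 𝓕) = s33u_cst A₀ a - s33u_cst A₀ b := by
  rw [s33u_cst, s33u_cst, s33u_cst, ← map_sub]; rfl

theorem s33u_cst_pow (a : A₀) (n : ℕ) : (s33u_cst A₀ (a ^ n) : 𝓕) = s33u_cst A₀ a ^ n := by
  rw [s33u_cst, s33u_cst, ← map_pow]; rfl

theorem s33u_cst_unit_mul_inv (c : (↥A₀)ˣ) :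
    (s33u_cst A₀ (c : A₀) : 𝓕) * s33u_cst A₀ ((c⁻¹ : (↥A₀)ˣ) : A₀) = 1 := by
  rw [← s33u_cst_mul, Units.mul_inv, s33u_cst_one]

theorem s33u_cst_unit_ne_zero (c : (↥A₀)ˣ) : (s33u_cst A₀ (c : A₀) : 𝓕) ≠ 0 :=
  left_ne_zero_of_mul_eq_one (s33u_cst_unit_mul_inv A₀ c)

theorem s33u_cst_unit_inv (c : (↥A₀)ˣ) :
    (s33u_cst A₀ ((c⁻¹ : (↥A₀)ˣ) : A₀) : 𝓕) = (s33u_cst A₀ (c : A₀))⁻¹ :=
  eq_inv_of_mul_eq_one_right (s33u_cst_unit_mul_inv A₀ c)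

theorem s33u_ord_cst_unit (c : (↥A₀)ˣ) (Q : Place L₀ 𝓕) :
    Q.ord (s33u_cst A₀ (c : A₀) : 𝓕) = 0 := ff_ord_algebraMap Q _

variable {A₀} {V : ValuationSubring 𝓕} {π : 𝓕}

/-- From `x ≡ c mod πV` to `x / c ≡ 1 mod πV` (`c` a unit constant). -/
theorem s33u_one_of_sub (hAV : ∀ a : A₀, (s33u_cst A₀ a : 𝓕) ∈ V) (c : (↥A₀)ˣ) {x : 𝓕}
    (h : ∃ z ∈ V, x - s33u_cst A₀ (c : A₀) = π * z) : s33u_One V π (x / s33u_cst A₀ (c : A₀)) := by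
  obtain ⟨z, hz, e⟩ := h
  refine ⟨z * s33u_cst A₀ ((c⁻¹ : (↥A₀)ˣ) : A₀), V.mul_mem _ _ hz (hAV _), ?_⟩
  have hc0 := s33u_cst_unit_ne_zero (𝓕 := 𝓕) A₀ c
  rw [s33u_cst_unit_inv, ← mul_assoc, ← e]
  field_simp

/-- From `x / c ≡ 1 mod πV` to `x ≡ c mod πV`. -/
theorem s33u_sub_of_one (hAV : ∀ a : A₀, (s33u_cst A₀ a : 𝓕) ∈ V) (c : (↥A₀)ˣ) {x : 𝓕}
    (h : s33u_One V π (x / s33u_cst A₀ (c : A₀))) : ∃ z ∈ V, x - s33u_cst A₀ (c : A₀) = π * z := by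
  obtain ⟨z, hz, e⟩ := h
  refine ⟨z * s33u_cst A₀ (c : A₀), V.mul_mem _ _ hz (hAV _), ?_⟩
  have hc0 := s33u_cst_unit_ne_zero (𝓕 := 𝓕) A₀ c
  rw [← mul_assoc, ← e]
  field_simp

end Cst

/-! ### The local generator for a first difference -/

/-- **The local generator at `𝔫` for the first difference `σf / f`** of a function `f` with
`m ∣ div f`, rational support, normalised so that `σf / f ≡ c₀` (ONE constant) modulo `π (O i)` for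
every `i`: a function `gx ≠ 0` with `ord_Q gx = ord_Q (σf/f) / m` at all places `Q` through `𝔫` and
`gx ≡ 1 mod π (O i)` for every component `i` through `𝔫`. -/
theorem s33u_locgen_of_Phi {ι : Type*} [Fintype ι] (A₀ : ValuationSubring L₀)
    [IsDiscreteValuationRing A₀]
    (O : ι → ValuationSubring 𝓕) (hAO : ∀ i, ∀ a : A₀, algebraMap L₀ 𝓕 (a : L₀) ∈ O i)
    (ϖ : A₀) (hϖ : Irreducible ϖ)
    (hϖO : ∀ i, ¬ ∃ y ∈ O i, (1 : 𝓕) = algebraMap L₀ 𝓕 (ϖ : L₀) * y)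
    (S : Set (Place L₀ 𝓕))
    (F3 : ∀ y : 𝓕, y ≠ 0 → {Q : Place L₀ 𝓕 | Q ∈ S ∧ Q.ord y ≠ 0}.Finite)
    (𝔫 : Ideal (s34x_ring (s34x_infRing O) S)) [h𝔫 : 𝔫.IsPrime]
    (g : SemilinearAut L₀ 𝓕)
    (hfd : ∀ i, ∀ U : 𝓕, U ≠ 0 → ∃ c : (↥A₀)ˣ, ∃ z ∈ O i,
      s33u_fd g U - s33u_cst A₀ (c : A₀) = algebraMap L₀ 𝓕 (ϖ : L₀) * z)
    (m : ℕ) (hm0 : m ≠ 0)
    (hroot : ∀ c c' : (↥A₀)ˣ, ¬ IsUnit ((c : A₀) ^ m - (c' : A₀) ^ m) →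
      ¬ IsUnit ((c : A₀) - (c' : A₀)))
    (f : 𝓕) (hf0 : f ≠ 0) (hdiv : ∀ Q : Place L₀ 𝓕, (m : ℤ) ∣ Q.ord f)
    (hΦ : ∃ Φ : 𝓕, Φ ≠ 0 ∧ ∀ Q ∈ S, s34f_through (s34x_infRing O) S 𝔫 Q →
      (g⁻¹ • Q).ord f / (m : ℤ) - (g⁻¹ • Q).ord Φ = Q.ord f / (m : ℤ) - Q.ord Φ)
    (c₀ : (↥A₀)ˣ)
    (hnorm : ∀ i, ∃ z ∈ O i,
      s33u_fd g f - s33u_cst A₀ (c₀ : A₀) = algebraMap L₀ 𝓕 (ϖ : L₀) * z) :
    ∃ gx : 𝓕, gx ≠ 0 ∧
      (∀ Q ∈ S, s34f_through (s34x_infRing O) S 𝔫 Q →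
        Q.ord gx = s18_E (s33u_fd g f) m Q) ∧
      (∀ i, (∀ b : s34x_ring (s34x_infRing O) S,
          (∃ y ∈ O i, (b : 𝓕) = algebraMap L₀ 𝓕 (ϖ : L₀) * y) → b ∈ 𝔫) →
        ∃ y ∈ O i, gx - 1 = algebraMap L₀ 𝓕 (ϖ : L₀) * y) := by
  classical
  set π : 𝓕 := algebraMap L₀ 𝓕 (ϖ : L₀) with hπdef
  have hπ0 : π ≠ 0 := s34f_unif_ne_zero (𝓕 := 𝓕) A₀ ϖ hϖ
  have hπO : ∀ i, π ∈ O i := fun i => hAO i ϖ
  have hAV : ∀ i, ∀ a : A₀, (s33u_cst A₀ a : 𝓕) ∈ O i := fun i a => hAO i a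
  have hmZ : (m : ℤ) ≠ 0 := by exact_mod_cast hm0
  obtain ⟨Φ, hΦ0, hΦ⟩ := hΦ
  set gx₀ : 𝓕 := s33u_fd g Φ with hgx₀
  have hgx₀0 : gx₀ ≠ 0 := s33u_fd_ne_zero g hΦ0
  have hf10 : s33u_fd g f ≠ 0 := s33u_fd_ne_zero g hf0
  -- the orders at the places through `𝔫`
  have hord : ∀ Q ∈ S, s34f_through (s34x_infRing O) S 𝔫 Q →
      Q.ord gx₀ = s18_E (s33u_fd g f) m Q := by
    intro Q hQS hth
    have h1 := hΦ Q hQS hth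
    obtain ⟨a, ha⟩ := hdiv (g⁻¹ • Q)
    obtain ⟨b, hb⟩ := hdiv Q
    rw [hgx₀, s33u_ord_fd g Q hΦ0, s18_E, s33u_ord_fd g Q hf0, ha, hb, ← mul_sub,
      Int.mul_ediv_cancel_left _ hmZ]
    rw [ha, hb, Int.mul_ediv_cancel_left _ hmZ, Int.mul_ediv_cancel_left _ hmZ] at h1
    omega
  have hdiv1 : ∀ Q : Place L₀ 𝓕, (m : ℤ) ∣ Q.ord (s33u_fd g f) := by
    intro Q
    rw [s33u_ord_fd g Q hf0]
    exact dvd_sub (hdiv _) (hdiv _)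
  -- residue constants of `Φ`
  have hcΦ : ∀ i, ∃ c : (↥A₀)ˣ, ∃ z ∈ O i, gx₀ - s33u_cst A₀ (c : A₀) = π * z :=
    fun i => hfd i Φ hΦ0
  choose c hc using hcΦ
  -- the auxiliary function `h = σu / u`, `u = f / Φ ^ m`
  set h : 𝓕 := s33u_fd g f / gx₀ ^ m with hh
  have hh0 : h ≠ 0 := div_ne_zero hf10 (pow_ne_zero m hgx₀0)
  have hhQ : ∀ Q ∈ S, s34f_through (s34x_infRing O) S 𝔫 Q → Q.ord h = 0 := by
    intro Q hQS hth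
    rw [hh, div_eq_mul_inv, Q.ord_mul hf10 (inv_ne_zero (pow_ne_zero m hgx₀0)), Q.ord_inv,
      ← zpow_natCast, Q.ord_zpow, hord Q hQS hth, s18_E_mul _ m hdiv1 Q]
    ring
  set d : ι → A₀ := fun i => ((c₀ * ((c i)⁻¹) ^ m : (↥A₀)ˣ) : A₀) with hd
  have hdh : ∀ i, ∃ z ∈ O i, h - algebraMap L₀ 𝓕 ((d i : A₀) : L₀) = π * z := by
    intro i
    have h1 : s33u_One (O i) π (s33u_fd g f / s33u_cst A₀ (c₀ : A₀)) :=
      s33u_one_of_sub (hAV i) c₀ (hnorm i)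
    have h2 : s33u_One (O i) π (gx₀ / s33u_cst A₀ (c i : A₀)) :=
      s33u_one_of_sub (hAV i) (c i) (hc i)
    have h3 := h1.div (hπO i) (hϖO i) (h2.pow (hπO i) m)
    have h4 : s33u_fd g f / s33u_cst A₀ (c₀ : A₀) / (gx₀ / s33u_cst A₀ (c i : A₀)) ^ m =
        h / s33u_cst A₀ ((c₀ * ((c i)⁻¹) ^ m : (↥A₀)ˣ) : A₀) := by
      have e1 : (s33u_cst A₀ ((c₀ * ((c i)⁻¹) ^ m : (↥A₀)ˣ) : A₀) : 𝓕) =
          s33u_cst A₀ (c₀ : A₀) * ((s33u_cst A₀ (c i : A₀))⁻¹) ^ m := by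
        rw [Units.val_mul, Units.val_pow_eq_pow_val, s33u_cst_mul, s33u_cst_pow,
          s33u_cst_unit_inv]
      have hc0 := s33u_cst_unit_ne_zero (𝓕 := 𝓕) A₀ c₀
      have hci := s33u_cst_unit_ne_zero (𝓕 := 𝓕) A₀ (c i)
      rw [e1, hh, div_pow, inv_pow]
      field_simp
    rw [h4] at h3
    exact s33u_sub_of_one (hAV i) _ h3
  -- gluing
  have hglue : ∀ i i' : ι,
      (∀ b : s34x_ring (s34x_infRing O) S, (∃ y ∈ O i, (b : 𝓕) = π * y) → b ∈ 𝔫) →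
      (∀ b : s34x_ring (s34x_infRing O) S, (∃ y ∈ O i', (b : 𝓕) = π * y) → b ∈ 𝔫) →
      ∃ x' : A₀, (c i : A₀) - (c i' : A₀) = ϖ * x' := by
    intro i i' hi hi'
    have h1 := s33u_glue_const A₀ O hAO S π hπO F3 𝔫 h hh0 hhQ d hdh i i' hi hi'
    have h2 : ¬ IsUnit ((c i' : A₀) ^ m - (c i : A₀) ^ m) := by
      intro hu
      apply h1
      have e : d i - d i' = ((c₀ * ((c i)⁻¹) ^ m * ((c i')⁻¹) ^ m : (↥A₀)ˣ) : A₀) *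
          ((c i' : A₀) ^ m - (c i : A₀) ^ m) := by
        rw [hd]
        simp only [Units.val_mul, Units.val_pow_eq_pow_val]
        have e1 : ((c i : A₀)) * (((c i)⁻¹ : (↥A₀)ˣ) : A₀) = 1 := Units.mul_inv _
        have e2 : ((c i' : A₀)) * (((c i')⁻¹ : (↥A₀)ˣ) : A₀) = 1 := Units.mul_inv _
        have e3 : ((c i : A₀)) ^ m * (((c i)⁻¹ : (↥A₀)ˣ) : A₀) ^ m = 1 := by
          rw [← mul_pow, e1, one_pow]
        have e4 : ((c i' : A₀)) ^ m * (((c i')⁻¹ : (↥A₀)ˣ) : A₀) ^ m = 1 := by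
          rw [← mul_pow, e2, one_pow]
        linear_combination ((c₀ : A₀) * (((c i')⁻¹ : (↥A₀)ˣ) : A₀) ^ m) * e3 -
          ((c₀ : A₀) * (((c i)⁻¹ : (↥A₀)ˣ) : A₀) ^ m) * e4
      rw [e]
      exact (Units.isUnit _).mul hu
    have h3 := hroot (c i') (c i) h2
    have h4 : (c i : A₀) - (c i' : A₀) ∈ maximalIdeal A₀ := by
      rw [mem_maximalIdeal, mem_nonunits_iff]
      intro hu
      apply h3
      have : (c i' : A₀) - (c i : A₀) = -((c i : A₀) - (c i' : A₀)) := by ring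
      rw [this]
      exact hu.neg
    rw [hϖ.maximalIdeal_eq, Ideal.mem_span_singleton'] at h4
    obtain ⟨x', hx'⟩ := h4
    exact ⟨x', by rw [← hx']; ring⟩
  by_cases hex : ∃ i₀, ∀ b : s34x_ring (s34x_infRing O) S,
      (∃ y ∈ O i₀, (b : 𝓕) = π * y) → b ∈ 𝔫
  · obtain ⟨i₀, hi₀⟩ := hex
    have hci₀ := s33u_cst_unit_ne_zero (𝓕 := 𝓕) A₀ (c i₀)
    refine ⟨gx₀ / s33u_cst A₀ (c i₀ : A₀), div_ne_zero hgx₀0 hci₀, ?_, ?_⟩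
    · intro Q hQS hth
      rw [div_eq_mul_inv, Q.ord_mul hgx₀0 (inv_ne_zero hci₀), Q.ord_inv, s33u_ord_cst_unit,
        neg_zero, add_zero]
      exact hord Q hQS hth
    · intro i hi
      obtain ⟨x', hx'⟩ := hglue i i₀ hi hi₀
      obtain ⟨z, hz, e⟩ := hc i
      have h1 : ∃ z' ∈ O i, gx₀ - s33u_cst A₀ (c i₀ : A₀) = π * z' := by
        refine ⟨z + s33u_cst A₀ x', (O i).add_mem _ _ hz (hAV i x'), ?_⟩
        have e2 : (s33u_cst A₀ (c i : A₀) : 𝓕) - s33u_cst A₀ (c i₀ : A₀) =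
            π * s33u_cst A₀ x' := by
          rw [← s33u_cst_sub, hx', s33u_cst_mul]
          rfl
        rw [mul_add, ← e, ← e2]
        ring
      exact s33u_one_of_sub (hAV i) (c i₀) h1
  · refine ⟨gx₀, hgx₀0, hord, ?_⟩
    intro i hi
    exact absurd ⟨i, hi⟩ hex

/-- **The local generator at `𝔫`**, with the local equations supplied by the rational support of
`f` (`s33u_exists_Phi`). -/
theorem s33u_locgen {ι : Type*} [Fintype ι] (A₀ : ValuationSubring L₀)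
    [IsDiscreteValuationRing A₀]
    (O : ι → ValuationSubring 𝓕) (hAO : ∀ i, ∀ a : A₀, algebraMap L₀ 𝓕 (a : L₀) ∈ O i)
    (ϖ : A₀) (hϖ : Irreducible ϖ)
    (hϖO : ∀ i, ¬ ∃ y ∈ O i, (1 : 𝓕) = algebraMap L₀ 𝓕 (ϖ : L₀) * y)
    (S : Set (Place L₀ 𝓕))
    (F3 : ∀ y : 𝓕, y ≠ 0 → {Q : Place L₀ 𝓕 | Q ∈ S ∧ Q.ord y ≠ 0}.Finite)
    (𝔫 : Ideal (s34x_ring (s34x_infRing O) S)) [h𝔫 : 𝔫.IsPrime]
    (g : SemilinearAut L₀ 𝓕)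
    (hst : s34f_Stable (s34x_infRing O) S (algebraMap L₀ 𝓕 (ϖ : L₀)) 𝔫 g)
    (hfd : ∀ i, ∀ U : 𝓕, U ≠ 0 → ∃ c : (↥A₀)ˣ, ∃ z ∈ O i,
      s33u_fd g U - s33u_cst A₀ (c : A₀) = algebraMap L₀ 𝓕 (ϖ : L₀) * z)
    (hAA : s34f_AlmostAll (s34x_infRing O) S 𝔫)
    (m : ℕ) (hm0 : m ≠ 0)
    (hroot : ∀ c c' : (↥A₀)ˣ, ¬ IsUnit ((c : A₀) ^ m - (c' : A₀) ^ m) →
      ¬ IsUnit ((c : A₀) - (c' : A₀)))
    (f : 𝓕) (hf0 : f ≠ 0) (hdiv : ∀ Q : Place L₀ 𝓕, (m : ℤ) ∣ Q.ord f)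
    (hdeg : ∀ Q ∈ S, Q.ord f ≠ 0 → Q.deg = 1)
    (c₀ : (↥A₀)ˣ)
    (hnorm : ∀ i, ∃ z ∈ O i,
      s33u_fd g f - s33u_cst A₀ (c₀ : A₀) = algebraMap L₀ 𝓕 (ϖ : L₀) * z) :
    ∃ gx : 𝓕, gx ≠ 0 ∧
      (∀ Q ∈ S, s34f_through (s34x_infRing O) S 𝔫 Q →
        Q.ord gx = s18_E (s33u_fd g f) m Q) ∧
      (∀ i, (∀ b : s34x_ring (s34x_infRing O) S,
          (∃ y ∈ O i, (b : 𝓕) = algebraMap L₀ 𝓕 (ϖ : L₀) * y) → b ∈ 𝔫) →
        ∃ y ∈ O i, gx - 1 = algebraMap L₀ 𝓕 (ϖ : L₀) * y) :=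
  s33u_locgen_of_Phi A₀ O hAO ϖ hϖ hϖO S F3 𝔫 g hfd m hm0 hroot f hf0 hdiv
    (s33u_exists_Phi O S (algebraMap L₀ 𝓕 (ϖ : L₀)) F3 𝔫 g hst hAA f hf0 m hdeg) c₀ hnorm

/-! ### The global statement on one chart -/

/-- **[UNIP-K], generic form on one chart.**  Under the chart contract of S34 (`s34f_ChartContract`)
for the chart `S`, the stability hypotheses on the semilinear automorphism `g` and the existence of
residue constants of first differences (`hfd`): for every `f ≠ 0` with `m ∣ div f`, rational support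
on `S`, normalised so that `σf / f ≡ c₀ mod π (O i)` for all `i` with ONE unit constant `c₀`, there is
`a ≡ 1 mod π O` in the lattice of `E = div (σf/f) / m` on the chart `S` with `ord_Q a = E Q` at every
place `Q ∈ S` through any closed point `𝔫 ∋ ϖ` of the chart: `(σf/f) / a ^ m` has neither zeros nor
poles through the closed points of the special fibre of the chart (nodes included). -/
theorem s33u_unip_chart_of_Phi {ι : Type*} [Fintype ι] [Nonempty ι] (A₀ : ValuationSubring L₀)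
    [IsDiscreteValuationRing A₀]
    (O : ι → ValuationSubring 𝓕) (hAO : ∀ i, ∀ a : A₀, algebraMap L₀ 𝓕 (a : L₀) ∈ O i)
    (ϖ : A₀) (hϖ : Irreducible ϖ)
    (hϖO : ∀ i, ¬ ∃ y ∈ O i, (1 : 𝓕) = algebraMap L₀ 𝓕 (ϖ : L₀) * y)
    (hU : ∀ i, ∀ y : 𝓕, ∃ k : ℕ, algebraMap L₀ 𝓕 (ϖ : L₀) ^ k * y ∈ O i)
    (g : SemilinearAut L₀ 𝓕)
    (hgO : ∀ i, ∀ y : 𝓕, y ∈ O i ↔ g • y ∈ O i)
    (hgπ : ∀ i, ∀ y ∈ O i, ∃ z ∈ O i, g • y - y = algebraMap L₀ 𝓕 (ϖ : L₀) * z)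
    (hfd : ∀ i, ∀ U : 𝓕, U ≠ 0 → ∃ c : (↥A₀)ˣ, ∃ z ∈ O i,
      s33u_fd g U - s33u_cst A₀ (c : A₀) = algebraMap L₀ 𝓕 (ϖ : L₀) * z)
    (S : Set (Place L₀ 𝓕)) (hC : s34f_ChartContract A₀ O hAO ϖ S g)
    (m : ℕ) (hm0 : m ≠ 0)
    (hroot : ∀ c c' : (↥A₀)ˣ, ¬ IsUnit ((c : A₀) ^ m - (c' : A₀) ^ m) →
      ¬ IsUnit ((c : A₀) - (c' : A₀)))
    (f : 𝓕) (hf0 : f ≠ 0) (hdiv : ∀ Q : Place L₀ 𝓕, (m : ℤ) ∣ Q.ord f)
    (hΦ : ∀ 𝔫 : Ideal (s34x_ring (s34x_infRing O) S),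
      s34f_Stable (s34x_infRing O) S (algebraMap L₀ 𝓕 (ϖ : L₀)) 𝔫 g →
      s34f_AlmostAll (s34x_infRing O) S 𝔫 →
      ∃ Φ : 𝓕, Φ ≠ 0 ∧ ∀ Q ∈ S, s34f_through (s34x_infRing O) S 𝔫 Q →
        (g⁻¹ • Q).ord f / (m : ℤ) - (g⁻¹ • Q).ord Φ = Q.ord f / (m : ℤ) - Q.ord Φ)
    (c₀ : (↥A₀)ˣ)
    (hnorm : ∀ i, ∃ z ∈ O i,
      s33u_fd g f - s33u_cst A₀ (c₀ : A₀) = algebraMap L₀ 𝓕 (ϖ : L₀) * z) :
    ∃ a : 𝓕, a ≠ 0 ∧ (∃ y ∈ s34x_infRing O, a - 1 = algebraMap L₀ 𝓕 (ϖ : L₀) * y) ∧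
      a ∈ s34x_latSet (s34x_infRing O) S (s18_E (s33u_fd g f) m) ∧
      ∀ 𝔫 : Ideal (s34x_ring (s34x_infRing O) S), 𝔫.IsMaximal →
        s34x_const (s34x_infRing O) S (ϖ : L₀) (s34x_inf_const_mem O A₀ hAO ϖ) ∈ 𝔫 →
        ∀ Q ∈ S, s34f_through (s34x_infRing O) S 𝔫 Q →
          Q.ord a = s18_E (s33u_fd g f) m Q := by
  classical
  obtain ⟨hnoeth, F1, F2, F3, hgS, hstruct⟩ := hC
  have := hnoeth
  set π : 𝓕 := algebraMap L₀ 𝓕 (ϖ : L₀) with hπdef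
  have hπ0 : π ≠ 0 := s34f_unif_ne_zero (𝓕 := 𝓕) A₀ ϖ hϖ
  have hπO : ∀ i, π ∈ O i := fun i => hAO i ϖ
  have hπL : ∀ Q : Place L₀ 𝓕, Q.ord π = 0 := fun Q => ff_ord_algebraMap Q _
  have hf10 : s33u_fd g f ≠ 0 := s33u_fd_ne_zero g hf0
  set E := s18_E (L₀ := L₀) (s33u_fd g f) m with hE
  -- the local data at every closed point
  have key : ∀ 𝔫 : Ideal (s34x_ring (s34x_infRing O) S), 𝔫.IsMaximal →
      s34x_const (s34x_infRing O) S (ϖ : L₀) (s34x_inf_const_mem O A₀ hAO ϖ) ∈ 𝔫 →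
      s34f_Stable (s34x_infRing O) S π 𝔫 g ∧
      ∃ gx : 𝓕, gx ≠ 0 ∧
        (∀ Q ∈ S, s34f_through (s34x_infRing O) S 𝔫 Q → Q.ord gx = E Q) ∧
        (∀ i, (∀ b : s34x_ring (s34x_infRing O) S, (∃ y ∈ O i, (b : 𝓕) = π * y) → b ∈ 𝔫) →
          ∃ y ∈ O i, gx - 1 = π * y) := by
    intro 𝔫 h𝔫 hπ𝔫
    have := h𝔫
    have : 𝔫.IsPrime := h𝔫.isPrime
    have hπ𝔫' : s34f_constHom A₀ (s34x_infRing O) (s34x_inf_const_mem O A₀ hAO) S ϖ ∈ 𝔫 := hπ𝔫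
    have hst := s34f_stable_of O S π hπ0 hπL g hgO hgπ hgS 𝔫
      (s34f_constHom A₀ (s34x_infRing O) (s34x_inf_const_mem O A₀ hAO) S ϖ) rfl hπ𝔫'
    have hAA : s34f_AlmostAll (s34x_infRing O) S 𝔫 := by
      rcases hstruct 𝔫 hπ𝔫' with ⟨t, hm⟩ | ⟨u, w, h0, hm⟩
      · exact s34f_almostAll_of_smooth A₀ (s34x_infRing O) (s34x_inf_const_mem O A₀ hAO) S ϖ hϖ 𝔫
          hπ𝔫' F1 F2 t hm
      · exact s34f_almostAll_of_node A₀ (s34x_infRing O) (s34x_inf_const_mem O A₀ hAO) S ϖ hϖ 𝔫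
          hπ𝔫' F1 F2 u w hm h0
    exact ⟨hst, s33u_locgen_of_Phi A₀ O hAO ϖ hϖ hϖO S F3 𝔫 g hfd m hm0 hroot f hf0 hdiv
      (hΦ 𝔫 hst hAA) c₀ hnorm⟩
  -- (LOC) at every closed point, then local to global
  have hloc : ∀ 𝔫 : Ideal (s34x_ring (s34x_infRing O) S), 𝔫.IsMaximal →
      s34x_const (s34x_infRing O) S (ϖ : L₀) (s34x_inf_const_mem O A₀ hAO ϖ) ∈ 𝔫 →
      ∃ a ∈ s34x_latSet (s34x_infRing O) S E, ∃ s : s34x_ring (s34x_infRing O) S, s ∉ 𝔫 ∧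
        ∃ y ∈ s34x_infRing O, a - (s : 𝓕) = algebraMap L₀ 𝓕 (ϖ : L₀) * y := by
    intro 𝔫 h𝔫 hπ𝔫
    have : 𝔫.IsPrime := h𝔫.isPrime
    obtain ⟨-, gx, hgx0, hgxQ, hgxC⟩ := key 𝔫 h𝔫 hπ𝔫
    refine s34x_loc_of_gen O S E π hπ0 hπO hU 𝔫 gx hgx0
      (fun Q hQ hth => (hgxQ Q hQ hth).ge) hgxC ?_
    refine ((F3 gx hgx0).union (F3 _ hf10)).subset ?_
    rintro Q ⟨hQS, hlt⟩
    by_cases h0 : Q.ord (s33u_fd g f) = 0
    · left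
      refine ⟨hQS, fun h => ?_⟩
      rw [h, hE, s18_E, h0, Int.zero_ediv] at hlt
      exact lt_irrefl _ hlt
    · right
      exact ⟨hQS, h0⟩
  obtain ⟨a, halat, y, hy, e⟩ := s34x_one_of_local (s34x_infRing O) S E (ϖ : L₀)
    (s34x_inf_const_mem O A₀ hAO ϖ) hloc
  have ha0 : a ≠ 0 := by
    rintro rfl
    obtain ⟨i⟩ := ‹Nonempty ι›
    apply hϖO i
    refine ⟨-y, (O i).neg_mem _ ((s34x_mem_infRing O y).mp hy i), ?_⟩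
    rw [mul_neg, ← e]
    ring
  refine ⟨a, ha0, ⟨y, hy, e⟩, halat, ?_⟩
  intro 𝔫 h𝔫 hπ𝔫 Q hQS hth
  have : 𝔫.IsPrime := h𝔫.isPrime
  obtain ⟨hst, gx, hgx0, hgxQ, hgxC⟩ := key 𝔫 h𝔫 hπ𝔫
  have hx0 : a / gx ≠ 0 := div_ne_zero ha0 hgx0
  have hordx : ∀ Q' : Place L₀ 𝓕, Q'.ord (a / gx) = Q'.ord a - Q'.ord gx := by
    intro Q'
    rw [div_eq_mul_inv, Q'.ord_mul ha0 (inv_ne_zero hgx0), Q'.ord_inv]
    ring
  have h0 := s33u_ord_eq_zero O S π hπ0 hπO hU hπL 𝔫 hst.pi_mul_mem (a / gx) hx0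
    (fun Q' hQ' hth' => by
      rw [hordx, hgxQ Q' hQ' hth']
      have := (halat.2 Q' hQ').resolve_left ha0
      omega)
    (fun i hi => by
      have h1 : s33u_One (O i) π a := ⟨y, (s34x_mem_infRing O y).mp hy i, e⟩
      have h2 : s33u_One (O i) π gx := hgxC i hi
      exact h1.div (hπO i) (hϖO i) h2)
    ((F3 _ hx0).subset fun Q' hQ' => ⟨hQ'.1, fun h => by
      have h1 : Q'.ord (a / gx) < 0 := hQ'.2
      rw [h] at h1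
      exact lt_irrefl _ h1⟩)
    Q hQS hth
  rw [hordx, hgxQ Q hQS hth] at h0
  omega

/-- **[UNIP-K], generic form on one chart**, for `f` with rational support on the chart. -/
theorem s33u_unip_chart {ι : Type*} [Fintype ι] [Nonempty ι] (A₀ : ValuationSubring L₀)
    [IsDiscreteValuationRing A₀]
    (O : ι → ValuationSubring 𝓕) (hAO : ∀ i, ∀ a : A₀, algebraMap L₀ 𝓕 (a : L₀) ∈ O i)
    (ϖ : A₀) (hϖ : Irreducible ϖ)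
    (hϖO : ∀ i, ¬ ∃ y ∈ O i, (1 : 𝓕) = algebraMap L₀ 𝓕 (ϖ : L₀) * y)
    (hU : ∀ i, ∀ y : 𝓕, ∃ k : ℕ, algebraMap L₀ 𝓕 (ϖ : L₀) ^ k * y ∈ O i)
    (g : SemilinearAut L₀ 𝓕)
    (hgO : ∀ i, ∀ y : 𝓕, y ∈ O i ↔ g • y ∈ O i)
    (hgπ : ∀ i, ∀ y ∈ O i, ∃ z ∈ O i, g • y - y = algebraMap L₀ 𝓕 (ϖ : L₀) * z)
    (hfd : ∀ i, ∀ U : 𝓕, U ≠ 0 → ∃ c : (↥A₀)ˣ, ∃ z ∈ O i,
      s33u_fd g U - s33u_cst A₀ (c : A₀) = algebraMap L₀ 𝓕 (ϖ : L₀) * z)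
    (S : Set (Place L₀ 𝓕)) (hC : s34f_ChartContract A₀ O hAO ϖ S g)
    (m : ℕ) (hm0 : m ≠ 0)
    (hroot : ∀ c c' : (↥A₀)ˣ, ¬ IsUnit ((c : A₀) ^ m - (c' : A₀) ^ m) →
      ¬ IsUnit ((c : A₀) - (c' : A₀)))
    (f : 𝓕) (hf0 : f ≠ 0) (hdiv : ∀ Q : Place L₀ 𝓕, (m : ℤ) ∣ Q.ord f)
    (hdeg : ∀ Q ∈ S, Q.ord f ≠ 0 → Q.deg = 1)
    (c₀ : (↥A₀)ˣ)
    (hnorm : ∀ i, ∃ z ∈ O i,
      s33u_fd g f - s33u_cst A₀ (c₀ : A₀) = algebraMap L₀ 𝓕 (ϖ : L₀) * z) :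
    ∃ a : 𝓕, a ≠ 0 ∧ (∃ y ∈ s34x_infRing O, a - 1 = algebraMap L₀ 𝓕 (ϖ : L₀) * y) ∧
      a ∈ s34x_latSet (s34x_infRing O) S (s18_E (s33u_fd g f) m) ∧
      ∀ 𝔫 : Ideal (s34x_ring (s34x_infRing O) S), 𝔫.IsMaximal →
        s34x_const (s34x_infRing O) S (ϖ : L₀) (s34x_inf_const_mem O A₀ hAO ϖ) ∈ 𝔫 →
        ∀ Q ∈ S, s34f_through (s34x_infRing O) S 𝔫 Q →
          Q.ord a = s18_E (s33u_fd g f) m Q :=
  s33u_unip_chart_of_Phi A₀ O hAO ϖ hϖ hϖO hU g hgO hgπ hfd S hC m hm0 hroot f hf0 hdiv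
    (fun 𝔫 hst hAA => s33u_exists_Phi O S _ hC.2.2.2.1 𝔫 g hst hAA f hf0 m hdeg) c₀ hnorm

/-- **[UNIP-K], generic form on one chart, in terms of `F = (σf/f) / (c₀ a ^ m)`**: `F ≡ 1 mod π O` and
`F` has neither zeros nor poles at the places of the chart through the closed points of its special
fibre. -/
theorem s33u_unip_chart_F_of_Phi {ι : Type*} [Fintype ι] [Nonempty ι] (A₀ : ValuationSubring L₀)
    [IsDiscreteValuationRing A₀]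
    (O : ι → ValuationSubring 𝓕) (hAO : ∀ i, ∀ a : A₀, algebraMap L₀ 𝓕 (a : L₀) ∈ O i)
    (ϖ : A₀) (hϖ : Irreducible ϖ)
    (hϖO : ∀ i, ¬ ∃ y ∈ O i, (1 : 𝓕) = algebraMap L₀ 𝓕 (ϖ : L₀) * y)
    (hU : ∀ i, ∀ y : 𝓕, ∃ k : ℕ, algebraMap L₀ 𝓕 (ϖ : L₀) ^ k * y ∈ O i)
    (g : SemilinearAut L₀ 𝓕)
    (hgO : ∀ i, ∀ y : 𝓕, y ∈ O i ↔ g • y ∈ O i)
    (hgπ : ∀ i, ∀ y ∈ O i, ∃ z ∈ O i, g • y - y = algebraMap L₀ 𝓕 (ϖ : L₀) * z)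
    (hfd : ∀ i, ∀ U : 𝓕, U ≠ 0 → ∃ c : (↥A₀)ˣ, ∃ z ∈ O i,
      s33u_fd g U - s33u_cst A₀ (c : A₀) = algebraMap L₀ 𝓕 (ϖ : L₀) * z)
    (S : Set (Place L₀ 𝓕)) (hC : s34f_ChartContract A₀ O hAO ϖ S g)
    (m : ℕ) (hm0 : m ≠ 0)
    (hroot : ∀ c c' : (↥A₀)ˣ, ¬ IsUnit ((c : A₀) ^ m - (c' : A₀) ^ m) →
      ¬ IsUnit ((c : A₀) - (c' : A₀)))
    (f : 𝓕) (hf0 : f ≠ 0) (hdiv : ∀ Q : Place L₀ 𝓕, (m : ℤ) ∣ Q.ord f)
    (hΦ : ∀ 𝔫 : Ideal (s34x_ring (s34x_infRing O) S),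
      s34f_Stable (s34x_infRing O) S (algebraMap L₀ 𝓕 (ϖ : L₀)) 𝔫 g →
      s34f_AlmostAll (s34x_infRing O) S 𝔫 →
      ∃ Φ : 𝓕, Φ ≠ 0 ∧ ∀ Q ∈ S, s34f_through (s34x_infRing O) S 𝔫 Q →
        (g⁻¹ • Q).ord f / (m : ℤ) - (g⁻¹ • Q).ord Φ = Q.ord f / (m : ℤ) - Q.ord Φ)
    (c₀ : (↥A₀)ˣ)
    (hnorm : ∀ i, ∃ z ∈ O i,
      s33u_fd g f - s33u_cst A₀ (c₀ : A₀) = algebraMap L₀ 𝓕 (ϖ : L₀) * z) :
    ∃ a : 𝓕, a ≠ 0 ∧ s33u_fd g f / (s33u_cst A₀ (c₀ : A₀) * a ^ m) ≠ 0 ∧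
      (∃ y ∈ s34x_infRing O,
        s33u_fd g f / (s33u_cst A₀ (c₀ : A₀) * a ^ m) - 1 = algebraMap L₀ 𝓕 (ϖ : L₀) * y) ∧
      ∀ 𝔫 : Ideal (s34x_ring (s34x_infRing O) S), 𝔫.IsMaximal →
        s34x_const (s34x_infRing O) S (ϖ : L₀) (s34x_inf_const_mem O A₀ hAO ϖ) ∈ 𝔫 →
        ∀ Q ∈ S, s34f_through (s34x_infRing O) S 𝔫 Q →
          Q.ord (s33u_fd g f / (s33u_cst A₀ (c₀ : A₀) * a ^ m)) = 0 := by
  obtain ⟨a, ha0, ⟨y, hy, e⟩, -, hord⟩ := s33u_unip_chart_of_Phi A₀ O hAO ϖ hϖ hϖO hU g hgO hgπ hfd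
    S hC m hm0 hroot f hf0 hdiv hΦ c₀ hnorm
  have hπ0 : algebraMap L₀ 𝓕 (ϖ : L₀) ≠ 0 := s34f_unif_ne_zero (𝓕 := 𝓕) A₀ ϖ hϖ
  have hπO : ∀ i, algebraMap L₀ 𝓕 (ϖ : L₀) ∈ O i := fun i => hAO i ϖ
  have hAV : ∀ i, ∀ a : A₀, (s33u_cst A₀ a : 𝓕) ∈ O i := fun i a => hAO i a
  have hf10 : s33u_fd g f ≠ 0 := s33u_fd_ne_zero g hf0
  have hc0 := s33u_cst_unit_ne_zero (𝓕 := 𝓕) A₀ c₀
  have hden : s33u_cst A₀ (c₀ : A₀) * a ^ m ≠ 0 := mul_ne_zero hc0 (pow_ne_zero m ha0)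
  have hdiv1 : ∀ Q : Place L₀ 𝓕, (m : ℤ) ∣ Q.ord (s33u_fd g f) := by
    intro Q
    rw [s33u_ord_fd g Q hf0]
    exact dvd_sub (hdiv _) (hdiv _)
  refine ⟨a, ha0, div_ne_zero hf10 hden, ?_, ?_⟩
  · refine (s34x_inf_cong O _ hπ0 _).mpr fun i => ?_
    have h1 : s33u_One (O i) (algebraMap L₀ 𝓕 (ϖ : L₀)) (s33u_fd g f / s33u_cst A₀ (c₀ : A₀)) :=
      s33u_one_of_sub (hAV i) c₀ (hnorm i)
    have h2 : s33u_One (O i) (algebraMap L₀ 𝓕 (ϖ : L₀)) a :=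
      ⟨y, (s34x_mem_infRing O y).mp hy i, e⟩
    have h3 := h1.div (hπO i) (hϖO i) (h2.pow (hπO i) m)
    rw [div_div] at h3
    exact h3
  · intro 𝔫 h𝔫 hπ𝔫 Q hQS hth
    rw [div_eq_mul_inv, Q.ord_mul hf10 (inv_ne_zero hden), Q.ord_inv,
      Q.ord_mul hc0 (pow_ne_zero m ha0), s33u_ord_cst_unit, ← zpow_natCast, Q.ord_zpow,
      hord 𝔫 h𝔫 hπ𝔫 Q hQS hth, s18_E_mul _ m hdiv1 Q]
    ring

/-- **[UNIP-K], generic form on one chart, `F`-form**, for `f` with rational support on the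
chart. -/
theorem s33u_unip_chart_F {ι : Type*} [Fintype ι] [Nonempty ι] (A₀ : ValuationSubring L₀)
    [IsDiscreteValuationRing A₀]
    (O : ι → ValuationSubring 𝓕) (hAO : ∀ i, ∀ a : A₀, algebraMap L₀ 𝓕 (a : L₀) ∈ O i)
    (ϖ : A₀) (hϖ : Irreducible ϖ)
    (hϖO : ∀ i, ¬ ∃ y ∈ O i, (1 : 𝓕) = algebraMap L₀ 𝓕 (ϖ : L₀) * y)
    (hU : ∀ i, ∀ y : 𝓕, ∃ k : ℕ, algebraMap L₀ 𝓕 (ϖ : L₀) ^ k * y ∈ O i)
    (g : SemilinearAut L₀ 𝓕)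
    (hgO : ∀ i, ∀ y : 𝓕, y ∈ O i ↔ g • y ∈ O i)
    (hgπ : ∀ i, ∀ y ∈ O i, ∃ z ∈ O i, g • y - y = algebraMap L₀ 𝓕 (ϖ : L₀) * z)
    (hfd : ∀ i, ∀ U : 𝓕, U ≠ 0 → ∃ c : (↥A₀)ˣ, ∃ z ∈ O i,
      s33u_fd g U - s33u_cst A₀ (c : A₀) = algebraMap L₀ 𝓕 (ϖ : L₀) * z)
    (S : Set (Place L₀ 𝓕)) (hC : s34f_ChartContract A₀ O hAO ϖ S g)
    (m : ℕ) (hm0 : m ≠ 0)
    (hroot : ∀ c c' : (↥A₀)ˣ, ¬ IsUnit ((c : A₀) ^ m - (c' : A₀) ^ m) →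
      ¬ IsUnit ((c : A₀) - (c' : A₀)))
    (f : 𝓕) (hf0 : f ≠ 0) (hdiv : ∀ Q : Place L₀ 𝓕, (m : ℤ) ∣ Q.ord f)
    (hdeg : ∀ Q ∈ S, Q.ord f ≠ 0 → Q.deg = 1)
    (c₀ : (↥A₀)ˣ)
    (hnorm : ∀ i, ∃ z ∈ O i,
      s33u_fd g f - s33u_cst A₀ (c₀ : A₀) = algebraMap L₀ 𝓕 (ϖ : L₀) * z) :
    ∃ a : 𝓕, a ≠ 0 ∧ s33u_fd g f / (s33u_cst A₀ (c₀ : A₀) * a ^ m) ≠ 0 ∧
      (∃ y ∈ s34x_infRing O,
        s33u_fd g f / (s33u_cst A₀ (c₀ : A₀) * a ^ m) - 1 = algebraMap L₀ 𝓕 (ϖ : L₀) * y) ∧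
      ∀ 𝔫 : Ideal (s34x_ring (s34x_infRing O) S), 𝔫.IsMaximal →
        s34x_const (s34x_infRing O) S (ϖ : L₀) (s34x_inf_const_mem O A₀ hAO ϖ) ∈ 𝔫 →
        ∀ Q ∈ S, s34f_through (s34x_infRing O) S 𝔫 Q →
          Q.ord (s33u_fd g f / (s33u_cst A₀ (c₀ : A₀) * a ^ m)) = 0 :=
  s33u_unip_chart_F_of_Phi A₀ O hAO ϖ hϖ hϖO hU g hgO hgπ hfd S hC m hm0 hroot f hf0 hdiv
    (fun 𝔫 hst hAA => s33u_exists_Phi O S _ hC.2.2.2.1 𝔫 g hst hAA f hf0 m hdeg) c₀ hnorm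

/-- **[UNIP-K], generic form on one chart, `F`-form, for `f = f₀ t ^ m`**: only `f₀` needs rational
support on the chart (`t` is its own equation). -/
theorem s33u_unip_chart_F_mul {ι : Type*} [Fintype ι] [Nonempty ι] (A₀ : ValuationSubring L₀)
    [IsDiscreteValuationRing A₀]
    (O : ι → ValuationSubring 𝓕) (hAO : ∀ i, ∀ a : A₀, algebraMap L₀ 𝓕 (a : L₀) ∈ O i)
    (ϖ : A₀) (hϖ : Irreducible ϖ)
    (hϖO : ∀ i, ¬ ∃ y ∈ O i, (1 : 𝓕) = algebraMap L₀ 𝓕 (ϖ : L₀) * y)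
    (hU : ∀ i, ∀ y : 𝓕, ∃ k : ℕ, algebraMap L₀ 𝓕 (ϖ : L₀) ^ k * y ∈ O i)
    (g : SemilinearAut L₀ 𝓕)
    (hgO : ∀ i, ∀ y : 𝓕, y ∈ O i ↔ g • y ∈ O i)
    (hgπ : ∀ i, ∀ y ∈ O i, ∃ z ∈ O i, g • y - y = algebraMap L₀ 𝓕 (ϖ : L₀) * z)
    (hfd : ∀ i, ∀ U : 𝓕, U ≠ 0 → ∃ c : (↥A₀)ˣ, ∃ z ∈ O i,
      s33u_fd g U - s33u_cst A₀ (c : A₀) = algebraMap L₀ 𝓕 (ϖ : L₀) * z)
    (S : Set (Place L₀ 𝓕)) (hC : s34f_ChartContract A₀ O hAO ϖ S g)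
    (m : ℕ) (hm0 : m ≠ 0)
    (hroot : ∀ c c' : (↥A₀)ˣ, ¬ IsUnit ((c : A₀) ^ m - (c' : A₀) ^ m) →
      ¬ IsUnit ((c : A₀) - (c' : A₀)))
    (f₀ : 𝓕) (hf₀ : f₀ ≠ 0) (hdiv : ∀ Q : Place L₀ 𝓕, (m : ℤ) ∣ Q.ord f₀)
    (hdeg : ∀ Q ∈ S, Q.ord f₀ ≠ 0 → Q.deg = 1)
    (t : 𝓕) (ht : t ≠ 0)
    (c₀ : (↥A₀)ˣ)
    (hnorm : ∀ i, ∃ z ∈ O i,
      s33u_fd g (f₀ * t ^ m) - s33u_cst A₀ (c₀ : A₀) = algebraMap L₀ 𝓕 (ϖ : L₀) * z) :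
    ∃ a : 𝓕, a ≠ 0 ∧ s33u_fd g (f₀ * t ^ m) / (s33u_cst A₀ (c₀ : A₀) * a ^ m) ≠ 0 ∧
      (∃ y ∈ s34x_infRing O,
        s33u_fd g (f₀ * t ^ m) / (s33u_cst A₀ (c₀ : A₀) * a ^ m) - 1 =
          algebraMap L₀ 𝓕 (ϖ : L₀) * y) ∧
      ∀ 𝔫 : Ideal (s34x_ring (s34x_infRing O) S), 𝔫.IsMaximal →
        s34x_const (s34x_infRing O) S (ϖ : L₀) (s34x_inf_const_mem O A₀ hAO ϖ) ∈ 𝔫 →
        ∀ Q ∈ S, s34f_through (s34x_infRing O) S 𝔫 Q →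
          Q.ord (s33u_fd g (f₀ * t ^ m) / (s33u_cst A₀ (c₀ : A₀) * a ^ m)) = 0 := by
  have hf0 : f₀ * t ^ m ≠ 0 := mul_ne_zero hf₀ (pow_ne_zero m ht)
  have hdiv' : ∀ Q : Place L₀ 𝓕, (m : ℤ) ∣ Q.ord (f₀ * t ^ m) := by
    intro Q
    rw [Q.ord_mul hf₀ (pow_ne_zero m ht), ← zpow_natCast, Q.ord_zpow]
    exact dvd_add (hdiv Q) (dvd_mul_right _ _)
  exact s33u_unip_chart_F_of_Phi A₀ O hAO ϖ hϖ hϖO hU g hgO hgπ hfd S hC m hm0 hroot _ hf0 hdiv'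
    (fun 𝔫 hst hAA => s33u_exists_Phi_mul O S _ hC.2.2.2.1 𝔫 g hst hAA f₀ hf₀ m hm0 hdiv hdeg
      t ht) c₀ hnorm

end Fermat.Agent.Lib.S33
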