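/-
S33 programme P-AT-P, Stage 2, package [UNIP-K] (helper7), part 2: THE MODULAR INSTANCE.

`s33u_nf`: level `M q`, `q ∤ M`, `q ≥ 5` the residue characteristic, `m = q ^ k`.  `K₀` a number
field, `G` a Gauss datum on `K₀` (DVR, perfect residue field of characteristic `q`), `σ₀` in the
inertia group.  For `f₀ ≠ 0` in `𝓕_{K₀}(M q)` with `q ^ k ∣ div f₀` and `K₀`-rational support on the
chart `j ≠ ∞`, there are a unit `c₀` of `A` and `b ≠ 0` such that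
`F = (σ₀ f₀ / f₀) / (c₀ b ^ (q ^ k))` is `≡ 1 mod ϖ (V_∞ ⊓ V_0)` and has neither zeros nor poles at
the places of the chart through the closed points of its special fibre (nodes included).

Ingredients: the generic theorem `s33u_unip_chart_F_mul` (`UnipGen.lean`), the chart contract of S34
for `q ≥ 5` (`s34df_contract_five`, `s34f_chartContract_j1`), and
* `s33u_hfd_VV`: residue constants of first differences on `V_∞`, `V_0`: for `U = ϖ ^ n u`,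
  `σU / U ≡ ζ ^ n mod ϖ V_i`, `ζ = σ₀ϖ / ϖ ∈ A^×`;
* `s33u_exists_approx` ([W-APPROX]): `h = w ^ 2 + ϖ`, `w = α j - (β j) ^ q`, is a unit of `V_∞` and
  `ϖ` times a unit of `V_0`;
* `s33u_exists_normalise`: the residue of `ζ` has finite order prime to `q`, so multiplying `f₀` by
  `(h ^ r) ^ (q ^ k)` makes the residue constants at `V_∞` and `V_0` agree;
* `s33u_hroot`: `q ^ k`-th roots are unique modulo `ϖ` in characteristic `q`.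
-/
import Fermat.Agent.Lib.S33.UnipGen
import Fermat.Agent.Lib.S34.FFive
import Fermat.Agent.Lib.S34.DGeoFive
import Fermat.Agent.Lib.S35.MFrac
import Fermat.Agent.Lib.S35.NormRed

set_option autoImplicit false
set_option linter.style.haveILetI false
set_option synthInstance.maxHeartbeats 400000

noncomputable section

namespace Fermat.Agent.Lib.S33

open AlgebraicCurve ModularCurve Polynomial Fermat.Agent.Lib.FF Fermat.Agent.Lib.S18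
  Fermat.Agent.Lib.S34 Fermat.Agent.Lib.S35 IsLocalRing

local notation "Qbar" => AlgebraicClosure ℚ

/-! ### Abstract: first differences in a discretely valued field -/

section Abstract

variable {F : Type*} [Field F]

/-- `σϖ/ϖ` is a unit of `V`. -/
theorem s33u_unit_ratio (V : ValuationSubring F) (ϖ : F) (hϖ0 : ϖ ≠ 0) (hϖV : ϖ ∈ V)
    (σ : F ≃+* F) (hσ : ∀ y ∈ V, σ y ∈ V) (hσ' : ∀ y ∈ V, σ.symm y ∈ V)
    (hres : ∀ y ∈ V, ∃ z ∈ V, σ y - y = ϖ * z) :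
    σ ϖ / ϖ ∈ V ∧ ϖ / σ ϖ ∈ V := by
  have hσϖ0 : σ ϖ ≠ 0 := (map_ne_zero σ).mpr hϖ0
  constructor
  · obtain ⟨z, hz, e⟩ := hres ϖ hϖV
    have : σ ϖ / ϖ = 1 + z := by
      field_simp
      linear_combination e
    rw [this]; exact V.add_mem _ _ V.one_mem hz
  · obtain ⟨z, hz, e⟩ := hres (σ.symm ϖ) (hσ' ϖ hϖV)
    rw [RingEquiv.apply_symm_apply] at e
    have e1 : σ.symm ϖ = ϖ * (1 - z) := by linear_combination -e
    have e2 : ϖ = σ ϖ * σ (1 - z) := by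
      have := congrArg σ e1
      rwa [RingEquiv.apply_symm_apply, map_mul] at this
    have : ϖ / σ ϖ = σ (1 - z) := by
      field_simp
      linear_combination e2
    rw [this]
    exact hσ _ (sub_mem V.one_mem hz)

/-- **First differences.**  For `U = ϖ ^ n * u`, `u` a unit of `V`: `σU / U ≡ (σϖ/ϖ) ^ n mod ϖV`. -/
theorem s33u_first_diff (V : ValuationSubring F) (ϖ : F) (hϖ0 : ϖ ≠ 0) (hϖV : ϖ ∈ V)
    (σ : F ≃+* F) (hσ : ∀ y ∈ V, σ y ∈ V) (hσ' : ∀ y ∈ V, σ.symm y ∈ V)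
    (hres : ∀ y ∈ V, ∃ z ∈ V, σ y - y = ϖ * z)
    (n : ℤ) (u : F) (hu : u ∈ V) (hu' : u⁻¹ ∈ V) (hu0 : u ≠ 0) :
    ∃ z ∈ V, σ (ϖ ^ n * u) / (ϖ ^ n * u) - (σ ϖ / ϖ) ^ n = ϖ * z := by
  obtain ⟨h1, h2⟩ := s33u_unit_ratio V ϖ hϖ0 hϖV σ hσ hσ' hres
  have hσϖ0 : σ ϖ ≠ 0 := (map_ne_zero σ).mpr hϖ0
  have hpowV : (σ ϖ / ϖ) ^ n ∈ V := by
    rcases n with n | n
    · rw [Int.ofNat_eq_natCast, zpow_natCast]; exact V.pow_mem h1 n
    · rw [zpow_negSucc, ← inv_pow, inv_div]; exact V.pow_mem h2 _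
  obtain ⟨z, hz, e⟩ := hres u hu
  refine ⟨(σ ϖ / ϖ) ^ n * (z * u⁻¹), V.mul_mem _ _ hpowV (V.mul_mem _ _ hz hu'), ?_⟩
  have e' : σ u = u + ϖ * z := by linear_combination e
  have hpow0 : ϖ ^ n ≠ 0 := zpow_ne_zero _ hϖ0
  rw [map_mul, map_zpow₀, e', div_zpow]
  field_simp
  ring

end Abstract

/-! ### Constants: units and their integer powers -/

section CstZ

variable {L₀ 𝓕 : Type*} [Field L₀] [Field 𝓕] [Algebra L₀ 𝓕] (A₀ : ValuationSubring L₀)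

theorem s33u_cst_unit_zpow (c : (↥A₀)ˣ) (n : ℤ) :
    (s33u_cst A₀ ((c ^ n : (↥A₀)ˣ) : A₀) : 𝓕) = (s33u_cst A₀ (c : A₀)) ^ n := by
  cases n with
  | ofNat n =>
    rw [Int.ofNat_eq_natCast, zpow_natCast, zpow_natCast, Units.val_pow_eq_pow_val, s33u_cst_pow]
  | negSucc n =>
    rw [zpow_negSucc, zpow_negSucc, s33u_cst_unit_inv, Units.val_pow_eq_pow_val, s33u_cst_pow]

end CstZ

/-! ### The modular instance: residue constants of first differences -/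

section Inst

variable {K₀ : Type*} [Field K₀] [Algebra ℚ K₀] {κ : Type*} [Field κ] (G : s18g_GaussData K₀ κ)
  (φ : K₀ →+* Qbar) (M q : ℕ) [NeZero M] [NeZero q] (hq : q.Prime) (hqM : ¬ q ∣ M)
variable (σ₀ : K₀ ≃ₐ[ℚ] K₀)
  (hσA : ∀ a : K₀, a ∈ G.A → (σ₀ : K₀ ≃+* K₀) a ∈ G.A)
  (hσA' : ∀ a : K₀, a ∈ G.A → (σ₀.symm : K₀ ≃+* K₀) a ∈ G.A)
  (hσπ : ∀ a : G.A, G.π (s34m_sigmaA G (σ₀ : K₀ ≃+* K₀) hσA a) = G.π a)

include hσπ in
/-- Inertia is trivial modulo `ϖ` on `A`. -/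
theorem s33u_sigma_sub_mem_A (y : K₀) (hy : y ∈ G.A) :
    ∃ z ∈ G.A, (σ₀ : K₀ ≃+* K₀) y - y = ((G.ϖ : G.A) : K₀) * z := by
  have h0 : G.π (s34m_sigmaA G (σ₀ : K₀ ≃+* K₀) hσA ⟨y, hy⟩ - ⟨y, hy⟩) = 0 := by
    rw [map_sub, hσπ, sub_self]
  obtain ⟨z, hz⟩ := (G.π_eq_zero_iff _).mp h0
  refine ⟨z, z.2, ?_⟩
  have := congrArg Subtype.val hz
  exact this

include hσA' hσπ in
/-- The unit `ζ = σ₀ϖ/ϖ` of `A`. -/
theorem s33u_exists_zeta :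
    ∃ ζ : (↥G.A)ˣ, ((ζ : G.A) : K₀) = σ₀ ((G.ϖ : G.A) : K₀) / ((G.ϖ : G.A) : K₀) := by
  have hϖ0 : ((G.ϖ : G.A) : K₀) ≠ 0 := s18g_unifK_ne_zero G
  obtain ⟨h1, h2⟩ := s33u_unit_ratio G.A ((G.ϖ : G.A) : K₀) hϖ0 G.ϖ.2 (σ₀ : K₀ ≃+* K₀) hσA
    (fun y hy => hσA' y hy) (s33u_sigma_sub_mem_A G σ₀ hσA hσπ)
  have hσϖ0 : (σ₀ : K₀ ≃+* K₀) ((G.ϖ : G.A) : K₀) ≠ 0 :=
    (map_ne_zero (σ₀ : K₀ ≃+* K₀)).mpr hϖ0
  refine ⟨⟨⟨_, h1⟩, ⟨_, h2⟩, ?_, ?_⟩, rfl⟩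
  · apply Subtype.ext
    show (σ₀ : K₀ ≃+* K₀) ((G.ϖ : G.A) : K₀) / ((G.ϖ : G.A) : K₀) *
      (((G.ϖ : G.A) : K₀) / (σ₀ : K₀ ≃+* K₀) ((G.ϖ : G.A) : K₀)) = 1
    field_simp
  · apply Subtype.ext
    show ((G.ϖ : G.A) : K₀) / (σ₀ : K₀ ≃+* K₀) ((G.ϖ : G.A) : K₀) *
      ((σ₀ : K₀ ≃+* K₀) ((G.ϖ : G.A) : K₀) / ((G.ϖ : G.A) : K₀)) = 1
    field_simp

include hσA' hσπ in
/-- **Residue constants of first differences on `V_i`**, from a decomposition `U = ϖ ^ n * u`. -/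
theorem s33u_fd_VV_of_decomp (i : Bool) (ζ : (↥G.A)ˣ)
    (hζ : ((ζ : G.A) : K₀) = σ₀ ((G.ϖ : G.A) : K₀) / ((G.ϖ : G.A) : K₀))
    (n : ℤ) (u : s34m_F K₀ (M * q)) (hu : u ∈ s34m_VV G φ M q hq hqM i)
    (hu' : u⁻¹ ∈ s34m_VV G φ M q hq hqM i) (hu0 : u ≠ 0) :
    ∃ z ∈ s34m_VV G φ M q hq hqM i,
      s33u_fd (arithmeticGalois (modularFunctionFieldFull (M * q)) σ₀)
          (s34m_unif G (M * q) ^ n * u) -
        s33u_cst G.A ((ζ ^ n : (↥G.A)ˣ) : G.A) = s34m_unif G (M * q) * z := by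
  obtain ⟨z, hz, e⟩ := s33u_first_diff (s34m_VV G φ M q hq hqM i) (s34m_unif G (M * q))
    (s34m_unif_ne_zero G (M * q)) (s34m_unif_mem_VV G φ M q hq hqM i)
    (arithmeticRingAut (modularFunctionFieldFull (M * q)) σ₀)
    (fun _ hy => s34m_galois_mem_VV G φ M q σ₀ hσA hσπ hq hqM i hy)
    (fun _ hy => s34m_galois_mem_VV G φ M q σ₀.symm hσA'
      (s34m_symm_res G σ₀ hσA hσA' hσπ) hq hqM i hy)
    (fun _ hy => s34m_galois_sub_mem_VV G φ M q σ₀ hσA hσπ hq hqM i hy) n u hu hu' hu0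
  refine ⟨z, hz, ?_⟩
  have h1 : arithmeticRingAut (modularFunctionFieldFull (M * q)) σ₀ (s34m_unif G (M * q)) /
      s34m_unif G (M * q) = s33u_cst G.A (ζ : G.A) := by
    rw [s34m_unif, arithmeticRingAut_algebraMap, ← map_div₀, s33u_cst, hζ]
  rw [h1] at e
  rw [s33u_cst_unit_zpow]
  exact e

include hσA' hσπ in
/-- **`hfd` for `V_∞`, `V_0`.** -/
theorem s33u_hfd_VV (i : Bool) (U : s34m_F K₀ (M * q)) (hU : U ≠ 0) :
    ∃ c : (↥G.A)ˣ, ∃ z ∈ s34m_VV G φ M q hq hqM i,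
      s33u_fd (arithmeticGalois (modularFunctionFieldFull (M * q)) σ₀) U -
        s33u_cst G.A (c : G.A) =
        algebraMap K₀ (s34m_F K₀ (M * q)) ((G.ϖ : G.A) : K₀) * z := by
  obtain ⟨ζ, hζ⟩ := s33u_exists_zeta G σ₀ hσA hσA' hσπ
  obtain ⟨n, u, hu, hu', rfl⟩ := s34m_exists_zpow_VV G φ M q hq hqM i U hU
  have hu0 : u ≠ 0 := by
    rintro rfl
    exact hU (mul_zero _)
  exact ⟨ζ ^ n, s33u_fd_VV_of_decomp G φ M q hq hqM σ₀ hσA hσA' hσπ i ζ hζ n u hu hu' hu0⟩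

/-! ### [W-APPROX] -/

/-- **[W-APPROX]**: `h = w ^ 2 + ϖ`, `w = α j - (β j) ^ q`: a unit of `V_∞` and `ϖ` times a unit of
`V_0`. -/
theorem s33u_exists_approx [CharP κ q] :
    ∃ h u : s34m_F K₀ (M * q), h ≠ 0 ∧ h ∈ s34m_Vinf G (M * q) ∧ h⁻¹ ∈ s34m_Vinf G (M * q) ∧
      u ≠ 0 ∧ u ∈ s34m_Vzero G φ M q hq hqM ∧ u⁻¹ ∈ s34m_Vzero G φ M q hq hqM ∧
      h = s34m_unif G (M * q) * u := by
  set w := s35m_wInf (K₀ := K₀) M q with hw
  have hwI : w ∈ s34m_Vinf G (M * q) := s35m_wInf_mem_VV G φ M q hq hqM true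
  have hw0 : w ∈ s34m_Vzero G φ M q hq hqM := s35m_wInf_mem_VV G φ M q hq hqM false
  have hϖI : s34m_unif G (M * q) ∈ s34m_Vinf G (M * q) := s34m_unif_mem_Vinf G (M * q)
  have hϖ0 : s34m_unif G (M * q) ∈ s34m_Vzero G φ M q hq hqM :=
    s34m_unif_mem_Vzero G φ M q hq hqM
  have hhI : w ^ 2 + s34m_unif G (M * q) ∈ s34m_Vinf G (M * q) :=
    add_mem (pow_mem hwI 2) hϖI
  -- the reduction at `∞` is non-zero
  have hred : s34m_redInf G (M * q) ⟨w ^ 2 + s34m_unif G (M * q), hhI⟩ ≠ 0 := by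
    have e : (⟨w ^ 2 + s34m_unif G (M * q), hhI⟩ : s34m_Vinf G (M * q)) =
        ⟨w, hwI⟩ ^ 2 + ⟨s34m_unif G (M * q), hϖI⟩ := Subtype.ext rfl
    have e2 : s34m_redInf G (M * q) ⟨s34m_unif G (M * q), hϖI⟩ = 0 := by
      rw [s34m_redInf_eq_zero_iff]
      exact ⟨1, (s34m_Vinf G (M * q)).one_mem, (mul_one _).symm⟩
    rw [e, map_add, map_pow, e2, add_zero]
    exact pow_ne_zero 2 (s35m_redInf_wInf_ne G φ M q hq hqM)
  have hh0 : w ^ 2 + s34m_unif G (M * q) ≠ 0 := by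
    intro h0
    apply hred
    have : (⟨w ^ 2 + s34m_unif G (M * q), hhI⟩ : s34m_Vinf G (M * q)) = 0 := Subtype.ext h0
    rw [this, map_zero]
  -- at `0`
  obtain ⟨z, hz, e⟩ := (s34m_redZero_eq_zero_iff G φ M q hq hqM _).mp
    (s35m_redZero_wInf G φ M q hq hqM)
  have e' : w = s34m_unif G (M * q) * z := e
  have hfac : w ^ 2 + s34m_unif G (M * q) =
      s34m_unif G (M * q) * (1 + s34m_unif G (M * q) * z ^ 2) := by
    rw [e']; ring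
  have hu0 : 1 + s34m_unif G (M * q) * z ^ 2 ≠ 0 := by
    intro h0
    rw [h0, mul_zero] at hfac
    exact hh0 hfac
  refine ⟨w ^ 2 + s34m_unif G (M * q), 1 + s34m_unif G (M * q) * z ^ 2, hh0, hhI,
    s35nm_inv_mem_of_redInf_ne_zero G (M * q) hhI hred, hu0, ?_, ?_, hfac⟩
  · exact add_mem (s34m_Vzero G φ M q hq hqM).one_mem (mul_mem hϖ0 (pow_mem hz 2))
  · exact s34x_val_one_add_inv_mem (s34m_Vzero G φ M q hq hqM) (s34m_unif G (M * q)) hϖ0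
      (s34f_unif_not_unit_VV G φ M q hq hqM false) (pow_mem hz 2)

end Inst

section Inst2

variable {K₀ : Type*} [Field K₀] [Algebra ℚ K₀] {κ : Type*} [Field κ] (G : s18g_GaussData K₀ κ)

/-- Non-units of `A` are the kernel of the reduction. -/
theorem s33u_not_isUnit_iff [IsDiscreteValuationRing G.A] (x : G.A) :
    ¬ IsUnit x ↔ G.π x = 0 := by
  have hker : RingHom.ker G.π = Ideal.span {G.ϖ} := by
    ext x
    rw [RingHom.mem_ker, G.π_eq_zero_iff, Ideal.mem_span_singleton]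
  have hprime : (Ideal.span {G.ϖ}).IsPrime := hker ▸ RingHom.ker_isPrime G.π
  have hirr : Irreducible G.ϖ :=
    ((Ideal.span_singleton_prime G.ϖ_ne_zero).mp hprime).irreducible
  rw [G.π_eq_zero_iff, ← mem_nonunits_iff, ← mem_maximalIdeal, hirr.maximalIdeal_eq,
    Ideal.mem_span_singleton]

/-- **`hroot`** for `m = q ^ k`. -/
theorem s33u_hroot [IsDiscreteValuationRing G.A] (q : ℕ) [hq : Fact q.Prime] [CharP κ q] (k : ℕ)
    (c c' : (↥G.A)ˣ) (h : ¬ IsUnit ((c : G.A) ^ q ^ k - (c' : G.A) ^ q ^ k)) :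
    ¬ IsUnit ((c : G.A) - (c' : G.A)) := by
  rw [s33u_not_isUnit_iff] at h ⊢
  rw [map_sub, map_pow, map_pow, ← sub_pow_char_pow] at h
  rw [map_sub]
  exact pow_eq_zero_iff (pow_ne_zero k hq.out.ne_zero) |>.mp h

variable (σ₀ : K₀ ≃ₐ[ℚ] K₀)
  (hσA : ∀ a : K₀, a ∈ G.A → (σ₀ : K₀ ≃+* K₀) a ∈ G.A)
  (hσπ : ∀ a : G.A, G.π (s34m_sigmaA G (σ₀ : K₀ ≃+* K₀) hσA a) = G.π a)

include hσπ in
/-- `σ₀ ^ n ϖ = ϖ z_n` with `π z_n = (π ζ) ^ n`. -/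
theorem s33u_zeta_pow (ζ : (↥G.A)ˣ)
    (hζ : ((ζ : G.A) : K₀) = σ₀ ((G.ϖ : G.A) : K₀) / ((G.ϖ : G.A) : K₀)) (n : ℕ) :
    ∃ z : G.A, (σ₀ ^ n) ((G.ϖ : G.A) : K₀) = ((G.ϖ : G.A) : K₀) * (z : K₀) ∧
      G.π z = G.π (ζ : G.A) ^ n := by
  have hϖ0 : ((G.ϖ : G.A) : K₀) ≠ 0 := s18g_unifK_ne_zero G
  induction n with
  | zero => exact ⟨1, by simp, by simp⟩
  | succ n ih =>
    obtain ⟨z, hz, hπz⟩ := ih
    refine ⟨(ζ : G.A) * s34m_sigmaA G (σ₀ : K₀ ≃+* K₀) hσA z, ?_, ?_⟩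
    · rw [pow_succ', AlgEquiv.mul_apply, hz, map_mul]
      have e : σ₀ ((G.ϖ : G.A) : K₀) = ((G.ϖ : G.A) : K₀) * ((ζ : G.A) : K₀) := by
        rw [hζ]; field_simp
      rw [e]
      show _ = ((G.ϖ : G.A) : K₀) * (((ζ : G.A) : K₀) * (σ₀ : K₀ ≃+* K₀) (z : K₀))
      rw [mul_assoc]; rfl
    · rw [map_mul, hσπ, hπz, pow_succ']

include hσπ in
/-- The residue of `ζ = σ₀ϖ/ϖ` has finite order. -/
theorem s33u_zeta_finite_order [FiniteDimensional ℚ K₀] (ζ : (↥G.A)ˣ)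
    (hζ : ((ζ : G.A) : K₀) = σ₀ ((G.ϖ : G.A) : K₀) / ((G.ϖ : G.A) : K₀)) :
    ∃ N : ℕ, 0 < N ∧ G.π (ζ : G.A) ^ N = 1 := by
  have hfin : IsOfFinOrder σ₀ := isOfFinOrder_of_finite σ₀
  refine ⟨orderOf σ₀, hfin.orderOf_pos, ?_⟩
  obtain ⟨z, hz, hπz⟩ := s33u_zeta_pow G σ₀ hσA hσπ ζ hζ (orderOf σ₀)
  rw [pow_orderOf_eq_one, AlgEquiv.one_apply] at hz
  have hϖ0 : ((G.ϖ : G.A) : K₀) ≠ 0 := s18g_unifK_ne_zero G
  have hz1 : (z : K₀) = 1 := by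
    have := mul_left_cancel₀ hϖ0 ((mul_one _).trans hz)
    exact this.symm
  have : z = 1 := Subtype.ext hz1
  rw [← hπz, this, map_one]


/-- Integer powers of a unit of a valuation subring. -/
theorem s33u_zpow_mem_val {F : Type*} [Field F] (V : ValuationSubring F) (x : F) (hx : x ∈ V)
    (hx' : x⁻¹ ∈ V) (r : ℤ) : x ^ r ∈ V := by
  rcases r with r | r
  · rw [Int.ofNat_eq_natCast, zpow_natCast]; exact V.pow_mem hx r
  · rw [zpow_negSucc, ← inv_pow]; exact V.pow_mem hx' _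

/-- A root of unity of `q`-power order in characteristic `q` is trivial. -/
theorem s33u_pow_char_pow_eq_one (q : ℕ) [hq : Fact q.Prime] [CharP κ q] (e : ℕ) (X : κ)
    (h : X ^ q ^ e = 1) : X = 1 := by
  have h0 : (X - 1) ^ q ^ e = 0 := by rw [sub_pow_char_pow, h, one_pow, sub_self]
  exact sub_eq_zero.mp (pow_eq_zero_iff (pow_ne_zero e hq.out.ne_zero) |>.mp h0)

/-- Bezout: if `X ^ N = 1` in characteristic `q`, exponents can be corrected by multiples of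
`q ^ k`. -/
theorem s33u_exists_exponent (q : ℕ) [hq : Fact q.Prime] [CharP κ q] (k : ℕ) (X : κˣ)
    (N : ℕ) (hN0 : 0 < N) (hN : X ^ N = 1) (n₁ n₂ : ℤ) :
    ∃ r : ℤ, X ^ (n₂ + r * (q ^ k : ℕ)) = X ^ n₁ := by
  obtain ⟨e, N', hN'dvd, hNeq⟩ := Nat.exists_eq_pow_mul_and_not_dvd hN0.ne' q hq.out.ne_one
  have hX' : X ^ N' = 1 := by
    have h1 : ((X ^ N' : κˣ) : κ) ^ q ^ e = 1 := by
      rw [← Units.val_pow_eq_pow_val, ← pow_mul, mul_comm, ← hNeq, hN, Units.val_one]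
    exact Units.ext (s33u_pow_char_pow_eq_one q e _ h1)
  have hcop : IsCoprime ((q ^ k : ℕ) : ℤ) (N' : ℤ) :=
    Nat.isCoprime_iff_coprime.mpr
      (Nat.Coprime.pow_left k ((Nat.Prime.coprime_iff_not_dvd hq.out).mpr hN'dvd))
  obtain ⟨a, b, hab⟩ := hcop
  refine ⟨(n₁ - n₂) * a, ?_⟩
  have e1 : n₂ + (n₁ - n₂) * a * ((q ^ k : ℕ) : ℤ) = n₁ + (N' : ℤ) * (-((n₁ - n₂) * b)) := by
    linear_combination (n₁ - n₂) * hab
  rw [e1, zpow_add, zpow_mul, zpow_natCast, hX', one_zpow, mul_one]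


variable (φ : K₀ →+* Qbar) (M q : ℕ) [NeZero M] [NeZero q] (hq : q.Prime) (hqM : ¬ q ∣ M)
  (hσA' : ∀ a : K₀, a ∈ G.A → (σ₀.symm : K₀ ≃+* K₀) a ∈ G.A)

include hσA' hσπ in
/-- **Normalisation of the residue constants.**  For `f₀ ≠ 0` there is `t ≠ 0` such that the
residue constants of `σ(f₀ t ^ (q ^ k)) / (f₀ t ^ (q ^ k))` at `V_∞` and `V_0` agree. -/
theorem s33u_exists_normalise [FiniteDimensional ℚ K₀] [CharP κ q] (k : ℕ)
    (f₀ : s34m_F K₀ (M * q)) (hf₀ : f₀ ≠ 0) :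
    ∃ t : s34m_F K₀ (M * q), t ≠ 0 ∧ ∃ c₀ : (↥G.A)ˣ, ∀ i : Bool,
      ∃ z ∈ s34m_VV G φ M q hq hqM i,
        s33u_fd (arithmeticGalois (modularFunctionFieldFull (M * q)) σ₀) (f₀ * t ^ q ^ k) -
          s33u_cst G.A (c₀ : G.A) =
          algebraMap K₀ (s34m_F K₀ (M * q)) ((G.ϖ : G.A) : K₀) * z := by
  haveI : Fact q.Prime := ⟨hq⟩
  obtain ⟨ζ, hζ⟩ := s33u_exists_zeta G σ₀ hσA hσA' hσπ
  obtain ⟨N, hN0, hN⟩ := s33u_zeta_finite_order G σ₀ hσA hσπ ζ hζ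
  obtain ⟨nI, uI, huI, huI', eI⟩ := s34m_exists_zpow_VV G φ M q hq hqM true f₀ hf₀
  obtain ⟨n0, u0, hu0, hu0', e0⟩ := s34m_exists_zpow_VV G φ M q hq hqM false f₀ hf₀
  obtain ⟨h, u, hh0, hhI, hhI', hune, huV, huV', hhu⟩ := s33u_exists_approx G φ M q hq hqM
  have hXN : (Units.map (G.π : G.A →* κ) ζ) ^ N = 1 := by
    apply Units.ext
    rw [Units.val_pow_eq_pow_val, Units.val_one]
    exact hN
  obtain ⟨r, hr⟩ := s33u_exists_exponent q k (Units.map (G.π : G.A →* κ) ζ) N hN0 hXN nI n0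
  have hϖF0 : s34m_unif G (M * q) ≠ 0 := s34m_unif_ne_zero G (M * q)
  have huI0 : uI ≠ 0 := by
    rintro rfl
    exact hf₀ (eI.trans (mul_zero _))
  have hu00 : u0 ≠ 0 := by
    rintro rfl
    exact hf₀ (e0.trans (mul_zero _))
  refine ⟨h ^ r, zpow_ne_zero _ hh0, ζ ^ nI, ?_⟩
  intro i
  cases i
  · -- `V_0`
    have hdec : f₀ * (h ^ r) ^ q ^ k =
        s34m_unif G (M * q) ^ (n0 + r * (q ^ k : ℕ)) * (u0 * (u ^ r) ^ q ^ k) := by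
      rw [e0, hhu, mul_zpow, mul_pow, zpow_add₀ hϖF0, zpow_mul, zpow_natCast]
      ring
    have hur : u ^ r ∈ s34m_Vzero G φ M q hq hqM := s33u_zpow_mem_val _ u huV huV' r
    have hur' : (u ^ r)⁻¹ ∈ s34m_Vzero G φ M q hq hqM := by
      rw [← zpow_neg]
      exact s33u_zpow_mem_val _ u huV huV' (-r)
    have hU : u0 * (u ^ r) ^ q ^ k ∈ s34m_VV G φ M q hq hqM false :=
      mul_mem hu0 (pow_mem hur _)
    have hU' : (u0 * (u ^ r) ^ q ^ k)⁻¹ ∈ s34m_VV G φ M q hq hqM false := by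
      rw [mul_inv, ← inv_pow]
      exact mul_mem hu0' (pow_mem hur' _)
    have hU0 : u0 * (u ^ r) ^ q ^ k ≠ 0 :=
      mul_ne_zero hu00 (pow_ne_zero _ (zpow_ne_zero _ hune))
    obtain ⟨z, hz, e⟩ := s33u_fd_VV_of_decomp G φ M q hq hqM σ₀ hσA hσA' hσπ false ζ hζ
      (n0 + r * (q ^ k : ℕ)) _ hU hU' hU0
    -- compare the constants
    have hπ : G.π (((ζ ^ (n0 + r * (q ^ k : ℕ)) : (↥G.A)ˣ) : G.A) -
        ((ζ ^ nI : (↥G.A)ˣ) : G.A)) = 0 := by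
      have h1 := congrArg (fun x : κˣ => (x : κ)) hr
      simp only [← map_zpow] at h1
      rw [map_sub]
      exact sub_eq_zero.mpr h1
    obtain ⟨w, hw⟩ := (G.π_eq_zero_iff _).mp hπ
    refine ⟨z + s33u_cst G.A w, add_mem hz
      (s34c_const_mem_VV G φ M q hq hqM false w), ?_⟩
    rw [hdec]
    have hw' : (s33u_cst G.A ((ζ ^ (n0 + r * (q ^ k : ℕ)) : (↥G.A)ˣ) : G.A) :
        s34m_F K₀ (M * q)) - s33u_cst G.A ((ζ ^ nI : (↥G.A)ˣ) : G.A) =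
        algebraMap K₀ (s34m_F K₀ (M * q)) ((G.ϖ : G.A) : K₀) * s33u_cst G.A w := by
      rw [← s33u_cst_sub, hw, s33u_cst_mul]; rfl
    have e' : s33u_fd (arithmeticGalois (modularFunctionFieldFull (M * q)) σ₀)
          (s34m_unif G (M * q) ^ (n0 + r * (q ^ k : ℕ)) * (u0 * (u ^ r) ^ q ^ k)) -
        s33u_cst G.A ((ζ ^ (n0 + r * (q ^ k : ℕ)) : (↥G.A)ˣ) : G.A) =
        algebraMap K₀ (s34m_F K₀ (M * q)) ((G.ϖ : G.A) : K₀) * z := e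
    linear_combination e' + hw'
  · -- `V_∞`
    have hdec : f₀ * (h ^ r) ^ q ^ k =
        s34m_unif G (M * q) ^ nI * (uI * (h ^ r) ^ q ^ k) := by
      rw [eI]; ring
    have hhr : h ^ r ∈ s34m_Vinf G (M * q) := s33u_zpow_mem_val _ h hhI hhI' r
    have hhr' : (h ^ r)⁻¹ ∈ s34m_Vinf G (M * q) := by
      rw [← zpow_neg]
      exact s33u_zpow_mem_val _ h hhI hhI' (-r)
    have hU : uI * (h ^ r) ^ q ^ k ∈ s34m_VV G φ M q hq hqM true :=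
      mul_mem huI (pow_mem hhr _)
    have hU' : (uI * (h ^ r) ^ q ^ k)⁻¹ ∈ s34m_VV G φ M q hq hqM true := by
      rw [mul_inv, ← inv_pow]
      exact mul_mem huI' (pow_mem hhr' _)
    have hU0 : uI * (h ^ r) ^ q ^ k ≠ 0 :=
      mul_ne_zero huI0 (pow_ne_zero _ (zpow_ne_zero _ hh0))
    obtain ⟨z, hz, e⟩ := s33u_fd_VV_of_decomp G φ M q hq hqM σ₀ hσA hσA' hσπ true ζ hζ
      nI _ hU hU' hU0
    refine ⟨z, hz, ?_⟩
    rw [hdec]
    exact e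

end Inst2


/-! ### The modular instance of [UNIP-K] -/

set_option maxHeartbeats 1600000 in
/-- **[UNIP-K], modular instance at level `M q`, residue characteristic `q`, `m = q ^ k`, on a chart
`S` with the S34 chart contract.**  `K₀` a number field, `G` a Gauss datum on `K₀` with residue
field of characteristic `q`, `σ₀` in the inertia group.  For `f₀ ≠ 0` in `𝓕_{K₀}(M q)` with
`q ^ k ∣ div f₀` and `K₀`-rational support on `S`: there are a unit `c₀` of `A` and `b ≠ 0` such that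
`F = (σ₀ f₀ / f₀) / (c₀ b ^ (q ^ k))` is `≡ 1` modulo `ϖ (V_∞ ⊓ V_0)` and has neither zeros nor poles
at the places of the chart through the closed points of its special fibre. -/
theorem s33u_nf_of_contract (M q : ℕ) [NeZero M] [NeZero q] (hq : q.Prime) (hqM : ¬ q ∣ M)
    (K₀ : Type) [Field K₀] [NumberField K₀] (φ : K₀ →+* Qbar)
    (κ : Type) [Field κ] [CharP κ q]
    (G : s18g_GaussData K₀ κ) [IsDiscreteValuationRing G.A]
    (σ₀ : K₀ ≃ₐ[ℚ] K₀)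
    (hσA : ∀ a : K₀, a ∈ G.A → (σ₀ : K₀ ≃+* K₀) a ∈ G.A)
    (hσA' : ∀ a : K₀, a ∈ G.A → (σ₀.symm : K₀ ≃+* K₀) a ∈ G.A)
    (hσπ : ∀ a : G.A, G.π (s34m_sigmaA G (σ₀ : K₀ ≃+* K₀) hσA a) = G.π a)
    (S : Set (Place K₀ (s34m_F K₀ (M * q))))
    (hC : s34f_ChartContract G.A (s34m_VV G φ M q hq hqM) (s34c_const_mem_VV G φ M q hq hqM) G.ϖ S
      (arithmeticGalois (modularFunctionFieldFull (M * q)) σ₀))
    (k : ℕ) (f₀ : s34m_F K₀ (M * q)) (hf₀ : f₀ ≠ 0)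
    (hdiv : ∀ Q : Place K₀ (s34m_F K₀ (M * q)), ((q ^ k : ℕ) : ℤ) ∣ Q.ord f₀)
    (hdeg : ∀ Q ∈ S, Q.ord f₀ ≠ 0 → Q.deg = 1) :
    ∃ (b : s34m_F K₀ (M * q)) (c₀ : (↥G.A)ˣ), b ≠ 0 ∧
      s33u_fd (arithmeticGalois (modularFunctionFieldFull (M * q)) σ₀) f₀ /
        (s33u_cst G.A (c₀ : G.A) * b ^ q ^ k) ≠ 0 ∧
      (∃ y ∈ s34x_infRing (s34m_VV G φ M q hq hqM),
        s33u_fd (arithmeticGalois (modularFunctionFieldFull (M * q)) σ₀) f₀ /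
          (s33u_cst G.A (c₀ : G.A) * b ^ q ^ k) - 1 =
          algebraMap K₀ (s34m_F K₀ (M * q)) ((G.ϖ : G.A) : K₀) * y) ∧
      ∀ 𝔫 : Ideal (s34x_ring (s34x_infRing (s34m_VV G φ M q hq hqM)) S), 𝔫.IsMaximal →
        s34x_const (s34x_infRing (s34m_VV G φ M q hq hqM)) S ((G.ϖ : G.A) : K₀)
          (s34x_inf_const_mem (s34m_VV G φ M q hq hqM) G.A (s34c_const_mem_VV G φ M q hq hqM)
            G.ϖ) ∈ 𝔫 →
        ∀ Q ∈ S, s34f_through (s34x_infRing (s34m_VV G φ M q hq hqM)) S 𝔫 Q →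
          Q.ord (s33u_fd (arithmeticGalois (modularFunctionFieldFull (M * q)) σ₀) f₀ /
            (s33u_cst G.A (c₀ : G.A) * b ^ q ^ k)) = 0 := by
  classical
  haveI : Fact q.Prime := ⟨hq⟩
  have hirr : Irreducible G.ϖ := by
    have hker : RingHom.ker G.π = Ideal.span {G.ϖ} := by
      ext x
      rw [RingHom.mem_ker, G.π_eq_zero_iff, Ideal.mem_span_singleton]
    have hprime : (Ideal.span {G.ϖ}).IsPrime := hker ▸ RingHom.ker_isPrime G.π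
    exact ((Ideal.span_singleton_prime G.ϖ_ne_zero).mp hprime).irreducible
  set gσ : SemilinearAut K₀ (s34m_F K₀ (M * q)) :=
    arithmeticGalois (modularFunctionFieldFull (M * q)) σ₀ with hgσ
  have hsymm : ∀ y : s34m_F K₀ (M * q),
      arithmeticRingAut (modularFunctionFieldFull (M * q)) σ₀.symm (gσ • y) = y := by
    intro y
    have h1 : arithmeticGalois (modularFunctionFieldFull (M * q)) σ₀.symm • (gσ • y) = y := by
      rw [hgσ, ← mul_smul, ← map_mul]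
      have : σ₀.symm * σ₀ = 1 := by
        ext a
        exact σ₀.symm_apply_apply a
      rw [this, map_one, one_smul]
    exact h1
  obtain ⟨t, ht0, c₀, hnorm⟩ := s33u_exists_normalise G σ₀ hσA hσπ φ M q hq hqM hσA' k f₀ hf₀
  obtain ⟨a, ha0, hF0, hF1, hFQ⟩ := s33u_unip_chart_F_mul (ι := Bool) G.A
    (s34m_VV G φ M q hq hqM) (s34c_const_mem_VV G φ M q hq hqM) G.ϖ hirr
    (fun i => s34f_unif_not_unit_VV G φ M q hq hqM i)
    (fun i y => s34c_hU_VV G φ M q hq hqM i y) gσ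
    (fun i y => ⟨fun hy => s34m_galois_mem_VV G φ M q σ₀ hσA hσπ hq hqM i hy, fun hy => by
      have := s34m_galois_mem_VV G φ M q σ₀.symm hσA'
        (s34m_symm_res G σ₀ hσA hσA' hσπ) hq hqM i hy
      rw [hsymm] at this
      exact this⟩)
    (fun i y hy => s34m_galois_sub_mem_VV G φ M q σ₀ hσA hσπ hq hqM i hy)
    (fun i U hU => s33u_hfd_VV G φ M q hq hqM σ₀ hσA hσA' hσπ i U hU)
    S hC (q ^ k)
    (pow_ne_zero k hq.ne_zero) (fun c c' h => s33u_hroot G q k c c' h)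
    f₀ hf₀ hdiv hdeg t ht0 c₀ hnorm
  have hfdt0 : s33u_fd gσ t ≠ 0 := s33u_fd_ne_zero gσ ht0
  have hc0 := s33u_cst_unit_ne_zero (𝓕 := s34m_F K₀ (M * q)) G.A c₀
  have hfdf0 : s33u_fd gσ f₀ ≠ 0 := s33u_fd_ne_zero gσ hf₀
  have hrw : s33u_fd gσ (f₀ * t ^ q ^ k) / (s33u_cst G.A (c₀ : G.A) * a ^ q ^ k) =
      s33u_fd gσ f₀ / (s33u_cst G.A (c₀ : G.A) * (a / s33u_fd gσ t) ^ q ^ k) := by
    rw [s33u_fd_mul, s33u_fd_pow, div_pow]
    have h2 : s33u_fd gσ t ^ q ^ k ≠ 0 := pow_ne_zero _ hfdt0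
    have h3 : a ^ q ^ k ≠ 0 := pow_ne_zero _ ha0
    field_simp
  rw [hrw] at hF0 hF1 hFQ
  exact ⟨a / s33u_fd gσ t, c₀, div_ne_zero ha0 hfdt0, hF0, hF1, hFQ⟩

/-- **[UNIP-K], modular instance at level `M q`, `q ≥ 5`, on the chart `j ≠ ∞`.** -/
theorem s33u_nf (M q : ℕ) [NeZero M] [NeZero q] (hq : q.Prime) (hqM : ¬ q ∣ M) (h5 : 5 ≤ q)
    (K₀ : Type) [Field K₀] [NumberField K₀] (φ : K₀ →+* Qbar)
    (κ : Type) [Field κ] [CharP κ q] [PerfectField κ]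
    (G : s18g_GaussData K₀ κ) [IsDiscreteValuationRing G.A] (hπ : Function.Surjective G.π)
    (σ₀ : K₀ ≃ₐ[ℚ] K₀)
    (hσA : ∀ a : K₀, a ∈ G.A → (σ₀ : K₀ ≃+* K₀) a ∈ G.A)
    (hσA' : ∀ a : K₀, a ∈ G.A → (σ₀.symm : K₀ ≃+* K₀) a ∈ G.A)
    (hσπ : ∀ a : G.A, G.π (s34m_sigmaA G (σ₀ : K₀ ≃+* K₀) hσA a) = G.π a)
    (k : ℕ) (f₀ : s34m_F K₀ (M * q)) (hf₀ : f₀ ≠ 0)
    (hdiv : ∀ Q : Place K₀ (s34m_F K₀ (M * q)), ((q ^ k : ℕ) : ℤ) ∣ Q.ord f₀)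
    (hdeg : ∀ Q ∈ s18_chart1 (L₀ := K₀) (s18g_jF (K := K₀) (M * q)), Q.ord f₀ ≠ 0 → Q.deg = 1) :
    ∃ (b : s34m_F K₀ (M * q)) (c₀ : (↥G.A)ˣ), b ≠ 0 ∧
      s33u_fd (arithmeticGalois (modularFunctionFieldFull (M * q)) σ₀) f₀ /
        (s33u_cst G.A (c₀ : G.A) * b ^ q ^ k) ≠ 0 ∧
      (∃ y ∈ s34x_infRing (s34m_VV G φ M q hq hqM),
        s33u_fd (arithmeticGalois (modularFunctionFieldFull (M * q)) σ₀) f₀ /
          (s33u_cst G.A (c₀ : G.A) * b ^ q ^ k) - 1 =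
          algebraMap K₀ (s34m_F K₀ (M * q)) ((G.ϖ : G.A) : K₀) * y) ∧
      ∀ 𝔫 : Ideal (s34x_ring (s34x_infRing (s34m_VV G φ M q hq hqM))
          (s18_chart1 (L₀ := K₀) (s18g_jF (K := K₀) (M * q)))), 𝔫.IsMaximal →
        s34x_const (s34x_infRing (s34m_VV G φ M q hq hqM))
          (s18_chart1 (L₀ := K₀) (s18g_jF (K := K₀) (M * q))) ((G.ϖ : G.A) : K₀)
          (s34x_inf_const_mem (s34m_VV G φ M q hq hqM) G.A (s34c_const_mem_VV G φ M q hq hqM)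
            G.ϖ) ∈ 𝔫 →
        ∀ Q ∈ s18_chart1 (L₀ := K₀) (s18g_jF (K := K₀) (M * q)),
          s34f_through (s34x_infRing (s34m_VV G φ M q hq hqM))
            (s18_chart1 (L₀ := K₀) (s18g_jF (K := K₀) (M * q))) 𝔫 Q →
          Q.ord (s33u_fd (arithmeticGalois (modularFunctionFieldFull (M * q)) σ₀) f₀ /
            (s33u_cst G.A (c₀ : G.A) * b ^ q ^ k)) = 0 := by
  have hdegN : s18g_HDeg K₀ (M * q) := fun n b hb hn => s18g_exists_relation (M * q) φ hn b hb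
  haveI : FFGen K₀ (s18g_jF (K := K₀) (M * q)) := s18b_ffGen_jF (M * q) hdegN
  obtain ⟨h1, -⟩ := s34df_contract_five M q hq hqM h5 K₀ φ κ G hπ
  have hC := s34f_chartContract_j1 G φ M q hq hqM (s34f_alpha_j G φ M q hq hqM) σ₀ h1
  exact s33u_nf_of_contract M q hq hqM K₀ φ κ G σ₀ hσA hσA' hσπ _ hC k f₀ hf₀ hdiv hdeg

end Fermat.Agent.Lib.S33
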