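/-
S33 programme P-AT-P, Stage 2, package [UNIP-K] (helper7), part 3: THE CONTRACT IS A THEOREM.

`s33u_unipK : 5 ≤ p → P.LiesOverPrime p → s33u_UnipK M p hp hpM P` (`UnipIface.lean`): the modular
instance `s33u_nf` (`UnipInst.lean`) + descent to number fields as in `s34q_kummerSS_of_nf`:
`L_f := L₁ ⊔ L₂`, `L₁` a finite field of definition of `f`, `L₂` a finite field over which the
support of `div f` is rational.
-/
import Fermat.Agent.Lib.S33.UnipIface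
import Fermat.Agent.Lib.S33.UnipInst
import Fermat.Agent.Lib.S34.RDescNF

set_option autoImplicit false
set_option linter.style.haveILetI false
set_option synthInstance.maxHeartbeats 400000

noncomputable section

namespace Fermat.Agent.Lib.S33

open AlgebraicCurve ModularCurve Polynomial Fermat.Agent.Lib.FF Fermat.Agent.Lib.S18
  Fermat.Agent.Lib.S34 Fermat.Agent.Lib.S37 Fermat.Agent.Lib.Frey IsLocalRing

local notation "Qbar" => AlgebraicClosure ℚ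
local notation "Γℚ" => (AlgebraicClosure ℚ ≃ₐ[ℚ] AlgebraicClosure ℚ)

/-- The function of the contract in terms of the first difference. -/
theorem s33u_F_eq {K₀ : Type*} [Field K₀] [Algebra ℚ K₀] (N : ℕ) [NeZero N] (σ₀ : K₀ ≃ₐ[ℚ] K₀)
    (m : ℕ) (f₀ : s34m_F K₀ N) (A₀ : ValuationSubring K₀) (c₀ : (↥A₀)ˣ) (b : s34m_F K₀ N) :
    s33u_F N σ₀ m f₀ (((c₀⁻¹ : (↥A₀)ˣ) : A₀) : K₀) b =
      s33u_fd (arithmeticGalois (modularFunctionFieldFull N) σ₀) f₀ /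
        (s33u_cst A₀ (c₀ : A₀) * b ^ m) := by
  have h1 : (algebraMap K₀ (s34m_F K₀ N) (((c₀⁻¹ : (↥A₀)ˣ) : A₀) : K₀)) =
      (s33u_cst A₀ (c₀ : A₀))⁻¹ := s33u_cst_unit_inv A₀ c₀
  rw [s33u_F, h1, s33u_fd]
  show _ * (arithmeticRingAut (modularFunctionFieldFull N) σ₀ f₀ / f₀) * _ =
    arithmeticRingAut (modularFunctionFieldFull N) σ₀ f₀ / f₀ / _
  rw [div_eq_mul_inv _ (s33u_cst A₀ (c₀ : A₀) * b ^ m), mul_inv]
  ring

set_option maxHeartbeats 1600000 in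
/-- **[UNIP-K]: the contract `s33u_UnipK` for `p ≥ 5`.** -/
theorem s33u_unipK (M p : ℕ) [NeZero M] [NeZero p] (hp : p.Prime) (hpM : ¬ p ∣ M) (h5 : 5 ≤ p)
    (P : ValuationSubring Qbar) (hP : P.LiesOverPrime p) : s33u_UnipK M p hp hpM P := by
  classical
  haveI : Fact p.Prime := ⟨hp⟩
  haveI := s34q_isAlgClosure_bar
  haveI : Normal ℚ Qbar := IsAlgClosure.normal ℚ Qbar
  intro k f hf hdiv
  obtain ⟨L₁, hfd₁, hL₁⟩ := s18q_exists_field (M * p) {f}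
  obtain ⟨L₂, hfd₂, hL₂⟩ := s34q_exists_field_rat (M * p) f hf
  refine ⟨L₁ ⊔ L₂, inferInstance, ?_⟩
  intro L₀ hle hfd₀ hnorm hdvr ϖ hϖ
  have hL₁₀ : L₁ ≤ L₀ := le_trans le_sup_left hle
  have hL₂₀ : L₂ ≤ L₀ := le_trans le_sup_right hle
  obtain ⟨f₀, hf₀⟩ := s18q_incl_range_mono (M * p) hL₁₀ (hL₁ f (Finset.mem_singleton_self f))
  refine ⟨f₀, hf₀, ?_⟩
  intro σ hσ
  have hf₀0 : f₀ ≠ 0 := by
    rintro rfl
    exact hf (by rw [← hf₀, map_zero])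
  haveI hnf : NumberField ↥L₀ := ⟨⟩
  haveI : Algebra.IsAlgebraic ℚ ↥L₀ := Algebra.IsAlgebraic.of_finite ℚ ↥L₀
  -- the Gauss datum
  set G : s18g_GaussData ↥L₀ (ResidueField ↥(s18q_A0 P L₀)) := s37r_G P L₀ ϖ hϖ with hG
  haveI hdvrG : IsDiscreteValuationRing G.A := hdvr
  have hpA₀ : ((p : ℕ) : ↥L₀) ∈ (s18q_A0 P L₀).nonunits := by
    show ((p : ℕ) : ↥L₀) ∈ (P.comap (algebraMap ↥L₀ Qbar)).nonunits
    rw [s34q_mem_nonunits_comap, map_natCast]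
    exact hP
  haveI hchar : CharP (ResidueField ↥(s18q_A0 P L₀)) p :=
    s18x_charP_residueField (s18q_A0 P L₀) hp hpA₀
  haveI hperf : PerfectField (ResidueField ↥(s18q_A0 P L₀)) :=
    s18x_perfectField_residue (s18q_A0 P L₀) hp hpA₀
  -- the automorphism
  let σ₀ : ↥L₀ ≃ₐ[ℚ] ↥L₀ := σ.restrictNormal ↥L₀
  have hσ₀ : ∀ a : ↥L₀, algebraMap ↥L₀ Qbar (σ₀ a) = σ (algebraMap ↥L₀ Qbar a) :=
    fun a => AlgEquiv.restrictNormal_commutes σ ↥L₀ a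
  obtain ⟨hD, hI⟩ := ford_inertia_spec P σ hσ
  have hDinv : σ⁻¹ ∈ P.decompositionSubgroup ℚ := inv_mem hD
  have hσiff : ∀ a : ↥L₀, σ₀ a ∈ s18q_A0 P L₀ ↔ a ∈ s18q_A0 P L₀ := by
    intro a
    show σ₀ a ∈ P.comap (algebraMap ↥L₀ Qbar) ↔ a ∈ P.comap (algebraMap ↥L₀ Qbar)
    rw [ValuationSubring.mem_comap, ValuationSubring.mem_comap, hσ₀]
    constructor
    · intro h
      have h2 := ford_decomposition_mem P σ⁻¹ hDinv _ h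
      have h3 : σ⁻¹ (σ (algebraMap ↥L₀ Qbar a)) = algebraMap ↥L₀ Qbar a :=
        σ.symm_apply_apply _
      rwa [h3] at h2
    · exact ford_decomposition_mem P σ hD _
  have hσres : ∀ a ∈ s18q_A0 P L₀, σ₀ a - a ∈ (s18q_A0 P L₀).nonunits := by
    intro a ha
    show σ₀ a - a ∈ (P.comap (algebraMap ↥L₀ Qbar)).nonunits
    rw [s34q_mem_nonunits_comap, map_sub, hσ₀]
    exact hI _ ha
  have hσA : ∀ a : ↥L₀, a ∈ G.A → (σ₀ : ↥L₀ ≃+* ↥L₀) a ∈ G.A := fun a ha => (hσiff a).mpr ha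
  have hσA' : ∀ a : ↥L₀, a ∈ G.A → (σ₀.symm : ↥L₀ ≃+* ↥L₀) a ∈ G.A := by
    intro a ha
    have := hσiff (σ₀.symm a)
    rw [σ₀.apply_symm_apply] at this
    exact this.mp ha
  have hσπ : ∀ a : G.A, G.π (s34m_sigmaA G (σ₀ : ↥L₀ ≃+* ↥L₀) hσA a) = G.π a := by
    intro a
    have hsub := hσres (a : ↥L₀) a.2
    obtain ⟨hmem, hmax⟩ := ((s18q_A0 P L₀).mem_nonunits_iff_exists_mem_maximalIdeal).mp hsub
    have e : s34m_sigmaA G (σ₀ : ↥L₀ ≃+* ↥L₀) hσA a - a = (⟨σ₀ (a : ↥L₀) - a, hmem⟩ : G.A) :=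
      Subtype.ext rfl
    have h0 : G.π (s34m_sigmaA G (σ₀ : ↥L₀ ≃+* ↥L₀) hσA a - a) = 0 := by
      rw [e]
      exact (residue_eq_zero_iff _).mpr hmax
    rw [map_sub, sub_eq_zero] at h0
    exact h0
  -- divisibility and rationality over `L₀`
  have hdiv₀ : ∀ Q : Place ↥L₀ (s34m_F ↥L₀ (M * p)), ((p ^ k : ℕ) : ℤ) ∣ Q.ord f₀ :=
    s18q_dvd_ord_descend (M * p) L₀ ((p ^ k : ℕ) : ℤ) f₀ (fun Q => by rw [hf₀]; exact hdiv Q)
  have hrat : ∀ Q : Place ↥L₀ (s34m_F ↥L₀ (M * p)), Q.ord f₀ ≠ 0 → Q.deg = 1 :=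
    hL₂ L₀ hL₂₀ f₀ hf₀
  obtain ⟨b, c₀, hb0, -, hF1, hFQ⟩ := s33u_nf M p hp hpM h5 ↥L₀ (algebraMap ↥L₀ Qbar)
    (ResidueField ↥(s18q_A0 P L₀)) G residue_surjective σ₀ hσA hσA' hσπ k f₀ hf₀0 hdiv₀
    (fun Q _ => hrat Q)
  refine ⟨(((c₀⁻¹ : (↥G.A)ˣ) : G.A) : ↥L₀), b, ?_, hb0, ?_⟩
  · intro h0
    have h1 : ((c₀⁻¹ : (↥G.A)ˣ) : G.A) = 0 := Subtype.ext h0
    exact (c₀⁻¹).ne_zero h1
  · rw [s33u_F_eq (M * p) σ₀ (p ^ k) f₀ G.A c₀ b]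
    exact ⟨hF1, hFQ⟩

end Fermat.Agent.Lib.S33
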