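/-
S33 programme P-AT-P, Stage 2, package [UNIP-K] (helper7): THE CONTRACT `s33u_UnipK`.

`s33u_UnipK M p hp hpM P` (level `N = M p`, `p ∤ M`, `P ⊆ ℚ̄` a valuation subring over `p`):

  for every `k` and every `f ≠ 0` in `F_ℚ̄(N)` with `p ^ k ∣ div f` there is a FINITE `L_f ≤ ℚ̄` such that
  for every finite normal `L₀ ⊇ L_f` (with `A₀ = P ∩ L₀` a DVR, `ϖ` a uniformiser of `A₀`,
  `G = s37r_G P L₀ ϖ hϖ = ofResidue A₀ ϖ hϖ`, `φ = algebraMap L₀ ℚ̄`): `f` has a model `f₀` over `L₀`, and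
  for every `σ` in the inertia group of `P` there are a constant `c ≠ 0` of `L₀` and `a ≠ 0` in
  `F_{L₀}(N)` such that `F := c · (σ₀ f₀ / f₀) · (a ^ (p ^ k))⁻¹` (`σ₀ = σ|L₀`) satisfies
  (ii)  `F - 1 ∈ ϖ (V_∞ ⊓ V_0)`, and
  (iii) `ord_Q F = 0` at every place `Q` of the chart `j ≠ ∞` through a closed point `𝔫 ∋ ϖ` of the
        chart ring `B₁ = s34x_ring (V_∞ ⊓ V_0) (s18_chart1 j)` (nodes included).

The theorem `s33u_unipK : 5 ≤ p → P.LiesOverPrime p → s33u_UnipK M p hp hpM P` is in `UnipK.lean`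
(from `s33u_nf`, `UnipInst.lean`, by descent to number fields).
-/
import Fermat.Agent.Lib.S34.FAssembly
import Fermat.Agent.Lib.S34.CChart
import Fermat.Agent.Lib.S37.RTop

set_option autoImplicit false
set_option linter.style.haveILetI false
set_option synthInstance.maxHeartbeats 400000

noncomputable section

namespace Fermat.Agent.Lib.S33

open AlgebraicCurve ModularCurve Polynomial Fermat.Agent.Lib.FF Fermat.Agent.Lib.S18
  Fermat.Agent.Lib.S34 Fermat.Agent.Lib.S37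

local notation "Qbar" => AlgebraicClosure ℚ
local notation "Γℚ" => (AlgebraicClosure ℚ ≃ₐ[ℚ] AlgebraicClosure ℚ)

/-- The function `F = c · (σ₀ f₀ / f₀) · (a ^ m)⁻¹` of the contract. -/
def s33u_F {K₀ : Type*} [Field K₀] [Algebra ℚ K₀] (N : ℕ) [NeZero N] (σ₀ : K₀ ≃ₐ[ℚ] K₀) (m : ℕ)
    (f₀ : s34m_F K₀ N) (c : K₀) (a : s34m_F K₀ N) : s34m_F K₀ N :=
  algebraMap K₀ (s34m_F K₀ N) c *
    (arithmeticRingAut (modularFunctionFieldFull N) σ₀ f₀ / f₀) * (a ^ m)⁻¹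

/-- (ii) + (iii) of the contract for a function `F` of `F_{K₀}(M p)` w.r.t. a Gauss datum `G`. -/
def s33u_Unip {K₀ : Type*} [Field K₀] [Algebra ℚ K₀] {κ : Type*} [Field κ]
    (G : s18g_GaussData K₀ κ) (φ : K₀ →+* Qbar) (M p : ℕ) [NeZero M] [NeZero p] (hp : p.Prime)
    (hpM : ¬ p ∣ M) (F : s34m_F K₀ (M * p)) : Prop :=
  (∃ y ∈ s34x_infRing (s34m_VV G φ M p hp hpM), F - 1 = s34m_unif G (M * p) * y) ∧
  ∀ 𝔫 : Ideal (s34x_ring (s34x_infRing (s34m_VV G φ M p hp hpM))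
      (s18_chart1 (L₀ := K₀) (s18g_jF (K := K₀) (M * p)))), 𝔫.IsMaximal →
    s34x_const (s34x_infRing (s34m_VV G φ M p hp hpM))
      (s18_chart1 (L₀ := K₀) (s18g_jF (K := K₀) (M * p))) ((G.ϖ : G.A) : K₀)
      (s34x_inf_const_mem (s34m_VV G φ M p hp hpM) G.A (s34c_const_mem_VV G φ M p hp hpM)
        G.ϖ) ∈ 𝔫 →
    ∀ Q ∈ s18_chart1 (L₀ := K₀) (s18g_jF (K := K₀) (M * p)),
      s34f_through (s34x_infRing (s34m_VV G φ M p hp hpM))
        (s18_chart1 (L₀ := K₀) (s18g_jF (K := K₀) (M * p))) 𝔫 Q → Q.ord F = 0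

/-- **The contract [UNIP-K].** -/
def s33u_UnipK (M p : ℕ) [NeZero M] [NeZero p] (hp : p.Prime) (hpM : ¬ p ∣ M)
    (P : ValuationSubring Qbar) : Prop :=
  ∀ (k : ℕ) (f : modularFunctionFieldBar (M * p)), f ≠ 0 →
    (∀ Q : Place Qbar (modularFunctionFieldBar (M * p)), ((p ^ k : ℕ) : ℤ) ∣ Q.ord f) →
    ∃ Lf : IntermediateField ℚ Qbar, FiniteDimensional ℚ Lf ∧
      ∀ L₀ : IntermediateField ℚ Qbar, Lf ≤ L₀ → ∀ [FiniteDimensional ℚ L₀] [Normal ℚ L₀]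
        [IsDiscreteValuationRing ↥(s18q_A0 P L₀)] (ϖ : ↥(s18q_A0 P L₀)) (hϖ : Irreducible ϖ),
        ∃ f₀ : s34m_F ↥L₀ (M * p), s18q_incl (M * p) L₀ f₀ = f ∧
          ∀ σ : Γℚ, σ ∈ P.inertiaSubgroupIn ℚ →
            ∃ (c : ↥L₀) (a : s34m_F ↥L₀ (M * p)), c ≠ 0 ∧ a ≠ 0 ∧
              s33u_Unip (s37r_G P L₀ ϖ hϖ) (algebraMap ↥L₀ Qbar) M p hp hpM
                (s33u_F (M * p) (σ.restrictNormal ↥L₀) (p ^ k) f₀ c a)

end Fermat.Agent.Lib.S33
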