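/-
S33 programme P-AT-P, Stage 2, package [UNIP-K] (helper7), part 4: the bridge from (iii) of the
contract `s33u_Unip` to helper8's node places (`s33s_nodePlaces`, `SSPlace.lean`): a function with
`s33u_Unip` has neither zeros nor poles at the node places of chart 1 of `j` — the hypothesis `hnode`
of helper4's `s33y_muSs_five` for `Z.N = ` the node places.
-/
import Fermat.Agent.Lib.S33.UnipIface
import Fermat.Agent.Lib.S33.SSPlace

set_option autoImplicit false
set_option linter.style.haveILetI false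
set_option synthInstance.maxHeartbeats 400000

noncomputable section

namespace Fermat.Agent.Lib.S33

open AlgebraicCurve ModularCurve Polynomial Fermat.Agent.Lib.FF Fermat.Agent.Lib.S18
  Fermat.Agent.Lib.S34

local notation "Qbar" => AlgebraicClosure ℚ

variable {K₀ : Type*} [Field K₀] [Algebra ℚ K₀] {κ : Type*} [Field κ]
  (G : s18g_GaussData K₀ κ) (φ : K₀ →+* Qbar) (M p : ℕ) [NeZero M] [NeZero p] (hp : p.Prime)
  (hpM : ¬ p ∣ M)

/-- (ii) of `s33u_Unip` in the two-valuation form. -/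
theorem s33u_Unip.cong {F : s34m_F K₀ (M * p)} (h : s33u_Unip G φ M p hp hpM F) :
    ∃ y : s34m_F K₀ (M * p), y ∈ s34m_Vinf G (M * p) ∧ y ∈ s34m_Vzero G φ M p hp hpM ∧
      F - 1 = s34m_unif G (M * p) * y := by
  obtain ⟨⟨y, hy, e⟩, -⟩ := h
  have hy' := (s34x_mem_infRing (s34m_VV G φ M p hp hpM) y).mp hy
  exact ⟨y, hy' true, hy' false, e⟩

/-- (iii) of `s33u_Unip` at the node places. -/
theorem s33u_Unip.node {F : s34m_F K₀ (M * p)} (h : s33u_Unip G φ M p hp hpM F) :
    ∀ Q ∈ s33s_nodePlaces (s34m_VV G φ M p hp hpM) (s34m_unif G (M * p))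
      (s18_chart1 (L₀ := K₀) (s18g_jF (K := K₀) (M * p))), Q.ord F = 0 := by
  rintro Q ⟨hQS, 𝔫, ⟨hmax, htrue, -⟩, hth⟩
  refine h.2 𝔫 hmax (htrue ?_) Q hQS hth
  rw [s33s_mem_comp]
  exact ⟨1, (s34m_VV G φ M p hp hpM true).one_mem, by
    rw [mul_one]; rfl⟩

end Fermat.Agent.Lib.S33
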