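/-
P-AT-P programme (S33), Stage 2, brick [UNIP-J] (helper1): THE J-SIDE WRAPPER OF [UNIP-K]
= helper3's CONTRACT 1 (`s33t_UnipJ`, `TPFinal.lean`), GENERIC in the family `N` of node places.

* `s33u_NodeFam M p P`  : a set of places of `𝓕_{L₀}(M p)` for every `(L₀, ϖ)` (same type as helper3's
  `s33t_NodeFam M p P`);
* `s33u_UnipN … 𝒩 F`    : the **unipotent normal form** of `F` relative to a set `𝒩` of places:
  (ii) `F ≡ 1 mod ϖ V_∞` and `mod ϖ V_0` (helper7's `s33u_One`), (iii) `ord_Q F = 0` for `Q ∈ 𝒩`;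
* `s33u_UnipKN M p hpM P N` : the contract [UNIP-K] relative to the family `N` (σ quantified first);
  `s33u_unipKN_of_unipK`  : helper7's `s33u_UnipK` ⇒ `s33u_UnipKN` for the node places of chart 1 of `j`;
* algebra of Kummer generators (`s33d_kumGen_one/_prod/_inv/_pow`, `s33d_isKumGen_galois_gen`);
* `s33u_good_of_mem`    : [UNIP-K] ⇒ every `x` in helper3's `s33_J1 (M p) p P` is `Good` (closure induction);
* `s33u_dev_final`      : over ONE number field `L₀` with the datum of helper4's `s33y_Ci`, `s33y_Cz`: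
  a `p ^ k`-Kummer generator `F` in unipotent normal form of a class `x` with `p • x = 0` yields a
  `p`-Kummer generator `h` of `x` over `L₀` with `h ≡ 1 mod ϖ` on BOTH components and `ord_Q h = 0` on `𝒩`;
* **`s33u_unipJ_gen`**  : `s33u_UnipKN M p hpM P N` ⇒ the body of helper3's `s33t_UnipJ M p hpM P N`;
* **`s33u_unipJ_five`** : for `5 ≤ p` the body of `s33t_UnipJ M p hpM P (s33t_nodeN M p hpM P)`, from helper7's
  theorem `s33u_unipK`.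
-/
import Fermat.Agent.Lib.S33.UnipK
import Fermat.Agent.Lib.S33.UnipNode
import Fermat.Agent.Lib.S33.UnipDev
import Fermat.Agent.Lib.S33.UMJIface
import Fermat.Agent.Lib.S33.SsComp
import Fermat.Agent.Lib.S33.DescBig
import Fermat.Agent.Lib.S34.RDegH

set_option autoImplicit false
set_option linter.style.haveILetI false
set_option linter.unusedSectionVars false
set_option synthInstance.maxHeartbeats 400000

noncomputable section

namespace Fermat.Agent.Lib.S33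

open ModularCurve HahnSeries AlgebraicCurve Fermat.Agent.Lib.S18 Fermat.Agent.Lib.S37
  Fermat.Agent.Lib.FF Fermat.Agent.Lib.S34

local notation "Kb" => AlgebraicClosure ℚ
local notation "Γℚ" => (AlgebraicClosure ℚ ≃ₐ[ℚ] AlgebraicClosure ℚ)

/-! ### Algebra of Kummer generators -/

section KumGenAlg

variable {K F : Type*} [Field K] [Field F] [Algebra K F]

theorem s33d_kumGen_one (m : ℕ) : s33d_IsKumGen m (0 : Pic0 K F) (1 : F) :=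
  ⟨one_ne_zero, 0, rfl, fun v => by simp⟩

theorem s33d_kumGen_prod {m : ℕ} {z₁ z₂ : Pic0 K F} {f₁ f₂ : F}
    (h₁ : s33d_IsKumGen m z₁ f₁) (h₂ : s33d_IsKumGen m z₂ f₂) :
    s33d_IsKumGen m (z₁ + z₂) (f₁ * f₂) := by
  obtain ⟨hf₁, D₁, rfl, hD₁⟩ := h₁
  obtain ⟨hf₂, D₂, rfl, hD₂⟩ := h₂
  refine ⟨mul_ne_zero hf₁ hf₂, D₁ + D₂, map_add (QuotientAddGroup.mk' _) D₁ D₂, fun v => ?_⟩
  rw [v.ord_mul hf₁ hf₂, hD₁ v, hD₂ v, AddSubgroup.coe_add, Finsupp.add_apply]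
  ring

theorem s33d_kumGen_inv {m : ℕ} {z : Pic0 K F} {f : F} (h : s33d_IsKumGen m z f) :
    s33d_IsKumGen m (-z) f⁻¹ := by
  obtain ⟨hf, D, rfl, hD⟩ := h
  refine ⟨inv_ne_zero hf, -D, map_neg (QuotientAddGroup.mk' _) D, fun v => ?_⟩
  rw [v.ord_inv, hD v, AddSubgroup.coe_neg, Finsupp.neg_apply]
  ring

theorem s33d_kumGen_pow {m : ℕ} {z : Pic0 K F} {f : F} (h : s33d_IsKumGen m z f) (n : ℕ) :
    s33d_IsKumGen (m * n) z (f ^ n) := by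
  obtain ⟨hf, D, rfl, hD⟩ := h
  refine ⟨pow_ne_zero n hf, D, rfl, fun v => ?_⟩
  rw [s33d_ord_pow, hD v]
  push_cast
  ring

/-- the class of a Kummer generator is killed by the exponent. -/
theorem s33d_kumGen_tors {m : ℕ} {z : Pic0 K F} {f : F} (h : s33d_IsKumGen m z f) : m • z = 0 := by
  obtain ⟨hf, D, rfl, hD⟩ := h
  have h1 : Pic0.mk (m • D) = m • Pic0.mk D := map_nsmul (QuotientAddGroup.mk' _) m D
  rw [← h1]
  refine (QuotientAddGroup.eq_zero_iff (m • D)).mpr ⟨f, hf, fun v => ?_⟩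
  show ((m • D : Divisor.degZero (K := K) (F := F)) : Divisor K F) v = v.ord f
  rw [hD v, AddSubgroupClass.coe_nsmul, Finsupp.smul_apply, nsmul_eq_mul]

end KumGenAlg

/-- for `L₀ / ℚ` normal, `σ|_{L₀}` applied coefficientwise to a Kummer generator (of any exponent) of
`z` is a Kummer generator of `σ • z`. -/
theorem s33d_isKumGen_galois_gen (N : ℕ) [NeZero N] (m : ℕ) (L₀ : IntermediateField ℚ Kb)
    [Normal ℚ ↥L₀] (σ : Γℚ) {z : JZero N}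
    {f₀ : ↥(laurentBaseChange ↥L₀ (modularFunctionFieldFull N))}
    (h : s33d_IsKumGen m z (s18q_incl N L₀ f₀)) :
    s33d_IsKumGen m (σ • z)
      (s18q_incl N L₀ (arithmeticRingAut (modularFunctionFieldFull N) (σ.restrictNormal ↥L₀) f₀)) := by
  have h1 := s33d_kumGen_smul (arithmeticGalois (modularFunctionFieldFull N) σ) h
  have h2 := s33d_smul_incl_normal (modularFunctionFieldFull N) L₀ σ f₀
  have h3 : arithmeticGalois (modularFunctionFieldFull N) σ • s18q_incl N L₀ f₀ =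
      s18q_incl N L₀ (arithmeticRingAut (modularFunctionFieldFull N) (σ.restrictNormal ↥L₀) f₀) := h2
  rw [h3] at h1
  exact h1

/-! ### The normal form relative to a set of places, and the contract relative to a node family -/

section NormalForm

variable {K₀ : Type} [Field K₀] [CharZero K₀] [Algebra ℚ K₀] {κ : Type} [Field κ]
  (G : s18g_GaussData K₀ κ)
variable (φ : K₀ →+* Kb) (M p : ℕ) [NeZero M] [hp : Fact p.Prime] (hpM : ¬ p ∣ M)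
variable (𝒩 : Set (Place K₀ (s34m_F K₀ (M * p))))

/-- **The unipotent normal form relative to `𝒩`**: `F ≡ 1` modulo `ϖ` on both components of the special
fibre, and `F` has neither zeros nor poles at the places of `𝒩`. -/
def s33u_UnipN (F : s34m_F K₀ (M * p)) : Prop :=
  (∀ i : Bool, s33u_One (s34m_VV G φ M p hp.out hpM i) (s34m_unif G (M * p)) F) ∧
  ∀ Q ∈ 𝒩, Q.ord F = 0

theorem s33u_unif_nonunit_VV (i : Bool) :
    ¬ ∃ y ∈ s34m_VV G φ M p hp.out hpM i, (1 : s34m_F K₀ (M * p)) = s34m_unif G (M * p) * y := by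
  cases i
  · exact s33y_unif_nonunit_zero G φ M p hpM
  · exact s33y_unif_nonunit_inf G (M * p)

theorem s33u_UnipN.one : s33u_UnipN G φ M p hpM 𝒩 1 :=
  ⟨fun _ => s33u_One.one, fun Q _ => Q.ord_one⟩

/-- helper7's normal form (chart 1 of `j`, all closed points) implies the normal form relative to the
node places of chart 1 of `j`. -/
theorem s33u_unipN_of_unip {F : s34m_F K₀ (M * p)} (h : s33u_Unip G φ M p hp.out hpM F) :
    s33u_UnipN G φ M p hpM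
      (s33s_nodePlaces (s34m_VV G φ M p hp.out hpM) (s34m_unif G (M * p))
        (s18_chart1 (L₀ := K₀) (s18g_jF (K := K₀) (M * p)))) F := by
  refine ⟨fun i => ?_, s33u_Unip.node G φ M p hp.out hpM h⟩
  obtain ⟨⟨y, hy, e⟩, -⟩ := h
  exact ⟨y, (s34x_mem_infRing (s34m_VV G φ M p hp.out hpM) y).mp hy i, e⟩

variable {G φ M p hpM 𝒩}

theorem s33u_UnipN.ne_zero {F : s34m_F K₀ (M * p)} (h : s33u_UnipN G φ M p hpM 𝒩 F) : F ≠ 0 :=
  (h.1 true).ne_zero (s33u_unif_nonunit_VV G φ M p hpM true)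

theorem s33u_UnipN.mul {F F' : s34m_F K₀ (M * p)} (h : s33u_UnipN G φ M p hpM 𝒩 F)
    (h' : s33u_UnipN G φ M p hpM 𝒩 F') : s33u_UnipN G φ M p hpM 𝒩 (F * F') := by
  refine ⟨fun i => (h.1 i).mul (s34m_unif_mem_VV G φ M p hp.out hpM i) (h'.1 i), fun Q hQ => ?_⟩
  rw [Q.ord_mul h.ne_zero h'.ne_zero, h.2 Q hQ, h'.2 Q hQ, add_zero]

theorem s33u_UnipN.inv {F : s34m_F K₀ (M * p)} (h : s33u_UnipN G φ M p hpM 𝒩 F) :
    s33u_UnipN G φ M p hpM 𝒩 F⁻¹ := by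
  refine ⟨fun i => (h.1 i).inv (s34m_unif_mem_VV G φ M p hp.out hpM i)
    (s33u_unif_nonunit_VV G φ M p hpM i), fun Q hQ => ?_⟩
  rw [Q.ord_inv, h.2 Q hQ, neg_zero]

theorem s33u_UnipN.pow {F : s34m_F K₀ (M * p)} (h : s33u_UnipN G φ M p hpM 𝒩 F) (n : ℕ) :
    s33u_UnipN G φ M p hpM 𝒩 (F ^ n) := by
  refine ⟨fun i => (h.1 i).pow (s34m_unif_mem_VV G φ M p hp.out hpM i) n, fun Q hQ => ?_⟩
  rw [s33d_ord_pow, h.2 Q hQ, mul_zero]

end NormalForm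

section Contracts

variable (M p : ℕ) [NeZero M] [hp : Fact p.Prime] (hpM : ¬ p ∣ M) (P : ValuationSubring Kb)

/-- the type of a family of "node places" (the same type as helper3's `s33t_NodeFam M p P`). -/
abbrev s33u_NodeFam : Type :=
  ∀ (L₀ : IntermediateField ℚ Kb) [IsDiscreteValuationRing ↥(s18q_A0 P L₀)]
    (ϖ : ↥(s18q_A0 P L₀)) (_ : Irreducible ϖ), Set (Place ↥L₀ (s34m_F ↥L₀ (M * p)))

/-- the node places of chart 1 of `j` (the same as helper3's `s33t_nodeN M p hpM P`). -/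
def s33u_nodeJ : s33u_NodeFam M p P := fun L₀ _ ϖ hϖ =>
  s33s_nodePlaces (s34m_VV (s37r_G P L₀ ϖ hϖ) (algebraMap ↥L₀ Kb) M p hp.out hpM)
    (s34m_unif (s37r_G P L₀ ϖ hϖ) (M * p)) (s18_chart1 (L₀ := ↥L₀) (s18g_jF (K := ↥L₀) (M * p)))

variable (N : s33u_NodeFam M p P)

/-- **Contract [UNIP-K] relative to a family `N` of node places.** -/
def s33u_UnipKN : Prop :=
  ∀ (k : ℕ) (f : ffi_F (M * p)), f ≠ 0 →
    (∀ v : Place Kb (ffi_F (M * p)), ((p ^ k : ℕ) : ℤ) ∣ v.ord f) →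
    ∀ σ : Γℚ, σ ∈ P.inertiaSubgroupIn ℚ →
    ∃ Lf : IntermediateField ℚ Kb, FiniteDimensional ℚ ↥Lf ∧
      ∀ (L₀ : IntermediateField ℚ Kb) [FiniteDimensional ℚ ↥L₀] [Normal ℚ ↥L₀]
        [IsDiscreteValuationRing ↥(s18q_A0 P L₀)] (ϖ : ↥(s18q_A0 P L₀)) (hϖ : Irreducible ϖ),
        Lf ≤ L₀ →
        ∃ f₀ : s34m_F ↥L₀ (M * p), s18q_incl (M * p) L₀ f₀ = f ∧
          ∃ (c : ↥L₀) (a : s34m_F ↥L₀ (M * p)), c ≠ 0 ∧ a ≠ 0 ∧
            s33u_UnipN (s37r_G P L₀ ϖ hϖ) (algebraMap ↥L₀ Kb) M p hpM (N L₀ ϖ hϖ)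
              (s33u_F (M * p) (σ.restrictNormal ↥L₀) (p ^ k) f₀ c a)

/-- helper7's contract implies the contract relative to the node places of chart 1 of `j`. -/
theorem s33u_unipKN_of_unipK (hK : s33u_UnipK M p hp.out hpM P) :
    s33u_UnipKN M p hpM P (s33u_nodeJ M p hpM P) := by
  intro k f hf hdiv σ hσ
  obtain ⟨Lf, hfd, H⟩ := hK k f hf hdiv
  refine ⟨Lf, hfd, fun L₀ _ _ _ ϖ hϖ hle => ?_⟩
  obtain ⟨f₀, e, H'⟩ := H L₀ hle ϖ hϖ
  obtain ⟨c, a, hc, ha, hU⟩ := H' σ hσ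
  exact ⟨f₀, e, c, a, hc, ha, s33u_unipN_of_unip _ _ M p hpM hU⟩

/-- **[UNIP-J], J-side**: `x ∈ J₀(M p)(ℚ̄)` has, over every big enough finite normal number field, a
`p ^ k`-Kummer generator in unipotent normal form. -/
def s33u_Good (x : JZero (M * p)) : Prop :=
  ∃ (k : ℕ) (Lx : IntermediateField ℚ Kb), FiniteDimensional ℚ ↥Lx ∧
    ∀ (L₀ : IntermediateField ℚ Kb) [FiniteDimensional ℚ ↥L₀] [Normal ℚ ↥L₀]
      [IsDiscreteValuationRing ↥(s18q_A0 P L₀)] (ϖ : ↥(s18q_A0 P L₀)) (hϖ : Irreducible ϖ),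
      Lx ≤ L₀ →
      ∃ F : s34m_F ↥L₀ (M * p), s33d_IsKumGen (p ^ k) x (s18q_incl (M * p) L₀ F) ∧
        s33u_UnipN (s37r_G P L₀ ϖ hϖ) (algebraMap ↥L₀ Kb) M p hpM (N L₀ ϖ hϖ) F

end Contracts

/-! ### [UNIP-K] ⇒ every element of `s33_J1` is `Good` -/

section Good

variable (M p : ℕ) [NeZero M] [hp : Fact p.Prime] (hpM : ¬ p ∣ M) (P : ValuationSubring Kb)
variable (N : s33u_NodeFam M p P)

theorem s33u_good_zero : s33u_Good M p hpM P N 0 := by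
  refine ⟨0, ⊥, inferInstance, fun L₀ _ _ _ ϖ hϖ _ => ⟨1, ?_, s33u_UnipN.one _ _ M p hpM _⟩⟩
  rw [map_one]
  exact s33d_kumGen_one _

variable {M p hpM P N}

theorem s33u_good_neg {x : JZero (M * p)} (h : s33u_Good M p hpM P N x) :
    s33u_Good M p hpM P N (-x) := by
  obtain ⟨k, Lx, hfd, H⟩ := h
  refine ⟨k, Lx, hfd, fun L₀ _ _ _ ϖ hϖ hle => ?_⟩
  obtain ⟨F, hF, hU⟩ := H L₀ ϖ hϖ hle
  refine ⟨F⁻¹, ?_, hU.inv⟩
  rw [map_inv₀]
  exact s33d_kumGen_inv hF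

theorem s33u_good_add {x₁ x₂ : JZero (M * p)} (h₁ : s33u_Good M p hpM P N x₁)
    (h₂ : s33u_Good M p hpM P N x₂) : s33u_Good M p hpM P N (x₁ + x₂) := by
  obtain ⟨k₁, L₁, hfd₁, H₁⟩ := h₁
  obtain ⟨k₂, L₂, hfd₂, H₂⟩ := h₂
  haveI := hfd₁
  haveI := hfd₂
  refine ⟨k₁ + k₂, L₁ ⊔ L₂, IntermediateField.finiteDimensional_sup _ _,
    fun L₀ _ _ _ ϖ hϖ hle => ?_⟩
  obtain ⟨F₁, hF₁, hU₁⟩ := H₁ L₀ ϖ hϖ (le_sup_left.trans hle)
  obtain ⟨F₂, hF₂, hU₂⟩ := H₂ L₀ ϖ hϖ (le_sup_right.trans hle)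
  refine ⟨F₁ ^ (p ^ k₂) * F₂ ^ (p ^ k₁), ?_, (hU₁.pow _).mul (hU₂.pow _)⟩
  rw [map_mul, map_pow, map_pow]
  have e₁ : p ^ (k₁ + k₂) = p ^ k₁ * p ^ k₂ := _root_.pow_add p k₁ k₂
  have e₂ : p ^ (k₁ + k₂) = p ^ k₂ * p ^ k₁ := by rw [_root_.pow_add, mul_comm]
  have g₁ := s33d_kumGen_pow hF₁ (p ^ k₂)
  have g₂ := s33d_kumGen_pow hF₂ (p ^ k₁)
  rw [← e₁] at g₁
  rw [← e₂] at g₂
  exact s33d_kumGen_prod g₁ g₂

/-- **[UNIP-K] ⇒ the generators of `s33_J1` are `Good`.** -/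
theorem s33u_good_gen (hK : s33u_UnipKN M p hpM P N) {σ : Γℚ} (hσ : σ ∈ P.inertiaSubgroupIn ℚ)
    {y : JZero (M * p)} {k : ℕ} (hy : p ^ k • y = 0) : s33u_Good M p hpM P N (σ • y - y) := by
  obtain ⟨f, hf⟩ := s33d_exists_kumGen (p ^ k) y hy
  have hf0 : f ≠ 0 := hf.1
  have hdiv : ∀ v : Place Kb (ffi_F (M * p)), ((p ^ k : ℕ) : ℤ) ∣ v.ord f := by
    obtain ⟨-, D, -, hD⟩ := hf
    exact fun v => ⟨_, hD v⟩
  obtain ⟨Lf, hfd, H⟩ := hK k f hf0 hdiv σ hσ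
  refine ⟨k, Lf, hfd, fun L₀ _ _ _ ϖ hϖ hle => ?_⟩
  obtain ⟨f₀, hf₀, c, a, hc, ha, hU⟩ := H L₀ ϖ hϖ hle
  refine ⟨_, ?_, hU⟩
  have hf' : s33d_IsKumGen (p ^ k) y (s18q_incl (M * p) L₀ f₀) := by rw [hf₀]; exact hf
  have g₁ := s33d_isKumGen_galois_gen (M * p) (p ^ k) L₀ σ hf'
  have g₂ := s33d_kumGen_prod g₁ (s33d_kumGen_inv hf')
  have ha' : (s18q_incl (M * p) L₀ a)⁻¹ ≠ 0 := by
    rw [Ne, inv_eq_zero, map_eq_zero]
    exact ha
  have hc' : ((c : ↥L₀) : Kb) ≠ 0 := fun h0 => hc (Subtype.ext h0)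
  have g₃ := s33d_kumGen_mul g₂ hc' ha'
  rw [sub_eq_add_neg]
  convert g₃ using 1
  unfold s33u_F
  rw [map_mul, map_mul, map_inv₀, map_pow, map_div₀, s18q_incl_algebraMap, inv_pow, div_eq_mul_inv]
  ring

/-- **[UNIP-J], part 1**: under [UNIP-K] every element of helper3's model-free `J1` is `Good`. -/
theorem s33u_good_of_mem (hK : s33u_UnipKN M p hpM P N) {x : JZero (M * p)}
    (hx : x ∈ s33_J1 (M * p) p P) : s33u_Good M p hpM P N x := by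
  unfold s33_J1 at hx
  induction hx using AddSubgroup.closure_induction with
  | mem z hz =>
    obtain ⟨σ, hσ, y, ⟨k, hy⟩, rfl⟩ := hz
    exact s33u_good_gen hK hσ hy
  | zero => exact s33u_good_zero M p hpM P N
  | add z₁ z₂ _ _ h₁ h₂ => exact s33u_good_add h₁ h₂
  | neg z _ h => exact s33u_good_neg h

end Good

/-! ### Dévissage over one number field -/

section Final

variable (L₀ : IntermediateField ℚ Kb) {κ : Type} [Field κ] (G : s18g_GaussData ↥L₀ κ)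
variable (M p : ℕ) [NeZero M] [hp : Fact p.Prime] (hpM : ¬ p ∣ M)
variable [CharP κ p] [PerfectRing κ p]
variable (hdeg : s34m_HDeg ↥L₀ M p) (hT : s18g_HT κ M) (hdegM : s18g_HDeg ↥L₀ M)
variable (hπ : Function.Surjective G.π)
variable (e : ℕ) (ε : ↥L₀) (he : 0 < e) (hε : ε ∈ G.A) (hεinv : ε⁻¹ ∈ G.A) (hε0 : ε ≠ 0)
variable (hpe : (p : ↥L₀) = ε * ((G.ϖ : G.A) : ↥L₀) ^ e) (hperf : ∀ c : κ, ∃ d : κ, d ^ p = c)
variable (𝒩 : Set (Place ↥L₀ (s34m_F ↥L₀ (M * p))))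

/-- **[UNIP-J], part 2 (dévissage)**: the three hypotheses `hx`, `hc`, `hnf` of helper3's `s33t_M_core`. -/
theorem s33u_dev_final {x : JZero (M * p)} (hx : p • x = 0) (k : ℕ) (F : s34m_F ↥L₀ (M * p))
    (hF : s33d_IsKumGen (p ^ k) x (s18q_incl (M * p) L₀ F))
    (hU : s33u_UnipN G (algebraMap ↥L₀ Kb) M p hpM 𝒩 F) :
    ∃ h : s34m_F ↥L₀ (M * p), s33d_IsKumGen p x (s18q_incl (M * p) L₀ h) ∧
      s33f_Cong (s33y_Ci G (algebraMap ↥L₀ Kb) M p hpM hdeg hT hdegM hπ e ε he hε hεinv hε0 hpe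
        hperf).datum 1 h 1 ∧
      s33f_Cong (s33y_Cz G (algebraMap ↥L₀ Kb) M p hpM hdeg hT hdegM hπ e ε he hε hεinv hε0 hpe
        hperf).datum 1 h 1 ∧
      h ≠ 0 ∧ ∀ Q ∈ 𝒩, Q.ord h = 0 := by
  -- raise the exponent so that `k ≥ 1`
  have hF' : s33d_IsKumGen (p ^ (k + 1)) x (s18q_incl (M * p) L₀ (F ^ p)) := by
    rw [map_pow, pow_succ]
    exact s33d_kumGen_pow hF p
  have hU' := hU.pow p
  obtain ⟨c₀, b₀, hc₀, hb₀, eF, hb₀gen⟩ := s33u_dev (M * p) p L₀ (k + 1) (Nat.le_add_left 1 k) hx hF'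
  rw [Nat.add_sub_cancel] at eF
  set Ci := s33y_Ci G (algebraMap ↥L₀ Kb) M p hpM hdeg hT hdegM hπ e ε he hε hεinv hε0 hpe hperf
    with hCi
  set Cz := s33y_Cz G (algebraMap ↥L₀ Kb) M p hpM hdeg hT hdegM hπ e ε he hε hεinv hε0 hpe hperf
    with hCz
  have h1 : s33f_Cong Ci.datum 1 (F ^ p) 1 := by
    obtain ⟨z, hz, ez⟩ := hU'.1 true
    exact ⟨z, hz, by rw [pow_one]; exact ez⟩
  have h2 : s33f_Cong Cz.datum 1 (F ^ p) 1 := by
    obtain ⟨z, hz, ez⟩ := hU'.1 false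
    exact ⟨z, hz, by rw [pow_one]; exact ez⟩
  obtain ⟨c₁, hc₁, g₁, g₂⟩ := s33u_dev_two Ci Cz k hb₀ eF h1 h2
  have hc₁' : algebraMap ↥L₀ (s34m_F ↥L₀ (M * p)) c₁ ≠ 0 := by rwa [Ne, map_eq_zero]
  refine ⟨algebraMap ↥L₀ (s34m_F ↥L₀ (M * p)) c₁ * b₀, ?_, g₁, g₂, mul_ne_zero hc₁' hb₀,
    fun Q hQ => ?_⟩
  · have hc₁'' : ((c₁ : ↥L₀) : Kb) ≠ 0 := fun h0 => hc₁ (Subtype.ext h0)
    have := s33d_kumGen_mul hb₀gen hc₁'' (one_ne_zero (α := ffi_F (M * p)))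
    rw [one_pow, mul_one] at this
    rw [map_mul, s18q_incl_algebraMap]
    exact this
  · have h3 := hU'.2 Q hQ
    have hc₀' : algebraMap ↥L₀ (s34m_F ↥L₀ (M * p)) c₀ ≠ 0 := by rwa [Ne, map_eq_zero]
    rw [eF, Q.ord_mul hc₀' (pow_ne_zero _ hb₀), ff_ord_algebraMap, zero_add, s33d_ord_pow] at h3
    have hpk : ((p ^ k : ℕ) : ℤ) ≠ 0 := by exact_mod_cast pow_ne_zero k hp.out.ne_zero
    have h4 : Q.ord b₀ = 0 := by
      rcases mul_eq_zero.mp h3 with h5 | h5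
      · exact absurd h5 hpk
      · exact h5
    rw [Q.ord_mul hc₁' hb₀, ff_ord_algebraMap, h4, add_zero]

end Final

/-! ### helper3's CONTRACT 1 -/

section Contract1

variable (P : ValuationSubring Kb) (L₀ : IntermediateField ℚ Kb)

/-- `p = ε ϖ ^ e` with `e ≥ 1` and `ε` a unit of `A₀ = P ∩ L₀`. -/
theorem s33u_exists_e {p : ℕ} (hp : p.Prime) (hP : P.LiesOverPrime p)
    [IsDiscreteValuationRing ↥(s18q_A0 P L₀)] (ϖ : ↥(s18q_A0 P L₀)) (hϖ : Irreducible ϖ) :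
    ∃ (e : ℕ) (ε : ↥L₀), 0 < e ∧ ε ∈ s18q_A0 P L₀ ∧ ε⁻¹ ∈ s18q_A0 P L₀ ∧ ε ≠ 0 ∧
      (p : ↥L₀) = ε * ((ϖ : ↥(s18q_A0 P L₀)) : ↥L₀) ^ e := by
  have hp0 : ((p : ℕ) : ↥(s18q_A0 P L₀)) ≠ 0 := by
    intro h
    have := congrArg (fun z : ↥(s18q_A0 P L₀) => ((z : ↥L₀) : Kb)) h
    simp only [SubringClass.coe_natCast, ZeroMemClass.coe_zero] at this
    exact absurd this (by exact_mod_cast hp.ne_zero)
  obtain ⟨e, u, hu⟩ := IsDiscreteValuationRing.eq_unit_mul_pow_irreducible hp0 hϖ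
  have hcoe : (p : ↥L₀) = ((u : ↥(s18q_A0 P L₀)) : ↥L₀) * ((ϖ : ↥(s18q_A0 P L₀)) : ↥L₀) ^ e := by
    have := congrArg (fun z : ↥(s18q_A0 P L₀) => (z : ↥L₀)) hu
    simpa using this
  have hu0 : ((u : ↥(s18q_A0 P L₀)) : ↥L₀) ≠ 0 := by
    intro h
    exact u.ne_zero (Subtype.ext h)
  have huinv : (((u : ↥(s18q_A0 P L₀)) : ↥L₀))⁻¹ ∈ s18q_A0 P L₀ := by
    have h1 : ((u : ↥(s18q_A0 P L₀)) : ↥L₀) *
        (((u⁻¹ : (↥(s18q_A0 P L₀))ˣ) : ↥(s18q_A0 P L₀)) : ↥L₀) = 1 := by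
      have := congrArg (fun z : ↥(s18q_A0 P L₀) => (z : ↥L₀)) (Units.mul_inv u)
      exact this
    have h2 : (((u : ↥(s18q_A0 P L₀)) : ↥L₀))⁻¹ =
        (((u⁻¹ : (↥(s18q_A0 P L₀))ˣ) : ↥(s18q_A0 P L₀)) : ↥L₀) :=
      inv_eq_of_mul_eq_one_right h1
    rw [h2]
    exact SetLike.coe_mem _
  refine ⟨e, ((u : ↥(s18q_A0 P L₀)) : ↥L₀), ?_, SetLike.coe_mem _, huinv, hu0, hcoe⟩
  -- `e ≥ 1`: otherwise `p` is a unit of `P`
  by_contra he
  have he0 : e = 0 := by omega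
  rw [he0, pow_zero, mul_one] at hcoe
  have hpP : (p : Kb) ∈ P.nonunits := hP
  rw [ValuationSubring.mem_nonunits_iff] at hpP
  have h1 : P.valuation (p : Kb) = 1 := by
    have e1 : (p : Kb) = (((u : ↥(s18q_A0 P L₀)) : ↥L₀) : Kb) := by
      rw [← hcoe]; simp
    have hmem : (((u : ↥(s18q_A0 P L₀)) : ↥L₀) : Kb) ∈ P := (u : ↥(s18q_A0 P L₀)).2
    have hmem'' : ((((u : ↥(s18q_A0 P L₀)) : ↥L₀) : Kb))⁻¹ ∈ P := by
      have : (((((u : ↥(s18q_A0 P L₀)) : ↥L₀))⁻¹ : ↥L₀) : Kb) ∈ P := huinv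
      rwa [IntermediateField.coe_inv] at this
    rw [e1]
    have h3 := (P.valuation_le_one_iff _).mpr hmem
    have h4 := (P.valuation_le_one_iff _).mpr hmem''
    rw [map_inv₀] at h4
    have hne : P.valuation ((((u : ↥(s18q_A0 P L₀)) : ↥L₀) : Kb)) ≠ 0 := by
      rw [Ne, map_eq_zero]
      intro h
      exact hu0 (Subtype.ext h)
    have h5 : 1 ≤ P.valuation ((((u : ↥(s18q_A0 P L₀)) : ↥L₀) : Kb)) := by
      rwa [inv_le_one₀ (zero_lt_iff.mpr hne)] at h4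
    exact le_antisymm h3 h5
  exact absurd h1 (ne_of_lt hpP)

end Contract1

section Contract1Main

variable (M p : ℕ) [NeZero M] [hp : Fact p.Prime] (hpM : ¬ p ∣ M) (P : ValuationSubring Kb)

/-- **[UNIP-J] = helper3's CONTRACT 1, generic in the node family**: the statement is verbatim the body
of `s33t_UnipJ M p hpM P N` (`TPFinal.lean`). -/
theorem s33u_unipJ_gen (hP : P.LiesOverPrime p) (N : s33u_NodeFam M p P)
    (hK : s33u_UnipKN M p hpM P N) :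
    ∀ x ∈ s33_J1 (M * p) p P, p • x = 0 →
      ∃ Lx : IntermediateField ℚ Kb, FiniteDimensional ℚ ↥Lx ∧
        ∀ (L₀ : IntermediateField ℚ Kb) [FiniteDimensional ℚ ↥L₀] [Normal ℚ ↥L₀]
          [IsDiscreteValuationRing ↥(s18q_A0 P L₀)] (ϖ : ↥(s18q_A0 P L₀)) (hϖ : Irreducible ϖ),
          Lx ≤ L₀ →
          ∃ h : s34m_F ↥L₀ (M * p),
            s33d_IsKumGen p x (s18q_incl (M * p) L₀ h) ∧
            (∃ y : s34m_F ↥L₀ (M * p), y ∈ s34m_Vinf (s37r_G P L₀ ϖ hϖ) (M * p) ∧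
              y ∈ s34m_Vzero (s37r_G P L₀ ϖ hϖ) (algebraMap ↥L₀ Kb) M p hp.out hpM ∧
              h - 1 = s34m_unif (s37r_G P L₀ ϖ hϖ) (M * p) * y) ∧
            ∀ Q ∈ N L₀ ϖ hϖ, Q.ord h = 0 := by
  intro x hxJ hpx
  obtain ⟨k, Lx, hfd, H⟩ := s33u_good_of_mem hK hxJ
  refine ⟨Lx, hfd, fun L₀ _ _ _ ϖ hϖ hle => ?_⟩
  obtain ⟨F, hF, hU⟩ := H L₀ ϖ hϖ hle
  -- the datum over `L₀`
  haveI : NumberField ↥L₀ := ⟨⟩
  haveI hchar₀ : CharP (IsLocalRing.ResidueField ↥(s18q_A0 P L₀)) p := s37rl_charP P hP L₀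
  haveI hperf₀ : PerfectField (IsLocalRing.ResidueField ↥(s18q_A0 P L₀)) :=
    s37rl_perfectField P hP L₀
  haveI : PerfectRing (IsLocalRing.ResidueField ↥(s18q_A0 P L₀)) p := PerfectField.toPerfectRing p
  have hT : s18g_HT (IsLocalRing.ResidueField ↥(s18q_A0 P L₀)) M := s18t_indep_j p M hpM _
  have hdegM : s18g_HDeg ↥L₀ M := fun n b hb hn =>
    s18g_exists_relation M (algebraMap ↥L₀ Kb) hn b hb
  have hdeg : s34m_HDeg ↥L₀ M p := s34r_deg_HDeg (algebraMap ↥L₀ Kb) M p hp.out hpM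
  have hπ : Function.Surjective (s37r_G P L₀ ϖ hϖ).π := IsLocalRing.residue_surjective
  obtain ⟨e, ε, he, hε, hεinv, hε0, hpe⟩ := s33u_exists_e P L₀ hp.out hP ϖ hϖ
  have hperf : ∀ c : IsLocalRing.ResidueField ↥(s18q_A0 P L₀), ∃ d, d ^ p = c :=
    fun c => surjective_frobenius _ p c
  obtain ⟨h, hgen, ⟨z₁, hz₁, e₁⟩, ⟨z₂, hz₂, e₂⟩, -, hnode⟩ :=
    s33u_dev_final L₀ (s37r_G P L₀ ϖ hϖ) M p hpM hdeg hT hdegM hπ e ε he hε hεinv hε0 hpe hperf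
      (N L₀ ϖ hϖ) hpx k F hF hU
  refine ⟨h, hgen, ⟨z₁, hz₁, ?_, ?_⟩, hnode⟩
  · have hπ0 : s34m_unif (s37r_G P L₀ ϖ hϖ) (M * p) ≠ 0 := s34m_unif_ne_zero _ _
    have e12 : s34m_unif (s37r_G P L₀ ϖ hϖ) (M * p) * z₁ =
        s34m_unif (s37r_G P L₀ ϖ hϖ) (M * p) * z₂ := by
      rw [pow_one] at e₁ e₂
      exact e₁.symm.trans e₂
    rw [mul_left_cancel₀ hπ0 e12]
    exact hz₂
  · rw [pow_one] at e₁
    exact e₁

/-- **[UNIP-J] for `5 ≤ p`**: verbatim the body of helper3's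
`s33t_UnipJ M p hpM P (s33t_nodeN M p hpM P)`, from helper7's theorem `s33u_unipK`. -/
theorem s33u_unipJ_five (h5 : 5 ≤ p) (hP : P.LiesOverPrime p) :
    ∀ x ∈ s33_J1 (M * p) p P, p • x = 0 →
      ∃ Lx : IntermediateField ℚ Kb, FiniteDimensional ℚ ↥Lx ∧
        ∀ (L₀ : IntermediateField ℚ Kb) [FiniteDimensional ℚ ↥L₀] [Normal ℚ ↥L₀]
          [IsDiscreteValuationRing ↥(s18q_A0 P L₀)] (ϖ : ↥(s18q_A0 P L₀)) (hϖ : Irreducible ϖ),
          Lx ≤ L₀ →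
          ∃ h : s34m_F ↥L₀ (M * p),
            s33d_IsKumGen p x (s18q_incl (M * p) L₀ h) ∧
            (∃ y : s34m_F ↥L₀ (M * p), y ∈ s34m_Vinf (s37r_G P L₀ ϖ hϖ) (M * p) ∧
              y ∈ s34m_Vzero (s37r_G P L₀ ϖ hϖ) (algebraMap ↥L₀ Kb) M p hp.out hpM ∧
              h - 1 = s34m_unif (s37r_G P L₀ ϖ hϖ) (M * p) * y) ∧
            ∀ Q ∈ s33s_nodePlaces
                (s34m_VV (s37r_G P L₀ ϖ hϖ) (algebraMap ↥L₀ Kb) M p hp.out hpM)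
                (s34m_unif (s37r_G P L₀ ϖ hϖ) (M * p))
                (s18_chart1 (L₀ := ↥L₀) (s18g_jF (K := ↥L₀) (M * p))), Q.ord h = 0 :=
  s33u_unipJ_gen M p hpM P hP (s33u_nodeJ M p hpM P)
    (s33u_unipKN_of_unipK M p hpM P (s33u_unipK M p hp.out hpM h5 P hP))

end Contract1Main

end Fermat.Agent.Lib.S33
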