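/-
S33 programme P-AT-P, Stage 2, package [UNIP-K], branch `p = 3`, `2 ∣ M` (owner: helper6): THE
CONTRACT `s33n_UnipKT` = helper7's `s33u_UnipK` (`UnipIface.lean`) with the chart `j ≠ ∞` replaced by
the chart `t ≠ ∞` of ANY function `t` of level `M p` with `q`-expansion `t₂`.

* `s33n_UnipW G φ M p hp hpM w F` : (ii) + (iii) of the contract for `F` on chart 1 of an arbitrary
  base function `w` (`s33u_Unip` is the case `w = j` by `Iff.rfl`, see `s33n_unipW_j_iff`);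
* `s33n_UnipKT M p hp hpM P` : the contract for the `t₂`-chart.
-/
import Fermat.Agent.Lib.S33.UnipIface
import Fermat.Agent.Lib.S18.UFormalDef

set_option autoImplicit false
set_option linter.style.haveILetI false
set_option synthInstance.maxHeartbeats 400000

noncomputable section

namespace Fermat.Agent.Lib.S33

open AlgebraicCurve ModularCurve Polynomial Fermat.Agent.Lib.FF Fermat.Agent.Lib.S18
  Fermat.Agent.Lib.S34 Fermat.Agent.Lib.S37

local notation "Qbar" => AlgebraicClosure ℚ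
local notation "Γℚ" => (AlgebraicClosure ℚ ≃ₐ[ℚ] AlgebraicClosure ℚ)

/-- (ii) + (iii) of the contract for a function `F` of `F_{K₀}(M p)` w.r.t. a Gauss datum `G`, on
chart 1 of an arbitrary base function `w`. -/
def s33n_UnipW {K₀ : Type*} [Field K₀] [Algebra ℚ K₀] {κ : Type*} [Field κ]
    (G : s18g_GaussData K₀ κ) (φ : K₀ →+* Qbar) (M p : ℕ) [NeZero M] [NeZero p] (hp : p.Prime)
    (hpM : ¬ p ∣ M) (w : s34m_F K₀ (M * p)) (F : s34m_F K₀ (M * p)) : Prop :=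
  (∃ y ∈ s34x_infRing (s34m_VV G φ M p hp hpM), F - 1 = s34m_unif G (M * p) * y) ∧
  ∀ 𝔫 : Ideal (s34x_ring (s34x_infRing (s34m_VV G φ M p hp hpM)) (s18_chart1 (L₀ := K₀) w)),
    𝔫.IsMaximal →
    s34x_const (s34x_infRing (s34m_VV G φ M p hp hpM)) (s18_chart1 (L₀ := K₀) w)
      ((G.ϖ : G.A) : K₀)
      (s34x_inf_const_mem (s34m_VV G φ M p hp hpM) G.A (s34c_const_mem_VV G φ M p hp hpM)
        G.ϖ) ∈ 𝔫 →
    ∀ Q ∈ s18_chart1 (L₀ := K₀) w,
      s34f_through (s34x_infRing (s34m_VV G φ M p hp hpM)) (s18_chart1 (L₀ := K₀) w) 𝔫 Q →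
        Q.ord F = 0

/-- helper7's `s33u_Unip` is the case `w = j`. -/
theorem s33n_unipW_j_iff {K₀ : Type*} [Field K₀] [Algebra ℚ K₀] {κ : Type*} [Field κ]
    (G : s18g_GaussData K₀ κ) (φ : K₀ →+* Qbar) (M p : ℕ) [NeZero M] [NeZero p] (hp : p.Prime)
    (hpM : ¬ p ∣ M) (F : s34m_F K₀ (M * p)) :
    s33n_UnipW G φ M p hp hpM (s18g_jF (K := K₀) (M * p)) F ↔ s33u_Unip G φ M p hp hpM F :=
  Iff.rfl

/-- **The contract [UNIP-K] for the chart of `t₂`.** -/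
def s33n_UnipKT (M p : ℕ) [NeZero M] [NeZero p] (hp : p.Prime) (hpM : ¬ p ∣ M)
    (P : ValuationSubring Qbar) : Prop :=
  ∀ (k : ℕ) (f : modularFunctionFieldBar (M * p)), f ≠ 0 →
    (∀ Q : Place Qbar (modularFunctionFieldBar (M * p)), ((p ^ k : ℕ) : ℤ) ∣ Q.ord f) →
    ∃ Lf : IntermediateField ℚ Qbar, FiniteDimensional ℚ Lf ∧
      ∀ L₀ : IntermediateField ℚ Qbar, Lf ≤ L₀ → ∀ [FiniteDimensional ℚ L₀] [Normal ℚ L₀]
        [IsDiscreteValuationRing ↥(s18q_A0 P L₀)] (ϖ : ↥(s18q_A0 P L₀)) (hϖ : Irreducible ϖ),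
        ∃ f₀ : s34m_F ↥L₀ (M * p), s18q_incl (M * p) L₀ f₀ = f ∧
          ∀ σ : Γℚ, σ ∈ P.inertiaSubgroupIn ℚ →
            ∃ (c : ↥L₀) (a : s34m_F ↥L₀ (M * p)), c ≠ 0 ∧ a ≠ 0 ∧
              ∀ t : s34m_F ↥L₀ (M * p), (t : HahnSeries ℤ ↥L₀) = s18u_t2 ↥L₀ →
                s33n_UnipW (s37r_G P L₀ ϖ hϖ) (algebraMap ↥L₀ Qbar) M p hp hpM t
                  (s33u_F (M * p) (σ.restrictNormal ↥L₀) (p ^ k) f₀ c a)

end Fermat.Agent.Lib.S33
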