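/-
S33 programme P-AT-P, Stage 2, package [UNIP-K], branch `p = 3`, `2 ∣ M` (owner: helper6): THE
CONTRACT `s33n_UnipKT` IS A THEOREM.

`s33n_unipKT : p = 3 → 2 ∣ M → P.LiesOverPrime p → s33n_UnipKT M p hp hpM P`: the modular instance
`s33n_unip_nf_t2` (`UnipInstW.lean`) + descent to number fields, verbatim as in helper7's
`s33u_unipK` (`UnipK.lean`).
-/
import Fermat.Agent.Lib.S33.UnipIfaceT
import Fermat.Agent.Lib.S33.UnipInstW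
import Fermat.Agent.Lib.S33.UnipK
import Fermat.Agent.Lib.S34.RDescNF

set_option autoImplicit false
set_option linter.style.haveILetI false
set_option synthInstance.maxHeartbeats 400000

noncomputable section

namespace Fermat.Agent.Lib.S33

open AlgebraicCurve ModularCurve Polynomial Fermat.Agent.Lib.FF Fermat.Agent.Lib.S18
  Fermat.Agent.Lib.S34 Fermat.Agent.Lib.S37 Fermat.Agent.Lib.Frey IsLocalRing

local notation "Qbar" => AlgebraicClosure ℚ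
local notation "Γℚ" => (AlgebraicClosure ℚ ≃ₐ[ℚ] AlgebraicClosure ℚ)

set_option maxHeartbeats 1600000 in
/-- **[UNIP-K]: the contract `s33n_UnipKT` for `p = 3`, `2 ∣ M`.** -/
theorem s33n_unipKT (M p : ℕ) [NeZero M] [NeZero p] (hp : p.Prime) (hpM : ¬ p ∣ M) (hp3 : p = 3)
    (h2M : 2 ∣ M) (P : ValuationSubring Qbar) (hP : P.LiesOverPrime p) :
    s33n_UnipKT M p hp hpM P := by
  classical
  haveI : Fact p.Prime := ⟨hp⟩
  haveI := s34q_isAlgClosure_bar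
  haveI : Normal ℚ Qbar := IsAlgClosure.normal ℚ Qbar
  have hp2 : p ≠ 2 := by omega
  intro k f hf hdiv
  obtain ⟨L₁, hfd₁, hL₁⟩ := s18q_exists_field (M * p) {f}
  obtain ⟨L₂, hfd₂, hL₂⟩ := s34q_exists_field_rat (M * p) f hf
  refine ⟨L₁ ⊔ L₂, inferInstance, ?_⟩
  intro L₀ hle hfd₀ hnorm hdvr ϖ hϖ
  have hL₁₀ : L₁ ≤ L₀ := le_trans le_sup_left hle
  have hL₂₀ : L₂ ≤ L₀ := le_trans le_sup_right hle
  obtain ⟨f₀, hf₀⟩ := s18q_incl_range_mono (M * p) hL₁₀ (hL₁ f (Finset.mem_singleton_self f))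
  refine ⟨f₀, hf₀, ?_⟩
  intro σ hσ
  have hf₀0 : f₀ ≠ 0 := by
    rintro rfl
    exact hf (by rw [← hf₀, map_zero])
  haveI hnf : NumberField ↥L₀ := ⟨⟩
  haveI : Algebra.IsAlgebraic ℚ ↥L₀ := Algebra.IsAlgebraic.of_finite ℚ ↥L₀
  -- the Gauss datum
  set G : s18g_GaussData ↥L₀ (ResidueField ↥(s18q_A0 P L₀)) := s37r_G P L₀ ϖ hϖ with hG
  haveI hdvrG : IsDiscreteValuationRing G.A := hdvr
  have hpA₀ : ((p : ℕ) : ↥L₀) ∈ (s18q_A0 P L₀).nonunits := by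
    show ((p : ℕ) : ↥L₀) ∈ (P.comap (algebraMap ↥L₀ Qbar)).nonunits
    rw [s34q_mem_nonunits_comap, map_natCast]
    exact hP
  haveI hchar : CharP (ResidueField ↥(s18q_A0 P L₀)) p :=
    s18x_charP_residueField (s18q_A0 P L₀) hp hpA₀
  haveI hperf : PerfectField (ResidueField ↥(s18q_A0 P L₀)) :=
    s18x_perfectField_residue (s18q_A0 P L₀) hp hpA₀
  -- the automorphism
  let σ₀ : ↥L₀ ≃ₐ[ℚ] ↥L₀ := σ.restrictNormal ↥L₀
  have hσ₀ : ∀ a : ↥L₀, algebraMap ↥L₀ Qbar (σ₀ a) = σ (algebraMap ↥L₀ Qbar a) :=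
    fun a => AlgEquiv.restrictNormal_commutes σ ↥L₀ a
  obtain ⟨hD, hI⟩ := ford_inertia_spec P σ hσ
  have hDinv : σ⁻¹ ∈ P.decompositionSubgroup ℚ := inv_mem hD
  have hσiff : ∀ a : ↥L₀, σ₀ a ∈ s18q_A0 P L₀ ↔ a ∈ s18q_A0 P L₀ := by
    intro a
    show σ₀ a ∈ P.comap (algebraMap ↥L₀ Qbar) ↔ a ∈ P.comap (algebraMap ↥L₀ Qbar)
    rw [ValuationSubring.mem_comap, ValuationSubring.mem_comap, hσ₀]
    constructor
    · intro h
      have h2 := ford_decomposition_mem P σ⁻¹ hDinv _ h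
      have h3 : σ⁻¹ (σ (algebraMap ↥L₀ Qbar a)) = algebraMap ↥L₀ Qbar a :=
        σ.symm_apply_apply _
      rwa [h3] at h2
    · exact ford_decomposition_mem P σ hD _
  have hσres : ∀ a ∈ s18q_A0 P L₀, σ₀ a - a ∈ (s18q_A0 P L₀).nonunits := by
    intro a ha
    show σ₀ a - a ∈ (P.comap (algebraMap ↥L₀ Qbar)).nonunits
    rw [s34q_mem_nonunits_comap, map_sub, hσ₀]
    exact hI _ ha
  have hσA : ∀ a : ↥L₀, a ∈ G.A → (σ₀ : ↥L₀ ≃+* ↥L₀) a ∈ G.A := fun a ha => (hσiff a).mpr ha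
  have hσA' : ∀ a : ↥L₀, a ∈ G.A → (σ₀.symm : ↥L₀ ≃+* ↥L₀) a ∈ G.A := by
    intro a ha
    have := hσiff (σ₀.symm a)
    rw [σ₀.apply_symm_apply] at this
    exact this.mp ha
  have hσπ : ∀ a : G.A, G.π (s34m_sigmaA G (σ₀ : ↥L₀ ≃+* ↥L₀) hσA a) = G.π a := by
    intro a
    have hsub := hσres (a : ↥L₀) a.2
    obtain ⟨hmem, hmax⟩ := ((s18q_A0 P L₀).mem_nonunits_iff_exists_mem_maximalIdeal).mp hsub
    have e : s34m_sigmaA G (σ₀ : ↥L₀ ≃+* ↥L₀) hσA a - a = (⟨σ₀ (a : ↥L₀) - a, hmem⟩ : G.A) :=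
      Subtype.ext rfl
    have h0 : G.π (s34m_sigmaA G (σ₀ : ↥L₀ ≃+* ↥L₀) hσA a - a) = 0 := by
      rw [e]
      exact (residue_eq_zero_iff _).mpr hmax
    rw [map_sub, sub_eq_zero] at h0
    exact h0
  -- divisibility and rationality over `L₀`
  have hdiv₀ : ∀ Q : Place ↥L₀ (s34m_F ↥L₀ (M * p)), ((p ^ k : ℕ) : ℤ) ∣ Q.ord f₀ :=
    s18q_dvd_ord_descend (M * p) L₀ ((p ^ k : ℕ) : ℤ) f₀ (fun Q => by rw [hf₀]; exact hdiv Q)
  have hrat : ∀ Q : Place ↥L₀ (s34m_F ↥L₀ (M * p)), Q.ord f₀ ≠ 0 → Q.deg = 1 :=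
    hL₂ L₀ hL₂₀ f₀ hf₀
  -- the base function `t₀ = α t_M`
  obtain ⟨tM, -, -, -, -, -, hαcoe, -, -, -, -, -, -, -⟩ :=
    s34m_base_t2 G (algebraMap ↥L₀ Qbar) M p hp hpM h2M hp2
  obtain ⟨b, c₀, hb0, -, hF1, hFQ⟩ := s33n_unip_nf_t2 M p hp hpM hp3 h2M ↥L₀
    (algebraMap ↥L₀ Qbar) (ResidueField ↥(s18q_A0 P L₀)) G residue_surjective σ₀ hσA hσA' hσπ
    (heckeAlphaBar ↥L₀ M p tM) hαcoe k f₀ hf₀0 hdiv₀ (fun Q _ => hrat Q)
  refine ⟨(((c₀⁻¹ : (↥G.A)ˣ) : G.A) : ↥L₀), b, ?_, hb0, ?_⟩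
  · intro h0
    have h1 : ((c₀⁻¹ : (↥G.A)ˣ) : G.A) = 0 := Subtype.ext h0
    exact (c₀⁻¹).ne_zero h1
  · intro t ht
    have htα : heckeAlphaBar ↥L₀ M p tM = t := Subtype.ext (hαcoe.trans ht.symm)
    subst htα
    rw [s33u_F_eq (M * p) σ₀ (p ^ k) f₀ G.A c₀ b]
    exact ⟨hF1, hFQ⟩

end Fermat.Agent.Lib.S33
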