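/-
S33 programme (P-AT-P), Stage 2 (helper3): **CONTRACT 1 (`s33t_UnipJ`) IS A THEOREM on both good branches**, and
`s33_UMJ` is reduced to the EXISTENCE of the Σ-datum alone.

* `s33t_unipJ_five` : `5 ≤ p`, `P ∣ p` ⇒ `s33t_UnipJ M p hpM P (s33t_nodeN M p hpM P)`
  (= helper1's `s33u_unipJ_five`, from helper7's `s33u_unipK`).
* `s33t_unipKN_t2`, `s33t_unipJ_three` : `p = 3`, `2 ∣ M`, `P ∣ p` ⇒
  `s33t_UnipJ M p hpM P (s33t_nodeN_t2 M p hpM P)` (helper6's `s33n_unipKT` + helper1's chart-generic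
  `s33u_unipJ_gen`; the coordinate `t` with `q`-expansion `t₂` exists over every finite level by
  `s34m_base_t2`).
* **`s33t_UMJ_of_datum`** : [SS-datum] (`s33t_SSDatumC`) on the two good odd branches ⇒ `s33_UMJ`.
-/
import Fermat.Agent.Lib.S33.TPPackT
import Fermat.Agent.Lib.S33.UnipJ
import Fermat.Agent.Lib.S33.UnipKT

set_option autoImplicit false
set_option linter.style.haveILetI false
set_option linter.unusedSectionVars false
set_option synthInstance.maxHeartbeats 400000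

namespace Fermat.Agent.Lib.S33

open ModularCurve HahnSeries AlgebraicCurve Fermat.Agent.Lib.S18 Fermat.Agent.Lib.S28
  Fermat.Agent.Lib.S29 Fermat.Agent.Lib.S37 Fermat.Agent.Lib.FF Fermat.Agent.Lib.S34
  Fermat.Agent.Lib.S35

noncomputable section

local notation "Kb" => AlgebraicClosure ℚ

section Unip

variable (M p : ℕ) [NeZero M] [hp : Fact p.Prime] (hpM : ¬ p ∣ M) (P : ValuationSubring Kb)

/-- **CONTRACT 1 for `5 ≤ p`.** -/
theorem s33t_unipJ_five (h5 : 5 ≤ p) (hP : P.LiesOverPrime p) :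
    s33t_UnipJ M p hpM P (s33t_nodeN M p hpM P) :=
  s33u_unipJ_five M p hpM P h5 hP

/-- the closed-point normal form on chart 1 of `w` implies the normal form relative to the node places of
chart 1 of `w` (own copy, so that this file does not depend on either version of `UnipJT.lean`). -/
theorem s33t_unipN_of_unipW {K₀ : Type} [Field K₀] [CharZero K₀] [Algebra ℚ K₀] {κ : Type} [Field κ]
    (G : s18g_GaussData K₀ κ) (φ : K₀ →+* Kb) (w : s34m_F K₀ (M * p)) {F : s34m_F K₀ (M * p)}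
    (h : s33n_UnipW G φ M p hp.out hpM w F) :
    s33u_UnipN G φ M p hpM
      (s33s_nodePlaces (s34m_VV G φ M p hp.out hpM) (s34m_unif G (M * p))
        (s18_chart1 (L₀ := K₀) w)) F := by
  refine ⟨fun i => ?_, ?_⟩
  · obtain ⟨⟨y, hy, e⟩, -⟩ := h
    exact ⟨y, (s34x_mem_infRing (s34m_VV G φ M p hp.out hpM) y).mp hy i, e⟩
  · rintro Q ⟨hQS, 𝔫, ⟨hmax, htrue, -⟩, hth⟩
    refine h.2 𝔫 hmax (htrue ?_) Q hQS hth
    rw [s33s_mem_comp]
    exact ⟨1, (s34m_VV G φ M p hp.out hpM true).one_mem, by rw [mul_one]; rfl⟩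

/-- helper6's [UNIP-K] for the `t₂`-chart, relative to the node family `s33t_nodeN_t2`. -/
theorem s33t_unipKN_t2 (hp3 : p = 3) (h2M : 2 ∣ M) (hP : P.LiesOverPrime p) :
    s33u_UnipKN M p hpM P (s33t_nodeN_t2 M p hpM P) := by
  haveI : NeZero p := ⟨hp.out.ne_zero⟩
  have hp2 : p ≠ 2 := by omega
  have hK := s33n_unipKT M p hp.out hpM hp3 h2M P hP
  intro k f hf hdiv σ hσ
  obtain ⟨Lf, hfd, H⟩ := hK k f hf hdiv
  refine ⟨Lf, hfd, fun L₀ _ _ _ ϖ hϖ hle => ?_⟩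
  obtain ⟨f₀, e, H'⟩ := H L₀ hle ϖ hϖ
  obtain ⟨c, a, hc, ha, hU⟩ := H' σ hσ
  refine ⟨f₀, e, c, a, hc, ha, ?_⟩
  -- the coordinate `t` over `L₀`
  haveI hchar₀ : CharP (IsLocalRing.ResidueField ↥(s18q_A0 P L₀)) p := s37rl_charP P hP L₀
  haveI : IsDiscreteValuationRing ↥(s37r_G P L₀ ϖ hϖ).A :=
    (inferInstance : IsDiscreteValuationRing ↥(s18q_A0 P L₀))
  obtain ⟨tM, -, -, -, -, -, hwt, -, -, -, -, -, -, -⟩ :=
    s34m_base_t2 (s37r_G P L₀ ϖ hϖ) (algebraMap ↥L₀ Kb) M p hp.out hpM h2M hp2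
  have hN := s33t_unipN_of_unipW M p hpM (s37r_G P L₀ ϖ hϖ) (algebraMap ↥L₀ Kb)
    (heckeAlphaBar ↥L₀ M p tM) (hU _ hwt)
  rw [← s33t_nodeN_t2_eq M p hpM P L₀ ϖ hϖ (heckeAlphaBar ↥L₀ M p tM) hwt] at hN
  exact hN

/-- **CONTRACT 1 for `p = 3`, `2 ∣ M`.** -/
theorem s33t_unipJ_three (hp3 : p = 3) (h2M : 2 ∣ M) (hP : P.LiesOverPrime p) :
    s33t_UnipJ M p hpM P (s33t_nodeN_t2 M p hpM P) :=
  s33u_unipJ_gen M p hpM P hP (s33t_nodeN_t2 M p hpM P) (s33t_unipKN_t2 M p hpM P hp3 h2M hP)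

end Unip

/-- **`s33_UMJ` from the existence of the Σ-datum on the two good odd branches.** -/
theorem s33t_UMJ_of_datum
    (h5 : ∀ (M : ℕ) [NeZero M] (p : ℕ) [Fact p.Prime], 5 ≤ p → ∀ hM : s18_GoodLevel p M,
      ∀ P : ValuationSubring Kb, P.LiesOverPrime p →
        s33t_SSDatumC M p hM.1 P (s33t_nodeN M p hM.1 P))
    (h3 : ∀ (M : ℕ) [NeZero M] (p : ℕ) [Fact p.Prime], p = 3 → 2 ∣ M → ∀ hM : s18_GoodLevel p M,
      ∀ P : ValuationSubring Kb, P.LiesOverPrime p →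
        s33t_SSDatumC M p hM.1 P (s33t_nodeN_t2 M p hM.1 P)) :
    s33_UMJ :=
  s33t_UMJ_of_contracts
    (fun M _ p _ hp5 hM P hP => ⟨s33t_unipJ_five M p hM.1 P hp5 hP, h5 M p hp5 hM P hP⟩)
    (fun M _ p _ hp3 h2M hM P hP =>
      ⟨s33t_unipJ_three M p hM.1 P hp3 h2M hP, h3 M p hp3 h2M hM P hP⟩)

end

end Fermat.Agent.Lib.S33
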