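/-
S33 programme (P-AT-P), Stage 2 (helper3): **TOP OF THE J-SIDE CHAIN.**

* `s33t_ssDatum_five` : [SS-datum] (`s33t_SSDatumC`, TPPack.lean) for `p ≥ 5` = helper8's `s33s_datum_five`.
* `s33t_propM_five_thm` : **(M°) for the model-free `J1` at every S18-good level with `p ≥ 5`** — a theorem with no
  hypothesis left.
* `s33t_UMJ_of_three` : `s33_UMJ` from the `p = 3`, `2 ∣ M` instance of [SS-datum] alone.
-/
import Fermat.Agent.Lib.S33.TPUnip
import Fermat.Agent.Lib.S33.SSFive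

set_option autoImplicit false
set_option linter.style.haveILetI false
set_option linter.unusedSectionVars false
set_option synthInstance.maxHeartbeats 400000

namespace Fermat.Agent.Lib.S33

open ModularCurve HahnSeries AlgebraicCurve Fermat.Agent.Lib.S18 Fermat.Agent.Lib.S28
  Fermat.Agent.Lib.S29 Fermat.Agent.Lib.S37 Fermat.Agent.Lib.FF Fermat.Agent.Lib.S34
  Fermat.Agent.Lib.S35

noncomputable section

local notation "Kb" => AlgebraicClosure ℚ

section Top

variable (M p : ℕ) [NeZero M] [hp : Fact p.Prime] (hpM : ¬ p ∣ M) (P : ValuationSubring Kb)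

/-- **[SS-datum] for `p ≥ 5`** (helper8's `s33s_datum_five`). -/
theorem s33t_ssDatum_five (h5 : 5 ≤ p) : s33t_SSDatumC M p hpM P (s33t_nodeN M p hpM P) := by
  refine ⟨⊥, inferInstance, ?_⟩
  intro L₀ _ _ _ ϖ hϖ _ _ hdeg hT hdegM hπ e ε he hε hεinv hε0 hpe hperf _
  haveI : NumberField ↥L₀ := ⟨⟩
  haveI : PerfectField (IsLocalRing.ResidueField ↥(s18q_A0 P L₀)) :=
    PerfectRing.toPerfectField _ p
  haveI : IsDiscreteValuationRing ↥(s37r_G P L₀ ϖ hϖ).A :=
    (inferInstance : IsDiscreteValuationRing ↥(s18q_A0 P L₀))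
  exact ⟨_, _, inferInstance, inferInstance,
    s33s_datum_five M p hpM h5 ↥L₀ (algebraMap ↥L₀ Kb) _ (s37r_G P L₀ ϖ hϖ) hdeg hT hdegM hπ e ε he
      hε hεinv hε0 hpe hperf, rfl, rfl, rfl⟩

end Top

section TopThm

variable (M p : ℕ) [NeZero M] [hp : Fact p.Prime]

/-- **(M°) for `p ≥ 5`** — no hypothesis left. -/
theorem s33t_propM_five_thm (h5 : 5 ≤ p) (hM : s18_GoodLevel p M) (P : ValuationSubring Kb)
    (hP : P.LiesOverPrime p) : s33_PropM M p hM.1 P (s33_J1 (M * p) p P) :=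
  s33t_propM_five M p h5 hM P hP (s33t_unipJ_five M p hM.1 P h5 hP)
    (s33t_ssDatum_five M p hM.1 P h5)

end TopThm

/-- **`s33_UMJ` from the `p = 3`, `2 ∣ M` instance of [SS-datum] alone.** -/
theorem s33t_UMJ_of_three
    (h3 : ∀ (M : ℕ) [NeZero M] (p : ℕ) [Fact p.Prime], p = 3 → 2 ∣ M → ∀ hM : s18_GoodLevel p M,
      ∀ P : ValuationSubring Kb, P.LiesOverPrime p →
        s33t_SSDatumC M p hM.1 P (s33t_nodeN_t2 M p hM.1 P)) :
    s33_UMJ :=
  s33t_UMJ_of_datum (fun M _ p _ hp5 hM P _ => s33t_ssDatum_five M p hM.1 P hp5) h3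

end

end Fermat.Agent.Lib.S33
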