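/-
P-AT-P programme (S33), Stage 2, branch `p = 3`, `2 ∣ M` (owner: helper6): **[UNIP-K], modular
instance for an ARBITRARY base function `w`** with a chart contract on chart 1 of `w`, and its
specialisation to `w = α t_M` (`q`-expansion `t₂`).

`s33n_unip_nf_w` is helper7's `s33u_nf` (`UnipInst.lean`) with the chart of `j` replaced by
`s18_chart1 w` and the chart contract `hC` as a hypothesis (the proof of `s33u_nf` uses `5 ≤ q` only
to produce `hC` from `s34df_contract_five`).  `s33n_unip_nf_t2` feeds it with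
`s34f_chartContract_w1` + `s34d_elem_t2_1` (`Lib/S34/DTwoThree.lean`).
-/
import Fermat.Agent.Lib.S33.UnipInst
import Fermat.Agent.Lib.S34.DTwoThree

set_option autoImplicit false
set_option linter.unusedSectionVars false
set_option linter.style.haveILetI false

noncomputable section

namespace Fermat.Agent.Lib.S33

open ModularCurve AlgebraicCurve HahnSeries Polynomial Fermat.Agent.Lib.FF Fermat.Agent.Lib.S18
  Fermat.Agent.Lib.S34 Fermat.Agent.Lib.S37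

local notation "Qbar" => AlgebraicClosure ℚ

set_option maxHeartbeats 1600000 in
/-- **[UNIP-K], modular instance at level `M q` for a base function `w` with a chart contract.** -/
theorem s33n_unip_nf_w (M q : ℕ) [NeZero M] [NeZero q] (hq : q.Prime) (hqM : ¬ q ∣ M)
    (K₀ : Type) [Field K₀] [NumberField K₀] (φ : K₀ →+* Qbar)
    (κ : Type) [Field κ] [CharP κ q] [PerfectField κ]
    (G : s18g_GaussData K₀ κ) [IsDiscreteValuationRing G.A]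
    (σ₀ : K₀ ≃ₐ[ℚ] K₀)
    (hσA : ∀ a : K₀, a ∈ G.A → (σ₀ : K₀ ≃+* K₀) a ∈ G.A)
    (hσA' : ∀ a : K₀, a ∈ G.A → (σ₀.symm : K₀ ≃+* K₀) a ∈ G.A)
    (hσπ : ∀ a : G.A, G.π (s34m_sigmaA G (σ₀ : K₀ ≃+* K₀) hσA a) = G.π a)
    (w : s34m_F K₀ (M * q))
    (hC : s34f_ChartContract G.A (s34m_VV G φ M q hq hqM) (s34c_const_mem_VV G φ M q hq hqM) G.ϖ
      (s18_chart1 (L₀ := K₀) w) (arithmeticGalois (modularFunctionFieldFull (M * q)) σ₀))
    (k : ℕ) (f₀ : s34m_F K₀ (M * q)) (hf₀ : f₀ ≠ 0)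
    (hdiv : ∀ Q : Place K₀ (s34m_F K₀ (M * q)), ((q ^ k : ℕ) : ℤ) ∣ Q.ord f₀)
    (hdeg : ∀ Q ∈ s18_chart1 (L₀ := K₀) w, Q.ord f₀ ≠ 0 → Q.deg = 1) :
    ∃ (b : s34m_F K₀ (M * q)) (c₀ : (↥G.A)ˣ), b ≠ 0 ∧
      s33u_fd (arithmeticGalois (modularFunctionFieldFull (M * q)) σ₀) f₀ /
        (s33u_cst G.A (c₀ : G.A) * b ^ q ^ k) ≠ 0 ∧
      (∃ y ∈ s34x_infRing (s34m_VV G φ M q hq hqM),
        s33u_fd (arithmeticGalois (modularFunctionFieldFull (M * q)) σ₀) f₀ /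
          (s33u_cst G.A (c₀ : G.A) * b ^ q ^ k) - 1 =
          algebraMap K₀ (s34m_F K₀ (M * q)) ((G.ϖ : G.A) : K₀) * y) ∧
      ∀ 𝔫 : Ideal (s34x_ring (s34x_infRing (s34m_VV G φ M q hq hqM))
          (s18_chart1 (L₀ := K₀) w)), 𝔫.IsMaximal →
        s34x_const (s34x_infRing (s34m_VV G φ M q hq hqM))
          (s18_chart1 (L₀ := K₀) w) ((G.ϖ : G.A) : K₀)
          (s34x_inf_const_mem (s34m_VV G φ M q hq hqM) G.A (s34c_const_mem_VV G φ M q hq hqM)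
            G.ϖ) ∈ 𝔫 →
        ∀ Q ∈ s18_chart1 (L₀ := K₀) w,
          s34f_through (s34x_infRing (s34m_VV G φ M q hq hqM))
            (s18_chart1 (L₀ := K₀) w) 𝔫 Q →
          Q.ord (s33u_fd (arithmeticGalois (modularFunctionFieldFull (M * q)) σ₀) f₀ /
            (s33u_cst G.A (c₀ : G.A) * b ^ q ^ k)) = 0 := by
  classical
  haveI : Fact q.Prime := ⟨hq⟩
  have hirr : Irreducible G.ϖ := by
    have hker : RingHom.ker G.π = Ideal.span {G.ϖ} := by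
      ext x
      rw [RingHom.mem_ker, G.π_eq_zero_iff, Ideal.mem_span_singleton]
    have hprime : (Ideal.span {G.ϖ}).IsPrime := hker ▸ RingHom.ker_isPrime G.π
    exact ((Ideal.span_singleton_prime G.ϖ_ne_zero).mp hprime).irreducible
  set gσ : SemilinearAut K₀ (s34m_F K₀ (M * q)) :=
    arithmeticGalois (modularFunctionFieldFull (M * q)) σ₀ with hgσ
  have hsymm : ∀ y : s34m_F K₀ (M * q),
      arithmeticRingAut (modularFunctionFieldFull (M * q)) σ₀.symm (gσ • y) = y := by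
    intro y
    have h1 : arithmeticGalois (modularFunctionFieldFull (M * q)) σ₀.symm • (gσ • y) = y := by
      rw [hgσ, ← mul_smul, ← map_mul]
      have : σ₀.symm * σ₀ = 1 := by
        ext a
        exact σ₀.symm_apply_apply a
      rw [this, map_one, one_smul]
    exact h1
  obtain ⟨t, ht0, c₀, hnorm⟩ := s33u_exists_normalise G σ₀ hσA hσπ φ M q hq hqM hσA' k f₀ hf₀
  obtain ⟨a, ha0, hF0, hF1, hFQ⟩ := s33u_unip_chart_F_mul (ι := Bool) G.A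
    (s34m_VV G φ M q hq hqM) (s34c_const_mem_VV G φ M q hq hqM) G.ϖ hirr
    (fun i => s34f_unif_not_unit_VV G φ M q hq hqM i)
    (fun i y => s34c_hU_VV G φ M q hq hqM i y) gσ
    (fun i y => ⟨fun hy => s34m_galois_mem_VV G φ M q σ₀ hσA hσπ hq hqM i hy, fun hy => by
      have := s34m_galois_mem_VV G φ M q σ₀.symm hσA'
        (s34m_symm_res G σ₀ hσA hσA' hσπ) hq hqM i hy
      rw [hsymm] at this
      exact this⟩)
    (fun i y hy => s34m_galois_sub_mem_VV G φ M q σ₀ hσA hσπ hq hqM i hy)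
    (fun i U hU => s33u_hfd_VV G φ M q hq hqM σ₀ hσA hσA' hσπ i U hU)
    (s18_chart1 (L₀ := K₀) w) hC (q ^ k)
    (pow_ne_zero k hq.ne_zero) (fun c c' h => s33u_hroot G q k c c' h)
    f₀ hf₀ hdiv hdeg t ht0 c₀ hnorm
  have hfdt0 : s33u_fd gσ t ≠ 0 := s33u_fd_ne_zero gσ ht0
  have hc0 := s33u_cst_unit_ne_zero (𝓕 := s34m_F K₀ (M * q)) G.A c₀
  have hfdf0 : s33u_fd gσ f₀ ≠ 0 := s33u_fd_ne_zero gσ hf₀
  have hrw : s33u_fd gσ (f₀ * t ^ q ^ k) / (s33u_cst G.A (c₀ : G.A) * a ^ q ^ k) =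
      s33u_fd gσ f₀ / (s33u_cst G.A (c₀ : G.A) * (a / s33u_fd gσ t) ^ q ^ k) := by
    rw [s33u_fd_mul, s33u_fd_pow, div_pow]
    have h2 : s33u_fd gσ t ^ q ^ k ≠ 0 := pow_ne_zero _ hfdt0
    have h3 : a ^ q ^ k ≠ 0 := pow_ne_zero _ ha0
    field_simp
  rw [hrw] at hF0 hF1 hFQ
  exact ⟨a / s33u_fd gσ t, c₀, div_ne_zero ha0 hfdt0, hF0, hF1, hFQ⟩

/-- **The chart contract for chart 1 of `t`** (`q`-expansion `t₂`; `q = 3`, `2 ∣ M`). -/
theorem s33n_chartContract_t2 (M q : ℕ) [NeZero M] [NeZero q] (hq : q.Prime) (hqM : ¬ q ∣ M)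
    (hq3 : q = 3) (h2M : 2 ∣ M)
    (K₀ : Type) [Field K₀] [NumberField K₀] (φ : K₀ →+* Qbar)
    (κ : Type) [Field κ] [CharP κ q] [PerfectField κ]
    (G : s18g_GaussData K₀ κ) [IsDiscreteValuationRing G.A] (hπ : Function.Surjective G.π)
    (σ₀ : K₀ ≃ₐ[ℚ] K₀)
    (t : s34m_F K₀ (M * q)) (ht : (t : HahnSeries ℤ K₀) = s18u_t2 K₀) :
    s34f_ChartContract G.A (s34m_VV G φ M q hq hqM) (s34c_const_mem_VV G φ M q hq hqM) G.ϖ
      (s18_chart1 (L₀ := K₀) t) (arithmeticGalois (modularFunctionFieldFull (M * q)) σ₀) := by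
  have hq2 : q ≠ 2 := by omega
  obtain ⟨tM, htM, ⟨hwV, hred⟩, hwinvV, hgen, hgeninv, hαcoe, hw0, hgenN, hwO, hwO', hfix, hα,
    hα'⟩ := s34m_base_t2 G φ M q hq hqM h2M hq2
  haveI := hgen
  haveI := hgenN
  have htα : heckeAlphaBar K₀ M q tM = t := Subtype.ext (hαcoe.trans ht.symm)
  subst htα
  exact s34f_chartContract_w1 G φ M q hq hqM _ hwO hα σ₀ (hfix σ₀)
    (s34d_elem_t2_1 M q hq hqM K₀ φ κ G hπ hq3 h2M tM htM hwV hred)

/-- **[UNIP-K], modular instance at level `M q`, `q = 3`, `2 ∣ M`** (chart of `t₂`). -/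
theorem s33n_unip_nf_t2 (M q : ℕ) [NeZero M] [NeZero q] (hq : q.Prime) (hqM : ¬ q ∣ M)
    (hq3 : q = 3) (h2M : 2 ∣ M)
    (K₀ : Type) [Field K₀] [NumberField K₀] (φ : K₀ →+* Qbar)
    (κ : Type) [Field κ] [CharP κ q] [PerfectField κ]
    (G : s18g_GaussData K₀ κ) [IsDiscreteValuationRing G.A] (hπ : Function.Surjective G.π)
    (σ₀ : K₀ ≃ₐ[ℚ] K₀)
    (hσA : ∀ a : K₀, a ∈ G.A → (σ₀ : K₀ ≃+* K₀) a ∈ G.A)
    (hσA' : ∀ a : K₀, a ∈ G.A → (σ₀.symm : K₀ ≃+* K₀) a ∈ G.A)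
    (hσπ : ∀ a : G.A, G.π (s34m_sigmaA G (σ₀ : K₀ ≃+* K₀) hσA a) = G.π a)
    (t : s34m_F K₀ (M * q)) (ht : (t : HahnSeries ℤ K₀) = s18u_t2 K₀)
    (k : ℕ) (f₀ : s34m_F K₀ (M * q)) (hf₀ : f₀ ≠ 0)
    (hdiv : ∀ Q : Place K₀ (s34m_F K₀ (M * q)), ((q ^ k : ℕ) : ℤ) ∣ Q.ord f₀)
    (hdeg : ∀ Q ∈ s18_chart1 (L₀ := K₀) t, Q.ord f₀ ≠ 0 → Q.deg = 1) :
    ∃ (b : s34m_F K₀ (M * q)) (c₀ : (↥G.A)ˣ), b ≠ 0 ∧
      s33u_fd (arithmeticGalois (modularFunctionFieldFull (M * q)) σ₀) f₀ /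
        (s33u_cst G.A (c₀ : G.A) * b ^ q ^ k) ≠ 0 ∧
      (∃ y ∈ s34x_infRing (s34m_VV G φ M q hq hqM),
        s33u_fd (arithmeticGalois (modularFunctionFieldFull (M * q)) σ₀) f₀ /
          (s33u_cst G.A (c₀ : G.A) * b ^ q ^ k) - 1 =
          algebraMap K₀ (s34m_F K₀ (M * q)) ((G.ϖ : G.A) : K₀) * y) ∧
      ∀ 𝔫 : Ideal (s34x_ring (s34x_infRing (s34m_VV G φ M q hq hqM))
          (s18_chart1 (L₀ := K₀) t)), 𝔫.IsMaximal →
        s34x_const (s34x_infRing (s34m_VV G φ M q hq hqM))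
          (s18_chart1 (L₀ := K₀) t) ((G.ϖ : G.A) : K₀)
          (s34x_inf_const_mem (s34m_VV G φ M q hq hqM) G.A (s34c_const_mem_VV G φ M q hq hqM)
            G.ϖ) ∈ 𝔫 →
        ∀ Q ∈ s18_chart1 (L₀ := K₀) t,
          s34f_through (s34x_infRing (s34m_VV G φ M q hq hqM))
            (s18_chart1 (L₀ := K₀) t) 𝔫 Q →
          Q.ord (s33u_fd (arithmeticGalois (modularFunctionFieldFull (M * q)) σ₀) f₀ /
            (s33u_cst G.A (c₀ : G.A) * b ^ q ^ k)) = 0 :=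
  s33n_unip_nf_w M q hq hqM K₀ φ κ G σ₀ hσA hσA' hσπ t
    (s33n_chartContract_t2 M q hq hqM hq3 h2M K₀ φ κ G hπ σ₀ t ht) k f₀ hf₀ hdiv hdeg

end Fermat.Agent.Lib.S33
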